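import Fermat.Agent.LTF.DeepGrp
import Fermat.Agent.LTF.Sel.Defs
import Fermat.Agent.Frob.Chebotarev
import Fermat.Agent.GalRep.Cyclo
import Fermat.Prelude.Def_GaloisRep_ComplexConjugation

set_option autoImplicit false

/-!
# Chebotarev for the deep choice of auxiliary primes (LTFREE, C0)
-/

namespace Fermat.Agent.LTF.Deep

open Matrix Filter Topology
open scoped Pointwise
open Fermat.Agent.FrobDensity
open Fermat.Agent.S53norm (GQ M2)

/-- Chebotarev for one element: there is a Frobenius element which agrees with `σ` on `L`, at a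
place unramified in `L` and outside a given finite set of primes. -/
theorem exists_frob_eq_on (L : IntermediateField ℚ (AlgebraicClosure ℚ)) [FiniteDimensional ℚ L]
    (σ : GQ) (S : Finset ℕ) :
    ∃ q : ℕ, q.Prime ∧ q ∉ S ∧ ∃ A : ValuationSubring (AlgebraicClosure ℚ), A.LiesOverPrime q ∧
      (∀ τ ∈ A.inertiaSubgroupIn ℚ, ∀ x ∈ L, τ x = x) ∧
      ∃ φ : GQ, A.IsFrobeniusAt φ q ∧ ∀ x ∈ L, φ x = σ x := by
  let L' := IntermediateField.normalClosure ℚ L (AlgebraicClosure ℚ)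
  have hfin : FiniteDimensional ℚ L' := normalClosure.is_finiteDimensional ℚ L _
  have hnorm : Normal ℚ L' := normalClosure.normal ℚ L _
  have hgal : IsGalois ℚ L' := ⟨⟩
  have hLL : L ≤ L' := IntermediateField.le_normalClosure L
  set ψ : GQ →* (L' ≃ₐ[ℚ] L') := AlgEquiv.restrictNormalHom L' with hψ
  have hsurj : Function.Surjective ψ :=
    AlgEquiv.restrictNormalHom_surjective (AlgebraicClosure ℚ)
  have key : ∀ (τ τ' : GQ), ψ τ = ψ τ' → ∀ x ∈ L', τ x = τ' x := by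
    intro τ τ' hττ' x hx
    have h1 := AlgEquiv.restrictNormal_commutes τ L' ⟨x, hx⟩
    have h2 := AlgEquiv.restrictNormal_commutes τ' L' ⟨x, hx⟩
    have h3 : τ.restrictNormal L' = τ'.restrictNormal L' := hττ'
    rw [h3] at h1
    exact h1.symm.trans h2
  have key' : ∀ (τ τ' : GQ), (∀ x ∈ L', τ x = τ' x) → ψ τ = ψ τ' := by
    intro τ τ' h
    ext x
    have h1 := AlgEquiv.restrictNormal_commutes τ L' x
    have h2 := AlgEquiv.restrictNormal_commutes τ' L' x
    exact (h1.trans (h _ x.2)).trans h2.symm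
  let C : Set (L' ≃ₐ[ℚ] L') := {g | ∃ x, g = x * ψ σ * x⁻¹}
  have hC : ∀ g c, c ∈ C → g * c * g⁻¹ ∈ C := by
    rintro g _ ⟨x, rfl⟩
    exact ⟨g * x, by group⟩
  have hcheb := chebotarev_PS ψ hsurj ⟨L', hfin, fun τ hτ => by
    have := key' τ 1 (fun x hx => by rw [hτ x hx]; rfl)
    rw [this, map_one]⟩ C hC
  obtain ⟨T, hT⟩ := exists_unram L'
  -- infinitely many primes
  have hex : ∃ q : ℕ, q.Prime ∧ q ∉ S ∪ T ∧ q ∈ FrobIn ψ C := by
    by_contra hcon
    push Not at hcon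
    classical
    obtain ⟨B, hB⟩ := exists_PS_sub_le (a := fun p => if p ∈ FrobIn ψ C then 1 else 0)
      (b := fun _ => 0) (C := 1)
      (fun n => by split_ifs <;> simp) (fun n => by simp) (T := S ∪ T) (by
        intro p hp hpT
        simp only [hcon p hp hpT, if_false])
    have h5 : Tendsto (fun s : ℝ => PS (fun p => if p ∈ FrobIn ψ C then 1 else 0) s /
        Real.log (1 / (s - 1))) (𝓝[>] 1) (𝓝 0) := by
      refine squeeze_zero_norm' (a := fun s => B / Real.log (1 / (s - 1))) ?_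
        (tendsto_log_atTop.const_div_atTop B)
      filter_upwards [self_mem_nhdsWithin, tendsto_log_atTop.eventually_gt_atTop 0] with s h1 h2
      have h3 := hB s h1
      have h4 : PS (fun _ => (0 : ℝ)) s = 0 := by
        unfold PS
        simp
      rw [h4, sub_zero] at h3
      rw [norm_div, Real.norm_eq_abs, Real.norm_eq_abs, abs_of_pos h2]
      exact div_le_div_of_nonneg_right h3 h2.le
    have h6 := tendsto_nhds_unique hcheb h5
    have h7 : (0 : ℝ) < (Nat.card C : ℝ) / Nat.card (L' ≃ₐ[ℚ] L') := by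
      have : Nonempty C := ⟨⟨ψ σ, 1, by group⟩⟩
      have h8 : 0 < Nat.card C := Nat.card_pos
      have h9 : 0 < Nat.card (L' ≃ₐ[ℚ] L') := Nat.card_pos
      positivity
    exact h7.ne' h6
  obtain ⟨q, hq, hqS, hq', A, hA, hI, φ, hφ, x, hx⟩ := hex
  obtain ⟨g, rfl⟩ := hsurj x
  rw [Finset.mem_union, not_or] at hqS
  refine ⟨q, hq, hqS.1, g⁻¹ • A, liesOverPrime_smul hA, ?_, g⁻¹ * φ * g⁻¹⁻¹, isFrobeniusAt_conj hφ,
    ?_⟩
  · intro τ hτ y hy
    exact (hT q hq hqS.2 _ (liesOverPrime_smul hA)).1 τ hτ y (hLL hy)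
  · intro y hy
    refine key _ _ ?_ y (hLL hy)
    rw [map_mul, map_mul, hx, inv_inv, map_inv]
    group

/-- complex conjugation inverts roots of unity -/
theorem complexConjugation_root {m : ℕ} (hm : m ≠ 0) {μ : AlgebraicClosure ℚ} (hμ : μ ^ m = 1) :
    complexConjugation μ = μ ^ (m - 1) := by
  have h0 : complexEmbedding (complexConjugation μ) = complexEmbedding (μ ^ (m - 1)) := by
    rw [complexEmbedding_complexConjugation, map_pow]
    have h1 : (complexEmbedding μ) ^ m = 1 := by rw [← map_pow, hμ, map_one]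
    have h2 : ‖complexEmbedding μ‖ = 1 := Complex.norm_eq_one_of_pow_eq_one h1 hm
    have h3 : complexEmbedding μ ≠ 0 := by
      rintro h
      rw [h, zero_pow hm] at h1
      exact zero_ne_one h1
    have h4 : starRingEnd ℂ (complexEmbedding μ) = (complexEmbedding μ)⁻¹ := by
      rw [Complex.inv_def, Complex.normSq_eq_norm_sq, h2]
      simp
    rw [h4]
    apply mul_right_cancel₀ h3
    rw [inv_mul_cancel₀ h3, ← pow_succ, Nat.sub_add_cancel (Nat.pos_of_ne_zero hm), h1]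
  exact complexEmbedding.toRingHom.injective h0

variable {n : ℕ} (hn : n ≠ 0) (r : GQ →* M2 (ZMod (2 ^ n)))

/-- Chebotarev for a pair (representation, cocycle). -/
theorem exists_frob_pair
    (hrL : ∃ L : IntermediateField ℚ (AlgebraicClosure ℚ), FiniteDimensional ℚ L ∧
      ∀ σ : GQ, Sel.Fixes L σ → r σ = 1)
    (e : GQ → (Fin 2 → ZMod 2)) (hes : Sel.SmoothFn e)
    (he : ∀ g h, e (g * h) = e g + red2 hn (r g) *ᵥ e h) (S : Finset ℕ) (g₀ : GQ) :
    ∃ q : ℕ, q.Prime ∧ q ∉ S ∧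
      ∃ A : ValuationSubring (AlgebraicClosure ℚ), A.LiesOverPrime q ∧
        (∀ σ ∈ A.inertiaSubgroupIn ℚ, r σ = 1 ∧ e σ = 0) ∧
        ∃ φ : GQ, A.IsFrobeniusAt φ q ∧ r φ = r g₀ ∧ e φ = e g₀ := by
  obtain ⟨L, hL, hr⟩ := hrL
  obtain ⟨L', hL', he'⟩ := hes
  have hfin : FiniteDimensional ℚ (L ⊔ L' : IntermediateField ℚ (AlgebraicClosure ℚ)) :=
    IntermediateField.finiteDimensional_sup L L'
  have h1 : e 1 = 0 := by
    have := he 1 1
    rw [mul_one, map_one, map_one, Matrix.one_mulVec] at this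
    exact (add_eq_left.1 this.symm)
  obtain ⟨q, hq, hqS, A, hA, hI, φ, hφ, hφ'⟩ := exists_frob_eq_on (L ⊔ L') g₀ S
  refine ⟨q, hq, hqS, A, hA, fun σ hσ => ⟨?_, ?_⟩, φ, hφ, ?_, ?_⟩
  · exact hr σ fun x hx => hI σ hσ x ((le_sup_left : L ≤ L ⊔ L') hx)
  · have h2 := he' 1 σ (fun x hx => hI σ hσ x ((le_sup_right : L' ≤ L ⊔ L') hx))
    rw [one_mul, h1] at h2
    exact h2
  · have h2 : r (g₀⁻¹ * φ) = 1 := hr _ fun x hx => by
      rw [AlgEquiv.mul_apply, hφ' x ((le_sup_left : L ≤ L ⊔ L') hx), ← AlgEquiv.mul_apply,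
        inv_mul_cancel, AlgEquiv.one_apply]
    calc r φ = r (g₀ * (g₀⁻¹ * φ)) := by rw [mul_inv_cancel_left]
      _ = r g₀ := by rw [map_mul, h2, mul_one]
  · have h2 := he' g₀ (g₀⁻¹ * φ) (fun x hx => by
      rw [AlgEquiv.mul_apply, hφ' x ((le_sup_right : L' ≤ L ⊔ L') hx), ← AlgEquiv.mul_apply,
        inv_mul_cancel, AlgEquiv.one_apply])
    rwa [mul_inv_cancel_left] at h2

/-- **The deep choice of an auxiliary prime** (C0): `r` = the representation on `W'[2ⁿ]`, `e` a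
cocycle with values in `W'[2]`, not a coboundary, satisfying the local condition at an element `τ`
with `r τ` unipotent, non trivial mod `2`.  Outside any finite set of primes there is a prime `q`
with a Frobenius acting as complex conjugation on `W'[2ⁿ]`, such that `e` does not satisfy the
local condition at `q`. -/
theorem exists_deep_prime
    (hrL : ∃ L : IntermediateField ℚ (AlgebraicClosure ℚ), FiniteDimensional ℚ L ∧
      ∀ σ : GQ, Sel.Fixes L σ → r σ = 1)
    (hsurj : ∀ m : M2 (ZMod 2), m.det = 1 → ∃ g, red2 hn (r g) = m)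
    {τ : GQ} (hτ : (r τ - 1) * (r τ - 1) = 0) (hτ2 : red2 hn (r τ) ≠ 1) (hd : (r τ).det = 1)
    (hc : red2 hn (r complexConjugation) ≠ 1)
    (e : GQ → (Fin 2 → ZMod 2)) (hes : Sel.SmoothFn e)
    (he : ∀ g h, e (g * h) = e g + red2 hn (r g) *ᵥ e h)
    (hτe : red2 hn (r τ) *ᵥ e τ = e τ)
    (hne : ¬ ∃ x, ∀ g, e g = red2 hn (r g) *ᵥ x - x) (S : Finset ℕ) :
    ∃ q : ℕ, q.Prime ∧ q ∉ S ∧
      ∃ A : ValuationSubring (AlgebraicClosure ℚ), A.LiesOverPrime q ∧
        (∀ σ ∈ A.inertiaSubgroupIn ℚ, r σ = 1 ∧ e σ = 0) ∧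
        ∃ φ : GQ, A.IsFrobeniusAt φ q ∧ r φ = r complexConjugation ∧
          red2 hn (r φ) *ᵥ e φ ≠ e φ := by
  obtain ⟨w, hw⟩ : ∃ w, red2 hn (r complexConjugation) *ᵥ w ≠ w := by
    by_contra hcon
    push Not at hcon
    apply hc
    have h1 : ∀ m : M2 (ZMod 2), (∀ w, m *ᵥ w = w) → m = 1 := by decide
    exact h1 _ hcon
  obtain ⟨g₀, hg₀, hg₀w⟩ := exists_eq_of_not_coboundary hn r hsurj hτ hτ2 hd e he hτe hne
    complexConjugation w
  obtain ⟨q, hq, hqS, A, hA, hI, φ, hφ, h1, h2⟩ := exists_frob_pair hn r hrL e hes he S g₀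
  refine ⟨q, hq, hqS, A, hA, hI, φ, hφ, h1.trans hg₀, ?_⟩
  rw [h1, hg₀, h2, hg₀w]
  exact hw

/-- If a Frobenius at `q` acts as complex conjugation on `W'[2ⁿ]` and the determinant is
cyclotomic then `q ≡ -1 mod 2ⁿ`. -/
theorem two_pow_dvd_succ (hdet : ∀ (σ : GQ) (a : ℕ),
      (∀ μ : AlgebraicClosure ℚ, μ ^ 2 ^ n = 1 → σ μ = μ ^ a) → (r σ).det = a)
    {q : ℕ} (hq : q.Prime) (hq2 : q ≠ 2)
    {A : ValuationSubring (AlgebraicClosure ℚ)} (hA : A.LiesOverPrime q) {φ : GQ}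
    (hφ : A.IsFrobeniusAt φ q) (h : r φ = r complexConjugation) : 2 ^ n ∣ q + 1 := by
  have hcop : Nat.Coprime q (2 ^ n) :=
    Nat.Coprime.pow_right _ ((Nat.coprime_primes hq Nat.prime_two).2 hq2)
  have h2 : (2 : ℕ) ^ n ≠ 0 := pow_ne_zero _ two_ne_zero
  have h3 := hdet φ q fun μ hμ => GalRep.frobenius_rootOfUnity hA hcop h2 hφ hμ
  have h4 := hdet complexConjugation (2 ^ n - 1) fun μ hμ => complexConjugation_root h2 hμ
  rw [h, h4, Nat.cast_sub (Nat.pos_of_ne_zero h2), ZMod.natCast_self, Nat.cast_one] at h3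
  rw [← ZMod.natCast_eq_zero_iff, Nat.cast_add, Nat.cast_one, ← h3]
  ring

end Fermat.Agent.LTF.Deep
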