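import Fermat.Agent.LTF.Loc2Flat
import Fermat.Agent.LTF.Gal.Defs
import Fermat.Agent.FlatGS.FromTransfer
import Fermat.Agent.GalRep.Transfer
import Fermat.Agent.GalRep.Density
import Fermat.Agent.HopfFrame.FlatJZero
import Fermat.Agent.Cofaith.ES
import Fermat.Agent.S35_Separate
import Fermat.Agent.S37

set_option autoImplicit false
set_option linter.style.haveILetI false

/-!
# Newness at `2`: a character of `T(2m)`, `m` odd, whose residual representation is `W[2]` with `W`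
of multiplicative reduction and odd discriminant valuation at `2`, does not factor through `T(m)`.
-/

noncomputable section

namespace Fermat.Agent.LTF

open ModularCurve AlgebraicCurve Polynomial CuspForm IsLocalRing
open Fermat.Agent.GalRep (ESInput HasFrobCharpoly HeckeAlgS inclS evS)
open Fermat.Agent.S53norm (GQ M2)

section Factor

/-- Factorisation of a character through a lower level. -/
theorem exists_factor_evS {N m : ℕ} [NeZero N] [NeZero m] {S : Set ℕ} {O : Type*} [CommRing O]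
    (π : heckeAlgebra N 2 S →+* O)
    (h : ∀ t : HeckeAlgS S, evS m S t = 0 → π (evS N S t) = 0) :
    ∃ π' : heckeAlgebra m 2 S →+* O, ∀ t, π' (evS m S t) = π (evS N S t) :=
  ⟨RingHom.liftOfSurjective (evS m S : HeckeAlgS S →+* heckeAlgebra m 2 S)
    (S35aux.evS_surjective m S)
    ⟨π.comp (evS N S : HeckeAlgS S →+* heckeAlgebra N 2 S), fun t ht => h t ht⟩,
    fun _ => RingHom.liftOfRightInverse_comp_apply _ _ _ _ _⟩

theorem hasFrobCharpoly_factor {N m : ℕ} [NeZero N] [NeZero m] {S : Finset ℕ}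
    {O : Type} [CommRing O] [IsLocalRing O]
    (hNS : ∀ q : ℕ, q.Prime → q ∣ N → q ∈ S) {π : heckeAlgebra N 2 (↑S : Set ℕ) →+* O}
    {π' : heckeAlgebra m 2 (↑S : Set ℕ) →+* O} {ρ : GaloisRepAdic O}
    (hfrob : HasFrobCharpoly π ρ)
    (h : ∀ t, π' (evS m (↑S : Set ℕ) t) = π (evS N (↑S : Set ℕ) t)) : HasFrobCharpoly π' ρ := by
  intro ℓ hℓ hℓm hℓS A hA σ hσ
  have hℓN : ¬ ℓ ∣ N := fun hd => hℓS (by exact_mod_cast hNS ℓ hℓ hd)
  rw [hfrob ℓ hℓ hℓN hℓS A hA σ hσ]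
  have h1 := h (MvPolynomial.X ⟨⟨ℓ, hℓ⟩, hℓS⟩)
  rw [GalRep.evS_X_of_not_dvd _ _ _ hℓm, GalRep.evS_X_of_not_dvd _ _ _ hℓN] at h1
  rw [h1]

end Factor

/-- A character of the Hecke algebra of level prime to `p` has a flat representation at `p`. -/
theorem isFlatAt_of_level {m p : ℕ} [NeZero m] (hp : p.Prime) (hm : ¬ p ∣ m) {S : Finset ℕ}
    {O : Type} [CommRing O] [IsLocalRing O] [IsNoetherianRing O] [Finite (ResidueField O)]
    (hpO : (p : O) ∈ maximalIdeal O) (hpS : p ∈ S)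
    (hmS : ∀ q : ℕ, q.Prime → q ∣ m → q ∈ S)
    {π : heckeAlgebra m 2 (↑S : Set ℕ) →+* O} {ρ : GaloisRepAdic O}
    (hfrob : HasFrobCharpoly π ρ) (habs : ρ.residual.IsAbsolutelyIrreducible) :
    ρ.IsFlatAt p := by
  letI := heckeModuleBar m
  haveI := Fermat.Agent.Cofaith.smulCommClass_JZero m
  haveI : Fact p.Prime := ⟨hp⟩
  refine Fermat.Agent.FlatGS.isFlatAt_of_transfer ρ inferInstance hpO (J := JZero m)
    (fun k => Fermat.Agent.HopfFrame.isFlatModule_actT hp hm k) ?_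
  intro n
  exact GalRep.transfer GalRep.frobeniusDensity
    (Fermat.Agent.Cofaith.esInput_JZero m hp (↑S : Set ℕ)
      (fun ℓ hℓ hd => by simpa using hmS ℓ hℓ hd)
      (Fermat.Agent.S37.result m p (Fermat.Agent.HeckeComm.heckeOperatorsCommuteBar m)
        (Fermat.Agent.Cofaith.smulCommClass_JZero m))) hp hpS hmS hfrob habs n

section Residual

variable {O : Type} [CommRing O] [IsLocalRing O] [IsNoetherianRing O] {ρ : GaloisRepAdic O}
  {rbar : GQ →* M2 (ZMod 2)}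

/-- the trace congruence -/
def TraceRed (ρ : GaloisRepAdic O) (rbar : GQ →* M2 (ZMod 2)) : Prop :=
  ∀ σ : GQ, LinearMap.trace O ρ.V (ρ.ρ σ) - (((rbar σ).trace.val : ℕ) : O) ∈ maximalIdeal O

omit [IsNoetherianRing O] in
theorem TraceRed.of_cases (h0 : ∀ σ : GQ, (rbar σ).trace = 0 →
      LinearMap.trace O ρ.V (ρ.ρ σ) ∈ maximalIdeal O)
    (h1 : ∀ σ : GQ, (rbar σ).trace = 1 → LinearMap.trace O ρ.V (ρ.ρ σ) - 1 ∈ maximalIdeal O) :
    TraceRed ρ rbar := by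
  intro σ
  have hv : ∀ a : ZMod 2, a = 0 ∨ a = 1 := by decide
  have e0 : (0 : ZMod 2).val = 0 := rfl
  have e1 : (1 : ZMod 2).val = 1 := rfl
  rcases hv (rbar σ).trace with h | h
  · rw [h, e0, Nat.cast_zero, sub_zero]; exact h0 σ h
  · rw [h, e1, Nat.cast_one]; exact h1 σ h

omit [IsNoetherianRing O] in
theorem TraceRed.of_mat {r : GQ → M2 O} (hr : S53norm.HasMat (ρ.ρ : GQ → _) r)
    (h : ∀ σ : GQ, (r σ).trace - (((rbar σ).trace.val : ℕ) : O) ∈ maximalIdeal O) :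
    TraceRed ρ rbar := by
  intro σ
  obtain ⟨e, he⟩ := hr
  have h1 : LinearMap.trace O ρ.V (ρ.ρ σ) = (r σ).trace := by
    rw [← LinearMap.trace_conj' (ρ.ρ σ) e, RTD.conj_eq_toLin' (ρ := (ρ.ρ : GQ → _)) e he,
      Matrix.trace_toLin'_eq]
  rw [h1]
  exact h σ

theorem sub_mem_of_rbar_eq_one (habs : ρ.residual.IsAbsolutelyIrreducible)
    (htr : TraceRed ρ rbar) {h : GQ} (hh : rbar h = 1) (v : ρ.V) :
    ρ.ρ h v - v ∈ (maximalIdeal O) • (⊤ : Submodule O ρ.V) := by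
  have hX : ∀ X : Module.End O ρ.V,
      LinearMap.trace O ρ.V ((ρ.ρ h - 1) * X) ∈ maximalIdeal O := by
    intro X
    have hX : X ∈ Submodule.span O (Set.range ρ.ρ) := by
      rw [GalRep.span_range_eq_top ρ habs]; trivial
    induction hX using Submodule.span_induction with
    | mem x hx =>
      obtain ⟨g, rfl⟩ := hx
      rw [sub_mul, one_mul, map_sub, ← map_mul]
      have h1 := htr (h * g)
      have h2 := htr g
      rw [map_mul rbar, hh, one_mul] at h1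
      have h3 := Ideal.sub_mem _ h1 h2
      rwa [sub_sub_sub_cancel_right] at h3
    | zero => simp
    | add x y _ _ hx hy => rw [mul_add, map_add]; exact Ideal.add_mem _ hx hy
    | smul c x _ hx =>
      rw [mul_smul_comm, map_smul, smul_eq_mul]
      exact Ideal.mul_mem_left _ _ hx
  have h4 := GalRep.mem_smul_top_of_trace _ (ρ.ρ h - 1) hX v
  simpa using h4

omit [IsNoetherianRing O] in
theorem trace_mem_of_forall {F : Module.End O ρ.V}
    (hF : ∀ v, F v ∈ (maximalIdeal O) • (⊤ : Submodule O ρ.V)) (X : Module.End O ρ.V) :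
    LinearMap.trace O ρ.V (F * X) ∈ maximalIdeal O := by
  classical
  set b := Module.Free.chooseBasis O ρ.V with hb
  rw [LinearMap.trace_eq_matrix_trace O b]
  refine Ideal.sum_mem _ fun i _ => ?_
  rw [Matrix.diag_apply, LinearMap.toMatrix_apply, Module.End.mul_apply]
  have h1 : (b.coord i) (F (X (b i))) ∈ Submodule.map (b.coord i)
      ((maximalIdeal O) • (⊤ : Submodule O ρ.V)) := ⟨_, hF _, rfl⟩
  rw [Submodule.map_smul''] at h1
  have h2 : (maximalIdeal O) • (Submodule.map (b.coord i) ⊤) ≤ maximalIdeal O := by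
    rw [Submodule.smul_le]
    intro r hr n _
    rw [smul_eq_mul]
    exact Ideal.mul_mem_right _ _ hr
  exact h2 h1

/-- `decide` fact -/
theorem exists_trace_ne_two : ∀ g : Matrix (Fin 2) (Fin 2) (ZMod 2), g.det = 1 → g ≠ 1 →
    ∃ x : Matrix (Fin 2) (Fin 2) (ZMod 2), x.det = 1 ∧ (g * x).trace ≠ x.trace := by
  decide

omit [IsNoetherianRing O] in
theorem exists_not_mem_of_rbar_ne_one (hsurj : ∀ g : M2 (ZMod 2), g.det = 1 → ∃ σ, rbar σ = g)
    (hdet : ∀ σ, (rbar σ).det = 1)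
    (htr : TraceRed ρ rbar) {h : GQ} (hh : rbar h ≠ 1) :
    ∃ v : ρ.V, ρ.ρ h v - v ∉ (maximalIdeal O) • (⊤ : Submodule O ρ.V) := by
  by_contra hcon
  push Not at hcon
  obtain ⟨x, hx1, hx2⟩ := exists_trace_ne_two (rbar h) (hdet h) hh
  obtain ⟨g, rfl⟩ := hsurj x hx1
  have h1 := trace_mem_of_forall (F := ρ.ρ h - 1) (fun v => by simpa using hcon v) (ρ.ρ g)
  rw [sub_mul, one_mul, map_sub, ← map_mul] at h1
  have h2 := htr (h * g)
  have h3 := htr g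
  rw [map_mul rbar] at h2
  have h4 : (((rbar h * rbar g).trace.val : ℕ) : O) - (((rbar g).trace.val : ℕ) : O) ∈
      maximalIdeal O := by
    have h5 := Ideal.sub_mem _ h1 (Ideal.sub_mem _ h2 h3)
    convert h5 using 1
    ring
  have key : ∀ a b : ZMod 2, a ≠ b → ((a.val : ℕ) : O) - ((b.val : ℕ) : O) ∉ maximalIdeal O := by
    intro a b hab hmem
    have h0 : (1 : O) ∉ maximalIdeal O := fun h => (Ideal.ne_top_iff_one _).mp
      (Ideal.IsPrime.ne_top inferInstance) h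
    have hv : ∀ a : ZMod 2, a = 0 ∨ a = 1 := by decide
    have e0 : (0 : ZMod 2).val = 0 := rfl
    have e1 : (1 : ZMod 2).val = 1 := rfl
    rcases hv a with rfl | rfl <;> rcases hv b with rfl | rfl
    · exact hab rfl
    · rw [e0, e1, Nat.cast_zero, Nat.cast_one, zero_sub] at hmem
      exact h0 ((Ideal.neg_mem_iff _).mp hmem)
    · rw [e0, e1, Nat.cast_zero, Nat.cast_one, sub_zero] at hmem
      exact h0 hmem
    · exact hab rfl
  exact key _ _ hx2 h4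

theorem sub_mem_of_rbar_eq (habs : ρ.residual.IsAbsolutelyIrreducible)
    (htr : TraceRed ρ rbar) {g h : GQ} (hgh : rbar g = rbar h) (v : ρ.V) :
    ρ.ρ g v - ρ.ρ h v ∈ (maximalIdeal O) • (⊤ : Submodule O ρ.V) := by
  have h1 : rbar (h⁻¹ * g) = 1 := by
    rw [map_mul, hgh, ← map_mul, inv_mul_cancel, map_one]
  have h2 := sub_mem_of_rbar_eq_one habs htr h1 v
  have h3 : ρ.ρ g v - ρ.ρ h v = ρ.ρ h (ρ.ρ (h⁻¹ * g) v - v) := by
    rw [map_sub, ← Module.End.mul_apply, ← map_mul, mul_inv_cancel_left]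
  rw [h3]
  have h4 : ρ.ρ h (ρ.ρ (h⁻¹ * g) v - v) ∈
      Submodule.map (ρ.ρ h) ((maximalIdeal O) • (⊤ : Submodule O ρ.V)) := ⟨_, h2, rfl⟩
  rw [Submodule.map_smul''] at h4
  exact Submodule.smul_mono le_rfl le_top h4

theorem det_rbar (rbar : GQ →* M2 (ZMod 2)) (σ : GQ) : (rbar σ).det = 1 := by
  have h1 : (rbar σ).det * (rbar σ⁻¹).det = 1 := by
    rw [← Matrix.det_mul, ← map_mul, mul_inv_cancel, map_one, Matrix.det_one]
  have key : ∀ a b : ZMod 2, a * b = 1 → a = 1 := by decide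
  exact key _ _ h1

/-- `decide` fact -/
theorem eq_of_comm_two : ∀ g h : Matrix (Fin 2) (Fin 2) (ZMod 2), g ≠ 1 → h ≠ 1 →
    (g - 1) * (g - 1) = 0 → (g - 1) * (h - 1) = 0 → (h - 1) * (g - 1) = 0 →
    (h - 1) * (h - 1) = 0 → g = h := by
  decide

/-- `decide` fact -/
theorem sq_of_comm_two : ∀ g : Matrix (Fin 2) (Fin 2) (ZMod 2), (g - 1) * (g - 1) = 0 →
    g * g = 1 := by
  decide

/-- A representation whose residual representation is `rbar` and is very ramified at `2` is not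
flat at `2`. -/
theorem not_isFlatAt_two (habs : ρ.residual.IsAbsolutelyIrreducible)
    (h2O : ((2 : ℕ) : O) ∈ maximalIdeal O)
    (hsurj : ∀ g : M2 (ZMod 2), g.det = 1 → ∃ σ, rbar σ = g) (htr : TraceRed ρ rbar)
    {A : ValuationSubring (AlgebraicClosure ℚ)} (hA : A.LiesOverPrime 2)
    {δ : AlgebraicClosure ℚ} {D : ℚ} (hδ : δ ^ 2 = algebraMap ℚ (AlgebraicClosure ℚ) D)
    {n : ℤ} (hn : Odd n)
    (hD : (FermatAgent.ECVal.valOf Nat.prime_two hA).Is n (algebraMap ℚ (AlgebraicClosure ℚ) D))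
    (hfix : ∀ σ ∈ A.inertiaSubgroupIn ℚ, (σ δ = δ ↔ rbar σ = 1))
    (hcomm : ∀ g ∈ A.inertiaSubgroupIn ℚ, ∀ h ∈ A.inertiaSubgroupIn ℚ,
      (rbar g - 1) * (rbar h - 1) = 0)
    (hram : ∃ σ ∈ A.inertiaSubgroupIn ℚ, rbar σ ≠ 1) : ¬ ρ.IsFlatAt 2 := by
  rintro ⟨hres, hall⟩
  obtain ⟨σ₀, hσ₀, hne⟩ := hram
  obtain ⟨v₀, hv₀⟩ := exists_not_mem_of_rbar_ne_one hsurj (det_rbar rbar) htr hne
  have hfin : Finite (O ⧸ maximalIdeal O) := hres
  have hflat : Fermat.Agent.FlatGS.IsFlatModule 2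
      (M := ρ.V ⧸ ((maximalIdeal O) • (⊤ : Submodule O ρ.V)))
      (fun σ x => ρ.levelAction (maximalIdeal O) σ x) :=
    hall (maximalIdeal O) hfin
  set P : Submodule O ρ.V := (maximalIdeal O) • (⊤ : Submodule O ρ.V) with hP
  have hmk : ∀ v w : ρ.V, P.mkQ v = P.mkQ w ↔ v - w ∈ P := fun v w =>
    Submodule.Quotient.eq P
  have hact : ∀ (σ : GQ) (v : ρ.V), ρ.levelAction (maximalIdeal O) σ (P.mkQ v) =
      P.mkQ (ρ.ρ σ v) := fun σ v => rfl
  have h2P : ∀ v : ρ.V, ((2 : ℕ) : O) • v ∈ P := fun v =>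
    Submodule.smul_mem_smul h2O trivial
  have hall' : ∀ σ ∈ A.inertiaSubgroupIn ℚ, rbar σ ≠ 1 → rbar σ = rbar σ₀ := fun σ hσ h =>
    eq_of_comm_two _ _ h hne (hcomm σ hσ σ hσ) (hcomm σ hσ σ₀ hσ₀) (hcomm σ₀ hσ₀ σ hσ)
      (hcomm σ₀ hσ₀ σ₀ hσ₀)
  refine Loc2.not_isFlatModule_two (act := fun σ x => ρ.levelAction (maximalIdeal O) σ x) ?_ hA
    hδ hn hD
    (x := P.mkQ v₀) (y := P.mkQ (ρ.ρ σ₀ v₀ - v₀)) ?_ ?_ ?_ ?_ hflat
  · intro m
    obtain ⟨v, rfl⟩ := Submodule.mkQ_surjective P m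
    rw [← map_nsmul, ← Nat.cast_smul_eq_nsmul O, ← map_zero P.mkQ, hmk, sub_zero]
    exact h2P v
  · rw [← map_zero P.mkQ, Ne, hmk, sub_zero]
    exact hv₀
  · intro σ hσ
    rw [hact, hmk]
    by_cases h : rbar σ = 1
    · exact sub_mem_of_rbar_eq_one habs htr h _
    · have h1 := hall' σ hσ h
      have h2 : rbar (σ * σ₀) = 1 := by
        rw [map_mul, h1]; exact sq_of_comm_two _ (hcomm σ₀ hσ₀ σ₀ hσ₀)
      have h3 := sub_mem_of_rbar_eq_one habs htr h2 v₀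
      have h4 := sub_mem_of_rbar_eq habs htr h1 v₀
      have h5 : ρ.ρ σ (ρ.ρ σ₀ v₀ - v₀) - (ρ.ρ σ₀ v₀ - v₀) =
          (ρ.ρ (σ * σ₀) v₀ - v₀) - (ρ.ρ σ v₀ - ρ.ρ σ₀ v₀) - ((2 : ℕ) : O) • (ρ.ρ σ₀ v₀ - v₀) := by
        rw [map_sub, map_mul, Module.End.mul_apply, Nat.cast_smul_eq_nsmul, two_nsmul]
        abel
      rw [h5]
      exact P.sub_mem (P.sub_mem h3 h4) (h2P _)
  · intro σ hσ h
    rw [hact, hmk]
    exact sub_mem_of_rbar_eq_one habs htr ((hfix σ hσ).mp h) _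
  · intro σ hσ h
    rw [hact, ← map_add, add_sub_cancel, hmk]
    exact sub_mem_of_rbar_eq habs htr (hall' σ hσ fun h1 => h ((hfix σ hσ).mpr h1)) _

end Residual

section Main

variable {N m : ℕ} [NeZero N] [NeZero m] {S : Finset ℕ}
  {O : Type} [CommRing O] [IsLocalRing O] [IsNoetherianRing O] [Finite (ResidueField O)]
  {rbar : GQ →* M2 (ZMod 2)}

/-- **Newness at `2`.** -/
theorem hnew_two_of (hm : ¬ 2 ∣ m) (h2S : 2 ∈ S) (hNS : ∀ q : ℕ, q.Prime → q ∣ N → q ∈ S)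
    (hmS : ∀ q : ℕ, q.Prime → q ∣ m → q ∈ S) (h2O : ((2 : ℕ) : O) ∈ maximalIdeal O)
    {π : heckeAlgebra N 2 (↑S : Set ℕ) →+* O} {ρ : GaloisRepAdic O}
    (hfrob : HasFrobCharpoly π ρ) (habs : ρ.residual.IsAbsolutelyIrreducible)
    (hsurj : ∀ g : M2 (ZMod 2), g.det = 1 → ∃ σ, rbar σ = g) (htr : TraceRed ρ rbar)
    {A : ValuationSubring (AlgebraicClosure ℚ)} (hA : A.LiesOverPrime 2)
    {δ : AlgebraicClosure ℚ} {D : ℚ} (hδ : δ ^ 2 = algebraMap ℚ (AlgebraicClosure ℚ) D)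
    {n : ℤ} (hn : Odd n)
    (hD : (FermatAgent.ECVal.valOf Nat.prime_two hA).Is n (algebraMap ℚ (AlgebraicClosure ℚ) D))
    (hfix : ∀ σ ∈ A.inertiaSubgroupIn ℚ, (σ δ = δ ↔ rbar σ = 1))
    (hcomm : ∀ g ∈ A.inertiaSubgroupIn ℚ, ∀ h ∈ A.inertiaSubgroupIn ℚ,
      (rbar g - 1) * (rbar h - 1) = 0)
    (hram : ∃ σ ∈ A.inertiaSubgroupIn ℚ, rbar σ ≠ 1) :
    ∃ t : HeckeAlgS (↑S : Set ℕ), evS m (↑S : Set ℕ) t = 0 ∧ π (evS N (↑S : Set ℕ) t) ≠ 0 := by
  by_contra hcon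
  push Not at hcon
  obtain ⟨π', hπ'⟩ := exists_factor_evS (m := m) π hcon
  have hfrob' := hasFrobCharpoly_factor hNS hfrob hπ'
  exact not_isFlatAt_two habs h2O hsurj htr hA hδ hn hD hfix hcomm hram
    (isFlatAt_of_level Nat.prime_two hm h2O h2S hmS hfrob' habs)

/-- `decide` fact -/
theorem pow_three_iff_two : ∀ g : Matrix (Fin 2) (Fin 2) (ZMod 2), (g - 1) * (g - 1) = 0 →
    (g ^ 3 = 1 ↔ g = 1) := by
  decide

/-- **Newness at `2`**, for residual data with an odd discriminant valuation at `2`. -/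
theorem hnew_two (hm : ¬ 2 ∣ m) (h2S : 2 ∈ S) (hNS : ∀ q : ℕ, q.Prime → q ∣ N → q ∈ S)
    (hmS : ∀ q : ℕ, q.Prime → q ∣ m → q ∈ S) (h2O : ((2 : ℕ) : O) ∈ maximalIdeal O)
    {π : heckeAlgebra N 2 (↑S : Set ℕ) →+* O} {ρ : GaloisRepAdic O}
    (hfrob : HasFrobCharpoly π ρ) (habs : ρ.residual.IsAbsolutelyIrreducible)
    {S₀ : Finset ℕ} (hres : Gal.ResData S₀ rbar) (htr : TraceRed ρ rbar)
    {D : ℤ} (hodd : Odd (padicValInt 2 D))
    (hfix : ∀ (s : AlgebraicClosure ℚ), s ^ 2 = ((D : ℤ) : AlgebraicClosure ℚ) → ∀ σ : GQ,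
      (σ s = s ↔ rbar σ ^ 3 = 1)) :
    ∃ t : HeckeAlgS (↑S : Set ℕ), evS m (↑S : Set ℕ) t = 0 ∧ π (evS N (↑S : Set ℕ) t) ≠ 0 := by
  obtain ⟨A, hA⟩ := Fermat.Agent.Frob.exists_liesOverPrime 2 Nat.prime_two
  obtain ⟨δ, hδ⟩ := IsAlgClosed.exists_pow_nat_eq ((D : ℤ) : AlgebraicClosure ℚ)
    (zero_lt_two : 0 < 2)
  have hle : ∀ σ ∈ A.inertiaSubgroupIn ℚ, σ ∈ A.decompositionSubgroup ℚ := by
    rintro σ ⟨τ, -, rfl⟩
    exact τ.2
  have hcomm : ∀ g ∈ A.inertiaSubgroupIn ℚ, ∀ h ∈ A.inertiaSubgroupIn ℚ,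
      (rbar g - 1) * (rbar h - 1) = 0 := fun g hg h hh =>
    hres.comm 2 hres.two A hA g (hle g hg) h (hle h hh)
  have hD0 : D ≠ 0 := by
    rintro rfl
    simp at hodd
  have hval : (FermatAgent.ECVal.valOf Nat.prime_two hA).Is ((padicValInt 2 D : ℕ) : ℤ)
      (algebraMap ℚ (AlgebraicClosure ℚ) (D : ℚ)) := by
    have h1 := FermatAgent.ECVal.valOf_ratCast Nat.prime_two hA (r := (D : ℚ))
      (by exact_mod_cast hD0)
    rwa [padicValRat.of_int] at h1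
  refine hnew_two_of hm h2S hNS hmS h2O hfrob habs hres.surj htr hA (δ := δ) (D := (D : ℚ))
    (by rw [hδ, map_intCast]) (n := ((padicValInt 2 D : ℕ) : ℤ)) (by exact_mod_cast hodd) hval
    (fun σ hσ => ?_) hcomm (hres.ram 2 hres.two A hA)
  rw [hfix δ hδ σ]
  exact pow_three_iff_two _ (hcomm σ hσ σ hσ)

end Main

end Fermat.Agent.LTF

end
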