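import Fermat.Agent.S51_Galois
import Fermat.Agent.Torsion.FiniteLevel
import Fermat.Prelude.Def_FLTPrelim_ModularRep

/-!
# The quartic form attached to `W[3]` has no rational zero when `W[3]` is irreducible
-/

set_option autoImplicit false

namespace Fermat.Agent.LTF

open WeierstrassCurve WeierstrassCurve.Affine WeierstrassCurve.Affine.Point
open Fermat.Agent.S51tor Fermat.Agent.S51gal

/-- A rational root of `ψ₃` gives a Galois-stable line in the `3`-torsion. -/
theorem reducible_three_of_root (W : WeierstrassCurve ℚ) (hΔ : W.Δ ≠ 0) {x : ℚ}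
    (hx : ψ₃ W.toAffine x = 0) :
    ¬ GaloisRepIsIrreducible (K := AlgebraicClosure ℚ) ℚ W.toAffine 3 := by
  rintro ⟨-, hirr⟩
  set K := AlgebraicClosure ℚ with hK
  have hΔK := S51gal.baseChange_Δ_ne_zero (K := K) (W := W.toAffine) hΔ
  obtain ⟨y, hxy⟩ := exists_point (W := (W⁄K).toAffine) hΔK (algebraMap ℚ K x)
  have hψ : ψ₃ (W⁄K) (algebraMap ℚ K x) = 0 := by
    have : algebraMap ℚ K (ψ₃ W x) = ψ₃ (W⁄K) (algebraMap ℚ K x) := by
      simp only [ψ₃, map_add, map_mul, map_pow, map_ofNat]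
      rw [← WeierstrassCurve.map_b₂, ← WeierstrassCurve.map_b₄, ← WeierstrassCurve.map_b₆,
        ← WeierstrassCurve.map_b₈]
      rfl
    rw [← this, hx, _root_.map_zero]
  have h3 : 3 • (Point.some _ _ hxy : (W⁄K).Point) = 0 := three_torsion_of_root hΔK hxy hψ
  have hmem : (Point.some _ _ hxy : (W⁄K).Point) ∈
      Submodule.torsionBy ℤ (W⁄K).Point (3 : ℕ) := by
    rw [Submodule.mem_torsionBy_iff, natCast_zsmul]; exact h3
  set P : Submodule.torsionBy ℤ (W⁄K).Point (3 : ℕ) := ⟨_, hmem⟩ with hP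
  have hP0 : P ≠ 0 := fun h => some_ne_zero hxy (congrArg Subtype.val h)
  have hσ : ∀ σ : K ≃ₐ[ℚ] K, σ • P = P ∨ σ • P = -P := by
    intro σ
    obtain ⟨h', hs⟩ := smul_some (W := W.toAffine) σ hxy
    have hX : σ (algebraMap ℚ K x) = algebraMap ℚ K x := σ.commutes x
    rcases (X_eq_iff (h₁ := h') (h₂ := hxy)).mp hX with h | h
    · left; apply Subtype.ext; change σ • (Point.some _ _ hxy : (W⁄K).Point) = _; rw [hs, h]
    · right; apply Subtype.ext; change σ • (Point.some _ _ hxy : (W⁄K).Point) = _; rw [hs, h]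
      rfl
  have hstab : IsGaloisStable (K := K) ℚ (W' := W.toAffine) (n := 3)
      (Submodule.span (ZMod 3) {P}) := by
    intro σ z hz
    obtain ⟨c, rfl⟩ := Submodule.mem_span_singleton.mp hz
    have hc : σ • (c • P) = c • (σ • P) :=
      ZMod.map_smul (DistribSMul.toAddMonoidHom
        (Submodule.torsionBy ℤ (W⁄K).Point (3 : ℕ)) σ) c P
    rw [hc]
    rcases hσ σ with h | h
    · rw [h]; exact Submodule.smul_mem _ _ (Submodule.mem_span_singleton_self P)
    · rw [h, smul_neg]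
      exact Submodule.neg_mem _ (Submodule.smul_mem _ _ (Submodule.mem_span_singleton_self P))
  have hcard : Nat.card (Submodule.torsionBy ℤ (W⁄K).Point (3 : ℕ)) = 3 ^ 2 :=
    Fermat.Agent.Torsion.card_torsionBy_rat hΔ (by norm_num)
  rcases hirr _ hstab with h | h
  · exact hP0 (by simpa using h)
  · have hle : Nat.card (Submodule.torsionBy ℤ (W⁄K).Point (3 : ℕ)) ≤ 3 := by
      have hsurj : Function.Surjective (fun c : ZMod 3 => c • P) := by
        intro z
        have hz : z ∈ Submodule.span (ZMod 3) {P} := by rw [h]; trivial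
        exact Submodule.mem_span_singleton.mp hz
      have := Nat.card_le_card_of_surjective _ hsurj
      rwa [Nat.card_zmod] at this
    omega

/-- The quartic form attached to the pencil of curves with the same `3`-torsion has no rational
zero. -/
theorem quartic_ne_zero (W : WeierstrassCurve ℤ) (hΔ : W.Δ ≠ 0) (h3 : W.ModRepIsIrreducible 3)
    (s t : ℤ) (h : s ^ 4 + W.b₂ * s ^ 3 * t + 9 * W.b₄ * s ^ 2 * t ^ 2 + 27 * W.b₆ * s * t ^ 3 +
      27 * W.b₈ * t ^ 4 = 0) : s = 0 ∧ t = 0 := by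
  by_cases ht : t = 0
  · subst ht
    have : s ^ 4 = 0 := by linear_combination h
    exact ⟨by simpa using this, rfl⟩
  exfalso
  set V := W.map (Int.castRingHom ℚ) with hV
  have hΔQ : V.Δ ≠ 0 := by
    rw [hV, WeierstrassCurve.map_Δ]
    simpa using hΔ
  have htQ : (t : ℚ) ≠ 0 := by exact_mod_cast ht
  have e2 : V.b₂ = (W.b₂ : ℚ) := by rw [hV, WeierstrassCurve.map_b₂]; rfl
  have e4 : V.b₄ = (W.b₄ : ℚ) := by rw [hV, WeierstrassCurve.map_b₄]; rfl
  have e6 : V.b₆ = (W.b₆ : ℚ) := by rw [hV, WeierstrassCurve.map_b₆]; rfl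
  have e8 : V.b₈ = (W.b₈ : ℚ) := by rw [hV, WeierstrassCurve.map_b₈]; rfl
  have hroot : ψ₃ V.toAffine ((s : ℚ) / (3 * t)) = 0 := by
    have hq : (s : ℚ) ^ 4 + W.b₂ * s ^ 3 * t + 9 * W.b₄ * s ^ 2 * t ^ 2 + 27 * W.b₆ * s * t ^ 3 +
      27 * W.b₈ * t ^ 4 = 0 := by exact_mod_cast h
    have hmul : 27 * (t : ℚ) ^ 4 * ψ₃ V.toAffine ((s : ℚ) / (3 * t)) = 0 := by
      simp only [ψ₃]
      rw [show WeierstrassCurve.b₂ V.toAffine = (W.b₂ : ℚ) from e2,
        show WeierstrassCurve.b₄ V.toAffine = (W.b₄ : ℚ) from e4,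
        show WeierstrassCurve.b₆ V.toAffine = (W.b₆ : ℚ) from e6,
        show WeierstrassCurve.b₈ V.toAffine = (W.b₈ : ℚ) from e8]
      field_simp
      linear_combination 27 * hq
    rcases mul_eq_zero.mp hmul with h0 | h0
    · exact absurd h0 (mul_ne_zero (by norm_num) (pow_ne_zero _ htQ))
    · exact h0
  exact reducible_three_of_root V hΔQ hroot h3

end Fermat.Agent.LTF
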