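import Mathlib

/-!
# The pencil of curves `3`-congruent to a given one

Binary forms `D3, C43, C63` with `C43 ^ 3 - C63 ^ 2 = (c4 ^ 3 - c6 ^ 2) * D3 ^ 3`.
-/

namespace Fermat.Agent.LTF

variable {R : Type*} [CommRing R]

/-- The cusp form of the `3`-pencil. -/
def D3 (c4 c6 l m : R) : R :=
  l ^ 4 - 6 * c4 * l ^ 2 * m ^ 2 - 8 * c6 * l * m ^ 3 - 3 * c4 ^ 2 * m ^ 4

/-- `c₄` of the member `(l : m)` of the `3`-pencil. -/
def C43 (c4 c6 l m : R) : R :=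
  c4 * l ^ 4 + 4 * c6 * l ^ 3 * m + 6 * c4 ^ 2 * l ^ 2 * m ^ 2 + 4 * c4 * c6 * l * m ^ 3
    + (4 * c6 ^ 2 - 3 * c4 ^ 3) * m ^ 4

/-- `c₆` of the member `(l : m)` of the `3`-pencil. -/
def C63 (c4 c6 l m : R) : R :=
  c6 * l ^ 6 + 6 * c4 ^ 2 * l ^ 5 * m + 15 * c4 * c6 * l ^ 4 * m ^ 2 + 20 * c6 ^ 2 * l ^ 3 * m ^ 3
    + 15 * c4 ^ 2 * c6 * l ^ 2 * m ^ 4 + 6 * (3 * c4 ^ 4 - 2 * c4 * c6 ^ 2) * l * m ^ 5
    + (9 * c4 ^ 3 * c6 - 8 * c6 ^ 3) * m ^ 6

theorem syzygy3 (c4 c6 l m : R) :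
    C43 c4 c6 l m ^ 3 - C63 c4 c6 l m ^ 2 = (c4 ^ 3 - c6 ^ 2) * D3 c4 c6 l m ^ 3 := by
  unfold C43 C63 D3
  ring

section Map
variable {S : Type*} [CommRing S] (f : R →+* S)

theorem map_D3 (c4 c6 l m : R) : f (D3 c4 c6 l m) = D3 (f c4) (f c6) (f l) (f m) := by
  simp only [D3, map_add, map_sub, map_mul, map_pow, map_ofNat]

theorem map_C43 (c4 c6 l m : R) : f (C43 c4 c6 l m) = C43 (f c4) (f c6) (f l) (f m) := by
  simp only [C43, map_add, map_sub, map_mul, map_pow, map_ofNat]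

theorem map_C63 (c4 c6 l m : R) : f (C63 c4 c6 l m) = C63 (f c4) (f c6) (f l) (f m) := by
  simp only [C63, map_add, map_sub, map_mul, map_pow, map_ofNat]

end Map

/-- A cusp computation for `C43`. -/
theorem cusp_id4 (c4 c6 x : R) :
    16 * x ^ 2 * C43 c4 c6 x 1 - 9 * (x ^ 2 - c4) ^ 4 =
      D3 c4 c6 x 1 * (3 * c4 ^ 2 - 2 * c4 * x ^ 2 - 8 * c6 * x - 9 * x ^ 4) := by
  unfold C43 D3
  ring

/-- A cusp computation for `C63`. -/
theorem cusp_id6 (c4 c6 x : R) :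
    64 * x ^ 3 * C63 c4 c6 x 1 - 27 * (x ^ 2 - c4) ^ 6 =
      D3 c4 c6 x 1 * (9 * c4 ^ 4 - 72 * c4 ^ 3 * x ^ 2 - 24 * c4 ^ 2 * c6 * x - 102 * c4 ^ 2 * x ^ 4
        + 48 * c4 * c6 * x ^ 3 + 64 * c6 ^ 2 * x ^ 2 - 152 * c6 * x ^ 5 - 27 * x ^ 8) := by
  unfold C63 D3
  ring

/-- homogeneity -/
theorem D3_smul (c4 c6 l m u : R) : D3 c4 c6 (u * l) (u * m) = u ^ 4 * D3 c4 c6 l m := by
  unfold D3; ring

theorem C43_smul (c4 c6 l m u : R) : C43 c4 c6 (u * l) (u * m) = u ^ 4 * C43 c4 c6 l m := by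
  unfold C43; ring

theorem C63_smul (c4 c6 l m u : R) : C63 c4 c6 (u * l) (u * m) = u ^ 6 * C63 c4 c6 l m := by
  unfold C63; ring

/-- partial derivative of `D3` with respect to `l`. -/
def D3l (c4 c6 l m : R) : R := 4 * l ^ 3 - 12 * c4 * l * m ^ 2 - 8 * c6 * m ^ 3

theorem D3l_smul (c4 c6 l m u : R) : D3l c4 c6 (u * l) (u * m) = u ^ 3 * D3l c4 c6 l m := by
  unfold D3l; ring

section Field
variable {F : Type*} [Field F] {c4 c6 : F}

theorem eq_zero_of_m_zero {l m : F} (hm : m = 0) (h : D3 c4 c6 l m = 0) : l = 0 := by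
  subst hm
  unfold D3 at h
  simpa using h

/-- `D3` and `C43` have no common zero. -/
theorem common_zero_C (h2 : (2 : F) ≠ 0) (h3 : (3 : F) ≠ 0) (hΔ : c4 ^ 3 ≠ c6 ^ 2) {l m : F}
    (hD : D3 c4 c6 l m = 0) (hC : C43 c4 c6 l m = 0) : l = 0 ∧ m = 0 := by
  by_cases hm : m = 0
  · exact ⟨eq_zero_of_m_zero hm hD, hm⟩
  exfalso
  set x : F := m⁻¹ * l with hx
  have e1 : l = m * x := by rw [hx]; field_simp
  have hD' : D3 c4 c6 x 1 = 0 := by
    have : D3 c4 c6 (m * x) (m * 1) = 0 := by rw [← e1, mul_one]; exact hD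
    rw [D3_smul] at this
    exact (mul_eq_zero.1 this).resolve_left (pow_ne_zero _ hm)
  have hC' : C43 c4 c6 x 1 = 0 := by
    have : C43 c4 c6 (m * x) (m * 1) = 0 := by rw [← e1, mul_one]; exact hC
    rw [C43_smul] at this
    exact (mul_eq_zero.1 this).resolve_left (pow_ne_zero _ hm)
  have h := cusp_id4 c4 c6 x
  rw [hD', hC', mul_zero, zero_mul, zero_sub, neg_eq_zero] at h
  have h9 : (9 : F) ≠ 0 := by
    have : (9 : F) = 3 ^ 2 := by norm_num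
    rw [this]; exact pow_ne_zero _ h3
  have h1 : x ^ 2 = c4 := by
    have := (mul_eq_zero.1 h).resolve_left h9
    exact sub_eq_zero.1 (pow_eq_zero_iff (by norm_num) |>.1 this)
  have h8 : (8 : F) ≠ 0 := by
    have : (8 : F) = 2 ^ 3 := by norm_num
    rw [this]; exact pow_ne_zero _ h2
  have h4 : c4 * (c4 ^ 3 - c6 ^ 2) = 0 := by
    have e : 8 * (c4 ^ 2 + c6 * x) = 0 := by
      have := hD'
      unfold D3 at this
      rw [← h1] at this ⊢
      linear_combination -this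
    have e' : c4 ^ 2 + c6 * x = 0 := (mul_eq_zero.1 e).resolve_left h8
    have e'' : c6 ^ 2 * x ^ 2 = c4 ^ 4 := by
      have : c6 * x = - c4 ^ 2 := by linear_combination e'
      calc c6 ^ 2 * x ^ 2 = (c6 * x) ^ 2 := by ring
        _ = c4 ^ 4 := by rw [this]; ring
    rw [h1] at e''
    linear_combination -e''
  have h5 : c4 = 0 := (mul_eq_zero.1 h4).resolve_right (sub_ne_zero.2 hΔ)
  have h6 : x = 0 := by
    rw [h5] at h1
    exact pow_eq_zero_iff (by norm_num) |>.1 h1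
  rw [h5, h6] at hC'
  unfold C43 at hC'
  have h44 : (4 : F) ≠ 0 := by
    have : (4 : F) = 2 ^ 2 := by norm_num
    rw [this]; exact pow_ne_zero _ h2
  have h7 : 4 * c6 ^ 2 = 0 := by linear_combination hC'
  have h8' : c6 = 0 := by
    have := (mul_eq_zero.1 h7).resolve_left h44
    exact pow_eq_zero_iff (by norm_num) |>.1 this
  apply hΔ
  rw [h5, h8']; ring

/-- `D3` has simple zeros. -/
theorem common_zero_D (h2 : (2 : F) ≠ 0) (h3 : (3 : F) ≠ 0) (hΔ : c4 ^ 3 ≠ c6 ^ 2) {l m : F}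
    (hD : D3 c4 c6 l m = 0) (hC : D3l c4 c6 l m = 0) : l = 0 ∧ m = 0 := by
  by_cases hm : m = 0
  · exact ⟨eq_zero_of_m_zero hm hD, hm⟩
  exfalso
  set x : F := m⁻¹ * l with hx
  have e1 : l = m * x := by rw [hx]; field_simp
  have hD' : D3 c4 c6 x 1 = 0 := by
    have : D3 c4 c6 (m * x) (m * 1) = 0 := by rw [← e1, mul_one]; exact hD
    rw [D3_smul] at this
    exact (mul_eq_zero.1 this).resolve_left (pow_ne_zero _ hm)
  have hC' : D3l c4 c6 x 1 = 0 := by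
    have : D3l c4 c6 (m * x) (m * 1) = 0 := by rw [← e1, mul_one]; exact hC
    rw [D3l_smul] at this
    exact (mul_eq_zero.1 this).resolve_left (pow_ne_zero _ hm)
  unfold D3 at hD'
  unfold D3l at hC'
  have h44 : (4 : F) ≠ 0 := by
    have : (4 : F) = 2 ^ 2 := by norm_num
    rw [this]; exact pow_ne_zero _ h2
  have hg : x ^ 3 - 3 * c4 * x - 2 * c6 = 0 := by
    have : 4 * (x ^ 3 - 3 * c4 * x - 2 * c6) = 0 := by linear_combination hC'
    exact (mul_eq_zero.1 this).resolve_left h44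
  have hh : c4 * x ^ 2 + 2 * c6 * x + c4 ^ 2 = 0 := by
    have : 3 * (c4 * x ^ 2 + 2 * c6 * x + c4 ^ 2) = 0 := by linear_combination x * hg - hD'
    exact (mul_eq_zero.1 this).resolve_left h3
  have hk : c6 * x ^ 2 + 2 * c4 ^ 2 * x + c4 * c6 = 0 := by
    have : 2 * (c6 * x ^ 2 + 2 * c4 ^ 2 * x + c4 * c6) = 0 := by
      linear_combination x * hh - c4 * hg
    exact (mul_eq_zero.1 this).resolve_left h2
  have hx0 : x = 0 := by
    have : (2 * (c4 ^ 3 - c6 ^ 2)) * x = 0 := by linear_combination c4 * hk - c6 * hh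
    exact (mul_eq_zero.1 this).resolve_left (mul_ne_zero h2 (sub_ne_zero.2 hΔ))
  rw [hx0] at hh hg
  have hc4 : c4 = 0 := by
    have : c4 ^ 2 = 0 := by linear_combination hh
    exact pow_eq_zero_iff (by norm_num) |>.1 this
  have hc6 : c6 = 0 := by
    have : 2 * c6 = 0 := by linear_combination -hg
    exact (mul_eq_zero.1 this).resolve_left h2
  apply hΔ
  rw [hc4, hc6]; ring

end Field

end Fermat.Agent.LTF
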