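import Mathlib
import Fermat.Agent.LTF.Fam3

/-!
# The integral two-parameter family of curves 3-congruent to a given one
-/

set_option autoImplicit false

namespace Fermat.Agent.LTF

open WeierstrassCurve

section Ring
variable {R : Type*} [CommRing R]

/-- the cusp form of the integral family -/
def G3 (W : WeierstrassCurve R) (s t : R) : R :=
  s ^ 4 + W.b₂ * s ^ 3 * t + 9 * W.b₄ * s ^ 2 * t ^ 2 + 27 * W.b₆ * s * t ^ 3 + 27 * W.b₈ * t ^ 4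

/-- the integral family of curves 3-congruent to `W` -/
def fam3 (W : WeierstrassCurve R) (s t : R) : WeierstrassCurve R where
  a₁ := W.a₁ * s + 3 * W.a₃ * t
  a₂ := W.a₂ * s ^ 2 + 3 * W.a₄ * s * t + 9 * W.a₆ * t ^ 2
  a₃ := W.a₃ * s ^ 3 + (9 * W.a₁ * W.b₈ - 27 * W.a₃ ^ 3) * t ^ 3
  a₄ := W.a₄ * s ^ 4 + (3 * W.a₃ ^ 2 + 18 * W.a₆) * s ^ 3 * t + 15 * W.b₈ * s ^ 2 * t ^ 2
    + (18 * W.a₂ * W.b₈ - 9 * W.a₃ ^ 2 * W.a₄ - 36 * W.a₄ * W.a₆ - 18 * W.a₁ * W.a₃ * W.a₆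
        + 9 * W.a₁ * W.a₃ ^ 3) * s * t ^ 3
    + (27 * W.a₄ * W.b₈ + 27 * W.a₃ ^ 4 - 108 * W.a₃ ^ 2 * W.a₆ - 216 * W.a₆ ^ 2) * t ^ 4
  a₆ := W.a₆ * s ^ 6 + 3 * W.b₈ * s ^ 5 * t + 3 * (W.b₂ * W.b₈ - W.b₄ * W.b₆) * s ^ 4 * t ^ 2
    + (9 * W.a₄ * W.b₈ + W.b₂ ^ 2 * W.b₈ - 108 * W.a₃ ^ 2 * W.a₆ - 216 * W.a₆ ^ 2 - W.b₄ ^ 3)
        * s ^ 3 * t ^ 3
    + 9 * (-5 * W.b₆ * W.b₈ + W.b₂ * W.b₄ * W.b₈ - W.b₄ ^ 2 * W.b₆) * s ^ 2 * t ^ 4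
    + 27 * (-W.b₈ ^ 2 + W.b₄ ^ 2 * W.b₈ - W.b₄ * W.b₆ ^ 2) * s * t ^ 5
    + (-27 * (W.a₁ ^ 2 + W.a₂) * W.b₈ ^ 2
        + W.b₈ * (81 * W.a₃ ^ 2 * W.a₄ + 324 * W.a₄ * W.a₆ + 162 * W.a₁ * W.a₃ * W.a₆
            + 162 * W.a₁ * W.a₃ ^ 3)
        - 216 * W.a₃ ^ 6 - 405 * W.a₃ ^ 4 * W.a₆ - 1620 * W.a₃ ^ 2 * W.a₆ ^ 2
        - 2160 * W.a₆ ^ 3) * t ^ 6

variable (W : WeierstrassCurve R) (s t : R)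

theorem fam3_b₂ : (fam3 W s t).b₂ = W.b₂ * s ^ 2 + 6 * W.b₄ * s * t + 9 * W.b₆ * t ^ 2 := by
  simp only [fam3, b₂, b₄, b₆]
  ring

theorem fam3_b₄ : (fam3 W s t).b₄ = W.b₄ * s ^ 4 + 9 * W.b₆ * s ^ 3 * t
    + 30 * W.b₈ * s ^ 2 * t ^ 2 + 9 * (W.b₂ * W.b₈ - W.b₄ * W.b₆) * s * t ^ 3
    + 27 * (W.b₄ * W.b₈ - W.b₆ ^ 2) * t ^ 4 := by
  simp only [fam3, b₂, b₄, b₆, b₈]
  ring

set_option maxHeartbeats 4000000 in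
theorem fam3_b₆ : (fam3 W s t).b₆ = W.b₆ * s ^ 6 + 12 * W.b₈ * s ^ 5 * t
    + 12 * (W.b₂ * W.b₈ - W.b₄ * W.b₆) * s ^ 4 * t ^ 2
    + (18 * W.b₄ * W.b₈ + 4 * W.b₂ ^ 2 * W.b₈ - 54 * W.b₆ ^ 2 - 4 * W.b₄ ^ 3) * s ^ 3 * t ^ 3
    + (-180 * W.b₆ * W.b₈ + 36 * W.b₂ * W.b₄ * W.b₈ - 36 * W.b₄ ^ 2 * W.b₆) * s ^ 2 * t ^ 4
    + (-108 * W.b₈ ^ 2 + 108 * W.b₄ ^ 2 * W.b₈ - 108 * W.b₄ * W.b₆ ^ 2) * s * t ^ 5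
    + (-27 * W.b₂ * W.b₈ ^ 2 + 162 * W.b₄ * W.b₆ * W.b₈ - 135 * W.b₆ ^ 3) * t ^ 6 := by
  simp only [fam3, b₂, b₄, b₆, b₈]
  ring

theorem fam3_G3 : 256 * G3 W s t = D3 W.c₄ W.c₆ (4 * s + W.b₂ * t) t := by
  simp only [G3, D3, c₄, c₆]
  linear_combination (1728 * t ^ 4) * W.b_relation

theorem fam3_c₄ : 256 * (fam3 W s t).c₄ = C43 W.c₄ W.c₆ (4 * s + W.b₂ * t) t := by
  rw [WeierstrassCurve.c₄, fam3_b₂, fam3_b₄]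
  simp only [C43, c₄, c₆]
  linear_combination (-13824 * W.b₂ * s * t ^ 3 - 41472 * W.b₄ * t ^ 4
    - 46080 * s ^ 2 * t ^ 2) * W.b_relation

set_option maxHeartbeats 4000000 in
theorem fam3_c₆ : 4096 * (fam3 W s t).c₆ = C63 W.c₄ W.c₆ (4 * s + W.b₂ * t) t := by
  rw [WeierstrassCurve.c₆, fam3_b₂, fam3_b₄, fam3_b₆]
  simp only [C63, c₄, c₆]
  linear_combination ((5971968)*W.b₈*W.b₂*t^6 + (23887872)*W.b₈*s*t^5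
    + (1492992)*W.b₂^2*W.b₆*t^6 + (-552960)*W.b₂^2*s^3*t^3 + (-1492992)*W.b₂*W.b₄^2*t^6
    + (-4976640)*W.b₂*W.b₄*s^2*t^4 + (8957952)*W.b₂*W.b₆*s*t^5 + (-1548288)*W.b₂*s^4*t^2
    + (-23887872)*W.b₄^2*s*t^5 + (-26873856)*W.b₄*W.b₆*t^6 + (2654208)*W.b₄*s^3*t^3
    + (49766400)*W.b₆*s^2*t^4 + (-2654208)*s^5*t) * W.b_relation

theorem fam3_one_zero : fam3 W 1 0 = W := by
  simp only [fam3]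
  ext <;> simp

end Ring

theorem fam3_Δ (W : WeierstrassCurve ℤ) (s t : ℤ) :
    (fam3 W s t).Δ = W.Δ * G3 W s t ^ 3 := by
  have h1 := (fam3 W s t).c_relation
  have h2 := W.c_relation
  have h4 := fam3_c₄ W s t
  have h6 := fam3_c₆ W s t
  have hG := fam3_G3 W s t
  have h := syzygy3 W.c₄ W.c₆ (4 * s + W.b₂ * t) t
  rw [← h4, ← h6, ← hG, ← h2] at h
  have e : (2 : ℤ) ^ 24 * 1728 * (fam3 W s t).Δ = 2 ^ 24 * 1728 * (W.Δ * G3 W s t ^ 3) := by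
    linear_combination 2 ^ 24 * h1 + h
  exact mul_left_cancel₀ (by norm_num) e

end Fermat.Agent.LTF
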