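import Mathlib

/-!
# Squarefree sieve for binary quartic forms (elementary)

`exists_sqfree`: a binary quartic form over `ℤ` without rational zero takes, in every primitive
residue class mod `M` and in every box, values which are not divisible by the square of any prime
not dividing `M` (for `M` divisible by the small and bad primes).
-/

namespace Fermat.Agent.LTF.Sieve

open Finset

/-- The binary quartic form with coefficients `c`. -/
def F (c : Fin 5 → ℤ) (s t : ℤ) : ℤ :=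
  c 4 * s ^ 4 + c 3 * s ^ 3 * t + c 2 * s ^ 2 * t ^ 2 + c 1 * s * t ^ 3 + c 0 * t ^ 4

/-- Its partial derivative in the first variable. -/
def Fs (c : Fin 5 → ℤ) (s t : ℤ) : ℤ :=
  4 * c 4 * s ^ 3 + 3 * c 3 * s ^ 2 * t + 2 * c 2 * s * t ^ 2 + c 1 * t ^ 3

/-- Hensel uniqueness. -/
theorem sq_dvd_sub {c : Fin 5 → ℤ} {r : ℕ} (hr : r.Prime) {x y t : ℤ}
    (hx : (r : ℤ) ^ 2 ∣ F c x t) (hy : (r : ℤ) ^ 2 ∣ F c y t) (hxy : (r : ℤ) ∣ x - y)
    (hs : ¬ (r : ℤ) ∣ Fs c x t) : (r : ℤ) ^ 2 ∣ x - y := by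
  set G : ℤ := c 4 * (x ^ 3 + x ^ 2 * y + x * y ^ 2 + y ^ 3) + c 3 * (x ^ 2 + x * y + y ^ 2) * t
    + c 2 * (x + y) * t ^ 2 + c 1 * t ^ 3 with hG
  have h1 : F c x t - F c y t = (x - y) * G := by rw [hG]; unfold F; ring
  have h2 : Fs c x t - G = (x - y) * (c 4 * (x ^ 2 + x * (x + y) + (x ^ 2 + x * y + y ^ 2))
      + c 3 * (x + (x + y)) * t + c 2 * t ^ 2) := by rw [hG]; unfold Fs; ring
  have hG' : ¬ (r : ℤ) ∣ G := by
    intro h
    apply hs
    have : Fs c x t = G + (Fs c x t - G) := by ring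
    rw [this, h2]
    exact dvd_add h (Dvd.dvd.mul_right hxy _)
  have hcop : IsCoprime ((r : ℤ) ^ 2) G := by
    apply IsCoprime.pow_left
    exact ((Nat.prime_iff_prime_int.1 hr).coprime_iff_not_dvd).2 hG'
  have h3 : (r : ℤ) ^ 2 ∣ (x - y) * G := by rw [← h1]; exact dvd_sub hx hy
  exact hcop.dvd_of_dvd_mul_right h3

/-- A subset of `range N` inside one residue class mod `m`. -/
theorem card_le_of_class {N m : ℕ} (S : Finset ℕ) (hS : S ⊆ range N)
    (h : ∀ a ∈ S, ∀ b ∈ S, (m : ℤ) ∣ (a : ℤ) - b) : S.card ≤ N / m + 1 := by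
  have : S.card ≤ (range (N / m + 1)).card := by
    apply Finset.card_le_card_of_injOn (fun a => a / m)
    · intro a ha
      have : a < N := by simpa using hS ha
      simp only [coe_range, Set.mem_Iio]
      exact Nat.lt_succ_of_le (Nat.div_le_div_right this.le)
    · intro a ha b hb hab
      have h1 := h a ha b hb
      have h2 : a % m = b % m := by
        have : (a : ℤ) ≡ b [ZMOD m] := (Int.modEq_iff_dvd.2 (h b hb a ha))
        exact (Int.natCast_modEq_iff.1 this)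
      simp only at hab
      calc a = m * (a / m) + a % m := (Nat.div_add_mod a m).symm
        _ = m * (b / m) + b % m := by rw [hab, h2]
        _ = b := Nat.div_add_mod b m
  simpa using this

/-- the quartic polynomial mod `r` -/
noncomputable def pol (c : Fin 5 → ℤ) (r : ℕ) : Polynomial (ZMod r) :=
  Polynomial.C ((c 4 : ℤ) : ZMod r) * Polynomial.X ^ 4 + Polynomial.C ((c 3 : ℤ) : ZMod r) *
    Polynomial.X ^ 3 + Polynomial.C ((c 2 : ℤ) : ZMod r) * Polynomial.X ^ 2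
    + Polynomial.C ((c 1 : ℤ) : ZMod r) * Polynomial.X + Polynomial.C ((c 0 : ℤ) : ZMod r)

theorem pol_ne_zero {c : Fin 5 → ℤ} {r : ℕ} (h : ¬ (r : ℤ) ∣ c 4) : pol c r ≠ 0 := by
  intro h0
  apply h
  rw [← ZMod.intCast_zmod_eq_zero_iff_dvd]
  have h1 : (pol c r).coeff 4 = ((c 4 : ℤ) : ZMod r) := by
    simp only [pol, Polynomial.coeff_add, Polynomial.coeff_C_mul, Polynomial.coeff_X_pow,
      Polynomial.coeff_X, Polynomial.coeff_C]
    norm_num
  rw [← h1, h0, Polynomial.coeff_zero]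

theorem natDegree_pol_le (c : Fin 5 → ℤ) (r : ℕ) : (pol c r).natDegree ≤ 4 := by
  unfold pol
  compute_degree

theorem card_roots_le {c : Fin 5 → ℤ} {r : ℕ} [Fact r.Prime] :
    (pol c r).roots.toFinset.card ≤ 4 :=
  ((Multiset.toFinset_card_le _).trans (Polynomial.card_roots' _)).trans (natDegree_pol_le c r)

/-- the ratio is a root -/
theorem ratio_mem_roots {c : Fin 5 → ℤ} {r : ℕ} [Fact r.Prime] (h4 : ¬ (r : ℤ) ∣ c 4) {s t : ℤ}
    (ht : ¬ (r : ℤ) ∣ t) (h : (r : ℤ) ∣ F c s t) :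
    ((s : ZMod r) * (t : ZMod r)⁻¹) ∈ (pol c r).roots.toFinset := by
  rw [Multiset.mem_toFinset, Polynomial.mem_roots (pol_ne_zero h4), Polynomial.IsRoot.def]
  have ht' : (t : ZMod r) ≠ 0 := by
    rw [Ne, ZMod.intCast_zmod_eq_zero_iff_dvd]; exact ht
  have h' : ((F c s t : ℤ) : ZMod r) = 0 := by rw [ZMod.intCast_zmod_eq_zero_iff_dvd]; exact h
  unfold F at h'
  push_cast at h'
  have h4' : (t : ZMod r) ^ 4 ≠ 0 := pow_ne_zero _ ht'
  apply mul_left_cancel₀ h4'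
  rw [mul_zero, ← h']
  simp only [pol, Polynomial.eval_add, Polynomial.eval_mul, Polynomial.eval_C,
    Polynomial.eval_pow, Polynomial.eval_X]
  field_simp

/-- Row count: `t` fixed, not divisible by `r`. -/
theorem card_row {c : Fin 5 → ℤ} {r : ℕ} (hr : r.Prime) (h4 : ¬ (r : ℤ) ∣ c 4)
    (hsimple : ∀ s t : ℤ, ¬ (r : ℤ) ∣ t → (r : ℤ) ∣ F c s t → ¬ (r : ℤ) ∣ Fs c s t)
    {t : ℤ} (ht : ¬ (r : ℤ) ∣ t) {M : ℕ} (hM : ¬ r ∣ M) (u : ℤ) (N : ℕ) :
    ((range N).filter (fun a : ℕ => (r : ℤ) ^ 2 ∣ F c (u + M * (a : ℤ)) t)).card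
      ≤ 4 * (N / r ^ 2 + 1) := by
  have : Fact r.Prime := ⟨hr⟩
  set S := (range N).filter (fun a : ℕ => (r : ℤ) ^ 2 ∣ F c (u + M * (a : ℤ)) t) with hS
  set f : ℕ → ZMod r := fun a => (((u + M * (a : ℤ) : ℤ) : ZMod r) * ((t : ℤ) : ZMod r)⁻¹) with hf
  have hM' : ¬ (r : ℤ) ∣ (M : ℤ) := by exact_mod_cast hM
  have ht' : ((t : ℤ) : ZMod r) ≠ 0 := by
    rw [Ne, ZMod.intCast_zmod_eq_zero_iff_dvd]; exact ht
  have hdvd : ∀ a ∈ S, (r : ℤ) ^ 2 ∣ F c (u + M * (a : ℤ)) t := fun a ha => (mem_filter.1 ha).2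
  have hr2 : (r : ℤ) ∣ (r : ℤ) ^ 2 := dvd_pow_self _ two_ne_zero
  have h1 : S.card ≤ (N / r ^ 2 + 1) * (S.image f).card := by
    apply Finset.card_le_mul_card_image
    intro z hz
    apply card_le_of_class
    · exact (filter_subset _ _).trans (filter_subset _ _)
    · intro a ha b hb
      rw [mem_filter] at ha hb
      have hab : f a = f b := by rw [ha.2, hb.2]
      have h2 : (((u + M * (a : ℤ) : ℤ)) : ZMod r) = (((u + M * (b : ℤ) : ℤ)) : ZMod r) := by
        have := hab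
        simp only [hf] at this
        exact mul_right_cancel₀ (inv_ne_zero ht') this
      have h3 : (r : ℤ) ∣ (u + M * (a : ℤ)) - (u + M * (b : ℤ)) := by
        rw [← ZMod.intCast_zmod_eq_zero_iff_dvd, Int.cast_sub, h2, sub_self]
      have h5 := sq_dvd_sub hr (hdvd a ha.1) (hdvd b hb.1) h3
        (hsimple _ _ ht (hr2.trans (hdvd a ha.1)))
      have h6 : (u + M * (a : ℤ)) - (u + M * (b : ℤ)) = (M : ℤ) * ((a : ℤ) - b) := by ring
      rw [h6] at h5
      have hcop : IsCoprime ((r : ℤ) ^ 2) (M : ℤ) :=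
        IsCoprime.pow_left (((Nat.prime_iff_prime_int.1 hr).coprime_iff_not_dvd).2 hM')
      have := hcop.dvd_of_dvd_mul_left h5
      push_cast
      exact this
  have h2 : (S.image f).card ≤ 4 := by
    refine le_trans (card_le_card ?_) (card_roots_le (c := c) (r := r))
    intro z hz
    obtain ⟨a, ha, rfl⟩ := mem_image.1 hz
    exact ratio_mem_roots h4 ht (hr2.trans (hdvd a ha))
  calc S.card ≤ (N / r ^ 2 + 1) * (S.image f).card := h1
    _ ≤ (N / r ^ 2 + 1) * 4 := Nat.mul_le_mul_left _ h2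
    _ = _ := Nat.mul_comm _ _

/-- count of an affine progression divisible by `r` -/
theorem card_div {r : ℕ} (hr : r.Prime) {M : ℕ} (hM : ¬ r ∣ M) (u : ℤ) (N : ℕ) :
    ((range N).filter (fun a : ℕ => (r : ℤ) ∣ (u + M * (a : ℤ)))).card ≤ N / r + 1 := by
  have hM' : ¬ (r : ℤ) ∣ (M : ℤ) := by exact_mod_cast hM
  apply card_le_of_class
  · exact filter_subset _ _
  · intro a ha b hb
    rw [mem_filter] at ha hb
    have h := dvd_sub ha.2 hb.2
    have h6 : (u + M * (a : ℤ)) - (u + M * (b : ℤ)) = (M : ℤ) * ((a : ℤ) - b) := by ring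
    rw [h6] at h
    have hcop : IsCoprime (r : ℤ) (M : ℤ) :=
      ((Nat.prime_iff_prime_int.1 hr).coprime_iff_not_dvd).2 hM'
    exact hcop.dvd_of_dvd_mul_left h

/-- Number of bad pairs for one prime, all sizes. -/
theorem card_bad {c : Fin 5 → ℤ} {r : ℕ} (hr : r.Prime) (h4 : ¬ (r : ℤ) ∣ c 4)
    (hsimple : ∀ s t : ℤ, ¬ (r : ℤ) ∣ t → (r : ℤ) ∣ F c s t → ¬ (r : ℤ) ∣ Fs c s t)
    {M : ℕ} (hM : ¬ r ∣ M) (u v : ℤ) (N : ℕ) :
    ((range N ×ˢ range N).filter
      (fun x => (r : ℤ) ^ 2 ∣ F c (u + M * (x.1 : ℤ)) (v + M * (x.2 : ℤ)))).card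
      ≤ N * (4 * (N / r ^ 2 + 1)) + (N / r + 1) * (N / r + 1) := by
  classical
  set B := (range N ×ˢ range N).filter
      (fun x => (r : ℤ) ^ 2 ∣ F c (u + M * (x.1 : ℤ)) (v + M * (x.2 : ℤ))) with hB
  have hr2 : (r : ℤ) ∣ (r : ℤ) ^ 2 := dvd_pow_self _ two_ne_zero
  set B1 := B.filter (fun x => ¬ (r : ℤ) ∣ (v + M * (x.2 : ℤ))) with hB1
  set B2 := B.filter (fun x => (r : ℤ) ∣ (v + M * (x.2 : ℤ))) with hB2
  have hsplit : B.card = B2.card + B1.card := by
    rw [hB1, hB2]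
    exact (Finset.card_filter_add_card_filter_not (s := B) _).symm
  have h1 : B1.card ≤ N * (4 * (N / r ^ 2 + 1)) := by
    have : B1.card ≤ (4 * (N / r ^ 2 + 1)) * (B1.image Prod.snd).card := by
      apply Finset.card_le_mul_card_image
      intro b hb
      obtain ⟨x0, hx0, hx0b⟩ := mem_image.1 hb
      have hbt : ¬ (r : ℤ) ∣ (v + M * (b : ℤ)) := by
        rw [← hx0b]; exact (mem_filter.1 hx0).2
      refine le_trans ?_ (card_row hr h4 hsimple hbt hM u N)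
      apply Finset.card_le_card_of_injOn Prod.fst
      · intro x hx
        simp only [coe_filter, Set.mem_ofPred_eq] at hx
        obtain ⟨hx1, hx2⟩ := hx
        have hxB := (mem_filter.1 ((mem_filter.1 hx1).1))
        simp only [coe_filter, Set.mem_ofPred_eq, mem_range]
        refine ⟨by simpa using (mem_product.1 hxB.1).1, ?_⟩
        rw [← hx2]; exact hxB.2
      · intro x hx y hy hxy
        simp only [coe_filter, Set.mem_ofPred_eq] at hx hy
        exact Prod.ext hxy (hx.2.trans hy.2.symm)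
    refine this.trans ?_
    rw [Nat.mul_comm]
    apply Nat.mul_le_mul_right
    have : (B1.image Prod.snd) ⊆ range N := by
      intro b hb
      obtain ⟨x0, hx0, hx0b⟩ := mem_image.1 hb
      rw [← hx0b]
      exact (mem_product.1 (mem_filter.1 ((mem_filter.1 hx0).1)).1).2
    simpa using card_le_card this
  have h2 : B2.card ≤ (N / r + 1) * (N / r + 1) := by
    have hsub : B2 ⊆ ((range N).filter (fun a : ℕ => (r : ℤ) ∣ (u + M * (a : ℤ)))) ×ˢ
        ((range N).filter (fun a : ℕ => (r : ℤ) ∣ (v + M * (a : ℤ)))) := by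
      intro x hx
      obtain ⟨hx1, hx2⟩ := mem_filter.1 hx
      obtain ⟨hx3, hx4⟩ := mem_filter.1 hx1
      obtain ⟨hxa, hxb⟩ := mem_product.1 hx3
      refine mem_product.2 ⟨mem_filter.2 ⟨hxa, ?_⟩, mem_filter.2 ⟨hxb, hx2⟩⟩
      have h5 : (r : ℤ) ∣ F c (u + M * (x.1 : ℤ)) (v + M * (x.2 : ℤ)) := hr2.trans hx4
      have h6 : F c (u + M * (x.1 : ℤ)) (v + M * (x.2 : ℤ)) = c 4 * (u + M * (x.1 : ℤ)) ^ 4 +
          (v + M * (x.2 : ℤ)) * (c 3 * (u + M * (x.1 : ℤ)) ^ 3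
            + c 2 * (u + M * (x.1 : ℤ)) ^ 2 * (v + M * (x.2 : ℤ))
            + c 1 * (u + M * (x.1 : ℤ)) * (v + M * (x.2 : ℤ)) ^ 2
            + c 0 * (v + M * (x.2 : ℤ)) ^ 3) := by unfold F; ring
      rw [h6] at h5
      have h7 : (r : ℤ) ∣ c 4 * (u + M * (x.1 : ℤ)) ^ 4 :=
        (dvd_add_left (Dvd.dvd.mul_right hx2 _)).1 h5
      have hp := Nat.prime_iff_prime_int.1 hr
      rcases hp.dvd_or_dvd h7 with h | h
      · exact absurd h h4
      · exact hp.dvd_of_dvd_pow h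
    refine (card_le_card hsub).trans ?_
    rw [card_product]
    exact Nat.mul_le_mul (card_div hr hM u N) (card_div hr hM v N)
  rw [hsplit, Nat.add_comm]
  exact Nat.add_le_add h1 h2

/-- Number of bad coprime pairs for one large prime. -/
theorem card_bad_large {c : Fin 5 → ℤ} {r : ℕ} (hr : r.Prime) (h4 : ¬ (r : ℤ) ∣ c 4)
    (hsimple : ∀ s t : ℤ, ¬ (r : ℤ) ∣ t → (r : ℤ) ∣ F c s t → ¬ (r : ℤ) ∣ Fs c s t)
    {M : ℕ} (hM : 0 < M) (u v : ℤ) (N : ℕ) (L : ℤ)
    (hL : ∀ a < N, |u + M * (a : ℤ)| ≤ L ∧ |v + M * (a : ℤ)| ≤ L) (hrL : 2 * L ^ 2 < (r : ℤ) ^ 2) :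
    ((range N ×ˢ range N).filter
      (fun x => IsCoprime (u + M * (x.1 : ℤ)) (v + M * (x.2 : ℤ)) ∧
        (r : ℤ) ^ 2 ∣ F c (u + M * (x.1 : ℤ)) (v + M * (x.2 : ℤ)))).card ≤ 8 := by
  classical
  have : Fact r.Prime := ⟨hr⟩
  have hp := Nat.prime_iff_prime_int.1 hr
  set B := (range N ×ˢ range N).filter
      (fun x => IsCoprime (u + M * (x.1 : ℤ)) (v + M * (x.2 : ℤ)) ∧
        (r : ℤ) ^ 2 ∣ F c (u + M * (x.1 : ℤ)) (v + M * (x.2 : ℤ))) with hB
  have hr2 : (r : ℤ) ∣ (r : ℤ) ^ 2 := dvd_pow_self _ two_ne_zero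
  have hMZ : (M : ℤ) ≠ 0 := by exact_mod_cast hM.ne'
  have ht : ∀ x ∈ B, ¬ (r : ℤ) ∣ (v + M * (x.2 : ℤ)) := by
    intro x hx hx2
    obtain ⟨hx3, hxc, hx4⟩ := mem_filter.1 hx
    have h5 : (r : ℤ) ∣ F c (u + M * (x.1 : ℤ)) (v + M * (x.2 : ℤ)) := hr2.trans hx4
    have h6 : F c (u + M * (x.1 : ℤ)) (v + M * (x.2 : ℤ)) = c 4 * (u + M * (x.1 : ℤ)) ^ 4 +
        (v + M * (x.2 : ℤ)) * (c 3 * (u + M * (x.1 : ℤ)) ^ 3
          + c 2 * (u + M * (x.1 : ℤ)) ^ 2 * (v + M * (x.2 : ℤ))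
          + c 1 * (u + M * (x.1 : ℤ)) * (v + M * (x.2 : ℤ)) ^ 2
          + c 0 * (v + M * (x.2 : ℤ)) ^ 3) := by unfold F; ring
    rw [h6] at h5
    have h7 : (r : ℤ) ∣ c 4 * (u + M * (x.1 : ℤ)) ^ 4 :=
      (dvd_add_left (Dvd.dvd.mul_right hx2 _)).1 h5
    rcases hp.dvd_or_dvd h7 with h | h
    · exact h4 h
    · exact hp.not_isUnit (hxc.isUnit_of_dvd' (hp.dvd_of_dvd_pow h) hx2)
  set f : ℕ × ℕ → ZMod r := fun x =>
    (((u + M * (x.1 : ℤ) : ℤ) : ZMod r) * ((v + M * (x.2 : ℤ) : ℤ) : ZMod r)⁻¹) with hf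
  have h1 : B.card ≤ 2 * (B.image f).card := by
    apply Finset.card_le_mul_card_image
    intro z hz
    obtain ⟨x0, hx0, hx0z⟩ := mem_image.1 hz
    -- every other element is ± x0
    have key : ∀ x ∈ B.filter (fun x => f x = z),
        (u + M * (x.1 : ℤ) = u + M * (x0.1 : ℤ) ∧ v + M * (x.2 : ℤ) = v + M * (x0.2 : ℤ)) ∨
        (u + M * (x.1 : ℤ) = -(u + M * (x0.1 : ℤ)) ∧ v + M * (x.2 : ℤ) = -(v + M * (x0.2 : ℤ))) := by
      intro x hx
      obtain ⟨hxB, hxz⟩ := mem_filter.1 hx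
      obtain ⟨hx3, hxc, hx4⟩ := mem_filter.1 hxB
      obtain ⟨hy3, hyc, hy4⟩ := mem_filter.1 hx0
      obtain ⟨hxa, hxb⟩ := mem_product.1 hx3
      obtain ⟨hya, hyb⟩ := mem_product.1 hy3
      rw [mem_range] at hxa hxb hya hyb
      have b1 := (hL _ hxa).1
      have b2 := (hL _ hxb).2
      have b3 := (hL _ hya).1
      have b4 := (hL _ hyb).2
      have hfx : f x = f x0 := by rw [hxz, hx0z]
      simp only [hf] at hfx
      have t1 := ht x hxB
      have t2 := ht x0 hx0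
      generalize u + M * (x.1 : ℤ) = s at *
      generalize v + M * (x.2 : ℤ) = t at *
      generalize u + M * (x0.1 : ℤ) = s' at *
      generalize v + M * (x0.2 : ℤ) = t' at *
      have t1' : ((t : ℤ) : ZMod r) ≠ 0 := by
        rw [Ne, ZMod.intCast_zmod_eq_zero_iff_dvd]; exact t1
      have t2' : ((t' : ℤ) : ZMod r) ≠ 0 := by
        rw [Ne, ZMod.intCast_zmod_eq_zero_iff_dvd]; exact t2
      have e1 : (r : ℤ) ∣ s * t' - s' * t := by
        rw [← ZMod.intCast_zmod_eq_zero_iff_dvd]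
        push_cast
        field_simp at hfx
        rw [sub_eq_zero]
        linear_combination hfx
      have e2 : F c (s * t') (t * t') = t' ^ 4 * F c s t := by unfold F; ring
      have e3 : F c (s' * t) (t * t') = t ^ 4 * F c s' t' := by unfold F; ring
      have tt : ¬ (r : ℤ) ∣ t * t' := fun h => (hp.dvd_or_dvd h).elim t1 t2
      have e4 : (r : ℤ) ^ 2 ∣ F c (s * t') (t * t') := by rw [e2]; exact Dvd.dvd.mul_left hx4 _
      have e5 : (r : ℤ) ^ 2 ∣ F c (s' * t) (t * t') := by rw [e3]; exact Dvd.dvd.mul_left hy4 _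
      have e6 := sq_dvd_sub hr e4 e5 e1 (hsimple _ _ tt (hr2.trans e4))
      have e7 : s * t' - s' * t = 0 := by
        apply Int.eq_zero_of_abs_lt_dvd e6
        have hL0 : 0 ≤ L := (abs_nonneg _).trans b1
        calc |s * t' - s' * t| ≤ |s * t'| + |s' * t| := abs_sub _ _
          _ = |s| * |t'| + |s'| * |t| := by rw [abs_mul, abs_mul]
          _ ≤ L * L + L * L := by gcongr
          _ = 2 * L ^ 2 := by ring
          _ < _ := hrL
      have e8 : s * t' = s' * t := by linarith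
      -- s ∣ s', s' ∣ s
      have d1 : s ∣ s' := by
        have : s ∣ s' * t := ⟨t', by linarith⟩
        exact hxc.dvd_of_dvd_mul_right this
      have d2 : s' ∣ s := by
        have : s' ∣ s * t' := ⟨t, by linarith⟩
        exact hyc.dvd_of_dvd_mul_right this
      have d3 : t ∣ t' := by
        have : t ∣ s * t' := ⟨s', by linarith⟩
        exact hxc.symm.dvd_of_dvd_mul_left this
      have d4 : t' ∣ t := by
        have : t' ∣ s' * t := ⟨s, by linarith⟩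
        exact hyc.symm.dvd_of_dvd_mul_left this
      have a1 : s = s' ∨ s = -s' := by
        have := associated_of_dvd_dvd d1 d2
        exact (Int.associated_iff.1 this)
      have a2 : t = t' ∨ t = -t' := by
        have := associated_of_dvd_dvd d3 d4
        exact (Int.associated_iff.1 this)
      have ht0 : t ≠ 0 := fun h => t1 (h ▸ dvd_zero _)
      have ht0' : t' ≠ 0 := fun h => t2 (h ▸ dvd_zero _)
      rcases a1 with a1 | a1
      · rcases a2 with a2 | a2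
        · exact Or.inl ⟨a1, a2⟩
        · -- s = s', t = -t' : s t' = s' t = - s t' => s = 0
          have : s * t' = 0 := by
            have h9 : s * t' = -(s * t') := by
              calc s * t' = s' * t := e8
                _ = s * (-t') := by rw [a2, a1]
                _ = _ := by ring
            linarith
          have hs0 : s = 0 := by
            rcases mul_eq_zero.1 this with h | h
            · exact h
            · exact absurd h ht0'
          refine Or.inr ⟨?_, a2⟩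
          rw [← a1, hs0]; simp
      · rcases a2 with a2 | a2
        · have : s * t' = 0 := by
            have h9 : s * t' = -(s * t') := by
              calc s * t' = s' * t := e8
                _ = -(s * t') := by rw [a2, a1]; ring
            linarith
          have hs0 : s = 0 := by
            rcases mul_eq_zero.1 this with h | h
            · exact h
            · exact absurd h ht0'
          refine Or.inl ⟨?_, a2⟩
          have : s' = 0 := by rw [hs0] at a1; linarith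
          rw [hs0, this]
        · exact Or.inr ⟨a1, a2⟩
    -- the fibre injects into Bool
    have : (B.filter (fun x => f x = z)).card ≤ (Finset.univ : Finset Bool).card := by
      apply Finset.card_le_card_of_injOn
        (fun x => decide (u + M * (x.1 : ℤ) = u + M * (x0.1 : ℤ) ∧
          v + M * (x.2 : ℤ) = v + M * (x0.2 : ℤ)))
      · intro x _; exact Finset.mem_coe.2 (Finset.mem_univ _)
      · intro x hx y hy hxy
        have kx := key x (by simpa using hx)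
        have ky := key y (by simpa using hy)
        have hinj : u + M * (x.1 : ℤ) = u + M * (y.1 : ℤ) ∧ v + M * (x.2 : ℤ) = v + M * (y.2 : ℤ) := by
          simp only [decide_eq_decide] at hxy
          by_cases hc : (u + M * (x.1 : ℤ) = u + M * (x0.1 : ℤ) ∧
            v + M * (x.2 : ℤ) = v + M * (x0.2 : ℤ))
          · have hc' := hxy.1 hc
            exact ⟨hc.1.trans hc'.1.symm, hc.2.trans hc'.2.symm⟩
          · have hc' : ¬ _ := fun h => hc (hxy.2 h)
            have kx' := kx.resolve_left hc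
            have ky' := ky.resolve_left hc'
            exact ⟨kx'.1.trans ky'.1.symm, kx'.2.trans ky'.2.symm⟩
        have i1 : (x.1 : ℤ) = y.1 := mul_left_cancel₀ hMZ (add_left_cancel hinj.1)
        have i2 : (x.2 : ℤ) = y.2 := mul_left_cancel₀ hMZ (add_left_cancel hinj.2)
        exact Prod.ext (by exact_mod_cast i1) (by exact_mod_cast i2)
    simpa using this
  have h2 : (B.image f).card ≤ 4 := by
    refine le_trans (card_le_card ?_) (card_roots_le (c := c) (r := r))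
    intro z hz
    obtain ⟨x, hx, rfl⟩ := mem_image.1 hz
    exact ratio_mem_roots h4 (ht x hx) (hr2.trans (mem_filter.1 hx).2.2)
  omega

/-- `π(n) = o(n)`. -/
theorem primeCounting_small (ε : ℝ) (hε : 0 < ε) :
    ∃ n0 : ℕ, ∀ n : ℕ, n0 ≤ n → (Nat.primeCounting n : ℝ) ≤ ε * n := by
  have h := Chebyshev.eventually_primeCounting_le (ε := 1) one_pos
  have h2 : Filter.Tendsto (fun x : ℝ => Real.log x) Filter.atTop Filter.atTop :=
    Real.tendsto_log_atTop
  have h3 := h2.eventually_ge_atTop ((Real.log 4 + 1) / ε)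
  obtain ⟨x0, hx0⟩ := Filter.eventually_atTop.1 (h.and (h3.and (Filter.eventually_gt_atTop 1)))
  refine ⟨⌈x0⌉₊, fun n hn => ?_⟩
  obtain ⟨h4, h5, h6⟩ := hx0 n (Nat.ceil_le.1 hn)
  rw [Nat.floor_natCast] at h4
  have hlog4 : 0 < Real.log 4 := Real.log_pos (by norm_num)
  have hlog : 0 < Real.log (n : ℝ) := Real.log_pos h6
  refine h4.trans ?_
  rw [div_le_iff₀ hlog]
  have h7 : (Real.log 4 + 1) ≤ Real.log n * ε := (div_le_iff₀ hε).1 h5
  have hn0 : (0 : ℝ) ≤ n := Nat.cast_nonneg n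
  nlinarith

/-- bound for one prime, as real number -/
theorem bad_real (N r : ℕ) (hr : 0 < r) :
    ((N * (4 * (N / r ^ 2 + 1)) + (N / r + 1) * (N / r + 1) : ℕ) : ℝ) ≤
      6 * (N : ℝ) ^ 2 * (((r : ℝ) ^ 2)⁻¹) + (4 * N + 2) := by
  have h1 : ((N / r ^ 2 : ℕ) : ℝ) ≤ (N : ℝ) / (r : ℝ) ^ 2 := by
    have := @Nat.cast_div_le ℝ _ _ _ N (r ^ 2)
    simpa using this
  have h2 : ((N / r : ℕ) : ℝ) ≤ (N : ℝ) / (r : ℝ) := Nat.cast_div_le
  have hr' : (0 : ℝ) < r := by exact_mod_cast hr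
  push_cast
  have h3 : ((N : ℝ) / r + 1) * ((N : ℝ) / r + 1) ≤ 2 * ((N : ℝ) / r) ^ 2 + 2 := by
    nlinarith [sq_nonneg ((N : ℝ) / r - 1)]
  have h0 : (0 : ℝ) ≤ ((N / r : ℕ) : ℝ) := Nat.cast_nonneg _
  have h4 : (((N / r : ℕ) : ℝ) + 1) * (((N / r : ℕ) : ℝ) + 1) ≤
      ((N : ℝ) / r + 1) * ((N : ℝ) / r + 1) := by gcongr
  have h5 : (N : ℝ) * (4 * (((N / r ^ 2 : ℕ) : ℝ) + 1)) ≤ (N : ℝ) * (4 * ((N : ℝ) / r ^ 2 + 1)) := by
    gcongr
  have h6 : (N : ℝ) * (4 * ((N : ℝ) / r ^ 2 + 1)) + (2 * ((N : ℝ) / r) ^ 2 + 2) =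
      6 * (N : ℝ) ^ 2 * (((r : ℝ) ^ 2)⁻¹) + (4 * N + 2) := by
    field_simp
    ring
  linarith

set_option maxHeartbeats 2000000 in
/-- **Squarefree sieve for binary quartic forms.** -/
theorem exists_sqfree (c : Fin 5 → ℤ) (M : ℕ) (hM : 0 < M)
    (hsmall : ∀ r : ℕ, r.Prime → r < 13 → r ∣ M)
    (hlead : ∀ r : ℕ, r.Prime → ¬ r ∣ M → ¬ (r : ℤ) ∣ c 4)
    (hsimple : ∀ r : ℕ, r.Prime → ¬ r ∣ M →
      ∀ s t : ℤ, ¬ (r : ℤ) ∣ t → (r : ℤ) ∣ F c s t → ¬ (r : ℤ) ∣ Fs c s t)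
    (hnz : ∀ s t : ℤ, F c s t = 0 → s = 0 ∧ t = 0)
    (s0 t0 : ℤ) (h0 : ∀ r : ℕ, r.Prime → r ∣ M → ¬ ((r : ℤ) ∣ s0 ∧ (r : ℤ) ∣ t0))
    (c1 c2 : ℤ) (N0 : ℕ) :
    ∃ N : ℕ, N0 ≤ N ∧ 0 < N ∧ ∃ a b : ℕ, a < N ∧ b < N ∧
      IsCoprime (s0 + M * (c1 * N) + M * (a : ℤ)) (t0 + M * (c2 * N) + M * (b : ℤ)) ∧
      ∀ r : ℕ, r.Prime → ¬ r ∣ M →
        ¬ (r : ℤ) ^ 2 ∣ F c (s0 + M * (c1 * N) + M * (a : ℤ)) (t0 + M * (c2 * N) + M * (b : ℤ)) := by
  classical
  -- constants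
  obtain ⟨L, hL0, hLdef⟩ : ∃ L : ℕ, 0 < L ∧
      (L : ℤ) = |s0| + |t0| + M * (1 + |c1| + |c2|) + 1 := by
    refine ⟨(|s0| + |t0| + M * (1 + |c1| + |c2|) + 1).toNat, ?_, ?_⟩
    · have : (0 : ℤ) ≤ |s0| + |t0| + M * (1 + |c1| + |c2|) := by positivity
      omega
    · exact Int.toNat_of_nonneg (by positivity)
  obtain ⟨C, hC0, hCdef⟩ : ∃ C : ℕ, 0 < C ∧
      (C : ℤ) = (|c 0| + |c 1| + |c 2| + |c 3| + |c 4|) * (L : ℤ) ^ 4 + 1 := by
    refine ⟨((|c 0| + |c 1| + |c 2| + |c 3| + |c 4|) * (L : ℤ) ^ 4 + 1).toNat, ?_, ?_⟩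
    · have : (0 : ℤ) ≤ (|c 0| + |c 1| + |c 2| + |c 3| + |c 4|) * (L : ℤ) ^ 4 := by positivity
      omega
    · exact Int.toNat_of_nonneg (by positivity)
  obtain ⟨n0, hn0⟩ := primeCounting_small (1 / (100 * (L + C))) (by positivity)
  set N : ℕ := N0 + n0 + 1 with hN
  have hNpos : 0 < N := by omega
  have hN1 : (1 : ℝ) ≤ N := by exact_mod_cast hNpos
  refine ⟨N, by omega, hNpos, ?_⟩
  set u : ℤ := s0 + M * (c1 * N) with hu
  set v : ℤ := t0 + M * (c2 * N) with hv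
  -- bounds on the box
  have hNZ : (1 : ℤ) ≤ (N : ℤ) := by exact_mod_cast hNpos
  have hbox : ∀ a < N, |u + M * (a : ℤ)| ≤ (L * N : ℤ) ∧ |v + M * (a : ℤ)| ≤ (L * N : ℤ) := by
    intro a ha
    have haZ : (a : ℤ) ≤ N := by exact_mod_cast ha.le
    have ha0 : (0 : ℤ) ≤ a := Int.natCast_nonneg a
    have hM0 : (0 : ℤ) ≤ (M : ℤ) := Int.natCast_nonneg M
    have hN0' : (0 : ℤ) ≤ (N : ℤ) := Int.natCast_nonneg N
    have k1 : |u + M * (a : ℤ)| ≤ |s0| + M * (|c1| * N) + M * N := by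
      calc |u + M * (a : ℤ)| ≤ |u| + |M * (a : ℤ)| := abs_add_le _ _
        _ ≤ (|s0| + |M * (c1 * N)|) + |M * (a : ℤ)| := by gcongr; exact abs_add_le _ _
        _ = |s0| + M * (|c1| * N) + M * a := by
            rw [abs_mul, abs_mul, abs_mul, abs_of_nonneg hM0, abs_of_nonneg hN0',
              abs_of_nonneg ha0]
        _ ≤ _ := by gcongr
    have k2 : |v + M * (a : ℤ)| ≤ |t0| + M * (|c2| * N) + M * N := by
      calc |v + M * (a : ℤ)| ≤ |v| + |M * (a : ℤ)| := abs_add_le _ _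
        _ ≤ (|t0| + |M * (c2 * N)|) + |M * (a : ℤ)| := by gcongr; exact abs_add_le _ _
        _ = |t0| + M * (|c2| * N) + M * a := by
            rw [abs_mul, abs_mul, abs_mul, abs_of_nonneg hM0, abs_of_nonneg hN0',
              abs_of_nonneg ha0]
        _ ≤ _ := by gcongr
    have e1 : |s0| ≤ |s0| * N := le_mul_of_one_le_right (abs_nonneg _) hNZ
    have e2 : |t0| ≤ |t0| * N := le_mul_of_one_le_right (abs_nonneg _) hNZ
    have e3 : 0 ≤ |s0| * N := by positivity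
    have e4 : 0 ≤ |t0| * N := by positivity
    have e5 : 0 ≤ (M : ℤ) * (|c1| * N) := by positivity
    have e6 : 0 ≤ (M : ℤ) * (|c2| * N) := by positivity
    constructor
    · rw [hLdef]
      have : (|s0| + |t0| + M * (1 + |c1| + |c2|) + 1) * (N : ℤ) =
        |s0| * N + |t0| * N + M * N + M * (|c1| * N) + M * (|c2| * N) + N := by ring
      rw [this]; linarith
    · rw [hLdef]
      have : (|s0| + |t0| + M * (1 + |c1| + |c2|) + 1) * (N : ℤ) =
        |s0| * N + |t0| * N + M * N + M * (|c1| * N) + M * (|c2| * N) + N := by ring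
      rw [this]; linarith
  -- size of values
  have hval : ∀ a < N, ∀ b < N, |F c (u + M * (a : ℤ)) (v + M * (b : ℤ))| < (C : ℤ) * (N : ℤ) ^ 4 := by
    intro a ha b hb
    have b1 := (hbox a ha).1
    have b2 := (hbox b hb).2
    generalize u + M * (a : ℤ) = s at *
    generalize v + M * (b : ℤ) = t at *
    have hLN : (0 : ℤ) ≤ (L * N : ℤ) := by positivity
    have g : ∀ (x : ℤ) (i j : ℕ), i + j = 4 → |x * s ^ i * t ^ j| ≤ |x| * (L * N : ℤ) ^ 4 := by
      intro x i j hij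
      rw [abs_mul, abs_mul, abs_pow, abs_pow, mul_assoc]
      apply mul_le_mul_of_nonneg_left _ (abs_nonneg _)
      calc |s| ^ i * |t| ^ j ≤ (L * N : ℤ) ^ i * (L * N : ℤ) ^ j := by gcongr
        _ = _ := by rw [← pow_add, hij]
    have g4 := g (c 4) 4 0 rfl
    have g3 := g (c 3) 3 1 rfl
    have g2 := g (c 2) 2 2 rfl
    have g1 := g (c 1) 1 3 rfl
    have g0 := g (c 0) 0 4 rfl
    have hF : F c s t = c 4 * s ^ 4 * t ^ 0 + c 3 * s ^ 3 * t ^ 1 + c 2 * s ^ 2 * t ^ 2 +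
      c 1 * s ^ 1 * t ^ 3 + c 0 * s ^ 0 * t ^ 4 := by unfold F; ring
    rw [hF]
    have := abs_add_le (c 4 * s ^ 4 * t ^ 0 + c 3 * s ^ 3 * t ^ 1 + c 2 * s ^ 2 * t ^ 2 +
      c 1 * s ^ 1 * t ^ 3) (c 0 * s ^ 0 * t ^ 4)
    have := abs_add_le (c 4 * s ^ 4 * t ^ 0 + c 3 * s ^ 3 * t ^ 1 + c 2 * s ^ 2 * t ^ 2)
      (c 1 * s ^ 1 * t ^ 3)
    have := abs_add_le (c 4 * s ^ 4 * t ^ 0 + c 3 * s ^ 3 * t ^ 1) (c 2 * s ^ 2 * t ^ 2)
    have := abs_add_le (c 4 * s ^ 4 * t ^ 0) (c 3 * s ^ 3 * t ^ 1)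
    have hN4 : (0 : ℤ) < (N : ℤ) ^ 4 := by positivity
    have e : (C : ℤ) * (N : ℤ) ^ 4 = (|c 0| * (L * N : ℤ) ^ 4 + |c 1| * (L * N : ℤ) ^ 4 +
      |c 2| * (L * N : ℤ) ^ 4 + |c 3| * (L * N : ℤ) ^ 4 + |c 4| * (L * N : ℤ) ^ 4) + (N : ℤ) ^ 4 := by
      rw [hCdef]; ring
    rw [e]
    linarith
  -- the two families of bad sets
  set K : ℕ := 2 * L * N with hK
  set R : ℕ := C * N ^ 2 with hR
  set P1 : Finset ℕ := (Nat.primesLE K).filter (fun r => ¬ r ∣ M) with hP1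
  set P2 : Finset ℕ := (Nat.primesLE R).filter (fun r => ¬ r ∣ M ∧ K < r) with hP2
  set B1 : ℕ → Finset (ℕ × ℕ) := fun r => (range N ×ˢ range N).filter
      (fun x => (r : ℤ) ^ 2 ∣ F c (u + M * (x.1 : ℤ)) (v + M * (x.2 : ℤ))) with hB1
  set B2 : ℕ → Finset (ℕ × ℕ) := fun r => (range N ×ˢ range N).filter
      (fun x => IsCoprime (u + M * (x.1 : ℤ)) (v + M * (x.2 : ℤ)) ∧
        (r : ℤ) ^ 2 ∣ F c (u + M * (x.1 : ℤ)) (v + M * (x.2 : ℤ))) with hB2
  have c1' : ∀ r ∈ P1, ((B1 r).card : ℝ) ≤ 6 * (N : ℝ) ^ 2 * (((r : ℝ) ^ 2)⁻¹) + (4 * N + 2) := by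
    intro r hr
    obtain ⟨hr1, hr2⟩ := mem_filter.1 hr
    obtain ⟨hr3, hr4⟩ := Nat.mem_primesLE.1 hr1
    refine le_trans ?_ (bad_real N r hr4.pos)
    exact_mod_cast card_bad hr4 (hlead r hr4 hr2) (hsimple r hr4 hr2) hr2 u v N
  have c2' : ∀ r ∈ P2, (B2 r).card ≤ 8 := by
    intro r hr
    obtain ⟨hr1, hr2, hr5⟩ := mem_filter.1 hr
    obtain ⟨hr3, hr4⟩ := Nat.mem_primesLE.1 hr1
    apply card_bad_large hr4 (hlead r hr4 hr2) (hsimple r hr4 hr2) hM u v N (L * N : ℤ) hbox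
    have : (2 * L * N : ℤ) < r := by exact_mod_cast hr5
    have h0' : (0 : ℤ) < (L * N : ℤ) := by
      have : (0 : ℤ) < L := by exact_mod_cast hL0
      have : (0 : ℤ) < N := by exact_mod_cast hNpos
      positivity
    nlinarith
  -- total count
  have hsum1 : (∑ r ∈ P1, ((B1 r).card : ℝ)) ≤ (N : ℝ) ^ 2 / 2 + (4 * N + 2) * (Nat.primeCounting K) := by
    have hP1sub : P1 ⊆ Ioc 12 (max 12 K) := by
      intro r hr
      obtain ⟨hr1, hr2⟩ := mem_filter.1 hr
      obtain ⟨hr3, hr4⟩ := Nat.mem_primesLE.1 hr1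
      rw [mem_Ioc]
      refine ⟨?_, hr3.trans (le_max_right _ _)⟩
      by_contra hlt
      exact hr2 (hsmall r hr4 (by omega))
    calc (∑ r ∈ P1, ((B1 r).card : ℝ)) ≤ ∑ r ∈ P1, (6 * (N : ℝ) ^ 2 * (((r : ℝ) ^ 2)⁻¹) + (4 * N + 2)) :=
          sum_le_sum c1'
      _ = 6 * (N : ℝ) ^ 2 * (∑ r ∈ P1, (((r : ℝ) ^ 2)⁻¹)) + P1.card * (4 * N + 2) := by
          rw [sum_add_distrib, mul_sum, sum_const, nsmul_eq_mul]
      _ ≤ 6 * (N : ℝ) ^ 2 * (∑ r ∈ Ioc 12 (max 12 K), (((r : ℝ) ^ 2)⁻¹)) +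
          (Nat.primeCounting K) * (4 * N + 2) := by
          have q1 : (∑ r ∈ P1, (((r : ℝ) ^ 2)⁻¹)) ≤ ∑ r ∈ Ioc 12 (max 12 K), (((r : ℝ) ^ 2)⁻¹) :=
            sum_le_sum_of_subset_of_nonneg hP1sub (fun _ _ _ => by positivity)
          have q2 : (P1.card : ℝ) ≤ (Nat.primeCounting K : ℝ) := by
            have : P1.card ≤ (Nat.primesLE K).card := card_le_card (filter_subset _ _)
            rw [Nat.primesLE_card_eq_primeCounting] at this
            exact_mod_cast this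
          gcongr
      _ ≤ 6 * (N : ℝ) ^ 2 * (1 / 12) + (Nat.primeCounting K) * (4 * N + 2) := by
          have q3 : (∑ r ∈ Ioc 12 (max 12 K), (((r : ℝ) ^ 2)⁻¹)) ≤ 1 / 12 := by
            have := sum_Ioc_inv_sq_le_sub (α := ℝ) (k := 12) (n := max 12 K) (by norm_num)
              (le_max_left _ _)
            refine this.trans ?_
            have : (0 : ℝ) ≤ ((max 12 K : ℕ) : ℝ)⁻¹ := by positivity
            norm_num at this ⊢
          gcongr
      _ = _ := by ring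
  have hsum2 : (∑ r ∈ P2, ((B2 r).card : ℝ)) ≤ 8 * (Nat.primeCounting R) := by
    calc (∑ r ∈ P2, ((B2 r).card : ℝ)) ≤ ∑ r ∈ P2, (8 : ℝ) :=
          sum_le_sum (fun r hr => by exact_mod_cast c2' r hr)
      _ = P2.card * 8 := by rw [sum_const, nsmul_eq_mul]
      _ ≤ (Nat.primeCounting R) * 8 := by
          have : P2.card ≤ (Nat.primesLE R).card := card_le_card (filter_subset _ _)
          rw [Nat.primesLE_card_eq_primeCounting] at this
          have : (P2.card : ℝ) ≤ (Nat.primeCounting R : ℝ) := by exact_mod_cast this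
          gcongr
      _ = _ := by ring
  have hKn : n0 ≤ K := by
    have h1 : 1 ≤ 2 * L := by omega
    calc n0 ≤ N := by omega
      _ = 1 * N := (one_mul _).symm
      _ ≤ 2 * L * N := Nat.mul_le_mul_right _ h1
  have hRn : n0 ≤ R := by
    have h1 : 1 ≤ C * N := Nat.mul_pos hC0 hNpos
    calc n0 ≤ N := by omega
      _ = 1 * N := (one_mul _).symm
      _ ≤ (C * N) * N := Nat.mul_le_mul_right _ h1
      _ = C * N ^ 2 := by ring
  have hpK := hn0 K hKn
  have hpR := hn0 R hRn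
  have hLR : (0 : ℝ) < L := by exact_mod_cast hL0
  have hCR : (0 : ℝ) < C := by exact_mod_cast hC0
  have hpK' : (Nat.primeCounting K : ℝ) ≤ N / 50 := by
    refine hpK.trans ?_
    have : (K : ℝ) = 2 * L * N := by rw [hK]; push_cast; ring
    rw [this, div_mul_eq_mul_div, one_mul, div_le_div_iff₀ (by positivity) (by norm_num)]
    nlinarith [mul_pos hCR (lt_of_lt_of_le one_pos hN1)]
  have hpR' : (Nat.primeCounting R : ℝ) ≤ (N : ℝ) ^ 2 / 100 := by
    refine hpR.trans ?_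
    have : (R : ℝ) = C * N ^ 2 := by rw [hR]; push_cast; ring
    rw [this, div_mul_eq_mul_div, one_mul, div_le_div_iff₀ (by positivity) (by norm_num)]
    have : (0 : ℝ) < (N : ℝ) ^ 2 := by positivity
    nlinarith [mul_pos hLR this]
  set Bad : Finset (ℕ × ℕ) := (P1.biUnion B1) ∪ (P2.biUnion B2) with hBad
  have hBadcard : (Bad.card : ℝ) < (N : ℝ) ^ 2 := by
    have h1 : (Bad.card : ℝ) ≤ (∑ r ∈ P1, ((B1 r).card : ℝ)) + (∑ r ∈ P2, ((B2 r).card : ℝ)) := by
      have : Bad.card ≤ (∑ r ∈ P1, (B1 r).card) + (∑ r ∈ P2, (B2 r).card) :=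
        (card_union_le _ _).trans (Nat.add_le_add card_biUnion_le card_biUnion_le)
      exact_mod_cast this
    have h2 : (4 * (N : ℝ) + 2) * (Nat.primeCounting K) ≤ 6 * N * (N / 50) := by
      apply mul_le_mul _ hpK' (Nat.cast_nonneg _) (by positivity)
      linarith
    have h3 : (0 : ℝ) < (N : ℝ) ^ 2 := by positivity
    calc (Bad.card : ℝ) ≤ ((N : ℝ) ^ 2 / 2 + (4 * N + 2) * (Nat.primeCounting K)) +
          8 * (Nat.primeCounting R) := h1.trans (add_le_add hsum1 hsum2)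
      _ ≤ ((N : ℝ) ^ 2 / 2 + 6 * N * (N / 50)) + 8 * ((N : ℝ) ^ 2 / 100) := by
          gcongr
      _ = (0.7 : ℝ) * (N : ℝ) ^ 2 := by ring
      _ < (N : ℝ) ^ 2 := by nlinarith
  -- a good pair
  have hex : ∃ x ∈ range N ×ˢ range N, x ∉ Bad := by
    by_contra hcon
    push Not at hcon
    have h1 : (range N ×ˢ range N).card ≤ Bad.card := card_le_card (fun x hx => hcon x hx)
    rw [card_product, card_range] at h1
    have : ((N * N : ℕ) : ℝ) ≤ Bad.card := by exact_mod_cast h1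
    push_cast at this
    nlinarith
  obtain ⟨⟨a, b⟩, hab, hnb⟩ := hex
  obtain ⟨ha, hb⟩ := mem_product.1 hab
  rw [mem_range] at ha hb
  simp only at ha hb
  have hnb1 : ∀ r : ℕ, r.Prime → ¬ r ∣ M → r ≤ K → ¬ (r : ℤ) ^ 2 ∣ F c (u + M * (a : ℤ)) (v + M * (b : ℤ)) := by
    intro r hr hrM hrK h
    apply hnb
    rw [hBad, mem_union]
    left
    rw [mem_biUnion]
    exact ⟨r, mem_filter.2 ⟨Nat.mem_primesLE.2 ⟨hrK, hr⟩, hrM⟩, mem_filter.2 ⟨hab, h⟩⟩
  -- coprimality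
  have hcopr : IsCoprime (u + M * (a : ℤ)) (v + M * (b : ℤ)) := by
    rw [Int.isCoprime_iff_gcd_eq_one]
    by_contra hg
    obtain ⟨r, hr, hrg⟩ := Nat.exists_prime_and_dvd hg
    have d1 : (r : ℤ) ∣ u + M * (a : ℤ) := (Int.natCast_dvd_natCast.2 hrg).trans (Int.gcd_dvd_left _ _)
    have d2 : (r : ℤ) ∣ v + M * (b : ℤ) := (Int.natCast_dvd_natCast.2 hrg).trans (Int.gcd_dvd_right _ _)
    by_cases hrM : r ∣ M
    · apply h0 r hr hrM
      have hrM' : (r : ℤ) ∣ (M : ℤ) := by exact_mod_cast hrM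
      constructor
      · have : s0 = (u + M * (a : ℤ)) - M * (c1 * N + a) := by rw [hu]; ring
        rw [this]; exact dvd_sub d1 (Dvd.dvd.mul_right hrM' _)
      · have : t0 = (v + M * (b : ℤ)) - M * (c2 * N + b) := by rw [hv]; ring
        rw [this]; exact dvd_sub d2 (Dvd.dvd.mul_right hrM' _)
    · -- r divides both, r ≤ K
      have hF2 : (r : ℤ) ^ 2 ∣ F c (u + M * (a : ℤ)) (v + M * (b : ℤ)) := by
        obtain ⟨x, hx⟩ := d1
        obtain ⟨y, hy⟩ := d2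
        rw [hx, hy]
        refine ⟨(r : ℤ) ^ 2 * F c x y, ?_⟩
        unfold F; ring
      have hrK : r ≤ K := by
        have h2M : (2 : ℕ) ∣ M := hsmall 2 Nat.prime_two (by norm_num)
        have hne : u + M * (a : ℤ) ≠ 0 ∨ v + M * (b : ℤ) ≠ 0 := by
          by_contra hcon
          push Not at hcon
          apply h0 2 Nat.prime_two h2M
          have h2M' : (2 : ℤ) ∣ (M : ℤ) := by exact_mod_cast h2M
          constructor
          · have : s0 = (u + M * (a : ℤ)) - M * (c1 * N + a) := by rw [hu]; ring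
            rw [this, hcon.1]; exact dvd_sub (dvd_zero _) (Dvd.dvd.mul_right h2M' _)
          · have : t0 = (v + M * (b : ℤ)) - M * (c2 * N + b) := by rw [hv]; ring
            rw [this, hcon.2]; exact dvd_sub (dvd_zero _) (Dvd.dvd.mul_right h2M' _)
        have hle : (r : ℤ) ≤ (L * N : ℤ) := by
          rcases hne with h | h
          · exact (Int.le_of_dvd (abs_pos.2 h) ((dvd_abs _ _).2 d1)).trans (hbox a ha).1
          · exact (Int.le_of_dvd (abs_pos.2 h) ((dvd_abs _ _).2 d2)).trans (hbox b hb).2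
        have : r ≤ L * N := by exact_mod_cast hle
        calc r ≤ L * N := this
          _ ≤ 2 * L * N := by nlinarith
      exact hnb1 r hr hrM hrK hF2
  refine ⟨a, b, ha, hb, hcopr, ?_⟩
  intro r hr hrM h
  by_cases hrK : r ≤ K
  · exact hnb1 r hr hrM hrK h
  · push Not at hrK
    apply hnb
    rw [hBad, mem_union]
    right
    rw [mem_biUnion]
    have hB2m : (a, b) ∈ B2 r := by
      simp only [hB2, mem_filter]
      exact ⟨hab, hcopr, h⟩
    suffices hRr : r ≤ R by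
      have hP2m : r ∈ P2 := by
        rw [hP2, mem_filter]
        exact ⟨Nat.mem_primesLE.2 ⟨hRr, hr⟩, hrM, hrK⟩
      exact ⟨r, hP2m, hB2m⟩
    -- r ≤ R
    have hF0 : F c (u + M * (a : ℤ)) (v + M * (b : ℤ)) ≠ 0 := by
      intro hz
      obtain ⟨e1, e2⟩ := hnz _ _ hz
      have h00 : IsCoprime (0 : ℤ) 0 := by
        have := hcopr
        rwa [e1, e2] at this
      exact not_isUnit_zero (isCoprime_zero_left.1 h00)
    have h1 : (r : ℤ) ^ 2 ≤ |F c (u + M * (a : ℤ)) (v + M * (b : ℤ))| :=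
      Int.le_of_dvd (abs_pos.2 hF0) ((dvd_abs _ _).2 h)
    have h2 : (r : ℤ) ^ 2 < (C : ℤ) * (N : ℤ) ^ 4 := h1.trans_lt (hval a ha b hb)
    by_contra hlt
    push Not at hlt
    have h3 : (C * N ^ 2 : ℤ) < r := by
      have : ((C * N ^ 2 : ℕ) : ℤ) < (r : ℤ) := by exact_mod_cast hlt
      push_cast at this
      exact this
    have hCZ : (1 : ℤ) ≤ C := by exact_mod_cast hC0
    have h4 : (C : ℤ) * (N : ℤ) ^ 4 ≤ (C * N ^ 2 : ℤ) ^ 2 := by
      have : (C * N ^ 2 : ℤ) ^ 2 = C * (C * (N : ℤ) ^ 4) := by ring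
      rw [this]
      have : (0 : ℤ) ≤ C * (N : ℤ) ^ 4 := by positivity
      nlinarith
    have h5 : (C * N ^ 2 : ℤ) ^ 2 < (r : ℤ) ^ 2 := by
      have : (0 : ℤ) ≤ (C * N ^ 2 : ℤ) := by positivity
      nlinarith
    linarith

end Fermat.Agent.LTF.Sieve
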