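import Mathlib
import Fermat.Agent.LTF.Curve3
import Fermat.Agent.LTF.Sieve

/-!
# Local analysis of the 3-family
-/

set_option autoImplicit false

namespace Fermat.Agent.LTF

open WeierstrassCurve

/-- the derivative of `G3` in the first variable -/
def G3s {R : Type*} [CommRing R] (W : WeierstrassCurve R) (s t : R) : R :=
  4 * s ^ 3 + 3 * W.b₂ * s ^ 2 * t + 18 * W.b₄ * s * t ^ 2 + 27 * W.b₆ * t ^ 3

theorem fam3_G3s {R : Type*} [CommRing R] (W : WeierstrassCurve R) (s t : R) :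
    64 * G3s W s t = D3l W.c₄ W.c₆ (4 * s + W.b₂ * t) t := by
  simp only [G3s, D3l, c₄, c₆]
  ring

theorem map_D3l {R S : Type*} [CommRing R] [CommRing S] (f : R →+* S) (c4 c6 l m : R) :
    f (D3l c4 c6 l m) = D3l (f c4) (f c6) (f l) (f m) := by
  simp only [D3l, map_sub, map_mul, map_pow, map_ofNat]

variable (W : WeierstrassCurve ℤ)

theorem dvd_iff_cast (r : ℕ) (a : ℤ) : (r : ℤ) ∣ a ↔ Int.castRingHom (ZMod r) a = 0 :=
  (ZMod.intCast_zmod_eq_zero_iff_dvd a r).symm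

section Good
variable {r : ℕ} (hr : r.Prime) (hr2 : r ≠ 2) (hr3 : r ≠ 3)

include hr hr2 in
theorem two_ne : (2 : ZMod r) ≠ 0 := by
  have : Fact r.Prime := ⟨hr⟩
  intro h
  have h' : ((2 : ℕ) : ZMod r) = 0 := by exact_mod_cast h
  rw [ZMod.natCast_eq_zero_iff] at h'
  exact hr2 ((Nat.prime_dvd_prime_iff_eq hr Nat.prime_two).1 h')

include hr hr3 in
theorem three_ne : (3 : ZMod r) ≠ 0 := by
  have : Fact r.Prime := ⟨hr⟩
  intro h
  have h' : ((3 : ℕ) : ZMod r) = 0 := by exact_mod_cast h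
  rw [ZMod.natCast_eq_zero_iff] at h'
  exact hr3 ((Nat.prime_dvd_prime_iff_eq hr Nat.prime_three).1 h')

include hr hr2 in
theorem four_ne : (4 : ZMod r) ≠ 0 := by
  have : Fact r.Prime := ⟨hr⟩
  have h : (4 : ZMod r) = 2 ^ 2 := by norm_num
  rw [h]
  exact pow_ne_zero _ (two_ne hr hr2)

include hr hr2 hr3

theorem c_ne (hΔ : ¬ (r : ℤ) ∣ W.Δ) :
    (Int.castRingHom (ZMod r) W.c₄) ^ 3 ≠ (Int.castRingHom (ZMod r) W.c₆) ^ 2 := by
  have : Fact r.Prime := ⟨hr⟩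
  intro h
  have e := congrArg (Int.castRingHom (ZMod r)) W.c_relation
  rw [map_mul, map_sub, map_pow, map_pow, h, sub_self] at e
  rcases mul_eq_zero.1 e with h1 | h1
  · have : (2 : ZMod r) ^ 6 * 3 ^ 3 = 0 := by
      have h1' : (1728 : ZMod r) = 0 := by simpa using h1
      linear_combination h1'
    rcases mul_eq_zero.1 this with h2 | h2
    · exact pow_ne_zero _ (two_ne hr hr2) h2
    · exact pow_ne_zero _ (three_ne hr hr3) h2
  · exact hΔ ((dvd_iff_cast r _).2 h1)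

omit hr3 in
theorem lm_zero {s t : ℤ} (h : Int.castRingHom (ZMod r) (4 * s + W.b₂ * t) = 0 ∧
    Int.castRingHom (ZMod r) t = 0) : (r : ℤ) ∣ s ∧ (r : ℤ) ∣ t := by
  have : Fact r.Prime := ⟨hr⟩
  obtain ⟨h1, h2⟩ := h
  rw [map_add, map_mul, map_mul, h2, mul_zero, add_zero] at h1
  refine ⟨?_, (dvd_iff_cast r _).2 h2⟩
  rw [dvd_iff_cast]
  have h4 : Int.castRingHom (ZMod r) 4 = 4 := by simp
  rw [h4] at h1
  exact (mul_eq_zero.1 h1).resolve_left (four_ne hr hr2)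

theorem good_C (hΔ : ¬ (r : ℤ) ∣ W.Δ) {s t : ℤ} (hG : (r : ℤ) ∣ G3 W s t)
    (hc : (r : ℤ) ∣ (fam3 W s t).c₄) : (r : ℤ) ∣ s ∧ (r : ℤ) ∣ t := by
  have : Fact r.Prime := ⟨hr⟩
  rw [dvd_iff_cast] at hG hc
  have e1 := congrArg (Int.castRingHom (ZMod r)) (fam3_G3 W s t)
  have e2 := congrArg (Int.castRingHom (ZMod r)) (fam3_c₄ W s t)
  rw [map_mul, hG, mul_zero, map_D3] at e1
  rw [map_mul, hc, mul_zero, map_C43] at e2
  exact lm_zero W hr hr2 (common_zero_C (two_ne hr hr2) (three_ne hr hr3)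
    (c_ne W hr hr2 hr3 hΔ) e1.symm e2.symm)

theorem good_D (hΔ : ¬ (r : ℤ) ∣ W.Δ) {s t : ℤ} (hG : (r : ℤ) ∣ G3 W s t)
    (hc : (r : ℤ) ∣ G3s W s t) : (r : ℤ) ∣ s ∧ (r : ℤ) ∣ t := by
  have : Fact r.Prime := ⟨hr⟩
  rw [dvd_iff_cast] at hG hc
  have e1 := congrArg (Int.castRingHom (ZMod r)) (fam3_G3 W s t)
  have e2 := congrArg (Int.castRingHom (ZMod r)) (fam3_G3s W s t)
  rw [map_mul, hG, mul_zero, map_D3] at e1
  rw [map_mul, hc, mul_zero, map_D3l] at e2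
  exact lm_zero W hr hr2 (common_zero_D (two_ne hr hr2) (three_ne hr hr3)
    (c_ne W hr hr2 hr3 hΔ) e1.symm e2.symm)

end Good

/-- the finite-level local condition at `r` -/
structure LG (r : ℕ) (s t : ℤ) : Prop where
  prim : ¬ ((r : ℤ) ∣ s ∧ (r : ℤ) ∣ t)
  sq : ¬ (r : ℤ) ^ 2 ∣ G3 W s t
  ss : (r : ℤ) ∣ W.Δ * G3 W s t → ¬ (r : ℤ) ∣ (fam3 W s t).c₄
  odd : Odd (W.Δ.natAbs.factorization r) → ¬ (r : ℤ) ∣ G3 W s t
  even : (r : ℤ) ∣ W.Δ → ¬ Odd (W.Δ.natAbs.factorization r) → (r : ℤ) ∣ G3 W s t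

theorem G3_congr {m s t s' t' : ℤ} (hs : m ∣ s' - s) (ht : m ∣ t' - t) :
    m ∣ G3 W s' t' - G3 W s t := by
  rw [← Int.modEq_iff_dvd] at hs ht ⊢
  unfold G3
  gcongr

theorem fam3_c₄_int (s t : ℤ) : (fam3 W s t).c₄ =
    (W.b₂ * s ^ 2 + 6 * W.b₄ * s * t + 9 * W.b₆ * t ^ 2) ^ 2 - 24 * (W.b₄ * s ^ 4
    + 9 * W.b₆ * s ^ 3 * t
    + 30 * W.b₈ * s ^ 2 * t ^ 2 + 9 * (W.b₂ * W.b₈ - W.b₄ * W.b₆) * s * t ^ 3
    + 27 * (W.b₄ * W.b₈ - W.b₆ ^ 2) * t ^ 4) := by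
  rw [WeierstrassCurve.c₄, fam3_b₂, fam3_b₄]

theorem c₄_congr {m s t s' t' : ℤ} (hs : m ∣ s' - s) (ht : m ∣ t' - t) :
    m ∣ (fam3 W s' t').c₄ - (fam3 W s t).c₄ := by
  rw [← Int.modEq_iff_dvd] at hs ht ⊢
  rw [fam3_c₄_int, fam3_c₄_int]
  gcongr

theorem LG.congr {r : ℕ} {s t s' t' : ℤ} (h : LG W r s t) (hs : (r : ℤ) ^ 2 ∣ s' - s)
    (ht : (r : ℤ) ^ 2 ∣ t' - t) : LG W r s' t' := by
  have hs1 : (r : ℤ) ∣ s' - s := (dvd_pow_self _ two_ne_zero).trans hs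
  have ht1 : (r : ℤ) ∣ t' - t := (dvd_pow_self _ two_ne_zero).trans ht
  have hG := G3_congr W hs1 ht1
  have hG2 := G3_congr W hs ht
  have hc := c₄_congr W hs1 ht1
  have eG : (r : ℤ) ∣ G3 W s' t' ↔ (r : ℤ) ∣ G3 W s t := by
    constructor
    · intro h; simpa using dvd_sub h hG
    · intro h; simpa using dvd_add h hG
  have eG2 : (r : ℤ) ^ 2 ∣ G3 W s' t' ↔ (r : ℤ) ^ 2 ∣ G3 W s t := by
    constructor
    · intro h; simpa using dvd_sub h hG2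
    · intro h; simpa using dvd_add h hG2
  have eGΔ : (r : ℤ) ∣ W.Δ * G3 W s' t' ↔ (r : ℤ) ∣ W.Δ * G3 W s t := by
    have h1 : (r : ℤ) ∣ W.Δ * (G3 W s' t' - G3 W s t) := Dvd.dvd.mul_left hG _
    constructor
    · intro h
      have := dvd_sub h h1
      rwa [show W.Δ * G3 W s' t' - W.Δ * (G3 W s' t' - G3 W s t) = W.Δ * G3 W s t by ring] at this
    · intro h
      have := dvd_add h h1
      rwa [show W.Δ * G3 W s t + W.Δ * (G3 W s' t' - G3 W s t) = W.Δ * G3 W s' t' by ring] at this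
  have ec : (r : ℤ) ∣ (fam3 W s' t').c₄ ↔ (r : ℤ) ∣ (fam3 W s t).c₄ := by
    constructor
    · intro h; simpa using dvd_sub h hc
    · intro h; simpa using dvd_add h hc
  have es : (r : ℤ) ∣ s' ↔ (r : ℤ) ∣ s := by
    constructor
    · intro h; simpa using dvd_sub h hs1
    · intro h; simpa using dvd_add h hs1
  have et : (r : ℤ) ∣ t' ↔ (r : ℤ) ∣ t := by
    constructor
    · intro h; simpa using dvd_sub h ht1
    · intro h; simpa using dvd_add h ht1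
  refine ⟨?_, ?_, ?_, ?_, ?_⟩
  · rw [es, et]; exact h.prim
  · rw [eG2]; exact h.sq
  · rw [eGΔ, ec]; exact h.ss
  · rw [eG]; exact h.odd
  · rw [eG]; exact h.even


/-! ### Existence of local solutions -/

theorem LG.base {r : ℕ} (hr : r.Prime) (h : (r : ℤ) ∣ W.Δ → Odd (W.Δ.natAbs.factorization r))
    (hss : (r : ℤ) ∣ W.Δ → ¬ (r : ℤ) ∣ W.c₄) : LG W r 1 0 := by
  have hr1 : ¬ (r : ℤ) ∣ 1 := by
    intro h1
    have h2 : (r : ℤ) ∣ ((1 : ℕ) : ℤ) := by simpa using h1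
    exact hr.one_lt.ne' (Nat.dvd_one.1 (Int.natCast_dvd_natCast.1 h2))
  have hG : G3 W 1 0 = 1 := by simp [G3]
  refine ⟨fun h1 => hr1 h1.1, ?_, ?_, ?_, ?_⟩
  · rw [hG]
    intro h1
    exact hr1 ((dvd_pow_self _ two_ne_zero).trans h1)
  · rw [hG, mul_one, fam3_one_zero]
    exact hss
  · intro _
    rw [hG]
    exact hr1
  · intro h1 h2
    exact absurd (h h1) h2

section Maps
variable {R S : Type*} [CommRing R] [CommRing S] (f : R →+* S) (V : WeierstrassCurve R) (s t : R)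

theorem map_G3 : f (G3 V s t) = G3 (V.map f) (f s) (f t) := by
  simp only [G3, map_add, map_mul, map_pow, map_ofNat, WeierstrassCurve.map_b₂,
    WeierstrassCurve.map_b₄, WeierstrassCurve.map_b₆, WeierstrassCurve.map_b₈]

theorem map_G3s : f (G3s V s t) = G3s (V.map f) (f s) (f t) := by
  simp only [G3s, map_add, map_mul, map_pow, map_ofNat, WeierstrassCurve.map_b₂,
    WeierstrassCurve.map_b₄, WeierstrassCurve.map_b₆]

theorem map_fam3 : (fam3 V s t).map f = fam3 (V.map f) (f s) (f t) := by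
  ext <;> simp only [fam3, WeierstrassCurve.map, map_add, map_sub, map_mul, map_pow, map_neg,
    map_ofNat, b₂, b₄, b₆, b₈]

end Maps

/-- a simple root of the cusp form at which `c₄` does not vanish -/
def SimpleAt {F : Type*} [CommRing F] (V : WeierstrassCurve F) (x : F) : Prop :=
  G3 V x 1 = 0 ∧ G3s V x 1 ≠ 0 ∧ (fam3 V x 1).c₄ ≠ 0

theorem exists_simpleAt_two (V : WeierstrassCurve (ZMod 2)) (hΔ : V.Δ = 0) (hc : V.c₄ ≠ 0) :
    ∃ x, SimpleAt V x := by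
  have key : ∀ a1 a2 a3 a4 a6 : ZMod 2,
      (⟨a1, a2, a3, a4, a6⟩ : WeierstrassCurve (ZMod 2)).Δ = 0 →
      (⟨a1, a2, a3, a4, a6⟩ : WeierstrassCurve (ZMod 2)).c₄ ≠ 0 →
      ∃ x : ZMod 2, G3 (⟨a1, a2, a3, a4, a6⟩ : WeierstrassCurve (ZMod 2)) x 1 = 0 ∧
        G3s (⟨a1, a2, a3, a4, a6⟩ : WeierstrassCurve (ZMod 2)) x 1 ≠ 0 ∧
        (fam3 (⟨a1, a2, a3, a4, a6⟩ : WeierstrassCurve (ZMod 2)) x 1).c₄ ≠ 0 := by
    decide +kernel
  obtain ⟨a1, a2, a3, a4, a6⟩ := V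
  exact key a1 a2 a3 a4 a6 hΔ hc

theorem exists_simpleAt_odd {F : Type*} [Field F] (h2 : (2 : F) ≠ 0) (V : WeierstrassCurve F)
    (hΔ : V.Δ = 0) (hc : V.c₄ ≠ 0) : ∃ x, SimpleAt V x := by
  have h4 : (4 : F) ≠ 0 := by
    rw [show (4 : F) = 2 ^ 2 by norm_num]; exact pow_ne_zero _ h2
  set a : F := V.c₆ / V.c₄ with ha
  have hrel : V.c₄ ^ 3 = V.c₆ ^ 2 := by
    have := V.c_relation
    rw [hΔ, mul_zero] at this
    exact (sub_eq_zero.1 this.symm)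
  have e6 : V.c₆ = a * V.c₄ := by rw [ha]; field_simp
  have e4 : V.c₄ = a ^ 2 := by
    rw [e6] at hrel
    have h : V.c₄ ^ 2 * (V.c₄ - a ^ 2) = 0 := by linear_combination hrel
    exact sub_eq_zero.1 ((mul_eq_zero.1 h).resolve_left (pow_ne_zero _ hc))
  have ha0 : a ≠ 0 := by
    intro h; rw [h] at e4; exact hc (by rw [e4]; ring)
  refine ⟨(3 * a - V.b₂) / 4, ?_, ?_, ?_⟩
  all_goals
    have hl : 4 * ((3 * a - V.b₂) / 4) + V.b₂ * 1 = 3 * a := by field_simp; ring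
  · have h := fam3_G3 V ((3 * a - V.b₂) / 4) 1
    rw [hl, e6, e4] at h
    have h256 : (256 : F) ≠ 0 := by
      rw [show (256 : F) = 2 ^ 8 by norm_num]; exact pow_ne_zero _ h2
    have hz : D3 (a ^ 2) (a * a ^ 2) (3 * a) 1 = 0 := by unfold D3; ring
    rw [hz] at h
    exact (mul_eq_zero.1 h).resolve_left h256
  · have h := fam3_G3s V ((3 * a - V.b₂) / 4) 1
    rw [hl, e6, e4] at h
    intro h0
    rw [h0, mul_zero] at h
    have hz : D3l (a ^ 2) (a * a ^ 2) (3 * a) 1 = 2 ^ 6 * a ^ 3 := by unfold D3l; ring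
    rw [hz] at h
    exact (mul_ne_zero (pow_ne_zero _ h2) (pow_ne_zero _ ha0)) h.symm
  · have h := fam3_c₄ V ((3 * a - V.b₂) / 4) 1
    rw [hl, e6, e4] at h
    intro h0
    rw [h0, mul_zero] at h
    have hz : C43 (a ^ 2) (a * a ^ 2) (3 * a) 1 = 2 ^ 8 * a ^ 6 := by unfold C43; ring
    rw [hz] at h
    exact (mul_ne_zero (pow_ne_zero _ h2) (pow_ne_zero _ ha0)) h.symm

theorem exists_simpleAt {r : ℕ} (hr : r.Prime) (hΔ : (r : ℤ) ∣ W.Δ) (hc : ¬ (r : ℤ) ∣ W.c₄) :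
    ∃ x : ℤ, SimpleAt (W.map (Int.castRingHom (ZMod r))) (x : ZMod r) := by
  have : Fact r.Prime := ⟨hr⟩
  rw [dvd_iff_cast] at hΔ hc
  rw [← WeierstrassCurve.map_Δ] at hΔ
  rw [← WeierstrassCurve.map_c₄] at hc
  by_cases h2 : r = 2
  · subst h2
    obtain ⟨x, hx⟩ := exists_simpleAt_two _ hΔ hc
    obtain ⟨y, rfl⟩ := ZMod.intCast_surjective x
    exact ⟨y, hx⟩
  · obtain ⟨x, hx⟩ := exists_simpleAt_odd (two_ne hr h2) _ hΔ hc
    obtain ⟨y, rfl⟩ := ZMod.intCast_surjective x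
    exact ⟨y, hx⟩

theorem exists_simpleAt_good {r : ℕ} (hr : r.Prime) (hr2 : r ≠ 2) (hr3 : r ≠ 3)
    (hΔ : ¬ (r : ℤ) ∣ W.Δ)
    (hx : ∃ x : ℤ, (r : ℤ) ∣ x ^ 4 - 6 * W.c₄ * x ^ 2 - 8 * W.c₆ * x - 3 * W.c₄ ^ 2) :
    ∃ x : ℤ, SimpleAt (W.map (Int.castRingHom (ZMod r))) (x : ZMod r) := by
  have : Fact r.Prime := ⟨hr⟩
  obtain ⟨x, hx⟩ := hx
  have h4 := four_ne hr hr2
  have h2 := two_ne hr hr2
  obtain ⟨y, hy⟩ := ZMod.intCast_surjective (((x : ZMod r) - (W.b₂ : ZMod r)) / 4)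
  have hy' : 4 * (y : ZMod r) + (W.b₂ : ZMod r) * 1 = x := by rw [hy]; field_simp; ring
  have hG : (r : ℤ) ∣ G3 W y 1 := by
    rw [dvd_iff_cast] at hx ⊢
    have e := congrArg (Int.castRingHom (ZMod r)) (fam3_G3 W y 1)
    rw [map_mul, map_D3] at e
    have h3 : Int.castRingHom (ZMod r) (4 * y + W.b₂ * 1) = Int.castRingHom (ZMod r) x := by
      simpa using hy'
    rw [h3, ← map_D3] at e
    have h5 : D3 W.c₄ W.c₆ x 1 = x ^ 4 - 6 * W.c₄ * x ^ 2 - 8 * W.c₆ * x - 3 * W.c₄ ^ 2 := by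
      unfold D3; ring
    rw [h5, hx] at e
    refine (mul_eq_zero.1 e).resolve_left ?_
    have : Int.castRingHom (ZMod r) 256 = 2 ^ 8 := by norm_num
    rw [this]
    exact pow_ne_zero _ h2
  have h1 : ¬ (r : ℤ) ∣ 1 := by
    intro h1
    have h2 : (r : ℤ) ∣ ((1 : ℕ) : ℤ) := by simpa using h1
    exact hr.one_lt.ne' (Nat.dvd_one.1 (Int.natCast_dvd_natCast.1 h2))
  refine ⟨y, ?_, ?_, ?_⟩
  · have e := map_G3 (Int.castRingHom (ZMod r)) W y 1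
    rw [(dvd_iff_cast _ _).1 hG, map_one] at e
    exact e.symm
  · intro h
    have e := map_G3s (Int.castRingHom (ZMod r)) W y 1
    rw [map_one, show (Int.castRingHom (ZMod r)) y = (y : ZMod r) from rfl, h] at e
    exact h1 (good_D W hr hr2 hr3 hΔ hG ((dvd_iff_cast _ _).2 e)).2
  · intro h
    have e := map_fam3 (Int.castRingHom (ZMod r)) W y 1
    rw [map_one, show (Int.castRingHom (ZMod r)) y = (y : ZMod r) from rfl] at e
    rw [← e, WeierstrassCurve.map_c₄] at h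
    exact h1 (good_C W hr hr2 hr3 hΔ hG ((dvd_iff_cast _ _).2 h)).2

/-- at a simple root one can make the cusp form divisible by `r` exactly once -/
theorem LG.of_simpleAt {r : ℕ} (hr : r.Prime)
    (hodd : ¬ Odd (W.Δ.natAbs.factorization r)) {x : ℤ}
    (hx : SimpleAt (W.map (Int.castRingHom (ZMod r))) (x : ZMod r)) :
    ∃ s t : ℤ, LG W r s t ∧ (r : ℤ) ∣ G3 W s t := by
  have : Fact r.Prime := ⟨hr⟩
  obtain ⟨hG, hGs, hc⟩ := hx
  have h1 : ¬ (r : ℤ) ∣ 1 := by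
    intro h1
    have h2 : (r : ℤ) ∣ ((1 : ℕ) : ℤ) := by simpa using h1
    exact hr.one_lt.ne' (Nat.dvd_one.1 (Int.natCast_dvd_natCast.1 h2))
  have hG' : (r : ℤ) ∣ G3 W x 1 := by
    rw [dvd_iff_cast, map_G3, map_one]; exact hG
  have hGs' : ¬ (r : ℤ) ∣ G3s W x 1 := by
    rw [dvd_iff_cast, map_G3s, map_one]; exact hGs
  have hc' : ¬ (r : ℤ) ∣ (fam3 W x 1).c₄ := by
    rw [dvd_iff_cast, ← WeierstrassCurve.map_c₄, map_fam3, map_one]; exact hc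
  -- choose `y ≡ x mod r` with `r² ∤ G`
  have key : ∃ y : ℤ, (r : ℤ) ∣ y - x ∧ ¬ (r : ℤ) ^ 2 ∣ G3 W y 1 := by
    by_contra hcon
    push Not at hcon
    have e0 := hcon x (by simp)
    have e1 := hcon (x + r) (by simp)
    have e2 : (r : ℤ) ^ 2 ∣ r * G3s W x 1 := by
      have e3 : G3 W (x + r) 1 - G3 W x 1 - r * G3s W x 1 =
          (r : ℤ) ^ 2 * (6 * x ^ 2 + 4 * x * r + r ^ 2 + W.b₂ * (3 * x + r) + 9 * W.b₄) := by
        unfold G3 G3s; ring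
      have e4 : (r : ℤ) ^ 2 ∣ G3 W (x + r) 1 - G3 W x 1 - r * G3s W x 1 := ⟨_, e3⟩
      have e5 := dvd_sub (dvd_sub e1 e0) e4
      rwa [sub_sub_cancel] at e5
    rw [pow_two] at e2
    have hr0 : (r : ℤ) ≠ 0 := by exact_mod_cast hr.ne_zero
    exact hGs' ((mul_dvd_mul_iff_left hr0).1 e2)
  obtain ⟨y, hyx, hy⟩ := key
  have hGy : (r : ℤ) ∣ G3 W y 1 := by
    have := G3_congr W (s := x) (s' := y) (t := 1) (t' := 1) hyx (by simp)
    simpa using dvd_add hG' this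
  have hcy : ¬ (r : ℤ) ∣ (fam3 W y 1).c₄ := by
    intro h
    have := c₄_congr W (s := x) (s' := y) (t := 1) (t' := 1) hyx (by simp)
    exact hc' (by simpa using dvd_sub h this)
  exact ⟨y, 1, ⟨fun h => h1 h.2, hy, fun _ => hcy, fun h => absurd h hodd, fun _ _ => hGy⟩, hGy⟩

/-- local solutions exist at every prime -/
theorem LG.exists {r : ℕ} (hr : r.Prime) (hss : (r : ℤ) ∣ W.Δ → ¬ (r : ℤ) ∣ W.c₄) :
    ∃ s t : ℤ, LG W r s t := by
  by_cases h : (r : ℤ) ∣ W.Δ → Odd (W.Δ.natAbs.factorization r)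
  · exact ⟨1, 0, LG.base W hr h hss⟩
  · push Not at h
    obtain ⟨x, hx⟩ := exists_simpleAt W hr h.1 (hss h.1)
    obtain ⟨s, t, hst, -⟩ := LG.of_simpleAt W hr h.2 hx
    exact ⟨s, t, hst⟩

end Fermat.Agent.LTF
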