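import Fermat.Agent.Oldforms.Vq

/-!
# Strong multiplicity one for newforms (elementary, no Petersson product)
-/

set_option autoImplicit false

noncomputable section

open CongruenceSubgroup ModularFormClass FermatAgent.HeckeEigen Matrix.SpecialLinearGroup
open Fermat.Agent.HeckePar Fermat.Agent.Oldforms
open scoped MatrixGroups ModularForm

namespace Fermat.Agent.LTF.MultOne

variable {N M q : ℕ}

/-- `w_q` on forms of level `M`, `q ∤ M`. -/
theorem w_restr (D : ALData N M q) [NeZero N] (G : CuspForm (Gamma0 M) 2) :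
    D.w 2 (restr N D.dvdMN 2 G) = Vraw 2 D.hq.ne_zero D.hN G := by
  apply DFunLike.coe_injective
  rw [ALData.coe_w, coe_Vraw, coe_restr, ALData.W, SlashAction.slash_mul]
  have hb : D.beta ∈ Gamma0 M := by
    refine Gamma0_mem.mpr ((ZMod.intCast_zmod_eq_zero_iff_dvd _ _).mpr ?_)
    show (M : ℤ) ∣ (M : ℤ)
    exact dvd_rfl
  have hinv : (⇑G : UpperHalfPlane → ℂ) ∣[(2 : ℤ)] (mapGL ℝ D.beta) = ⇑G :=
    SlashInvariantFormClass.slash_action_eq G (mapGL ℝ D.beta)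
      (show mapGL ℝ D.beta ∈ (Gamma0 M : Subgroup (GL (Fin 2) ℝ)) from
        Subgroup.mem_map_of_mem _ hb)
  rw [hinv]

theorem Vraw_eq (hq : q ≠ 0) (hN : N = q * M) (G : CuspForm (Gamma0 M) 2) :
    Vraw 2 hq hN G = (q : ℂ) • V 2 hq hN G := by
  have hq' : (q : ℂ) ≠ 0 := by exact_mod_cast hq
  rw [V, LinearMap.smul_apply, smul_smul, show ((2 : ℤ) - 1) = 1 from rfl, zpow_one,
    mul_inv_cancel₀ hq', one_smul]

theorem slash_cancel {f g : UpperHalfPlane → ℂ} (A : GL (Fin 2) ℝ)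
    (h : f ∣[(2 : ℤ)] A = g ∣[(2 : ℤ)] A) : f = g := by
  have h1 : (f ∣[(2 : ℤ)] A) ∣[(2 : ℤ)] A⁻¹ = (g ∣[(2 : ℤ)] A) ∣[(2 : ℤ)] A⁻¹ := by rw [h]
  rwa [← SlashAction.slash_mul, ← SlashAction.slash_mul, mul_inv_cancel, SlashAction.slash_one,
    SlashAction.slash_one] at h1

/-- If the `q`-expansion of `h` is supported on multiples of `q`, then `U_q h = q w_q h`. -/
theorem heckeOp_eq_w (D : ALData N M q) [NeZero N] (h : CuspForm (Gamma0 N) 2)
    (hsupp : ∀ n, ¬ q ∣ n → qCoeff ⇑h n = 0) :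
    heckeOp N 2 D.qp h = (q : ℂ) • D.w 2 h := by
  have hq0 := D.hq.ne_zero
  have hNZ := D.hNZ
  have hNe : NeZero (q * N) := ⟨mul_ne_zero hq0 (NeZero.ne N)⟩
  set F := heckeOp N 2 D.qp h with hF
  -- `F ∣ diag(q,1) = q h`
  have h1 : (⇑F : UpperHalfPlane → ℂ) ∣[(2 : ℤ)] ModularForm.heckeDiagMatrix q =
      (q : ℂ) • (⇑h : UpperHalfPlane → ℂ) := by
    have h2 : Vraw 2 hq0 (rfl : q * N = q * N) F =
        restr (q * N) (Dvd.intro_left q rfl) 2 ((q : ℂ) • h) := by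
      apply eq_of_qCoeff_eq
      intro n
      rw [qCoeff_Vraw, coe_restr, qCoeff_smul]
      split_ifs with hn
      · obtain ⟨m, rfl⟩ := hn
        rw [Nat.mul_div_cancel_left _ D.hq.pos, hF, qCoeff_heckeOp, if_pos D.dvdqN, add_zero]
        norm_num
      · rw [hsupp n hn, mul_zero]
    have h3 := congrArg (fun f : CuspForm (Gamma0 (q * N)) 2 => (⇑f : UpperHalfPlane → ℂ)) h2
    simpa using h3
  -- `F` is invariant under `[1 0; M 1]`
  set g1 : SL(2, ℤ) := ⟨!![1, 0; (M : ℤ), 1], by rw [Matrix.det_fin_two_of]; ring⟩ with hg1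
  set g2 : SL(2, ℤ) := ⟨!![1, 0; (N : ℤ), 1], by rw [Matrix.det_fin_two_of]; ring⟩ with hg2
  set g3 : SL(2, ℤ) := ⟨!![1 + D.y * M, D.y; (M : ℤ), 1], by
    rw [Matrix.det_fin_two_of]; ring⟩ with hg3
  set T : SL(2, ℤ) := ⟨!![1, D.y; 0, 1], by rw [Matrix.det_fin_two_of]; ring⟩ with hT
  have hg2N : g2 ∈ Gamma0 N :=
    Gamma0_mem.mpr ((ZMod.intCast_zmod_eq_zero_iff_dvd _ _).mpr ⟨1, by simp [hg2]⟩)
  have hTN : T ∈ Gamma0 N :=
    Gamma0_mem.mpr ((ZMod.intCast_zmod_eq_zero_iff_dvd _ _).mpr ⟨0, by simp [hT]⟩)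
  have inv : ∀ (f : CuspForm (Gamma0 N) 2) (g : SL(2, ℤ)), g ∈ Gamma0 N →
      (⇑f : UpperHalfPlane → ℂ) ∣[(2 : ℤ)] (mapGL ℝ g) = ⇑f := fun f g hg =>
    SlashInvariantFormClass.slash_action_eq f (mapGL ℝ g)
      (show mapGL ℝ g ∈ (Gamma0 N : Subgroup (GL (Fin 2) ℝ)) from Subgroup.mem_map_of_mem _ hg)
  have hA : mapGL ℝ g1 * ModularForm.heckeDiagMatrix q =
      ModularForm.heckeDiagMatrix q * mapGL ℝ g2 := by
    refine ALData.GL_eq_of_int (val_mapGL _) (val_hrep hq0 none) (val_hrep hq0 none)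
      (val_mapGL _) ?_
    ext i j
    fin_cases i <;> fin_cases j <;>
      simp [hg1, hg2, hNZ, Matrix.mul_apply, Fin.sum_univ_two, mul_comm]
  have smul_slash' : ∀ (c : ℂ) (f : UpperHalfPlane → ℂ) (g : SL(2, ℤ)),
      (c • f) ∣[(2 : ℤ)] (mapGL ℝ g) = c • (f ∣[(2 : ℤ)] (mapGL ℝ g)) := fun c f g => by
    rw [ModularForm.smul_slash, UpperHalfPlane.σ, if_pos (by simp)]
    rfl
  have hFg1 : (⇑F : UpperHalfPlane → ℂ) ∣[(2 : ℤ)] (mapGL ℝ g1) = ⇑F := by
    apply slash_cancel (ModularForm.heckeDiagMatrix q)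
    rw [← SlashAction.slash_mul, hA, SlashAction.slash_mul, h1, smul_slash', inv h g2 hg2N]
  have hTg : T * g1 = g3 := by
    apply Subtype.ext
    rw [Matrix.SpecialLinearGroup.coe_mul]
    ext i j
    fin_cases i <;> fin_cases j <;>
      simp [hg1, hT, hg3, Matrix.mul_apply, Fin.sum_univ_two]
  have hB : ModularForm.heckeDiagMatrix q * D.W =
      scal q hq0 * (mapGL ℝ g3) := by
    refine ALData.GL_eq_of_int (val_hrep hq0 none) D.val_W (val_scal _) (val_mapGL _) ?_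
    have h := D.h
    ext i j
    fin_cases i <;> fin_cases j <;>
      simp [hg3, hNZ, ALData.intW, Matrix.mul_apply, Fin.sum_univ_two] <;> try left
    · linear_combination h
  apply DFunLike.coe_injective
  show (⇑F : UpperHalfPlane → ℂ) = (q : ℂ) • (⇑(D.w 2 h) : UpperHalfPlane → ℂ)
  have h4 : ((q : ℂ) • (⇑h : UpperHalfPlane → ℂ)) ∣[(2 : ℤ)] D.W =
      (q : ℂ) • ((⇑h : UpperHalfPlane → ℂ) ∣[(2 : ℤ)] D.W) := by
    rw [ModularForm.smul_slash, UpperHalfPlane.σ, if_pos D.det_W_pos]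
    rfl
  rw [ALData.coe_w, ← h4, ← h1, ← SlashAction.slash_mul, hB, SlashAction.slash_mul, slash_scal,
    ← hTg, map_mul, SlashAction.slash_mul, inv F T hTN, hFg1]

/-- A form `F` of level `M` prime to `q` such that `V_q F` also has level `M` vanishes. -/
theorem eq_zero_of_V_level [NeZero M] (hq : q.Prime) (hqM : ¬ q ∣ M) (F F₁ : CuspForm (Gamma0 M) 2)
    (h : ∀ n, qCoeff ⇑F₁ n = if q ∣ n then qCoeff ⇑F (n / q) else 0) : F = 0 := by
  have hq0 : (q : ℂ) ≠ 0 := by exact_mod_cast hq.ne_zero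
  obtain ⟨P, hP⟩ : ∃ P : Nat.Primes, (P : ℕ) = q := ⟨⟨q, hq⟩, rfl⟩
  have key : ∀ k : ℕ, ∃ A B : CuspForm (Gamma0 M) 2,
      (∀ n, qCoeff ⇑A n = if q ^ k ∣ n then qCoeff ⇑F (n / q ^ k) else 0) ∧
      (∀ n, qCoeff ⇑B n = if q ^ (k + 1) ∣ n then qCoeff ⇑F (n / q ^ (k + 1)) else 0) := by
    intro k
    induction k with
    | zero => exact ⟨F, F₁, fun n => by simp, fun n => by rw [h n]; simp⟩
    | succ k ih =>
      obtain ⟨A, B, hA, hB⟩ := ih
      refine ⟨B, (q : ℂ)⁻¹ • (heckeOp M 2 P B - A), hB, fun n => ?_⟩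
      rw [qCoeff_smul, qCoeff_sub, qCoeff_heckeOp_two, hP, if_neg hqM, hA, hB (q * n)]
      have e1 : (q ^ (k + 1) ∣ q * n) ↔ q ^ k ∣ n := by
        rw [pow_succ', Nat.mul_dvd_mul_iff_left hq.pos]
      have e2 : q * n / q ^ (k + 1) = n / q ^ k := by
        rw [pow_succ', Nat.mul_div_mul_left _ _ hq.pos]
      simp only [e1, e2]
      have e3 : (if q ^ (k + 1 + 1) ∣ n then qCoeff ⇑F (n / q ^ (k + 1 + 1)) else 0) =
          (if q ∣ n then qCoeff ⇑B (n / q) else 0) := by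
        by_cases hqn : q ∣ n
        · obtain ⟨m, rfl⟩ := hqn
          have e4 : q ^ (k + 1 + 1) ∣ q * m ↔ q ^ (k + 1) ∣ m := by
            rw [pow_succ' q (k + 1), Nat.mul_dvd_mul_iff_left hq.pos]
          have e5 : q * m / q ^ (k + 1 + 1) = m / q ^ (k + 1) := by
            rw [pow_succ' q (k + 1), Nat.mul_div_mul_left _ _ hq.pos]
          simp only [if_pos (dvd_mul_right q m), Nat.mul_div_cancel_left _ hq.pos, hB, e4, e5]
        · rw [if_neg hqn, if_neg]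
          exact fun h' => hqn ((dvd_pow_self q (by omega)).trans h')
      rw [e3, add_sub_cancel_left, ← mul_assoc, inv_mul_cancel₀ hq0, one_mul]
  apply eq_zero_of_qCoeff_eq_zero
  intro n
  obtain ⟨A, B, hA, hB⟩ := key (sturmN M 2 + 1)
  have hA0 : A = 0 := by
    refine eq_zero_of_forall_le M A fun n hn => ?_
    rcases Nat.eq_zero_or_pos n with rfl | hn0
    · exact qCoeff_at_zero A
    · rw [hA, if_neg]
      intro hdvd
      have h1 := Nat.le_of_dvd hn0 hdvd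
      have h2 : sturmN M 2 + 1 < q ^ (sturmN M 2 + 1) := Nat.lt_pow_self hq.one_lt
      omega
  have h1 := hA (q ^ (sturmN M 2 + 1) * n)
  rw [if_pos (dvd_mul_right _ _), Nat.mul_div_cancel_left _ (pow_pos hq.pos _), hA0] at h1
  rw [← h1]
  exact qCoeff_zero _

/-- A form of level `M` prime to `q` whose expansion is supported on multiples of `q` vanishes. -/
theorem eq_zero_of_support [NeZero M] (hq : q.Prime) (hqM : ¬ q ∣ M) (F : CuspForm (Gamma0 M) 2)
    (h : ∀ n, ¬ q ∣ n → qCoeff ⇑F n = 0) : F = 0 := by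
  have hNe : NeZero (q * M) := ⟨mul_ne_zero hq.ne_zero (NeZero.ne M)⟩
  obtain ⟨D⟩ := exists_ALData (N := q * M) hq rfl hqM
  have h1 := heckeOp_eq_w D (restr (q * M) D.dvdMN 2 F) (by simpa using h)
  rw [w_restr, Vraw_eq, smul_smul] at h1
  have h2 : ∀ n, qCoeff ⇑F (q * n) =
      ((q : ℂ) * q) * (if q ∣ n then qCoeff ⇑F (n / q) else 0) := by
    intro n
    have h3 := congrArg (fun f : CuspForm (Gamma0 (q * M)) 2 => qCoeff ⇑f n) h1
    simp only [qCoeff_smul, qCoeff_V] at h3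
    rw [← h3, qCoeff_heckeOp_two, if_pos D.dvdqN, zero_mul, add_zero, coe_restr]
  apply eq_zero_of_qCoeff_eq_zero
  intro n
  induction n using Nat.strongRecOn with
  | ind n ih =>
    by_cases hqn : q ∣ n
    · obtain ⟨m, rfl⟩ := hqn
      rw [h2]
      split_ifs with hm
      · obtain ⟨l, rfl⟩ := hm
        rcases Nat.eq_zero_or_pos l with rfl | hl
        · simp [qCoeff_at_zero]
        · rw [Nat.mul_div_cancel_left _ hq.pos, ih l, mul_zero]
          calc l < q * l := by nlinarith [hq.two_le]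
            _ ≤ q * (q * l) := Nat.le_mul_of_pos_left _ hq.pos
      · rw [mul_zero]
    · exact h n hqn

/-- The core of multiplicity one at a prime `q ‖ N`. -/
theorem core (D : ALData N M q) [NeZero N] (f g : CuspForm (Gamma0 N) 2) (a : ℂ)
    (ha : a ^ 2 = 1) (hf : heckeOp N 2 D.qp f = a • f) (hg : heckeOp N 2 D.qp g = (-a) • g)
    (hc : ∀ n, ¬ q ∣ n → qCoeff ⇑f n = qCoeff ⇑g n) : f = 0 ∧ g = 0 := by
  have hMne : NeZero M := D.neZero_M
  have hq0 : (q : ℂ) ≠ 0 := by exact_mod_cast D.hq.ne_zero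
  have ha0 : a ≠ 0 := by rintro rfl; norm_num at ha
  have hq1 : (1 : ℂ) + q ≠ 0 := by
    have : ((1 + q : ℕ) : ℂ) ≠ 0 := Nat.cast_ne_zero.mpr (by omega)
    simpa using this
  have hqM : ¬ q ∣ M := by
    intro hd
    have h1 : (q : ℤ) ∣ 1 := by
      rw [← D.h]
      exact dvd_sub (dvd_mul_right _ _) ((Int.natCast_dvd_natCast.mpr hd).mul_right _)
    have h2 : q ∣ 1 := by exact_mod_cast h1
    exact D.hq.one_lt.ne' (Nat.dvd_one.mp h2)
  set h := f - g with hh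
  have hU : heckeOp N 2 D.qp h = (q : ℂ) • D.w 2 h :=
    heckeOp_eq_w D h fun n hn => by rw [hh, qCoeff_sub, hc n hn, sub_self]
  have hU' : heckeOp N 2 D.qp h = a • (f + g) := by
    rw [hh, map_sub, hf, hg, neg_smul, sub_neg_eq_add, smul_add]
  set G : CuspForm (Gamma0 M) 2 := ((1 : ℂ) + q)⁻¹ • D.tr (D.w 2 h) with hG
  have hGr : restr N D.dvdMN 2 G = D.w 2 h := by
    have e1 : D.w 2 h + (q : ℂ) • D.w 2 h = ((1 : ℂ) + q) • D.w 2 h := by
      rw [add_smul, one_smul]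
    rw [hG, map_smul, ALData.restr_tr, ALData.trN_apply, ALData.w_w, hU, e1, smul_smul,
      inv_mul_cancel₀ hq1, one_smul]
  have hV : h = (q : ℂ) • V 2 D.hq.ne_zero D.hN G := by
    rw [← Vraw_eq, ← w_restr, hGr, ALData.w_w]
  have hUw : (q : ℂ) • heckeOp N 2 D.qp (D.w 2 h) = h := by
    rw [← map_smul, ← hU, hU', map_smul, map_add, hf, hg, neg_smul, ← sub_eq_add_neg, ← smul_sub,
      smul_smul, ← pow_two, ha, one_smul]
  have hc' : ∀ n, qCoeff ⇑G (q * n) = if q ∣ n then qCoeff ⇑G (n / q) else 0 := by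
    intro n
    have h1 := congrArg (fun F : CuspForm (Gamma0 N) 2 => qCoeff ⇑F n) (hUw.trans hV)
    simp only [qCoeff_smul, qCoeff_V] at h1
    rw [qCoeff_heckeOp_two, if_pos D.dvdqN, zero_mul, add_zero, ← hGr, coe_restr] at h1
    exact mul_left_cancel₀ hq0 h1
  have hG0 : G = 0 := by
    refine eq_zero_of_V_level D.hq hqM G (((1 : ℂ) + q)⁻¹ • heckeOp M 2 D.qp G) fun n => ?_
    rw [qCoeff_smul, qCoeff_heckeOp_two, if_neg hqM, hc' n, ← one_add_mul, ← mul_assoc,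
      inv_mul_cancel₀ hq1, one_mul]
  have hw0 : D.w 2 h = 0 := by rw [← hGr, hG0, map_zero]
  have h0 : f - g = 0 := by
    rw [← hh, ← D.w_w h, hw0, map_zero]
  have h1 : f + g = 0 := by
    rw [hw0, smul_zero] at hU
    exact (smul_eq_zero.mp (hU'.symm.trans hU)).resolve_left ha0
  have hfg : f = g := sub_eq_zero.mp h0
  rw [← hfg, ← two_smul ℂ f] at h1
  have hf0 : f = 0 := (smul_eq_zero.mp h1).resolve_left two_ne_zero
  exact ⟨hf0, hfg ▸ hf0⟩

/-- Two normalised eigenforms with the same prime coefficients agree. -/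
theorem qCoeff_eq_of_prime {N' : ℕ} {f : CuspForm (Gamma0 N) 2} {g : CuspForm (Gamma0 N') 2}
    [NeZero N] [NeZero N']
    (hf : f.IsNormalizedEigenform) (hg : g.IsNormalizedEigenform) (hNN : ∀ p : ℕ, p.Prime →
      (p ∣ N ↔ p ∣ N')) (P : ℕ → Prop)
    (h : ∀ p : ℕ, p.Prime → P p → qCoeff ⇑f p = qCoeff ⇑g p) :
    ∀ n : ℕ, (∀ p : ℕ, p.Prime → p ∣ n → P p) → qCoeff ⇑f n = qCoeff ⇑g n := by
  have hf' := fun p => heckeOp_eq_of_isNormalizedEigenform hf p
  have hg' := fun p => heckeOp_eq_of_isNormalizedEigenform hg p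
  intro n
  induction n using Nat.strongRecOn with
  | ind n ih =>
    intro hP
    rcases Nat.lt_or_ge n 2 with hn | hn
    · interval_cases n
      · rw [qCoeff_at_zero, qCoeff_at_zero]
      · rw [hf.qCoeff_one, hg.qCoeff_one]
    · obtain ⟨p, hp, m, rfl⟩ := Nat.exists_prime_and_dvd (show n ≠ 1 by omega)
      have hm : m ≠ 0 := by rintro rfl; omega
      have hmpos : 0 < m := Nat.pos_of_ne_zero hm
      have hlt : m < p * m := by nlinarith [hp.two_le]
      have hlt2 : m / p < p * m := lt_of_le_of_lt (Nat.div_le_self _ _) hlt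
      have h1 := coeff_rec_of_eigen hf' ⟨p, hp⟩ m
      have h2 := coeff_rec_of_eigen hg' ⟨p, hp⟩ m
      simp only at h1 h2
      have hPm : ∀ r : ℕ, r.Prime → r ∣ m → P r := fun r hr hrm => hP r hr (hrm.mul_left p)
      rw [h1, h2, h p hp (hP p hp (dvd_mul_right _ _)), ih m hlt hPm]
      congr 1
      by_cases hpm : p ∣ m
      · rw [if_pos hpm, if_pos hpm, ih (m / p) hlt2 fun r hr hrm =>
          hPm r hr (hrm.trans (Nat.div_dvd_of_dvd hpm))]
        congr 1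
        by_cases hpN : p ∣ N
        · rw [if_pos hpN, if_pos ((hNN p hp).mp hpN)]
        · rw [if_neg hpN, if_neg (fun h' => hpN ((hNN p hp).mpr h'))]
      · rw [if_neg hpm, if_neg hpm, mul_zero, mul_zero]

/-- Removing the Euler factor at a prime `r ∣ N`. -/
theorem exists_remove_of_dvd [NeZero N] (r : Nat.Primes) (hrN : (r : ℕ) ∣ N)
    (f : CuspForm (Gamma0 N) 2) (hf : f.IsNormalizedEigenform) :
    ∃ g : CuspForm (Gamma0 (r * N)) 2, g.IsNormalizedEigenform ∧ qCoeff ⇑g r = 0 ∧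
      ∀ p : ℕ, p.Prime → p ≠ r → qCoeff ⇑g p = qCoeff ⇑f p := by
  have hNe : NeZero ((r : ℕ) * N) := ⟨mul_ne_zero r.2.ne_zero (NeZero.ne N)⟩
  have hr0 : (r : ℕ) ≠ 0 := r.2.ne_zero
  have hMN : N ∣ (r : ℕ) * N := dvd_mul_left _ _
  set g : CuspForm (Gamma0 (r * N)) 2 := restr (r * N) hMN 2 f -
    qCoeff ⇑f r • V 2 hr0 rfl f with hg
  have hrec := fun m => coeff_rec_of_eigen (fun p => heckeOp_eq_of_isNormalizedEigenform hf p) r m
  simp only [if_pos hrN, zero_mul, sub_zero] at hrec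
  have hgn : ∀ n, qCoeff ⇑g n = if (r : ℕ) ∣ n then 0 else qCoeff ⇑f n := by
    intro n
    rw [hg, qCoeff_sub, qCoeff_smul, qCoeff_V, coe_restr]
    split_ifs with hn
    · obtain ⟨m, rfl⟩ := hn
      rw [Nat.mul_div_cancel_left _ r.2.pos, hrec m, sub_self]
    · rw [mul_zero, sub_zero]
  have hg1 : qCoeff ⇑g 1 = 1 := by
    rw [hgn, if_neg r.2.not_dvd_one, hf.qCoeff_one]
  classical
  have hev : ∀ p : Nat.Primes, heckeOp (r * N) 2 p g =
      (if (p : ℕ) = r then 0 else qCoeff ⇑f p) • g := by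
    intro p
    by_cases hpr : (p : ℕ) = r
    · obtain rfl : p = r := Subtype.ext hpr
      rw [if_pos rfl, zero_smul]
      apply eq_zero_of_qCoeff_eq_zero
      intro n
      rw [qCoeff_heckeOp_two, if_pos (dvd_mul_right _ _), zero_mul, add_zero, hgn,
        if_pos (dvd_mul_right _ _)]
    · have hcond : (p : ℕ) ∣ (r : ℕ) * N → (p : ℕ) ∣ N := by
        intro h
        rcases p.2.dvd_mul.mp h with h1 | h1
        · exact absurd ((Nat.prime_dvd_prime_iff_eq p.2 r.2).mp h1) hpr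
        · exact h1
      rw [if_neg hpr, hg, map_sub, map_smul, heckeOp_restr hMN p hcond,
        heckeOp_V 2 r.2 rfl p hpr, heckeOp_eq_of_isNormalizedEigenform hf p, map_smul, map_smul,
        smul_sub, smul_comm (qCoeff ⇑f r)]
  refine ⟨g, isNormalizedEigenform_of_eigen hev hg1, ?_, ?_⟩
  · rw [hgn, if_pos dvd_rfl]
  · intro p hp hpr
    rw [hgn, if_neg]
    exact fun h => hpr ((Nat.prime_dvd_prime_iff_eq r.2 hp).mp h).symm

/-- Removing the Euler factor at a prime `r`. -/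
theorem exists_remove [NeZero N] (r : Nat.Primes) :
    ∃ e : ℕ, ∀ (f : CuspForm (Gamma0 N) 2), f.IsNormalizedEigenform →
    ∃ g : CuspForm (Gamma0 (r ^ e * N)) 2, g.IsNormalizedEigenform ∧ qCoeff ⇑g r = 0 ∧
      ∀ p : ℕ, p.Prime → p ≠ r → qCoeff ⇑g p = qCoeff ⇑f p := by
  by_cases hrN : (r : ℕ) ∣ N
  · refine ⟨1, fun f hf => ?_⟩
    rw [pow_one]
    exact exists_remove_of_dvd r hrN f hf
  · refine ⟨2, fun f hf => ?_⟩
    have hNe : NeZero ((r : ℕ) * N) := ⟨mul_ne_zero r.2.ne_zero (NeZero.ne N)⟩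
    obtain ⟨x, hx⟩ : ∃ x : ℂ, x ^ 2 - qCoeff ⇑f r * x + r = 0 := by
      obtain ⟨x, hx⟩ := IsAlgClosed.exists_pow_nat_eq
        (qCoeff ⇑f r ^ 2 / 4 - (r : ℂ)) (n := 2) two_pos
      exact ⟨x + qCoeff ⇑f r / 2, by linear_combination hx⟩
    obtain ⟨g, hg, -, hgp⟩ := exists_stabilisation r rfl hrN f hf x hx
    obtain ⟨g', hg', h0, hgp'⟩ := exists_remove_of_dvd r (dvd_mul_right _ _) g hg
    rw [show (r : ℕ) ^ 2 * N = r * (r * N) by ring]
    exact ⟨g', hg', h0, fun p hp hpr => (hgp' p hp hpr).trans (hgp p hp hpr)⟩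

/-- Removing the Euler factors at a finite set of primes. -/
theorem exists_remove_finset (S : Finset Nat.Primes) (N : ℕ) [NeZero N] :
    ∃ N' : ℕ, N' ≠ 0 ∧ (∀ q : ℕ, q.Prime → (∀ r ∈ S, (r : ℕ) ≠ q) → N'.factorization q =
      N.factorization q) ∧ N ∣ N' ∧ ∀ (f : CuspForm (Gamma0 N) 2), f.IsNormalizedEigenform →
    ∃ g : CuspForm (Gamma0 N') 2, g.IsNormalizedEigenform ∧ (∀ r ∈ S, qCoeff ⇑g (r : ℕ) = 0) ∧
      ∀ p : ℕ, p.Prime → (∀ r ∈ S, (r : ℕ) ≠ p) → qCoeff ⇑g p = qCoeff ⇑f p := by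
  classical
  induction S using Finset.induction_on with
  | empty => exact ⟨N, NeZero.ne N, fun _ _ _ => rfl, dvd_rfl, fun f hf => ⟨f, hf, by simp, by simp⟩⟩
  | insert r S hr ih =>
    obtain ⟨N₁, hN₁, hfac, hdvd, h⟩ := ih
    have : NeZero N₁ := ⟨hN₁⟩
    obtain ⟨e, he⟩ := exists_remove (N := N₁) r
    refine ⟨r ^ e * N₁, mul_ne_zero (pow_ne_zero _ r.2.ne_zero) hN₁, ?_, hdvd.mul_left _, ?_⟩
    · intro q hq hqS
      have hqr : (r : ℕ) ≠ q := hqS r (Finset.mem_insert_self _ _)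
      rw [Nat.factorization_mul (pow_ne_zero _ r.2.ne_zero) hN₁, Finsupp.add_apply,
        Nat.Prime.factorization_pow r.2, Finsupp.single_apply, if_neg hqr, zero_add,
        hfac q hq fun s hs => hqS s (Finset.mem_insert_of_mem hs)]
    · intro f hf
      obtain ⟨g₁, hg₁, h1, h2⟩ := h f hf
      obtain ⟨g, hg, h3, h4⟩ := he g₁ hg₁
      refine ⟨g, hg, ?_, ?_⟩
      · intro s hs
        rcases Finset.mem_insert.mp hs with rfl | hs
        · exact h3
        · by_cases hsr : s = r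
          · rw [hsr]; exact h3
          · rw [h4 s s.2 (fun h => hsr (Subtype.ext h)), h1 s hs]
      · intro p hp hpS
        rw [h4 p hp (hpS r (Finset.mem_insert_self _ _)).symm,
          h2 p hp fun s hs => hpS s (Finset.mem_insert_of_mem hs)]

/-- **Strong multiplicity one**: normalised eigenforms of the same level with `a_q² = 1` for
`q ‖ N` and `a_q = 0` for `q² ∣ N` which agree at almost all primes are equal. -/
theorem eq_of_almost_all [NeZero N] (f g : CuspForm (Gamma0 N) 2)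
    (hf : f.IsNormalizedEigenform) (hg : g.IsNormalizedEigenform)
    (hf1 : ∀ q : ℕ, q.Prime → q ∣ N → ¬ q ^ 2 ∣ N → qCoeff ⇑f q ^ 2 = 1)
    (hg1 : ∀ q : ℕ, q.Prime → q ∣ N → ¬ q ^ 2 ∣ N → qCoeff ⇑g q ^ 2 = 1)
    (hf2 : ∀ q : ℕ, q.Prime → q ^ 2 ∣ N → qCoeff ⇑f q = 0)
    (hg2 : ∀ q : ℕ, q.Prime → q ^ 2 ∣ N → qCoeff ⇑g q = 0)
    (S : Finset ℕ) (h : ∀ ℓ : ℕ, ℓ.Prime → ℓ ∉ S → qCoeff ⇑f ℓ = qCoeff ⇑g ℓ) : f = g := by
  classical
  have hN0 : N ≠ 0 := NeZero.ne N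
  have main : ∀ q : ℕ, q.Prime → qCoeff ⇑f q = qCoeff ⇑g q := by
    intro q hq
    by_contra hne
    set T : Finset Nat.Primes := ((S.filter Nat.Prime).erase q).attach.image
      (fun x => ⟨x.1, (Finset.mem_filter.mp (Finset.mem_of_mem_erase x.2)).2⟩) with hT
    have hTq : ∀ r ∈ T, (r : ℕ) ≠ q := by
      intro r hr
      obtain ⟨x, -, rfl⟩ := Finset.mem_image.mp hr
      exact Finset.ne_of_mem_erase x.2
    have hTm : ∀ p : ℕ, p.Prime → p ≠ q → p ∈ S → ∃ r ∈ T, (r : ℕ) = p := by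
      intro p hp hpq hpS
      exact ⟨⟨p, hp⟩, Finset.mem_image.mpr ⟨⟨p, Finset.mem_erase.mpr ⟨hpq,
        Finset.mem_filter.mpr ⟨hpS, hp⟩⟩⟩, Finset.mem_attach _ _, rfl⟩, rfl⟩
    obtain ⟨N', hN', hfac, hdvd, hex⟩ := exists_remove_finset T N
    have hNe' : NeZero N' := ⟨hN'⟩
    obtain ⟨F, hF, hF0, hFp⟩ := hex f hf
    obtain ⟨G, hG, hG0, hGp⟩ := hex g hg
    have hFq : qCoeff ⇑F q = qCoeff ⇑f q := hFp q hq hTq
    have hGq : qCoeff ⇑G q = qCoeff ⇑g q := hGp q hq hTq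
    have hFG : ∀ p : ℕ, p.Prime → p ≠ q → qCoeff ⇑F p = qCoeff ⇑G p := by
      intro p hp hpq
      by_cases hpT : ∃ r ∈ T, (r : ℕ) = p
      · obtain ⟨r, hr, rfl⟩ := hpT
        rw [hF0 r hr, hG0 r hr]
      · push Not at hpT
        rw [hFp p hp hpT, hGp p hp hpT, h p hp]
        intro hpS
        obtain ⟨r, hr, h1⟩ := hTm p hp hpq hpS
        exact hpT r hr h1
    have hco : ∀ n : ℕ, ¬ q ∣ n → qCoeff ⇑F n = qCoeff ⇑G n := by
      intro n hn
      refine qCoeff_eq_of_prime hF hG (fun _ _ => Iff.rfl) (fun p => p ≠ q)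
        (fun p hp hpq => hFG p hp hpq) n fun p hp hpn => ?_
      rintro rfl
      exact hn hpn
    have hfq : N'.factorization q = N.factorization q := hfac q hq hTq
    by_cases hqN : q ∣ N
    · by_cases hq2 : q ^ 2 ∣ N
      · exact hne (by rw [hf2 q hq hq2, hg2 q hq hq2])
      · have e1 : N.factorization q = 1 := by
          have h1 : 1 ≤ N.factorization q := (hq.dvd_iff_one_le_factorization hN0).mp hqN
          have h2 : ¬ 2 ≤ N.factorization q := fun h' =>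
            hq2 ((hq.pow_dvd_iff_le_factorization hN0).mpr h')
          omega
        obtain ⟨M, hM⟩ := hqN.trans hdvd
        have hqM : ¬ q ∣ M := by
          intro hd
          have h3 : q ^ 2 ∣ N' := by rw [hM, pow_two]; exact Nat.mul_dvd_mul_left q hd
          have h4 := (hq.pow_dvd_iff_le_factorization hN').mp h3
          omega
        obtain ⟨D⟩ := exists_ALData hq hM hqM
        have hfs := hf1 q hq hqN hq2
        have hgs := hg1 q hq hqN hq2
        have hneg : qCoeff ⇑g q = - qCoeff ⇑f q := by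
          have h5 : (qCoeff ⇑g q - qCoeff ⇑f q) * (qCoeff ⇑g q + qCoeff ⇑f q) = 0 := by
            linear_combination hgs - hfs
          rcases mul_eq_zero.mp h5 with h6 | h6
          · exact absurd (sub_eq_zero.mp h6).symm hne
          · exact eq_neg_of_add_eq_zero_left h6
        have hc := core D F G (qCoeff ⇑f q) hfs
          (by rw [← hFq]; exact heckeOp_eq_of_isNormalizedEigenform hF D.qp)
          (by rw [← hneg, ← hGq]; exact heckeOp_eq_of_isNormalizedEigenform hG D.qp) hco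
        exact hF.ne_zero hc.1
    · have hqN' : ¬ q ∣ N' := by
        intro hd
        have h1 : 1 ≤ N'.factorization q := (hq.dvd_iff_one_le_factorization hN').mp hd
        have h2 : N.factorization q = 0 := Nat.factorization_eq_zero_of_not_dvd hqN
        omega
      have h0 : F - G = 0 := eq_zero_of_support hq hqN' (F - G) fun n hn => by
        rw [qCoeff_sub, hco n hn, sub_self]
      apply hne
      rw [← hFq, ← hGq, sub_eq_zero.mp h0]
  apply eq_of_qCoeff_eq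
  intro n
  exact qCoeff_eq_of_prime hf hg (fun _ _ => Iff.rfl) (fun _ => True) (fun p hp _ => main p hp) n
    fun _ _ _ => trivial

/-- **Strong multiplicity one** for newforms of a fixed level. -/
theorem eq_of_isNewform [NeZero N] {f g : CuspForm (Gamma0 N) 2} (hf : f.IsNewform)
    (hg : g.IsNewform) (S : Finset ℕ)
    (h : ∀ ℓ : ℕ, ℓ.Prime → ℓ ∉ S → qCoeff ⇑f ℓ = qCoeff ⇑g ℓ) : f = g :=
  eq_of_almost_all f g hf.1 hg.1
    (fun q hq hqN hq2 => (newformBadPrimeCoeff N f hf q hq hqN).1 hq2)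
    (fun q hq hqN hq2 => (newformBadPrimeCoeff N g hg q hq hqN).1 hq2)
    (fun q hq hq2 => (newformBadPrimeCoeff N f hf q hq ((dvd_pow_self q two_ne_zero).trans hq2)).2 hq2)
    (fun q hq hq2 => (newformBadPrimeCoeff N g hg q hq ((dvd_pow_self q two_ne_zero).trans hq2)).2 hq2)
    S h

end Fermat.Agent.LTF.MultOne
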