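import Fermat.Agent.LTF.BLR
import Fermat.Agent.GalRep.PowTrace
import Fermat.Agent.GalRep.Density
import Fermat.Agent.Cofaith.ES
import Fermat.Agent.Frob.Charpoly
import Fermat.Agent.S37

/-!
# Boston–Lenstra–Ribet for the eigen-subgroups of `J₀(N)[pᵏ]`

For a system `a` of integers the subgroup `eigJ N S a n` of `J₀(N)` consists of the `x` with
`n x = 0` and `T_ℓ x = a_ℓ x` for all primes `ℓ ∉ S`.  If `ρ : G_ℚ → M₂(ℤ/pᵏ)` has
`tr ρ(Frob_ℓ) = a_ℓ`, `det ρ(Frob_ℓ) = ℓ` and its image spans `M₂(ℤ/pᵏ)`, then the Galois action on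
`eigJ N S a (p ^ k)` factors through `M₂(ℤ/pᵏ)`.
-/

set_option autoImplicit false

noncomputable section

namespace Fermat.Agent.LTF.BLR

open Matrix ModularCurve Fermat.Agent.Ribet Fermat.Agent.GalRep

/-- `GQ` -/
local notation "GQ" => (AlgebraicClosure ℚ ≃ₐ[ℚ] AlgebraicClosure ℚ)

section Eig

variable (N : ℕ) [NeZero N]

/-- The eigen-subgroup of `J₀(N)[n]`. -/
def eigJ (S : Set ℕ) (a : ℕ → ℤ) (n : ℕ) : AddSubgroup (JZero N) where
  carrier := {x | n • x = 0 ∧ ∀ (ℓ : ℕ) (hℓ : ℓ.Prime), ℓ ∉ S →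
    heckeOperatorBar N ⟨ℓ, hℓ⟩ x = a ℓ • x}
  zero_mem' := ⟨nsmul_zero _, fun ℓ hℓ _ => by rw [map_zero, zsmul_zero]⟩
  add_mem' := by
    rintro x y ⟨hx, hx'⟩ ⟨hy, hy'⟩
    exact ⟨by rw [nsmul_add, hx, hy, add_zero], fun ℓ hℓ h => by
      rw [map_add, hx' ℓ hℓ h, hy' ℓ hℓ h, zsmul_add]⟩
  neg_mem' := by
    rintro x ⟨hx, hx'⟩
    exact ⟨by rw [neg_nsmul, hx, neg_zero], fun ℓ hℓ h => by
      rw [map_neg, hx' ℓ hℓ h, zsmul_neg]⟩

variable {N}

theorem mem_eigJ {S : Set ℕ} {a : ℕ → ℤ} {n : ℕ} {x : JZero N} :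
    x ∈ eigJ N S a n ↔ n • x = 0 ∧ ∀ (ℓ : ℕ) (hℓ : ℓ.Prime), ℓ ∉ S →
      heckeOperatorBar N ⟨ℓ, hℓ⟩ x = a ℓ • x := Iff.rfl

theorem gal_mem_eigJ {S : Set ℕ} {a : ℕ → ℤ} {n : ℕ} (σ : GQ) {x : JZero N}
    (hx : x ∈ eigJ N S a n) : σ • x ∈ eigJ N S a n := by
  obtain ⟨h1, h2⟩ := hx
  refine ⟨?_, fun ℓ hℓ h => ?_⟩
  · have h3 : n • (σ • x) = σ • (n • x) :=
      (map_nsmul (DistribSMul.toAddMonoidHom (JZero N) σ) n x).symm
    rw [h3, h1]
    exact map_zero (DistribSMul.toAddMonoidHom (JZero N) σ)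
  rw [Fermat.Agent.HeckeComm.heckeOperatorBar_smul, h2 ℓ hℓ h]
  exact map_zsmul (DistribSMul.toAddMonoidHom (JZero N) σ) (a ℓ) x

theorem nsmul_eigJ {S : Set ℕ} {a : ℕ → ℤ} {n : ℕ} (x : eigJ N S a n) : n • x = 0 :=
  Subtype.ext x.2.1

/-- The `ℤ/n`-module structure. -/
instance instModuleEigJ (S : Set ℕ) (a : ℕ → ℤ) (n : ℕ) : Module (ZMod n) (eigJ N S a n) :=
  AddCommGroup.zmodModule nsmul_eigJ

/-- An additive endomorphism of `J₀(N)` preserving the eigen-subgroup, as a `ℤ/n`-linear map. -/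
def resEnd {S : Set ℕ} {a : ℕ → ℤ} {n : ℕ} (f : JZero N →+ JZero N)
    (hf : ∀ x ∈ eigJ N S a n, f x ∈ eigJ N S a n) : Module.End (ZMod n) (eigJ N S a n) :=
  AddMonoidHom.toZModLinearMap n
    ((f.comp (eigJ N S a n).subtype).codRestrict (eigJ N S a n) fun x => hf x.1 x.2)

@[simp] theorem coe_resEnd {S : Set ℕ} {a : ℕ → ℤ} {n : ℕ} (f : JZero N →+ JZero N)
    (hf : ∀ x ∈ eigJ N S a n, f x ∈ eigJ N S a n) (x : eigJ N S a n) :
    ((resEnd f hf x : eigJ N S a n) : JZero N) = f x := rfl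

/-- The Galois action on the eigen-subgroup. -/
def galE (S : Set ℕ) (a : ℕ → ℤ) (n : ℕ) : GQ →* Module.End (ZMod n) (eigJ N S a n) where
  toFun σ := resEnd (DistribSMul.toAddMonoidHom (JZero N) σ) fun _ hx => gal_mem_eigJ σ hx
  map_one' := by
    ext x
    exact one_smul GQ (x : JZero N)
  map_mul' σ τ := by
    ext x
    exact mul_smul σ τ (x : JZero N)

@[simp] theorem coe_galE {S : Set ℕ} {a : ℕ → ℤ} {n : ℕ} (σ : GQ) (x : eigJ N S a n) :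
    ((galE S a n σ x : eigJ N S a n) : JZero N) = σ • (x : JZero N) := rfl

end Eig

/-! ### Linear algebra -/

theorem trace_pow_fin_two {R : Type*} [CommRing R] (M : Matrix (Fin 2) (Fin 2) R) (k : ℕ) :
    (M ^ k).trace = tk M.trace M.det k := by
  induction k using Nat.twoStepInduction with
  | zero => simp
  | one => simp
  | more m h1 h2 =>
    rw [Fermat.Agent.FrobDensity.matrix_trace_pow, tk_add_two, h1, h2]

/-- If the Frobenius elements outside a finite set satisfy the characteristic polynomials of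
`ρ`, then so do all elements. -/
theorem quadratic_of_frobenius {R V : Type*} [CommRing R] [AddCommGroup V] [Module R V]
    (r : GQ →* Module.End R V) (ρ : GQ →* Matrix (Fin 2) (Fin 2) R)
    (L : IntermediateField ℚ (AlgebraicClosure ℚ)) [FiniteDimensional ℚ L]
    (hr : ∀ σ : GQ, (∀ x ∈ L, σ x = x) → r σ = 1)
    (hρ : ∀ σ : GQ, (∀ x ∈ L, σ x = x) → ρ σ = 1)
    (S : Set ℕ) (hS : S.Finite)
    (hfrob : ∀ ℓ : ℕ, ℓ.Prime → ℓ ∉ S → ∀ A : ValuationSubring (AlgebraicClosure ℚ),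
      A.LiesOverPrime ℓ → ∀ φ : GQ, A.IsFrobeniusAt φ ℓ →
        r φ * r φ - (ρ φ).trace • r φ + (ρ φ).det • (1 : Module.End R V) = 0) (g : GQ) :
    r g * r g - (ρ g).trace • r g + (ρ g).det • (1 : Module.End R V) = 0 := by
  obtain ⟨ℓ, hℓ, hℓS, A, hA, φ, hφ, k, k', -, hk'⟩ :=
    Fermat.Agent.FrobDensity.exists_frobenius_on L g S hS
  have hL : ∀ σ τ : GQ, (∀ x ∈ L, σ x = τ x) → ∀ x ∈ L, (τ⁻¹ * σ) x = x := by
    intro σ τ h x hx
    rw [AlgEquiv.mul_apply, h x hx, ← AlgEquiv.mul_apply, inv_mul_cancel, AlgEquiv.one_apply]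
  have h1 : r g = r φ ^ k' := by
    have h := hr _ (hL g (φ ^ k') hk')
    rw [map_mul] at h
    have h2 : r (φ ^ k') * (r (φ ^ k')⁻¹ * r g) = r (φ ^ k') := by rw [h, mul_one]
    rw [← mul_assoc, ← map_mul, mul_inv_cancel, map_one, one_mul, map_pow] at h2
    exact h2
  have h2 : ρ g = ρ φ ^ k' := by
    have h := hρ _ (hL g (φ ^ k') hk')
    rw [map_mul] at h
    have h2 : ρ (φ ^ k') * (ρ (φ ^ k')⁻¹ * ρ g) = ρ (φ ^ k') := by rw [h, mul_one]
    rw [← mul_assoc, ← map_mul, mul_inv_cancel, map_one, one_mul, map_pow] at h2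
    exact h2
  have hF := hfrob ℓ hℓ hℓS A hA φ hφ
  have hF' : r φ * r φ = (ρ φ).trace • r φ - algebraMap R (Module.End R V) (ρ φ).det := by
    rw [Algebra.algebraMap_eq_smul_one]
    rw [sub_add, sub_eq_zero] at hF
    exact hF
  have h3 := pow_quadratic _ _ _ hF' k'
  rw [h1, h2, h3, trace_pow_fin_two, Matrix.det_pow, Algebra.algebraMap_eq_smul_one]
  abel

/-- The span of the image of a representation which is residually onto `GL₂(𝔽_p)`. -/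
theorem span_eq_top_of_residual {R : Type*} [CommRing R] {p : ℕ} [Fact p.Prime] {G : Type*}
    (ρ : G → Matrix (Fin 2) (Fin 2) R) (red : R →+* ZMod p)
    (hred : ∀ x, red x = 0 → ∃ y, x = p * y) (hsurj : Function.Surjective red)
    (hnil : IsNilpotent (p : R))
    (hsp : Submodule.span (ZMod p) (Set.range fun g => (ρ g).map red) = ⊤) :
    Submodule.span R (Set.range ρ) = ⊤ := by
  set W := Submodule.span R (Set.range ρ) with hW
  -- every matrix is in `W + p M₂(R)`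
  have key : ∀ A : Matrix (Fin 2) (Fin 2) R, ∃ w ∈ W, ∃ B, A = w + (p : R) • B := by
    intro A
    have h1 : ∀ C ∈ Submodule.span (ZMod p) (Set.range fun g => (ρ g).map red),
        ∃ w ∈ W, w.map red = C := by
      intro C hC
      induction hC using Submodule.span_induction with
      | mem x h =>
        obtain ⟨g, rfl⟩ := h
        exact ⟨ρ g, Submodule.subset_span ⟨g, rfl⟩, rfl⟩
      | zero => exact ⟨0, W.zero_mem, by ext i j; simp⟩
      | add x y _ _ hx hy =>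
        obtain ⟨x', hx', rfl⟩ := hx
        obtain ⟨y', hy', rfl⟩ := hy
        exact ⟨x' + y', W.add_mem hx' hy', by ext i j; simp⟩
      | smul a x _ hx =>
        obtain ⟨x', hx', rfl⟩ := hx
        obtain ⟨a', rfl⟩ := hsurj a
        exact ⟨a' • x', W.smul_mem _ hx', by ext i j; simp⟩
    obtain ⟨w, hw, hwA⟩ := h1 (A.map red) (by rw [hsp]; trivial)
    have h2 : ∀ i j, ∃ y, A i j - w i j = p * y := by
      intro i j
      apply hred
      have := congrFun (congrFun hwA i) j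
      rw [Matrix.map_apply, Matrix.map_apply] at this
      rw [map_sub, this, sub_self]
    choose B hB using h2
    refine ⟨w, hw, Matrix.of B, ?_⟩
    ext i j
    rw [Matrix.add_apply, Matrix.smul_apply, smul_eq_mul, Matrix.of_apply, ← hB i j]
    ring
  have key2 : ∀ (n : ℕ) (A : Matrix (Fin 2) (Fin 2) R), ∃ w ∈ W, ∃ B, A = w + (p : R) ^ n • B := by
    intro n
    induction n with
    | zero => intro A; exact ⟨0, W.zero_mem, A, by simp⟩
    | succ n ih =>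
      intro A
      obtain ⟨w, hw, B, hB⟩ := ih A
      obtain ⟨w', hw', B', hB'⟩ := key B
      refine ⟨w + (p : R) ^ n • w', W.add_mem hw (W.smul_mem _ hw'), B', ?_⟩
      rw [hB, hB', smul_add, smul_smul, ← pow_succ, add_assoc]
  obtain ⟨n, hn⟩ := hnil
  rw [eq_top_iff]
  intro A _
  obtain ⟨w, hw, B, hB⟩ := key2 n A
  rw [hB, hn, zero_smul, add_zero]
  exact hw

/-- Matrices over `𝔽₂` are spanned by the invertible ones. -/
theorem span_GL2_F2 (X : Set (Matrix (Fin 2) (Fin 2) (ZMod 2)))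
    (hX : ∀ A : Matrix (Fin 2) (Fin 2) (ZMod 2), A.det = 1 → A ∈ X) :
    Submodule.span (ZMod 2) X = ⊤ := by
  rw [eq_top_iff]
  intro A _
  have key : ∀ A : Matrix (Fin 2) (Fin 2) (ZMod 2), ∃ a b c d : ZMod 2,
      A = a • (1 : Matrix (Fin 2) (Fin 2) (ZMod 2)) + b • !![0, 1; 1, 0] + c • !![1, 1; 0, 1] +
        d • !![1, 1; 1, 0] := by decide
  obtain ⟨a, b, c, d, h⟩ := key A
  rw [h]
  refine Submodule.add_mem _ (Submodule.add_mem _ (Submodule.add_mem _ ?_ ?_) ?_) ?_ <;>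
    exact Submodule.smul_mem _ _ (Submodule.subset_span (hX _ (by decide)))

/-- The span condition for `p = 2`: residually onto `GL₂(𝔽₂)`. -/
theorem span_eq_top_two {k : ℕ} (hk : k ≠ 0) {G : Type*}
    (ρ : G → Matrix (Fin 2) (Fin 2) (ZMod (2 ^ k)))
    (hsurj : ∀ A : Matrix (Fin 2) (Fin 2) (ZMod 2), A.det = 1 →
      ∃ g, (ρ g).map (ZMod.castHom (dvd_pow_self 2 hk) (ZMod 2)) = A) :
    Submodule.span (ZMod (2 ^ k)) (Set.range ρ) = ⊤ := by
  haveI : Fact (Nat.Prime 2) := ⟨Nat.prime_two⟩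
  haveI : NeZero (2 ^ k) := ⟨by positivity⟩
  refine span_eq_top_of_residual (p := 2) ρ (ZMod.castHom (dvd_pow_self 2 hk) (ZMod 2)) ?_
    (ZMod.castHom_surjective _) ⟨k, ?_⟩ (span_GL2_F2 _ fun A hA => ?_)
  · intro x hx
    have h1 : ((x.val : ℕ) : ZMod 2) = 0 := by
      rw [← hx, ZMod.castHom_apply, ZMod.natCast_val]
    rw [ZMod.natCast_eq_zero_iff] at h1
    obtain ⟨m, hm⟩ := h1
    refine ⟨(m : ZMod (2 ^ k)), ?_⟩
    rw [← ZMod.natCast_zmod_val x, hm]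
    push_cast
    rfl
  · have := ZMod.natCast_self (2 ^ k)
    exact_mod_cast this
  · obtain ⟨g, hg⟩ := hsurj A hA
    exact ⟨g, hg⟩

/-! ### Eichler–Shimura on `J₀(N)` -/

section JZero

variable {N : ℕ} [NeZero N] {p : ℕ}

theorem spec_JZero (p : ℕ) : letI := heckeModuleBar N
    haveI := Fermat.Agent.Cofaith.smulCommClass_JZero N
    SpecializationExists (K := ℚ) (L := AlgebraicClosure ℚ) N p (JZero N) := by
  letI := heckeModuleBar N
  haveI := Fermat.Agent.Cofaith.smulCommClass_JZero N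
  exact Fermat.Agent.S37.result N p (Fermat.Agent.HeckeComm.heckeOperatorsCommuteBar N) inferInstance

/-- The Eichler–Shimura relation on `J₀(N)[p^∞]`, unconditional. -/
theorem frob_quadratic (p : ℕ) {ℓ : ℕ} (hℓ : ℓ.Prime) (hN : ¬ ℓ ∣ N * p)
    {A : ValuationSubring (AlgebraicClosure ℚ)} (hA : A.LiesOverPrime ℓ) {φ : GQ}
    (hφ : A.IsFrobeniusAt φ ℓ) {x : JZero N} {n : ℕ} (hx : p ^ n • x = 0) :
    φ • φ • x - heckeOperatorBar N ⟨ℓ, hℓ⟩ (φ • x) + ℓ • x = 0 := by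
  letI := heckeModuleBar N
  haveI := Fermat.Agent.Cofaith.smulCommClass_JZero N
  have h := frobeniusQuadratic_of_specializationExists (spec_JZero (N := N) p)
    ℓ hℓ hN A hA φ hφ x ⟨n, hx⟩
  rwa [show heckeGen ⟨ℓ, hℓ⟩ • (φ • x) = heckeOperatorBar N ⟨ℓ, hℓ⟩ (φ • x) from
    heckeModuleBar_heckeGen_smul (Fermat.Agent.HeckeComm.heckeOperatorsCommuteBar N) _ _] at h

/-- **The Eichler–Shimura relation for all Galois elements** on the eigen-subgroup. -/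
theorem esRel_eigJ (hp : p.Prime) {k : ℕ} {S : Set ℕ} (hS : S.Finite)
    (hNS : ∀ ℓ : ℕ, ℓ.Prime → ℓ ∣ N * p → ℓ ∈ S) {a : ℕ → ℤ}
    {ρ : GQ →* Matrix (Fin 2) (Fin 2) (ZMod (p ^ k))}
    (hρ : ∃ L : IntermediateField ℚ (AlgebraicClosure ℚ), FiniteDimensional ℚ L ∧
      ∀ σ : GQ, (∀ x ∈ L, σ x = x) → ρ σ = 1)
    (hfrob : ∀ ℓ : ℕ, ℓ.Prime → ℓ ∉ S → ∀ A : ValuationSubring (AlgebraicClosure ℚ),
      A.LiesOverPrime ℓ → ∀ φ : GQ, A.IsFrobeniusAt φ ℓ →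
        (ρ φ).trace = ((a ℓ : ℤ) : ZMod (p ^ k)) ∧ (ρ φ).det = ((ℓ : ℕ) : ZMod (p ^ k))) :
    ESRel (galE (N := N) S a (p ^ k)) ρ := by
  obtain ⟨L₁, hL₁, h₁⟩ := hρ
  obtain ⟨L₂, hL₂, h₂⟩ := Fermat.Agent.Cofaith.exists_level N (pow_ne_zero k hp.ne_zero)
  haveI := hL₁
  haveI := hL₂
  haveI : FiniteDimensional ℚ (L₁ ⊔ L₂ : IntermediateField ℚ (AlgebraicClosure ℚ)) :=
    IntermediateField.finiteDimensional_sup L₁ L₂
  refine esRel_of_quadratic (quadratic_of_frobenius _ _ (L₁ ⊔ L₂) ?_ ?_ S hS ?_)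
  · intro σ hσ
    ext x
    exact h₂ σ (fun y hy => hσ y ((le_sup_right : L₂ ≤ L₁ ⊔ L₂) hy)) _ x.2.1
  · exact fun σ hσ => h₁ σ fun y hy => hσ y ((le_sup_left : L₁ ≤ L₁ ⊔ L₂) hy)
  · intro ℓ hℓ hℓS A hA φ hφ
    obtain ⟨ht, hd⟩ := hfrob ℓ hℓ hℓS A hA φ hφ
    have hN : ¬ ℓ ∣ N * p := fun h => hℓS (hNS ℓ hℓ h)
    ext x
    have h3 := frob_quadratic p hℓ hN hA hφ x.2.1
    rw [(gal_mem_eigJ φ x.2).2 ℓ hℓ hℓS] at h3
    rw [ht, hd]
    have e1 : (((a ℓ : ℤ) : ZMod (p ^ k)) • galE (N := N) S a (p ^ k) φ) x =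
        (a ℓ : ℤ) • galE (N := N) S a (p ^ k) φ x := by
      rw [LinearMap.smul_apply, Int.cast_smul_eq_zsmul]
    have e2 : (((ℓ : ℕ) : ZMod (p ^ k)) • (1 : Module.End (ZMod (p ^ k)) (eigJ N S a (p ^ k)))) x =
        ℓ • x := by
      rw [LinearMap.smul_apply, Nat.cast_smul_eq_nsmul, Module.End.one_apply]
    rw [LinearMap.add_apply, LinearMap.sub_apply, e1, e2]
    exact h3

/-- **Boston–Lenstra–Ribet for `J₀(N)`.** -/
theorem exists_algHom_eigJ (hp : p.Prime) {k : ℕ} {S : Set ℕ} (hS : S.Finite)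
    (hNS : ∀ ℓ : ℕ, ℓ.Prime → ℓ ∣ N * p → ℓ ∈ S) {a : ℕ → ℤ}
    {ρ : GQ →* Matrix (Fin 2) (Fin 2) (ZMod (p ^ k))}
    (hρ : ∃ L : IntermediateField ℚ (AlgebraicClosure ℚ), FiniteDimensional ℚ L ∧
      ∀ σ : GQ, (∀ x ∈ L, σ x = x) → ρ σ = 1)
    (hfrob : ∀ ℓ : ℕ, ℓ.Prime → ℓ ∉ S → ∀ A : ValuationSubring (AlgebraicClosure ℚ),
      A.LiesOverPrime ℓ → ∀ φ : GQ, A.IsFrobeniusAt φ ℓ →
        (ρ φ).trace = ((a ℓ : ℤ) : ZMod (p ^ k)) ∧ (ρ φ).det = ((ℓ : ℕ) : ZMod (p ^ k)))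
    (hspan : Submodule.span (ZMod (p ^ k)) (Set.range ρ) = ⊤) :
    ∃ Φ : Matrix (Fin 2) (Fin 2) (ZMod (p ^ k)) →ₐ[ZMod (p ^ k)]
        Module.End (ZMod (p ^ k)) (eigJ N S a (p ^ k)),
      ∀ (g : GQ) (x : eigJ N S a (p ^ k)), ((Φ (ρ g) x : eigJ N S a (p ^ k)) : JZero N) =
        g • (x : JZero N) := by
  obtain ⟨Φ, hΦ⟩ := exists_algHom (esRel_eigJ (N := N) hp hS hNS hρ hfrob) hspan
  exact ⟨Φ, fun g x => by rw [hΦ g]; rfl⟩

end JZero

end Fermat.Agent.LTF.BLR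

end
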