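import Mathlib
import Fermat.Prelude.Def_CuspForm_HeckeAlgebra
import Fermat.Agent.S21.Assembly
import Fermat.Agent.Oldforms.Trace

/-!
# Semisimplicity of the Hecke operators from a Petersson form

`PetForm` is an abstract Petersson scalar product on weight two cusp forms, invariant under a
group `G` of real matrices containing `SL(2, ℤ)` and the matrices `diag(p, 1)`.
-/

set_option autoImplicit false
set_option linter.style.haveILetI false
set_option linter.unusedSectionVars false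

open UpperHalfPlane ModularForm CongruenceSubgroup Module Polynomial
open scoped MatrixGroups ComplexConjugate ModularForm
open Matrix.SpecialLinearGroup (mapGL)

namespace Fermat.Agent.LTF.Pet2

section linalg

variable {V : Type*} [AddCommGroup V] [Module ℂ V] [FiniteDimensional ℂ V]

/-- A self-adjoint operator is semisimple. -/
theorem isSemisimple_of_core (c : InnerProductSpace.Core ℂ V) (T : Module.End ℂ V)
    (hT : ∀ x y, c.inner (T x) y = c.inner x (T y)) : T.IsSemisimple := by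
  letI : NormedAddCommGroup V := c.toNormedAddCommGroup
  letI : InnerProductSpace ℂ V := InnerProductSpace.ofCore c.toCore
  have h : LinearMap.IsSymmetric T := fun x y => hT x y
  exact Module.End.isFinitelySemisimple_iff_isSemisimple.1 h.isFinitelySemisimple

/-- The eigenvalues of a self-adjoint operator are real. -/
theorem im_eq_zero_of_core (c : InnerProductSpace.Core ℂ V) (T : Module.End ℂ V)
    (hT : ∀ x y, c.inner (T x) y = c.inner x (T y)) {a : ℂ} {x : V} (hx : x ≠ 0)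
    (h : T x = a • x) : a.im = 0 := by
  letI : NormedAddCommGroup V := c.toNormedAddCommGroup
  letI : InnerProductSpace ℂ V := InnerProductSpace.ofCore c.toCore
  have h' : LinearMap.IsSymmetric T := fun x y => hT x y
  have h1 := h'.conj_eigenvalue_eq_self (μ := a)
    (Module.End.hasEigenvalue_of_hasEigenvector ⟨Module.End.mem_eigenspace_iff.2 h, hx⟩)
  exact Complex.conj_eq_iff_im.1 h1

/-- The algebra generated by commuting semisimple operators consists of semisimple operators. -/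
theorem isSemisimple_of_mem_adjoin {s : Set (Module.End ℂ V)} (hs : ∀ f ∈ s, f.IsSemisimple)
    (hc : ∀ f ∈ s, ∀ g ∈ s, Commute f g) {x : Module.End ℂ V} (hx : x ∈ Algebra.adjoin ℂ s) :
    x.IsSemisimple := by
  have hcomm : ∀ a ∈ Algebra.adjoin ℂ s, ∀ b ∈ Algebra.adjoin ℂ s, Commute a b := by
    have := Algebra.isMulCommutative_adjoin ℂ hc
    intro a ha b hb
    have h := this.is_comm.comm ⟨a, ha⟩ ⟨b, hb⟩
    exact congrArg Subtype.val h
  induction hx using Algebra.adjoin_induction with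
  | mem x hx => exact hs x hx
  | algebraMap r =>
    have : (algebraMap ℂ (Module.End ℂ V) r) = r • (LinearMap.id : Module.End ℂ V) := by
      ext; simp
    rw [this]
    exact Module.End.IsSemisimple_smul r Module.End.isSemisimple_id
  | add x y hx hy h1 h2 => exact h1.add_of_commute (hcomm x hx y hy) h2
  | mul x y hx hy h1 h2 => exact h1.mul_of_commute (hcomm x hx y hy) h2

/-- Commuting semisimple operators: a nilpotent element of the generated algebra vanishes. -/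
theorem eq_zero_of_isNilpotent_of_mem_adjoin {s : Set (Module.End ℂ V)}
    (hs : ∀ f ∈ s, f.IsSemisimple) (hc : ∀ f ∈ s, ∀ g ∈ s, Commute f g) {x : Module.End ℂ V}
    (hx : x ∈ Algebra.adjoin ℂ s) (hn : IsNilpotent x) : x = 0 :=
  Module.End.eq_zero_of_isNilpotent_isSemisimple hn (isSemisimple_of_mem_adjoin hs hc hx)

/-- The joint eigenspaces of commuting semisimple operators span. -/
theorem iSup_iInf_eigenspace_eq_top {ι : Type*} (T : ι → Module.End ℂ V)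
    (hs : ∀ i, (T i).IsSemisimple) (hc : Pairwise fun i j => Commute (T i) (T j)) :
    ⨆ χ : ι → ℂ, ⨅ i, (T i).eigenspace (χ i) = ⊤ := by
  have h := Module.End.iSup_iInf_maxGenEigenspace_eq_top_of_forall_mapsTo (f := T) (K := ℂ)
    (fun i j φ => by
      rcases eq_or_ne i j with rfl | hij
      · exact (T i).mapsTo_maxGenEigenspace_of_comm (Commute.refl _) φ
      · exact Module.End.mapsTo_maxGenEigenspace_of_comm (hc hij.symm) φ) (fun i => by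
      exact Module.End.iSup_maxGenEigenspace_eq_top (T i))
  rw [← h]
  congr 1
  ext χ : 1
  congr 1
  ext i : 1
  exact ((Module.End.isFinitelySemisimple_iff_isSemisimple.2 (hs i)).maxGenEigenspace_eq_eigenspace
    (χ i)).symm

end linalg

/-- An abstract Petersson scalar product on weight two cusp forms. -/
structure PetForm where
  /-- the space of functions on which the form is defined -/
  carrier : Submodule ℂ (ℍ → ℂ)
  /-- the group under which the form is invariant -/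
  G : Subgroup (GL (Fin 2) ℝ)
  /-- the form -/
  P : (ℍ → ℂ) → (ℍ → ℂ) → ℂ
  mem_cusp : ∀ (M : ℕ) [NeZero M] (f : CuspForm (Gamma0 M) 2), (⇑f : ℍ → ℂ) ∈ carrier
  SL_mem : ∀ γ : SL(2, ℤ), mapGL ℝ γ ∈ G
  diag_mem : ∀ p : ℕ, p ≠ 0 → heckeDiagMatrix p ∈ G
  mem_slash : ∀ f ∈ carrier, ∀ α ∈ G, f ∣[(2 : ℤ)] α ∈ carrier
  add_left : ∀ f ∈ carrier, ∀ g ∈ carrier, ∀ h ∈ carrier, P (f + g) h = P f h + P g h
  smul_left : ∀ (a : ℂ), ∀ f ∈ carrier, ∀ h ∈ carrier, P (a • f) h = a * P f h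
  conj_symm : ∀ f ∈ carrier, ∀ g ∈ carrier, conj (P g f) = P f g
  inv : ∀ f ∈ carrier, ∀ g ∈ carrier, ∀ α ∈ G, P (f ∣[(2 : ℤ)] α) (g ∣[(2 : ℤ)] α) = P f g
  nonneg : ∀ (M : ℕ) [NeZero M] (f : CuspForm (Gamma0 M) 2), 0 ≤ (P f f).re
  definite : ∀ (M : ℕ) [NeZero M] (f : CuspForm (Gamma0 M) 2), P f f = 0 → f = 0

namespace PetForm

variable (B : PetForm)

theorem add_right {f g h : ℍ → ℂ} (hf : f ∈ B.carrier) (hg : g ∈ B.carrier)
    (hh : h ∈ B.carrier) : B.P f (g + h) = B.P f g + B.P f h := by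
  rw [← B.conj_symm f hf _ (add_mem hg hh), B.add_left g hg h hh f hf, map_add,
    B.conj_symm f hf g hg, B.conj_symm f hf h hh]

theorem smul_right {f g : ℍ → ℂ} (a : ℂ) (hf : f ∈ B.carrier) (hg : g ∈ B.carrier) :
    B.P f (a • g) = conj a * B.P f g := by
  rw [← B.conj_symm f hf _ (Submodule.smul_mem _ a hg), B.smul_left a g hg f hf, map_mul,
    B.conj_symm f hf g hg]

theorem sum_left {ι : Type*} (s : Finset ι) (F : ι → ℍ → ℂ) (hF : ∀ i ∈ s, F i ∈ B.carrier)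
    {g : ℍ → ℂ} (hg : g ∈ B.carrier) : B.P (∑ i ∈ s, F i) g = ∑ i ∈ s, B.P (F i) g := by
  classical
  induction s using Finset.induction_on with
  | empty =>
    have := B.smul_left 0 g hg g hg
    rw [zero_smul, zero_mul] at this
    simpa using this
  | insert a s ha ih =>
    rw [Finset.sum_insert ha, Finset.sum_insert ha,
      B.add_left _ (hF a (Finset.mem_insert_self a s)) _
        (sum_mem fun i hi => hF i (Finset.mem_insert_of_mem hi)) g hg,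
      ih fun i hi => hF i (Finset.mem_insert_of_mem hi)]

/-- The scalar product on `S_2(Γ₀(M))`. -/
@[reducible] noncomputable def core (M : ℕ) [NeZero M] :
    InnerProductSpace.Core ℂ (CuspForm (Gamma0 M) 2) where
  inner f g := B.P g f
  conj_inner_symm f g := B.conj_symm _ (B.mem_cusp M g) _ (B.mem_cusp M f)
  re_inner_nonneg f := B.nonneg M f
  add_left f g h := by
    exact B.add_right (B.mem_cusp M h) (B.mem_cusp M f) (B.mem_cusp M g)
  smul_left f g r := by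
    exact B.smul_right r (B.mem_cusp M g) (B.mem_cusp M f)
  definite f h := B.definite M f h

section hecke

variable {M : ℕ} [NeZero M] {ℓ : ℕ}

theorem slash_gamma (f : CuspForm (Gamma0 M) 2) {γ : SL(2, ℤ)} (hγ : γ ∈ Gamma0 M) :
    (⇑f : ℍ → ℂ) ∣[(2 : ℤ)] mapGL ℝ γ = f :=
  SlashInvariantFormClass.slash_action_eq f _ ⟨γ, hγ, rfl⟩

/-- the matrix `(1 j; 0 1)`. -/
def Tj (j : ℤ) : SL(2, ℤ) := ⟨!![1, j; 0, 1], by rw [Matrix.det_fin_two_of]; ring⟩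

theorem Tj_mem (j : ℤ) : Tj j ∈ Gamma0 M := by
  rw [Gamma0_mem]; simp [Tj]

theorem heckeMatrix_eq (hℓ : ℓ ≠ 0) (j : ℕ) :
    heckeMatrix ℓ j = heckeMatrix ℓ 0 * mapGL ℝ (Tj j) := by
  ext a b
  rw [Units.val_mul, Fermat.Agent.HeckePar.val_mapGL, val_heckeMatrix hℓ, val_heckeMatrix hℓ]
  fin_cases a <;> fin_cases b <;> simp [Tj, Matrix.mul_apply, Fin.sum_univ_two]

/-- the left factor -/
def gam (M ℓ : ℕ) (u v : ℤ) (h : u * ℓ - v * M = 1) : SL(2, ℤ) :=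
  ⟨!![(ℓ : ℤ), v; (M : ℤ), u], by rw [Matrix.det_fin_two_of]; linear_combination h⟩

/-- the right factor -/
def del (M ℓ : ℕ) (u v : ℤ) (h : u * ℓ - v * M = 1) : SL(2, ℤ) :=
  ⟨!![1, v; (M : ℤ), u * ℓ], by rw [Matrix.det_fin_two_of]; linear_combination h⟩

theorem gam_mem (u v : ℤ) (h : u * ℓ - v * M = 1) : gam M ℓ u v h ∈ Gamma0 M := by
  rw [Gamma0_mem]; simp [gam]

theorem del_mem (u v : ℤ) (h : u * ℓ - v * M = 1) : del M ℓ u v h ∈ Gamma0 M := by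
  rw [Gamma0_mem]; simp [del]

theorem gam_mul (hℓ : ℓ ≠ 0) (u v : ℤ) (h : u * ℓ - v * M = 1) :
    mapGL ℝ (gam M ℓ u v h) * heckeMatrix ℓ 0 = heckeDiagMatrix ℓ * mapGL ℝ (del M ℓ u v h) := by
  ext a b
  rw [Units.val_mul, Units.val_mul, Fermat.Agent.HeckePar.val_mapGL,
    Fermat.Agent.HeckePar.val_mapGL, val_heckeMatrix hℓ, val_heckeDiagMatrix hℓ]
  fin_cases a <;> fin_cases b <;> simp [gam, del, Matrix.mul_apply, Fin.sum_univ_two, mul_comm]

theorem slash_D (hℓ : ℓ ≠ 0) (u v : ℤ) (h : u * ℓ - v * M = 1) (f : CuspForm (Gamma0 M) 2) :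
    (⇑f : ℍ → ℂ) ∣[(2 : ℤ)] heckeMatrix ℓ 0 =
      (⇑f ∣[(2 : ℤ)] heckeDiagMatrix ℓ) ∣[(2 : ℤ)] mapGL ℝ (del M ℓ u v h) := by
  rw [← SlashAction.slash_mul, ← gam_mul hℓ, SlashAction.slash_mul,
    slash_gamma f (gam_mem u v h)]

theorem slash_diag_D (hℓ : ℓ ≠ 0) (f : ℍ → ℂ) :
    (f ∣[(2 : ℤ)] heckeDiagMatrix ℓ) ∣[(2 : ℤ)] heckeMatrix ℓ 0 = f := by
  ext τ
  have hℓ' : (ℓ : ℂ) ≠ 0 := by exact_mod_cast hℓ
  rw [slash_heckeMatrix_apply 2 hℓ, slash_heckeDiagMatrix_apply 2 hℓ]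
  have e : heckeDiagMatrix ℓ • heckeMatrix ℓ 0 • τ = τ := by
    apply UpperHalfPlane.ext
    rw [coe_heckeDiagMatrix_smul hℓ, coe_heckeMatrix_smul hℓ]
    field_simp
    simp
  rw [e, show (2 : ℤ) - 1 = 1 by norm_num, zpow_one, ← mul_assoc, inv_mul_cancel₀ hℓ', one_mul]

theorem exists_uv (hℓ : ℓ.Prime) (hℓM : ¬ ℓ ∣ M) : ∃ u v : ℤ, u * ℓ - v * M = 1 := by
  have hcop : IsCoprime (ℓ : ℤ) (M : ℤ) :=
    Nat.isCoprime_iff_coprime.mpr ((Nat.Prime.coprime_iff_not_dvd hℓ).mpr hℓM)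
  obtain ⟨a, b, hab⟩ := hcop
  exact ⟨a, -b, by linear_combination hab⟩

theorem P_D (hℓ : ℓ.Prime) (hℓM : ¬ ℓ ∣ M) (f g : CuspForm (Gamma0 M) 2) :
    B.P (⇑f ∣[(2 : ℤ)] heckeMatrix ℓ 0) g = B.P (⇑f ∣[(2 : ℤ)] heckeDiagMatrix ℓ) g := by
  obtain ⟨u, v, h⟩ := exists_uv (M := M) hℓ hℓM
  have hf' := B.mem_slash _ (B.mem_cusp M f) _ (B.diag_mem ℓ hℓ.ne_zero)
  conv_lhs => rw [slash_D hℓ.ne_zero u v h, ← slash_gamma g (del_mem u v h)]
  exact B.inv _ hf' _ (B.mem_cusp M g) _ (B.SL_mem _)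

theorem D_mem (hℓ : ℓ.Prime) (hℓM : ¬ ℓ ∣ M) (f : CuspForm (Gamma0 M) 2) :
    (⇑f : ℍ → ℂ) ∣[(2 : ℤ)] heckeMatrix ℓ 0 ∈ B.carrier := by
  obtain ⟨u, v, h⟩ := exists_uv (M := M) hℓ hℓM
  rw [slash_D hℓ.ne_zero u v h]
  exact B.mem_slash _ (B.mem_slash _ (B.mem_cusp M f) _ (B.diag_mem ℓ hℓ.ne_zero)) _ (B.SL_mem _)

theorem P_heckeT_left (hℓ : ℓ.Prime) (hℓM : ¬ ℓ ∣ M) (f g : CuspForm (Gamma0 M) 2) :
    B.P (CuspForm.heckeTLin 2 hℓ hℓM f) g =
      (ℓ + 1 : ℂ) * B.P (⇑f ∣[(2 : ℤ)] heckeDiagMatrix ℓ) g := by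
  have hg := B.mem_cusp M g
  have hm : ∀ j ∈ Finset.range ℓ, (⇑f : ℍ → ℂ) ∣[(2 : ℤ)] heckeMatrix ℓ j ∈ B.carrier := by
    intro j _
    rw [heckeMatrix_eq hℓ.ne_zero, SlashAction.slash_mul]
    exact B.mem_slash _ (B.D_mem hℓ hℓM f) _ (B.SL_mem _)
  have hj : ∀ j ∈ Finset.range ℓ, B.P (⇑f ∣[(2 : ℤ)] heckeMatrix ℓ j) g =
      B.P (⇑f ∣[(2 : ℤ)] heckeDiagMatrix ℓ) g := by
    intro j _
    conv_lhs => rw [heckeMatrix_eq hℓ.ne_zero, SlashAction.slash_mul,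
      ← slash_gamma g (Tj_mem (M := M) j)]
    rw [B.inv _ (B.D_mem hℓ hℓM f) _ hg _ (B.SL_mem _), B.P_D hℓ hℓM]
  rw [CuspForm.coe_heckeTLin_apply, heckeT_def,
    B.add_left _ (sum_mem hm) _ (B.mem_slash _ (B.mem_cusp M f) _ (B.diag_mem ℓ hℓ.ne_zero)) _ hg,
    B.sum_left _ _ hm hg, Finset.sum_congr rfl hj, Finset.sum_const, Finset.card_range,
    nsmul_eq_mul]
  ring

theorem P_diag_symm (hℓ : ℓ.Prime) (hℓM : ¬ ℓ ∣ M) (f g : CuspForm (Gamma0 M) 2) :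
    B.P (⇑f ∣[(2 : ℤ)] heckeDiagMatrix ℓ) g = B.P f (⇑g ∣[(2 : ℤ)] heckeDiagMatrix ℓ) := by
  obtain ⟨u, v, h⟩ := exists_uv (M := M) hℓ hℓM
  have hf := B.mem_cusp M f
  have hg := B.mem_cusp M g
  have hfβ := B.mem_slash _ hf _ (B.diag_mem ℓ hℓ.ne_zero)
  have hgβ := B.mem_slash _ hg _ (B.diag_mem ℓ hℓ.ne_zero)
  have hD : heckeMatrix ℓ 0 ∈ B.G := by
    have : heckeMatrix ℓ 0 = (mapGL ℝ (gam M ℓ u v h))⁻¹ *
        (heckeDiagMatrix ℓ * mapGL ℝ (del M ℓ u v h)) := by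
      rw [← gam_mul hℓ.ne_zero]; group
    rw [this]
    exact B.G.mul_mem (B.G.inv_mem (B.SL_mem _)) (B.G.mul_mem (B.diag_mem ℓ hℓ.ne_zero)
      (B.SL_mem _))
  rw [← B.inv _ hfβ _ hg _ hD, slash_diag_D hℓ.ne_zero, slash_D hℓ.ne_zero u v h]
  conv_lhs => rw [← slash_gamma f (del_mem u v h)]
  exact B.inv _ hf _ hgβ _ (B.SL_mem _)

/-- **The Hecke operators are self-adjoint.** -/
theorem heckeT_symm (hℓ : ℓ.Prime) (hℓM : ¬ ℓ ∣ M) (f g : CuspForm (Gamma0 M) 2) :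
    B.P (CuspForm.heckeTLin 2 hℓ hℓM f) g = B.P f (CuspForm.heckeTLin 2 hℓ hℓM g) := by
  have hf := B.mem_cusp M f
  have hg := B.mem_cusp M g
  have hgβ := B.mem_slash _ hg _ (B.diag_mem ℓ hℓ.ne_zero)
  rw [B.P_heckeT_left, B.P_diag_symm hℓ hℓM,
    ← B.conj_symm f hf _ (B.mem_cusp M (CuspForm.heckeTLin 2 hℓ hℓM g)), B.P_heckeT_left, map_mul,
    B.conj_symm f hf _ hgβ]
  simp

theorem heckeT_isSemisimple (B : PetForm) (hℓ : ℓ.Prime) (hℓM : ¬ ℓ ∣ M) :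
    Module.End.IsSemisimple (CuspForm.heckeTLin (N := M) 2 hℓ hℓM) := by
  have := S21per.finiteDimensional_cuspForm (N := M)
  exact isSemisimple_of_core (B.core M) _ fun x y => (B.heckeT_symm hℓ hℓM y x).symm

/-- Hecke eigenvalues are real. -/
theorem heckeT_eigenvalue_real (B : PetForm) (hℓ : ℓ.Prime) (hℓM : ¬ ℓ ∣ M)
    {f : CuspForm (Gamma0 M) 2} (hf : f ≠ 0) {a : ℂ} (h : CuspForm.heckeTLin 2 hℓ hℓM f = a • f) :
    a.im = 0 := by
  have := S21per.finiteDimensional_cuspForm (N := M)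
  exact im_eq_zero_of_core (B.core M) _ (fun x y => (B.heckeT_symm hℓ hℓM y x).symm) hf h

/-- **The Atkin-Lehner operators are self-adjoint.** -/
theorem w_symm {M' q : ℕ} (D : Fermat.Agent.Oldforms.ALData M M' q) (f g : CuspForm (Gamma0 M) 2) :
    B.P (D.w 2 f) g = B.P f (D.w 2 g) := by
  have hW : D.W ∈ B.G := B.G.mul_mem (B.SL_mem _) (B.diag_mem q D.hq.ne_zero)
  rw [← B.inv _ (B.mem_cusp M (D.w 2 f)) _ (B.mem_cusp M g) _ hW]
  have e : (⇑(D.w 2 f) : ℍ → ℂ) ∣[(2 : ℤ)] D.W = f := by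
    have h := D.w_w f
    have h' := congrArg (fun F : CuspForm (Gamma0 M) 2 => (⇑F : ℍ → ℂ)) h
    exact h'
  rw [e]
  rfl

/-- Elements of the anemic Hecke algebra are semisimple. -/
theorem isSemisimple_of_mem_heckeAlgebra (B : PetForm) {S : Set ℕ}
    (hS : ∀ q : ℕ, q.Prime → q ∣ M → q ∈ S)
    {x : Module.End ℂ (CuspForm (Gamma0 M) 2)} (hx : x ∈ CuspForm.heckeAlgebra M 2 S) :
    x.IsSemisimple := by
  have := S21per.finiteDimensional_cuspForm (N := M)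
  refine isSemisimple_of_mem_adjoin (s := CuspForm.heckeGenerators M 2 S) ?_ ?_ ?_
  · rintro f (⟨ℓ, hℓ, hℓM, -, rfl⟩ | ⟨q, hqM, hq, hqS, rfl⟩)
    · exact B.heckeT_isSemisimple hℓ hℓM
    · exact absurd (hS q hq hqM) hqS
  · intro f hf g hg
    exact CuspForm.commute_of_mem_heckeGenerators hf hg
  · have h : Algebra.adjoin ℤ (CuspForm.heckeGenerators M 2 S) ≤
        (Algebra.adjoin ℂ (CuspForm.heckeGenerators M 2 S)).restrictScalars ℤ :=
      Algebra.adjoin_le Algebra.subset_adjoin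
    exact h hx

/-- The anemic Hecke algebra is reduced. -/
theorem isReduced_heckeAlgebra (B : PetForm) {S : Set ℕ}
    (hS : ∀ q : ℕ, q.Prime → q ∣ M → q ∈ S) : IsReduced (CuspForm.heckeAlgebra M 2 S) := by
  have := S21per.finiteDimensional_cuspForm (N := M)
  refine ⟨fun x hx => ?_⟩
  apply Subtype.ext
  obtain ⟨n, hn⟩ := hx
  have h : IsNilpotent (x : Module.End ℂ (CuspForm (Gamma0 M) 2)) :=
    ⟨n, by rw [← SubmonoidClass.coe_pow, hn]; rfl⟩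
  exact Module.End.eq_zero_of_isNilpotent_isSemisimple h
    (B.isSemisimple_of_mem_heckeAlgebra hS x.2)

/-- `S_2(Γ₀(M))` is the sum of the joint eigenspaces of the Hecke operators `T_ℓ`, `ℓ ∤ M`. -/
theorem iSup_joint_eigenspace (B : PetForm) :
    ⨆ χ : {ℓ : ℕ // ℓ.Prime ∧ ¬ ℓ ∣ M} → ℂ, ⨅ ℓ : {ℓ : ℕ // ℓ.Prime ∧ ¬ ℓ ∣ M},
      Module.End.eigenspace (CuspForm.heckeTLin (N := M) 2 ℓ.2.1 ℓ.2.2) (χ ℓ) = ⊤ := by
  have := S21per.finiteDimensional_cuspForm (N := M)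
  exact iSup_iInf_eigenspace_eq_top
    (fun ℓ : {ℓ : ℕ // ℓ.Prime ∧ ¬ ℓ ∣ M} => CuspForm.heckeTLin (N := M) 2 ℓ.2.1 ℓ.2.2)
    (fun ℓ => B.heckeT_isSemisimple ℓ.2.1 ℓ.2.2)
    (fun i j _ => CuspForm.heckeTLin_comm 2 i.2.1 i.2.2 j.2.1 j.2.2)

end hecke

section pm

variable (M : ℕ) [NeZero M] (Q : Set ℕ)

/-- The subspace of forms with `U_q² f = f` for all `q ∈ Q`, `q ∣ M`. -/
noncomputable def pm : Submodule ℂ (CuspForm (Gamma0 M) 2) :=
  ⨅ q : {q : ℕ // q ∈ Q ∧ q ∣ M}, LinearMap.ker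
    (CuspForm.heckeULin (N := M) 2 q.2.2 ∘ₗ CuspForm.heckeULin (N := M) 2 q.2.2 - LinearMap.id)

variable {M Q}

theorem mem_pm {f : CuspForm (Gamma0 M) 2} : f ∈ pm M Q ↔
    ∀ q (_ : q ∈ Q) (hq : q ∣ M), CuspForm.heckeULin 2 hq (CuspForm.heckeULin 2 hq f) = f := by
  rw [pm, Submodule.mem_iInf]
  constructor
  · intro h q hq hqM
    have := h ⟨q, hq, hqM⟩
    rw [LinearMap.mem_ker, LinearMap.sub_apply, sub_eq_zero] at this
    exact this
  · rintro h ⟨q, hq, hqM⟩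
    rw [LinearMap.mem_ker, LinearMap.sub_apply, sub_eq_zero]
    exact h q hq hqM

theorem T_mem_pm {ℓ : ℕ} (hℓ : ℓ.Prime) (hℓM : ¬ ℓ ∣ M) {f : CuspForm (Gamma0 M) 2}
    (hf : f ∈ pm M Q) : CuspForm.heckeTLin 2 hℓ hℓM f ∈ pm M Q := by
  rw [mem_pm] at hf ⊢
  intro q hq hqM
  have hc : ∀ g : CuspForm (Gamma0 M) 2, CuspForm.heckeULin 2 hqM (CuspForm.heckeTLin 2 hℓ hℓM g) =
      CuspForm.heckeTLin 2 hℓ hℓM (CuspForm.heckeULin 2 hqM g) := fun g =>
    (LinearMap.congr_fun (CuspForm.heckeTLin_heckeULin_comm 2 hℓ hℓM hqM) g).symm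
  rw [hc, hc, hf q hq hqM]

theorem U_mem_pm {r : ℕ} (hrM : r ∣ M) {f : CuspForm (Gamma0 M) 2}
    (hf : f ∈ pm M Q) : CuspForm.heckeULin 2 hrM f ∈ pm M Q := by
  rw [mem_pm] at hf ⊢
  intro q hq hqM
  have hc : ∀ g : CuspForm (Gamma0 M) 2, CuspForm.heckeULin 2 hqM (CuspForm.heckeULin 2 hrM g) =
      CuspForm.heckeULin 2 hrM (CuspForm.heckeULin 2 hqM g) := fun g =>
    (LinearMap.congr_fun (CuspForm.heckeULin_comm 2 hrM hqM) g).symm
  rw [hc, hc, hf q hq hqM]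

/-- `T_ℓ` on the `±`-space. -/
noncomputable def Tpm {ℓ : ℕ} (hℓ : ℓ.Prime) (hℓM : ¬ ℓ ∣ M) : Module.End ℂ (pm M Q) :=
  (CuspForm.heckeTLin (N := M) 2 hℓ hℓM).restrict fun _ hf => T_mem_pm hℓ hℓM hf

/-- `U_r` on the `±`-space. -/
noncomputable def Upm {r : ℕ} (hrM : r ∣ M) : Module.End ℂ (pm M Q) :=
  (CuspForm.heckeULin (N := M) 2 hrM).restrict fun _ hf => U_mem_pm hrM hf

theorem Tpm_isSemisimple (B : PetForm) {ℓ : ℕ} (hℓ : ℓ.Prime) (hℓM : ¬ ℓ ∣ M) :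
    (Tpm (Q := Q) hℓ hℓM).IsSemisimple :=
  (B.heckeT_isSemisimple hℓ hℓM).restrict (p := pm M Q) fun _ hf => T_mem_pm hℓ hℓM hf

theorem Upm_isSemisimple {r : ℕ} (hr : r ∈ Q) (hrM : r ∣ M) :
    (Upm (Q := Q) hrM).IsSemisimple := by
  refine Module.End.isSemisimple_of_squarefree_aeval_eq_zero (p := (X ^ 2 - 1 : ℂ[X])) ?_ ?_
  · have : (X ^ 2 - 1 : ℂ[X]).Separable := by
      have h := Polynomial.separable_X_pow_sub_C (F := ℂ) (n := 2) 1 (by norm_num) one_ne_zero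
      simpa using h
    exact this.squarefree
  · ext f : 1
    rw [map_sub, map_pow, aeval_X, map_one, LinearMap.sub_apply, LinearMap.zero_apply, sub_eq_zero,
      pow_two, Module.End.mul_apply, Module.End.one_apply]
    exact Subtype.ext (mem_pm.1 f.2 r hr hrM)

/-- The operators `T_ℓ` (`ℓ ∤ M`) and `U_q` (`q ∈ Q`) on the `±`-space. -/
def pmGen (M : ℕ) [NeZero M] (Q : Set ℕ) : Set (Module.End ℂ (pm M Q)) :=
  {x | ∃ (ℓ : ℕ) (hℓ : ℓ.Prime) (hℓM : ¬ ℓ ∣ M), x = Tpm hℓ hℓM} ∪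
    {x | ∃ (q : ℕ) (_ : q ∈ Q) (hqM : q ∣ M), x = Upm hqM}

theorem commute_pmGen {x y : Module.End ℂ (pm M Q)} (hx : x ∈ pmGen M Q) (hy : y ∈ pmGen M Q) :
    Commute x y := by
  rcases hx with ⟨ℓ, hℓ, hℓM, rfl⟩ | ⟨q, hq, hqM, rfl⟩ <;>
    rcases hy with ⟨ℓ', hℓ', hℓ'M, rfl⟩ | ⟨q', hq', hq'M, rfl⟩
  · ext f : 2
    exact LinearMap.congr_fun (CuspForm.heckeTLin_comm 2 hℓ hℓM hℓ' hℓ'M) f.1
  · ext f : 2
    exact LinearMap.congr_fun (CuspForm.heckeTLin_heckeULin_comm 2 hℓ hℓM hq'M) f.1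
  · ext f : 2
    exact (LinearMap.congr_fun (CuspForm.heckeTLin_heckeULin_comm 2 hℓ' hℓ'M hqM) f.1).symm
  · ext f : 2
    exact LinearMap.congr_fun (CuspForm.heckeULin_comm 2 hqM hq'M) f.1

theorem isSemisimple_pmGen (B : PetForm) {x : Module.End ℂ (pm M Q)} (hx : x ∈ pmGen M Q) :
    x.IsSemisimple := by
  rcases hx with ⟨ℓ, hℓ, hℓM, rfl⟩ | ⟨q, hq, hqM, rfl⟩
  · exact B.Tpm_isSemisimple hℓ hℓM
  · exact Upm_isSemisimple hq hqM

/-- The algebra (over any ring mapping to `ℂ`, e.g. `ℤ`) generated by `T_ℓ` (`ℓ ∤ M`) and `U_q`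
(`q ∈ Q`) on the `±`-space consists of semisimple operators. -/
theorem isSemisimple_of_mem_adjoin_pmGen (B : PetForm) {x : Module.End ℂ (pm M Q)}
    (hx : x ∈ Algebra.adjoin ℤ (pmGen M Q)) : x.IsSemisimple := by
  have := S21per.finiteDimensional_cuspForm (N := M)
  refine isSemisimple_of_mem_adjoin (s := pmGen M Q) (fun f hf => B.isSemisimple_pmGen hf)
    (fun f hf g hg => commute_pmGen hf hg) ?_
  have h : Algebra.adjoin ℤ (pmGen M Q) ≤ (Algebra.adjoin ℂ (pmGen M Q)).restrictScalars ℤ :=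
    Algebra.adjoin_le Algebra.subset_adjoin
  exact h hx

/-- It is reduced. -/
theorem eq_zero_of_isNilpotent_pm (B : PetForm) {x : Module.End ℂ (pm M Q)}
    (hx : x ∈ Algebra.adjoin ℤ (pmGen M Q)) (hn : IsNilpotent x) : x = 0 :=
  Module.End.eq_zero_of_isNilpotent_isSemisimple hn (B.isSemisimple_of_mem_adjoin_pmGen hx)

/-- The `±`-space is the sum of the joint eigenspaces of `T_ℓ` (`ℓ ∤ M`) and `U_q` (`q ∈ Q`). -/
theorem iSup_joint_eigenspace_pm (B : PetForm) :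
    ⨆ χ : pmGen M Q → ℂ, ⨅ x : pmGen M Q, Module.End.eigenspace x.1 (χ x) = ⊤ := by
  have := S21per.finiteDimensional_cuspForm (N := M)
  exact iSup_iInf_eigenspace_eq_top (fun x : pmGen M Q => x.1)
    (fun x => B.isSemisimple_pmGen x.2) (fun i j _ => commute_pmGen i.2 j.2)

end pm

end PetForm

end Fermat.Agent.LTF.Pet2
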