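import Fermat.Agent.LTF.Pet.Hecke
import Fermat.Agent.LTF.Pet2

/-!
# The Petersson form as a `PetForm`; unconditional semisimplicity of the Hecke operators
-/

set_option autoImplicit false

open UpperHalfPlane ModularForm CongruenceSubgroup
open scoped MatrixGroups ComplexConjugate ModularForm
open Matrix.SpecialLinearGroup (mapGL)

namespace Fermat.Agent.LTF.Pet2

open Fermat.Agent.LTF.Pet

/-- Rational matrices of positive determinant. -/
noncomputable def RatPos : Subgroup (GL (Fin 2) ℝ) := RatGL ⊓ Matrix.GLPos (Fin 2) ℝ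

theorem mem_RatPos {α : GL (Fin 2) ℝ} : α ∈ RatPos ↔ α ∈ RatGL ∧ (0 : ℝ) < ((α.det : ℝˣ) : ℝ) :=
  Iff.rfl

/-- The Petersson scalar product. -/
noncomputable def petForm : PetForm where
  carrier :=
    { carrier := {f | CF f}
      add_mem' := fun hf hg => hf.add hg
      zero_mem' := CF.zero
      smul_mem' := fun c _ hf => hf.smul c }
  G := RatPos
  P f g := inn g f
  mem_cusp M _ f := cf f
  SL_mem γ := mem_RatPos.2 ⟨mapGL_mem_RatGL γ, det_mapGL_pos γ⟩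
  diag_mem p hp := mem_RatPos.2 ⟨mem_RatGL_of_int (a := !![(p : ℤ), 0; 0, 1]) (by
    rw [val_heckeDiagMatrix hp]; ext i j; fin_cases i <;> fin_cases j <;> simp),
    det_heckeDiagMatrix_pos p⟩
  mem_slash f hf α hα := CF.slash hf (mem_RatPos.1 hα).1
  add_left f hf g hg h hh := inn_add_right hh hf hg
  smul_left a f hf h hh := inn_smul_right hh hf a
  conj_symm f hf g hg := (inn_symm hf hg).symm
  inv f hf g hg α hα := inn_slash hg hf (mem_RatPos.1 hα).1 (mem_RatPos.1 hα).2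
  nonneg M _ f := inn_self_re_nonneg (cf f)
  definite M _ f h := DFunLike.coe_injective (eq_zero_of_inn_self (cf f) h)

variable {M : ℕ} [NeZero M]

/-- **The Hecke operators `T_ℓ`, `ℓ ∤ M`, on `S_2(Γ₀(M))` are semisimple.** -/
theorem heckeT_isSemisimple {ℓ : ℕ} (hℓ : ℓ.Prime) (hℓM : ¬ ℓ ∣ M) :
    Module.End.IsSemisimple (CuspForm.heckeTLin (N := M) 2 hℓ hℓM) :=
  petForm.heckeT_isSemisimple hℓ hℓM

/-- Elements of the anemic Hecke algebra are semisimple. -/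
theorem isSemisimple_of_mem_heckeAlgebra {S : Set ℕ} (hS : ∀ q : ℕ, q.Prime → q ∣ M → q ∈ S)
    {x : Module.End ℂ (CuspForm (Gamma0 M) 2)} (hx : x ∈ CuspForm.heckeAlgebra M 2 S) :
    x.IsSemisimple :=
  petForm.isSemisimple_of_mem_heckeAlgebra hS hx

/-- **The anemic Hecke algebra is reduced.** -/
theorem isReduced_heckeAlgebra {S : Set ℕ} (hS : ∀ q : ℕ, q.Prime → q ∣ M → q ∈ S) :
    IsReduced (CuspForm.heckeAlgebra M 2 S) :=
  petForm.isReduced_heckeAlgebra hS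

/-- **`S_2(Γ₀(M))` is spanned by simultaneous eigenvectors of the `T_ℓ`, `ℓ ∤ M`.** -/
theorem iSup_joint_eigenspace :
    ⨆ χ : {ℓ : ℕ // ℓ.Prime ∧ ¬ ℓ ∣ M} → ℂ, ⨅ ℓ : {ℓ : ℕ // ℓ.Prime ∧ ¬ ℓ ∣ M},
      Module.End.eigenspace (CuspForm.heckeTLin (N := M) 2 ℓ.2.1 ℓ.2.2) (χ ℓ) = ⊤ :=
  petForm.iSup_joint_eigenspace

/-- Eigenvalues of `T_ℓ` are real. -/
theorem heckeT_eigenvalue_real {ℓ : ℕ} (hℓ : ℓ.Prime) (hℓM : ¬ ℓ ∣ M)
    {f : CuspForm (Gamma0 M) 2} (hf : f ≠ 0) {a : ℂ} (h : CuspForm.heckeTLin 2 hℓ hℓM f = a • f) :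
    a.im = 0 :=
  petForm.heckeT_eigenvalue_real hℓ hℓM hf h

open PetForm in
/-- The ring generated by `T_ℓ` (`ℓ ∤ M`) and `U_q` (`q ∈ Q`) on `{U_q² = 1, q ∈ Q}` consists of
semisimple operators. -/
theorem isSemisimple_of_mem_adjoin_pmGen {Q : Set ℕ} {x : Module.End ℂ (pm M Q)}
    (hx : x ∈ Algebra.adjoin ℤ (pmGen M Q)) : x.IsSemisimple :=
  petForm.isSemisimple_of_mem_adjoin_pmGen hx

open PetForm in
/-- It is reduced. -/
theorem eq_zero_of_isNilpotent_pm {Q : Set ℕ} {x : Module.End ℂ (pm M Q)}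
    (hx : x ∈ Algebra.adjoin ℤ (pmGen M Q)) (hn : IsNilpotent x) : x = 0 :=
  petForm.eq_zero_of_isNilpotent_pm hx hn

open PetForm in
/-- The `±`-space is spanned by simultaneous eigenvectors of `T_ℓ` (`ℓ ∤ M`) and `U_q` (`q ∈ Q`). -/
theorem iSup_joint_eigenspace_pm {Q : Set ℕ} :
    ⨆ χ : pmGen M Q → ℂ, ⨅ x : pmGen M Q, Module.End.eigenspace x.1 (χ x) = ⊤ :=
  petForm.iSup_joint_eigenspace_pm

end Fermat.Agent.LTF.Pet2
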