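import Fermat.Agent.Moduli.Eisen

/-!
# The modular invariant is injective on `SL₂(ℤ) \ ℍ`
-/

set_option autoImplicit false
set_option linter.unusedSectionVars false

open UpperHalfPlane ModularForm EisensteinSeries Filter Topology
open scoped PeriodPair MatrixGroups

noncomputable section

namespace Fermat.Agent.LTF.CM

open Fermat.Agent.JLevelOne Fermat.Agent.Moduli

section Weierstrass

variable (L L' : PeriodPair)

theorem eventually_notMem : ∀ᶠ z in 𝓝[≠] (0 : ℂ), z ∉ L.lattice := by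
  have h := L.compl_lattice_sdiff_singleton_mem_nhds 0
  filter_upwards [mem_nhdsWithin_of_mem_nhds h, self_mem_nhdsWithin] with z hz hz0 hzL
  exact hz ⟨hzL, hz0⟩

theorem weierstrassP_eq {z : ℂ} : ℘[L] z = ℘[L - (0 : ℂ)] z + 1 / z ^ 2 := by
  have h := L.weierstrassPExcept_add 0 z
  simp only [ZeroMemClass.coe_zero, sub_zero, ne_eq, OfNat.ofNat_ne_zero, not_false_eq_true,
    zero_pow, div_zero] at h
  rw [← h]

theorem deriv_weierstrassP_eq {z : ℂ} (hz0 : z ≠ 0) (hz : z ∉ L.lattice) :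
    ℘'[L] z = deriv ℘[L - (0 : ℂ)] z - 2 / z ^ 3 := by
  have h1 : DifferentiableAt ℂ ℘[L - (0 : ℂ)] z :=
    (L.analyticOnNhd_weierstrassPExcept 0 z (fun h => hz h.1)).differentiableAt
  have h2 : HasDerivAt (fun z : ℂ => 1 / z ^ 2) (-2 / z ^ 3) z := by
    have := (hasDerivAt_pow 2 z).inv (pow_ne_zero 2 hz0)
    refine (this.congr_deriv ?_).congr_of_eventuallyEq ?_
    · field_simp
      push_cast
      ring
    · exact Filter.Eventually.of_forall fun w => by simp
  have h3 : ℘[L] = fun z => ℘[L - (0 : ℂ)] z + 1 / z ^ 2 := funext fun z => weierstrassP_eq L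
  have h4 : HasDerivAt ℘[L] (deriv ℘[L - (0 : ℂ)] z + -2 / z ^ 3) z := by
    rw [h3]
    exact h1.hasDerivAt.add h2
  rw [← L.deriv_weierstrassP, h4.deriv]
  ring

theorem eventually_eq_except (h2 : L.g₂ = L'.g₂) (h3 : L.g₃ = L'.g₃) :
    ∀ᶠ z in 𝓝 (0 : ℂ), ℘[L - (0 : ℂ)] z = ℘[L' - (0 : ℂ)] z := by
  set f := ℘[L - (0 : ℂ)] with hf
  set g := ℘[L' - (0 : ℂ)] with hg
  have hfa : AnalyticAt ℂ f 0 := L.analyticAt_weierstrassPExcept 0
  have hga : AnalyticAt ℂ g 0 := L'.analyticAt_weierstrassPExcept 0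
  have hD : AnalyticAt ℂ (fun z => f z - g z) 0 := hfa.sub hga
  by_contra hne
  have hne' : analyticOrderAt (fun z => f z - g z) 0 ≠ ⊤ := by
    intro h
    apply hne
    filter_upwards [analyticOrderAt_eq_top.mp h] with z hz
    exact sub_eq_zero.mp hz
  obtain ⟨n, hn⟩ := ENat.ne_top_iff_exists.mp hne'
  obtain ⟨h, hha, hh0, hev⟩ := (hD.analyticOrderAt_eq_natCast).mp hn.symm
  simp only [sub_zero, smul_eq_mul] at hev
  -- derivative of the difference
  have hev' : ∀ᶠ z in 𝓝 (0 : ℂ), deriv f z - deriv g z = n * z ^ (n - 1) * h z + z ^ n * deriv h z := by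
    filter_upwards [hev.eventually_nhds, hfa.eventually_analyticAt, hga.eventually_analyticAt,
      hha.eventually_analyticAt] with z h1 h2 h3 h4
    have h5 : HasDerivAt (fun z => f z - g z) (deriv f z - deriv g z) z :=
      h2.differentiableAt.hasDerivAt.sub h3.differentiableAt.hasDerivAt
    have h6 : HasDerivAt (fun z => z ^ n * h z) (n * z ^ (n - 1) * h z + z ^ n * deriv h z) z :=
      (hasDerivAt_pow n z).mul h4.differentiableAt.hasDerivAt
    exact h5.unique (h6.congr_of_eventuallyEq h1)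
  have key : ∀ᶠ z in 𝓝[≠] (0 : ℂ),
      (n * h z + z * deriv h z) * (z ^ 3 * (deriv f z + deriv g z) - 4) =
      h z * (4 * ((z ^ 2 * f z + 1) ^ 2 + (z ^ 2 * f z + 1) * (z ^ 2 * g z + 1) +
        (z ^ 2 * g z + 1) ^ 2) - L.g₂ * z ^ 4) := by
    filter_upwards [eventually_notMem L, eventually_notMem L', self_mem_nhdsWithin,
      mem_nhdsWithin_of_mem_nhds hev, mem_nhdsWithin_of_mem_nhds hev'] with z hz hz' hz0 h4 h5
    have hz0 : z ≠ 0 := hz0
    have e1 := L.derivWeierstrassP_sq z hz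
    have e2 := L'.derivWeierstrassP_sq z hz'
    rw [weierstrassP_eq, deriv_weierstrassP_eq L hz0 hz, ← hf] at e1
    rw [weierstrassP_eq, deriv_weierstrassP_eq L' hz0 hz', ← hg, ← h2, ← h3] at e2
    have h6 : z * (deriv f z - deriv g z) = z ^ n * (n * h z + z * deriv h z) := by
      rw [h5]
      rcases n with _ | n
      · simp
      · simp only [Nat.add_sub_cancel, pow_succ]
        ring
    have hzn : z ^ n ≠ 0 := pow_ne_zero n hz0
    apply mul_left_cancel₀ hzn
    have e3 : z * (deriv f z - deriv g z) * (z ^ 3 * (deriv f z + deriv g z) - 4) =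
        (f z - g z) * (4 * ((z ^ 2 * f z + 1) ^ 2 + (z ^ 2 * f z + 1) * (z ^ 2 * g z + 1) +
        (z ^ 2 * g z + 1) ^ 2) - L.g₂ * z ^ 4) := by
      have e4 : (deriv f z - 2 / z ^ 3) ^ 2 - (deriv g z - 2 / z ^ 3) ^ 2 =
          4 * (f z + 1 / z ^ 2) ^ 3 - 4 * (g z + 1 / z ^ 2) ^ 3 - L.g₂ * (f z - g z) := by
        linear_combination e1 - e2
      have e5 : z ^ 4 * ((deriv f z - 2 / z ^ 3) ^ 2 - (deriv g z - 2 / z ^ 3) ^ 2) =
          z * (deriv f z - deriv g z) * (z ^ 3 * (deriv f z + deriv g z) - 4) := by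
        field_simp
        ring
      have e6 : z ^ 4 * (4 * (f z + 1 / z ^ 2) ^ 3 - 4 * (g z + 1 / z ^ 2) ^ 3 - L.g₂ * (f z - g z)) =
          (f z - g z) * (4 * ((z ^ 2 * f z + 1) ^ 2 + (z ^ 2 * f z + 1) * (z ^ 2 * g z + 1) +
        (z ^ 2 * g z + 1) ^ 2) - L.g₂ * z ^ 4) := by
        field_simp
        ring
      rw [← e5, e4, e6]
    rw [h6, h4] at e3
    linear_combination e3
  have hc1 : ContinuousAt (fun z => (n * h z + z * deriv h z) *
      (z ^ 3 * (deriv f z + deriv g z) - 4)) 0 := by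
    have := hha.continuousAt
    have := hha.deriv.continuousAt
    have := hfa.deriv.continuousAt
    have := hga.deriv.continuousAt
    fun_prop
  have hc2 : ContinuousAt (fun z => h z * (4 * ((z ^ 2 * f z + 1) ^ 2 +
      (z ^ 2 * f z + 1) * (z ^ 2 * g z + 1) + (z ^ 2 * g z + 1) ^ 2) - L.g₂ * z ^ 4)) 0 := by
    have := hha.continuousAt
    have := hfa.continuousAt
    have := hga.continuousAt
    fun_prop
  have hlim := tendsto_nhds_unique (hc1.tendsto.mono_left nhdsWithin_le_nhds)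
    ((hc2.tendsto.mono_left nhdsWithin_le_nhds).congr' (key.mono fun z hz => hz.symm))
  simp only [zero_mul, add_zero, ne_eq, OfNat.ofNat_ne_zero, not_false_eq_true, zero_pow,
    zero_sub, zero_add, mul_zero, one_pow, mul_one, sub_zero] at hlim
  have h7 : (4 * (n : ℂ) + 12) * h 0 = 0 := by linear_combination -hlim
  rcases mul_eq_zero.mp h7 with h8 | h8
  · have h9 : ((4 * n + 12 : ℕ) : ℂ) = 0 := by push_cast; exact h8
    rw [Nat.cast_eq_zero] at h9
    omega
  · exact hh0 h8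

theorem weierstrassP_eqOn (h2 : L.g₂ = L'.g₂) (h3 : L.g₃ = L'.g₃) :
    Set.EqOn ℘[L] ℘[L'] ((L.lattice : Set ℂ) ∪ L'.lattice)ᶜ := by
  have hcount : ((L.lattice : Set ℂ) ∪ L'.lattice).Countable := by
    refine Set.Countable.union ?_ ?_
    · exact Set.countable_coe_iff.mp (inferInstanceAs (Countable L.lattice))
    · exact Set.countable_coe_iff.mp (inferInstanceAs (Countable L'.lattice))
  have hpre : IsPreconnected ((L.lattice : Set ℂ) ∪ L'.lattice)ᶜ :=
    (hcount.isPathConnected_compl_of_one_lt_rank (by simp)).isConnected.isPreconnected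
  -- a point near zero where the two functions agree
  have hev := eventually_eq_except L L' h2 h3
  obtain ⟨z0, hz1, hz2, hz3⟩ : ∃ z0 : ℂ, z0 ∉ L.lattice ∧ z0 ∉ L'.lattice ∧
      ∀ᶠ z in 𝓝 z0, ℘[L - (0 : ℂ)] z = ℘[L' - (0 : ℂ)] z :=
    (((eventually_notMem L).and ((eventually_notMem L').and
      (mem_nhdsWithin_of_mem_nhds hev.eventually_nhds)))).exists
  refine AnalyticOnNhd.eqOn_of_preconnected_of_eventuallyEq (z₀ := z0)
    (L.analyticOnNhd_weierstrassP.mono ?_) (L'.analyticOnNhd_weierstrassP.mono ?_) hpre ?_ ?_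
  · exact Set.compl_subset_compl.mpr Set.subset_union_left
  · exact Set.compl_subset_compl.mpr Set.subset_union_right
  · rintro (h | h)
    · exact hz1 h
    · exact hz2 h
  · filter_upwards [hz3] with z hz
    rw [weierstrassP_eq, weierstrassP_eq, hz]

theorem mem_lattice_of_eqOn {l : ℂ}
    (h : Set.EqOn ℘[L] ℘[L'] ((L.lattice : Set ℂ) ∪ L'.lattice)ᶜ) (hl : l ∈ L.lattice) :
    l ∈ L'.lattice := by
  by_contra hl'
  have h1 := L.order_weierstrassP l hl
  have h2 : 0 ≤ meromorphicOrderAt ℘[L'] l :=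
    (L'.analyticOnNhd_weierstrassP l hl').meromorphicOrderAt_nonneg
  have h3 : ℘[L] =ᶠ[𝓝[≠] l] ℘[L'] := by
    have e1 := L.compl_lattice_sdiff_singleton_mem_nhds l
    have e2 := L'.isClosed_lattice.isOpen_compl.mem_nhds hl'
    filter_upwards [mem_nhdsWithin_of_mem_nhds e1, mem_nhdsWithin_of_mem_nhds e2,
      self_mem_nhdsWithin] with z hz hz' hz0
    refine h ?_
    rintro (hz3 | hz3)
    · exact hz ⟨hz3, hz0⟩
    · exact hz' hz3
  rw [meromorphicOrderAt_congr h3] at h1
  rw [h1] at h2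
  exact absurd h2 (by decide)

/-- A lattice is determined by its invariants. -/
theorem lattice_eq (h2 : L.g₂ = L'.g₂) (h3 : L.g₃ = L'.g₃) : L.lattice = L'.lattice := by
  have h := weierstrassP_eqOn L L' h2 h3
  ext l
  refine ⟨mem_lattice_of_eqOn L L' h, mem_lattice_of_eqOn L' L ?_⟩
  rw [Set.union_comm]
  exact h.symm

end Weierstrass

section J

theorem exists_smul_of_lattice {α : ℂ} (hα : α ≠ 0) {τ τ' : ℍ}
    (h : (mkPP α hα τ).lattice = (mkPP 1 one_ne_zero τ').lattice) :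
    ∃ γ : SL(2, ℤ), γ • τ = τ' := by
  have key : ∀ z : ℂ, (∃ m n : ℤ, m * α + n * (α * τ) = z) ↔
      ∃ m n : ℤ, m * (1 : ℂ) + n * (1 * τ') = z := by
    intro z
    rw [← mem_mkPP (hα := hα), ← mem_mkPP (hα := one_ne_zero), h]
  obtain ⟨s, r, h1⟩ := (key 1).mpr ⟨1, 0, by simp⟩
  obtain ⟨q, p, h2⟩ := (key τ').mpr ⟨0, 1, by simp⟩
  obtain ⟨a, b, h3⟩ := (key α).mp ⟨1, 0, by simp⟩
  obtain ⟨c, d, h4⟩ := (key (α * τ)).mp ⟨0, 1, by simp⟩
  -- the determinant
  have hindep : ∀ x y : ℤ, (x : ℂ) + y * τ' = 0 → x = 0 ∧ y = 0 := by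
    intro x y hxy
    have h5 := congrArg Complex.im hxy
    have h6 := congrArg Complex.re hxy
    simp only [Complex.add_im, Complex.intCast_im, Complex.mul_im, Complex.intCast_re, zero_mul,
      add_zero, zero_add, Complex.zero_im, Complex.add_re, Complex.mul_re, Complex.zero_re] at h5 h6
    have h7 : (τ' : ℂ).im ≠ 0 := τ'.im_pos.ne'
    have h8 : (y : ℝ) = 0 := (mul_eq_zero.mp h5).resolve_right h7
    rw [h8] at h6
    simp only [zero_mul, sub_zero, add_zero] at h6
    exact ⟨by exact_mod_cast h6, by exact_mod_cast h8⟩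
  have e1 : ((s * a + r * c - 1 : ℤ) : ℂ) + ((s * b + r * d : ℤ) : ℂ) * τ' = 0 := by
    push_cast
    linear_combination (s : ℂ) * h3 + (r : ℂ) * h4 + h1
  have e2 : ((q * a + p * c : ℤ) : ℂ) + ((q * b + p * d - 1 : ℤ) : ℂ) * τ' = 0 := by
    push_cast
    linear_combination (q : ℂ) * h3 + (p : ℂ) * h4 + h2
  obtain ⟨f1, f2⟩ := hindep _ _ e1
  obtain ⟨f3, f4⟩ := hindep _ _ e2
  have hdet : (p * s - q * r) * (a * d - b * c) = 1 := by
    linear_combination (p * d + q * b) * f1 + f4 - (p * c + q * a) * f2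
  have hden : (α : ℂ) * (r * τ + s) = 1 := by linear_combination h1
  have hnum : (α : ℂ) * (p * τ + q) = τ' := by linear_combination h2
  have hden0 : (r : ℂ) * τ + s ≠ 0 := by
    intro h0
    rw [h0, mul_zero] at hden
    exact zero_ne_one hden
  have hq : (τ' : ℂ) = (p * τ + q) / (r * τ + s) := by
    rw [eq_div_iff hden0]
    linear_combination (p * τ + q) * hden - (r * τ + s) * hnum
  have hdet1 : p * s - q * r = 1 := by
    rcases Int.isUnit_iff.mp (IsUnit.of_mul_eq_one _ hdet) with h5 | h5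
    · exact h5
    · exfalso
      have h6 : ((τ' : ℂ) * ((r * τ + s) * (starRingEnd ℂ) (r * τ + s))).im =
          ((p * (τ : ℂ) + q) * (starRingEnd ℂ) (r * τ + s)).im := by
        congr 1
        rw [hq, ← mul_assoc, div_mul_cancel₀ _ hden0]
      have h7 : (r * (τ : ℂ) + s) * (starRingEnd ℂ) (r * τ + s) =
          ((Complex.normSq (r * τ + s) : ℝ) : ℂ) := Complex.mul_conj _
      rw [h7] at h6
      have h8 : ((p * (τ : ℂ) + q) * (starRingEnd ℂ) (r * τ + s)).im = (p * s - q * r : ℤ) * τ.im := by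
        simp only [map_add, map_mul, map_intCast, Complex.mul_im, Complex.add_re,
          Complex.add_im, Complex.mul_re, Complex.intCast_re, Complex.intCast_im, Complex.conj_re,
          Complex.conj_im, zero_mul, sub_zero, add_zero]
        push_cast
        simp only [UpperHalfPlane.coe_im, UpperHalfPlane.coe_re]
        ring
      rw [h8, h5] at h6
      have h9 : ((τ' : ℂ) * ((Complex.normSq (r * τ + s) : ℝ) : ℂ)).im =
          τ'.im * Complex.normSq (r * τ + s) := by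
        rw [Complex.mul_im, Complex.ofReal_im, Complex.ofReal_re, mul_zero, zero_add]
        rfl
      rw [h9] at h6
      have h10 : 0 < Complex.normSq ((r : ℂ) * τ + s) := Complex.normSq_pos.mpr hden0
      have h11 := mul_pos τ'.im_pos h10
      have h12 := τ.im_pos
      push_cast at h6
      linarith
  obtain ⟨γ, g00, g01, g10, g11⟩ : ∃ γ : SL(2, ℤ), γ 0 0 = p ∧ γ 0 1 = q ∧ γ 1 0 = r ∧ γ 1 1 = s :=
    ⟨⟨!![p, q; r, s], by rw [Matrix.det_fin_two_of]; exact hdet1⟩, rfl, rfl, rfl, rfl⟩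
  refine ⟨γ, ?_⟩
  ext1
  rw [UpperHalfPlane.specialLinearGroup_apply, hq]
  simp [g00, g01, g10, g11]

theorem exists_scale {a b a' b' : ℂ} (h : a ^ 3 * b' ^ 2 = a' ^ 3 * b ^ 2)
    (hd : a ^ 3 - b ^ 2 ≠ 0) (hd' : a' ^ 3 - b' ^ 2 ≠ 0) :
    ∃ α : ℂ, α ≠ 0 ∧ a = α ^ 4 * a' ∧ b = α ^ 6 * b' := by
  have hroot : ∀ (n : ℕ), n ≠ 0 → ∀ z : ℂ, z ≠ 0 → ∃ α : ℂ, α ≠ 0 ∧ α ^ n = z := by
    intro n hn z hz
    obtain ⟨α, hα⟩ := IsAlgClosed.exists_pow_nat_eq z (Nat.pos_of_ne_zero hn)
    exact ⟨α, by rintro rfl; exact hz (by rw [← hα, zero_pow hn]), hα⟩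
  by_cases ha' : a' = 0
  · have hb' : b' ≠ 0 := by
      rintro rfl
      rw [ha'] at hd'
      simp at hd'
    have ha : a = 0 := by
      rw [ha'] at h
      have h1 : a ^ 3 * b' ^ 2 = 0 := by rw [h]; ring
      exact pow_eq_zero_iff (three_ne_zero) |>.mp
        ((mul_eq_zero.mp h1).resolve_right (pow_ne_zero 2 hb'))
    have hb : b ≠ 0 := by
      rintro rfl
      rw [ha] at hd
      simp at hd
    obtain ⟨α, hα, h1⟩ := hroot 6 (by norm_num) (b / b') (div_ne_zero hb hb')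
    refine ⟨α, hα, by rw [ha, ha', mul_zero], ?_⟩
    rw [h1]
    field_simp
  · by_cases hb' : b' = 0
    · have hb : b = 0 := by
        rw [hb'] at h
        have h1 : a' ^ 3 * b ^ 2 = 0 := by rw [← h]; ring
        exact pow_eq_zero_iff (two_ne_zero) |>.mp
          ((mul_eq_zero.mp h1).resolve_left (pow_ne_zero 3 ha'))
      have ha : a ≠ 0 := by
        rintro rfl
        rw [hb] at hd
        simp at hd
      obtain ⟨α, hα, h1⟩ := hroot 4 (by norm_num) (a / a') (div_ne_zero ha ha')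
      refine ⟨α, hα, ?_, by rw [hb, hb', mul_zero]⟩
      rw [h1]
      field_simp
    · have ha : a ≠ 0 := by
        rintro rfl
        have h1 : a' ^ 3 * b ^ 2 = 0 := by rw [← h]; ring
        have h2 : b = 0 := pow_eq_zero_iff (two_ne_zero) |>.mp
          ((mul_eq_zero.mp h1).resolve_left (pow_ne_zero 3 ha'))
        rw [h2] at hd
        simp at hd
      have hb : b ≠ 0 := by
        rintro rfl
        have h1 : a ^ 3 * b' ^ 2 = 0 := by rw [h]; ring
        exact (mul_ne_zero (pow_ne_zero 3 ha) (pow_ne_zero 2 hb')) h1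
      obtain ⟨α, hα, h1⟩ := hroot 2 (by norm_num) ((b * a') / (b' * a))
        (div_ne_zero (mul_ne_zero hb ha') (mul_ne_zero hb' ha))
      refine ⟨α, hα, ?_, ?_⟩
      · have h2 : α ^ 4 = ((b * a') / (b' * a)) ^ 2 := by rw [← h1]; ring
        rw [h2]
        field_simp
        linear_combination h
      · have h2 : α ^ 6 = ((b * a') / (b' * a)) ^ 3 := by rw [← h1]; ring
        rw [h2]
        field_simp
        linear_combination h

/-- **The modular invariant separates the orbits of `SL₂(ℤ)`.** -/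
theorem jFun_eq_iff {τ τ' : ℍ} : jFun τ = jFun τ' ↔ ∃ γ : SL(2, ℤ), γ • τ = τ' := by
  constructor
  · intro h
    have hd := discriminant_eq_E₄_cube_sub_E₆_sq τ
    have hd0 := discriminant_ne_zero τ
    have hd' := discriminant_eq_E₄_cube_sub_E₆_sq τ'
    have hd0' := discriminant_ne_zero τ'
    have h1 : E₄ τ ^ 3 * discriminant τ' = E₄ τ' ^ 3 * discriminant τ := by
      rw [jFun, jFun, div_eq_div_iff hd0 hd0'] at h
      exact h
    obtain ⟨α, hα, h4, h6⟩ := exists_scale (a := E₄ τ) (b := E₆ τ) (a' := E₄ τ') (b' := E₆ τ')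
      (by rw [hd, hd'] at h1; linear_combination 1728 * (-1 : ℂ) * h1)
      (fun h0 => hd0 (by rw [hd, h0, zero_div])) (fun h0 => hd0' (by rw [hd', h0, zero_div]))
    refine exists_smul_of_lattice hα (lattice_eq _ _ ?_ ?_)
    · rw [g₂_mkPP, g₂_mkPP, h4]
      field_simp
    · rw [g₃_mkPP, g₃_mkPP, h6]
      field_simp
  · rintro ⟨γ, rfl⟩
    exact (jFun_smul γ τ).symm

end J

end Fermat.Agent.LTF.CM
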