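import Fermat.Agent.LTF.CMAtkin

/-!
# Cusps are not fixed by the Atkin--Lehner involutions
-/

set_option autoImplicit false
set_option linter.style.haveILetI false
set_option linter.unusedSectionVars false

open UpperHalfPlane Function CongruenceSubgroup ModularForm
open scoped Manifold MatrixGroups IntermediateField

noncomputable section

namespace Fermat.Agent.LTF.CM

open Fermat.Agent.X0Emb Fermat.Agent.X0Deg AlgebraicCurve Fermat.Agent.HeckePar
open ModularCurve Fermat.Agent.JLevelOne Fermat.Agent.GalRep Fermat.Agent.HeckeComm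
open Fermat.Agent.TwoGauss Fermat.Agent.TriGauss Fermat.Agent.S24aux Fermat.Agent.FF

local notation "KQ" => AlgebraicClosure ℚ

variable {M Q m : ℕ} [NeZero M] [NeZero Q]

theorem order_qt (e b d' : ℕ) [NeZero e] [NeZero d'] :
    (qExpand ℂ e (twist (zetaU b d') (jqModC ℂ))).order = -(e : ℤ) := by
  have hj : jqModC ℂ ≠ 0 := jqModC_ne_zero
  have hj' : twist (zetaU b d') (jqModC ℂ) ≠ 0 := by
    intro h0
    have := S24aux.order_twist (zetaU b d') hj
    rw [h0, HahnSeries.order_zero, S24aux.order_jqModC] at this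
    omega
  rw [S24aux.order_qExpand _ hj', S24aux.order_twist _ hj, S24aux.order_jqModC]
  ring

theorem embInf_jd (σ : SL(2, ℤ)) (d : ℕ) [NeZero d] (hd : d ∣ M) {G : LaurentSeries ℂ}
    (hG : LExp M (σ • jAff d 0 1 : Hol) G) :
    (embData M).embInf (QuotientGroup.mk σ) (TwoGauss.jdB KQ M ⟨d, hd⟩) = G :=
  embInf_eq (h := TwoGauss.jdB KQ M ⟨d, hd⟩) (F := jAff d 0 1) (lexp_jAff_one d) σ hG

theorem order_embInf_jd' (σ : SL(2, ℤ)) (d : ℕ) [NeZero d] (hd : d ∣ M) :
    ∃ a d' : ℕ, a * d' = d ∧ 0 < d' ∧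
      ((embData M).embInf (QuotientGroup.mk σ) (TwoGauss.jdB KQ M ⟨d, hd⟩)).order * d' =
        -((a : ℤ) * M) := by
  obtain ⟨a, b, d', ha, hd', h1, h2, h3⟩ := smul_jAff_eq d σ
  have hd'M : d' ∣ M := (Dvd.intro_left a h1).trans hd
  have hM : M / d' ≠ 0 := (Nat.div_pos (Nat.le_of_dvd (Nat.pos_of_ne_zero (NeZero.ne M)) hd'M)
    (Nat.pos_of_ne_zero (NeZero.ne d'))).ne'
  haveI : NeZero (a * (M / d')) := ⟨Nat.mul_ne_zero (NeZero.ne a) hM⟩
  have hed : a * (M / d') * d' = a * M := by rw [mul_assoc, Nat.div_mul_cancel hd'M]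
  refine ⟨a, d', h1, Nat.pos_of_ne_zero (NeZero.ne d'), ?_⟩
  have h4 : LExp M (σ • jAff d 0 1 : Hol) (qExpand ℂ (a * (M / d')) (twist (zetaU b d') (jqModC ℂ))) := by
    rw [h3]
    exact lexp_jAff a b d' (a * (M / d')) M hed
  rw [embInf_jd σ d hd h4, order_qt]
  have h6 : ((a * (M / d') : ℕ) : ℤ) * d' = a * M := by exact_mod_cast hed
  linear_combination -h6

theorem order_embInf_jd (σ : SL(2, ℤ)) (d : Dv M) :
    ∃ a d' : ℕ, a * d' = d ∧ 0 < d' ∧
      ((embData M).embInf (QuotientGroup.mk σ) (TwoGauss.jdB KQ M d)).order * d' =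
        -((a : ℤ) * M) := by
  haveI : NeZero d.1 := Dv.neZero d
  exact order_embInf_jd' σ d.1 d.2

/-- places above infinity. -/
theorem exists_embInf (v : Place KQ (modularFunctionFieldBar M)) (hv : v.ord (jF M) < 0) :
    ∃ (σ : SL(2, ℤ)) (k : ℤ) (n : ℤ), 0 < k ∧ 0 < n ∧ ∀ f : modularFunctionFieldBar M, f ≠ 0 →
      k * ((embData M).embInf (QuotientGroup.mk σ) f).order = n * v.ord f := by
  have hy : Transcendental KQ (jF M)⁻¹ := FFFund.transcendental_inv (embData M).transcendental_jF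
  have hcard : Nat.card (XX M) = Module.finrank KQ⟮(jF M)⁻¹⟯ (modularFunctionFieldBar M) := by
    have h1 := FFFund.finrank_of_eq (FFFund.mem_or_inv_mem_adjoin (K := KQ) (jF M))
    rw [h1]
    exact GalRep.finite_card
  have hv' : 0 < v.ord (jF M)⁻¹ := by
    rw [v.ord_inv]
    omega
  obtain ⟨x, r, hr, -, hf⟩ := OrbitDatum_exists hy hcard (datumInf (embData M)) v hv'
  obtain ⟨σ, rfl⟩ := QuotientGroup.mk_surjective x
  exact ⟨σ, r, _, by exact_mod_cast hr, (datumInf (embData M)).oy _, fun f hf0 => hf f hf0⟩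

variable {hM : M = m * Q} {hc : Q.Coprime m}
  {w : modularFunctionFieldBar M ≃ₐ[KQ] modularFunctionFieldBar M}

theorem ord_jF_nonneg_of_fixed (hw : IsAtkin hM hc w) (hQ : Q ≠ 1) (hsq : Squarefree Q)
    {v : Place KQ (modularFunctionFieldBar M)} (hfix : SemilinearAut.ofAlgAut w • v = v) :
    0 ≤ v.ord (jF M) := by
  by_contra hlt
  rw [not_le] at hlt
  obtain ⟨σ, k, n, hk, hn, hf⟩ := exists_embInf v hlt
  set d1 : Dv M := ⟨1, one_dvd M⟩ with hd1
  have hs : (swapQ M Q m hM (NeZero.ne Q) hc d1 : ℕ) = Q := by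
    have h1 : (1 * Q) ∣ M := by rw [one_mul, hM]; exact Dvd.intro_left m rfl
    have h2 := swapQ_mul hM (NeZero.ne Q) hc (a := 1) (b := 1) (b' := Q) (one_dvd m) (mul_one Q)
      (by simp) h1
    have h3 := congrArg Subtype.val h2
    simpa using h3
  have hjd0 : ∀ d : Dv M, TwoGauss.jdB KQ M d ≠ 0 := by
    intro d h0
    haveI := Dv.neZero d
    have h1 : qExpand KQ d.1 (jqModC KQ) = 0 := congrArg Subtype.val h0
    have h2 := congrArg HahnSeries.order h1
    rw [X0Emb.order_qExpand, X0Emb.order_jqModC, HahnSeries.order_zero] at h2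
    have := NeZero.ne d.1
    omega
  have h1 : v.ord (TwoGauss.jdB KQ M (swapQ M Q m hM (NeZero.ne Q) hc d1)) =
      v.ord (TwoGauss.jdB KQ M d1) := by
    have h2 := SemilinearAut.ord_smul (SemilinearAut.ofAlgAut w) v (TwoGauss.jdB KQ M d1)
    rwa [hfix, SemilinearAut.ofAlgAut_smul, hw.jdB] at h2
  have h2 := hf _ (hjd0 d1)
  have h3 := hf _ (hjd0 (swapQ M Q m hM (NeZero.ne Q) hc d1))
  rw [h1, ← h2] at h3
  have h4 := mul_left_cancel₀ hk.ne' h3
  obtain ⟨a, d', ha, hd', hord⟩ := order_embInf_jd σ d1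
  obtain ⟨a2, d2, ha2, hd2, hord2⟩ := order_embInf_jd σ (swapQ M Q m hM (NeZero.ne Q) hc d1)
  rw [h4] at hord2
  have ha1 : a = 1 ∧ d' = 1 := by
    rw [hd1] at ha
    exact ⟨Nat.eq_one_of_mul_eq_one_right ha, Nat.eq_one_of_mul_eq_one_left ha⟩
  rw [ha1.1, ha1.2, Nat.cast_one, mul_one, one_mul] at hord
  rw [hord] at hord2
  have hM0 : (M : ℤ) ≠ 0 := by exact_mod_cast NeZero.ne M
  have h5 : (d2 : ℤ) = a2 := by
    have : (M : ℤ) * d2 = M * a2 := by linear_combination -hord2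
    exact mul_left_cancel₀ hM0 this
  have h6 : d2 = a2 := by exact_mod_cast h5
  rw [hs, h6] at ha2
  have h7 : IsUnit a2 := hsq a2 (Dvd.intro 1 (by rw [mul_one, ha2]))
  rw [Nat.isUnit_iff] at h7
  rw [h7] at ha2
  exact hQ ha2.symm

/-- **A place fixed by `w_Q` is a point of the upper half plane fixed by a matrix.** -/
theorem exists_at_fixed (hw : IsAtkin hM hc w) (hQ : Q ≠ 1) (hsq : Squarefree Q)
    (x y : ℤ) (h : x * Q - y * m = 1)
    {v : Place KQ (modularFunctionFieldBar M)} (hfix : SemilinearAut.ofAlgAut w • v = v) :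
    ∃ (τ : ℍ) (k : ℤ), At v τ k ∧ ∃ γ ∈ Gamma0 M, γ • (atkG x y h • τ) = τ := by
  obtain ⟨τ, k, hv⟩ := exists_at v (ord_jF_nonneg_of_fixed hw hQ hsq hfix)
  exact ⟨τ, k, hv, hv.exists_fixed hw x y h hfix⟩

end Fermat.Agent.LTF.CM
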