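import Fermat.Agent.LTF.CMHecke
import Fermat.Agent.LTF.CMCusp

/-!
# The Hecke correspondence on places attached to points of the upper half plane: counting
-/

set_option autoImplicit false
set_option linter.style.haveILetI false
set_option linter.unusedSectionVars false

open UpperHalfPlane Function CongruenceSubgroup ModularForm
open scoped Manifold MatrixGroups IntermediateField

noncomputable section

namespace Fermat.Agent.LTF.CM

open Fermat.Agent.X0Emb Fermat.Agent.X0Deg AlgebraicCurve Fermat.Agent.HeckePar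
open ModularCurve Fermat.Agent.JLevelOne Fermat.Agent.GalRep Fermat.Agent.HeckeComm
open Fermat.Agent.TriGauss

local notation "KQ" => AlgebraicClosure ℚ

variable {M : ℕ} [NeZero M] {ℓ : ℕ} [hℓ : Fact ℓ.Prime]

/-- if there is no place at `τ`, all functions have order zero there. -/
theorem ordAt_eq_zero_of_not_exists {τ : ℍ}
    (h : ¬ ∃ (v : Place KQ (modularFunctionFieldBar M)) (m : ℤ), At v τ m)
    {f : modularFunctionFieldBar M} (hf : f ≠ 0) : ordAt τ (em M f) = 0 := by
  have h1 : ∀ f : modularFunctionFieldBar M, f ≠ 0 → ordAt τ (em M f) ≤ 0 := by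
    intro f hf
    by_contra hlt
    rw [not_le] at hlt
    exact h (exists_at_of_pos τ ⟨f, hf, hlt⟩)
  have h2 := h1 _ (inv_ne_zero hf)
  rw [map_inv₀, ordAt_inv' τ (em_ne_zero hf)] at h2
  have h3 := h1 f hf
  omega

/-- **The Hecke correspondence at a point of the upper half plane.** -/
theorem At.hecke' (hM : ¬ ℓ ∣ M) {v : Place KQ (modularFunctionFieldBar M)} {τ : ℍ} {m : ℤ}
    (h : At v τ m) {u : Option (ZMod ℓ) → Place KQ (modularFunctionFieldBar M)}
    {n : Option (ZMod ℓ) → ℤ}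
    (hu : ∀ x (f : modularFunctionFieldBar M), f ≠ 0 →
      ordAt (hrep ℓ x • τ) (em M f) = n x * (u x).ord f)
    (D : Divisor KQ (modularFunctionFieldBar M)) :
    m * TEll.heckeDiv M ℓ D v = ∑ x : Option (ZMod ℓ), n x * D (u x) := by
  classical
  let T : Divisor KQ (modularFunctionFieldBar M) →+ Divisor KQ (modularFunctionFieldBar M) :=
    { toFun := fun D => Finsupp.single v (m * TEll.heckeDiv M ℓ D v)
      map_zero' := by simp
      map_add' := fun a b => by
        rw [map_add, Finsupp.add_apply, mul_add, Finsupp.single_add] }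
  let S : Divisor KQ (modularFunctionFieldBar M) →+ Divisor KQ (modularFunctionFieldBar M) :=
    { toFun := fun D => Finsupp.single v (∑ x : Option (ZMod ℓ), n x * D (u x))
      map_zero' := by simp
      map_add' := fun a b => by
        rw [← Finsupp.single_add, ← Finset.sum_add_distrib]
        congr 1
        refine Finset.sum_congr rfl fun x _ => ?_
        rw [Finsupp.add_apply, mul_add] }
  have hT : FiniteRows T := by
    intro Q
    have h1 : FiniteRows (TEll.heckeDiv M ℓ) := finiteRows_correspondence _ _ _ _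
    refine (h1 v).subset fun R hR => ?_
    rw [Set.mem_ofPred_eq] at hR ⊢
    intro h2
    apply hR
    show Finsupp.single v (m * TEll.heckeDiv M ℓ (Finsupp.single R 1) v) Q = 0
    rw [h2]
    simp
  have hS : FiniteRows S := by
    intro Q
    refine (Set.finite_range u).subset fun R hR => ?_
    rw [Set.mem_ofPred_eq] at hR
    by_contra h2
    apply hR
    show Finsupp.single v (∑ x : Option (ZMod ℓ), n x * (Finsupp.single R (1 : ℤ)) (u x)) Q = 0
    rw [Finset.sum_eq_zero, Finsupp.single_zero, Finsupp.zero_apply]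
    intro x _
    rw [Finsupp.single_apply, if_neg, mul_zero]
    rintro rfl
    exact h2 ⟨x, rfl⟩
  have hTS : T = S := eq_of_principal hT hS fun f hf => by
    show Finsupp.single v (m * TEll.heckeDiv M ℓ (RR.div f) v) =
      Finsupp.single v (∑ x : Option (ZMod ℓ), n x * (RR.div f : Divisor _ _) (u x))
    congr 1
    rw [TEll.heckeDiv_div hf, RR.div_apply]
    have hf' : TEll.TEll KQ M ℓ f ≠ 0 := TEll.TEll_ne_zero KQ M ℓ (TEll.finAlpha M ℓ) hf
    rw [← h.2 _ hf', ordAt_TEll hM τ hf]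
    refine Finset.sum_congr rfl fun x _ => ?_
    rw [hu x f hf, RR.div_apply]
  have h3 := DFunLike.congr_fun (DFunLike.congr_fun hTS D) v
  change Finsupp.single v (m * TEll.heckeDiv M ℓ D v) v =
    Finsupp.single v (∑ x : Option (ZMod ℓ), n x * D (u x)) v at h3
  rwa [Finsupp.single_eq_same, Finsupp.single_eq_same] at h3

/-- The multiplicity of `T_ℓ` between two places of multiplicity one. -/
theorem At.hecke_single (hM : ¬ ℓ ∣ M) {v v' : Place KQ (modularFunctionFieldBar M)} {τ τ' : ℍ}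
    (h : At v τ 1) (h' : At v' τ' 1) :
    TEll.heckeDiv M ℓ (Finsupp.single v' 1) v =
      (Nat.card {x : Option (ZMod ℓ) // ∃ γ ∈ Gamma0 M, γ • (hrep ℓ x • τ) = τ'} : ℤ) := by
  classical
  have h1 : ∀ x : Option (ZMod ℓ), ∃ (u : Place KQ (modularFunctionFieldBar M)) (n : ℤ),
      (∀ f : modularFunctionFieldBar M, f ≠ 0 → ordAt (hrep ℓ x • τ) (em M f) = n * u.ord f) ∧
      (At u (hrep ℓ x • τ) n ∨ (n = 0 ∧ ∀ v' m', ¬ At (M := M) v' (hrep ℓ x • τ) m')) := by
    intro x
    by_cases hex : ∃ (v : Place KQ (modularFunctionFieldBar M)) (m : ℤ), At v (hrep ℓ x • τ) m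
    · obtain ⟨u, n, hu⟩ := hex
      exact ⟨u, n, hu.2, Or.inl hu⟩
    · refine ⟨v, 0, fun f hf => ?_, Or.inr ⟨rfl, fun v' m' h0 => hex ⟨v', m', h0⟩⟩⟩
      rw [zero_mul]
      exact ordAt_eq_zero_of_not_exists hex hf
  choose u n hun hat using h1
  have h2 := h.hecke' hM hun (Finsupp.single v' 1)
  rw [one_mul] at h2
  rw [h2, Nat.card_eq_fintype_card, Fintype.card_subtype, Finset.card_eq_sum_ones,
    Finset.sum_filter]
  push_cast
  refine Finset.sum_congr rfl fun x _ => ?_
  rw [Finsupp.single_apply]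
  by_cases hx : ∃ γ ∈ Gamma0 M, γ • (hrep ℓ x • τ) = τ'
  · rw [if_pos hx]
    obtain ⟨γ, hγ, hx⟩ := hx
    have h3 : At v' (hrep ℓ x • τ) 1 := by
      have h4 := h'.smul (inv_mem hγ)
      rwa [← hx, inv_smul_smul] at h4
    rcases hat x with h5 | h5
    · obtain ⟨h6, h7⟩ := h3.unique h5
      rw [← h6, if_pos rfl, ← h7, mul_one]
    · exact absurd h3 (h5.2 _ _)
  · rw [if_neg hx]
    rcases hat x with h5 | h5
    · rw [if_neg, mul_zero]
      intro h6
      rw [← h6] at h5
      exact hx (h5.exists_smul h')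
    · rw [h5.1, zero_mul]

section Matrix

variable {Q m : ℕ} [NeZero Q]

theorem coe_atkG_smul (x y : ℤ) (h : x * Q - y * m = 1) (τ : ℍ) :
    ((atkG x y h • τ : ℍ) : ℂ) = ((x : ℂ) * (Q * τ) + y) / (m * (Q * τ) + Q) := by
  rw [atkG_smul, TwoGauss.atkW, TwoGauss.coe_mk2_smul, coe_aff]
  push_cast
  ring_nf

theorem atkG_denom_ne (x y : ℤ) (h : x * Q - y * m = 1) (τ : ℍ) :
    (m * (Q * τ) + Q : ℂ) ≠ 0 := by
  have h1 := TwoGauss.mk2_denom_ne x y m Q h (aff Q 0 1 τ)
  rw [coe_aff] at h1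
  push_cast at h1
  intro h2
  apply h1
  linear_combination h2

theorem smul_denom_ne (γ : SL(2, ℤ)) (τ : ℍ) : (γ 1 0 : ℂ) * τ + γ 1 1 ≠ 0 := by
  have h := UpperHalfPlane.denom_ne_zero (γ : GL (Fin 2) ℝ) τ
  simpa [UpperHalfPlane.denom] using h

theorem smul_eq_iff' (γ : SL(2, ℤ)) (τ τ' : ℍ) :
    γ • τ = τ' ↔ (γ 0 0 : ℂ) * τ + γ 0 1 = τ' * ((γ 1 0 : ℂ) * τ + γ 1 1) := by
  have h1 := smul_denom_ne γ τ
  rw [UpperHalfPlane.ext_iff, UpperHalfPlane.specialLinearGroup_apply]
  simp only [algebraMap_int_eq, eq_intCast, Complex.ofReal_intCast]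
  rw [div_eq_iff h1]

/-- fixed points of `w_Q` and matrices. -/
theorem exists_smul_atkG_iff (hM : M = m * Q) (x y : ℤ) (h : x * Q - y * m = 1) (τ : ℍ) :
    (∃ γ ∈ Gamma0 M, γ • (atkG x y h • τ) = τ) ↔
      ∃ x' y' z' t' : ℤ, (Q : ℤ) * x' * t' - m * y' * z' = 1 ∧
        (Q * x' : ℂ) * τ + y' = τ * ((Q * m * z' : ℂ) * τ + Q * t') := by
  have hden := atkG_denom_ne x y h τ
  have hC : (x : ℂ) * Q - y * m = 1 := by exact_mod_cast h
  constructor
  · rintro ⟨γ, hγ, hfix⟩
    rw [Gamma0_mem] at hγ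
    obtain ⟨r, hr⟩ : (M : ℤ) ∣ γ 1 0 := (ZMod.intCast_zmod_eq_zero_iff_dvd _ _).mp hγ
    rw [hM] at hr
    push_cast at hr
    have hdet : γ 0 0 * γ 1 1 - γ 0 1 * γ 1 0 = 1 := by
      have := γ.det_coe
      rwa [Matrix.det_fin_two] at this
    rw [smul_eq_iff', coe_atkG_smul, mul_div_assoc', mul_div_assoc', div_add' _ _ _ hden,
      div_add' _ _ _ hden, mul_div_assoc', div_left_inj' hden, hr] at hfix
    rw [hr] at hdet
    generalize γ 0 0 = p at hfix hdet
    generalize γ 0 1 = q at hfix hdet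
    generalize γ 1 1 = s at hfix hdet
    refine ⟨p * x + q * m, p * y + q * Q, r * Q * x + s, m * r * y + s, ?_, ?_⟩
    · linear_combination hdet + (p * s - q * (m * Q * r)) * h
    · push_cast at hfix ⊢
      linear_combination hfix
  · rintro ⟨x', y', z', t', hdet, hfix⟩
    have hdetC : (Q : ℂ) * x' * t' - m * y' * z' = 1 := by exact_mod_cast hdet
    let γ : SL(2, ℤ) := ⟨!![(Q : ℤ) * x' - m * y', x * y' - y * x'; m * Q * (z' - t'),
      Q * x * t' - m * y * z'], by
      rw [Matrix.det_fin_two_of]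
      linear_combination hdet + (Q * x' * t' - m * y' * z' : ℤ) * h⟩
    have e00 : γ 0 0 = (Q : ℤ) * x' - m * y' := rfl
    have e01 : γ 0 1 = x * y' - y * x' := rfl
    have e10 : γ 1 0 = m * Q * (z' - t') := rfl
    have e11 : γ 1 1 = Q * x * t' - m * y * z' := rfl
    refine ⟨γ, ?_, ?_⟩
    · rw [Gamma0_mem, e10]
      refine (ZMod.intCast_zmod_eq_zero_iff_dvd _ _).mpr ?_
      rw [hM]
      push_cast
      exact Dvd.intro _ rfl
    · rw [smul_eq_iff', coe_atkG_smul, mul_div_assoc', mul_div_assoc', div_add' _ _ _ hden,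
        div_add' _ _ _ hden, mul_div_assoc', div_left_inj' hden, e00, e01, e10, e11]
      push_cast
      linear_combination hfix + ((Q * x' : ℂ) * τ + y' - τ * ((Q * m * z' : ℂ) * τ + Q * t')) * hC

end Matrix

end Fermat.Agent.LTF.CM
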