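import Mathlib

/-!
# Complete discrete valuation rings of mixed characteristic are finite over `ℤ_[p]`
-/

set_option autoImplicit false
set_option linter.style.haveILetI false

namespace Fermat.Agent.LTF.Alpha

open IsLocalRing

lemma isPrecomplete_fin {R : Type*} [CommRing R] (I : Ideal R) [IsPrecomplete I R] (n : ℕ) :
    IsPrecomplete I (Fin n → R) := by
  refine ⟨fun f hf => ?_⟩
  have h1 : ∀ i : Fin n, ∃ L : R, ∀ m, f m i ≡ L [SMOD (I ^ m • ⊤ : Submodule R R)] := by
    intro i
    refine IsPrecomplete.prec (I := I) (M := R) inferInstance (f := fun m => f m i) ?_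
    intro m k hmk
    have h3 := hf hmk
    rw [SModEq.sub_mem] at h3 ⊢
    have h4 := Submodule.mem_map_of_mem (f := LinearMap.proj (R := R) (φ := fun _ : Fin n => R) i) h3
    rw [Submodule.map_smul''] at h4
    exact Submodule.smul_mono le_rfl le_top h4
  choose L hL using h1
  refine ⟨L, fun m => ?_⟩
  rw [SModEq.sub_mem]
  have h3 : f m - L = ∑ i, (f m i - L i) • (Pi.single i 1 : Fin n → R) := by
    funext j
    rw [Finset.sum_apply, Finset.sum_eq_single j]
    · simp
    · intro b _ hb
      simp [Ne.symm hb]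
    · intro h; exact absurd (Finset.mem_univ j) h
  rw [h3]
  refine Submodule.sum_mem _ fun i _ => Submodule.smul_mem_smul ?_ trivial
  have h4 := hL i m
  rw [SModEq.sub_mem] at h4
  simpa using h4

/-- A complete discrete valuation ring of characteristic zero with finite residue field of
characteristic `p` is a finite `ℤ_[p]`-module. -/
theorem module_finite_padicInt (p : ℕ) [Fact p.Prime] (O : Type*) [CommRing O] [IsDomain O]
    [IsDiscreteValuationRing O] [IsAdicComplete (maximalIdeal O) O] [Finite (ResidueField O)]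
    [CharZero O] (hp : (p : O) ∈ maximalIdeal O) [Algebra ℤ_[p] O] : Module.Finite ℤ_[p] O := by
  classical
  have hp0 : (p : O) ≠ 0 := Nat.cast_ne_zero.mpr (Fact.out : p.Prime).ne_zero
  have hmap : (maximalIdeal ℤ_[p]).map (algebraMap ℤ_[p] O) = Ideal.span {(p : O)} := by
    rw [PadicInt.maximalIdeal_eq_span_p, Ideal.map_span, Set.image_singleton, map_natCast]
  -- the quotient `O / p` is finite
  have hfin : Finite (O ⧸ Ideal.span {(p : O)}) := by
    obtain ⟨ϖ, hϖ⟩ := IsDiscreteValuationRing.exists_irreducible O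
    obtain ⟨e, u, hu⟩ := IsDiscreteValuationRing.eq_unit_mul_pow_irreducible hp0 hϖ
    have h1 : maximalIdeal O ^ e ≤ Ideal.span {(p : O)} := by
      rw [hϖ.maximalIdeal_eq, Ideal.span_singleton_pow, Ideal.span_singleton_le_span_singleton]
      exact ⟨(u⁻¹ : Oˣ), by rw [hu, mul_right_comm, Units.mul_inv, one_mul]⟩
    haveI : Finite (O ⧸ maximalIdeal O) := inferInstanceAs (Finite (ResidueField O))
    haveI := Ideal.finite_quotient_pow (IsNoetherian.noetherian (maximalIdeal O)) e
    exact Finite.of_surjective _ (Ideal.Quotient.factor_surjective h1)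
  haveI hfin' : Finite (O ⧸ (maximalIdeal ℤ_[p] • (⊤ : Submodule ℤ_[p] O))) := by
    have h1 : (maximalIdeal ℤ_[p] • (⊤ : Submodule ℤ_[p] O)) =
        (Ideal.span {(p : O)}).restrictScalars ℤ_[p] := by
      rw [Ideal.smul_top_eq_map, hmap]
    rw [h1]
    exact Finite.of_equiv _
      (Submodule.Quotient.restrictScalarsEquiv ℤ_[p] (Ideal.span {(p : O)})).symm.toEquiv
  haveI : IsHausdorff (maximalIdeal ℤ_[p]) O := by
    refine ⟨fun x hx => ?_⟩
    refine IsHausdorff.haus (inferInstance : IsHausdorff (maximalIdeal O) O) x fun n => ?_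
    have h1 := hx n
    rw [SModEq.zero] at h1 ⊢
    rw [Ideal.smul_top_eq_map, Ideal.map_pow, hmap] at h1
    have h3 : Ideal.span {(p : O)} ^ n ≤ maximalIdeal O ^ n :=
      Ideal.pow_right_mono ((Ideal.span_singleton_le_iff_mem _).mpr hp) n
    have h4 := h3 h1
    simpa using h4
  -- lift generators
  obtain ⟨n, ⟨em⟩⟩ := Finite.exists_equiv_fin (O ⧸ (maximalIdeal ℤ_[p] • (⊤ : Submodule ℤ_[p] O)))
  haveI : IsPrecomplete (maximalIdeal ℤ_[p]) (Fin n → ℤ_[p]) := isPrecomplete_fin _ n
  let x : Fin n → O := fun i => (em.symm i).out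
  let g : (Fin n → ℤ_[p]) →ₗ[ℤ_[p]] O := Fintype.linearCombination ℤ_[p] x
  have hg : Function.Surjective g := by
    refine surjective_of_mkQ_comp_surjective (I := maximalIdeal ℤ_[p]) fun y => ?_
    refine ⟨Pi.single (em y) 1, ?_⟩
    show Submodule.Quotient.mk (g (Pi.single (em y) 1)) = y
    have h1 : g (Pi.single (em y) 1) = x (em y) := by
      show Fintype.linearCombination ℤ_[p] x _ = _
      rw [Fintype.linearCombination_apply_single, one_smul]
    rw [h1]
    show Submodule.Quotient.mk (em.symm (em y)).out = y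
    rw [Equiv.symm_apply_apply]
    exact Quotient.out_eq' y
  exact Module.Finite.of_surjective g hg

end Fermat.Agent.LTF.Alpha
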