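import Fermat.Agent.LTF.AlphaQuot

set_option autoImplicit false
set_option linter.style.haveILetI false

noncomputable section

namespace Fermat.Agent.LTF.Alpha

open IsLocalRing Matrix


section Exist

variable {G : Type*} [Group G] {J : Type*} [Finite J] [Nonempty J] {A : J → Type*}
  [∀ j, CommRing (A j)] [∀ j, IsLocalRing (A j)] [∀ j, Algebra ℤ_[2] (A j)]
  [∀ j, Module.Finite ℤ_[2] (A j)] {κ : Type*}
  {t : G → ZMod 2} {c h : G} {χ : G → ℤ_[2]}
    {r : ∀ j, G →* Matrix (Fin 2) (Fin 2) (A j)} {U : κ → ∀ j, A j}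

lemma zmod2_isUnit {x : ZMod 2} (hx : IsUnit x) : x = 1 := by
  rcases zmod2 x with h | h
  · rw [h] at hx; exact absurd hx not_isUnit_zero
  · exact h

/-- Existence of the glued representation with prescribed reduction. -/
theorem GlueData.exists_gluedRep (H : GlueData t c h χ r U)
    (rbar : G →* Matrix (Fin 2) (Fin 2) (ZMod 2)) (ht : ∀ g, t g = (rbar g).trace) :
    ∃ D : GluedRep r U, ∀ g, (D.rA g).map H.qred = rbar g := by
  obtain ⟨rB, hN, hP⟩ := H.exists_rep
  choose P hP using hP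
  -- the residual representation in normal form
  have hcc : rbar c * rbar c = 1 := by rw [← map_mul, H.cc, map_one]
  have hdet1 : ∀ g, (rbar g).det = 1 := fun g =>
    zmod2_isUnit ((Matrix.isUnit_iff_isUnit_det _).mp ((Group.isUnit g).map rbar))
  have hctr : (rbar c).trace = 0 := trace_eq_zero_of_involution _ hcc (by
    rw [hdet1]; decide)
  have h2 : ¬ IsUnit (2 : ZMod 2) := by
    intro h
    have h3 : (2 : ZMod 2) = 0 := rfl
    rw [h3] at h
    exact not_isUnit_zero h
  obtain ⟨P0, Q0, hPQ, hQP, hN0⟩ := exists_normal h2 rbar hcc hctr (by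
    rw [← ht, ← ht, H.h1]; exact isUnit_one)
  -- the reduction of `rB`
  let f : gRing r U →+* ZMod 2 := H.qred.comp (qmk r U)
  have hf : f = H.red := by
    ext x
    rfl
  have hN1 := hN.map f
  have htr1 : ∀ g, ((f.mapMatrix (m := Fin 2)).toMonoidHom.comp rB g).trace =
      (conjRep rbar P0 Q0 hPQ hQP g).trace := by
    intro g
    have h3 : ((f.mapMatrix (m := Fin 2)).toMonoidHom.comp rB g) = (rB g).map f := rfl
    have h4 : (rB g).trace = ⟨_, trace_mem_gRing g⟩ := by
      refine gEv_ext _ _ fun j => ?_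
      have h5 := trace_map' (gEv r U j : gRing r U →+* A j) (rB g)
      have h6 : (rB g).map (gEv r U j : gRing r U →+* A j) = (rB g).map (gEv r U j) := rfl
      rw [h6, hP j g, trace_conj] at h5
      exact h5.symm
    rw [h3, trace_map', h4, hf, H.red_trace, ht, conjRep_apply, Matrix.trace_mul_comm, ← mul_assoc,
      hPQ, one_mul]
  have hdet2 : ∀ r' : G →* Matrix (Fin 2) (Fin 2) (ZMod 2), (r' h).det = 1 := fun r' =>
    zmod2_isUnit ((Matrix.isUnit_iff_isUnit_det _).mp ((Group.isUnit h).map r'))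
  have hdisc : disc ((f.mapMatrix (m := Fin 2)).toMonoidHom.comp rB) c h * 1 = 1 := by
    have h4 : (conjRep rbar P0 Q0 hPQ hQP (h * c)).trace +
        (conjRep rbar P0 Q0 hPQ hQP h).trace = 1 := by
      rw [conjRep_apply, conjRep_apply, Matrix.trace_mul_comm, ← mul_assoc, hPQ, one_mul,
        Matrix.trace_mul_comm (Q0 * rbar h), ← mul_assoc, hPQ, one_mul, ← ht, ← ht, H.h1]
    rw [hN1.disc_eq, htr1, htr1, hdet2, h4]
    generalize (conjRep rbar P0 Q0 hPQ hQP h).trace = y
    revert y; decide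
  have key := fun g => hN1.ext hN0 htr1 (by rw [hdet2, hdet2]) hdisc g
  haveI := H.charP_quot
  let ι : ZMod 2 →+* gQ r U := ZMod.castHom (dvd_refl 2) _
  have hι : H.qred.comp ι = RingHom.id _ := Subsingleton.elim _ _
  let P1 : (Matrix (Fin 2) (Fin 2) (ZMod 2))ˣ := ⟨P0, Q0, hPQ, hQP⟩
  let PA : (Matrix (Fin 2) (Fin 2) (gQ r U))ˣ := Units.map (ι.mapMatrix (m := Fin 2)).toMonoidHom P1
  let rA : G →* Matrix (Fin 2) (Fin 2) (gQ r U) :=
    conjRep (((qmk r U).mapMatrix (m := Fin 2)).toMonoidHom.comp rB) PA.inv PA.val PA.inv_val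
      PA.val_inv
  refine ⟨⟨rB, P, hP, rA, PA, fun g => rfl⟩, fun g => ?_⟩
  show (H.qred.mapMatrix (m := Fin 2)) (PA.val * ((qmk r U).mapMatrix (m := Fin 2)) (rB g) *
    PA.inv) = rbar g
  rw [map_mul, map_mul]
  have e1 : (H.qred.mapMatrix (m := Fin 2)) PA.val = P0 := by
    show (H.qred.mapMatrix (m := Fin 2)) ((ι.mapMatrix (m := Fin 2)) P0) = P0
    have h3 : (H.qred.mapMatrix (m := Fin 2)) ((ι.mapMatrix (m := Fin 2)) P0) =
      ((H.qred.comp ι).mapMatrix (m := Fin 2)) P0 := by ext; rfl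
    rw [h3, hι]
    ext; rfl
  have e2 : (H.qred.mapMatrix (m := Fin 2)) PA.inv = Q0 := by
    show (H.qred.mapMatrix (m := Fin 2)) ((ι.mapMatrix (m := Fin 2)) Q0) = Q0
    have h3 : (H.qred.mapMatrix (m := Fin 2)) ((ι.mapMatrix (m := Fin 2)) Q0) =
      ((H.qred.comp ι).mapMatrix (m := Fin 2)) Q0 := by ext; rfl
    rw [h3, hι]
    ext; rfl
  have e3 : (H.qred.mapMatrix (m := Fin 2)) (((qmk r U).mapMatrix (m := Fin 2)) (rB g)) =
      Q0 * rbar g * P0 := by
    have h3 := key g
    rw [conjRep_apply] at h3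
    exact h3
  rw [e1, e2, e3]
  calc P0 * (Q0 * rbar g * P0) * Q0 = (P0 * Q0) * rbar g * (P0 * Q0) := by simp only [mul_assoc]
    _ = rbar g := by rw [hPQ, one_mul, mul_one]

omit [Finite J] [Nonempty J] [∀ j, IsLocalRing (A j)] [∀ j, Module.Finite ℤ_[2] (A j)] in
/-- the glued ring modulo `2` is generated by traces and the `U k` -/
lemma GluedRep.closure_eq_top (D : GluedRep r U) :
    Subring.closure ((Set.range fun g => (D.rA g).trace) ∪
      Set.range fun k => qmk r U ⟨_, U_mem_gRing k⟩) = ⊤ := by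
  rw [eq_top_iff]
  rintro x -
  obtain ⟨⟨y, hy⟩, rfl⟩ := qmk_surjective x
  have key : ∀ (y : ∀ j, A j) (hy : y ∈ gRing r U), qmk r U ⟨y, hy⟩ ∈
      Subring.closure ((Set.range fun g => (D.rA g).trace) ∪
        Set.range fun k => qmk r U ⟨_, U_mem_gRing k⟩) := by
    intro y hy
    refine Algebra.adjoin_induction (p := fun y hy => qmk r U ⟨y, hy⟩ ∈
      Subring.closure ((Set.range fun g => (D.rA g).trace) ∪
        Set.range fun k => qmk r U ⟨_, U_mem_gRing k⟩)) ?_ ?_ ?_ ?_ hy
    · rintro x (⟨g, rfl⟩ | ⟨k, rfl⟩)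
      · refine Subring.subset_closure (Or.inl ⟨g, ?_⟩)
        beta_reduce
        rw [D.trace_rA]
      · exact Subring.subset_closure (Or.inr ⟨k, rfl⟩)
    · intro a
      have h1 : PadicInt.toZMod (p := 2) a = 0 ∨ PadicInt.toZMod (p := 2) a = 1 := zmod2 _
      have h3 : ∀ b ∈ maximalIdeal ℤ_[2],
          qmk r U (algebraMap ℤ_[2] (gRing r U) b) = 0 := fun b hb =>
        qmk_eq_zero.mpr (Ideal.mem_map_of_mem _ hb)
      have h4 : qmk r U ⟨algebraMap ℤ_[2] (∀ j, A j) a, (gRing r U).algebraMap_mem a⟩ =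
        qmk r U (algebraMap ℤ_[2] (gRing r U) a) := rfl
      rw [h4]
      rcases h1 with h1 | h1
      · rw [← RingHom.mem_ker, PadicInt.ker_toZMod] at h1
        rw [h3 a h1]
        exact Subring.zero_mem _
      · have h5 : a - 1 ∈ maximalIdeal ℤ_[2] := by
          rw [← PadicInt.ker_toZMod, RingHom.mem_ker, map_sub, h1, map_one, sub_self]
        have h6 := h3 _ h5
        rw [map_sub, map_sub, map_one, map_one, sub_eq_zero] at h6
        rw [h6]
        exact Subring.one_mem _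
    · intro x y hx hy h1 h3
      exact Subring.add_mem _ h1 h3
    · intro x y hx hy h1 h3
      exact Subring.mul_mem _ h1 h3
  exact key y hy

end Exist

end Fermat.Agent.LTF.Alpha
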