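import Mathlib

/-!
# The glued ring: finite `ℤ_2`-subalgebras of products of local rings

`A j` (`j : J`, `J` finite) are local rings, finite over `ℤ_[2]`, and `B` is a subalgebra of
`∏ A j` all of whose elements are residually constant equal to `0` or `1`.  Then `B` is a local
ring with residue field `𝔽_2`; and if `B / 2` has at most `2 ^ #F` elements, where `F` is a set of
indices giving pairwise different points of `B` in a field of characteristic zero, then an element
of `B` vanishing at all points of `F` is zero.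
-/

set_option autoImplicit false
set_option linter.style.haveILetI false

namespace Fermat.Agent.LTF.Alpha

open IsLocalRing

section Count

variable {M : Type*} [AddCommGroup M] [Module ℤ_[2] M] [Module.Finite ℤ_[2] M]

/-- Nakayama over `ℤ_2`: a finite module with `#(M/2) ≤ 2 ^ r` is generated by `r` elements. -/
lemma exists_surjective_of_card {r : ℕ}
    (h : Nat.card (M ⧸ (maximalIdeal ℤ_[2] • (⊤ : Submodule ℤ_[2] M))) ≤ 2 ^ r) :
    ∃ f : (Fin r → ℤ_[2]) →ₗ[ℤ_[2]] M, Function.Surjective f := by
  classical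
  set Q := M ⧸ (maximalIdeal ℤ_[2] • (⊤ : Submodule ℤ_[2] M)) with hQ
  letI : Field (ℤ_[2] ⧸ maximalIdeal ℤ_[2]) := Ideal.Quotient.field _
  haveI : Module.Finite ℤ_[2] Q := inferInstance
  haveI : Module.Finite (ℤ_[2] ⧸ maximalIdeal ℤ_[2]) Q :=
    Module.Finite.of_restrictScalars_finite ℤ_[2] _ _
  have hk : Nat.card (ℤ_[2] ⧸ maximalIdeal ℤ_[2]) = 2 := by
    have h1 := Nat.card_congr (PadicInt.residueField (p := 2)).toEquiv
    rw [Nat.card_zmod] at h1
    exact h1
  have hcard : Nat.card Q = 2 ^ Module.finrank (ℤ_[2] ⧸ maximalIdeal ℤ_[2]) Q := by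
    rw [Module.natCard_eq_pow_finrank (K := ℤ_[2] ⧸ maximalIdeal ℤ_[2]) (V := Q), hk]
  set d := Module.finrank (ℤ_[2] ⧸ maximalIdeal ℤ_[2]) Q with hd
  have hdr : d ≤ r := by
    rw [hcard] at h
    exact (Nat.pow_le_pow_iff_right (by norm_num)).mp h
  let b := Module.finBasis (ℤ_[2] ⧸ maximalIdeal ℤ_[2]) Q
  choose m hm using fun i : Fin d => Submodule.Quotient.mk_surjective _ (b i)
  -- the elements `m i` generate
  have hspan : Submodule.span ℤ_[2] (Set.range m) = ⊤ := by
    refine le_antisymm le_top ?_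
    refine Submodule.le_of_le_smul_of_le_jacobson_bot (I := maximalIdeal ℤ_[2])
      Module.Finite.fg_top (IsLocalRing.maximalIdeal_le_jacobson ⊥) ?_
    intro x _
    have h1 : (Submodule.Quotient.mk x : Q) ∈
        Submodule.span (ℤ_[2] ⧸ maximalIdeal ℤ_[2]) (Set.range b) := by
      rw [b.span_eq]; trivial
    have h2 : (Submodule.Quotient.mk x : Q) ∈ Submodule.span ℤ_[2] (Set.range b) := by
      rw [← Submodule.restrictScalars_mem ℤ_[2]] at h1
      rwa [Submodule.restrictScalars_span ℤ_[2] _ Ideal.Quotient.mk_surjective] at h1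
    have h3 : Set.range b = (Submodule.mkQ (maximalIdeal ℤ_[2] • (⊤ : Submodule ℤ_[2] M))) ''
        (Set.range m) := by
      rw [← Set.range_comp]
      congr 1
      funext i
      exact (hm i).symm
    rw [h3, ← Submodule.map_span] at h2
    obtain ⟨y, hy, hxy⟩ := h2
    have h4 : x - y ∈ maximalIdeal ℤ_[2] • (⊤ : Submodule ℤ_[2] M) := by
      rw [← Submodule.Quotient.mk_eq_zero, Submodule.Quotient.mk_sub, sub_eq_zero]
      exact hxy.symm
    have h5 : x = y + (x - y) := by abel
    rw [h5]
    exact Submodule.add_mem_sup hy h4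
  let g : (Fin d → ℤ_[2]) →ₗ[ℤ_[2]] M := Fintype.linearCombination ℤ_[2] m
  have hg : Function.Surjective g := by
    rw [← LinearMap.range_eq_top]
    rw [Fintype.range_linearCombination]
    exact hspan
  refine ⟨g.comp (LinearMap.funLeft ℤ_[2] ℤ_[2] (Fin.castLE hdr)), ?_⟩
  rw [LinearMap.coe_comp]
  exact hg.comp (LinearMap.funLeft_surjective_of_injective ℤ_[2] ℤ_[2] _
    (Fin.castLE_injective hdr))

end Count

/-- Dedekind: if `B` is generated over `ℤ_2` by at most `#F` elements and `θ f : B → Ω` are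
pairwise distinct characters to a field of characteristic zero, then they are jointly injective. -/
lemma eq_zero_of_count {B : Type*} [CommRing B] [Algebra ℤ_[2] B] {F : Type*} [Fintype F]
    {Ω : Type*} [Field Ω] [CharZero Ω] [Algebra ℤ_[2] Ω] (θ : F → B →ₐ[ℤ_[2]] Ω)
    (hθ : Function.Injective θ) {r : ℕ} (hr : r ≤ Fintype.card F)
    (g : (Fin r → ℤ_[2]) →ₗ[ℤ_[2]] B) (hg : Function.Surjective g) (x : B)
    (hx : ∀ f, θ f x = 0) : x = 0 := by
  classical
  let b : Fin r → B := fun i => g (Pi.single i 1)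
  have hgb : ∀ a : Fin r → ℤ_[2], g a = ∑ i, a i • b i := by
    intro a
    conv_lhs => rw [pi_eq_sum_univ a, map_sum]
    refine Finset.sum_congr rfl fun i _ => ?_
    rw [map_smul]
    congr 2
    funext j
    simp [Pi.single_apply, eq_comm]
  let L : (Fin r → Ω) →ₗ[Ω] (F → Ω) :=
    { toFun := fun v f => ∑ i, v i * θ f (b i)
      map_add' := by
        intro v w; funext f
        simp only [Pi.add_apply, add_mul, Finset.sum_add_distrib]
      map_smul' := by
        intro c v; funext f
        simp only [Pi.smul_apply, smul_eq_mul, RingHom.id_apply, Finset.mul_sum, mul_assoc] }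
  have hLg : ∀ (a : Fin r → ℤ_[2]) (f : F), θ f (g a) = L (fun i => algebraMap ℤ_[2] Ω (a i)) f := by
    intro a f
    rw [hgb, map_sum]
    refine Finset.sum_congr rfl fun i _ => ?_
    rw [map_smul, Algebra.smul_def]
  have hLs : Function.Surjective L := by
    rw [← LinearMap.range_eq_top]
    by_contra hcon
    obtain ⟨φ, hφ0, hφ⟩ := Submodule.exists_le_ker_of_lt_top _ (lt_top_iff_ne_top.mpr hcon)
    have hind := linearIndependent_monoidHom B Ω
    have hinj : Function.Injective (fun f : F => ((θ f : B →* Ω))) := by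
      intro f f' hff
      apply hθ
      ext y
      exact DFunLike.congr_fun hff y
    have hind2 := hind.comp _ hinj
    rw [Fintype.linearIndependent_iff] at hind2
    have hc := hind2 (fun f => φ (Pi.single f 1)) (by
      funext y
      obtain ⟨a, rfl⟩ := hg y
      have h1 : φ (fun f => θ f (g a)) = 0 := by
        have h2 : (fun f => θ f (g a)) = L (fun i => algebraMap ℤ_[2] Ω (a i)) := by
          funext f; exact hLg a f
        rw [h2]
        exact hφ ⟨_, rfl⟩
      rw [pi_eq_sum_univ (fun f => θ f (g a)), map_sum] at h1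
      simp only [Finset.sum_apply, Pi.smul_apply, Function.comp_apply, smul_eq_mul,
        Pi.zero_apply]
      rw [← h1]
      refine Finset.sum_congr rfl fun f _ => ?_
      rw [map_smul, smul_eq_mul, mul_comm]
      congr 2
      funext j
      simp [Pi.single_apply, eq_comm])
    apply hφ0
    apply LinearMap.ext
    intro v
    rw [pi_eq_sum_univ v, map_sum, LinearMap.zero_apply]
    refine Finset.sum_eq_zero fun f _ => ?_
    rw [map_smul]
    have h3 : (fun j => if f = j then (1 : Ω) else 0) = Pi.single f 1 := by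
      funext j
      simp [Pi.single_apply, eq_comm]
    rw [h3, hc f, smul_zero]
  have hrF : Fintype.card F ≤ r := by
    have h1 := LinearMap.finrank_le_finrank_of_surjective hLs
    rwa [Module.finrank_fintype_fun_eq_card, Module.finrank_fin_fun] at h1
  have hLi : Function.Injective L := by
    rw [LinearMap.injective_iff_surjective_of_finrank_eq_finrank]
    · exact hLs
    · rw [Module.finrank_fintype_fun_eq_card, Module.finrank_fintype_fun_eq_card, Fintype.card_fin]; omega
  obtain ⟨a, rfl⟩ := hg x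
  have h0 : L (fun i => algebraMap ℤ_[2] Ω (a i)) = 0 := by
    funext f
    rw [← hLg, hx]; rfl
  have h1 := hLi (h0.trans (map_zero L).symm)
  have h2 : a = 0 := by
    funext i
    have h3 : algebraMap ℤ_[2] Ω (a i) = 0 := congrFun h1 i
    by_contra h4
    have h4' : a i ≠ 0 := h4
    obtain ⟨u, hu⟩ : ∃ u : ℤ_[2]ˣ, a i = u * (2 : ℤ_[2]) ^ (a i).valuation :=
      ⟨PadicInt.unitCoeff h4', by exact_mod_cast PadicInt.unitCoeff_spec h4'⟩
    rw [hu, map_mul, map_pow, map_ofNat] at h3
    have h5 : algebraMap ℤ_[2] Ω (u : ℤ_[2]) ≠ 0 := by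
      have := (u.isUnit.map (algebraMap ℤ_[2] Ω)).ne_zero
      exact this
    rcases mul_eq_zero.mp h3 with h6 | h6
    · exact h5 h6
    · exact two_ne_zero (eq_zero_of_pow_eq_zero h6)
  rw [h2, map_zero]

section Dich

variable {J : Type*} (A : J → Type*) [∀ j, CommRing (A j)] [∀ j, IsLocalRing (A j)]
  [∀ j, Algebra ℤ_[2] (A j)] (h2 : ∀ j, (2 : A j) ∈ maximalIdeal (A j))

include h2 in
lemma padic_dich (a : ℤ_[2]) : (∀ j, algebraMap ℤ_[2] (A j) a ∈ maximalIdeal (A j)) ∨
    (∀ j, algebraMap ℤ_[2] (A j) a - 1 ∈ maximalIdeal (A j)) := by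
  have hp : ∀ b : ℤ_[2], b ∈ maximalIdeal ℤ_[2] → ∀ j, algebraMap ℤ_[2] (A j) b ∈
      maximalIdeal (A j) := by
    intro b hb j
    rw [PadicInt.maximalIdeal_eq_span_p, Ideal.mem_span_singleton] at hb
    obtain ⟨c, rfl⟩ := hb
    rw [map_mul]
    refine Ideal.mul_mem_right _ _ ?_
    rw [map_natCast]
    exact_mod_cast h2 j
  have h1 : PadicInt.toZMod (p := 2) a = 0 ∨ PadicInt.toZMod (p := 2) a = 1 := by
    generalize PadicInt.toZMod (p := 2) a = t
    revert t; decide
  rcases h1 with h1 | h1
  · left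
    refine hp a ?_
    rw [← PadicInt.ker_toZMod, RingHom.mem_ker]
    exact h1
  · right
    intro j
    have h3 : a - 1 ∈ maximalIdeal ℤ_[2] := by
      rw [← PadicInt.ker_toZMod, RingHom.mem_ker, map_sub, h1, map_one, sub_self]
    have := hp _ h3 j
    rwa [map_sub, map_one] at this

/-- the subalgebra of residually constant elements with residue `0` or `1` -/
def dich : Subalgebra ℤ_[2] (∀ j, A j) where
  carrier := {x | (∀ j, x j ∈ maximalIdeal (A j)) ∨ (∀ j, x j - 1 ∈ maximalIdeal (A j))}
  algebraMap_mem' a := padic_dich A h2 a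
  mul_mem' := by
    rintro x y (hx | hx) (hy | hy)
    · exact Or.inl fun j => Ideal.mul_mem_right _ _ (hx j)
    · exact Or.inl fun j => Ideal.mul_mem_right _ _ (hx j)
    · exact Or.inl fun j => Ideal.mul_mem_left _ _ (hy j)
    · refine Or.inr fun j => ?_
      have : (x * y) j - 1 = (x j - 1) * y j + (y j - 1) := by
        rw [Pi.mul_apply]; ring
      rw [this]
      exact Ideal.add_mem _ (Ideal.mul_mem_right _ _ (hx j)) (hy j)
  add_mem' := by
    rintro x y (hx | hx) (hy | hy)
    · exact Or.inl fun j => Ideal.add_mem _ (hx j) (hy j)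
    · refine Or.inr fun j => ?_
      have : (x + y) j - 1 = x j + (y j - 1) := by
        rw [Pi.add_apply]; ring
      rw [this]
      exact Ideal.add_mem _ (hx j) (hy j)
    · refine Or.inr fun j => ?_
      have : (x + y) j - 1 = (x j - 1) + y j := by
        rw [Pi.add_apply]; ring
      rw [this]
      exact Ideal.add_mem _ (hx j) (hy j)
    · refine Or.inl fun j => ?_
      have : (x + y) j = (x j - 1) + (y j - 1) + 2 := by
        rw [Pi.add_apply]; ring
      rw [this]
      exact Ideal.add_mem _ (Ideal.add_mem _ (hx j) (hy j)) (h2 j)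

variable {A h2}

lemma mem_dich {x : ∀ j, A j} : x ∈ dich A h2 ↔
    (∀ j, x j ∈ maximalIdeal (A j)) ∨ (∀ j, x j - 1 ∈ maximalIdeal (A j)) := Iff.rfl

omit [∀ j, Algebra ℤ_[2] (A j)] in
lemma not_both (j : J) (x : A j) (h : x ∈ maximalIdeal (A j)) :
    x - 1 ∉ maximalIdeal (A j) := by
  intro h1
  have h3 := Ideal.sub_mem _ h h1
  rw [sub_sub_cancel] at h3
  exact (Ideal.ne_top_iff_one _).mp (maximalIdeal.isMaximal (A j)).ne_top h3

variable [Nonempty J]

open Classical in
variable (A h2) in
/-- the reduction map of `dich` -/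
noncomputable def dred : dich A h2 →+* ZMod 2 where
  toFun x := if ∀ j, (x : ∀ j, A j) j ∈ maximalIdeal (A j) then 0 else 1
  map_one' := by
    rw [if_neg]
    intro h
    exact (Ideal.ne_top_iff_one _).mp (maximalIdeal.isMaximal (A (Classical.arbitrary J))).ne_top
      (h (Classical.arbitrary J))
  map_zero' := by
    rw [if_pos]
    intro j
    exact Ideal.zero_mem _
  map_mul' := by
    rintro ⟨x, hx⟩ ⟨y, hy⟩
    by_cases hx' : ∀ j, x j ∈ maximalIdeal (A j)
    · simp only [MulMemClass.mk_mul_mk]
      have e : ∀ j, (x * y) j ∈ maximalIdeal (A j) := fun j => Ideal.mul_mem_right _ _ (hx' j)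
      rw [if_pos e, if_pos hx', zero_mul]
    · by_cases hy' : ∀ j, y j ∈ maximalIdeal (A j)
      · simp only [MulMemClass.mk_mul_mk]
        have e : ∀ j, (x * y) j ∈ maximalIdeal (A j) := fun j => Ideal.mul_mem_left _ _ (hy' j)
        rw [if_pos e, if_pos hy', mul_zero]
      · simp only [MulMemClass.mk_mul_mk]
        rw [if_neg hx', if_neg hy', if_neg, mul_one]
        intro h
        let j := Classical.arbitrary J
        have h1 := (mem_dich.mp hx).resolve_left hx' j
        have h3 := (mem_dich.mp hy).resolve_left hy' j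
        refine not_both j _ (h j) ?_
        have : (x * y) j - 1 = (x j - 1) * y j + (y j - 1) := by
          rw [Pi.mul_apply]; ring
        rw [this]
        exact Ideal.add_mem _ (Ideal.mul_mem_right _ _ h1) h3
  map_add' := by
    rintro ⟨x, hx⟩ ⟨y, hy⟩
    let j := Classical.arbitrary J
    by_cases hx' : ∀ j, x j ∈ maximalIdeal (A j)
    · by_cases hy' : ∀ j, y j ∈ maximalIdeal (A j)
      · simp only [AddMemClass.mk_add_mk]
        have e : ∀ j, (x + y) j ∈ maximalIdeal (A j) :=
          fun j => Ideal.add_mem _ (hx' j) (hy' j)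
        rw [if_pos e, if_pos hx', if_pos hy', add_zero]
      · simp only [AddMemClass.mk_add_mk]
        rw [if_pos hx', if_neg hy', if_neg, zero_add]
        intro h
        apply hy'
        intro j
        have := Ideal.sub_mem _ (h j) (hx' j)
        rwa [Pi.add_apply, add_sub_cancel_left] at this
    · by_cases hy' : ∀ j, y j ∈ maximalIdeal (A j)
      · simp only [AddMemClass.mk_add_mk]
        rw [if_neg hx', if_pos hy', if_neg, add_zero]
        intro h
        apply hx'
        intro j
        have := Ideal.sub_mem _ (h j) (hy' j)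
        rwa [Pi.add_apply, add_sub_cancel_right] at this
      · simp only [AddMemClass.mk_add_mk]
        rw [if_neg hx', if_neg hy', if_pos]
        · decide
        · intro j
          have h1 := (mem_dich.mp hx).resolve_left hx' j
          have h3 := (mem_dich.mp hy).resolve_left hy' j
          have : (x + y) j = (x j - 1) + (y j - 1) + 2 := by
            rw [Pi.add_apply]; ring
          rw [this]
          exact Ideal.add_mem _ (Ideal.add_mem _ h1 h3) (h2 j)

lemma dred_eq_zero {x : dich A h2} : dred A h2 x = 0 ↔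
    ∀ j, (x : ∀ j, A j) j ∈ maximalIdeal (A j) := by
  classical
  show (if _ then _ else _) = _ ↔ _
  split_ifs with h
  · exact ⟨fun _ => h, fun _ => rfl⟩
  · exact ⟨fun h' => absurd h' one_ne_zero, fun h' => absurd h' h⟩

lemma zmod2 (t : ZMod 2) : t = 0 ∨ t = 1 := by revert t; decide

lemma dred_eq_one {x : dich A h2} : dred A h2 x = 1 ↔
    ∀ j, (x : ∀ j, A j) j - 1 ∈ maximalIdeal (A j) := by
  have h1 : dred A h2 x = 1 ↔ dred A h2 (x - 1) = 0 := by
    rw [map_sub, map_one, sub_eq_zero]
  rw [h1, dred_eq_zero]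
  rfl

variable (A) in
omit [Nonempty J] [∀ j, IsLocalRing (A j)] in
lemma isIntegral_of_le [Finite J] [∀ j, Module.Finite ℤ_[2] (A j)]
    (B : Subalgebra ℤ_[2] (∀ j, A j)) : B.toSubring.subtype.IsIntegral := by
  intro x
  have : IsIntegral ℤ_[2] x := IsIntegral.of_finite _ _
  obtain ⟨p, hp, hpx⟩ := this
  refine ⟨p.map (algebraMap ℤ_[2] B), hp.map _, ?_⟩
  rw [Polynomial.eval₂_map]
  exact hpx

/-- An element of `B ≤ dich` with residue `1` is a unit of `B`. -/
lemma isUnit_of_dred [Finite J] [∀ j, Module.Finite ℤ_[2] (A j)]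
    (B : Subalgebra ℤ_[2] (∀ j, A j)) (hB : B ≤ dich A h2) (x : B)
    (hx : dred A h2 ⟨x, hB x.2⟩ = 1) : IsUnit x := by
  have h1 := isIntegral_of_le A B
  have h3 : IsUnit (x : ∀ j, A j) := by
    rw [Pi.isUnit_iff]
    intro j
    by_contra hcon
    exact not_both j _ hcon (dred_eq_one.mp hx j)
  exact (h1.isLocalHom Subtype.val_injective).map_nonunit x h3

lemma dred_of_isUnit (B : Subalgebra ℤ_[2] (∀ j, A j)) (hB : B ≤ dich A h2) (x : B)
    (hx : IsUnit x) : dred A h2 ⟨x, hB x.2⟩ = 1 := by
  rcases zmod2 (dred A h2 ⟨x, hB x.2⟩) with h | h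
  · exfalso
    have h1 := hx.map ((dred A h2).comp (Subalgebra.inclusion hB).toRingHom)
    have h3 : ((dred A h2).comp (Subalgebra.inclusion hB).toRingHom) x =
      dred A h2 ⟨x, hB x.2⟩ := rfl
    rw [h3, h] at h1
    exact not_isUnit_zero h1
  · exact h

lemma isLocalRing_of_le [Finite J] [∀ j, Module.Finite ℤ_[2] (A j)]
    (B : Subalgebra ℤ_[2] (∀ j, A j)) (hB : B ≤ dich A h2) : IsLocalRing B := by
  have : Nontrivial (∀ j, A j) := Pi.nontrivial_at (Classical.arbitrary J)
  have : Nontrivial B := inferInstance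
  refine IsLocalRing.of_isUnit_or_isUnit_one_sub_self fun x => ?_
  rcases zmod2 (dred A h2 ⟨x, hB x.2⟩) with h | h
  · right
    refine isUnit_of_dred B hB _ ?_
    have h3 : (⟨((1 - x : B) : ∀ j, A j), hB (1 - x).2⟩ : dich A h2) = 1 - ⟨x, hB x.2⟩ := rfl
    rw [h3, map_sub, h, map_one, sub_zero]
  · left
    exact isUnit_of_dred B hB x h

end Dich

end Fermat.Agent.LTF.Alpha
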