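import Fermat.Agent.LTF.AlphaMat
import Fermat.Agent.LTF.AlphaRing

set_option autoImplicit false
set_option linter.style.haveILetI false

noncomputable section

namespace Fermat.Agent.LTF.Alpha

open IsLocalRing Matrix

section Unique

variable {G : Type*} [Group G]

/-- The product of a family of matrix representations. -/
def prodRep {J : Type*} {A : J → Type*} [∀ j, CommRing (A j)]
    (r : ∀ j, G →* Matrix (Fin 2) (Fin 2) (A j)) : G →* Matrix (Fin 2) (Fin 2) (∀ j, A j) where
  toFun g := Matrix.of fun a b j => r j g a b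
  map_one' := by
    ext a b j
    rw [Matrix.of_apply, map_one]
    fin_cases a <;> fin_cases b <;> simp
  map_mul' g g' := by
    ext a b j
    rw [Matrix.of_apply, map_mul, Matrix.mul_apply, Matrix.mul_apply]
    simp [Fin.sum_univ_two]

@[simp] lemma prodRep_apply {J : Type*} {A : J → Type*} [∀ j, CommRing (A j)]
    (r : ∀ j, G →* Matrix (Fin 2) (Fin 2) (A j)) (g : G) (a b : Fin 2) (j : J) :
    prodRep r g a b j = r j g a b := rfl

lemma prodRep_trace {J : Type*} {A : J → Type*} [∀ j, CommRing (A j)]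
    (r : ∀ j, G →* Matrix (Fin 2) (Fin 2) (A j)) (g : G) :
    (prodRep r g).trace = fun j => (r j g).trace := by
  funext j
  simp [trace_fin_two]

lemma prodRep_det {J : Type*} {A : J → Type*} [∀ j, CommRing (A j)]
    (r : ∀ j, G →* Matrix (Fin 2) (Fin 2) (A j)) (g : G) :
    (prodRep r g).det = fun j => (r j g).det := by
  funext j
  simp [det_fin_two]

lemma IsNormal.prod {J : Type*} {A : J → Type*} [∀ j, CommRing (A j)]
    {r : ∀ j, G →* Matrix (Fin 2) (Fin 2) (A j)} {c h : G} (H : ∀ j, IsNormal (r j) c h) :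
    IsNormal (prodRep r) c h where
  c00 := by funext j; simpa using (H j).c00
  c10 := by funext j; simpa using (H j).c10
  c11 := by funext j; simpa using (H j).c11
  h00 := by funext j; simpa using (H j).h00
  h10 := by funext j; simpa using (H j).h10

variable {R : Type*} [CommRing R]

lemma IsNormal.disc_eq {r : G →* Matrix (Fin 2) (Fin 2) R} {c h : G} (H : IsNormal r c h) :
    disc r c h = 2 * (-(2 * (r h).det) + (r h).trace * ((r (h * c)).trace + (r h).trace)) -
      ((r (h * c)).trace + (r h).trace) * ((r (h * c)).trace + (r h).trace) := by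
  rw [← H.b_eq, disc, det_fin_two, trace_fin_two, H.h00, H.h10]
  ring

/-- A representation in normal form is determined by its traces and `det r h`. -/
theorem IsNormal.ext {r r' : G →* Matrix (Fin 2) (Fin 2) R} {c h : G} (H : IsNormal r c h)
    (H' : IsNormal r' c h) (htr : ∀ g, (r g).trace = (r' g).trace)
    (hdet : (r h).det = (r' h).det) {u : R} (hu : disc r c h * u = 1) (g : G) : r g = r' g := by
  let s : Bool → (G →* Matrix (Fin 2) (Fin 2) R) := fun b => if b then r else r'
  have hs : IsNormal (prodRep (A := fun _ : Bool => R) s) c h := by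
    refine IsNormal.prod fun b => ?_
    cases b
    · exact H'
    · exact H
  let B : Subring (Bool → R) :=
    (RingHom.eqLocus (Pi.evalRingHom (fun _ : Bool => R) true)
      (Pi.evalRingHom (fun _ : Bool => R) false))
  have hB : ∀ x : Bool → R, x ∈ B ↔ x true = x false := fun x => Iff.rfl
  have hdisc' : disc r' c h = disc r c h := by
    rw [H.disc_eq, H'.disc_eq, htr, htr, hdet]
  have hdisc : disc (prodRep (A := fun _ : Bool => R) s) c h * (fun _ => u) = 1 := by
    funext b
    cases b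
    · exact (congrArg (· * u) hdisc').trans hu
    · exact hu
  have key := hs.entry_mem B (fun g => by
    rw [prodRep_trace, hB]; exact htr g) (by
    rw [prodRep_det, hB]; exact hdet) (u := fun _ => u) ((hB _).mpr rfl) hdisc g
  ext i j
  exact (hB _).mp (key i j)

end Unique

section Glue

lemma trace_eq_zero_of_involution {R : Type*} [CommRing R] (M : Matrix (Fin 2) (Fin 2) R)
    (h1 : M * M = 1) (hd : M.det = -1) : M.trace = 0 := by
  have e00 := congrFun (congrFun h1 0) 0
  have e01 := congrFun (congrFun h1 0) 1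
  have e10 := congrFun (congrFun h1 1) 0
  have e11 := congrFun (congrFun h1 1) 1
  rw [Matrix.mul_apply, Fin.sum_univ_two] at e00 e01 e10 e11
  rw [Matrix.one_apply_eq] at e00 e11
  rw [Matrix.one_apply_ne (by decide)] at e01 e10
  rw [det_fin_two] at hd
  rw [trace_fin_two]
  linear_combination (M 0 0) * (e00 + hd) + (M 1 0) * e01 - (M 0 0 + M 1 1) * e00

variable {G : Type*} [Group G] {J : Type*} [Finite J] [Nonempty J] {A : J → Type*}
  [∀ j, CommRing (A j)] [∀ j, IsLocalRing (A j)] [∀ j, Algebra ℤ_[2] (A j)]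
  [∀ j, Module.Finite ℤ_[2] (A j)] {κ : Type*}

/-- the glued ring -/
def gRing (r : ∀ j, G →* Matrix (Fin 2) (Fin 2) (A j)) (U : κ → ∀ j, A j) :
    Subalgebra ℤ_[2] (∀ j, A j) :=
  Algebra.adjoin ℤ_[2] ((Set.range fun g => (fun j => (r j g).trace)) ∪ Set.range U)

/-- The hypotheses for the gluing. -/
structure GlueData (t : G → ZMod 2) (c h : G) (χ : G → ℤ_[2])
    (r : ∀ j, G →* Matrix (Fin 2) (Fin 2) (A j)) (U : κ → ∀ j, A j) : Prop where
  two : ∀ j, (2 : A j) ∈ maximalIdeal (A j)
  tr0 : ∀ g, t g = 0 → ∀ j, (r j g).trace ∈ maximalIdeal (A j)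
  tr1 : ∀ g, t g = 1 → ∀ j, (r j g).trace - 1 ∈ maximalIdeal (A j)
  det : ∀ g j, (r j g).det = algebraMap ℤ_[2] (A j) (χ g)
  cc : c * c = 1
  χc : χ c = -1
  h1 : t (h * c) + t h = 1
  U1 : ∀ k j, U k j - 1 ∈ maximalIdeal (A j)

variable {t : G → ZMod 2} {c h : G} {χ : G → ℤ_[2]}
    {r : ∀ j, G →* Matrix (Fin 2) (Fin 2) (A j)} {U : κ → ∀ j, A j}

omit [Finite J] [Nonempty J] [∀ j, Module.Finite ℤ_[2] (A j)] in
lemma GlueData.le_dich (H : GlueData t c h χ r U) : gRing r U ≤ dich A H.two := by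
  refine Algebra.adjoin_le ?_
  rintro x (⟨g, rfl⟩ | ⟨k, rfl⟩)
  · rcases zmod2 (t g) with h0 | h0
    · exact Or.inl (H.tr0 g h0)
    · exact Or.inr (H.tr1 g h0)
  · exact Or.inr (H.U1 k)

omit [Finite J] [Nonempty J] [∀ j, IsLocalRing (A j)] [∀ j, Module.Finite ℤ_[2] (A j)] in
lemma trace_mem_gRing (g : G) : (fun j => (r j g).trace) ∈ gRing r U :=
  Algebra.subset_adjoin (Or.inl ⟨g, rfl⟩)

omit [Finite J] [Nonempty J] [∀ j, IsLocalRing (A j)] [∀ j, Module.Finite ℤ_[2] (A j)] in
lemma U_mem_gRing (k : κ) : U k ∈ gRing r U :=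
  Algebra.subset_adjoin (Or.inr ⟨k, rfl⟩)

omit [Finite J] [∀ j, Module.Finite ℤ_[2] (A j)] in
lemma GlueData.dred_trace (H : GlueData t c h χ r U) (g : G) :
    dred A H.two ⟨_, H.le_dich (trace_mem_gRing g)⟩ = t g := by
  rcases zmod2 (t g) with h0 | h0
  · rw [h0, dred_eq_zero]; exact H.tr0 g h0
  · rw [h0, dred_eq_one]; exact H.tr1 g h0

/-- evaluation at a factor -/
def gEv (r : ∀ j, G →* Matrix (Fin 2) (Fin 2) (A j)) (U : κ → ∀ j, A j) (j : J) :
    gRing r U →ₐ[ℤ_[2]] A j := (Pi.evalAlgHom ℤ_[2] A j).comp (gRing r U).val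

/-- The glued representation. -/
theorem GlueData.exists_rep (H : GlueData t c h χ r U) :
    ∃ rB : G →* Matrix (Fin 2) (Fin 2) (gRing r U), IsNormal rB c h ∧
      ∀ j, ∃ P : (Matrix (Fin 2) (Fin 2) (A j))ˣ, ∀ g, (rB g).map (gEv r U j) =
        (P : Matrix (Fin 2) (Fin 2) (A j)) * r j g *
          ((P⁻¹ : (Matrix (Fin 2) (Fin 2) (A j))ˣ) : Matrix (Fin 2) (Fin 2) (A j)) := by
  have h2 : ∀ j, ¬ IsUnit (2 : A j) := fun j => (mem_maximalIdeal _).mp (H.two j)
  have hcc : ∀ j, r j c * r j c = 1 := fun j => by rw [← map_mul, H.cc, map_one]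
  have hctr : ∀ j, (r j c).trace = 0 := fun j =>
    trace_eq_zero_of_involution _ (hcc j) (by rw [H.det, H.χc, map_neg, map_one])
  -- residues of `b`
  have hbm : (fun j => (r j (h * c)).trace + (r j h).trace) ∈ gRing r U :=
    add_mem (trace_mem_gRing (h * c)) (trace_mem_gRing h)
  have hbd : dred A H.two ⟨_, H.le_dich hbm⟩ = 1 := by
    have e : (⟨_, H.le_dich hbm⟩ : dich A H.two) =
        ⟨_, H.le_dich (trace_mem_gRing (h * c))⟩ + ⟨_, H.le_dich (trace_mem_gRing h)⟩ := rfl
    rw [e, map_add, H.dred_trace, H.dred_trace, H.h1]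
  have hb : ∀ j, IsUnit ((r j (h * c)).trace + (r j h).trace) := by
    intro j
    by_contra hcon
    exact not_both j _ hcon (dred_eq_one.mp hbd j)
  choose P Q hPQ hQP hN using fun j => exists_normal (h2 j) (r j) (hcc j) (hctr j) (hb j)
  set s : ∀ j, G →* Matrix (Fin 2) (Fin 2) (A j) :=
    fun j => conjRep (r j) (P j) (Q j) (hPQ j) (hQP j) with hs
  have hsN : IsNormal (prodRep s) c h := IsNormal.prod hN
  have hstr : ∀ g, (prodRep s g).trace = fun j => (r j g).trace := by
    intro g
    rw [prodRep_trace]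
    funext j
    rw [hs]
    beta_reduce
    rw [conjRep_apply, Matrix.trace_mul_comm, ← mul_assoc, hPQ, one_mul]
  have hsdet : ∀ g, (prodRep s g).det = algebraMap ℤ_[2] (∀ j, A j) (χ g) := by
    intro g
    rw [prodRep_det]
    funext j
    rw [hs]
    beta_reduce
    rw [conjRep_apply, Matrix.det_mul, Matrix.det_mul, H.det, Pi.algebraMap_apply]
    have e : (Q j).det * (P j).det = 1 := by rw [← Matrix.det_mul, hQP, Matrix.det_one]
    linear_combination (algebraMap ℤ_[2] (A j) (χ g)) * e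
  -- the discriminant
  have hdm : disc (prodRep s) c h ∈ gRing r U := by
    rw [hsN.disc_eq, hsdet, hstr, hstr]
    have h3 : (2 : ∀ j, A j) ∈ gRing r U := ofNat_mem _ 2
    refine sub_mem (mul_mem h3 (add_mem (neg_mem (mul_mem h3 (algebraMap_mem _ _)))
      (mul_mem (trace_mem_gRing h) hbm))) (mul_mem hbm hbm)
  have hdd : dred A H.two ⟨_, H.le_dich hdm⟩ = 1 := by
    set b : dich A H.two := ⟨_, H.le_dich hbm⟩ with hbdef
    set y : dich A H.two := ⟨_, H.le_dich (trace_mem_gRing h)⟩ with hydef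
    have e : (⟨_, H.le_dich hdm⟩ : dich A H.two) =
        2 * (-(2 * algebraMap ℤ_[2] _ (χ h)) + y * b) - b * b := by
      apply Subtype.ext
      show disc (prodRep s) c h = _
      rw [hsN.disc_eq, hsdet, hstr, hstr]
      rfl
    rw [e, map_sub, map_mul, map_mul _ b b, hbd, map_ofNat]
    have : (2 : ZMod 2) = 0 := rfl
    rw [this, zero_mul, mul_one]
    decide
  haveI hloc : IsLocalRing (gRing r U) := isLocalRing_of_le _ H.le_dich
  obtain ⟨u, hu⟩ := (isUnit_of_dred (gRing r U) H.le_dich ⟨_, hdm⟩ hdd)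
  have hent : ∀ g i j, prodRep s g i j ∈ gRing r U := by
    intro g i j
    refine hsN.entry_mem (gRing r U).toSubring (fun g => ?_) ?_
      (u := ((u⁻¹ : (gRing r U)ˣ) : gRing r U)) (Subtype.property _) ?_ g i j
    · rw [hstr]; exact trace_mem_gRing g
    · rw [hsdet]; exact algebraMap_mem (gRing r U) _
    · have h3 : ((u : gRing r U) * ((u⁻¹ : (gRing r U)ˣ) : gRing r U)) = 1 := Units.mul_inv u
      rw [hu] at h3
      exact congrArg (Subtype.val) h3
  let rB : G →* Matrix (Fin 2) (Fin 2) (gRing r U) :=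
    { toFun := fun g => Matrix.of fun i j => ⟨prodRep s g i j, hent g i j⟩
      map_one' := by
        refine Matrix.ext fun i j => Subtype.ext ?_
        show prodRep s 1 i j = _
        rw [map_one]
        fin_cases i <;> fin_cases j <;> rfl
      map_mul' := by
        intro g g'
        refine Matrix.ext fun i j => Subtype.ext ?_
        show prodRep s (g * g') i j = _
        rw [map_mul, Matrix.mul_apply, Matrix.mul_apply, Fin.sum_univ_two, Fin.sum_univ_two]
        rfl }
  have hrB : ∀ g i j, ((rB g i j : gRing r U) : ∀ j, A j) = prodRep s g i j := fun _ _ _ => rfl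
  refine ⟨rB, ⟨?_, ?_, ?_, ?_, ?_⟩, fun j => ⟨⟨Q j, P j, hQP j, hPQ j⟩, fun g => ?_⟩⟩
  · exact Subtype.ext hsN.c00
  · exact Subtype.ext hsN.c10
  · exact Subtype.ext hsN.c11
  · exact Subtype.ext hsN.h00
  · exact Subtype.ext hsN.h10
  · rfl

end Glue

end Fermat.Agent.LTF.Alpha
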