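import Fermat.Agent.LTF.AlphaExist
import Fermat.Agent.LTF.Gal.Defs
import Fermat.Agent.S30_Cyclo

/-!
# [ALPHA]: the mod `2 ^ n` point of the Hecke ring

`alpha`: if the deformation rings of characteristic `2` of type `(S, Q)` have at most `2 ^ B`
elements, and `(ρ f, U f)`, `f ∈ F`, is a family of at least `B` points of characteristic zero of
type `(S, Q)` with pairwise distinct traces (and signs), then every polynomial relation, with
coefficients in `ℤ_[2]`, between the traces and signs of all the members of the family is also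
satisfied by every other point of type `(S, Q)`.
-/

set_option autoImplicit false
set_option linter.style.haveILetI false

noncomputable section

namespace Fermat.Agent.LTF.Alpha

open IsLocalRing Matrix
open Fermat.Agent.S53norm (GQ M2)
open Fermat.Agent.LTF (StMat)
open Fermat.Agent.S30aux (cyc)

/-- A point of type `(S, Q)` of the deformation problem, not necessarily with residue field
`𝔽₂`; only the traces are compared with `rbar`. -/
structure PrePt (S Q : Finset ℕ) (rbar : GQ →* M2 (ZMod 2)) {A : Type} [CommRing A]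
    [IsLocalRing A] [Algebra ℤ_[2] A] (ρ : GQ →* M2 A) (U : ℕ → A) : Prop where
  /-- continuity -/
  cont : ∀ m : ℕ, ∃ L : IntermediateField ℚ (AlgebraicClosure ℚ), FiniteDimensional ℚ L ∧
    ∀ σ : GQ, (∀ x ∈ L, σ x = x) → ∀ i j, (2 : A) ^ m ∣ (ρ σ - 1) i j
  two : (2 : A) ∈ maximalIdeal A
  tr0 : ∀ σ, (rbar σ).trace = 0 → (ρ σ).trace ∈ maximalIdeal A
  tr1 : ∀ σ, (rbar σ).trace = 1 → (ρ σ).trace - 1 ∈ maximalIdeal A
  det : ∀ σ, (ρ σ).det = algebraMap ℤ_[2] A ((cyc 2 σ : ℤ_[2]ˣ) : ℤ_[2])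
  unr : ∀ q : ℕ, q.Prime → q ∉ S ∪ Q → ∀ B : ValuationSubring (AlgebraicClosure ℚ),
    B.LiesOverPrime q → ∀ σ ∈ B.inertiaSubgroupIn ℚ, ρ σ = 1
  st : ∀ v ∈ S ∪ Q, ∀ B : ValuationSubring (AlgebraicClosure ℚ), B.LiesOverPrime v →
    StMat v B ρ (U v)
  U1 : ∀ v ∈ S ∪ Q, U v - 1 ∈ maximalIdeal A

lemma exists_mat_trace : ∀ M : Matrix (Fin 2) (Fin 2) (ZMod 2), M * M = 1 → M ≠ 1 →
    ∃ g : Matrix (Fin 2) (Fin 2) (ZMod 2), g.det = 1 ∧ (g * M).trace + g.trace = 1 := by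
  decide

lemma exists_h {S : Finset ℕ} {rbar : GQ →* M2 (ZMod 2)} (h : Gal.ResData S rbar) :
    ∃ g : GQ, (rbar (g * complexConjugation)).trace + (rbar g).trace = 1 := by
  obtain ⟨M, hM, htr⟩ := exists_mat_trace (rbar complexConjugation) (by
    rw [← map_mul, complexConjugation_mul_self, map_one]) h.cc
  obtain ⟨g, hg⟩ := h.surj M hM
  exact ⟨g, by rw [map_mul, hg]; exact htr⟩

section Family

variable {S Q : Finset ℕ} {rbar : GQ →* M2 (ZMod 2)} {J : Type} [Fintype J] [Nonempty J]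
  {A : J → Type} [∀ j, CommRing (A j)] [∀ j, IsLocalRing (A j)] [∀ j, Algebra ℤ_[2] (A j)]
  [∀ j, Module.Finite ℤ_[2] (A j)] {ρ : ∀ j, GQ →* M2 (A j)} {U : ∀ j, ℕ → A j}

/-- the signs, as elements of the product -/
def sgn (S Q : Finset ℕ) (U : ∀ j, ℕ → A j) : ↥(S ∪ Q) → ∀ j, A j := fun v j => U j v

omit [Fintype J] [Nonempty J] [∀ j, Module.Finite ℤ_[2] (A j)] in
lemma glueData (hpt : ∀ j, PrePt S Q rbar (ρ j) (U j)) {h : GQ}
    (hh : (rbar (h * complexConjugation)).trace + (rbar h).trace = 1) :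
    GlueData (fun σ => (rbar σ).trace) complexConjugation h
      (fun σ => ((cyc 2 σ : ℤ_[2]ˣ) : ℤ_[2])) ρ (sgn S Q U) where
  two := fun j => (hpt j).two
  tr0 := fun g hg j => (hpt j).tr0 g hg
  tr1 := fun g hg j => (hpt j).tr1 g hg
  det := fun g j => (hpt j).det g
  cc := complexConjugation_mul_self
  χc := Fermat.Agent.S30aux.cyc_complexConjugation
  h1 := hh
  U1 := fun k j => (hpt j).U1 k.1 k.2

omit [Fintype J] [Nonempty J] [∀ j, IsLocalRing (A j)] [∀ j, Module.Finite ℤ_[2] (A j)] in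
/-- the local conditions for the glued representation -/
lemma GluedRep.stMat {κ : Type*} {W : κ → ∀ j, A j} (D : GluedRep ρ W) (v : ℕ)
    (B : ValuationSubring (AlgebraicClosure ℚ)) (k : κ)
    (h : ∀ j, StMat v B (ρ j) (W k j)) :
    StMat v B D.rA (qmk ρ W ⟨_, U_mem_gRing k⟩) := by
  have h1 : StMat v B D.rB (⟨_, U_mem_gRing k⟩ : gRing ρ W) := by
    refine StMat.of_family (fun j => (gEv ρ W j : gRing ρ W →+* A j)) (fun x hx =>
      gEv_injective x hx) fun j => ?_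
    have h3 := (h j).conj (D.P j)
    have h4 : (fun g => (D.rB g).map (gEv ρ W j : gRing ρ W →+* A j)) =
        fun g => ((D.P j : (M2 (A j))ˣ) : M2 (A j)) * ρ j g * (((D.P j)⁻¹ : (M2 (A j))ˣ) : M2 (A j)) :=
      funext fun g => D.hP j g
    rw [h4]
    exact h3
  have h3 := (h1.map (qmk ρ W)).conj D.PA
  have h4 : (fun g => D.rA g) = fun g => (D.PA : M2 (gQ ρ W)) * (D.rB g).map (qmk ρ W) *
      ((D.PA⁻¹ : (M2 (gQ ρ W))ˣ) : M2 (gQ ρ W)) := funext fun g => D.hPA g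
  have h5 : (D.rA : GQ → M2 (gQ ρ W)) = fun g => D.rA g := rfl
  rw [h5, h4]
  exact h3

/-- The upper bound applied to the glued ring. -/
theorem card_quot_le (hres : Gal.ResData S rbar) {b : ℕ} (hUB : Gal.UpperBound S Q rbar b)
    (hpt : ∀ j, PrePt S Q rbar (ρ j) (U j)) :
    Nat.card (gQ ρ (sgn S Q U)) ≤ 2 ^ b := by
  obtain ⟨h, hh⟩ := exists_h hres
  have H := glueData hpt hh
  obtain ⟨D, hD⟩ := H.exists_gluedRep rbar (fun _ => rfl)
  haveI := H.isLocalRing_quot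
  haveI := H.charP_quot
  haveI : Finite (gQ ρ (sgn S Q U)) := finite_quot
  classical
  let UA : ℕ → gQ ρ (sgn S Q U) := fun v => if hv : v ∈ S ∪ Q then
    qmk ρ (sgn S Q U) ⟨_, U_mem_gRing ⟨v, hv⟩⟩ else 1
  have hUA : ∀ v (hv : v ∈ S ∪ Q), UA v = qmk ρ (sgn S Q U) ⟨_, U_mem_gRing ⟨v, hv⟩⟩ :=
    fun v hv => dif_pos hv
  refine hUB (gQ ρ (sgn S Q U)) H.qred D.rA UA ⟨?_, hD, ?_, ?_⟩ (D.det_rA H) ?_
  · obtain ⟨m, hm⟩ := D.exists_pow
    choose L hL hL' using fun j => (hpt j).cont m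
    haveI : ∀ j, FiniteDimensional ℚ (L j) := hL
    refine ⟨⨆ j, L j, IntermediateField.finiteDimensional_iSup_of_finite, fun σ hσ => hm σ ?_⟩
    intro j a b
    exact hL' j σ (fun x hx => hσ x ((le_iSup L j) hx)) a b
  · intro q hq hqS B hB σ hσ
    exact D.rA_eq_one σ fun j => (hpt j).unr q hq hqS B hB σ hσ
  · intro v hv B hB
    rw [hUA v hv]
    exact D.stMat v B ⟨v, hv⟩ fun j => (hpt j).st v hv B hB
  · rw [← D.closure_eq_top]
    congr 1
    ext x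
    constructor
    · rintro (⟨σ, rfl⟩ | ⟨v, hv, rfl⟩)
      · exact Or.inl ⟨σ, rfl⟩
      · exact Or.inr ⟨⟨v, hv⟩, (hUA v hv).symm⟩
    · rintro (⟨σ, rfl⟩ | ⟨⟨v, hv⟩, rfl⟩)
      · exact Or.inl ⟨σ, rfl⟩
      · exact Or.inr ⟨v, hv, (hUA v hv).symm⟩

/-- **[ALPHA], ring form.** An element of the glued ring which vanishes at at least `b` pairwise
distinct points of characteristic zero is zero. -/
theorem eq_zero_of_points (hres : Gal.ResData S rbar) {b : ℕ} (hUB : Gal.UpperBound S Q rbar b)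
    (hpt : ∀ j, PrePt S Q rbar (ρ j) (U j)) {F : Type*} [Fintype F] (hF : b ≤ Fintype.card F)
    {Ω : Type*} [Field Ω] [CharZero Ω] [Algebra ℤ_[2] Ω] (e : F → J)
    (i : ∀ f, A (e f) →ₐ[ℤ_[2]] Ω)
    (hdist : ∀ f f', (∀ σ, i f (ρ (e f) σ).trace = i f' (ρ (e f') σ).trace) →
      (∀ v ∈ S ∪ Q, i f (U (e f) v) = i f' (U (e f') v)) → f = f')
    (x : gRing ρ (sgn S Q U)) (hx : ∀ f, i f (gEv ρ (sgn S Q U) (e f) x) = 0) : x = 0 := by
  have h1 := card_quot_le hres hUB hpt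
  have h2 : Nat.card (gRing ρ (sgn S Q U) ⧸
      (maximalIdeal ℤ_[2] • (⊤ : Submodule ℤ_[2] (gRing ρ (sgn S Q U))))) ≤ 2 ^ b := by
    rw [Nat.card_congr (quotEquiv ρ (sgn S Q U))]
    exact h1
  obtain ⟨g, hg⟩ := exists_surjective_of_card h2
  refine eq_zero_of_count (fun f => (i f).comp (gEv ρ (sgn S Q U) (e f))) ?_ hF g hg x hx
  intro f f' hff
  refine hdist f f' (fun σ => ?_) (fun v hv => ?_)
  · exact DFunLike.congr_fun hff ⟨_, trace_mem_gRing σ⟩
  · exact DFunLike.congr_fun hff ⟨_, U_mem_gRing ⟨v, hv⟩⟩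

end Family

section Final

/-- The rings `O f` together with one more ring `A₀`. -/
def OptA (A₀ : Type) {F : Type} (O : F → Type) : Option F → Type
  | none => A₀
  | some f => O f

variable {A₀ : Type} {F : Type} {O : F → Type}

instance [CommRing A₀] [∀ f, CommRing (O f)] : ∀ j, CommRing (OptA A₀ O j)
  | none => inferInstanceAs (CommRing A₀)
  | some f => inferInstanceAs (CommRing (O f))

instance [CommRing A₀] [∀ f, CommRing (O f)] [IsLocalRing A₀] [∀ f, IsLocalRing (O f)] :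
    ∀ j, IsLocalRing (OptA A₀ O j)
  | none => inferInstanceAs (IsLocalRing A₀)
  | some f => inferInstanceAs (IsLocalRing (O f))

instance [CommRing A₀] [∀ f, CommRing (O f)] [Algebra ℤ_[2] A₀] [∀ f, Algebra ℤ_[2] (O f)] :
    ∀ j, Algebra ℤ_[2] (OptA A₀ O j)
  | none => inferInstanceAs (Algebra ℤ_[2] A₀)
  | some f => inferInstanceAs (Algebra ℤ_[2] (O f))

instance [CommRing A₀] [∀ f, CommRing (O f)] [Algebra ℤ_[2] A₀] [∀ f, Algebra ℤ_[2] (O f)]
    [Module.Finite ℤ_[2] A₀] [∀ f, Module.Finite ℤ_[2] (O f)] :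
    ∀ j, Module.Finite ℤ_[2] (OptA A₀ O j)
  | none => inferInstanceAs (Module.Finite ℤ_[2] A₀)
  | some f => inferInstanceAs (Module.Finite ℤ_[2] (O f))

/-- the representations -/
def optρ [CommRing A₀] [∀ f, CommRing (O f)] (ρ₀ : GQ →* M2 A₀) (ρ : ∀ f, GQ →* M2 (O f)) :
    ∀ j, GQ →* M2 (OptA A₀ O j)
  | none => ρ₀
  | some f => ρ f

/-- the signs -/
def optU (U₀ : ℕ → A₀) (U : ∀ f, ℕ → O f) : ∀ j, ℕ → OptA A₀ O j
  | none => U₀
  | some f => U f

variable {S Q : Finset ℕ} {rbar : GQ →* M2 (ZMod 2)} [Fintype F]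
  [CommRing A₀] [∀ f, CommRing (O f)] [IsLocalRing A₀] [∀ f, IsLocalRing (O f)]
  [Algebra ℤ_[2] A₀] [∀ f, Algebra ℤ_[2] (O f)]
  [Module.Finite ℤ_[2] A₀] [∀ f, Module.Finite ℤ_[2] (O f)]
  {Ω : Type*} [Field Ω] [CharZero Ω] [Algebra ℤ_[2] Ω]

/-- the variables of the polynomial relations: `inl σ` is the trace of `σ`, `inr v` is the sign at
`v` (`v ∈ S ∪ Q`) -/
def vars (S Q : Finset ℕ) {A : Type} [CommRing A] (ρ : GQ →* M2 A) (U : ℕ → A) : GQ ⊕ ℕ → A :=
  Sum.elim (fun σ => (ρ σ).trace) (fun v => if v ∈ S ∪ Q then U v else 0)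

/-- **[ALPHA]** -/
theorem alpha (hres : Gal.ResData S rbar) {b : ℕ} (hUB : Gal.UpperBound S Q rbar b)
    (hF : b ≤ Fintype.card F) (i : ∀ f, O f →ₐ[ℤ_[2]] Ω)
    {ρ : ∀ f, GQ →* M2 (O f)} {U : ∀ f, ℕ → O f} (hpt : ∀ f, PrePt S Q rbar (ρ f) (U f))
    (hdist : ∀ f f', (∀ σ, i f (ρ f σ).trace = i f' (ρ f' σ).trace) →
      (∀ v ∈ S ∪ Q, i f (U f v) = i f' (U f' v)) → f = f')
    {ρ₀ : GQ →* M2 A₀} {U₀ : ℕ → A₀} (h₀ : PrePt S Q rbar ρ₀ U₀)
    (P : MvPolynomial (GQ ⊕ ℕ) ℤ_[2])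
    (hP : ∀ f, i f (MvPolynomial.aeval (vars S Q (ρ f) (U f)) P) = 0) :
    MvPolynomial.aeval (vars S Q ρ₀ U₀) P = 0 := by
  classical
  let R := gRing (optρ ρ₀ ρ) (sgn S Q (optU U₀ U))
  let w : GQ ⊕ ℕ → R := Sum.elim (fun σ => ⟨_, trace_mem_gRing σ⟩)
    (fun v => if hv : v ∈ S ∪ Q then ⟨_, U_mem_gRing ⟨v, hv⟩⟩ else 0)
  have hw : ∀ j, (fun k => gEv (optρ ρ₀ ρ) (sgn S Q (optU U₀ U)) j (w k)) =
      vars S Q (optρ ρ₀ ρ j) (optU U₀ U j) := by
    intro j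
    funext k
    rcases k with σ | v
    · rfl
    · by_cases hv : v ∈ S ∪ Q
      · have e1 : w (Sum.inr v) = ⟨_, U_mem_gRing ⟨v, hv⟩⟩ := dif_pos hv
        have e2 : vars S Q (optρ ρ₀ ρ j) (optU U₀ U j) (Sum.inr v) = optU U₀ U j v := if_pos hv
        rw [e1, e2]
        rfl
      · have e1 : w (Sum.inr v) = 0 := dif_neg hv
        have e2 : vars S Q (optρ ρ₀ ρ j) (optU U₀ U j) (Sum.inr v) = 0 := if_neg hv
        rw [e1, e2, map_zero]
  have hev : ∀ j, gEv (optρ ρ₀ ρ) (sgn S Q (optU U₀ U)) j (MvPolynomial.aeval w P) =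
      MvPolynomial.aeval (vars S Q (optρ ρ₀ ρ j) (optU U₀ U j)) P := by
    intro j
    rw [← hw j]
    exact (MvPolynomial.comp_aeval_apply _ _ _)
  have hpt' : ∀ j, PrePt S Q rbar (optρ ρ₀ ρ j) (optU U₀ U j) := by
    intro j
    rcases j with _ | f
    · exact h₀
    · exact hpt f
  have key := eq_zero_of_points hres hUB hpt' hF (e := fun f => (some f : Option F))
    (i := fun f => i f) hdist (MvPolynomial.aeval w P) (fun f => by
      rw [hev]
      exact hP f)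
  have h1 := hev none
  rw [key, map_zero] at h1
  exact h1.symm

end Final

end Fermat.Agent.LTF.Alpha
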