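import Mathlib

/-!
# Gluing two-dimensional representations at `p = 2` (explicit Carayol lemma)

`c` is an involution of determinant `-1` which is residually non trivial, `h` moves the fixed line
of `c`.  In a suitable basis `r c = (1 b; 0 -1)`, `r h = (0 x; 1 y)`, and then all entries of all
`r g` lie in the subring generated by the traces.
-/

set_option autoImplicit false

namespace Fermat.Agent.LTF.Alpha

open Matrix

section Normal

variable {G : Type*} [Group G] {R : Type*} [CommRing R]

/-- `r` is in normal form with respect to `c` and `h`: the first basis vector is fixed by `c` and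
mapped to the second one by `h`. -/
structure IsNormal (r : G →* Matrix (Fin 2) (Fin 2) R) (c h : G) : Prop where
  c00 : r c 0 0 = 1
  c10 : r c 1 0 = 0
  c11 : r c 1 1 = -1
  h00 : r h 0 0 = 0
  h10 : r h 1 0 = 1

lemma IsNormal.b_eq {r : G →* Matrix (Fin 2) (Fin 2) R} {c h : G} (H : IsNormal r c h) :
    r c 0 1 = (r (h * c)).trace + (r h).trace := by
  rw [map_mul, trace_fin_two, trace_fin_two, Matrix.mul_apply, Matrix.mul_apply,
    Fin.sum_univ_two, Fin.sum_univ_two, H.c00, H.c10, H.c11, H.h00, H.h10]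
  ring

/-- the determinant of the linear system for the first column -/
def disc (r : G →* Matrix (Fin 2) (Fin 2) R) (c h : G) : R :=
  2 * (2 * r h 0 1 + r h 1 1 * r c 0 1) - r c 0 1 * r c 0 1

/-- Explicit Carayol lemma: all entries lie in the subring generated by the traces. -/
theorem IsNormal.entry_mem {r : G →* Matrix (Fin 2) (Fin 2) R} {c h : G} (H : IsNormal r c h)
    (B : Subring R) (htr : ∀ g, (r g).trace ∈ B) (hdet : (r h).det ∈ B)
    {u : R} (hu : u ∈ B) (hinv : disc r c h * u = 1) (g : G) (i j : Fin 2) : r g i j ∈ B := by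
  have h2B : (2 : R) ∈ B := ofNat_mem B 2
  have hb : r c 0 1 ∈ B := by
    rw [H.b_eq]; exact B.add_mem (htr _) (htr _)
  have hy : r h 1 1 ∈ B := by
    have := htr h
    rwa [trace_fin_two, H.h00, zero_add] at this
  have hx : r h 0 1 ∈ B := by
    have h1 := hdet
    rw [det_fin_two, H.h00, H.h10, zero_mul, mul_one, zero_sub] at h1
    simpa using B.neg_mem h1
  have e1 : 2 * r g 0 0 + r c 0 1 * r g 1 0 ∈ B := by
    have h1 := B.add_mem (htr g) (htr (g * c))
    have h2 : (r g).trace + (r (g * c)).trace = 2 * r g 0 0 + r c 0 1 * r g 1 0 := by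
      rw [map_mul, trace_fin_two, trace_fin_two, Matrix.mul_apply, Matrix.mul_apply,
        Fin.sum_univ_two, Fin.sum_univ_two, H.c00, H.c10, H.c11]
      ring
    rwa [h2] at h1
  have e2 : r c 0 1 * r g 0 0 + (2 * r h 0 1 + r h 1 1 * r c 0 1) * r g 1 0 ∈ B := by
    have h1 := B.add_mem (htr (h * g)) (htr (h * (g * c)))
    have h2 : (r (h * g)).trace + (r (h * (g * c))).trace =
        r c 0 1 * r g 0 0 + (2 * r h 0 1 + r h 1 1 * r c 0 1) * r g 1 0 := by
      rw [map_mul, map_mul, map_mul, trace_fin_two, trace_fin_two]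
      simp only [Matrix.mul_apply, Fin.sum_univ_two, H.c00, H.c10, H.c11, H.h00, H.h10]
      ring
    rwa [h2] at h1
  have hα : r g 0 0 ∈ B := by
    have h1 : r g 0 0 = ((2 * r h 0 1 + r h 1 1 * r c 0 1) * (2 * r g 0 0 + r c 0 1 * r g 1 0) -
        r c 0 1 * (r c 0 1 * r g 0 0 + (2 * r h 0 1 + r h 1 1 * r c 0 1) * r g 1 0)) * u := by
      rw [disc] at hinv
      linear_combination (- r g 0 0) * hinv
    rw [h1]
    exact B.mul_mem (B.sub_mem (B.mul_mem (B.add_mem (B.mul_mem h2B hx) (B.mul_mem hy hb)) e1)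
      (B.mul_mem hb e2)) hu
  have hγ : r g 1 0 ∈ B := by
    have h1 : r g 1 0 = (2 * (r c 0 1 * r g 0 0 + (2 * r h 0 1 + r h 1 1 * r c 0 1) * r g 1 0) -
        r c 0 1 * (2 * r g 0 0 + r c 0 1 * r g 1 0)) * u := by
      rw [disc] at hinv
      linear_combination (- r g 1 0) * hinv
    rw [h1]
    exact B.mul_mem (B.sub_mem (B.mul_mem h2B e2) (B.mul_mem hb e1)) hu
  have hδ : r g 1 1 ∈ B := by
    have h1 : r g 1 1 = (r g).trace - r g 0 0 := by rw [trace_fin_two]; ring
    rw [h1]; exact B.sub_mem (htr g) hα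
  have hβ : r g 0 1 ∈ B := by
    have h1 : r g 0 1 = (r (h * g)).trace - r h 0 1 * r g 1 0 - r h 1 1 * r g 1 1 := by
      rw [map_mul, trace_fin_two]
      simp only [Matrix.mul_apply, Fin.sum_univ_two, H.h00, H.h10]
      ring
    rw [h1]
    exact B.sub_mem (B.sub_mem (htr _) (B.mul_mem hx hγ)) (B.mul_mem hy hδ)
  fin_cases i <;> fin_cases j
  · exact hα
  · exact hβ
  · exact hγ
  · exact hδ

end Normal

section Local

variable {G : Type*} [Group G] {R : Type*} [CommRing R]

/-- conjugation of a matrix representation -/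
def conjRep (r : G →* Matrix (Fin 2) (Fin 2) R) (P Q : Matrix (Fin 2) (Fin 2) R)
    (hPQ : P * Q = 1) (hQP : Q * P = 1) : G →* Matrix (Fin 2) (Fin 2) R where
  toFun g := Q * r g * P
  map_one' := by rw [map_one, mul_one, hQP]
  map_mul' g g' := by
    rw [map_mul]
    calc Q * (r g * r g') * P = Q * r g * 1 * r g' * P := by simp only [mul_one, mul_assoc]
      _ = Q * r g * (P * Q) * r g' * P := by rw [hPQ]
      _ = Q * r g * P * (Q * r g' * P) := by simp only [mul_assoc]

lemma conjRep_apply (r : G →* Matrix (Fin 2) (Fin 2) R) (P Q : Matrix (Fin 2) (Fin 2) R)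
    (hPQ : P * Q = 1) (hQP : Q * P = 1) (g : G) :
    conjRep r P Q hPQ hQP g = Q * r g * P := rfl

lemma exists_normal_aux (r : G →* Matrix (Fin 2) (Fin 2) R) {c h : G}
    (hctr : (r c).trace = 0) (v : Fin 2 → R) (hv : r c *ᵥ v = v)
    (hd : IsUnit (v 0 * (r h *ᵥ v) 1 - v 1 * (r h *ᵥ v) 0)) :
    ∃ P Q : Matrix (Fin 2) (Fin 2) R, ∃ hPQ : P * Q = 1, ∃ hQP : Q * P = 1,
      IsNormal (conjRep r P Q hPQ hQP) c h := by
  set w : Fin 2 → R := r h *ᵥ v with hw
  set P : Matrix (Fin 2) (Fin 2) R := !![v 0, w 0; v 1, w 1] with hP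
  have hdet : P.det = v 0 * w 1 - v 1 * w 0 := by
    rw [hP, det_fin_two_of]; ring
  have hPu : IsUnit P.det := by rw [hdet]; exact hd
  have hPQ : P * P⁻¹ = 1 := Matrix.mul_nonsing_inv P hPu
  have hQP : P⁻¹ * P = 1 := Matrix.nonsing_inv_mul P hPu
  have hPe0 : P *ᵥ ![1, 0] = v := by
    ext i; fin_cases i <;> simp [hP, Matrix.mulVec, dotProduct, Fin.sum_univ_two]
  have hPe1 : P *ᵥ ![0, 1] = w := by
    ext i; fin_cases i <;> simp [hP, Matrix.mulVec, dotProduct, Fin.sum_univ_two]
  have hc : (P⁻¹ * r c * P) *ᵥ ![1, 0] = ![1, 0] := by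
    rw [← Matrix.mulVec_mulVec, hPe0, ← Matrix.mulVec_mulVec, hv, ← hPe0, Matrix.mulVec_mulVec, hQP,
      Matrix.one_mulVec]
  have hh : (P⁻¹ * r h * P) *ᵥ ![1, 0] = ![0, 1] := by
    rw [← Matrix.mulVec_mulVec, hPe0, ← Matrix.mulVec_mulVec, ← hw, ← hPe1, Matrix.mulVec_mulVec,
      hQP, Matrix.one_mulVec]
  have hcol : ∀ M : Matrix (Fin 2) (Fin 2) R, ∀ i, (M *ᵥ ![1, 0]) i = M i 0 := by
    intro M i
    simp [Matrix.mulVec, dotProduct, Fin.sum_univ_two]
  have c0 := congrFun hc 0
  have c1 := congrFun hc 1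
  have h0 := congrFun hh 0
  have h1 := congrFun hh 1
  rw [hcol] at c0 c1 h0 h1
  refine ⟨P, P⁻¹, hPQ, hQP, ?_, ?_, ?_, ?_, ?_⟩
  · rw [conjRep_apply, c0]; rfl
  · rw [conjRep_apply, c1]; rfl
  · have h1 : (P⁻¹ * r c * P).trace = 0 := by
      rw [Matrix.trace_mul_comm, ← mul_assoc, hPQ, one_mul, hctr]
    rw [trace_fin_two, c0] at h1
    rw [conjRep_apply]
    simp only [Matrix.cons_val_zero] at h1
    linear_combination h1
  · rw [conjRep_apply, h0]; rfl
  · rw [conjRep_apply, h1]; rfl

/-- Existence of the normal form over a local ring with `2` in the maximal ideal: `c` is an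
involution of trace `0`, and `tr (h c) + tr h` is a unit. -/
theorem exists_normal [IsLocalRing R] (h2 : ¬ IsUnit (2 : R))
    (r : G →* Matrix (Fin 2) (Fin 2) R) {c h : G}
    (hcc : r c * r c = 1) (hctr : (r c).trace = 0)
    (hb : IsUnit ((r (h * c)).trace + (r h).trace)) :
    ∃ P Q : Matrix (Fin 2) (Fin 2) R, ∃ hPQ : P * Q = 1, ∃ hQP : Q * P = 1,
      IsNormal (conjRep r P Q hPQ hQP) c h := by
  -- entries of `E = r c + 1`
  set p := r c 0 0 + 1 with hp
  set q := r c 0 1 with hq
  set s := r c 1 0 with hs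
  set t := r c 1 1 + 1 with ht
  have htr : p + t = 2 := by
    rw [trace_fin_two] at hctr
    rw [hp, ht]; linear_combination hctr
  have e00 : (r c 0 0) * (r c 0 0) + q * s = 1 := by
    have := congrFun (congrFun hcc 0) 0
    rwa [Matrix.mul_apply, Fin.sum_univ_two, Matrix.one_apply_eq] at this
  have hdet : p * t = q * s := by
    have h1 : t = 1 - r c 0 0 := by linear_combination htr - hp
    rw [h1, hp]; linear_combination (-1 : R) * e00
  set T := (r (h * c)).trace + (r h).trace with hT
  have hTe : T = r h 0 0 * p + r h 0 1 * s + r h 1 0 * q + r h 1 1 * t := by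
    rw [hT, map_mul, trace_fin_two, trace_fin_two, Matrix.mul_apply, Matrix.mul_apply,
      Fin.sum_univ_two, Fin.sum_univ_two]
    rw [hp, ht, hq, hs]
    ring
  have h2m : ∀ x : R, ¬ IsUnit (2 * x) := fun x hx => h2 (isUnit_of_mul_isUnit_left hx)
  -- one of `q`, `s` is a unit
  have hqs : IsUnit q ∨ IsUnit s := by
    by_contra hcon
    push Not at hcon
    obtain ⟨hq', hs'⟩ := hcon
    have hp' : ¬ IsUnit p := by
      intro hpu
      have htu : IsUnit t := by
        by_contra hcon
        have h3 : (2 : R) - t ∈ IsLocalRing.maximalIdeal R :=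
          Ideal.sub_mem _ ((IsLocalRing.mem_maximalIdeal _).mpr h2)
            ((IsLocalRing.mem_maximalIdeal _).mpr hcon)
        have h4 : (2 : R) - t = p := by linear_combination (-1 : R) * htr
        rw [h4] at h3
        exact (IsLocalRing.mem_maximalIdeal _).mp h3 hpu
      have h5 := hpu.mul htu
      rw [hdet] at h5
      exact hq' (isUnit_of_mul_isUnit_left h5)
    have ht' : ¬ IsUnit t := by
      intro htu
      have h3 : (2 : R) - p ∈ IsLocalRing.maximalIdeal R :=
        Ideal.sub_mem _ ((IsLocalRing.mem_maximalIdeal _).mpr h2)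
          ((IsLocalRing.mem_maximalIdeal _).mpr hp')
      have h4 : (2 : R) - p = t := by linear_combination (-1 : R) * htr
      rw [h4] at h3
      exact (IsLocalRing.mem_maximalIdeal _).mp h3 htu
    have h6 : T ∈ IsLocalRing.maximalIdeal R := by
      rw [hTe]
      refine Ideal.add_mem _ (Ideal.add_mem _ (Ideal.add_mem _ ?_ ?_) ?_) ?_ <;>
      exact Ideal.mul_mem_left _ _ ((IsLocalRing.mem_maximalIdeal _).mpr (by assumption))
    exact (IsLocalRing.mem_maximalIdeal _).mp h6 hb
  have key : ∀ x y : R, IsUnit x → IsUnit (x * T + 2 * y) := by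
    intro x y hx
    by_contra hcon
    have h3 : x * T + 2 * y - 2 * y ∈ IsLocalRing.maximalIdeal R :=
      Ideal.sub_mem _ ((IsLocalRing.mem_maximalIdeal _).mpr hcon)
        ((IsLocalRing.mem_maximalIdeal _).mpr (h2m y))
    rw [add_sub_cancel_right] at h3
    exact (IsLocalRing.mem_maximalIdeal _).mp h3 (hx.mul hb)
  rcases hqs with hqu | hsu
  · refine exists_normal_aux r hctr ![q, t] ?_ ?_
    · ext i
      fin_cases i
      · simp only [Matrix.mulVec, dotProduct, Fin.sum_univ_two, Fin.zero_eta, Fin.isValue,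
          Matrix.cons_val_zero, Matrix.cons_val_one]
        linear_combination (r c 0 1) * htr - (r c 0 1) * hp - q * hp
      · simp only [Matrix.mulVec, dotProduct, Fin.sum_univ_two, Fin.mk_one, Fin.isValue,
          Matrix.cons_val_zero, Matrix.cons_val_one]
        linear_combination (-1 : R) * hdet + t * htr
    · have : (![q, t] : Fin 2 → R) 0 * (r h *ᵥ ![q, t]) 1 -
          (![q, t] : Fin 2 → R) 1 * (r h *ᵥ ![q, t]) 0 =
          q * T + 2 * (- (r h 0 0 * q) - t * r h 0 1) := by
        simp only [Matrix.mulVec, dotProduct, Fin.sum_univ_two, Fin.isValue,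
          Matrix.cons_val_zero, Matrix.cons_val_one]
        rw [hTe]
        linear_combination (r h 0 1) * hdet - (r h 0 1 * t + r h 0 0 * q) * htr
      rw [this]
      exact key _ _ hqu
  · refine exists_normal_aux r hctr ![p, s] ?_ ?_
    · ext i
      fin_cases i
      · simp only [Matrix.mulVec, dotProduct, Fin.sum_univ_two, Fin.zero_eta, Fin.isValue,
          Matrix.cons_val_zero, Matrix.cons_val_one]
        linear_combination (-1 : R) * hdet + p * htr
      · simp only [Matrix.mulVec, dotProduct, Fin.sum_univ_two, Fin.mk_one, Fin.isValue,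
          Matrix.cons_val_zero, Matrix.cons_val_one]
        linear_combination s * htr
    · have : (![p, s] : Fin 2 → R) 0 * (r h *ᵥ ![p, s]) 1 -
          (![p, s] : Fin 2 → R) 1 * (r h *ᵥ ![p, s]) 0 =
          (-s) * T + 2 * (p * r h 1 0 + r h 1 1 * s) := by
        simp only [Matrix.mulVec, dotProduct, Fin.sum_univ_two, Fin.isValue,
          Matrix.cons_val_zero, Matrix.cons_val_one]
        rw [hTe]
        linear_combination (-(r h 1 0)) * hdet + (r h 1 0 * p + r h 1 1 * s) * htr
      rw [this]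
      exact key _ _ hsu.neg

end Local

end Fermat.Agent.LTF.Alpha
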