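import Fermat.Agent.LTF.AlphaMain

/-!
# [ALPHA]: by-products (rank bound, ring homomorphism form)
-/

set_option autoImplicit false
set_option linter.style.haveILetI false

noncomputable section

namespace Fermat.Agent.LTF.Alpha

open IsLocalRing Matrix
open Fermat.Agent.S53norm (GQ M2)

variable {S Q : Finset ℕ} {rbar : GQ →* M2 (ZMod 2)} {F : Type} [Fintype F] {O : F → Type}
  [∀ f, CommRing (O f)] [∀ f, IsLocalRing (O f)] [∀ f, Algebra ℤ_[2] (O f)]
  [∀ f, Module.Finite ℤ_[2] (O f)]

/-- Pairwise distinct characters of a ring generated by `r` elements over `ℤ_[2]` are at most `r`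
in number. -/
lemma card_le_of_generators {B : Type*} [CommRing B] [Algebra ℤ_[2] B] {F : Type*} [Fintype F]
    {Ω : Type*} [Field Ω] [Algebra ℤ_[2] Ω] (θ : F → B →ₐ[ℤ_[2]] Ω)
    (hθ : Function.Injective θ) {r : ℕ}
    (g : (Fin r → ℤ_[2]) →ₗ[ℤ_[2]] B) (hg : Function.Surjective g) : Fintype.card F ≤ r := by
  classical
  let b : Fin r → B := fun i => g (Pi.single i 1)
  have hgb : ∀ a : Fin r → ℤ_[2], g a = ∑ i, a i • b i := by
    intro a
    conv_lhs => rw [pi_eq_sum_univ a, map_sum]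
    refine Finset.sum_congr rfl fun i _ => ?_
    rw [map_smul]
    congr 2
    funext j
    simp [Pi.single_apply, eq_comm]
  let L : (Fin r → Ω) →ₗ[Ω] (F → Ω) :=
    { toFun := fun v f => ∑ i, v i * θ f (b i)
      map_add' := by
        intro v w; funext f
        simp only [Pi.add_apply, add_mul, Finset.sum_add_distrib]
      map_smul' := by
        intro c v; funext f
        simp only [Pi.smul_apply, smul_eq_mul, RingHom.id_apply, Finset.mul_sum, mul_assoc] }
  have hLg : ∀ (a : Fin r → ℤ_[2]) (f : F), θ f (g a) = L (fun i => algebraMap ℤ_[2] Ω (a i)) f := by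
    intro a f
    rw [hgb, map_sum]
    refine Finset.sum_congr rfl fun i _ => ?_
    rw [map_smul, Algebra.smul_def]
  have hLs : Function.Surjective L := by
    rw [← LinearMap.range_eq_top]
    by_contra hcon
    obtain ⟨φ, hφ0, hφ⟩ := Submodule.exists_le_ker_of_lt_top _ (lt_top_iff_ne_top.mpr hcon)
    have hind := linearIndependent_monoidHom B Ω
    have hinj : Function.Injective (fun f : F => ((θ f : B →* Ω))) := by
      intro f f' hff
      apply hθ
      ext y
      exact DFunLike.congr_fun hff y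
    have hind2 := hind.comp _ hinj
    rw [Fintype.linearIndependent_iff] at hind2
    have hc := hind2 (fun f => φ (Pi.single f 1)) (by
      funext y
      obtain ⟨a, rfl⟩ := hg y
      have h1 : φ (fun f => θ f (g a)) = 0 := by
        have h2 : (fun f => θ f (g a)) = L (fun i => algebraMap ℤ_[2] Ω (a i)) := by
          funext f; exact hLg a f
        rw [h2]
        exact hφ ⟨_, rfl⟩
      rw [pi_eq_sum_univ (fun f => θ f (g a)), map_sum] at h1
      simp only [Finset.sum_apply, Pi.smul_apply, Function.comp_apply, smul_eq_mul,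
        Pi.zero_apply]
      rw [← h1]
      refine Finset.sum_congr rfl fun f _ => ?_
      rw [map_smul, smul_eq_mul, mul_comm]
      congr 2
      funext j
      simp [Pi.single_apply, eq_comm])
    apply hφ0
    apply LinearMap.ext
    intro v
    rw [pi_eq_sum_univ v, map_sum, LinearMap.zero_apply]
    refine Finset.sum_eq_zero fun f _ => ?_
    rw [map_smul]
    have h3 : (fun j => if f = j then (1 : Ω) else 0) = Pi.single f 1 := by
      funext j
      simp [Pi.single_apply, eq_comm]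
    rw [h3, hc f, smul_zero]
  have h1 := LinearMap.finrank_le_finrank_of_surjective hLs
  rwa [Module.finrank_fintype_fun_eq_card, Module.finrank_fin_fun] at h1

/-- the ring generated over `ℤ_[2]` by the traces and the signs of a family of points -/
abbrev tRing (S Q : Finset ℕ) (ρ : ∀ f, GQ →* M2 (O f)) (U : ∀ f, ℕ → O f) :
    Subalgebra ℤ_[2] (∀ f, O f) :=
  Algebra.adjoin ℤ_[2] ({x | ∃ σ, x = fun f => (ρ f σ).trace} ∪
    {x | ∃ v ∈ S ∪ Q, x = fun f => U f v})

omit [Fintype F] [∀ f, IsLocalRing (O f)] [∀ f, Module.Finite ℤ_[2] (O f)] in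
lemma tRing_eq (ρ : ∀ f, GQ →* M2 (O f)) (U : ∀ f, ℕ → O f) :
    tRing S Q ρ U = gRing ρ (sgn S Q U) := by
  unfold tRing gRing
  congr 1
  ext x
  constructor
  · rintro (⟨σ, rfl⟩ | ⟨v, hv, rfl⟩)
    · exact Or.inl ⟨σ, rfl⟩
    · exact Or.inr ⟨⟨v, hv⟩, rfl⟩
  · rintro (⟨σ, rfl⟩ | ⟨⟨v, hv⟩, rfl⟩)
    · exact Or.inl ⟨σ, rfl⟩
    · exact Or.inr ⟨v, hv, rfl⟩

/-- **Rank bound**: the ring generated by the traces and signs of any family of points is
generated by `b` elements over `ℤ_[2]`. -/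
theorem finrank_tRing_le (hres : Gal.ResData S rbar) {b : ℕ} (hUB : Gal.UpperBound S Q rbar b)
    {ρ : ∀ f, GQ →* M2 (O f)} {U : ∀ f, ℕ → O f} (hpt : ∀ f, PrePt S Q rbar (ρ f) (U f)) :
    Module.finrank ℤ_[2] (tRing S Q ρ U) ≤ b := by
  rw [tRing_eq]
  rcases isEmpty_or_nonempty F with hF | hF
  · haveI : Subsingleton (gRing ρ (sgn S Q U)) := ⟨fun x y => Subtype.ext (funext fun f =>
      (hF.false f).elim)⟩
    rw [Module.finrank_zero_of_subsingleton]
    exact Nat.zero_le _
  · have h1 := card_quot_le hres hUB hpt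
    have h2 : Nat.card (gRing ρ (sgn S Q U) ⧸
        (maximalIdeal ℤ_[2] • (⊤ : Submodule ℤ_[2] (gRing ρ (sgn S Q U))))) ≤ 2 ^ b := by
      rw [Nat.card_congr (quotEquiv ρ (sgn S Q U))]
      exact h1
    obtain ⟨g, hg⟩ := exists_surjective_of_card h2
    have h3 := LinearMap.finrank_le_finrank_of_surjective hg
    rwa [Module.finrank_fintype_fun_eq_card, Fintype.card_fin] at h3

/-- A family of pairwise distinct points has at most `b` members. -/
theorem card_family_le (hres : Gal.ResData S rbar) {b : ℕ} (hUB : Gal.UpperBound S Q rbar b)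
    {ρ : ∀ f, GQ →* M2 (O f)} {U : ∀ f, ℕ → O f} (hpt : ∀ f, PrePt S Q rbar (ρ f) (U f))
    {Ω : Type*} [Field Ω] [Algebra ℤ_[2] Ω] (i : ∀ f, O f →ₐ[ℤ_[2]] Ω)
    (hdist : ∀ f f', (∀ σ, i f (ρ f σ).trace = i f' (ρ f' σ).trace) →
      (∀ v ∈ S ∪ Q, i f (U f v) = i f' (U f' v)) → f = f') :
    Fintype.card F ≤ b := by
  rcases isEmpty_or_nonempty F with hF | hF
  · rw [Fintype.card_eq_zero]; exact Nat.zero_le _
  have h1 := card_quot_le hres hUB hpt
  have h2 : Nat.card (gRing ρ (sgn S Q U) ⧸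
      (maximalIdeal ℤ_[2] • (⊤ : Submodule ℤ_[2] (gRing ρ (sgn S Q U))))) ≤ 2 ^ b := by
    rw [Nat.card_congr (quotEquiv ρ (sgn S Q U))]
    exact h1
  obtain ⟨g, hg⟩ := exists_surjective_of_card h2
  refine card_le_of_generators (fun f => (i f).comp (gEv ρ (sgn S Q U) f)) ?_ g hg
  intro f f' hff
  refine hdist f f' (fun σ => ?_) (fun v hv => ?_)
  · exact DFunLike.congr_fun hff ⟨_, trace_mem_gRing σ⟩
  · exact DFunLike.congr_fun hff ⟨_, U_mem_gRing ⟨v, hv⟩⟩

/-- The rank bound for a subalgebra. -/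
theorem finrank_le_of_le (hres : Gal.ResData S rbar) {b : ℕ} (hUB : Gal.UpperBound S Q rbar b)
    {ρ : ∀ f, GQ →* M2 (O f)} {U : ∀ f, ℕ → O f} (hpt : ∀ f, PrePt S Q rbar (ρ f) (U f))
    (T : Subalgebra ℤ_[2] (∀ f, O f)) (hT : T ≤ tRing S Q ρ U) :
    Module.finrank ℤ_[2] T ≤ b := by
  refine le_trans ?_ (finrank_tRing_le hres hUB hpt)
  haveI : Module.Finite ℤ_[2] (tRing S Q ρ U) := by
    rw [tRing_eq]; infer_instance
  exact LinearMap.finrank_le_finrank_of_injective
    (f := (Subalgebra.inclusion hT).toLinearMap) (Subalgebra.inclusion_injective hT)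

end Fermat.Agent.LTF.Alpha
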