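import Fermat.Agent.LTF.AlphaGlue

set_option autoImplicit false
set_option linter.style.haveILetI false

noncomputable section

namespace Fermat.Agent.LTF.Alpha

open IsLocalRing Matrix

section Quot

variable {G : Type*} [Group G] {J : Type*} [Finite J] [Nonempty J] {A : J → Type*}
  [∀ j, CommRing (A j)] [∀ j, IsLocalRing (A j)] [∀ j, Algebra ℤ_[2] (A j)]
  [∀ j, Module.Finite ℤ_[2] (A j)] {κ : Type*}
  {t : G → ZMod 2} {c h : G} {χ : G → ℤ_[2]}
    {r : ∀ j, G →* Matrix (Fin 2) (Fin 2) (A j)} {U : κ → ∀ j, A j}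

lemma IsNormal.map {G : Type*} [Group G] {R S : Type*} [CommRing R] [CommRing S]
    {r : G →* Matrix (Fin 2) (Fin 2) R} {c h : G} (H : IsNormal r c h) (f : R →+* S) :
    IsNormal ((f.mapMatrix (m := Fin 2)).toMonoidHom.comp r) c h where
  c00 := by
    show f (r c 0 0) = 1
    rw [H.c00, map_one]
  c10 := by
    show f (r c 1 0) = 0
    rw [H.c10, map_zero]
  c11 := by
    show f (r c 1 1) = -1
    rw [H.c11, map_neg, map_one]
  h00 := by
    show f (r h 0 0) = 0
    rw [H.h00, map_zero]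
  h10 := by
    show f (r h 1 0) = 1
    rw [H.h10, map_one]

instance finite_gRing : Module.Finite ℤ_[2] (gRing r U) := by
  haveI : Fintype J := Fintype.ofFinite J
  haveI : IsNoetherian ℤ_[2] (∀ j, A j) := inferInstance
  exact Module.Finite.iff_fg.mpr (IsNoetherian.noetherian (Subalgebra.toSubmodule (gRing r U)))

/-- the ideal `2` of the glued ring -/
def gI (r : ∀ j, G →* Matrix (Fin 2) (Fin 2) (A j)) (U : κ → ∀ j, A j) : Ideal (gRing r U) :=
  (maximalIdeal ℤ_[2]).map (algebraMap ℤ_[2] (gRing r U))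

/-- the glued ring modulo `2` -/
def gQ (r : ∀ j, G →* Matrix (Fin 2) (Fin 2) (A j)) (U : κ → ∀ j, A j) : Type _ :=
  gRing r U ⧸ gI r U

instance (r : ∀ j, G →* Matrix (Fin 2) (Fin 2) (A j)) (U : κ → ∀ j, A j) :
    CommRing (gQ r U) := inferInstanceAs (CommRing (gRing r U ⧸ gI r U))

/-- the quotient map -/
def qmk (r : ∀ j, G →* Matrix (Fin 2) (Fin 2) (A j)) (U : κ → ∀ j, A j) :
    gRing r U →+* gQ r U := Ideal.Quotient.mk (gI r U)

omit [Finite J] [Nonempty J] [∀ j, IsLocalRing (A j)] [∀ j, Module.Finite ℤ_[2] (A j)] in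
lemma qmk_surjective : Function.Surjective (qmk r U) := Ideal.Quotient.mk_surjective

omit [Finite J] [Nonempty J] [∀ j, IsLocalRing (A j)] [∀ j, Module.Finite ℤ_[2] (A j)] in
lemma qmk_eq_zero {x : gRing r U} : qmk r U x = 0 ↔ x ∈ gI r U := Ideal.Quotient.eq_zero_iff_mem

/-- The reduction of the glued ring. -/
def GlueData.red (H : GlueData t c h χ r U) : gRing r U →+* ZMod 2 :=
  (dred A H.two).comp (Subalgebra.inclusion H.le_dich).toRingHom

omit [Finite J] [∀ j, Module.Finite ℤ_[2] (A j)] in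
lemma GlueData.red_trace (H : GlueData t c h χ r U) (g : G) :
    H.red ⟨_, trace_mem_gRing g⟩ = t g := H.dred_trace g

omit [Finite J] [∀ j, Module.Finite ℤ_[2] (A j)] in
lemma GlueData.red_algebraMap (H : GlueData t c h χ r U) (a : ℤ_[2])
    (ha : a ∈ maximalIdeal ℤ_[2]) : H.red (algebraMap ℤ_[2] _ a) = 0 := by
  have h1 : H.red (algebraMap ℤ_[2] _ a) = dred A H.two (algebraMap ℤ_[2] _ a) := rfl
  rw [h1]
  rw [PadicInt.maximalIdeal_eq_span_p, Ideal.mem_span_singleton] at ha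
  obtain ⟨b, rfl⟩ := ha
  rw [map_mul, map_mul, map_natCast, map_natCast]
  have : ((2 : ℕ) : ZMod 2) = 0 := rfl
  rw [this, zero_mul]

omit [Finite J] [∀ j, Module.Finite ℤ_[2] (A j)] in
lemma GlueData.red_gI (H : GlueData t c h χ r U) (x : gRing r U) (hx : x ∈ gI r U) :
    H.red x = 0 := by
  have h1 : gI r U ≤ RingHom.ker H.red := by
    rw [gI, Ideal.map_le_iff_le_comap]
    intro a ha
    rw [Ideal.mem_comap, RingHom.mem_ker]
    exact H.red_algebraMap a ha
  exact h1 hx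

/-- the reduction of the quotient -/
def GlueData.qred (H : GlueData t c h χ r U) : gQ r U →+* ZMod 2 :=
  Ideal.Quotient.lift (gI r U) H.red H.red_gI

lemma GlueData.isLocalRing_quot (H : GlueData t c h χ r U) :
    IsLocalRing (gQ r U) := by
  haveI := isLocalRing_of_le _ H.le_dich
  haveI : Nontrivial (gQ r U) := H.qred.domain_nontrivial
  exact IsLocalRing.of_surjective' (qmk r U) qmk_surjective

omit [Finite J] [∀ j, Module.Finite ℤ_[2] (A j)] in
lemma GlueData.charP_quot (H : GlueData t c h χ r U) : CharP (gQ r U) 2 := by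
  have h10 : (1 : gQ r U) ≠ 0 := fun h => by
    have h3 := congrArg H.qred h
    rw [map_one, map_zero] at h3
    exact one_ne_zero h3
  refine CharTwo.of_one_ne_zero_of_two_eq_zero h10 ?_
  have h1 : (2 : gRing r U) ∈ gI r U := by
    have h3 : (2 : gRing r U) = algebraMap ℤ_[2] (gRing r U) 2 := (map_ofNat _ 2).symm
    rw [h3]
    refine Ideal.mem_map_of_mem _ ?_
    rw [PadicInt.maximalIdeal_eq_span_p]
    exact Ideal.subset_span rfl
  have h3 := qmk_eq_zero.mpr h1
  rwa [map_ofNat] at h3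

/-- comparison of the two quotients -/
def quotEquiv (r : ∀ j, G →* Matrix (Fin 2) (Fin 2) (A j)) (U : κ → ∀ j, A j) :
    (gRing r U ⧸ (maximalIdeal ℤ_[2] • (⊤ : Submodule ℤ_[2] (gRing r U)))) ≃
      gQ r U :=
  ((Submodule.quotEquivOfEq _ _ (Ideal.smul_top_eq_map (S := gRing r U)
    (maximalIdeal ℤ_[2]))).trans
    (Submodule.Quotient.restrictScalarsEquiv ℤ_[2] (gI r U))).toEquiv

omit [Nonempty J] [∀ j, IsLocalRing (A j)] in
lemma finite_quot : Finite (gQ r U) := by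
  haveI : Finite (ℤ_[2] ⧸ maximalIdeal ℤ_[2]) :=
    Finite.of_equiv _ (PadicInt.residueField (p := 2)).toEquiv.symm
  haveI : Module.Finite (ℤ_[2] ⧸ maximalIdeal ℤ_[2])
      (gRing r U ⧸ (maximalIdeal ℤ_[2] • (⊤ : Submodule ℤ_[2] (gRing r U)))) :=
    Module.Finite.of_restrictScalars_finite ℤ_[2] _ _
  haveI := Module.finite_of_finite (ℤ_[2] ⧸ maximalIdeal ℤ_[2])
    (M := gRing r U ⧸ (maximalIdeal ℤ_[2] • (⊤ : Submodule ℤ_[2] (gRing r U))))
  exact Finite.of_equiv _ (quotEquiv r U)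

omit [Nonempty J] [∀ j, IsLocalRing (A j)] in
/-- Artin-Rees: congruences in the product give congruences in the glued ring. -/
lemma exists_pow_mem (r : ∀ j, G →* Matrix (Fin 2) (Fin 2) (A j)) (U : κ → ∀ j, A j) :
    ∃ m : ℕ, ∀ x : gRing r U, (∀ j, (2 : A j) ^ m ∣ (x : ∀ j, A j) j) → x ∈ gI r U := by
  haveI : Fintype J := Fintype.ofFinite J
  obtain ⟨k, hk⟩ := Ideal.exists_pow_inf_eq_pow_smul (maximalIdeal ℤ_[2])
    (Subalgebra.toSubmodule (gRing r U))
  refine ⟨k + 1, fun x hx => ?_⟩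
  have h1 := hk (k + 1) (by omega)
  have h2 : (x : ∀ j, A j) ∈ (maximalIdeal ℤ_[2]) ^ (k + 1) • (⊤ : Submodule ℤ_[2] (∀ j, A j)) := by
    choose y hy using hx
    have e : (x : ∀ j, A j) = ((2 : ℤ_[2]) ^ (k + 1)) • y := by
      funext j
      rw [hy j, Pi.smul_apply, Algebra.smul_def, map_pow, map_ofNat]
    rw [e]
    refine Submodule.smul_mem_smul ?_ trivial
    refine Ideal.pow_mem_pow ?_ _
    rw [PadicInt.maximalIdeal_eq_span_p]
    exact Ideal.subset_span rfl
  have h3 : (x : ∀ j, A j) ∈ (maximalIdeal ℤ_[2]) ^ (k + 1 - k) •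
      ((maximalIdeal ℤ_[2]) ^ k • (⊤ : Submodule ℤ_[2] (∀ j, A j)) ⊓
        Subalgebra.toSubmodule (gRing r U)) := by
    rw [← h1]
    exact ⟨h2, x.2⟩
  rw [Nat.add_sub_cancel_left, pow_one] at h3
  have h4 : (x : ∀ j, A j) ∈ (maximalIdeal ℤ_[2]) • Subalgebra.toSubmodule (gRing r U) :=
    Submodule.smul_mono le_rfl inf_le_right h3
  have h5 : Subalgebra.toSubmodule (gRing r U) =
      (⊤ : Submodule ℤ_[2] (gRing r U)).map (gRing r U).val.toLinearMap := by
    ext z
    constructor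
    · intro hz; exact ⟨⟨z, hz⟩, trivial, rfl⟩
    · rintro ⟨w, _, rfl⟩; exact w.2
  rw [h5, ← Submodule.map_smul'', Ideal.smul_top_eq_map] at h4
  obtain ⟨w, hw, hwx⟩ := h4
  have : w = x := Subtype.ext hwx
  rw [← this]
  exact hw

omit [Finite J] [∀ j, Module.Finite ℤ_[2] (A j)] in
lemma GlueData.chi_sub_one (H : GlueData t c h χ r U) (g : G) :
    χ g - 1 ∈ maximalIdeal ℤ_[2] := by
  let j := Classical.arbitrary J
  have h1 : IsUnit (algebraMap ℤ_[2] (A j) (χ g)) := by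
    rw [← H.det g j]
    refine (Matrix.isUnit_iff_isUnit_det _).mp ?_
    exact (Group.isUnit g).map (r j)
  have h3 : PadicInt.toZMod (p := 2) (χ g) = 1 := by
    rcases zmod2 (PadicInt.toZMod (p := 2) (χ g)) with h4 | h4
    · exfalso
      rw [← RingHom.mem_ker, PadicInt.ker_toZMod, PadicInt.maximalIdeal_eq_span_p,
        Ideal.mem_span_singleton] at h4
      obtain ⟨b, hb⟩ := h4
      rw [hb, map_mul, map_natCast] at h1
      have h5 := isUnit_of_mul_isUnit_left h1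
      exact (mem_maximalIdeal _).mp (H.two j) (by exact_mod_cast h5)
    · exact h4
  rw [← PadicInt.ker_toZMod, RingHom.mem_ker, map_sub, h3, map_one, sub_self]

end Quot


section QuotRep

variable {G : Type*} [Group G] {J : Type*} [Finite J] [Nonempty J] {A : J → Type*}
  [∀ j, CommRing (A j)] [∀ j, IsLocalRing (A j)] [∀ j, Algebra ℤ_[2] (A j)]
  [∀ j, Module.Finite ℤ_[2] (A j)] {κ : Type*}
  {t : G → ZMod 2} {c h : G} {χ : G → ℤ_[2]}
    {r : ∀ j, G →* Matrix (Fin 2) (Fin 2) (A j)} {U : κ → ∀ j, A j}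

omit [Finite J] [Nonempty J] [∀ j, IsLocalRing (A j)] [∀ j, Module.Finite ℤ_[2] (A j)] in
lemma gEv_injective (x : gRing r U) (hx : ∀ j, gEv r U j x = 0) : x = 0 :=
  Subtype.ext (funext hx)

omit [Finite J] [Nonempty J] [∀ j, IsLocalRing (A j)] [∀ j, Module.Finite ℤ_[2] (A j)] in
lemma gEv_ext (x y : gRing r U) (hx : ∀ j, gEv r U j x = gEv r U j y) : x = y :=
  Subtype.ext (funext hx)

/-- Data of the glued representation, over the glued ring and over its quotient modulo `2`. -/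
structure GluedRep (r : ∀ j, G →* Matrix (Fin 2) (Fin 2) (A j)) (U : κ → ∀ j, A j) where
  /-- the glued representation -/
  rB : G →* Matrix (Fin 2) (Fin 2) (gRing r U)
  /-- base change to the factors -/
  P : ∀ j, (Matrix (Fin 2) (Fin 2) (A j))ˣ
  hP : ∀ j g, (rB g).map (gEv r U j) = (P j : Matrix (Fin 2) (Fin 2) (A j)) * r j g *
          (((P j)⁻¹ : (Matrix (Fin 2) (Fin 2) (A j))ˣ) : Matrix (Fin 2) (Fin 2) (A j))
  /-- the representation modulo `2` -/
  rA : G →* Matrix (Fin 2) (Fin 2) (gQ r U)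
  /-- base change -/
  PA : (Matrix (Fin 2) (Fin 2) (gQ r U))ˣ
  hPA : ∀ g, rA g = (PA : Matrix (Fin 2) (Fin 2) (gQ r U)) *
      (rB g).map (qmk r U) *
      ((PA⁻¹ : (Matrix (Fin 2) (Fin 2) (gQ r U))ˣ) :
        Matrix (Fin 2) (Fin 2) (gQ r U))

lemma trace_conj {R : Type*} [CommRing R] (P : (Matrix (Fin 2) (Fin 2) R)ˣ)
    (M : Matrix (Fin 2) (Fin 2) R) : ((P : Matrix (Fin 2) (Fin 2) R) * M *
      ((P⁻¹ : (Matrix (Fin 2) (Fin 2) R)ˣ) : Matrix (Fin 2) (Fin 2) R)).trace = M.trace := by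
  rw [Matrix.trace_mul_comm, ← mul_assoc, Units.inv_mul, one_mul]

lemma det_conj {R : Type*} [CommRing R] (P : (Matrix (Fin 2) (Fin 2) R)ˣ)
    (M : Matrix (Fin 2) (Fin 2) R) : ((P : Matrix (Fin 2) (Fin 2) R) * M *
      ((P⁻¹ : (Matrix (Fin 2) (Fin 2) R)ˣ) : Matrix (Fin 2) (Fin 2) R)).det = M.det := by
  rw [Matrix.det_mul, Matrix.det_mul, mul_comm, ← mul_assoc, ← Matrix.det_mul, Units.inv_mul,
    Matrix.det_one, one_mul]

lemma trace_map' {R S : Type*} [CommRing R] [CommRing S] (f : R →+* S)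
    (M : Matrix (Fin 2) (Fin 2) R) : (M.map f).trace = f M.trace := by
  rw [trace_fin_two, trace_fin_two, map_add]; rfl

lemma det_map' {R S : Type*} [CommRing R] [CommRing S] (f : R →+* S)
    (M : Matrix (Fin 2) (Fin 2) R) : (M.map f).det = f M.det := (RingHom.map_det f M).symm

omit [Finite J] [Nonempty J] [∀ j, IsLocalRing (A j)] [∀ j, Module.Finite ℤ_[2] (A j)] in
lemma GluedRep.trace_rB (D : GluedRep r U) (g : G) :
    (D.rB g).trace = ⟨_, trace_mem_gRing g⟩ := by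
  refine gEv_ext _ _ fun j => ?_
  have h1 := trace_map' (gEv r U j : gRing r U →+* A j) (D.rB g)
  have h3 : (D.rB g).map (gEv r U j : gRing r U →+* A j) = (D.rB g).map (gEv r U j) := rfl
  rw [h3, D.hP j g, trace_conj] at h1
  exact h1.symm

omit [Finite J] [Nonempty J] [∀ j, Module.Finite ℤ_[2] (A j)] in
lemma GluedRep.det_rB (D : GluedRep r U) (H : GlueData t c h χ r U) (g : G) :
    (D.rB g).det = algebraMap ℤ_[2] _ (χ g) := by
  refine gEv_ext _ _ fun j => ?_
  have h1 := det_map' (gEv r U j : gRing r U →+* A j) (D.rB g)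
  have h3 : (D.rB g).map (gEv r U j : gRing r U →+* A j) = (D.rB g).map (gEv r U j) := rfl
  rw [h3, D.hP j g, det_conj, H.det g j] at h1
  exact h1.symm.trans (AlgHom.commutes (gEv r U j) (χ g)).symm

omit [Finite J] [Nonempty J] [∀ j, IsLocalRing (A j)] [∀ j, Module.Finite ℤ_[2] (A j)] in
lemma GluedRep.trace_rA (D : GluedRep r U) (g : G) :
    (D.rA g).trace = qmk r U ⟨_, trace_mem_gRing g⟩ := by
  rw [D.hPA, trace_conj, trace_map', D.trace_rB]

omit [Finite J] [∀ j, Module.Finite ℤ_[2] (A j)] in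
lemma GluedRep.det_rA (D : GluedRep r U) (H : GlueData t c h χ r U) (g : G) :
    (D.rA g).det = 1 := by
  rw [D.hPA, det_conj, det_map', D.det_rB H]
  have h1 : algebraMap ℤ_[2] (gRing r U) (χ g) - 1 ∈ gI r U := by
    have := Ideal.mem_map_of_mem (algebraMap ℤ_[2] (gRing r U)) (H.chi_sub_one g)
    rwa [map_sub, map_one] at this
  have h3 := qmk_eq_zero.mpr h1
  rw [map_sub, map_one, sub_eq_zero] at h3
  exact h3

omit [Finite J] [Nonempty J] [∀ j, IsLocalRing (A j)] [∀ j, Module.Finite ℤ_[2] (A j)] in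
lemma GluedRep.rB_eq_one (D : GluedRep r U) (g : G) (hg : ∀ j, r j g = 1) : D.rB g = 1 := by
  refine Matrix.ext fun a b => gEv_ext _ _ fun j => ?_
  have h1 := D.hP j g
  rw [hg j, mul_one, Units.mul_inv] at h1
  have h3 := congrFun (congrFun h1 a) b
  rw [Matrix.map_apply] at h3
  rw [h3, Matrix.one_apply, Matrix.one_apply]
  split_ifs
  · exact (map_one _).symm
  · exact (map_zero _).symm

omit [Finite J] [Nonempty J] [∀ j, IsLocalRing (A j)] [∀ j, Module.Finite ℤ_[2] (A j)] in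
lemma GluedRep.rA_eq_one_of (D : GluedRep r U) (g : G)
    (hg : ∀ a b, (D.rB g - 1) a b ∈ gI r U) : D.rA g = 1 := by
  have h1 : (D.rB g).map (qmk r U) = 1 := by
    ext a b
    rw [Matrix.map_apply]
    have h3 := qmk_eq_zero.mpr (hg a b)
    rw [Matrix.sub_apply, map_sub, sub_eq_zero] at h3
    rw [h3, Matrix.one_apply, Matrix.one_apply]
    split_ifs
    · exact map_one _
    · exact map_zero _
  rw [D.hPA, h1, mul_one, Units.mul_inv]

omit [Finite J] [Nonempty J] [∀ j, IsLocalRing (A j)] [∀ j, Module.Finite ℤ_[2] (A j)] in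
lemma GluedRep.rA_eq_one (D : GluedRep r U) (g : G) (hg : ∀ j, r j g = 1) : D.rA g = 1 := by
  refine D.rA_eq_one_of g fun a b => ?_
  rw [D.rB_eq_one g hg, sub_self]
  exact Ideal.zero_mem _

omit [Nonempty J] [∀ j, IsLocalRing (A j)] in
/-- continuity -/
lemma GluedRep.exists_pow (D : GluedRep r U) : ∃ m : ℕ, ∀ g,
    (∀ j a b, (2 : A j) ^ m ∣ (r j g - 1) a b) → D.rA g = 1 := by
  obtain ⟨m, hm⟩ := exists_pow_mem r U
  refine ⟨m, fun g hg => D.rA_eq_one_of g fun a b => hm _ fun j => ?_⟩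
  have h1 : (((D.rB g - 1) a b : gRing r U) : ∀ j, A j) j =
      (((D.P j : (Matrix (Fin 2) (Fin 2) (A j))ˣ) : Matrix (Fin 2) (Fin 2) (A j)) * (r j g - 1) *
        (((D.P j)⁻¹ : (Matrix (Fin 2) (Fin 2) (A j))ˣ) : Matrix (Fin 2) (Fin 2) (A j))) a b := by
    rw [mul_sub, sub_mul, mul_one, Units.mul_inv, ← D.hP j g, Matrix.sub_apply, Matrix.sub_apply,
      Matrix.map_apply]
    have e1 : ((1 : Matrix (Fin 2) (Fin 2) (gRing r U)) a b : ∀ j, A j) j =
        (1 : Matrix (Fin 2) (Fin 2) (A j)) a b := by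
      rw [Matrix.one_apply, Matrix.one_apply]
      split_ifs <;> rfl
    rw [← e1]
    rfl
  rw [h1, Matrix.mul_apply]
  refine Finset.dvd_sum fun x _ => Dvd.dvd.mul_right ?_ _
  rw [Matrix.mul_apply]
  exact Finset.dvd_sum fun y _ => Dvd.dvd.mul_left (hg j y x) _

end QuotRep

end Fermat.Agent.LTF.Alpha
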