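import Mathlib

/-!
# Class groups and a cyclic automorphism: elementary counting
-/

set_option autoImplicit false

namespace Fermat.Agent.LTF.ArtA

open scoped nonZeroDivisors

section Lift

variable {R : Type*} [CommRing R] [IsDedekindDomain R] {H : Type*} [CommGroup H]

lemma span_mem {x : R} (hx : x ≠ 0) : Ideal.span {x} ∈ (Ideal R)⁰ := by
  rw [mem_nonZeroDivisors_iff_ne_zero, Ideal.zero_eq_bot, Ne, Ideal.span_singleton_eq_bot]
  exact hx

lemma eq_of_mk0_eq (f : (Ideal R)⁰ →* H)
    (hf : ∀ (x : R) (hx : x ≠ 0), f ⟨Ideal.span {x}, span_mem hx⟩ = 1) {I J : (Ideal R)⁰}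
    (h : ClassGroup.mk0 I = ClassGroup.mk0 J) : f I = f J := by
  obtain ⟨x, y, hx, hy, e⟩ := ClassGroup.mk0_eq_mk0_iff.mp h
  have e' : (⟨Ideal.span {x}, span_mem hx⟩ : (Ideal R)⁰) * I
      = ⟨Ideal.span {y}, span_mem hy⟩ * J := Subtype.ext e
  have := congrArg f e'
  rwa [map_mul, map_mul, hf x hx, hf y hy, one_mul, one_mul] at this

/-- lift a monoid hom on nonzero ideals, trivial on principal ideals, to the class group. -/
noncomputable def lift0 (f : (Ideal R)⁰ →* H)
    (hf : ∀ (x : R) (hx : x ≠ 0), f ⟨Ideal.span {x}, span_mem hx⟩ = 1) :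
    ClassGroup R →* H where
  toFun c := f (Classical.choose (ClassGroup.mk0_surjective c))
  map_one' := by
    have h := Classical.choose_spec (ClassGroup.mk0_surjective (1 : ClassGroup R))
    rw [← map_one (ClassGroup.mk0 (R := R))] at h
    have h1 := eq_of_mk0_eq f hf h
    rw [map_one] at h1
    convert! h1 using 1
    simp
  map_mul' a b := by
    have h := Classical.choose_spec (ClassGroup.mk0_surjective (a * b))
    have ha := Classical.choose_spec (ClassGroup.mk0_surjective a)
    have hb := Classical.choose_spec (ClassGroup.mk0_surjective b)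
    rw [← map_mul]
    apply eq_of_mk0_eq f hf
    rw [h, map_mul, ha, hb]

@[simp] lemma lift0_mk0 (f : (Ideal R)⁰ →* H)
    (hf : ∀ (x : R) (hx : x ≠ 0), f ⟨Ideal.span {x}, span_mem hx⟩ = 1) (I : (Ideal R)⁰) :
    lift0 f hf (ClassGroup.mk0 I) = f I := by
  change f (Classical.choose (ClassGroup.mk0_surjective _)) = f I
  apply eq_of_mk0_eq f hf
  exact Classical.choose_spec (ClassGroup.mk0_surjective (ClassGroup.mk0 I))

end Lift

section Maps

variable {A B : Type*} [CommRing A] [IsDedekindDomain A] [CommRing B] [IsDedekindDomain B]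
  [Algebra A B] [Module.Finite A B] [Module.IsTorsionFree A B]

/-- `relNorm` on nonzero ideals -/
noncomputable def relNorm0 : (Ideal B)⁰ →* (Ideal A)⁰ where
  toFun I := ⟨Ideal.relNorm A (I : Ideal B), by
    rw [mem_nonZeroDivisors_iff_ne_zero, Ideal.zero_eq_bot, Ne, Ideal.relNorm_eq_bot_iff]
    exact mem_nonZeroDivisors_iff_ne_zero.mp I.2⟩
  map_one' := Subtype.ext (by simp)
  map_mul' I J := Subtype.ext (by simp)

/-- norm on class groups -/
noncomputable def clNorm : ClassGroup B →* ClassGroup A :=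
  lift0 (ClassGroup.mk0.comp (relNorm0 (A := A) (B := B))) (by
    intro x hx
    change ClassGroup.mk0 (relNorm0 (A := A) ⟨Ideal.span {x}, span_mem hx⟩) = 1
    have : (relNorm0 (A := A) ⟨Ideal.span {x}, span_mem hx⟩ : (Ideal A)⁰)
        = ⟨Ideal.span {Algebra.intNorm A B x}, by
          rw [← Ideal.relNorm_singleton]
          exact (relNorm0 (A := A) ⟨Ideal.span {x}, span_mem hx⟩).2⟩ :=
      Subtype.ext (Ideal.relNorm_singleton A x)
    rw [this, ClassGroup.mk0_eq_one_iff]
    exact ⟨⟨_, rfl⟩⟩)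

lemma clNorm_mk0 (I : (Ideal B)⁰) : clNorm (A := A) (ClassGroup.mk0 I) =
    ClassGroup.mk0 (relNorm0 (A := A) I) := lift0_mk0 _ _ _

/-- the image of an ideal under a ring automorphism -/
noncomputable def autI (σ : B ≃ₐ[A] B) : (Ideal B)⁰ →* (Ideal B)⁰ where
  toFun I := ⟨(I : Ideal B).map σ, by
    rw [mem_nonZeroDivisors_iff_ne_zero, Ideal.zero_eq_bot, Ne,
      Ideal.map_eq_bot_iff_of_injective (f := σ) σ.injective]
    exact mem_nonZeroDivisors_iff_ne_zero.mp I.2⟩
  map_one' := Subtype.ext (by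
    change Ideal.map σ (1 : Ideal B) = 1
    rw [Ideal.one_eq_top, Ideal.map_top])
  map_mul' I J := Subtype.ext (Ideal.map_mul (σ : B →+* B) _ _)

/-- the action on the class group -/
noncomputable def clAut (σ : B ≃ₐ[A] B) : ClassGroup B →* ClassGroup B :=
  lift0 (ClassGroup.mk0.comp (autI σ)) (by
    intro x hx
    change ClassGroup.mk0 (autI σ ⟨Ideal.span {x}, span_mem hx⟩) = 1
    have h : σ x ≠ 0 := by rwa [Ne, map_eq_zero_iff _ σ.injective]
    have : (autI σ ⟨Ideal.span {x}, span_mem hx⟩ : (Ideal B)⁰)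
        = ⟨Ideal.span {σ x}, span_mem h⟩ :=
      Subtype.ext (by
        change Ideal.map σ (Ideal.span {x}) = _
        rw [Ideal.map_span, Set.image_singleton])
    rw [this, ClassGroup.mk0_eq_one_iff]
    exact ⟨⟨_, rfl⟩⟩)

lemma clAut_mk0 (σ : B ≃ₐ[A] B) (I : (Ideal B)⁰) : clAut σ (ClassGroup.mk0 I) =
    ClassGroup.mk0 (autI σ I) := lift0_mk0 _ _ _

lemma clNorm_clAut (σ : B ≃ₐ[A] B) (c : ClassGroup B) :
    clNorm (A := A) (clAut σ c) = clNorm (A := A) c := by
  obtain ⟨I, rfl⟩ := ClassGroup.mk0_surjective c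
  rw [clAut_mk0, clNorm_mk0, clNorm_mk0]
  congr 1
  exact Subtype.ext (Ideal.relNorm_map_algEquiv σ (I : Ideal B))

lemma clNorm_extended (c : ClassGroup A) :
    clNorm (A := A) (ClassGroup.extendedHom A B c) = c ^ (Module.finrank A B) := by
  obtain ⟨I, rfl⟩ := ClassGroup.mk0_surjective c
  rw [ClassGroup.extendedHom_mk0, clNorm_mk0, ← map_pow]
  congr 1
  apply Subtype.ext
  rw [SubmonoidClass.coe_pow]
  exact Ideal.relNorm_algebraMap B (I : Ideal A)

end Maps

section Count

/-- counting: if `s`-fixed classes come from below and the map from below is not injective then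
the norm is not surjective. -/
theorem exists_not_mem_range {P Q : Type*} [CommGroup P] [Finite P] [CommGroup Q] [Finite Q]
    (s : P →* P) (N : P →* Q) (j : Q →* P) (hN : ∀ c, N (s c) = N c)
    (hfix : ∀ c, s c = c → ∃ d, j d = c) (hj : ∃ d, d ≠ 1 ∧ j d = 1) :
    N.range ≠ ⊤ := by
  intro htop
  -- the map `c ↦ s c / c`
  let D : P →* P := s / MonoidHom.id P
  have hD : ∀ c, D c = s c / c := fun c => rfl
  have h1 : Nat.card P = Nat.card D.ker * Nat.card D.range := by
    rw [← Subgroup.card_mul_index D.ker, Subgroup.index_ker]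
  have h2 : Nat.card P = Nat.card N.ker * Nat.card N.range := by
    rw [← Subgroup.card_mul_index N.ker, Subgroup.index_ker]
  have h3 : Nat.card Q = Nat.card j.ker * Nat.card j.range := by
    rw [← Subgroup.card_mul_index j.ker, Subgroup.index_ker]
  have h4 : D.range ≤ N.ker := by
    rintro _ ⟨c, rfl⟩
    rw [MonoidHom.mem_ker, hD, map_div, hN, div_self']
  have h5 : D.ker ≤ j.range := by
    intro c hc
    rw [MonoidHom.mem_ker, hD, div_eq_one] at hc
    obtain ⟨d, hd⟩ := hfix c hc
    exact ⟨d, hd⟩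
  have h6 : Nat.card D.range ≤ Nat.card N.ker := Subgroup.card_le_of_le h4
  have h7 : Nat.card D.ker ≤ Nat.card j.range := Subgroup.card_le_of_le h5
  have h8 : 1 < Nat.card j.ker := by
    rw [Subgroup.one_lt_card_iff_ne_bot]
    obtain ⟨d, hd, hd'⟩ := hj
    intro hb
    apply hd
    have : d ∈ j.ker := hd'
    rwa [hb, Subgroup.mem_bot] at this
  have h9 : Nat.card N.range = Nat.card Q := by rw [htop, Subgroup.card_top]
  have p1 : 0 < Nat.card D.range := Nat.card_pos
  have p2 : 0 < Nat.card N.ker := Nat.card_pos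
  have p3 : 0 < Nat.card j.range := Nat.card_pos
  rw [h9, h3] at h2
  rw [h1] at h2
  -- `#ker D #range D = #ker N #ker j #range j`
  have : Nat.card D.ker * Nat.card D.range < Nat.card N.ker * (Nat.card j.ker * Nat.card j.range) := by
    calc Nat.card D.ker * Nat.card D.range ≤ Nat.card j.range * Nat.card N.ker :=
          Nat.mul_le_mul h7 h6
      _ < Nat.card j.range * Nat.card N.ker * Nat.card j.ker := by
          exact lt_mul_of_one_lt_right (Nat.mul_pos p3 p2) h8
      _ = _ := by ring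
  omega

/-- a proper subgroup containing all cubes is killed by a nontrivial cubic character. -/
theorem exists_cubic_character {Q : Type*} [CommGroup Q] (H : Subgroup Q) (hH : H ≠ ⊤)
    (hcube : ∀ x : Q, x ^ 3 ∈ H) :
    ∃ ψ : Q →* Multiplicative (ZMod 3), ψ ≠ 1 ∧ ∀ x ∈ H, ψ x = 1 := by
  have : Fact (Nat.Prime 3) := ⟨Nat.prime_three⟩
  let V := Additive (Q ⧸ H)
  have h3 : ∀ v : V, 3 • v = 0 := by
    intro v
    obtain ⟨x, rfl⟩ := QuotientGroup.mk_surjective (Additive.toMul v)
    change Additive.ofMul ((x : Q ⧸ H) ^ 3) = 0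
    rw [← QuotientGroup.mk_pow, (QuotientGroup.eq_one_iff _).mpr (hcube x)]
    rfl
  let : Module (ZMod 3) V := AddCommGroup.zmodModule h3
  obtain ⟨x, hx⟩ : ∃ x, x ∉ H := by
    by_contra hcon
    push Not at hcon
    exact hH (eq_top_iff.mpr fun x _ => hcon x)
  let v : V := Additive.ofMul (x : Q ⧸ H)
  have hv : v ≠ 0 := by
    intro h0
    apply hx
    rw [← QuotientGroup.eq_one_iff]
    exact h0
  obtain ⟨f, hf⟩ : ∃ f : Module.Dual (ZMod 3) V, f v ≠ 0 := by
    by_contra hcon
    push Not at hcon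
    exact hv ((Module.forall_dual_apply_eq_zero_iff (ZMod 3) v).mp hcon)
  refine ⟨(AddMonoidHom.toMultiplicativeRight f.toAddMonoidHom).comp (QuotientGroup.mk' H),
    ?_, ?_⟩
  · intro h1
    apply hf
    have := DFunLike.congr_fun h1 x
    exact congrArg Multiplicative.toAdd this
  · intro y hy
    change Multiplicative.ofAdd (f (Additive.ofMul (y : Q ⧸ H))) = 1
    rw [(QuotientGroup.eq_one_iff y).mpr hy, ofMul_one, map_zero, ofAdd_zero]

end Count

end Fermat.Agent.LTF.ArtA
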