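import Mathlib

/-!
# Unramified Artin reciprocity for `2`-power cyclic extensions, abstract part

`G` is an abelian Galois group, `W` the set of places upstairs, `M` the (additive) group of
nonzero elements upstairs, `dv` the divisor map.  For a subgroup `H` of `G`, `inv H` is the group
of divisors of the fixed field `L^H`.
-/

set_option autoImplicit false

namespace Fermat.Agent.LTF.Art

open MulAction

section Div

variable {G W : Type*} [Group G] [MulAction G W]

/-- translation of divisors -/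
noncomputable def mv (g : G) : (W →₀ ℤ) ≃+ (W →₀ ℤ) := Finsupp.domCongr (MulAction.toPerm g)

lemma mv_apply (g : G) (b : W →₀ ℤ) (w : W) : mv g b w = b (g⁻¹ • w) := rfl

/-- invariant divisors -/
def inv (W : Type*) [MulAction G W] (H : Subgroup G) : AddSubgroup (W →₀ ℤ) where
  carrier := {b | ∀ h ∈ H, ∀ w, b (h • w) = b w}
  zero_mem' := fun _ _ _ => rfl
  add_mem' := fun {a b} ha hb h hh w => by
    rw [Finsupp.add_apply, Finsupp.add_apply, ha h hh w, hb h hh w]
  neg_mem' := fun {a} ha h hh w => by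
    rw [Finsupp.neg_apply, Finsupp.neg_apply, ha h hh w]

lemma mem_inv {H : Subgroup G} {b : W →₀ ℤ} : b ∈ inv W H ↔ ∀ h ∈ H, ∀ w, b (h • w) = b w :=
  Iff.rfl

lemma inv_anti {H H' : Subgroup G} (h : H' ≤ H) : inv W H ≤ inv W H' :=
  fun _ hb g hg w => hb g (h hg) w

lemma mem_orbit_iff' {H : Subgroup G} {w w' : W} : w' ∈ orbit H w ↔ ∃ h ∈ H, h • w = w' := by
  rw [mem_orbit_iff]
  constructor
  · rintro ⟨h, rfl⟩
    exact ⟨h, h.2, rfl⟩
  · rintro ⟨h, hh, rfl⟩
    exact ⟨⟨h, hh⟩, rfl⟩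

lemma smul_mem_orbit_iff {H : Subgroup G} {h : G} (hh : h ∈ H) {w w' : W} :
    h • w' ∈ orbit H w ↔ w' ∈ orbit H w := by
  rw [mem_orbit_iff', mem_orbit_iff']
  constructor
  · rintro ⟨g, hg, h1⟩
    exact ⟨h⁻¹ * g, mul_mem (inv_mem hh) hg, by rw [mul_smul, h1, inv_smul_smul]⟩
  · rintro ⟨g, hg, h1⟩
    exact ⟨h * g, mul_mem hh hg, by rw [mul_smul, h1]⟩

variable [Finite G]

lemma finite_orbit (H : Subgroup G) (w : W) : (orbit H w).Finite :=
  Set.finite_range _

open Classical in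
/-- the orbit sum -/
noncomputable def s (H : Subgroup G) (w : W) : W →₀ ℤ :=
  Finsupp.ofSupportFinite (fun w' => if w' ∈ orbit H w then 1 else 0)
    ((finite_orbit H w).subset (by
      intro w' hw'
      by_contra h
      rw [Function.mem_support] at hw'
      exact hw' (if_neg h)))

open Classical in
lemma s_apply (H : Subgroup G) (w w' : W) :
    s H w w' = if w' ∈ orbit H w then 1 else 0 := rfl

lemma s_mem_inv (H : Subgroup G) (w : W) : s H w ∈ inv W H := by
  intro h hh w'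
  rw [s_apply, s_apply]
  by_cases h1 : w' ∈ orbit H w
  · rw [if_pos h1, if_pos ((smul_mem_orbit_iff hh).mpr h1)]
  · rw [if_neg h1, if_neg (fun h2 => h1 ((smul_mem_orbit_iff hh).mp h2))]

lemma s_self (H : Subgroup G) (w : W) : s H w w = 1 := by
  rw [s_apply, if_pos (mem_orbit_self w)]

lemma s_eq_of_mem {H : Subgroup G} {w w' : W} (h : w' ∈ orbit H w) : s H w' = s H w := by
  ext x
  rw [s_apply, s_apply]
  have : orbit H w' = orbit H w := orbit_eq_iff.mpr h
  rw [this]

/-- The invariant divisors are generated by the orbit sums. -/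
lemma inv_eq_closure (H : Subgroup G) :
    inv W H = AddSubgroup.closure (Set.range (s H : W → W →₀ ℤ)) := by
  classical
  apply le_antisymm
  · intro b hb
    induction hn : b.support.card using Nat.strong_induction_on generalizing b with
    | _ n ih =>
      by_cases h0 : b = 0
      · rw [h0]
        exact zero_mem _
      · obtain ⟨w, hw⟩ : ∃ w, b w ≠ 0 := by
          by_contra hcon
          push Not at hcon
          exact h0 (Finsupp.ext hcon)
        set b' := b - b w • s H w with hb'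
        have hb'm : b' ∈ inv W H := sub_mem hb (zsmul_mem (s_mem_inv H w) _)
        have hval : ∀ w', b' w' = if w' ∈ orbit H w then 0 else b w' := by
          intro w'
          rw [hb', Finsupp.sub_apply, Finsupp.smul_apply, s_apply]
          split_ifs with h
          · obtain ⟨g, hg, rfl⟩ := mem_orbit_iff'.mp h
            rw [hb g hg w]
            simp
          · simp
        have hlt : b'.support.card < n := by
          rw [← hn]
          apply Finset.card_lt_card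
          rw [Finset.ssubset_iff_of_subset]
          · refine ⟨w, ?_, ?_⟩
            · rwa [Finsupp.mem_support_iff]
            · rw [Finsupp.notMem_support_iff, hval, if_pos (mem_orbit_self w)]
          · intro x hx
            rw [Finsupp.mem_support_iff, hval] at hx
            rw [Finsupp.mem_support_iff]
            intro hx0
            rw [hx0] at hx
            simp at hx
        have h1 := ih _ hlt hb'm rfl
        have h2 : b = b' + b w • s H w := by rw [hb', sub_add_cancel]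
        rw [h2]
        exact add_mem h1 (zsmul_mem (AddSubgroup.subset_closure (Set.mem_range_self w)) _)
  · rw [AddSubgroup.closure_le]
    rintro _ ⟨w, rfl⟩
    exact s_mem_inv H w

end Div

/-- The data of an abelian extension: Galois action on elements and the divisor map. -/
structure Sys (G W M : Type*) [Group G] [MulAction G W] [AddCommGroup M] where
  act : G →* AddMonoid.End M
  dv : M →+ (W →₀ ℤ)
  dv_act : ∀ g m, dv (act g m) = mv g (dv m)

namespace Sys

variable {G W M : Type*} [Group G] [MulAction G W] [AddCommGroup M] (S : Sys G W M)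

/-- fixed elements -/
def fix (H : Subgroup G) : AddSubgroup M where
  carrier := {m | ∀ h ∈ H, S.act h m = m}
  zero_mem' := fun h _ => map_zero (S.act h)
  add_mem' := fun {a b} ha hb h hh => by rw [map_add, ha h hh, hb h hh]
  neg_mem' := fun {a} ha h hh => by rw [map_neg, ha h hh]

lemma mem_fix {H : Subgroup G} {m : M} : m ∈ S.fix H ↔ ∀ h ∈ H, S.act h m = m := Iff.rfl

/-- principal divisors of the fixed field -/
noncomputable def prin (H : Subgroup G) : AddSubgroup (W →₀ ℤ) := (S.fix H).map S.dv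

lemma prin_le_inv (H : Subgroup G) : S.prin H ≤ inv W H := by
  rintro _ ⟨m, hm, rfl⟩ h hh w
  have h1 := S.dv_act h m
  rw [hm h hh] at h1
  have h2 := DFunLike.congr_fun h1 (h • w)
  rw [mv_apply, inv_smul_smul] at h2
  exact h2

/-- residue degree -/
noncomputable def fd (H' H : Subgroup G) (w : W) : ℕ := H'.relIndex (stabilizer G w ⊓ H)

variable [Finite G]

/-- the norm group -/
noncomputable def D (H' H : Subgroup G) : AddSubgroup (W →₀ ℤ) :=
  AddSubgroup.closure (Set.range fun w : W => fd H' H w • s H w) ⊔ S.prin H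

lemma D_le_inv (H' H : Subgroup G) : S.D H' H ≤ inv W H := by
  refine sup_le ?_ (S.prin_le_inv H)
  rw [AddSubgroup.closure_le]
  rintro _ ⟨w, rfl⟩
  exact nsmul_mem (s_mem_inv H w) _

lemma prin_le_D (H' H : Subgroup G) : S.prin H ≤ S.D H' H := le_sup_right

lemma smul_mem_D (H' H : Subgroup G) (w : W) : fd H' H w • s H w ∈ S.D H' H :=
  (le_sup_left : _ ≤ S.D H' H) (AddSubgroup.subset_closure ⟨w, rfl⟩)

/-- The arithmetic input for a quadratic extension `L^{H₁} / L^H`. -/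
structure Quad (H₁ H : Subgroup G) : Prop where
  ex : ∃ w : W, ¬ (stabilizer G w ⊓ H ≤ H₁)
  two : ∀ w w' : W, ¬ (stabilizer G w ⊓ H ≤ H₁) → ¬ (stabilizer G w' ⊓ H ≤ H₁) →
    s H w + s H w' ∈ S.D H₁ H
  notMem : ∀ w : W, ¬ (stabilizer G w ⊓ H ≤ H₁) → s H w ∉ S.D H₁ H
  hasse : ∀ m ∈ S.fix H, (∀ w : W, ¬ (stabilizer G w ⊓ H ≤ H₁) → Even (S.dv m w)) →
    ∃ y ∈ S.fix H₁, ∃ t ∈ H, t ∉ H₁ ∧ m = y + S.act t y

end Sys

section Step

variable {G W M : Type*} [Group G] [MulAction G W] [AddCommGroup M] (S : Sys G W M)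

lemma fd_mul {H' H₁ H : Subgroup G} (h1 : H' ≤ H₁) (h2 : H₁ ≤ H) (w : W) :
    Sys.fd H' H w = Sys.fd H' H₁ w * Sys.fd H₁ H w := by
  unfold Sys.fd
  set T := stabilizer G w
  have e1 : H'.relIndex (T ⊓ H) = (T ⊓ H').relIndex (T ⊓ H) := by
    rw [← Subgroup.inf_relIndex_right H' (T ⊓ H)]
    congr 1
    rw [inf_comm, inf_assoc, inf_eq_right.mpr (h1.trans h2)]
  have e2 : H'.relIndex (T ⊓ H₁) = (T ⊓ H').relIndex (T ⊓ H₁) := by
    rw [← Subgroup.inf_relIndex_right H' (T ⊓ H₁)]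
    congr 1
    rw [inf_comm, inf_assoc, inf_eq_right.mpr h1]
  have e3 : H₁.relIndex (T ⊓ H) = (T ⊓ H₁).relIndex (T ⊓ H) := by
    rw [← Subgroup.inf_relIndex_right H₁ (T ⊓ H)]
    congr 1
    rw [inf_comm, inf_assoc, inf_eq_right.mpr h2]
  rw [e1, e2, e3]
  exact (Subgroup.relIndex_mul_relIndex _ _ _ (inf_le_inf_left T h1) (inf_le_inf_left T h2)).symm

/-- cosets of a subgroup of index two -/
lemma mul_mem_iff {H₁ H : Subgroup G} (hidx : H₁.relIndex H = 2) {x y : G} (hx : x ∈ H)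
    (hy : y ∈ H) : x * y ∈ H₁ ↔ (x ∈ H₁ ↔ y ∈ H₁) := by
  have h := Subgroup.mul_mem_iff_of_index_two (H := H₁.subgroupOf H) hidx (a := ⟨x, hx⟩)
    (b := ⟨y, hy⟩)
  simpa [Subgroup.mem_subgroupOf] using h

variable (hc : ∀ a b : G, a * b = b * a)

include hc in
lemma stabilizer_smul (g : G) (w : W) : stabilizer G (g • w) = stabilizer G w := by
  ext x
  rw [mem_stabilizer_iff, mem_stabilizer_iff, ← mul_smul, hc x g, mul_smul]
  exact smul_left_cancel_iff g

variable {H₁ H : Subgroup G} (h1 : H₁ ≤ H) (hidx : H₁.relIndex H = 2) {t : G} (ht : t ∈ H)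
  (ht1 : t ∉ H₁)

/-- The relative norm. -/
noncomputable def nu (t : G) : (W →₀ ℤ) →+ (W →₀ ℤ) :=
  AddMonoidHom.id _ + (mv t : (W →₀ ℤ) ≃+ (W →₀ ℤ)).toAddMonoidHom

lemma nu_apply (t : G) (b : W →₀ ℤ) (w : W) : nu t b w = b w + b (t⁻¹ • w) := rfl

lemma nu_eq (t : G) (b : W →₀ ℤ) : nu t b = b + mv t b := rfl

include hc hidx ht ht1 in
lemma nu_mem_inv {b : W →₀ ℤ} (hb : b ∈ inv W H₁) : nu t b ∈ inv W H := by
  intro h hh w
  rw [nu_apply, nu_apply]
  by_cases h2 : h ∈ H₁
  · rw [hb h h2, ← mul_smul, hc t⁻¹ h, mul_smul, hb h h2]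
  · have h3 : t⁻¹ * h ∈ H₁ := by
      rw [mul_mem_iff hidx (inv_mem ht) hh, inv_mem_iff]
      exact ⟨fun h => absurd h ht1, fun h => absurd h h2⟩
    have h4 : t * h ∈ H₁ := by
      rw [mul_mem_iff hidx ht hh]
      exact ⟨fun h => absurd h ht1, fun h => absurd h h2⟩
    have e1 : h • w = (t * h) • (t⁻¹ • w) := by
      rw [← mul_smul]
      congr 1
      rw [mul_assoc, hc h t⁻¹, ← mul_assoc, mul_inv_cancel, one_mul]
    rw [e1, hb _ h4, ← e1, ← mul_smul, hb _ h3, add_comm]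

include hidx in
/-- an inert place is fixed up to `H₁` by every element of `H`. -/
lemma mem_orbit_of_inert {w : W} (hw : ¬ (stabilizer G w ⊓ H ≤ H₁)) {h : G} (hh : h ∈ H) :
    h • w ∈ orbit H₁ w := by
  rw [SetLike.not_le_iff_exists] at hw
  obtain ⟨g, ⟨hg1, hg2⟩, hg3⟩ := hw
  rw [mem_orbit_iff']
  by_cases h2 : h ∈ H₁
  · exact ⟨h, h2, rfl⟩
  · refine ⟨h * g, ?_, ?_⟩
    · rw [mul_mem_iff hidx hh hg2]
      exact ⟨fun h => absurd h h2, fun h => absurd h hg3⟩
    · rw [mul_smul, mem_stabilizer_iff.mp hg1]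

include hc in
lemma inert_smul {w : W} (hw : ¬ (stabilizer G w ⊓ H ≤ H₁)) (g : G) :
    ¬ (stabilizer G (g • w) ⊓ H ≤ H₁) := by
  rwa [stabilizer_smul hc]

lemma fd_of_not_inert {w : W} (hw : stabilizer G w ⊓ H ≤ H₁) : Sys.fd H₁ H w = 1 :=
  Subgroup.relIndex_eq_one.mpr hw

include hidx in
lemma fd_of_inert {w : W} (hw : ¬ (stabilizer G w ⊓ H ≤ H₁)) : Sys.fd H₁ H w = 2 := by
  have h2 : Sys.fd H₁ H w ≠ 1 := fun h => hw (Subgroup.relIndex_eq_one.mp h)
  rw [SetLike.not_le_iff_exists] at hw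
  obtain ⟨g, ⟨hg1, hg2⟩, hg3⟩ := hw
  unfold Sys.fd
  rw [Subgroup.relIndex_eq_two_iff_exists_notMem_and]
  refine ⟨g, ⟨hg1, hg2⟩, hg3, ?_⟩
  rintro x ⟨_, hx2⟩
  by_cases hx : x ∈ H₁
  · exact Or.inr hx
  · left
    rw [mul_mem_iff hidx hx2 hg2]
    exact ⟨fun h => absurd h hx, fun h => absurd h hg3⟩

variable [Finite G]

include h1 hidx ht ht1 in
lemma nu_s (w : W) : nu t (s H₁ w) = Sys.fd H₁ H w • s H w := by
  classical
  by_cases hw : stabilizer G w ⊓ H ≤ H₁
  · rw [fd_of_not_inert hw, one_smul]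
    ext x
    rw [nu_apply, s_apply, s_apply, s_apply]
    have hsub : ∀ y, y ∈ orbit H₁ w → y ∈ orbit H w := by
      intro y hy
      obtain ⟨g, hg, rfl⟩ := mem_orbit_iff'.mp hy
      exact mem_orbit_iff'.mpr ⟨g, h1 hg, rfl⟩
    by_cases hx1 : x ∈ orbit H₁ w
    · have hx2 : t⁻¹ • x ∉ orbit H₁ w := by
        intro hx2
        obtain ⟨a, ha, ha2⟩ := mem_orbit_iff'.mp hx1
        obtain ⟨b, hb, hb2⟩ := mem_orbit_iff'.mp hx2
        have h3 : b⁻¹ * (t⁻¹ * a) ∈ stabilizer G w ⊓ H := by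
          refine Subgroup.mem_inf.mpr
            ⟨?_, mul_mem (inv_mem (h1 hb)) (mul_mem (inv_mem ht) (h1 ha))⟩
          rw [mem_stabilizer_iff, mul_smul, mul_smul, ha2, ← hb2, inv_smul_smul]
        have h4 := hw h3
        have h5 : t⁻¹ ∈ H₁ := by
          have : t⁻¹ = b * (b⁻¹ * (t⁻¹ * a)) * a⁻¹ := by group
          rw [this]
          exact mul_mem (mul_mem hb h4) (inv_mem ha)
        exact ht1 (inv_mem_iff.mp h5)
      rw [if_pos hx1, if_neg hx2, if_pos (hsub x hx1), add_zero]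
    · by_cases hx2 : t⁻¹ • x ∈ orbit H₁ w
      · have hx3 : x ∈ orbit H w := by
          have := (smul_mem_orbit_iff (inv_mem ht)).mp (hsub _ hx2)
          exact this
        rw [if_neg hx1, if_pos hx2, if_pos hx3, zero_add]
      · have hx3 : x ∉ orbit H w := by
          intro hx3
          obtain ⟨a, ha, ha2⟩ := mem_orbit_iff'.mp hx3
          by_cases ha1 : a ∈ H₁
          · exact hx1 (mem_orbit_iff'.mpr ⟨a, ha1, ha2⟩)
          · refine hx2 (mem_orbit_iff'.mpr ⟨t⁻¹ * a, ?_, by rw [mul_smul, ha2]⟩)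
            rw [mul_mem_iff hidx (inv_mem ht) ha, inv_mem_iff]
            exact ⟨fun h => absurd h ht1, fun h => absurd h ha1⟩
        rw [if_neg hx1, if_neg hx2, if_neg hx3, add_zero]
  · rw [fd_of_inert hidx hw, two_nsmul]
    have hiff : ∀ y, y ∈ orbit H₁ w ↔ y ∈ orbit H w := by
      intro y
      constructor
      · intro hy
        obtain ⟨g, hg, rfl⟩ := mem_orbit_iff'.mp hy
        exact mem_orbit_iff'.mpr ⟨g, h1 hg, rfl⟩
      · intro hy
        obtain ⟨g, hg, rfl⟩ := mem_orbit_iff'.mp hy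
        exact mem_orbit_of_inert hidx hw hg
    ext x
    rw [nu_apply, s_apply, s_apply, Finsupp.add_apply, s_apply]
    have e1 : x ∈ orbit H₁ w ↔ x ∈ orbit H w := hiff x
    have e2 : t⁻¹ • x ∈ orbit H₁ w ↔ x ∈ orbit H w := by
      rw [hiff]
      exact smul_mem_orbit_iff (inv_mem ht)
    simp only [e1, e2]

omit [Finite G] in
include hc h1 hidx ht ht1 in
/-- **Hilbert 90 for divisors** -/
lemma exists_eq_sub_mv {b : W →₀ ℤ} (hb : b ∈ inv W H₁) (hb0 : nu t b = 0) :
    ∃ c ∈ inv W H₁, b = c - mv t c := by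
  classical
  have hb0' : ∀ w, b w + b (t⁻¹ • w) = 0 := fun w => by
    rw [← nu_apply, hb0]
    rfl
  -- a set of representatives for the orbits of `H`
  let rep : W → W := fun w => (Quotient.mk (orbitRel H W) w).out
  have hrep : ∀ w, w ∈ orbit H (rep w) := by
    intro w
    have h2 : (orbitRel H W) (rep w) w := Quotient.exact (Quotient.out_eq _)
    rw [orbitRel_apply] at h2
    rw [mem_orbit_symm]
    exact h2
  have hrep2 : ∀ w, ∀ h ∈ H, rep (h • w) = rep w := by
    intro w h hh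
    have h2 : Quotient.mk (orbitRel H W) (h • w) = Quotient.mk (orbitRel H W) w := by
      apply Quotient.sound
      change (orbitRel H W) (h • w) w
      rw [orbitRel_apply]
      exact mem_orbit_iff'.mpr ⟨h, hh, rfl⟩
    change (Quotient.mk (orbitRel H W) (h • w)).out = (Quotient.mk (orbitRel H W) w).out
    rw [h2]
  let c : W →₀ ℤ := b.filter (fun w => w ∈ orbit H₁ (rep w))
  have hcv : ∀ w, c w = if w ∈ orbit H₁ (rep w) then b w else 0 := fun w =>
    Finsupp.filter_apply _ _ _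
  have hc1 : c ∈ inv W H₁ := by
    intro h hh w
    rw [hcv, hcv, hrep2 w h (h1 hh), hb h hh]
    by_cases h2 : w ∈ orbit H₁ (rep w)
    · rw [if_pos h2, if_pos ((smul_mem_orbit_iff hh).mpr h2)]
    · rw [if_neg h2, if_neg (fun h3 => h2 ((smul_mem_orbit_iff hh).mp h3))]
  refine ⟨c, hc1, ?_⟩
  ext w
  rw [Finsupp.sub_apply, mv_apply]
  by_cases hw : stabilizer G w ⊓ H ≤ H₁
  · -- split
    have h4 : t⁻¹ • w ∈ orbit H₁ (rep w) ↔ w ∉ orbit H₁ (rep w) := by
      obtain ⟨a, ha, ha2⟩ := mem_orbit_iff'.mp (hrep w)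
      constructor
      · intro h5 h6
        obtain ⟨x, hx, hx2⟩ := mem_orbit_iff'.mp h6
        obtain ⟨y, hy, hy2⟩ := mem_orbit_iff'.mp h5
        have h7 : y⁻¹ * (t⁻¹ * x) ∈ stabilizer G w ⊓ H := by
          refine Subgroup.mem_inf.mpr
            ⟨?_, mul_mem (inv_mem (h1 hy)) (mul_mem (inv_mem ht) (h1 hx))⟩
          have e := stabilizer_smul hc a (rep w)
          rw [ha2] at e
          rw [e, mem_stabilizer_iff, mul_smul, mul_smul, hx2, ← hy2, inv_smul_smul]
        have h8 := hw h7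
        apply ht1
        have : t⁻¹ = y * (y⁻¹ * (t⁻¹ * x)) * x⁻¹ := by group
        rw [← inv_mem_iff, this]
        exact mul_mem (mul_mem hy h8) (inv_mem hx)
      · intro h6
        have ha1 : a ∉ H₁ := fun h => h6 (mem_orbit_iff'.mpr ⟨a, h, ha2⟩)
        refine mem_orbit_iff'.mpr ⟨t⁻¹ * a, ?_, by rw [mul_smul, ha2]⟩
        rw [mul_mem_iff hidx (inv_mem ht) ha, inv_mem_iff]
        exact ⟨fun h => absurd h ht1, fun h => absurd h ha1⟩
    rw [hcv, hcv, hrep2 w _ (inv_mem ht)]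
    by_cases h6 : w ∈ orbit H₁ (rep w)
    · rw [if_pos h6, if_neg (fun h => (h4.mp h) h6), sub_zero]
    · rw [if_neg h6, if_pos (h4.mpr h6)]
      have := hb0' w
      linarith
  · -- inert
    obtain ⟨x, hx, hx2⟩ := mem_orbit_iff'.mp (mem_orbit_of_inert hidx hw (inv_mem ht))
    have h5 := hb0' w
    rw [← hx2, hb x hx] at h5
    have h6 : b w = 0 := by linarith
    rw [← hx2, hc1 x hx, sub_self, h6]

include hc h1 hidx ht ht1 in
/-- the norm group is compatible with towers -/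
lemma D_eq_map {H' : Subgroup G} (h0 : H' ≤ H₁) :
    S.D H' H = (S.D H' H₁).map (nu t) ⊔ S.prin H := by
  unfold Sys.D
  rw [AddSubgroup.map_sup, sup_assoc]
  have e1 : (AddSubgroup.closure (Set.range fun w : W => Sys.fd H' H₁ w • s H₁ w)).map (nu t) =
      AddSubgroup.closure (Set.range fun w : W => Sys.fd H' H w • s H w) := by
    rw [AddMonoidHom.map_closure, ← Set.range_comp]
    congr 2
    ext1 w
    change nu t (Sys.fd H' H₁ w • s H₁ w) = _
    rw [map_nsmul, nu_s h1 hidx ht ht1, ← mul_smul, ← fd_mul h0 h1]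
  have e2 : (S.prin H₁).map (nu t) ≤ S.prin H := by
    rintro _ ⟨_, ⟨m, hm, rfl⟩, rfl⟩
    refine ⟨m + S.act t m, ?_, ?_⟩
    · intro h hh
      rw [map_add]
      have hact : ∀ a b : G, S.act a (S.act b m) = S.act (a * b) m := fun a b => by
        rw [map_mul]
        rfl
      by_cases h2 : h ∈ H₁
      · rw [hm h h2, hact, hc h t, ← hact, hm h h2]
      · have h3 : h * t ∈ H₁ := by
          rw [mul_mem_iff hidx hh ht]
          exact ⟨fun h => absurd h h2, fun h => absurd h ht1⟩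
        have h4 : t⁻¹ * h ∈ H₁ := by
          rw [mul_mem_iff hidx (inv_mem ht) hh, inv_mem_iff]
          exact ⟨fun h => absurd h ht1, fun h => absurd h h2⟩
        rw [hact, hm _ h3]
        have h5 : S.act h m = S.act t m := by
          have : h = t * (t⁻¹ * h) := by group
          rw [this, ← hact, hm _ h4]
        rw [h5, add_comm]
    · rw [map_add, S.dv_act, nu_eq]
  rw [e1, sup_eq_right.mpr e2]

include h1 hidx ht ht1 in
lemma D_one_eq : S.D H₁ H = (inv W H₁).map (nu t) ⊔ S.prin H := by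
  unfold Sys.D
  congr 1
  rw [inv_eq_closure, AddMonoidHom.map_closure, ← Set.range_comp]
  congr 2
  ext1 w
  change _ = nu t (s H₁ w)
  rw [nu_s h1 hidx ht ht1]

include hc in
lemma mv_s (H : Subgroup G) (g : G) (w : W) : mv g (s H w) = s H (g • w) := by
  classical
  ext x
  rw [mv_apply, s_apply, s_apply]
  have : g⁻¹ • x ∈ orbit H w ↔ x ∈ orbit H (g • w) := by
    rw [mem_orbit_iff', mem_orbit_iff']
    constructor
    · rintro ⟨h, hh, h2⟩
      refine ⟨h, hh, ?_⟩
      rw [← mul_smul, hc h g, mul_smul, h2, smul_inv_smul]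
    · rintro ⟨h, hh, rfl⟩
      refine ⟨h, hh, ?_⟩
      rw [← mul_smul h g, hc h g, mul_smul g h, inv_smul_smul]
  simp only [this]

include hc in
lemma mv_mem_D (H' H : Subgroup G) (g : G) {d : W →₀ ℤ} (hd : d ∈ S.D H' H) :
    mv g d ∈ S.D H' H := by
  have h1 : (S.D H' H).map (mv g : (W →₀ ℤ) ≃+ (W →₀ ℤ)).toAddMonoidHom ≤ S.D H' H := by
    unfold Sys.D
    rw [AddSubgroup.map_sup]
    refine sup_le_sup ?_ ?_
    · rw [AddMonoidHom.map_closure, ← Set.range_comp, AddSubgroup.closure_le]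
      rintro _ ⟨w, rfl⟩
      apply AddSubgroup.subset_closure
      refine ⟨g • w, ?_⟩
      change Sys.fd H' H (g • w) • s H (g • w) = mv g (Sys.fd H' H w • s H w)
      have e : Sys.fd H' H (g • w) = Sys.fd H' H w := by
        unfold Sys.fd
        rw [stabilizer_smul hc]
      rw [map_nsmul, mv_s hc, e]
    · rintro _ ⟨_, ⟨m, hm, rfl⟩, rfl⟩
      refine ⟨S.act g m, ?_, S.dv_act g m⟩
      intro h hh
      have hact : ∀ a b : G, S.act a (S.act b m) = S.act (a * b) m := fun a b => by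
        rw [map_mul]
        rfl
      rw [hact, hc h g, ← hact, hm h hh]
  exact h1 ⟨d, hd, rfl⟩

/-- The induction statement. -/
def Good (H' H : Subgroup G) (n : ℕ) : Prop :=
  (S.D H' H).relIndex (inv W H) = n ∧
    ∀ (w : W) (k : ℤ), k • s H w ∈ S.D H' H ↔ (Sys.fd H' H w : ℤ) ∣ k

include hc h1 hidx in
theorem good_step {H' : Subgroup G} (h0 : H' ≤ H₁) {n : ℕ} (hn : n ≠ 0)
    (hQ : S.Quad H₁ H) (hG : Good S H' H₁ n)
    (hcyc : ∀ w : W, ¬ (stabilizer G w ⊓ H ≤ H₁) → Sys.fd H' H₁ w = n) :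
    Good S H' H (2 * n) := by
  obtain ⟨t, ht, ht1, -⟩ := Subgroup.relIndex_eq_two_iff_exists_notMem_and.mp hidx
  obtain ⟨hG1, hG2⟩ := hG
  obtain ⟨w₀, hw₀⟩ := hQ.ex
  set s₀ := s H₁ w₀ with hs₀
  have hmaple : ∀ d ∈ S.D H' H₁, nu t d ∈ S.D H' H := by
    intro d hd
    rw [D_eq_map S hc h1 hidx ht ht1 h0]
    exact (le_sup_left : _ ≤ (S.D H' H₁).map (nu t) ⊔ S.prin H) ⟨d, hd, rfl⟩
  -- generation by `s₀`
  have hgen : inv W H₁ ≤ AddSubgroup.zmultiples s₀ ⊔ S.D H' H₁ := by
    have e1 : (S.D H' H₁).relIndex (AddSubgroup.zmultiples s₀) = n := by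
      have h3 : (QuotientAddGroup.mk' (S.D H' H₁)).ker.relIndex (AddSubgroup.zmultiples s₀) =
          n := by
        rw [AddSubgroup.relIndex_ker, AddMonoidHom.map_zmultiples, Nat.card_zmultiples]
        have h4 : ∀ k : ℕ, k • (QuotientAddGroup.mk' (S.D H' H₁)) s₀ = 0 ↔ n ∣ k := by
          intro k
          rw [← map_nsmul, ← AddMonoidHom.mem_ker, QuotientAddGroup.ker_mk', ← natCast_zsmul,
            hs₀, hG2, hcyc w₀ hw₀, Int.natCast_dvd_natCast]
        apply Nat.dvd_antisymm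
        · rw [addOrderOf_dvd_iff_nsmul_eq_zero, h4]
        · rw [← h4, addOrderOf_nsmul_eq_zero]
      rwa [QuotientAddGroup.ker_mk'] at h3
    have e2 : (S.D H' H₁).relIndex (AddSubgroup.zmultiples s₀ ⊔ S.D H' H₁) = n := by
      rw [AddSubgroup.relIndex_sup_right, e1]
    have e3 : AddSubgroup.zmultiples s₀ ⊔ S.D H' H₁ ≤ inv W H₁ := by
      refine sup_le ?_ (S.D_le_inv _ _)
      rw [AddSubgroup.zmultiples_le]
      exact s_mem_inv H₁ w₀
    have e4 := AddSubgroup.relIndex_mul_relIndex _ _ _ (le_sup_right :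
      S.D H' H₁ ≤ AddSubgroup.zmultiples s₀ ⊔ S.D H' H₁) e3
    rw [e2, hG1] at e4
    have e5 : (AddSubgroup.zmultiples s₀ ⊔ S.D H' H₁).relIndex (inv W H₁) = 1 :=
      Nat.eq_of_mul_eq_mul_left (Nat.pos_of_ne_zero hn) (by rw [e4, mul_one])
    exact AddSubgroup.relIndex_eq_one.mp e5
  -- `t` acts trivially
  have htriv : ∀ c ∈ inv W H₁, c - mv t c ∈ S.D H' H₁ := by
    intro c hcI
    obtain ⟨x, hx, d, hd, rfl⟩ := AddSubgroup.mem_sup.mp (hgen hcI)
    obtain ⟨k, rfl⟩ := AddSubgroup.mem_zmultiples_iff.mp hx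
    have h3 : mv t s₀ = s₀ := by
      rw [hs₀, mv_s hc]
      exact s_eq_of_mem (mem_orbit_of_inert hidx hw₀ ht)
    rw [map_add, map_zsmul, h3]
    have : k • s₀ + d - (k • s₀ + mv t d) = d - mv t d := by abel
    rw [this]
    exact sub_mem hd (mv_mem_D S hc _ _ t hd)
  -- the comap
  have hcomap : ∀ b ∈ inv W H₁, nu t b ∈ S.D H' H → b ∈ S.D H' H₁ := by
    intro b hb hbD
    rw [D_eq_map S hc h1 hidx ht ht1 h0] at hbD
    obtain ⟨_, ⟨d, hd, rfl⟩, _, ⟨m, hm, rfl⟩, hdm⟩ := AddSubgroup.mem_sup.mp hbD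
    set b' := b - d with hb'
    have hb'I : b' ∈ inv W H₁ := sub_mem hb (S.D_le_inv _ _ hd)
    have h3 : nu t b' = S.dv m := by
      rw [hb', map_sub, ← hdm, add_sub_cancel_left]
    obtain ⟨y, hy, u, hu, hu1, hmy⟩ := hQ.hasse m hm (by
      intro w hw
      have h4 := DFunLike.congr_fun h3 w
      rw [nu_apply] at h4
      obtain ⟨x, hx, hx2⟩ := mem_orbit_iff'.mp (mem_orbit_of_inert hidx hw (inv_mem ht))
      rw [← hx2, hb'I x hx] at h4
      exact ⟨b' w, h4.symm⟩)
    have hact : ∀ a b : G, S.act a (S.act b y) = S.act (a * b) y := fun a b => by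
      rw [map_mul]
      rfl
    have h5 : S.act u y = S.act t y := by
      have h6 : t⁻¹ * u ∈ H₁ := by
        rw [mul_mem_iff hidx (inv_mem ht) hu, inv_mem_iff]
        exact ⟨fun h => absurd h ht1, fun h => absurd h hu1⟩
      have : u = t * (t⁻¹ * u) := by group
      rw [this, ← hact, hy _ h6]
    have h7 : nu t (b' - S.dv y) = 0 := by
      rw [map_sub, h3, hmy, h5, map_add, S.dv_act, nu_eq, sub_self]
    have hyP : S.dv y ∈ S.prin H₁ := ⟨y, hy, rfl⟩
    obtain ⟨c, hcI, hc2⟩ := exists_eq_sub_mv hc h1 hidx ht ht1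
      (sub_mem hb'I (S.prin_le_inv _ hyP)) h7
    have h8 : b = (c - mv t c) + S.dv y + d := by
      rw [← hc2, hb']
      abel
    rw [h8]
    exact add_mem (add_mem (htriv c hcI) (S.prin_le_D _ _ hyP)) hd
  have hcomap2 : (S.D H' H).relIndex ((inv W H₁).map (nu t)) = n := by
    rw [← hG1, ← AddSubgroup.relIndex_comap, ← AddSubgroup.inf_relIndex_right]
    congr 1
    apply le_antisymm
    · rintro b ⟨hb1, hb2⟩
      exact hcomap b hb2 hb1
    · intro d hd
      exact ⟨hmaple d hd, S.D_le_inv _ _ hd⟩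
  -- index of the full norm group of the quadratic step
  have hD1le : S.D H₁ H ≤ inv W H := S.D_le_inv _ _
  have hDle : S.D H' H ≤ S.D H₁ H := by
    rw [D_eq_map S hc h1 hidx ht ht1 h0, D_one_eq S h1 hidx ht ht1]
    exact sup_le_sup_right (AddSubgroup.map_mono (S.D_le_inv _ _)) _
  have hD1idx : (S.D H₁ H).relIndex (inv W H) = 2 := by
    rw [AddSubgroup.relIndex_eq_two_iff_exists_notMem_and]
    refine ⟨s H w₀, s_mem_inv H w₀, hQ.notMem w₀ hw₀, ?_⟩
    intro b hb
    rw [inv_eq_closure] at hb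
    induction hb using AddSubgroup.closure_induction with
    | mem x hx =>
      obtain ⟨w, rfl⟩ := hx
      by_cases hw : stabilizer G w ⊓ H ≤ H₁
      · right
        have := S.smul_mem_D H₁ H w
        rwa [fd_of_not_inert hw, one_smul] at this
      · left
        exact hQ.two w w₀ hw hw₀
    | zero => exact Or.inr (zero_mem _)
    | add x y _ _ hx hy =>
      have h2 : s H w₀ + s H w₀ ∈ S.D H₁ H := hQ.two w₀ w₀ hw₀ hw₀
      rcases hx with hx | hx <;> rcases hy with hy | hy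
      · right
        have : x + y = (x + s H w₀) + (y + s H w₀) - (s H w₀ + s H w₀) := by abel
        rw [this]
        exact sub_mem (add_mem hx hy) h2
      · left
        have : x + y + s H w₀ = (x + s H w₀) + y := by abel
        rw [this]
        exact add_mem hx hy
      · left
        rw [add_assoc]
        exact add_mem hx hy
      · right
        exact add_mem hx hy
    | neg x _ hx =>
      have h2 : s H w₀ + s H w₀ ∈ S.D H₁ H := hQ.two w₀ w₀ hw₀ hw₀
      rcases hx with hx | hx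
      · left
        have : -x + s H w₀ = (s H w₀ + s H w₀) - (x + s H w₀) := by abel
        rw [this]
        exact sub_mem h2 hx
      · right
        exact neg_mem hx
  refine ⟨?_, ?_⟩
  · have e1 : (S.D H' H).relIndex (S.D H₁ H) = n := by
      have e2 : S.D H₁ H = (inv W H₁).map (nu t) ⊔ S.D H' H := by
        apply le_antisymm
        · rw [D_one_eq S h1 hidx ht ht1]
          exact sup_le_sup_left (S.prin_le_D _ _) _
        · refine sup_le ?_ hDle
          rw [D_one_eq S h1 hidx ht ht1]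
          exact le_sup_left
      rw [e2, AddSubgroup.relIndex_sup_right, hcomap2]
    rw [← AddSubgroup.relIndex_mul_relIndex _ _ _ hDle hD1le, e1, hD1idx, mul_comm]
  · intro w k
    by_cases hw : stabilizer G w ⊓ H ≤ H₁
    · rw [fd_mul h0 h1, fd_of_not_inert hw, mul_one, ← hG2]
      have h3 : nu t (s H₁ w) = s H w := by
        rw [nu_s h1 hidx ht ht1, fd_of_not_inert hw, one_smul]
      rw [← h3, ← map_zsmul]
      exact ⟨fun h => hcomap _ (zsmul_mem (s_mem_inv H₁ w) k) h, hmaple _⟩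
    · have h3 : nu t (s H₁ w) = (2 : ℤ) • s H w := by
        rw [nu_s h1 hidx ht ht1, fd_of_inert hidx hw]
        rfl
      have h4 : ∀ j : ℤ, (j * 2) • s H w ∈ S.D H' H ↔ (Sys.fd H' H₁ w : ℤ) ∣ j := by
        intro j
        rw [mul_smul, ← h3, ← map_zsmul, ← hG2]
        exact ⟨fun h => hcomap _ (zsmul_mem (s_mem_inv H₁ w) j) h, hmaple _⟩
      rw [fd_mul h0 h1, fd_of_inert hidx hw]
      push_cast
      constructor
      · intro hk
        have h5 : Even k := by
          by_contra hodd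
          rw [Int.not_even_iff_odd] at hodd
          obtain ⟨j, rfl⟩ := hodd
          apply hQ.notMem w hw
          have h6 := hDle hk
          have h7 : (2 : ℤ) • s H w ∈ S.D H₁ H := by
            rw [two_zsmul]
            exact hQ.two w w hw hw
          have h8 : s H w = (2 * j + 1) • s H w - j • ((2 : ℤ) • s H w) := by
            rw [add_smul, one_smul, ← mul_smul, mul_comm 2 j]
            abel
          rw [h8]
          exact sub_mem h6 (zsmul_mem h7 j)
        obtain ⟨j, rfl⟩ := h5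
        rw [← mul_two] at hk ⊢
        rw [h4] at hk
        exact mul_dvd_mul_right hk 2
      · rintro ⟨j, rfl⟩
        have : (Sys.fd H' H₁ w : ℤ) * 2 * j = ((Sys.fd H' H₁ w : ℤ) * j) * 2 := by ring
        rw [this, h4]
        exact dvd_mul_right _ _

end Step

section Cyc

variable {G W M : Type*} [Group G] [MulAction G W] [AddCommGroup M] (S : Sys G W M) [Finite G]
  (hc : ∀ a b : G, a * b = b * a)

omit [Finite G] in
include hc in
lemma zpow_mem_of_relIndex {H' H : Subgroup G} {g : G} (hg : g ∈ H) :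
    g ^ (H'.relIndex H) ∈ H' := by
  have : (H'.subgroupOf H).Normal := ⟨fun n hn g => by
    have : g * n * g⁻¹ = n := by
      apply Subtype.ext
      rw [Subgroup.coe_mul, Subgroup.coe_mul, hc (g : G) n, mul_assoc, ← Subgroup.coe_mul,
        mul_inv_cancel, Subgroup.coe_one, mul_one]
    rwa [this]⟩
  have h := Subgroup.pow_index_mem (H'.subgroupOf H) (⟨g, hg⟩ : H)
  rwa [Subgroup.mem_subgroupOf] at h

/-- the subgroup generated by `H'` and `g ^ 2` -/
def half (H' : Subgroup G) (g : G) : Subgroup G where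
  carrier := {x | ∃ h ∈ H', ∃ j : ℤ, x = h * g ^ (2 * j)}
  one_mem' := ⟨1, one_mem _, 0, by simp⟩
  mul_mem' := by
    rintro _ _ ⟨h, hh, j, rfl⟩ ⟨h', hh', j', rfl⟩
    refine ⟨h * h', mul_mem hh hh', j + j', ?_⟩
    rw [mul_add, zpow_add, mul_assoc, ← mul_assoc (g ^ (2 * j)), hc (g ^ (2 * j)) h', mul_assoc,
      mul_assoc]
  inv_mem' := by
    rintro _ ⟨h, hh, j, rfl⟩
    refine ⟨h⁻¹, inv_mem hh, -j, ?_⟩
    rw [mul_inv_rev, hc, mul_neg, zpow_neg]

omit [Finite G] in
lemma mem_half {H' : Subgroup G} {g x : G} :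
    x ∈ half hc H' g ↔ ∃ h ∈ H', ∃ j : ℤ, x = h * g ^ (2 * j) := Iff.rfl

include hc in
/-- odd powers of a generator are generators -/
lemma exists_of_odd {H' : Subgroup G} {g : G} {k : ℕ} (hpow : g ^ (2 ^ k) ∈ H') {x h : G}
    (hh : h ∈ H') {j : ℤ} (hj : Odd j) (hx : x = h * g ^ j) :
    ∃ u : ℤ, ∃ h' ∈ H', g = h' * x ^ u := by
  have hpowz : ∀ j : ℤ, g ^ ((2 : ℤ) ^ k * j) ∈ H' := by
    intro j
    rw [zpow_mul]
    apply zpow_mem
    exact_mod_cast hpow
  have hcop : IsCoprime j ((2 : ℤ) ^ k) := by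
    apply IsCoprime.pow_right
    rw [Int.isCoprime_iff_gcd_eq_one]
    rw [Int.gcd_comm]
    exact (Int.isCoprime_iff_gcd_eq_one.mp (Int.isCoprime_two_left.mpr hj))
  obtain ⟨u, v, huv⟩ := hcop
  have hcomm : x ^ u = h ^ u * g ^ (j * u) := by
    have hcm : Commute h (g ^ j) := hc _ _
    rw [hx, hcm.mul_zpow, ← zpow_mul]
  refine ⟨u, g ^ ((2 : ℤ) ^ k * v) * (h ^ u)⁻¹, ?_, ?_⟩
  · exact mul_mem (hpowz v) (inv_mem (zpow_mem hh u))
  · rw [hcomm, mul_assoc, inv_mul_cancel_left, ← zpow_add]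
    have : (2 : ℤ) ^ k * v + j * u = 1 := by linarith
    rw [this, zpow_one]

include hc in
/-- properties of the index two subgroup -/
lemma half_spec {k : ℕ} {H' H : Subgroup G} {g : G} (h0 : H' ≤ H) (hg : g ∈ H)
    (hgen : ∀ x ∈ H, ∃ h ∈ H', ∃ j : ℤ, x = h * g ^ j) (hidx : H'.relIndex H = 2 ^ (k + 1)) :
    H' ≤ half hc H' g ∧ half hc H' g ≤ H ∧ (half hc H' g).relIndex H = 2 := by
  have hpow : g ^ (2 ^ (k + 1)) ∈ H' := by
    have := zpow_mem_of_relIndex hc (H' := H') hg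
    rwa [hidx] at this
  have hgH1 : g ∉ half hc H' g := by
    rintro ⟨h, hh, j, hj⟩
    -- `g = h * g ^ (2 j)` implies `g ∈ H'`
    have h2 : g ∈ H' := by
      have h3 : h = g ^ (1 - 2 * j) := by
        rw [zpow_sub, zpow_one]
        rw [eq_mul_inv_iff_mul_eq]
        exact hj.symm
      obtain ⟨u, h', hh', h4⟩ := exists_of_odd hc hpow (x := h) (one_mem H') (j := 1 - 2 * j)
        ⟨-j, by ring⟩ (by rw [one_mul]; exact h3)
      rw [h4]
      exact mul_mem hh' (zpow_mem hh u)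
    have h5 : H ≤ H' := by
      intro x hx
      obtain ⟨h, hh, j, rfl⟩ := hgen x hx
      exact mul_mem hh (zpow_mem h2 j)
    rw [Subgroup.relIndex_eq_one.mpr h5] at hidx
    have : 1 < 2 ^ (k + 1) := Nat.one_lt_two_pow (Nat.succ_ne_zero k)
    omega
  have hle1 : H' ≤ half hc H' g := fun h hh => ⟨h, hh, 0, by simp⟩
  have hle2 : half hc H' g ≤ H := by
    rintro _ ⟨h, hh, j, rfl⟩
    exact mul_mem (h0 hh) (zpow_mem hg _)
  refine ⟨hle1, hle2, ?_⟩
  rw [Subgroup.relIndex_eq_two_iff_exists_notMem_and]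
  refine ⟨g, hg, hgH1, ?_⟩
  intro b hb
  obtain ⟨h, hh, j, rfl⟩ := hgen b hb
  rcases Int.even_or_odd' j with ⟨i, rfl | rfl⟩
  · exact Or.inr ⟨h, hh, i, rfl⟩
  · left
    refine ⟨h, hh, i + 1, ?_⟩
    rw [mul_assoc, ← zpow_add_one]
    congr 2
    ring

include hc in
lemma gen_of_inert {k : ℕ} {H' H : Subgroup G} {g : G} (hg : g ∈ H)
    (hgen : ∀ x ∈ H, ∃ h ∈ H', ∃ j : ℤ, x = h * g ^ j) (hidx : H'.relIndex H = 2 ^ k) {w : W}
    (hw : ¬ (stabilizer G w ⊓ H ≤ half hc H' g)) :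
    ∃ x ∈ stabilizer G w ⊓ H, ∀ y ∈ H, ∃ h ∈ H', ∃ i : ℤ, y = h * x ^ i := by
  have hpow : g ^ (2 ^ k) ∈ H' := by
    have := zpow_mem_of_relIndex hc (H' := H') hg
    rwa [hidx] at this
  rw [SetLike.not_le_iff_exists] at hw
  obtain ⟨x, hx, hx1⟩ := hw
  obtain ⟨hxT, hxH⟩ := Subgroup.mem_inf.mp hx
  obtain ⟨h, hh, j, hxj⟩ := hgen x hxH
  have hj : Odd j := by
    by_contra hj
    rw [Int.not_odd_iff_even] at hj
    obtain ⟨i, rfl⟩ := hj
    exact hx1 ⟨h, hh, i, by rw [hxj, two_mul]⟩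
  obtain ⟨u, h', hh', hgx⟩ := exists_of_odd hc hpow hh hj hxj
  refine ⟨x, hx, ?_⟩
  intro y hy
  obtain ⟨h2, hh2, i, hy2⟩ := hgen y hy
  have h3 : Commute h' (x ^ u) := hc _ _
  refine ⟨h2 * h' ^ i, mul_mem hh2 (zpow_mem hh' _), u * i, ?_⟩
  rw [hy2]
  conv_lhs => rw [hgx]
  rw [h3.mul_zpow, ← zpow_mul, mul_assoc]

include hc in
lemma fd_eq_of_gen {H' H₁ H : Subgroup G} (h1 : H' ≤ H₁) (h2 : H₁ ≤ H) {w : W} {x : G}
    (hx : x ∈ stabilizer G w ⊓ H) (hgen : ∀ y ∈ H, ∃ h ∈ H', ∃ i : ℤ, y = h * x ^ i) :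
    Sys.fd H' H₁ w = H'.relIndex H₁ := by
  have hall : H₁ ≤ H' ⊔ (stabilizer G w ⊓ H₁) := by
    intro y hy
    obtain ⟨h, hh, i, hy2⟩ := hgen y (h2 hy)
    have h6 : x ^ i ∈ stabilizer G w ⊓ H₁ := by
      refine Subgroup.mem_inf.mpr ⟨zpow_mem (Subgroup.mem_inf.mp hx).1 _, ?_⟩
      have : x ^ i = h⁻¹ * y := by rw [hy2, inv_mul_cancel_left]
      rw [this]
      exact mul_mem (inv_mem (h1 hh)) hy
    rw [hy2]
    exact mul_mem ((le_sup_left : H' ≤ _) hh)
      ((le_sup_right : stabilizer G w ⊓ H₁ ≤ _) h6)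
  unfold Sys.fd
  have hnorm : H'.Normal := ⟨fun n hn g => by rwa [hc g n, mul_inv_cancel_right]⟩
  rw [← Subgroup.relIndex_sup_left (stabilizer G w ⊓ H₁) H']
  have : H' ⊔ (stabilizer G w ⊓ H₁) = H₁ := le_antisymm (sup_le h1 inf_le_right) hall
  rw [this]

include hc in
/-- For a cyclic quotient of order `2 ^ k` everything is as in class field theory. -/
theorem good_of_cyclic
    (hQ : ∀ H₁ H : Subgroup G, H₁ ≤ H → H₁.relIndex H = 2 → S.Quad H₁ H) (k : ℕ) :
    ∀ (H' H : Subgroup G) (g : G), H' ≤ H → g ∈ H →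
      (∀ x ∈ H, ∃ h ∈ H', ∃ j : ℤ, x = h * g ^ j) → H'.relIndex H = 2 ^ k →
      Good S H' H (2 ^ k) := by
  induction k with
  | zero =>
    intro H' H g h0 hg hgen hidx
    have h1 : H ≤ H' := Subgroup.relIndex_eq_one.mp (by simpa using hidx)
    have hfd : ∀ w : W, Sys.fd H' H w = 1 := fun w =>
      Subgroup.relIndex_eq_one.mpr (inf_le_right.trans h1)
    have hs : ∀ w : W, s H w ∈ S.D H' H := fun w => by
      have := S.smul_mem_D H' H w
      rwa [hfd, one_smul] at this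
    refine ⟨?_, ?_⟩
    · rw [pow_zero, AddSubgroup.relIndex_eq_one, inv_eq_closure, AddSubgroup.closure_le]
      rintro _ ⟨w, rfl⟩
      exact hs w
    · intro w k
      rw [hfd]
      simp only [Nat.cast_one, one_dvd, iff_true]
      exact zsmul_mem (hs w) k
  | succ k ih =>
    intro H' H g h0 hg hgen hidx
    obtain ⟨hle1, hle2, hidx2⟩ := half_spec hc h0 hg hgen hidx
    have hidx1 : H'.relIndex (half hc H' g) = 2 ^ k := by
      have h3 := Subgroup.relIndex_mul_relIndex _ _ _ hle1 hle2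
      rw [hidx2, hidx, pow_succ] at h3
      exact Nat.eq_of_mul_eq_mul_right two_pos h3
    have hIH := ih H' (half hc H' g) (g ^ 2) hle1
      ⟨1, one_mem _, 1, by rw [one_mul, mul_one]; exact_mod_cast rfl⟩ (by
        rintro _ ⟨h, hh, j, rfl⟩
        refine ⟨h, hh, j, ?_⟩
        rw [zpow_mul, zpow_ofNat]) hidx1
    have hfin := good_step S hc hle2 hidx2 hle1 (pow_ne_zero k two_ne_zero)
      (hQ _ _ hle2 hidx2) hIH (by
        intro w hw
        obtain ⟨x, hx, hgx⟩ := gen_of_inert hc hg hgen hidx hw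
        rw [fd_eq_of_gen hc hle1 hle2 hx hgx, hidx1])
    rw [pow_succ, mul_comm]
    exact hfin

end Cyc

end Fermat.Agent.LTF.Art
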