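import Fermat.Agent.LTF.ArtA

/-!
# The cubic Artin character of an unramified cyclic cubic extension
-/

set_option autoImplicit false

namespace Fermat.Agent.LTF.ArtB

open scoped nonZeroDivisors NumberField
open NumberField ArtA

variable {K M : Type} [Field K] [NumberField K] [Field M] [NumberField M] [Algebra K M]

/-- the action of the Galois group on the ring of integers -/
noncomputable abbrev gr (τ : Gal(M/K)) : 𝓞 M ≃ₐ[𝓞 K] 𝓞 M := galRestrict (𝓞 K) K M (𝓞 M) τ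

lemma map_eq_of_inv {I : Ideal (𝓞 M)}
    (hI : ∀ τ : Gal(M/K), ∀ x ∈ I, gr τ x ∈ I) (τ : Gal(M/K)) : I.map (gr τ) = I := by
  apply le_antisymm
  · rw [Ideal.map_le_iff_le_comap]
    intro x hx
    exact hI τ x hx
  · intro x hx
    have h1 := hI τ⁻¹ x hx
    have h2 : gr τ (gr τ⁻¹ x) = x := by
      rw [← AlgEquiv.mul_apply, gr, gr, ← map_mul, mul_inv_cancel, map_one, AlgEquiv.one_apply]
    rw [← h2]
    exact Ideal.mem_map_of_mem _ h1

lemma inv_of_map_eq {I : Ideal (𝓞 M)} {τ : Gal(M/K)} (h : I.map (gr τ) = I) :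
    ∀ x ∈ I, gr τ x ∈ I := by
  intro x hx
  have := Ideal.mem_map_of_mem (gr τ) hx
  rwa [h] at this

lemma inv_all {I : Ideal (𝓞 M)} {s : Gal(M/K)} (hs : ∀ x, x ∈ Subgroup.zpowers s)
    (h : I.map (gr s) = I) : ∀ τ : Gal(M/K), ∀ x ∈ I, gr τ x ∈ I := by
  intro τ
  obtain ⟨n, rfl⟩ := (mem_powers_iff_mem_zpowers (G := Gal(M/K))).mpr (hs τ)
  intro x hx
  induction n with
  | zero => simpa using hx
  | succ n ih =>
    simp only at ih ⊢
    rw [pow_succ', gr, map_mul, AlgEquiv.mul_apply]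
    exact inv_of_map_eq h _ ih

/-- invariant ideals of an unramified Galois extension are extended. -/
theorem exists_of_inv [IsGalois K M]
    (hunr : ∀ P : Ideal (𝓞 M), P.IsPrime → P ≠ ⊥ → P.ramificationIdx (𝓞 K) = 1)
    (I : Ideal (𝓞 M)) : I ≠ ⊥ → (∀ τ : Gal(M/K), ∀ x ∈ I, gr τ x ∈ I) →
      ∃ J : Ideal (𝓞 K), J.map (algebraMap (𝓞 K) (𝓞 M)) = I := by
  refine IsNoetherian.induction (R := 𝓞 M) (M := 𝓞 M)
    (P := fun I : Ideal (𝓞 M) => I ≠ ⊥ → (∀ τ : Gal(M/K), ∀ x ∈ I, gr τ x ∈ I) →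
      ∃ J : Ideal (𝓞 K), J.map (algebraMap (𝓞 K) (𝓞 M)) = I) ?_ I
  clear I
  intro I IH hI0 hinv
  by_cases htop : I = ⊤
  · exact ⟨⊤, by rw [htop, Ideal.map_top]⟩
  obtain ⟨P, hP, hIP⟩ := Ideal.exists_le_maximal I htop
  have hP0 : P ≠ ⊥ := by
    rintro rfl
    exact hI0 (le_bot_iff.mp hIP)
  let p : Ideal (𝓞 K) := P.under (𝓞 K)
  have hp : p.IsMaximal := Ideal.isMaximal_comap_of_isIntegral_of_isMaximal P
  have hPp : P.LiesOver p := ⟨rfl⟩
  have hp0 : p ≠ ⊥ := by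
    intro h0
    apply hP0
    have : P.LiesOver (⊥ : Ideal (𝓞 K)) := h0 ▸ hPp
    exact Ideal.eq_bot_of_liesOver_bot (𝓞 K) P
  -- `p` divides `I`
  have hdvd : p.map (algebraMap (𝓞 K) (𝓞 M)) ∣ I := by
    rw [Ideal.map_algebraMap_eq_finsetProd_pow (R := 𝓞 M) hp0]
    have h1 : ∏ Q ∈ p.primesOver (𝓞 M), Q ^ Q.ramificationIdx (𝓞 K) =
        ∏ Q ∈ p.primesOver (𝓞 M), Q := by
      refine Finset.prod_congr rfl fun Q hQ => ?_
      rw [Set.mem_toFinset] at hQ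
      have : Q ≠ ⊥ := by
        intro h0
        apply hp0
        have := hQ.2.over
        rw [this, h0]
        exact Ideal.under_bot (𝓞 K) (𝓞 M)
      rw [hunr Q hQ.1 this, pow_one]
    rw [h1]
    refine Finset.prod_primes_dvd _ ?_ ?_
    · intro Q hQ
      rw [Set.mem_toFinset] at hQ
      have h0 : Q ≠ ⊥ := by
        intro h0
        apply hp0
        have := hQ.2.over
        rw [this, h0]
        exact Ideal.under_bot (𝓞 K) (𝓞 M)
      have := hQ.1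
      exact Ideal.prime_of_isPrime h0 this
    · intro Q hQ
      rw [Set.mem_toFinset] at hQ
      obtain ⟨τ, hτ⟩ := Ideal.exists_comap_galRestrict_eq (𝓞 K) K M (𝓞 M) (p := p)
        (P₁ := P) (P₂ := Q) ⟨hP.isPrime, hPp⟩ hQ
      rw [Ideal.dvd_iff_le]
      intro x hx
      rw [← hτ]
      exact hIP (hinv τ x hx)
  obtain ⟨I', hI'⟩ := hdvd
  have hpm0 : p.map (algebraMap (𝓞 K) (𝓞 M)) ≠ ⊥ := by
    intro h0
    rw [h0] at hI'
    exact hI0 (by rw [hI', Ideal.bot_mul])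
  have hI'0 : I' ≠ ⊥ := by
    rintro rfl
    exact hI0 (by rw [hI', Ideal.mul_bot])
  have hlt : I < I' := by
    refine lt_of_le_of_ne ?_ ?_
    · rw [hI']; exact Ideal.mul_le_right
    · intro h
      have h2 : p.map (algebraMap (𝓞 K) (𝓞 M)) * I' = 1 * I' := by rw [← hI', one_mul, h]
      have h3 := mul_right_cancel₀ (by simpa using hI'0) h2
      have h4 : p.map (algebraMap (𝓞 K) (𝓞 M)) ≤ P := Ideal.map_le_iff_le_comap.mpr le_rfl
      rw [h3, Ideal.one_eq_top] at h4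
      exact hP.ne_top (top_le_iff.mp h4)
  have hinv' : ∀ τ : Gal(M/K), ∀ x ∈ I', gr τ x ∈ I' := by
    intro τ
    apply inv_of_map_eq
    have h1 := map_eq_of_inv hinv τ
    rw [hI', Ideal.map_mul] at h1
    have h2 : (p.map (algebraMap (𝓞 K) (𝓞 M))).map (gr τ) = p.map (algebraMap (𝓞 K) (𝓞 M)) := by
      change Ideal.map (gr τ : 𝓞 M →+* 𝓞 M) _ = _
      rw [Ideal.map_map]
      congr 1
      ext x
      simp
    rw [h2] at h1
    exact mul_left_cancel₀ (by simpa using hpm0) h1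
  obtain ⟨J, hJ⟩ := IH I' hlt hI'0 hinv'
  exact ⟨p * J, by rw [Ideal.map_mul, hJ, ← hI']⟩

section Units

/-- not every unit of a number field of degree at least three is a cube -/
theorem exists_unit_not_cube (hd : 3 ≤ Module.finrank ℚ M) :
    ∃ u : (𝓞 M)ˣ, ∀ w : (𝓞 M)ˣ, w ^ 3 ≠ u := by
  have hr : 0 < NumberField.Units.rank M := by
    unfold NumberField.Units.rank
    have h1 := InfinitePlace.card_eq_nrRealPlaces_add_nrComplexPlaces M
    have h2 := InfinitePlace.card_add_two_mul_card_eq_rank M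
    omega
  by_contra hcon
  push Not at hcon
  have hsurj : (⊤ : Submodule ℤ (Additive (𝓞 M)ˣ)) ≤ Ideal.span {(3 : ℤ)} • ⊤ := by
    intro x _
    obtain ⟨w, hw⟩ := hcon x.toMul
    have h1 : x = (3 : ℤ) • Additive.ofMul w := by
      rw [← ofMul_zpow]
      apply Additive.toMul.injective
      change x.toMul = w ^ (3:ℤ)
      exact_mod_cast hw.symm
    rw [h1]
    exact Submodule.smul_mem_smul (Ideal.mem_span_singleton_self 3) Submodule.mem_top
  obtain ⟨r, hr1, hr2⟩ := Submodule.exists_sub_one_mem_and_smul_eq_zero_of_fg_of_le_smul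
    _ ⊤ Module.Finite.fg_top hsurj
  have hr0 : r ≠ 0 := by
    rintro rfl
    rw [Ideal.mem_span_singleton] at hr1
    omega
  have h0 : Module.finrank ℤ (Additive (𝓞 M)ˣ) = 0 := by
    rw [Module.finrank_eq_zero_iff]
    intro x
    exact ⟨r, hr0, hr2 x Submodule.mem_top⟩
  rw [NumberField.Units.finrank_eq] at h0
  omega

/-- group theory: if all elements of norm one are of the form `w / s w` then all elements are cubes. -/
lemma cube_of_h90 {U : Type*} [CommGroup U] (s : U →* U)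
    (hN : ∀ w : U, (w * s w * s (s w)) ^ 2 = 1 ∧ s (w * s w * s (s w)) = w * s w * s (s w))
    (h90 : ∀ η : U, η * s η * s (s η) = 1 → ∃ w, η * s w = w) (u : U) :
    ∃ w : U, w ^ 3 = u := by
  have key : ∀ u : U, ∃ e w : U, e ^ 2 = 1 ∧ s e = e ∧ u = e * w * (s w)⁻¹ := by
    intro u
    obtain ⟨h1, h2⟩ := hN u
    obtain ⟨e, he⟩ : ∃ e, e = u * s u * s (s u) := ⟨_, rfl⟩
    rw [← he] at h1 h2
    have h3 : e⁻¹ = e := by
      rw [inv_eq_iff_mul_eq_one, ← pow_two, h1]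
    obtain ⟨w, hw⟩ := h90 (e * u) (by
      rw [map_mul, map_mul, h2, h2]
      calc e * u * (e * s u) * (e * s (s u)) = e ^ 2 * e * (u * s u * s (s u)) := by
            rw [pow_two]; simp only [mul_assoc, mul_left_comm, mul_comm]
        _ = 1 := by rw [← he, h1, one_mul, ← pow_two, h1])
    refine ⟨e, w, h1, h2, ?_⟩
    have h4 : u = e⁻¹ * w * (s w)⁻¹ := by
      rw [eq_mul_inv_iff_mul_eq, eq_inv_mul_iff_mul_eq, ← mul_assoc, hw]
    rw [h4, h3]
  obtain ⟨e, w, he, hse, hw⟩ := key u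
  obtain ⟨e', w', he', hse', hw'⟩ := key w
  obtain ⟨hn1, hn2⟩ := hN w'
  have h3 : e'⁻¹ = e' := by rw [inv_eq_iff_mul_eq_one, ← pow_two, he']
  refine ⟨e * (w' * s w' * s (s w')) * (s w')⁻¹, ?_⟩
  obtain ⟨n, hn⟩ : ∃ n, n = w' * s w' * s (s w') := ⟨_, rfl⟩
  rw [← hn] at hn1 ⊢
  have h5 : s (s w') = n * w'⁻¹ * (s w')⁻¹ := by
    rw [hn, eq_mul_inv_iff_mul_eq, eq_mul_inv_iff_mul_eq]
    simp only [mul_assoc, mul_left_comm, mul_comm]
  have h6 : u = e * n * ((s w')⁻¹) ^ 3 := by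
    rw [hw, hw', map_mul, map_mul, map_inv, hse', h5]
    simp only [mul_inv_rev, inv_inv, h3]
    have h7 : e' * e' = 1 := by rw [← pow_two, he']
    calc e * (e' * w' * (s w')⁻¹) * (n * w'⁻¹ * (s w')⁻¹ * ((s w')⁻¹ * e'))
        = (e' * e') * (w' * w'⁻¹) * (e * n * ((s w')⁻¹ * ((s w')⁻¹ * (s w')⁻¹))) := by
          simp only [mul_assoc, mul_left_comm, mul_comm]
      _ = _ := by
          rw [h7, mul_inv_cancel, one_mul, one_mul]
          congr 1
          rw [pow_succ', pow_two]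
  rw [h6, mul_pow, mul_pow]
  congr 1
  have e3 : e ^ 3 = e := by rw [pow_succ, he, one_mul]
  have n3 : n ^ 3 = n := by rw [pow_succ, hn1, one_mul]
  rw [e3, n3]

end Units

section Main

variable [IsGalois K M]

lemma prod_gal {s : Gal(M/K)} (hs : ∀ x, x ∈ Subgroup.zpowers s)
    (hdeg : Module.finrank K M = 3) (x : M) :
    algebraMap K M (Algebra.norm K x) = x * s x * s (s x) := by
  classical
  rw [Algebra.norm_eq_prod_automorphisms]
  have hord : orderOf s = 3 := by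
    rw [orderOf_eq_card_of_forall_mem_zpowers hs, IsGalois.card_aut_eq_finrank, hdeg]
  have himg := IsCyclic.image_range_orderOf hs
  rw [hord] at himg
  rw [← himg, Finset.prod_image]
  · rw [Finset.prod_range_succ, Finset.prod_range_succ, Finset.prod_range_one]
    simp [pow_two, AlgEquiv.mul_apply]
  · intro i hi j hj hij
    have := pow_injOn_Iio_orderOf (x := s)
    rw [hord] at this
    exact this (by simpa using hi) (by simpa using hj) hij

lemma coe_gr (τ : Gal(M/K)) (x : 𝓞 M) : ((gr τ x : 𝓞 M) : M) = τ (x : M) :=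
  algebraMap_galRestrict_apply (𝓞 K) τ x

lemma intNorm_eq {s : Gal(M/K)} (hs : ∀ x, x ∈ Subgroup.zpowers s)
    (hdeg : Module.finrank K M = 3) (w : 𝓞 M) :
    algebraMap (𝓞 K) (𝓞 M) (Algebra.intNorm (𝓞 K) (𝓞 M) w) = w * gr s w * gr s (gr s w) := by
  apply FaithfulSMul.algebraMap_injective (𝓞 M) M
  have h1 := prod_gal hs hdeg (w : M)
  rw [map_mul, map_mul]
  change algebraMap (𝓞 M) M _ = (w : M) * ((gr s w : 𝓞 M) : M) * ((gr s (gr s w) : 𝓞 M) : M)
  rw [coe_gr, coe_gr, coe_gr, ← h1, ← IsScalarTower.algebraMap_apply,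
    IsScalarTower.algebraMap_apply (𝓞 K) K M, Algebra.algebraMap_intNorm (L := M)]

/-- the unit group automorphism -/
noncomputable abbrev su (s : Gal(M/K)) : (𝓞 M)ˣ →* (𝓞 M)ˣ := Units.map (gr s : 𝓞 M →* 𝓞 M)

omit [IsGalois K M] in
lemma intNorm_unit (hU : ∀ u : (𝓞 K)ˣ, u = 1 ∨ u = -1) (w : (𝓞 M)ˣ) :
    Algebra.intNorm (𝓞 K) (𝓞 M) (w : 𝓞 M) = 1 ∨ Algebra.intNorm (𝓞 K) (𝓞 M) (w : 𝓞 M) = -1 := by
  rcases hU (Units.map (Algebra.intNorm (𝓞 K) (𝓞 M)) w) with h | h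
  · left; simpa using congrArg Units.val h
  · right; simpa using congrArg Units.val h

/-- capitulation: some non-principal ideal of `K` becomes principal in `M` -/
theorem exists_capitulation [IsCyclic Gal(M/K)] {s : Gal(M/K)} (hs : ∀ x, x ∈ Subgroup.zpowers s)
    (hdeg : Module.finrank K M = 3) (hU : ∀ u : (𝓞 K)ˣ, u = 1 ∨ u = -1)
    (hunr : ∀ P : Ideal (𝓞 M), P.IsPrime → P ≠ ⊥ → P.ramificationIdx (𝓞 K) = 1) :
    ∃ d : ClassGroup (𝓞 K), d ≠ 1 ∧ ClassGroup.extendedHom (𝓞 K) (𝓞 M) d = 1 := by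
  by_contra hcon
  push Not at hcon
  have hd : 3 ≤ Module.finrank ℚ M := by
    rw [← Module.finrank_mul_finrank ℚ K M, hdeg]
    have : 0 < Module.finrank ℚ K := Module.finrank_pos
    omega
  obtain ⟨u, hu⟩ := exists_unit_not_cube (M := M) hd
  obtain ⟨w, hw⟩ := cube_of_h90 (su s) (by
    intro w
    have h1 := intNorm_eq hs hdeg (w : 𝓞 M)
    have h2 : ((w * su s w * su s (su s w) : (𝓞 M)ˣ) : 𝓞 M) =
        algebraMap (𝓞 K) (𝓞 M) (Algebra.intNorm (𝓞 K) (𝓞 M) (w : 𝓞 M)) := by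
      rw [h1]; rfl
    rcases intNorm_unit hU w with h | h
    · rw [h, map_one] at h2
      have h3 : w * su s w * su s (su s w) = 1 := Units.ext h2
      rw [h3]
      exact ⟨one_pow 2, map_one _⟩
    · rw [h, map_neg, map_one] at h2
      have h3 : w * su s w * su s (su s w) = -1 := Units.ext h2
      rw [h3]
      refine ⟨by simp, Units.ext ?_⟩
      change gr s (-1) = -1
      rw [map_neg, map_one]) (by
    intro η hη
    have h1 := intNorm_eq hs hdeg (η : 𝓞 M)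
    have h2 : ((η * su s η * su s (su s η) : (𝓞 M)ˣ) : 𝓞 M) =
        algebraMap (𝓞 K) (𝓞 M) (Algebra.intNorm (𝓞 K) (𝓞 M) (η : 𝓞 M)) := by
      rw [h1]; rfl
    rw [hη] at h2
    have h3 : Algebra.norm K (algebraMap (𝓞 M) M (η : 𝓞 M)) = 1 := by
      rw [← Algebra.algebraMap_intNorm (A := 𝓞 K) (K := K) (L := M) (B := 𝓞 M)]
      have : Algebra.intNorm (𝓞 K) (𝓞 M) (η : 𝓞 M) = 1 := by
        apply FaithfulSMul.algebraMap_injective (𝓞 K) (𝓞 M)
        rw [← h2, map_one]; rfl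
      rw [this, map_one]
    obtain ⟨b, hb0, hb⟩ := groupCohomology.exists_mul_galRestrict_of_norm_eq_one
      (A := 𝓞 K) (B := 𝓞 M) hs h3
    -- the ideal `(b)` is invariant
    have hmap : (Ideal.span {b}).map (gr s) = Ideal.span {b} := by
      rw [Ideal.map_span, Set.image_singleton]
      conv_rhs => rw [← hb]
      rw [← Ideal.span_singleton_mul_span_singleton,
        Ideal.span_singleton_eq_top.mpr η.isUnit, Ideal.top_mul]
    obtain ⟨J, hJ⟩ := exists_of_inv hunr (Ideal.span {b})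
      (by rwa [Ne, Ideal.span_singleton_eq_bot]) (inv_all hs hmap)
    have hJ0 : J ≠ ⊥ := by
      rintro rfl
      rw [Ideal.map_bot] at hJ
      exact hb0 (Ideal.span_singleton_eq_bot.mp hJ.symm)
    have hJm : J ∈ (Ideal (𝓞 K))⁰ := mem_nonZeroDivisors_iff_ne_zero.mpr hJ0
    have hJ1 : ClassGroup.mk0 ⟨J, hJm⟩ = 1 := by
      by_contra hne
      apply hcon _ hne
      rw [ClassGroup.extendedHom_mk0, ClassGroup.mk0_eq_one_iff]
      exact ⟨⟨b, hJ⟩⟩
    rw [ClassGroup.mk0_eq_one_iff] at hJ1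
    obtain ⟨β, hβ⟩ := hJ1.principal
    have hβ' : J = Ideal.span {β} := hβ
    rw [hβ', Ideal.map_span, Set.image_singleton, Ideal.span_singleton_eq_span_singleton] at hJ
    obtain ⟨w, hw⟩ := hJ
    refine ⟨w, Units.ext ?_⟩
    change (η : 𝓞 M) * gr s (w : 𝓞 M) = w
    have hβ0 : algebraMap (𝓞 K) (𝓞 M) β ≠ 0 := by
      intro h0
      rw [h0, zero_mul] at hw
      exact hb0 hw.symm
    apply mul_left_cancel₀ hβ0
    rw [hw, ← mul_assoc, mul_comm _ (η : 𝓞 M), mul_assoc]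
    have : algebraMap (𝓞 K) (𝓞 M) β * gr s (w : 𝓞 M) = gr s b := by
      rw [← hw, map_mul, AlgEquiv.commutes]
    rw [this, hb]) u
  exact hu w hw

/-- fixed classes come from below -/
theorem exists_of_fixed [IsCyclic Gal(M/K)] {s : Gal(M/K)} (hs : ∀ x, x ∈ Subgroup.zpowers s)
    (hdeg : Module.finrank K M = 3) (hU : ∀ u : (𝓞 K)ˣ, u = 1 ∨ u = -1)
    (hunr : ∀ P : Ideal (𝓞 M), P.IsPrime → P ≠ ⊥ → P.ramificationIdx (𝓞 K) = 1)
    (c : ClassGroup (𝓞 M)) (hc : clAut (gr s) c = c) :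
    ∃ d : ClassGroup (𝓞 K), ClassGroup.extendedHom (𝓞 K) (𝓞 M) d = c := by
  obtain ⟨I, rfl⟩ := ClassGroup.mk0_surjective c
  rw [clAut_mk0] at hc
  obtain ⟨x, y, hx, hy, e⟩ := ClassGroup.mk0_eq_mk0_iff.mp hc
  have hI0 : (I : Ideal (𝓞 M)) ≠ 0 := mem_nonZeroDivisors_iff_ne_zero.mp I.2
  -- norms
  have e1 := congrArg (Ideal.relNorm (𝓞 K)) e
  rw [map_mul, map_mul, Ideal.relNorm_singleton, Ideal.relNorm_singleton] at e1
  have e2 : Ideal.relNorm (𝓞 K) ((autI (gr s) I : (Ideal (𝓞 M))⁰) : Ideal (𝓞 M)) =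
      Ideal.relNorm (𝓞 K) (I : Ideal (𝓞 M)) := Ideal.relNorm_map_algEquiv (gr s) (I : Ideal (𝓞 M))
  rw [e2] at e1
  have e3 := mul_right_cancel₀ (by
    rw [Ne, Ideal.zero_eq_bot, Ideal.relNorm_eq_bot_iff]; exact hI0) e1
  rw [Ideal.span_singleton_eq_span_singleton] at e3
  obtain ⟨u, hu⟩ := e3
  -- replace `x` by `u x`
  obtain ⟨x', hx', hxI, hnx⟩ : ∃ x' : 𝓞 M, x' ≠ 0 ∧ Ideal.span {x'} = Ideal.span {x} ∧
      Algebra.intNorm (𝓞 K) (𝓞 M) x' = Algebra.intNorm (𝓞 K) (𝓞 M) y := by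
    rcases hU u with rfl | rfl
    · exact ⟨x, hx, rfl, by simpa using hu⟩
    · refine ⟨-x, neg_ne_zero.mpr hx, ?_, ?_⟩
      · rw [Ideal.span_singleton_neg]
      · rw [← hu]
        apply FaithfulSMul.algebraMap_injective (𝓞 K) (𝓞 M)
        rw [map_mul, intNorm_eq hs hdeg, intNorm_eq hs hdeg]
        simp only [map_neg, Units.val_neg, Units.val_one, map_one]
        ring
  -- Hilbert 90
  have hx'M : (x' : M) ≠ 0 := by simpa using hx'
  have hyM : (y : M) ≠ 0 := by simpa using hy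
  have hn1 : Algebra.norm K ((y : M) / (x' : M)) = 1 := by
    have h1 : Algebra.norm K (y : M) = Algebra.norm K (x' : M) := by
      have e1 := Algebra.algebraMap_intNorm (A := 𝓞 K) (K := K) (L := M) (B := 𝓞 M) y
      have e2 := Algebra.algebraMap_intNorm (A := 𝓞 K) (K := K) (L := M) (B := 𝓞 M) x'
      rw [hnx] at e2
      exact e1.symm.trans e2
    rw [div_eq_mul_inv, map_mul, Algebra.norm_inv, h1, mul_inv_cancel₀]
    rwa [Ne, Algebra.norm_eq_zero_iff]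
  obtain ⟨z, hz⟩ := groupCohomology.exists_div_of_norm_eq_one hs hn1
  have hsz : s (z : M) ≠ 0 := by
    rw [Ne, map_eq_zero_iff _ s.injective]; exact z.ne_zero
  rw [div_eq_div_iff hsz hx'M] at hz
  obtain ⟨m, hm0, hm⟩ := (IsAlgebraic.exists_integral_multiple (R := ℤ)
    (show IsAlgebraic ℤ (z : M) from
      (IsFractionRing.isAlgebraic_iff ℤ ℚ M).mpr (Algebra.IsAlgebraic.isAlgebraic (z : M))))
  let b : 𝓞 M := ⟨m • (z : M), hm⟩
  have hbM : (b : M) = m • (z : M) := rfl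
  have hb0 : b ≠ 0 := by
    intro h0
    have : (b : M) = 0 := by rw [h0]; rfl
    rw [hbM, smul_eq_zero] at this
    exact this.elim hm0 z.ne_zero
  have hbe : y * gr s b = x' * b := by
    apply FaithfulSMul.algebraMap_injective (𝓞 M) M
    rw [map_mul, map_mul]
    change (y : M) * ((gr s b : 𝓞 M) : M) = (x' : M) * (b : M)
    rw [coe_gr, hbM, map_zsmul, mul_smul_comm, mul_smul_comm]
    congr 1
    rw [mul_comm (x' : M), hz]
  have hbm : Ideal.span {b} ∈ (Ideal (𝓞 M))⁰ := span_mem hb0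
  let I' : (Ideal (𝓞 M))⁰ := ⟨Ideal.span {b}, hbm⟩ * I
  have hI'c : (I' : Ideal (𝓞 M)) = Ideal.span {b} * (I : Ideal (𝓞 M)) := rfl
  have hmap : (I' : Ideal (𝓞 M)).map (gr s) = I' := by
    have h1 : (autI (gr s) I : Ideal (𝓞 M)) = (I : Ideal (𝓞 M)).map (gr s) := rfl
    rw [hI'c, Ideal.map_mul, Ideal.map_span, Set.image_singleton]
    have hx0 : Ideal.span {x'} ≠ 0 := by
      rw [Ideal.zero_eq_bot, Ne, Ideal.span_singleton_eq_bot]; exact hx'
    apply mul_left_cancel₀ hx0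
    rw [h1, ← hxI] at e
    rw [mul_left_comm, e, ← mul_assoc, ← mul_assoc, Ideal.span_singleton_mul_span_singleton,
      Ideal.span_singleton_mul_span_singleton, mul_comm (gr s b), hbe]
  obtain ⟨J, hJ⟩ := exists_of_inv hunr (I' : Ideal (𝓞 M))
    (mem_nonZeroDivisors_iff_ne_zero.mp I'.2) (inv_all hs hmap)
  have hJ0 : J ≠ ⊥ := by
    rintro rfl
    rw [Ideal.map_bot] at hJ
    exact mem_nonZeroDivisors_iff_ne_zero.mp I'.2 hJ.symm
  refine ⟨ClassGroup.mk0 ⟨J, mem_nonZeroDivisors_iff_ne_zero.mpr hJ0⟩, ?_⟩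
  rw [ClassGroup.extendedHom_mk0, ClassGroup.mk0_eq_mk0_iff]
  refine ⟨1, b, one_ne_zero, hb0, ?_⟩
  rw [Ideal.span_singleton_one, Ideal.top_mul]
  exact hJ

/-- **The cubic class character of an unramified cyclic cubic extension.** -/
theorem exists_psi (hdeg : Module.finrank K M = 3) (hU : ∀ u : (𝓞 K)ˣ, u = 1 ∨ u = -1)
    (hunr : ∀ P : Ideal (𝓞 M), P.IsPrime → P ≠ ⊥ → P.ramificationIdx (𝓞 K) = 1) :
    ∃ ψ : ClassGroup (𝓞 K) →* Multiplicative (ZMod 3), ψ ≠ 1 ∧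
      ∀ I : (Ideal (𝓞 M))⁰, ψ (ClassGroup.mk0 (relNorm0 (A := 𝓞 K) I)) = 1 := by
  have hcard : Nat.card Gal(M/K) = 3 := by rw [IsGalois.card_aut_eq_finrank, hdeg]
  have : Fact (Nat.Prime 3) := ⟨Nat.prime_three⟩
  have hcyc : IsCyclic Gal(M/K) := isCyclic_of_prime_card hcard
  obtain ⟨s, hs⟩ := IsCyclic.exists_generator (α := Gal(M/K))
  have h1 := exists_not_mem_range (clAut (gr s)) (clNorm (A := 𝓞 K) (B := 𝓞 M))
    (ClassGroup.extendedHom (𝓞 K) (𝓞 M)) (clNorm_clAut (gr s))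
    (exists_of_fixed hs hdeg hU hunr) (exists_capitulation hs hdeg hU hunr)
  obtain ⟨ψ, hψ, hψ2⟩ := exists_cubic_character (clNorm (A := 𝓞 K) (B := 𝓞 M)).range h1 (by
    intro x
    refine ⟨ClassGroup.extendedHom (𝓞 K) (𝓞 M) x, ?_⟩
    rw [clNorm_extended]
    congr 1
    rw [← hdeg]
    exact (IsFractionRing.finrank_eq (𝓞 K) K (𝓞 M) M).symm)
  exact ⟨ψ, hψ, fun I => hψ2 _ ⟨ClassGroup.mk0 I, clNorm_mk0 I⟩⟩

/-- in particular `ψ` kills the primes with residue degree one. -/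
theorem exists_psi' (hdeg : Module.finrank K M = 3) (hU : ∀ u : (𝓞 K)ˣ, u = 1 ∨ u = -1)
    (hunr : ∀ P : Ideal (𝓞 M), P.IsPrime → P ≠ ⊥ → P.ramificationIdx (𝓞 K) = 1) :
    ∃ ψ : ClassGroup (𝓞 K) →* Multiplicative (ZMod 3), ψ ≠ 1 ∧
      ∀ (p : (Ideal (𝓞 K))⁰) (P : Ideal (𝓞 M)), (p : Ideal (𝓞 K)).IsMaximal → P.IsMaximal →
        P.LiesOver (p : Ideal (𝓞 K)) → P.inertiaDeg (𝓞 K) = 1 → ψ (ClassGroup.mk0 p) = 1 := by
  obtain ⟨ψ, hψ, h⟩ := exists_psi hdeg hU hunr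
  refine ⟨ψ, hψ, ?_⟩
  intro p P hp hP hPp hf
  have hP0 : P ≠ ⊥ := by
    intro h0
    have h1 := hPp.over
    rw [h0, Ideal.under_bot (𝓞 K) (𝓞 M)] at h1
    exact mem_nonZeroDivisors_iff_ne_zero.mp p.2 h1
  have h2 := h ⟨P, mem_nonZeroDivisors_iff_ne_zero.mpr hP0⟩
  have h3 : relNorm0 (A := 𝓞 K) ⟨P, mem_nonZeroDivisors_iff_ne_zero.mpr hP0⟩ = p := by
    apply Subtype.ext
    change Ideal.relNorm (𝓞 K) P = _
    rw [Ideal.relNorm_eq_pow_of_isMaximal P (p : Ideal (𝓞 K)), hf, pow_one]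
  rwa [h3] at h2

end Main

end Fermat.Agent.LTF.ArtB
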