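import Mathlib

/-!
# The ring of integers of `ℚ(√-N)`, `N` squarefree and even, is `ℤ[√-N]`
-/

namespace Fermat.Agent.LTF.QuadInt

open NumberField Polynomial

variable {K : Type*} [Field K] [NumberField K]

/-- `K = ℚ(√-N)` with `N` squarefree and even; `s` is a square root of `-N` -/
structure IsQF (N : ℕ) (s : 𝓞 K) : Prop where
  sq : s ^ 2 = -(N : 𝓞 K)
  deg : Module.finrank ℚ K = 2
  sqf : Squarefree N
  even : 2 ∣ N

namespace IsQF

variable {N : ℕ} {s : 𝓞 K} (h : IsQF N s)
include h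

lemma pos : 0 < N := Nat.pos_of_ne_zero h.sqf.ne_zero

lemma sqK : (s : K) ^ 2 = -(N : K) := by
  have := congrArg (algebraMap (𝓞 K) K) h.sq
  simpa using this

lemma not_rat (r : ℚ) : (s : K) ≠ algebraMap ℚ K r := by
  intro hr
  have h1 := h.sqK
  rw [hr, ← map_pow] at h1
  have h2 : algebraMap ℚ K (r ^ 2) = algebraMap ℚ K (-(N : ℚ)) := by
    rw [h1]; simp
  have h3 := (algebraMap ℚ K).injective h2
  have h4 : (0 : ℚ) < N := by exact_mod_cast h.pos
  nlinarith [sq_nonneg r]

lemma linInd (u v : ℚ) (huv : algebraMap ℚ K u + algebraMap ℚ K v * (s : K) = 0) :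
    u = 0 ∧ v = 0 := by
  by_cases hv : v = 0
  · subst hv
    simp at huv
    exact ⟨huv, rfl⟩
  · exfalso
    apply h.not_rat (-u / v)
    have hv' : algebraMap ℚ K v ≠ 0 := by
      intro h0
      exact hv ((algebraMap ℚ K).injective (by rw [h0, map_zero]))
    rw [map_div₀, map_neg, eq_div_iff hv']
    linear_combination huv

lemma intInd (u v : ℤ) (huv : (u : 𝓞 K) + v * s = 0) : u = 0 ∧ v = 0 := by
  have h1 := congrArg (algebraMap (𝓞 K) K) huv
  have h2 : algebraMap ℚ K (u : ℚ) + algebraMap ℚ K (v : ℚ) * (s : K) = 0 := by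
    simpa using h1
  obtain ⟨h3, h4⟩ := h.linInd _ _ h2
  exact ⟨by exact_mod_cast h3, by exact_mod_cast h4⟩

lemma int_ext (u v u' v' : ℤ) (huv : (u : 𝓞 K) + v * s = u' + v' * s) : u = u' ∧ v = v' := by
  have := h.intInd (u - u') (v - v') (by push_cast; linear_combination huv)
  omega

lemma exists_rat (x : K) : ∃ u v : ℚ, x = algebraMap ℚ K u + algebraMap ℚ K v * (s : K) := by
  have hli : LinearIndependent ℚ ![(1 : K), (s : K)] := by
    rw [LinearIndependent.pair_iff]
    intro u v huv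
    apply h.linInd
    rw [← huv, Algebra.smul_def, Algebra.smul_def, mul_one]
  have hcard : Fintype.card (Fin 2) = Module.finrank ℚ K := by rw [h.deg]; rfl
  let b := basisOfLinearIndependentOfCardEqFinrank hli hcard
  refine ⟨b.repr x 0, b.repr x 1, ?_⟩
  have h1 := b.sum_repr x
  rw [Fin.sum_univ_two] at h1
  have h2 : ∀ i, b i = ![(1 : K), (s : K)] i := by
    intro i
    simp [b]
  rw [h2, h2, Algebra.smul_def, Algebra.smul_def] at h1
  simpa using h1.symm

omit h in
lemma int_of_sq {N : ℕ} (hN : Squarefree N) (w : ℚ) (z : ℤ) (hw : (N : ℚ) * w ^ 2 = z) :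
    ∃ t : ℤ, w = t := by
  refine ⟨w.num, ?_⟩
  have hden : w.den = 1 := by
    have h1 : (N : ℤ) * w.num ^ 2 = z * (w.den : ℤ) ^ 2 := by
      have h2 : w = w.num / w.den := (Rat.num_div_den w).symm
      have h3 : (w.den : ℚ) ≠ 0 := by exact_mod_cast w.den_nz
      rw [h2] at hw
      field_simp at hw
      rw [mul_comm z]
      exact_mod_cast hw
    have h2 : ((w.den : ℤ) ^ 2) ∣ (N : ℤ) * w.num ^ 2 := ⟨z, by rw [h1]; ring⟩
    have hcop : IsCoprime ((w.den : ℤ) ^ 2) (w.num ^ 2) := by
      apply IsCoprime.pow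
      have := w.reduced
      rw [Int.isCoprime_iff_gcd_eq_one, Int.gcd_comm]
      simpa [Nat.Coprime, Int.gcd] using this
    have h3 := hcop.dvd_of_dvd_mul_right h2
    have h4 : w.den ^ 2 ∣ N := by exact_mod_cast h3
    rw [pow_two] at h4
    exact Nat.isUnit_iff.1 (hN _ h4)
  conv_lhs => rw [← Rat.num_div_den w, hden]
  simp

omit h in
lemma parity {N : ℕ} (hN : Squarefree N) (h2 : 2 ∣ N) (A w B : ℤ)
    (hAB : A ^ 2 + N * w ^ 2 = 4 * B) : 2 ∣ A ∧ 2 ∣ w := by
  obtain ⟨M, rfl⟩ := h2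
  have hM : ¬ 2 ∣ M := by
    rintro ⟨M', rfl⟩
    have := hN 2 ⟨M', by ring⟩
    simp at this
  have hM' : (M : ℤ) % 2 = 1 := by omega
  have hA : 2 ∣ A := by
    have h1 : (2 : ℤ) ∣ A ^ 2 := ⟨2 * B - M * w ^ 2, by push_cast at hAB; linarith⟩
    exact Int.prime_two.dvd_of_dvd_pow h1
  refine ⟨hA, ?_⟩
  obtain ⟨A', rfl⟩ := hA
  have h3 : (2 : ℤ) ∣ M * w ^ 2 := ⟨B - A' ^ 2, by push_cast at hAB; linarith⟩
  rcases Int.prime_two.dvd_or_dvd h3 with h4 | h4
  · omega
  · exact Int.prime_two.dvd_of_dvd_pow h4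

/-- the ring of integers is `ℤ[s]` -/
theorem exists_coords (x : 𝓞 K) : ∃ u v : ℤ, x = u + v * s := by
  obtain ⟨u, v, huv⟩ := h.exists_rat (x : K)
  by_cases hv : v = 0
  · subst hv
    simp only [map_zero, zero_mul, add_zero] at huv
    have hint : IsIntegral ℤ u := by
      have h1 : IsIntegral ℤ (x : K) := x.2
      rw [huv] at h1
      exact (isIntegral_algebraMap_iff (algebraMap ℚ K).injective).1 h1
    obtain ⟨z, hz⟩ := IsIntegrallyClosed.isIntegral_iff.1 hint
    refine ⟨z, 0, ?_⟩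
    apply NumberField.RingOfIntegers.ext
    rw [huv, ← hz]
    simp
  · -- the minimal polynomial
    let f : ℚ[X] := X ^ 2 - C (2 * u) * X + C (u ^ 2 + N * v ^ 2)
    have hf : f.Monic := by
      have : f = X ^ 2 + (- C (2 * u) * X + C (u ^ 2 + N * v ^ 2)) := by
        simp only [f]; ring
      rw [this]
      refine monic_X_pow_add ?_
      refine (degree_add_le _ _).trans_lt ?_
      rw [max_lt_iff]
      constructor
      · refine lt_of_le_of_lt ?_ (by norm_num : (1 : WithBot ℕ) < 2)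
        rw [← C_neg]
        exact degree_C_mul_X_le _
      · exact lt_of_le_of_lt degree_C_le (by norm_num)
    have hroot : aeval (x : K) f = 0 := by
      simp only [f, map_add, map_sub, map_mul, map_pow, aeval_X, aeval_C, huv]
      have := h.sqK
      simp only [map_natCast, map_ofNat]
      linear_combination (algebraMap ℚ K v) ^ 2 * this
    have hmin : minpoly ℚ (x : K) = f := by
      symm
      apply minpoly.unique' ℚ (x : K) hf hroot
      intro q hq
      by_contra! hcon
      obtain ⟨hq0, hq1⟩ := hcon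
      have hdf : f.degree ≤ 2 := by
        simp only [f]
        compute_degree
      have hq2 : q.degree < 2 := hq.trans_le hdf
      have hq3 : q.degree ≤ 1 := by
        have hnd : q.natDegree < 2 := (Polynomial.natDegree_lt_iff_degree_lt hq0).2 hq2
        have h1 : q.natDegree ≤ 1 := by omega
        have h2 := Polynomial.natDegree_le_iff_degree_le.1 h1
        exact_mod_cast h2
      have hq4 := Polynomial.eq_X_add_C_of_degree_le_one hq3
      rw [hq4] at hq1
      simp only [map_add, map_mul, aeval_C, aeval_X, huv] at hq1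
      have h5 := h.linInd (q.coeff 1 * u + q.coeff 0) (q.coeff 1 * v) (by
        simp only [map_add, map_mul]
        linear_combination hq1)
      obtain ⟨h6, h7⟩ := h5
      have h8 : q.coeff 1 = 0 := (mul_eq_zero.1 h7).resolve_right hv
      rw [h8, zero_mul, zero_add] at h6
      apply hq0
      rw [hq4, h8, h6]
      simp
    have hfrac : minpoly ℚ (x : K) = (minpoly ℤ (x : K)).map (algebraMap ℤ ℚ) :=
      minpoly.isIntegrallyClosed_eq_field_fractions' ℚ x.2
    have hc1 : f.coeff 1 = -(2 * u) := by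
      simp only [f, coeff_add, coeff_sub, coeff_C_mul, coeff_X, coeff_X_pow]
      rw [coeff_C]
      norm_num
    have hc0 : f.coeff 0 = u ^ 2 + N * v ^ 2 := by
      simp only [f, coeff_add, coeff_sub, coeff_C_mul, coeff_X, coeff_X_pow]
      rw [coeff_C]
      norm_num
    rw [hmin] at hfrac
    have e1 : -(2 * u) = ((minpoly ℤ (x : K)).coeff 1 : ℚ) := by
      rw [← hc1, hfrac, coeff_map]; rfl
    have e0 : u ^ 2 + N * v ^ 2 = ((minpoly ℤ (x : K)).coeff 0 : ℚ) := by
      rw [← hc0, hfrac, coeff_map]; rfl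
    set A := (minpoly ℤ (x : K)).coeff 1
    set B := (minpoly ℤ (x : K)).coeff 0
    have e2 : (N : ℚ) * (2 * v) ^ 2 = ((4 * B - A ^ 2 : ℤ) : ℚ) := by
      push_cast
      rw [← e0, ← e1]; ring
    obtain ⟨w, hw⟩ := int_of_sq h.sqf _ _ e2
    have e3 : A ^ 2 + N * w ^ 2 = 4 * B := by
      have : ((A ^ 2 + N * w ^ 2 : ℤ) : ℚ) = ((4 * B : ℤ) : ℚ) := by
        push_cast
        rw [← hw]
        push_cast at e2
        linarith
      exact_mod_cast this
    obtain ⟨⟨A', hA'⟩, ⟨w', hw'⟩⟩ := parity h.sqf h.even A w B e3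
    refine ⟨-A', w', ?_⟩
    apply NumberField.RingOfIntegers.ext
    have hu : u = (-A' : ℤ) := by
      rw [hA'] at e1; push_cast at e1 ⊢; linarith
    have hv' : v = (w' : ℤ) := by
      rw [hw'] at hw; push_cast at hw ⊢; linarith
    rw [huv, hu, hv']
    simp

end IsQF

end Fermat.Agent.LTF.QuadInt
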