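import Fermat.Agent.LTF.ArtB
import Fermat.Agent.LTF.DeepCheb
import Fermat.Agent.Minkowski.Trivial
import Fermat.Agent.LTF.QuadInt

/-!
# LTFREE, [ART3-b]: the cubic character attached to `r̄ : G_ℚ → GL₂(𝔽₂)`
-/

set_option autoImplicit false

noncomputable section

namespace Fermat.Agent.LTF.ArtC

open NumberField
open scoped nonZeroDivisors Pointwise
open Fermat.Agent.Frob (Zbar centre natCast_mem_centre mem_centre_iff exists_liesOverPrime)
open Fermat.Agent.Minkowski (incl coe_incl exists_lift_inertia)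

local notation "Qb" => AlgebraicClosure ℚ
local notation "GQ" => AlgebraicClosure ℚ ≃ₐ[ℚ] AlgebraicClosure ℚ
local notation "M2" => Matrix (Fin 2) (Fin 2)

/-! ### places -/

section Places

/-- the prime of `K` below the place `A` -/
def below (K : IntermediateField ℚ Qb) (A : ValuationSubring Qb) : Ideal (𝓞 K) :=
  (centre A).comap (incl K)

instance (K : IntermediateField ℚ Qb) (A : ValuationSubring Qb) : (below K A).IsPrime :=
  Ideal.comap_isPrime _ _

lemma mem_below (K : IntermediateField ℚ Qb) (A : ValuationSubring Qb) (x : 𝓞 K) :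
    x ∈ below K A ↔ ((x : K) : Qb) ∈ A.nonunits := by
  change incl K x ∈ centre A ↔ _
  rw [mem_centre_iff]
  rfl

lemma natCast_mem_below (K : IntermediateField ℚ Qb) {A : ValuationSubring Qb} {q : ℕ}
    (hA : A.LiesOverPrime q) : (q : 𝓞 K) ∈ below K A := by
  change incl K (q : 𝓞 K) ∈ centre A
  rw [map_natCast]
  exact natCast_mem_centre hA

lemma below_ne_bot (K : IntermediateField ℚ Qb) [NumberField K] {A : ValuationSubring Qb} {q : ℕ}
    (hq : q.Prime) (hA : A.LiesOverPrime q) : below K A ≠ ⊥ := by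
  intro h
  have h1 := natCast_mem_below K hA
  rw [h, Ideal.mem_bot] at h1
  exact hq.ne_zero (by exact_mod_cast h1)

lemma below_isMaximal (K : IntermediateField ℚ Qb) [NumberField K] {A : ValuationSubring Qb} {q : ℕ}
    (hq : q.Prime) (hA : A.LiesOverPrime q) : (below K A).IsMaximal :=
  Ideal.IsPrime.isMaximal inferInstance (below_ne_bot K hq hA)

lemma exists_prime_mem {F : Type*} [Field F] [NumberField F] (P : Ideal (𝓞 F)) [hP : P.IsPrime]
    (hP0 : P ≠ ⊥) : ∃ ℓ : ℕ, ℓ.Prime ∧ (ℓ : 𝓞 F) ∈ P := by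
  have hmax : P.IsMaximal := hP.isMaximal hP0
  have hfin : Finite (𝓞 F ⧸ P) := Ideal.finiteQuotientOfFreeOfNeBot P hP0
  obtain ⟨ℓ, hℓ⟩ := CharP.exists (𝓞 F ⧸ P)
  have hℓ' : ℓ.Prime := (CharP.char_is_prime_or_zero (𝓞 F ⧸ P) ℓ).resolve_right (by
    rintro rfl
    have := CharP.charP_to_charZero (𝓞 F ⧸ P)
    exact not_finite (𝓞 F ⧸ P))
  refine ⟨ℓ, hℓ', ?_⟩
  rw [← Ideal.Quotient.eq_zero_iff_mem, map_natCast]
  exact CharP.cast_eq_zero _ _

/-- every nonzero prime of a number field inside `ℚ̄` lies below a place of `ℚ̄`. -/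
lemma exists_below_eq (F : IntermediateField ℚ Qb) [NumberField F]
    (P : Ideal (𝓞 F)) [hP : P.IsPrime] {ℓ : ℕ} (hℓ : ℓ.Prime) (hPℓ : (ℓ : 𝓞 F) ∈ P) :
    ∃ A : ValuationSubring Qb, A.LiesOverPrime ℓ ∧ below F A = P := by
  let f : 𝓞 F →+* Qb := (Zbar.val : Zbar →+* AlgebraicClosure ℚ).comp (incl F)
  have hf : ∀ x : 𝓞 F, f x = ((x : F) : Qb) := fun x => rfl
  have hfinj : Function.Injective f := by
    intro x y hxy
    rw [hf, hf] at hxy
    exact RingOfIntegers.ext (Subtype.ext hxy)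
  let e : 𝓞 F ≃+* f.range := RingEquiv.ofBijective f.rangeRestrict
    ⟨fun x y hxy => hfinj (congrArg (fun z : f.range => (z : Qb)) hxy),
      f.rangeRestrict_surjective⟩
  have he : ∀ x, ((e x : f.range) : Qb) = ((x : F) : Qb) := fun x => rfl
  have hI : P.map (e : 𝓞 F →+* f.range) ≠ ⊤ := by
    intro h
    apply hP.ne_top
    have h1 := congrArg (Ideal.comap (e : 𝓞 F →+* f.range)) h
    have h2 := Ideal.comap_map_of_bijective (e : 𝓞 F →+* f.range) e.bijective (I := P)
    rwa [h2, Ideal.comap_top] at h1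
  obtain ⟨B, hB1, hB2⟩ := Ideal.image_subset_nonunits_valuationSubring
    (P.map (e : 𝓞 F →+* f.range)) hI
  have h1 : P ≤ below F B := by
    intro x hx
    rw [mem_below]
    apply hB2
    exact ⟨e x, Ideal.mem_map_of_mem (e : 𝓞 F →+* f.range) hx, he x⟩
  have hPmax : P.IsMaximal := by
    refine hP.isMaximal ?_
    rintro rfl
    rw [Ideal.mem_bot] at hPℓ
    exact hℓ.ne_zero (by exact_mod_cast hPℓ)
  have h2 : below F B = P :=
    (hPmax.eq_of_le (Ideal.IsPrime.ne_top inferInstance) h1).symm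
  refine ⟨B, ?_, h2⟩
  have := h1 hPℓ
  rw [mem_below] at this
  simpa [ValuationSubring.LiesOverPrime] using this

end Places

/-! ### the fields -/

section Fields

variable (rbar : GQ →* M2 (ZMod 2))

/-- the kernel of `r̄` -/
def ker2 : Subgroup GQ := rbar.toHomUnits.ker

lemma mem_ker2 (σ : GQ) : σ ∈ ker2 rbar ↔ rbar σ = 1 := by
  rw [ker2, MonoidHom.mem_ker, Units.ext_iff, MonoidHom.coe_toHomUnits, Units.val_one]

instance : (ker2 rbar).Normal := by unfold ker2; infer_instance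

/-- the field cut out by `r̄` -/
def fld : IntermediateField ℚ Qb := IntermediateField.fixedField (ker2 rbar)

variable {rbar}

variable (hlev : ∃ L : IntermediateField ℚ Qb, FiniteDimensional ℚ L ∧
      ∀ σ : GQ, (∀ x ∈ L, σ x = x) → rbar σ = 1)

include hlev in
lemma isOpen_ker2 : IsOpen (ker2 rbar : Set GQ) := by
  obtain ⟨L, hL, h⟩ := hlev
  refine Subgroup.isOpen_mono (H₁ := L.fixingSubgroup) ?_ (IntermediateField.fixingSubgroup_isOpen L)
  intro σ hσ
  rw [mem_ker2]
  exact h σ ((IntermediateField.mem_fixingSubgroup_iff _ _).mp hσ)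

include hlev in
lemma fixingSubgroup_fld : (fld rbar).fixingSubgroup = ker2 rbar :=
  InfiniteGalois.fixingSubgroup_fixedField
    ⟨ker2 rbar, (ker2 rbar).isClosed_of_isOpen (isOpen_ker2 hlev)⟩

include hlev in
lemma finite_fld : FiniteDimensional ℚ (fld rbar) := by
  rw [← InfiniteGalois.isOpen_iff_finite, fixingSubgroup_fld hlev]
  exact isOpen_ker2 hlev

include hlev in
lemma isGalois_fld : IsGalois ℚ (fld rbar) := by
  have h1 := (InfiniteGalois.normal_iff_isGalois (fld rbar)).mp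
    (by rw [fixingSubgroup_fld hlev]; infer_instance)
  convert h1
  exact Subsingleton.elim _ _

variable (hsurj : ∀ g : M2 (ZMod 2), g.det = 1 → ∃ σ, rbar σ = g)

include hlev hsurj in
lemma finrank_fld : Module.finrank ℚ (fld rbar) = 6 := by
  rw [IntermediateField.finrank_eq_fixingSubgroup_index, fixingSubgroup_fld hlev, ker2,
    Subgroup.index_ker]
  have h1 : rbar.toHomUnits.range = ⊤ := by
    rw [MonoidHom.range_eq_top]
    intro g
    have h2 : ∀ u : M2 (ZMod 2), IsUnit u → u.det = 1 := by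
      intro u hu
      have h3 : IsUnit u.det := (Matrix.isUnit_iff_isUnit_det u).mp hu
      have h4 : ∀ x : ZMod 2, x ≠ 0 → x = 1 := by decide
      exact h4 _ h3.ne_zero
    obtain ⟨σ, hσ⟩ := hsurj _ (h2 g g.isUnit)
    exact ⟨σ, Units.ext (by rw [MonoidHom.coe_toHomUnits, hσ])⟩
  rw [h1, Subgroup.card_top]
  have h5 : Nat.card (Matrix.GeneralLinearGroup (Fin 2) (ZMod 2)) = 6 := by
    rw [Matrix.card_GL_field]
    decide
  exact h5

variable {K : IntermediateField ℚ Qb}
  (hK : ∀ σ : GQ, σ ∈ K.fixingSubgroup ↔ rbar σ ^ 3 = 1)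

include hsurj hK in
lemma finrank_K : Module.finrank ℚ K = 2 := by
  rw [IntermediateField.finrank_eq_fixingSubgroup_index, Subgroup.index_eq_two_iff]
  obtain ⟨τ, hτ⟩ := hsurj !![0, 1; 1, 0] (by decide)
  refine ⟨τ, fun σ => ?_⟩
  rw [hK, hK, map_mul, hτ]
  have h1 : (rbar σ).det = 1 := by
    have h2 : IsUnit (rbar σ) := (rbar.toHomUnits σ).isUnit
    have h3 : IsUnit (rbar σ).det := (Matrix.isUnit_iff_isUnit_det _).mp h2
    have h4 : ∀ x : ZMod 2, x ≠ 0 → x = 1 := by decide
    exact h4 _ h3.ne_zero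
  have h2 : ∀ m : M2 (ZMod 2), m.det = 1 →
      Xor (((m * !![0, 1; 1, 0]) ^ 3) = 1) (m ^ 3 = 1) := by
    decide
  exact h2 _ h1

include hK in
lemma K_le_fld : K ≤ fld rbar := by
  rw [fld, IntermediateField.le_iff_le]
  intro σ hσ
  rw [mem_ker2] at hσ
  rw [hK, hσ, one_pow]

end Fields

/-! ### the character -/

section Char

variable {rbar : GQ →* M2 (ZMod 2)}
  (hlev : ∃ L : IntermediateField ℚ Qb, FiniteDimensional ℚ L ∧
      ∀ σ : GQ, (∀ x ∈ L, σ x = x) → rbar σ = 1)
  (hsurj : ∀ g : M2 (ZMod 2), g.det = 1 → ∃ σ, rbar σ = g)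
  {K : IntermediateField ℚ Qb}
  (hK : ∀ σ : GQ, σ ∈ K.fixingSubgroup ↔ rbar σ ^ 3 = 1)
  (hunr : ∀ q : ℕ, q.Prime → ∀ A : ValuationSubring Qb, A.LiesOverPrime q →
    ∀ σ ∈ A.inertiaSubgroupIn ℚ, σ ∈ K.fixingSubgroup → rbar σ = 1)

lemma map_mem_of_mem_decomp {A : ValuationSubring Qb} {g : GQ}
    (hg : g ∈ A.decompositionSubgroup ℚ) {x : Qb} (hx : x ∈ A) : g x ∈ A := by
  have h1 : g • x ∈ g • A := ValuationSubring.smul_mem_pointwise_smul _ _ _ hx
  have h2 : g • A = A := hg
  rwa [h2] at h1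

lemma frob_sub_mem {A : ValuationSubring Qb} {q : ℕ} {φ : GQ} (hφ : A.IsFrobeniusAt φ q) {x : Qb}
    (hx : x ∈ A) : φ x - x ^ q ∈ A.nonunits := by
  obtain ⟨hd, hf⟩ := hφ
  rw [ValuationSubring.mem_nonunits_iff_exists_mem_maximalIdeal]
  refine ⟨sub_mem (map_mem_of_mem_decomp hd hx) (pow_mem hx q), ?_⟩
  have h := hf (IsLocalRing.residue A ⟨x, hx⟩)
  rw [← IsLocalRing.ResidueField.residue_smul, ← map_pow, ← sub_eq_zero, ← map_sub,
    IsLocalRing.residue_eq_zero_iff] at h
  exact h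

lemma int_mem (F : IntermediateField ℚ Qb) (A : ValuationSubring Qb) (x : 𝓞 F) :
    ((x : F) : Qb) ∈ A :=
  Frob.mem_of_mem_Zbar A (incl F x)

/-- a place at which the Frobenius acts trivially on a number field has a prime of degree one
below it. -/
lemma absNorm_below (F : IntermediateField ℚ Qb) [NumberField F] {q : ℕ} (hq : q.Prime)
    {A : ValuationSubring Qb} (hA : A.LiesOverPrime q) {φ : GQ} (hφ : A.IsFrobeniusAt φ q)
    (h : φ ∈ F.fixingSubgroup) : Ideal.absNorm (below F A) = q := by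
  classical
  have hmax := below_isMaximal F hq hA
  have hfin : Finite (𝓞 F ⧸ below F A) :=
    Ideal.finiteQuotientOfFreeOfNeBot _ (below_ne_bot F hq hA)
  have hpow : ∀ x : 𝓞 F ⧸ below F A, x ^ q = x := by
    intro x
    obtain ⟨x, rfl⟩ := Ideal.Quotient.mk_surjective x
    rw [← map_pow, Ideal.Quotient.eq, mem_below]
    have h1 := frob_sub_mem hφ (int_mem F A x)
    have h2 : φ ((x : F) : Qb) = ((x : F) : Qb) :=
      (IntermediateField.mem_fixingSubgroup_iff _ _).mp h _ (x : F).2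
    rw [h2] at h1
    have h3 : (((x ^ q - x : 𝓞 F) : F) : Qb) = -(((x : F) : Qb) - ((x : F) : Qb) ^ q) := by
      push_cast
      ring
    rw [h3, ValuationSubring.mem_nonunits_iff, Valuation.map_neg, ← ValuationSubring.mem_nonunits_iff]
    exact h1
  have h0 : ((q : ℕ) : 𝓞 F ⧸ below F A) = 0 := by
    have := Ideal.Quotient.eq_zero_iff_mem.mpr (natCast_mem_below F hA)
    simpa using this
  let _ : Field (𝓞 F ⧸ below F A) := Ideal.Quotient.field _
  let _ : Fintype (𝓞 F ⧸ below F A) := Fintype.ofFinite _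
  have hle : Nat.card (𝓞 F ⧸ below F A) ≤ q := by
    rw [Nat.card_eq_fintype_card]
    have h1 : (Finset.univ : Finset (𝓞 F ⧸ below F A)).val ≤
        (Polynomial.X ^ q - Polynomial.X : Polynomial (𝓞 F ⧸ below F A)).roots := by
      rw [Multiset.le_iff_subset Finset.univ.nodup]
      intro x _
      rw [Polynomial.mem_roots (FiniteField.X_pow_card_sub_X_ne_zero _ hq.one_lt),
        Polynomial.IsRoot.def, Polynomial.eval_sub, Polynomial.eval_pow, Polynomial.eval_X, hpow,
        sub_self]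
    have h2 := (Multiset.card_le_card h1).trans (Polynomial.card_roots' _)
    rw [FiniteField.X_pow_card_sub_X_natDegree_eq _ hq.one_lt] at h2
    exact h2
  have hover : (below F A).LiesOver (Ideal.span {(q : ℤ)}) := by
    rw [Ideal.liesOver_iff]
    have : Fact q.Prime := ⟨hq⟩
    refine Ideal.IsMaximal.eq_of_le (Int.ideal_span_isMaximal_of_prime q)
      Ideal.IsPrime.ne_top' ?_
    rw [Ideal.span_singleton_le_iff_mem, Ideal.mem_comap, algebraMap_int_eq, map_natCast]
    exact natCast_mem_below F hA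
  have h3 := Ideal.pow_inertiaDeg q (below F A)
  have h4 : Ideal.absNorm (below F A) ≤ q := hle
  rw [← h3] at h4
  have h5 : (below F A).inertiaDeg ℤ ≠ 0 := by
    intro h6
    rw [h6, pow_zero] at h3
    exact hmax.ne_top (Ideal.absNorm_eq_one_iff.mp h3.symm)
  have h6 : (below F A).inertiaDeg ℤ = 1 := by
    by_contra h7
    have h8 : 2 ≤ (below F A).inertiaDeg ℤ := by omega
    have h9 : q ^ 2 ≤ q ^ 1 := (Nat.pow_le_pow_right hq.pos h8).trans (by simpa using h4)
    exact absurd (Nat.pow_le_pow_iff_right hq.one_lt |>.mp h9) (by norm_num)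
  rw [← h3, h6, pow_one]

include hlev hsurj hK hunr in
/-- **[ART3-b]**: the cubic character of the class group of `K = ℚ(√-N)` attached to `r̄`: it
kills the primes below a place at which the Frobenius has trivial image. -/
theorem exists_psi_rbar [NumberField K] (hU : ∀ u : (𝓞 K)ˣ, u = 1 ∨ u = -1) :
    ∃ ψ : ClassGroup (𝓞 K) →* Multiplicative (ZMod 3), ψ ≠ 1 ∧
      ∀ (q : ℕ), q.Prime → ∀ A : ValuationSubring Qb, A.LiesOverPrime q →
        ∀ φ : GQ, A.IsFrobeniusAt φ q → rbar φ = 1 →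
          ∀ I : (Ideal (𝓞 K))⁰, (I : Ideal (𝓞 K)) = below K A → ψ (ClassGroup.mk0 I) = 1 := by
  have hfd : FiniteDimensional ℚ (fld rbar) := finite_fld hlev
  have hgal : IsGalois ℚ (fld rbar) := isGalois_fld hlev
  have hNF : NumberField (fld rbar) := ⟨⟩
  let algKM : Algebra K (fld rbar) :=
    (IntermediateField.inclusion (K_le_fld hK)).toRingHom.toAlgebra
  have hcoe : ∀ x : K, ((algebraMap K (fld rbar) x : fld rbar) : Qb) = (x : Qb) := fun x => rfl
  have htower : IsScalarTower ℚ K (fld rbar) := IsScalarTower.of_algebraMap_eq fun x => by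
    apply Subtype.ext
    rw [hcoe]
    rfl
  have hgal' : IsGalois K (fld rbar) := IsGalois.tower_top_of_isGalois ℚ K (fld rbar)
  have hdeg : Module.finrank K (fld rbar) = 3 := by
    have h1 := Module.finrank_mul_finrank ℚ K (fld rbar)
    rw [finrank_K hsurj hK, finrank_fld hlev hsurj] at h1
    omega
  have hunr' : ∀ P : Ideal (𝓞 (fld rbar)), P.IsPrime → P ≠ ⊥ → P.ramificationIdx (𝓞 K) = 1 := by
    intro P hP hP0
    have hPmax : P.IsMaximal := hP.isMaximal hP0
    set p : Ideal (𝓞 K) := P.under (𝓞 K) with hp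
    have hover : P.LiesOver p := ⟨rfl⟩
    have hp0 : p ≠ ⊥ := fun h => hP0 (Ideal.eq_bot_of_comap_eq_bot h)
    have : IsGaloisGroup (fld rbar ≃ₐ[K] fld rbar) K (fld rbar) :=
      IsGaloisGroup.of_isGalois K (fld rbar)
    have hfin : Finite (𝓞 K ⧸ p) := Ideal.finiteQuotientOfFreeOfNeBot p hp0
    have hfin2 : Finite p.ResidueField := inferInstance
    rw [← Ideal.ramificationIdxIn_eq_ramificationIdx p P (fld rbar ≃ₐ[K] fld rbar),
      ← Ideal.card_inertia_eq_ramificationIdxIn (G := fld rbar ≃ₐ[K] fld rbar) p P,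
      Nat.card_eq_one_iff_unique]
    have key : ∀ τ ∈ P.inertia (fld rbar ≃ₐ[K] fld rbar), τ = 1 := by
      intro τ hτ
      obtain ⟨q, hq, hqP⟩ := exists_prime_mem P hP0
      obtain ⟨A, hA, hAP⟩ := exists_below_eq (fld rbar) P hq hqP
      obtain ⟨σ, hσA, hσ⟩ := exists_lift_inertia (fld rbar) hq hA (τ.restrictScalars ℚ) (by
        intro x
        refine ⟨τ • x - x, rfl, ?_⟩
        have h1 : τ • x - x ∈ P := hτ x
        rw [← hAP] at h1
        exact h1)
      have hσK : σ ∈ K.fixingSubgroup := by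
        rw [IntermediateField.mem_fixingSubgroup_iff]
        intro x hx
        have h1 := hσ (algebraMap K (fld rbar) ⟨x, hx⟩)
        have h2 : (τ.restrictScalars ℚ) (algebraMap K (fld rbar) ⟨x, hx⟩) =
          algebraMap K (fld rbar) ⟨x, hx⟩ := τ.commutes ⟨x, hx⟩
        rw [h2] at h1
        exact h1
      have hσ1 : σ ∈ (fld rbar).fixingSubgroup := by
        rw [fixingSubgroup_fld hlev, mem_ker2]
        exact hunr q hq A hA σ hσA hσK
      ext x
      have h1 := hσ x
      rw [(IntermediateField.mem_fixingSubgroup_iff _ _).mp hσ1 _ x.2] at h1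
      exact h1.symm
    exact ⟨⟨fun a b => Subtype.ext (by rw [key a a.2, key b b.2])⟩, ⟨1⟩⟩
  obtain ⟨ψ, hψ, hψ2⟩ := ArtB.exists_psi' (K := K) (M := fld rbar) hdeg hU hunr'
  refine ⟨ψ, hψ, fun q hq A hA φ hφ hφ1 I hI => ?_⟩
  have hmax := below_isMaximal K hq hA
  have hmax' := below_isMaximal (fld rbar) hq hA
  have hover : (below (fld rbar) A).LiesOver (below K A) := ⟨rfl⟩
  have hover' : (below (fld rbar) A).LiesOver (I : Ideal (𝓞 K)) := by rw [hI]; exact hover
  refine hψ2 I (below (fld rbar) A) (by rw [hI]; exact hmax) hmax' hover' ?_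
  have hφM : φ ∈ (fld rbar).fixingSubgroup := by
    rw [fixingSubgroup_fld hlev, mem_ker2]
    exact hφ1
  have h1 := absNorm_below (fld rbar) hq hA hφ hφM
  have hoverZ : (below (fld rbar) A).LiesOver (Ideal.span {(q : ℤ)}) := by
    rw [Ideal.liesOver_iff]
    have : Fact q.Prime := ⟨hq⟩
    refine Ideal.IsMaximal.eq_of_le (Int.ideal_span_isMaximal_of_prime q)
      Ideal.IsPrime.ne_top' ?_
    rw [Ideal.span_singleton_le_iff_mem, Ideal.mem_comap, algebraMap_int_eq, map_natCast]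
    exact natCast_mem_below _ hA
  have h3 := Ideal.pow_inertiaDeg q (below (fld rbar) A)
  rw [h1] at h3
  have h4 : (below (fld rbar) A).inertiaDeg ℤ = 1 := by
    have h5 : q ^ (below (fld rbar) A).inertiaDeg ℤ = q ^ 1 := by rw [h3, pow_one]
    exact Nat.pow_right_injective hq.two_le h5
  rw [Ideal.inertiaDeg_tower (R := ℤ) (below K A) (below (fld rbar) A)] at h4
  exact Nat.eq_one_of_mul_eq_one_left h4

end Char

end Fermat.Agent.LTF.ArtC

end
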