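import Mathlib

/-!
# Counting characters through cyclic quotients
-/

set_option autoImplicit false

namespace Fermat.Agent.LTF.Art

section Count

variable {G Q : Type*} [CommGroup G] [CommGroup Q] [Finite G] [Finite Q]

lemma isCyclic_quotient_ker (χ : G →* ℂˣ) : IsCyclic (G ⧸ χ.ker) := by
  have h1 : Finite χ.range := Set.finite_range χ
  have h2 : IsCyclic χ.range := inferInstance
  exact isCyclic_of_surjective (QuotientGroup.quotientKerEquivRange χ).symm.toMonoidHom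
    (QuotientGroup.quotientKerEquivRange χ).symm.surjective

variable (Φ : Subgroup G → Subgroup Q)

/-- transport of characters -/
noncomputable def aux
    (h1 : ∀ H, IsCyclic (G ⧸ H) → IsCyclic (Q ⧸ Φ H) ∧ Nat.card (Q ⧸ Φ H) = Nat.card (G ⧸ H))
    (H : Subgroup G) (hH : IsCyclic (G ⧸ H)) (χ : G →* ℂˣ) (hχ : H ≤ χ.ker) : Q →* ℂˣ :=
  have : IsCyclic (Q ⧸ Φ H) := (h1 H hH).1
  ((QuotientGroup.lift H χ hχ).comp
    (mulEquivOfCyclicCardEq (h1 H hH).2).toMonoidHom).comp (QuotientGroup.mk' (Φ H))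

omit [Finite G] [Finite Q] in
lemma aux_eq_iff (h1 : ∀ H, IsCyclic (G ⧸ H) → IsCyclic (Q ⧸ Φ H) ∧
    Nat.card (Q ⧸ Φ H) = Nat.card (G ⧸ H))
    (H : Subgroup G) (hH : IsCyclic (G ⧸ H)) (χ χ' : G →* ℂˣ) (hχ : H ≤ χ.ker) (hχ' : H ≤ χ'.ker)
    (h : aux Φ h1 H hH χ hχ = aux Φ h1 H hH χ' hχ') : χ = χ' := by
  have : IsCyclic (Q ⧸ Φ H) := (h1 H hH).1
  ext x
  obtain ⟨y, hy⟩ := (mulEquivOfCyclicCardEq (h1 H hH).2).surjective (x : G ⧸ H)
  obtain ⟨z, rfl⟩ := QuotientGroup.mk_surjective y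
  have h3 := DFunLike.congr_fun h z
  have e : ∀ (χ : G →* ℂˣ) (hχ : H ≤ χ.ker), aux Φ h1 H hH χ hχ z = χ x := by
    intro χ hχ
    change QuotientGroup.lift H χ hχ ((mulEquivOfCyclicCardEq (h1 H hH).2) (z : Q ⧸ Φ H)) = _
    rw [hy]
    rfl
  rw [e, e] at h3
  rw [h3]

lemma ker_aux (h1 : ∀ H, IsCyclic (G ⧸ H) → IsCyclic (Q ⧸ Φ H) ∧
    Nat.card (Q ⧸ Φ H) = Nat.card (G ⧸ H)) (χ : G →* ℂˣ) :
    (aux Φ h1 χ.ker (isCyclic_quotient_ker χ) χ le_rfl).ker = Φ χ.ker := by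
  have : IsCyclic (Q ⧸ Φ χ.ker) := (h1 _ (isCyclic_quotient_ker χ)).1
  have hcy := isCyclic_quotient_ker χ
  ext z
  rw [MonoidHom.mem_ker]
  change QuotientGroup.kerLift χ ((mulEquivOfCyclicCardEq
    (h1 _ (isCyclic_quotient_ker χ)).2) (z : Q ⧸ Φ χ.ker)) = 1 ↔ _
  rw [← map_one (QuotientGroup.kerLift χ), (QuotientGroup.kerLift_injective χ).eq_iff,
    map_eq_one_iff _ (MulEquiv.injective _), QuotientGroup.eq_one_iff]

theorem card_dvd_of_inj {a : ℕ} (hG : Nat.card G = 2 ^ a)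
    (h1 : ∀ H, IsCyclic (G ⧸ H) → IsCyclic (Q ⧸ Φ H) ∧ Nat.card (Q ⧸ Φ H) = Nat.card (G ⧸ H))
    (h2 : ∀ H H', IsCyclic (G ⧸ H) → IsCyclic (G ⧸ H') → Φ H = Φ H' → H = H') :
    Nat.card G ∣ Nat.card Q := by
  have hfG : Finite (G →* ℂˣ) := inferInstance
  have hfQ : Finite (Q →* ℂˣ) := inferInstance
  -- the subgroup of characters killed by `2 ^ a`
  let T : Subgroup (Q →* ℂˣ) := (powMonoidHom (2 ^ a) : (Q →* ℂˣ) →* (Q →* ℂˣ)).ker
  have hT : ∀ ψ, ψ ∈ T ↔ ψ ^ (2 ^ a) = 1 := fun ψ => MonoidHom.mem_ker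
  let F : (G →* ℂˣ) → T := fun χ => ⟨aux Φ h1 χ.ker (isCyclic_quotient_ker χ) χ le_rfl, by
    rw [hT]
    ext1 z
    rw [MonoidHom.pow_apply, MonoidHom.one_apply]
    have : ∃ x : G, aux Φ h1 χ.ker (isCyclic_quotient_ker χ) χ le_rfl z = χ x := by
      have : IsCyclic (Q ⧸ Φ χ.ker) := (h1 _ (isCyclic_quotient_ker χ)).1
      have hcy := isCyclic_quotient_ker χ
      obtain ⟨x, hx⟩ := QuotientGroup.mk_surjective ((mulEquivOfCyclicCardEq
        (h1 _ (isCyclic_quotient_ker χ)).2) (z : Q ⧸ Φ χ.ker))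
      refine ⟨x, ?_⟩
      change QuotientGroup.lift χ.ker χ le_rfl ((mulEquivOfCyclicCardEq
        (h1 _ (isCyclic_quotient_ker χ)).2) (z : Q ⧸ Φ χ.ker)) = _
      rw [← hx]
      rfl
    obtain ⟨x, hx⟩ := this
    rw [hx, ← map_pow, ← hG, pow_card_eq_one', map_one]⟩
  have hF : Function.Injective F := by
    intro χ χ' h
    have h3 : aux Φ h1 χ.ker (isCyclic_quotient_ker χ) χ le_rfl =
        aux Φ h1 χ'.ker (isCyclic_quotient_ker χ') χ' le_rfl := congrArg Subtype.val h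
    have h4 : χ.ker = χ'.ker := by
      apply h2 _ _ (isCyclic_quotient_ker χ) (isCyclic_quotient_ker χ')
      rw [← ker_aux Φ h1 χ, ← ker_aux Φ h1 χ', h3]
    have h5 : ∀ (H : Subgroup G) (hH : IsCyclic (G ⧸ H)) (hχ' : H ≤ χ'.ker), H = χ.ker →
        aux Φ h1 H hH χ' hχ' = aux Φ h1 χ.ker (isCyclic_quotient_ker χ) χ' h4.le := by
      rintro _ _ _ rfl
      rfl
    rw [h5 _ _ _ h4.symm] at h3
    exact aux_eq_iff Φ h1 _ _ _ _ _ _ h3
  have hcG : Nat.card (G →* ℂˣ) = Nat.card G :=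
    CommGroup.card_monoidHom_of_hasEnoughRootsOfUnity G ℂ
  have hcQ : Nat.card (Q →* ℂˣ) = Nat.card Q :=
    CommGroup.card_monoidHom_of_hasEnoughRootsOfUnity Q ℂ
  have hle : 2 ^ a ≤ Nat.card T := by
    rw [← hG, ← hcG]
    exact Nat.card_le_card_of_injective F hF
  have hTdvd : Nat.card T ∣ Nat.card Q := by
    rw [← hcQ]
    exact Subgroup.card_subgroup_dvd_card T
  have hTp : IsPGroup 2 T := by
    intro ψ
    refine ⟨a, ?_⟩
    apply Subtype.ext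
    have := (hT ψ).mp ψ.2
    simpa using this
  obtain ⟨c, hc⟩ := hTp.exists_card_eq
  rw [hG]
  rw [hc] at hle hTdvd
  exact (pow_dvd_pow 2 ((Nat.pow_le_pow_iff_right (by norm_num)).mp hle)).trans hTdvd

end Count

end Fermat.Agent.LTF.Art
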