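import Mathlib
import Fermat.Agent.ClassL.Compare

/-!
# Primes of degree one outside the kernels of two class group characters

(SURJ) of the Langlands-Tunnell-free route: the upper densities of the two kernels are at most
`1 / p` and `1 / p'`, so if `1 / p + 1 / p' < 1` there are infinitely many primes of degree one
outside both of them.
-/

set_option autoImplicit false
set_option linter.unusedSectionVars false

open Finset NumberField Module nonZeroDivisors Filter Topology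

open scoped Classical

namespace Fermat.Agent.LTF.Surj

open Fermat.Agent.FrobDensity Fermat.Agent.ClassL

variable {K : Type*} [Field K] [NumberField K]

variable {p p' : ℕ} [hp : Fact p.Prime] [hp' : Fact p'.Prime]

lemma tendsto_log : Tendsto (fun s : ℝ => Real.log (1 / (s - 1))) (𝓝[>] 1) atTop := by
  have h1 : Tendsto (fun s : ℝ => s - 1) (𝓝[>] 1) (𝓝[>] 0) := by
    refine tendsto_nhdsWithin_iff.mpr ⟨?_, ?_⟩
    · have : Tendsto (fun s : ℝ => s - 1) (𝓝 1) (𝓝 (1 - 1)) := (continuous_sub_right 1).tendsto 1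
      rw [sub_self] at this
      exact this.mono_left nhdsWithin_le_nhds
    · filter_upwards [self_mem_nhdsWithin] with s hs
      have hs' : (1 : ℝ) < s := hs
      exact sub_pos.mpr hs'
  have h2 := (Real.tendsto_log_atTop.comp tendsto_inv_nhdsGT_zero).comp h1
  simpa [Function.comp_def, one_div] using h2

lemma kerCount_add (ψ : ClassGroup (𝓞 K) →* Multiplicative (ZMod p))
    (η : ClassGroup (𝓞 K) →* Multiplicative (ZMod p')) {n : ℕ} (hn : n ≠ 0)
    (h : ∀ I : (Ideal (𝓞 K))⁰, Ideal.absNorm (I : Ideal (𝓞 K)) = n →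
      ψ (ClassGroup.mk0 I) = 1 ∨ η (ClassGroup.mk0 I) = 1) :
    idealCount K n ≤ kerCount ψ n + kerCount η n := by
  have hf := finite_norm_eq (K := K) n
  rw [idealCount_eq_card hn, kerCount, kerCount]
  have i1 : Finite {I : (Ideal (𝓞 K))⁰ // Ideal.absNorm (I : Ideal (𝓞 K)) = n ∧
      ψ (ClassGroup.mk0 I) = 1} :=
    Finite.of_injective (fun I => (⟨I.1, I.2.1⟩ :
      {I : (Ideal (𝓞 K))⁰ // Ideal.absNorm (I : Ideal (𝓞 K)) = n}))
      fun I J h => Subtype.ext (congrArg (fun x => x.1) h)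
  have i2 : Finite {I : (Ideal (𝓞 K))⁰ // Ideal.absNorm (I : Ideal (𝓞 K)) = n ∧
      η (ClassGroup.mk0 I) = 1} :=
    Finite.of_injective (fun I => (⟨I.1, I.2.1⟩ :
      {I : (Ideal (𝓞 K))⁰ // Ideal.absNorm (I : Ideal (𝓞 K)) = n}))
      fun I J h => Subtype.ext (congrArg (fun x => x.1) h)
  rw [← Nat.card_sum]
  refine Nat.card_le_card_of_injective
    (fun I : {I : (Ideal (𝓞 K))⁰ // Ideal.absNorm (I : Ideal (𝓞 K)) = n} =>
      if h1 : ψ (ClassGroup.mk0 I.1) = 1 then Sum.inl ⟨I.1, I.2, h1⟩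
      else Sum.inr ⟨I.1, I.2, (h I.1 I.2).resolve_left h1⟩) ?_
  intro I J hIJ
  simp only at hIJ
  split_ifs at hIJ with h1 h2 h2
  · exact Subtype.ext (congrArg (fun x => x.1) (Sum.inl.inj hIJ))
  · exact Subtype.ext (congrArg (fun x => x.1) (Sum.inr.inj hIJ))

/-- **(SURJ)** infinitely many primes of degree one lie outside the kernels of two class group
characters of prime orders `p`, `p'`, not both equal to `2`. -/
theorem exists_prime_not_ker (h2 : p ≠ 2 ∨ p' ≠ 2)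
    {ψ : ClassGroup (𝓞 K) →* Multiplicative (ZMod p)} (hψ : ψ ≠ 1)
    {η : ClassGroup (𝓞 K) →* Multiplicative (ZMod p')} (hη : η ≠ 1) (S : Finset ℕ) :
    ∃ ℓ : ℕ, ℓ.Prime ∧ ℓ ∉ S ∧ ∃ I : (Ideal (𝓞 K))⁰, Ideal.absNorm (I : Ideal (𝓞 K)) = ℓ ∧
      ψ (ClassGroup.mk0 I) ≠ 1 ∧ η (ClassGroup.mk0 I) ≠ 1 := by
  by_contra hcon
  push Not at hcon
  have hcount : ∀ q : ℕ, q.Prime → q ∉ S → idealCount K q ≤ kerCount ψ q + kerCount η q :=
    fun q hq hqS => kerCount_add ψ η hq.ne_zero fun I hI => by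
      by_contra h
      rw [not_or] at h
      exact h.2 (hcon q hq hqS I hI h.1)
  obtain ⟨B₁, hB₁⟩ := exists_kerCount_bound hψ
  obtain ⟨B₂, hB₂⟩ := exists_kerCount_bound hη
  obtain ⟨B₃, hB₃⟩ := exists_bound K
  set D : ℝ := ∑ q ∈ S, (idealCount K q : ℝ) with hD
  have hp0 : (0 : ℝ) < p := by exact_mod_cast hp.out.pos
  have hp0' : (0 : ℝ) < p' := by exact_mod_cast hp'.out.pos
  have hinv : (p : ℝ)⁻¹ + (p' : ℝ)⁻¹ ≤ 5 / 6 := by
    have a1 : (2 : ℝ) ≤ p := by exact_mod_cast hp.out.two_le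
    have a2 : (2 : ℝ) ≤ p' := by exact_mod_cast hp'.out.two_le
    have b1 : (p : ℝ)⁻¹ ≤ 2⁻¹ := by gcongr
    have b2 : (p' : ℝ)⁻¹ ≤ 2⁻¹ := by gcongr
    rcases h2 with h | h
    · have a3 : 3 ≤ p := by
        have := hp.out.two_le
        omega
      have a3' : (3 : ℝ) ≤ p := by exact_mod_cast a3
      have b3 : (p : ℝ)⁻¹ ≤ 3⁻¹ := by gcongr
      linarith
    · have a3 : 3 ≤ p' := by
        have := hp'.out.two_le
        omega
      have a3' : (3 : ℝ) ≤ p' := by exact_mod_cast a3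
      have b3 : (p' : ℝ)⁻¹ ≤ 3⁻¹ := by gcongr
      linarith
  have hev : ∀ᶠ s in 𝓝[>] (1 : ℝ), max 0 (6 * (B₃ + D + (p : ℝ)⁻¹ * B₁ + (p' : ℝ)⁻¹ * B₂))
      < Real.log (1 / (s - 1)) := tendsto_log.eventually_gt_atTop _
  obtain ⟨s, h1, h2, h3, h4, hs⟩ :=
    (hB₁.and (hB₂.and (hB₃.and (hev.and self_mem_nhdsWithin)))).exists
  have hs' : (1 : ℝ) < s := hs
  have hpos : ∀ q : Nat.Primes, (0 : ℝ) ≤ (q : ℝ) ^ (-s) := fun q => by positivity
  have h5 : ∑' q : Nat.Primes, zterm K s q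
      ≤ ∑' q : Nat.Primes, (kerCount ψ (q : ℕ) : ℝ) * (q : ℝ) ^ (-s)
        + ∑' q : Nat.Primes, (kerCount η (q : ℕ) : ℝ) * (q : ℝ) ^ (-s) + D := by
    have hterm : ∀ q : Nat.Primes, zterm K s q
        ≤ ((kerCount ψ (q : ℕ) : ℝ) * (q : ℝ) ^ (-s) + (kerCount η (q : ℕ) : ℝ) * (q : ℝ) ^ (-s))
          + (if (q : ℕ) ∈ S then (idealCount K q : ℝ) else 0) := by
      intro q
      by_cases hq : (q : ℕ) ∈ S
      · rw [if_pos hq]
        have h7 : (q : ℝ) ^ (-s) ≤ 1 := Real.rpow_le_one_of_one_le_of_nonpos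
          (by exact_mod_cast q.2.one_lt.le) (by linarith)
        have h8 : zterm K s q ≤ (idealCount K q : ℝ) * 1 := by
          rw [zterm]
          gcongr
        have h9 : 0 ≤ (kerCount ψ (q : ℕ) : ℝ) * (q : ℝ) ^ (-s) := by positivity
        have h10 : 0 ≤ (kerCount η (q : ℕ) : ℝ) * (q : ℝ) ^ (-s) := by positivity
        linarith
      · rw [if_neg hq, add_zero, zterm, ← add_mul]
        have h6 : (idealCount K q : ℝ) ≤ kerCount ψ (q : ℕ) + kerCount η (q : ℕ) := by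
          exact_mod_cast hcount q q.2 hq
        gcongr
    have hfin : Set.Finite {q : Nat.Primes | (q : ℕ) ∈ S} :=
      Set.Finite.preimage (Subtype.val_injective.injOn) S.finite_toSet
    have hsumS : Summable fun q : Nat.Primes => (if (q : ℕ) ∈ S then (idealCount K q : ℝ) else 0) := by
      refine summable_of_ne_finset_zero (s := hfin.toFinset) fun q hq => ?_
      rw [Set.Finite.mem_toFinset] at hq
      exact if_neg hq
    refine ((summable_zterm_primes hs').tsum_le_tsum hterm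
      (((summable_kerCount ψ hs').add (summable_kerCount η hs')).add hsumS)).trans ?_
    rw [((summable_kerCount ψ hs').add (summable_kerCount η hs')).tsum_add hsumS,
      (summable_kerCount ψ hs').tsum_add (summable_kerCount η hs')]
    gcongr
    rw [hD]
    refine hsumS.tsum_le_of_sum_le fun F => ?_
    rw [← sum_filter]
    rw [← sum_image_primes (F.filter (fun q : Nat.Primes => (q : ℕ) ∈ S))
      (fun n => (idealCount K n : ℝ))]
    refine sum_le_sum_of_subset_of_nonneg ?_ fun _ _ _ => by positivity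
    intro n hn
    rw [mem_image] at hn
    obtain ⟨q, hq, rfl⟩ := hn
    exact (mem_filter.mp hq).2
  have h7 := abs_le.mp h3
  set X := Real.log (1 / (s - 1)) with hX
  have hX0 : 0 < X := (le_max_left _ _).trans_lt h4
  have hX1 : 6 * (B₃ + D + (p : ℝ)⁻¹ * B₁ + (p' : ℝ)⁻¹ * B₂) < X := (le_max_right _ _).trans_lt h4
  have k1 : ∑' q : Nat.Primes, (kerCount ψ (q : ℕ) : ℝ) * (q : ℝ) ^ (-s) ≤ (p : ℝ)⁻¹ * (X + B₁) := by
    rw [inv_mul_eq_div, le_div_iff₀ hp0, mul_comm]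
    exact h1
  have k2 : ∑' q : Nat.Primes, (kerCount η (q : ℕ) : ℝ) * (q : ℝ) ^ (-s)
      ≤ (p' : ℝ)⁻¹ * (X + B₂) := by
    rw [inv_mul_eq_div, le_div_iff₀ hp0', mul_comm]
    exact h2
  have k3 : ((p : ℝ)⁻¹ + (p' : ℝ)⁻¹) * X ≤ 5 / 6 * X := by gcongr
  have k4 := h7.1
  nlinarith [k1, k2, k3, k4, h5, hX1]

/-- version with a quadratic character with values in `ℤˣ` -/
theorem exists_prime_not_ker_units (hp2 : p ≠ 2)
    {ψ : ClassGroup (𝓞 K) →* Multiplicative (ZMod p)} (hψ : ψ ≠ 1)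
    {ε : ClassGroup (𝓞 K) →* ℤˣ} (hε : ε ≠ 1) (S : Finset ℕ) :
    ∃ ℓ : ℕ, ℓ.Prime ∧ ℓ ∉ S ∧ ∃ I : (Ideal (𝓞 K))⁰, Ideal.absNorm (I : Ideal (𝓞 K)) = ℓ ∧
      ψ (ClassGroup.mk0 I) ≠ 1 ∧ ε (ClassGroup.mk0 I) = -1 := by
  have : Fact (Nat.Prime 2) := ⟨Nat.prime_two⟩
  have hne : Multiplicative.ofAdd (1 : ZMod 2) ≠ 1 := by
    intro h
    exact one_ne_zero (α := ZMod 2) (Multiplicative.ofAdd.injective h)
  have hsq : Multiplicative.ofAdd (1 : ZMod 2) * Multiplicative.ofAdd (1 : ZMod 2) = 1 := by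
    rw [← ofAdd_add, CharTwo.add_self_eq_zero, ofAdd_zero]
  let f : ℤˣ →* Multiplicative (ZMod 2) :=
    { toFun := fun u => if u = 1 then 1 else Multiplicative.ofAdd 1
      map_one' := if_pos rfl
      map_mul' := fun x y => by
        rcases Int.units_eq_one_or x with rfl | rfl <;> rcases Int.units_eq_one_or y with rfl | rfl
        · simp
        · simp
        · simp
        · simp [hsq] }
  have hf : ∀ u : ℤˣ, f u = 1 ↔ u = 1 := fun u => by
    change (if u = 1 then 1 else Multiplicative.ofAdd (1 : ZMod 2)) = 1 ↔ u = 1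
    split_ifs with h
    · exact ⟨fun _ => h, fun _ => rfl⟩
    · exact ⟨fun h' => absurd h' hne, fun h' => absurd h' h⟩
  obtain ⟨ℓ, hℓ, hS, I, hI, h1, h2⟩ := exists_prime_not_ker (Or.inl hp2) hψ
    (η := f.comp ε) (fun h => hε (by
      ext C
      have := DFunLike.congr_fun h C
      rw [MonoidHom.comp_apply, MonoidHom.one_apply, hf] at this
      rw [this]; rfl)) S
  refine ⟨ℓ, hℓ, hS, I, hI, h1, ?_⟩
  rw [MonoidHom.comp_apply, Ne, hf] at h2
  exact (Int.units_eq_one_or _).resolve_left h2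

end Fermat.Agent.LTF.Surj
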