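import Fermat.Agent.LTF.ArtC
import Fermat.Agent.LTF.Surj

/-!
# LTFREE, [ART3-b] (ii): rigidity

A representation `r : G_ℚ → GL₂(k)` of characteristic `2` whose traces of Frobenius are given by
the cubic character `ψ` of the class group of `K = ℚ(√-N)` has the same traces as `r̄`.
-/

set_option autoImplicit false

noncomputable section

namespace Fermat.Agent.LTF.ArtC

open NumberField
open scoped nonZeroDivisors Pointwise
open Fermat.Agent.Frob (Zbar centre natCast_mem_centre mem_centre_iff exists_liesOverPrime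
  exists_isFrobeniusAt)
open Fermat.Agent.Minkowski (incl coe_incl exists_lift_inertia)

local notation "Qb" => AlgebraicClosure ℚ
local notation "GQ" => AlgebraicClosure ℚ ≃ₐ[ℚ] AlgebraicClosure ℚ
local notation "M2" => Matrix (Fin 2) (Fin 2)

/-! ### linear algebra -/

section LinAlg

variable {k : Type*} [Field k]

lemma trace_mul_eq_zero (G G' N : M2 k) (hG' : G * G' = 1) (hG : G.det = 1) (hN : N.trace = 0)
    (hdN : N.det = 0) (h : (N * (G * N * G')).trace = 0) : (G * N).trace = 0 := by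
  have hadj : G' = G.adjugate := by
    have h1 : G.adjugate * G = 1 := by rw [Matrix.adjugate_mul, hG, one_smul]
    calc G' = (G.adjugate * G) * G' := by rw [h1, one_mul]
      _ = G.adjugate := by rw [mul_assoc, hG', mul_one]
  rw [hadj, Matrix.adjugate_fin_two] at h
  rw [Matrix.trace_fin_two] at h hN ⊢
  rw [Matrix.det_fin_two] at hG hdN
  simp only [Matrix.mul_apply, Fin.sum_univ_two, Matrix.of_apply, Matrix.cons_val', Matrix.cons_val_zero,
    Matrix.cons_val_one, Matrix.cons_val_fin_one] at h ⊢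
  have hsq : (G 0 0 * N 0 0 + G 0 1 * N 1 0 + (G 1 0 * N 0 1 + G 1 1 * N 1 1)) ^ 2 = 0 := by
    have h11 : N 1 1 = - N 0 0 := by linear_combination hN
    rw [h11] at h hdN ⊢
    linear_combination -h + (-(G 0 0 + G 1 1) ^ 2 + 2 * (G 0 0 * G 1 1 - G 0 1 * G 1 0)) * hdN
  exact pow_eq_zero_iff (two_ne_zero) |>.mp hsq

end LinAlg

/-! ### arithmetic -/

section Arith

variable {K : IntermediateField ℚ Qb} [NumberField K] {N : ℕ} {s : Qb} (hs : s ^ 2 = -(N : Qb))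
  (hsK : s ∈ K) (hfix : ∀ σ : GQ, σ s = s → σ ∈ K.fixingSubgroup)

include hs in
lemma isIntegral_s : IsIntegral ℤ s := by
  refine IsIntegral.of_pow (n := 2) two_pos ?_
  rw [hs]
  exact (isIntegral_natCast (R := ℤ) N).neg

lemma intCast_mem_nonunits_iff {q : ℕ} (hq : q.Prime) {A : ValuationSubring Qb}
    (hA : A.LiesOverPrime q) (m : ℤ) : (m : Qb) ∈ A.nonunits ↔ (q : ℤ) ∣ m := by
  have h1 := Frob.under_centre hq hA
  rw [← Ideal.mem_span_singleton, ← h1, Ideal.under_def, Ideal.mem_comap, mem_centre_iff]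
  simp

include hs hsK hfix in
/-- if there is an ideal of norm `q`, the Frobenius elements at `q` fix `K`. -/
lemma mem_fixing_of_absNorm {q : ℕ} (hq : q.Prime) (hq2 : q ≠ 2) (hqN : ¬ q ∣ N)
    {A : ValuationSubring Qb} (hA : A.LiesOverPrime q) {φ : GQ} (hφ : A.IsFrobeniusAt φ q)
    {I : Ideal (𝓞 K)} (hI : Ideal.absNorm I = q) : φ ∈ K.fixingSubgroup := by
  classical
  apply hfix
  by_contra hne
  have hsq : φ s ^ 2 = s ^ 2 := by rw [← map_pow, hs, map_neg, map_natCast]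
  have hneg : φ s = -s := (sq_eq_sq_iff_eq_or_eq_neg.mp hsq).resolve_left hne
  obtain ⟨n, hn⟩ := hq.odd_of_ne_two hq2
  -- the quotient by `I`
  have hIp : I.IsPrime := Ideal.isPrime_of_irreducible_absNorm (by rw [hI]; exact hq)
  have hI0 : I ≠ ⊥ := by
    rintro rfl
    rw [Ideal.absNorm_bot] at hI
    exact hq.ne_zero hI.symm
  have hImax : I.IsMaximal := hIp.isMaximal hI0
  have hfin : Finite (𝓞 K ⧸ I) := Ideal.finiteQuotientOfFreeOfNeBot _ hI0
  let _ : Field (𝓞 K ⧸ I) := Ideal.Quotient.field _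
  let _ : Fintype (𝓞 K ⧸ I) := Fintype.ofFinite _
  have hcard : Fintype.card (𝓞 K ⧸ I) = q := by
    rw [← Nat.card_eq_fintype_card]
    exact hI
  have hqI : ((q : ℕ) : 𝓞 K ⧸ I) = 0 := by
    rw [← hcard]
    exact Nat.cast_card_eq_zero _
  let s' : 𝓞 K := ⟨⟨s, hsK⟩, by
    have h := isIntegral_s hs
    exact (isIntegral_algebraMap_iff (A := K) (B := Qb)
        (FaithfulSMul.algebraMap_injective _ _)).mp h⟩
  have hs' : s' ^ 2 = -(N : 𝓞 K) := by
    apply RingOfIntegers.ext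
    apply Subtype.ext
    push_cast
    exact hs
  have h1 : (Ideal.Quotient.mk I s') ^ q = Ideal.Quotient.mk I s' := by
    have := FiniteField.pow_card (Ideal.Quotient.mk I s')
    rwa [hcard] at this
  have h2 : (((-(N : ℤ)) ^ n - 1 : ℤ) : 𝓞 K ⧸ I) * Ideal.Quotient.mk I s' = 0 := by
    have h3 : (Ideal.Quotient.mk I s') ^ q =
        (((-(N : ℤ)) ^ n : ℤ) : 𝓞 K ⧸ I) * Ideal.Quotient.mk I s' := by
      rw [hn, pow_succ, pow_mul, ← map_pow, hs']
      push_cast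
      rw [map_neg, map_natCast]
    rw [Int.cast_sub, Int.cast_one, sub_mul, one_mul, ← h3, h1, sub_self]
  have hs0 : Ideal.Quotient.mk I s' ≠ 0 := by
    intro h0
    have h3 : ((N : ℕ) : 𝓞 K ⧸ I) = 0 := by
      have h4 := congrArg (Ideal.Quotient.mk I) hs'
      rw [map_pow, h0, map_neg, map_natCast] at h4
      rw [zero_pow two_ne_zero] at h4
      exact (neg_eq_zero.mp h4.symm)
    have hch : CharP (𝓞 K ⧸ I) q :=
      (CharP.ringChar_of_prime_eq_zero hq hqI) ▸ ringChar.charP _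
    exact hqN ((CharP.cast_eq_zero_iff _ q N).mp h3)
  have h3 : (((-(N : ℤ)) ^ n - 1 : ℤ) : 𝓞 K ⧸ I) = 0 := (mul_eq_zero.mp h2).resolve_right hs0
  have hch : CharP (𝓞 K ⧸ I) q :=
    (CharP.ringChar_of_prime_eq_zero hq hqI) ▸ ringChar.charP _
  have hd1 : (q : ℤ) ∣ (-(N : ℤ)) ^ n - 1 := (CharP.intCast_eq_zero_iff _ q _).mp h3
  -- the place `A`
  have hsA : s ∈ A := Frob.mem_of_mem_Zbar A ⟨s, isIntegral_s hs⟩
  have h4 := frob_sub_mem hφ hsA
  have h5 : φ s - s ^ q = -((((-(N : ℤ)) ^ n + 1 : ℤ) : Qb) * s) := by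
    rw [hneg, hn, pow_succ, pow_mul, hs]
    push_cast
    ring
  rw [h5, ValuationSubring.mem_nonunits_iff, Valuation.map_neg, map_mul] at h4
  have hvs : A.valuation s = 1 := by
    have h6 : A.valuation s ^ 2 = 1 := by
      rw [← map_pow, hs, Valuation.map_neg]
      have h7 : ¬ ((N : ℤ) : Qb) ∈ A.nonunits := by
        rw [intCast_mem_nonunits_iff hq hA]
        exact_mod_cast hqN
      rw [ValuationSubring.mem_nonunits_iff, not_lt, Int.cast_natCast] at h7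
      refine le_antisymm ?_ h7
      rw [ValuationSubring.valuation_le_one_iff]
      exact natCast_mem A N
    exact (pow_eq_one_iff.mp h6).resolve_right two_ne_zero
  rw [hvs, mul_one] at h4
  have hd2 : (q : ℤ) ∣ (-(N : ℤ)) ^ n + 1 :=
    (intCast_mem_nonunits_iff hq hA _).mp ((ValuationSubring.mem_nonunits_iff A).mpr h4)
  have hd3 : (q : ℤ) ∣ 2 := by
    have := Int.dvd_sub hd2 hd1
    have h7 : (-(N : ℤ)) ^ n + 1 - ((-(N : ℤ)) ^ n - 1) = 2 := by ring
    rwa [h7] at this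
  have hd4 : q ∣ 2 := by exact_mod_cast hd3
  exact hq2 ((Nat.prime_dvd_prime_iff_eq hq Nat.prime_two).mp hd4)

end Arith

/-! ### rigidity -/

section Rigid

variable {rbar : GQ →* M2 (ZMod 2)}
  (hlev : ∃ L : IntermediateField ℚ Qb, FiniteDimensional ℚ L ∧
      ∀ σ : GQ, (∀ x ∈ L, σ x = x) → rbar σ = 1)
  {K : IntermediateField ℚ Qb} [NumberField K]
  (hK : ∀ σ : GQ, σ ∈ K.fixingSubgroup ↔ rbar σ ^ 3 = 1)
  {N : ℕ} (hN : N ≠ 0) {s : Qb} (hs : s ^ 2 = -(N : Qb)) (hsK : s ∈ K)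
  (hfix : ∀ σ : GQ, σ s = s → σ ∈ K.fixingSubgroup)
  {ψ : ClassGroup (𝓞 K) →* Multiplicative (ZMod 3)} (hψ : ψ ≠ 1)
  (hψ2 : ∀ (q : ℕ), q.Prime → ∀ A : ValuationSubring Qb, A.LiesOverPrime q →
        ∀ φ : GQ, A.IsFrobeniusAt φ q → rbar φ = 1 →
          ∀ I : (Ideal (𝓞 K))⁰, (I : Ideal (𝓞 K)) = below K A → ψ (ClassGroup.mk0 I) = 1)
  {k : Type*} [Field k] [CharP k 2] (r : GQ →* M2 k)
  (hr : ∃ L : IntermediateField ℚ Qb, FiniteDimensional ℚ L ∧
      ∀ σ : GQ, (∀ x ∈ L, σ x = x) → r σ = 1)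
  (hdet : ∀ σ, (r σ).det = 1) (T : Finset ℕ) (a : ℕ → k)
  (htr : ∀ q : ℕ, q.Prime → q ∉ T → ∀ A : ValuationSubring Qb, A.LiesOverPrime q →
    ∀ φ : GQ, A.IsFrobeniusAt φ q → (r φ).trace = a q)
  (hin : ∀ q : ℕ, q.Prime → q ∉ T → (¬ ∃ I : Ideal (𝓞 K), Ideal.absNorm I = q) → a q = 0)
  (hsp : ∀ q : ℕ, q.Prime → q ∉ T → ∀ I : (Ideal (𝓞 K))⁰,
    Ideal.absNorm (I : Ideal (𝓞 K)) = q → a q = if ψ (ClassGroup.mk0 I) = 1 then 0 else 1)

omit [CharP k 2] in
include hlev hr in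
/-- Chebotarev for the triple `(K, r̄, r)`. -/
lemma exists_frob (B : Finset ℕ) (σ : GQ) : ∃ q : ℕ, q.Prime ∧ q ∉ B ∧
    ∃ A : ValuationSubring Qb, A.LiesOverPrime q ∧ ∃ φ : GQ, A.IsFrobeniusAt φ q ∧
      (φ ∈ K.fixingSubgroup ↔ σ ∈ K.fixingSubgroup) ∧ rbar φ = rbar σ ∧ r φ = r σ := by
  obtain ⟨L, hL, h1⟩ := hlev
  obtain ⟨L', hL', h2⟩ := hr
  have hKf : FiniteDimensional ℚ K := inferInstance
  have hfin : FiniteDimensional ℚ (L ⊔ L' : IntermediateField ℚ Qb) :=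
    IntermediateField.finiteDimensional_sup L L'
  have hfin2 : FiniteDimensional ℚ ((L ⊔ L') ⊔ K : IntermediateField ℚ Qb) :=
    IntermediateField.finiteDimensional_sup _ K
  obtain ⟨q, hq, hqB, A, hA, -, φ, hφ, hφ'⟩ := Deep.exists_frob_eq_on ((L ⊔ L') ⊔ K) σ B
  have hLle : L ≤ (L ⊔ L') ⊔ K := le_sup_left.trans le_sup_left
  have hLle' : L' ≤ (L ⊔ L') ⊔ K := le_sup_right.trans le_sup_left
  have hKle : K ≤ (L ⊔ L') ⊔ K := le_sup_right
  have h3 : ∀ F : IntermediateField ℚ Qb, F ≤ (L ⊔ L') ⊔ K → ∀ x ∈ F, (σ⁻¹ * φ) x = x := by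
    intro F hF x hx
    rw [AlgEquiv.mul_apply, hφ' x (hF hx), ← AlgEquiv.mul_apply, inv_mul_cancel,
      AlgEquiv.one_apply]
  have h4 : φ = σ * (σ⁻¹ * φ) := by group
  refine ⟨q, hq, hqB, A, hA, φ, hφ, ?_, ?_, ?_⟩
  · have h5 : σ⁻¹ * φ ∈ K.fixingSubgroup :=
      (IntermediateField.mem_fixingSubgroup_iff _ _).mpr (h3 K hKle)
    constructor
    · intro h
      have := K.fixingSubgroup.mul_mem h (K.fixingSubgroup.inv_mem h5)
      rwa [mul_inv_rev, inv_inv, mul_inv_cancel_left] at this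
    · intro h
      rw [h4]
      exact K.fixingSubgroup.mul_mem h h5
  · rw [h4, map_mul, h1 _ (h3 L hLle), mul_one]
  · rw [h4, map_mul, h2 _ (h3 L' hLle'), mul_one]

/-- the exceptional primes -/
def exc (N : ℕ) (T : Finset ℕ) : Finset ℕ := T ∪ (2 * N).primeFactors

include hN in
lemma not_mem_exc {q : ℕ} (hq : q.Prime) (h : q ∉ exc N T) : q ∉ T ∧ q ≠ 2 ∧ ¬ q ∣ N := by
  rw [exc, Finset.mem_union, not_or] at h
  refine ⟨h.1, ?_, ?_⟩
  · rintro rfl
    exact h.2 (Nat.mem_primeFactors.mpr ⟨hq, dvd_mul_right _ _, mul_ne_zero two_ne_zero hN⟩)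
  · intro h1
    exact h.2 (Nat.mem_primeFactors.mpr ⟨hq, h1.mul_left _, mul_ne_zero two_ne_zero hN⟩)

omit [CharP k 2] in
include hlev hr hN hs hsK hfix htr hin in
lemma trace_outside {σ : GQ} (hσ : σ ∉ K.fixingSubgroup) : (r σ).trace = 0 := by
  obtain ⟨q, hq, hqB, A, hA, φ, hφ, h1, -, h3⟩ := exists_frob hlev (K := K) r hr (exc N T) σ
  obtain ⟨hqT, hq2, hqN⟩ := not_mem_exc hN T hq hqB
  rw [← h3, htr q hq hqT A hA φ hφ, hin q hq hqT]
  rintro ⟨I, hI⟩
  exact hσ (h1.mp (mem_fixing_of_absNorm hs hsK hfix hq hq2 hqN hA hφ hI))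

omit [CharP k 2] in
include hlev hr hK hψ2 htr hsp in
lemma trace_ker {σ : GQ} (hσ : rbar σ = 1) : (r σ).trace = 0 := by
  obtain ⟨q, hq, hqB, A, hA, φ, hφ, h1, h2, h3⟩ := exists_frob hlev (K := K) r hr T σ
  have hφK : φ ∈ K.fixingSubgroup := by
    rw [hK, h2, hσ, one_pow]
  have hI0 : below K A ≠ ⊥ := below_ne_bot K hq hA
  have hI := absNorm_below K hq hA hφ hφK
  let I : (Ideal (𝓞 K))⁰ := ⟨below K A, mem_nonZeroDivisors_of_ne_zero hI0⟩
  rw [← h3, htr q hq hqB A hA φ hφ, hsp q hq hqB I hI,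
    if_pos (hψ2 q hq A hA φ hφ (h2.trans hσ) I rfl)]

include hlev hr hK hψ2 htr hsp hdet in
/-- the trace of `r` factors through `r̄`. -/
lemma trace_mul_ker (σ : GQ) {τ : GQ} (hτ : rbar τ = 1) : (r (σ * τ)).trace = (r σ).trace := by
  have h2 : (2 : k) = 0 := CharTwo.two_eq_zero
  have key : ∀ τ, rbar τ = 1 → (r τ).trace = 0 := fun τ hτ =>
    trace_ker hlev hK hψ2 r hr T a htr hsp hτ
  have hσ' : r σ * r σ⁻¹ = 1 := by rw [← map_mul, mul_inv_cancel, map_one]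
  have htr1 : (1 : M2 k).trace = 0 := by
    rw [Matrix.trace_fin_two, Matrix.one_apply_eq, Matrix.one_apply_eq, ← h2]
    norm_num
  have hc : rbar (σ * τ * σ⁻¹) = 1 := by
    rw [map_mul, map_mul, hτ, mul_one, ← map_mul, mul_inv_cancel, map_one]
  have hc2 : rbar (τ * (σ * τ * σ⁻¹)) = 1 := by rw [map_mul, hτ, hc, one_mul]
  have h3 := trace_mul_eq_zero (r σ) (r σ⁻¹) (r τ - 1) hσ' (hdet σ)
    (by rw [Matrix.trace_sub, key τ hτ, htr1, sub_zero])
    (by
      have h4 := hdet τ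
      have h5 := key τ hτ
      rw [Matrix.trace_fin_two] at h5
      rw [Matrix.det_fin_two] at h4 ⊢
      simp only [Matrix.sub_apply, Matrix.one_apply_eq, Matrix.one_apply_ne (zero_ne_one),
        Matrix.one_apply_ne (one_ne_zero), sub_zero]
      linear_combination h4 - h5 + h2)
    (by
      have h4 : (r τ - 1) * (r σ * (r τ - 1) * r σ⁻¹) =
          r (τ * (σ * τ * σ⁻¹)) - r τ - r (σ * τ * σ⁻¹) + 1 := by
        have h5 : r σ * (r τ - 1) * r σ⁻¹ = r (σ * τ * σ⁻¹) - 1 := by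
          rw [mul_sub, sub_mul, mul_one, hσ', map_mul, map_mul]
        rw [h5, mul_sub, sub_mul, sub_mul, one_mul, mul_one, one_mul, map_mul r τ]
        abel
      rw [h4, Matrix.trace_add, Matrix.trace_sub, Matrix.trace_sub, key _ hc2, key _ hτ, key _ hc,
        htr1]
      simp)
  have h4 : r (σ * τ) = r σ + r σ * (r τ - 1) := by
    rw [map_mul, mul_sub, mul_one]
    abel
  rw [h4, Matrix.trace_add, h3, add_zero]

omit [CharP k 2] in
include hK hN hs hsK hfix hψ hψ2 htr hsp in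
/-- there is an element with `r̄` of order three and trace of `r` equal to `1`. -/
lemma exists_three : ∃ φ : GQ, rbar φ ^ 3 = 1 ∧ rbar φ ≠ 1 ∧ (r φ).trace = 1 := by
  have h3 : Fact (Nat.Prime 3) := ⟨Nat.prime_three⟩
  obtain ⟨q, hq, hqB, I, hI, h1, -⟩ := Surj.exists_prime_not_ker (p := 3) (p' := 3)
    (Or.inl (by norm_num)) hψ hψ (exc N T)
  obtain ⟨hqT, hq2, hqN⟩ := not_mem_exc hN T hq hqB
  have hIp : (I : Ideal (𝓞 K)).IsPrime :=
    Ideal.isPrime_of_irreducible_absNorm (by rw [hI]; exact hq)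
  have hqI : (q : 𝓞 K) ∈ (I : Ideal (𝓞 K)) := by
    rw [← hI]
    exact Ideal.absNorm_mem _
  obtain ⟨A, hA, hAI⟩ := exists_below_eq K (I : Ideal (𝓞 K)) hq hqI
  obtain ⟨φ, hφ⟩ := exists_isFrobeniusAt hq hA
  refine ⟨φ, (hK φ).mp (mem_fixing_of_absNorm hs hsK hfix hq hq2 hqN hA hφ hI), ?_, ?_⟩
  · intro h
    exact h1 (hψ2 q hq A hA φ hφ h I hAI.symm)
  · rw [htr q hq hqT A hA φ hφ, hsp q hq hqT I hI, if_neg h1]

include hlev hr hK hN hs hsK hfix hψ hψ2 htr hin hsp hdet in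
/-- **RIGIDITY**: `r` has the same traces as `r̄`. -/
theorem trace_rigid (σ : GQ) :
    ((rbar σ).trace = 0 → (r σ).trace = 0) ∧ ((rbar σ).trace = 1 → (r σ).trace = 1) := by
  have hdet2 : ∀ σ : GQ, (rbar σ).det = 1 := by
    intro σ
    have h3 : IsUnit (rbar σ).det := (Matrix.isUnit_iff_isUnit_det _).mp (rbar.toHomUnits σ).isUnit
    have h4 : ∀ x : ZMod 2, x ≠ 0 → x = 1 := by decide
    exact h4 _ h3.ne_zero
  by_cases h1 : rbar σ ^ 3 = 1
  · by_cases h2 : rbar σ = 1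
    · have h3 := trace_ker hlev hK hψ2 r hr T a htr hsp h2
      refine ⟨fun _ => h3, fun h => ?_⟩
      rw [h2] at h
      exact absurd h (by decide)
    · obtain ⟨φ, hφ3, hφ1, hφt⟩ :=
        exists_three hK hN hs hsK hfix hψ hψ2 r T a htr hsp
      have h4 : ∀ m m' : M2 (ZMod 2), m ^ 3 = 1 → m ≠ 1 → m' ^ 3 = 1 → m' ≠ 1 →
          m.trace = 1 ∧ (m * m' = 1 ∨ m * m' * m' = 1) := by decide
      obtain ⟨h5, h6⟩ := h4 (rbar φ) (rbar σ) hφ3 hφ1 h1 h2
      obtain ⟨h7, -⟩ := h4 (rbar σ) (rbar σ) h1 h2 h1 h2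
      refine ⟨fun h => absurd (h7.symm.trans h) (by decide), fun _ => ?_⟩
      rcases h6 with h6 | h6
      · -- `r̄ σ = (r̄ φ)⁻¹`
        have h8 : rbar (φ * σ) = 1 := by rw [map_mul, h6]
        have h9 := trace_mul_ker hlev hK hψ2 r hr hdet T a htr hsp φ⁻¹ h8
        rw [inv_mul_cancel_left] at h9
        rw [h9]
        have h10 : r φ⁻¹ = (r φ).adjugate := by
          have h11 : (r φ).adjugate * r φ = 1 := by rw [Matrix.adjugate_mul, hdet, one_smul]
          have h12 : r φ * r φ⁻¹ = 1 := by rw [← map_mul, mul_inv_cancel, map_one]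
          calc r φ⁻¹ = ((r φ).adjugate * r φ) * r φ⁻¹ := by rw [h11, one_mul]
            _ = (r φ).adjugate := by rw [mul_assoc, h12, mul_one]
        rw [h10, Matrix.adjugate_fin_two, ← hφt, Matrix.trace_fin_two, Matrix.trace_fin_two]
        simp [add_comm]
      · -- `r̄ σ = r̄ φ`
        have h8 : rbar (φ⁻¹ * σ) = 1 := by
          have h9 : ∀ m m' : M2 (ZMod 2), m * m' * m' = 1 → m' ^ 3 = 1 → m = m' := by decide
          have h10 := h9 _ _ h6 h1
          rw [map_mul, ← h10, ← map_mul, inv_mul_cancel, map_one]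
        have h9 := trace_mul_ker hlev hK hψ2 r hr hdet T a htr hsp φ h8
        rw [mul_inv_cancel_left] at h9
        rw [h9, hφt]
  · have h2 := trace_outside hlev hN hs hsK hfix r hr T a htr hin (fun h => h1 ((hK σ).mp h))
    refine ⟨fun _ => h2, fun h => ?_⟩
    have h4 : ∀ m : M2 (ZMod 2), m.det = 1 → m.trace = 1 → m ^ 3 = 1 := by decide
    exact absurd (h4 _ (hdet2 σ) h) h1

end Rigid

end Fermat.Agent.LTF.ArtC

end
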