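import Fermat.Agent.CFT.SExt
import Mathlib.NumberTheory.NumberField.InfinitePlace.TotallyRealComplex

/-!
# The quadratic input of unramified Artin reciprocity for `2`-extensions
-/

set_option autoImplicit false

namespace Fermat.Agent.LTF.Art

open IsDedekindDomain NumberField Fermat.Agent.CFT

/-- a place upstairs which is fixed by the Galois group (for a quadratic unramified extension:
an inert place) -/
def Fixed (K : Type*) {L : Type*} [Field K] [Field L] [Algebra K L]
    (w : HeightOneSpectrum (𝓞 L)) : Prop := ∀ σ : Gal(L/K), σ • w = w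

/-- Class field theory of an unramified quadratic extension of a totally complex field. -/
structure UQ (K L : Type*) [Field K] [NumberField K] [Field L] [NumberField L] [Algebra K L] :
    Prop where
  /-- reciprocity -/
  recip : ∀ x : Kˣ, Even (Set.ncard {v : HeightOneSpectrum (𝓞 K) |
    (∃ w : HeightOneSpectrum (𝓞 L), SUnits.under K w = v ∧ Fixed K w) ∧ Odd (SUnits.ord v x)})
  /-- existence -/
  exist : ∀ w₁ w₂ : HeightOneSpectrum (𝓞 L), Fixed K w₁ → Fixed K w₂ → w₁ ≠ w₂ →
    ∃ x : Kˣ, ∀ w : HeightOneSpectrum (𝓞 L), Fixed K w →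
      (Odd (SUnits.ord (SUnits.under K w) x) ↔ (w = w₁ ∨ w = w₂))
  /-- Hasse norm theorem -/
  hasse : ∀ x : Kˣ, (∀ w : HeightOneSpectrum (𝓞 L), Fixed K w →
    Even (SUnits.ord (SUnits.under K w) x)) → ∃ z : Lˣ, Algebra.norm K (z : L) = x
  /-- there is an inert place -/
  inert : ∃ w : HeightOneSpectrum (𝓞 L), Fixed K w

/-- what is to be proved with `CFT/Global2`. -/
def UQStatement : Prop :=
  ∀ (K L : Type) [Field K] [NumberField K] [IsTotallyComplex K] [Field L] [NumberField L]
    [Algebra K L] [IsGalois K L], Module.finrank K L = 2 →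
    (∀ w : HeightOneSpectrum (𝓞 L), SUnits.ramIdx K w = 1) → UQ K L

end Fermat.Agent.LTF.Art
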