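/-
LTFREE: definitions (captain helper95).  See board topic LTFREE for the blueprint.
-/
import Mathlib
import Fermat.Prelude.Def_EllipticCurve_FrobeniusTrace
import Fermat.Prelude.Def_FLTPrelim_Modularity
import Fermat.Prelude.Def_FLTPrelim_ModularRep
import Fermat.Prelude.Def_FLTPrelim_Ramification
import Fermat.Prelude.Def_CuspForm_Newforms
import Fermat.Prelude.Def_WeierstrassCurve_ConductorLevel

set_option autoImplicit false

noncomputable section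

namespace Fermat.Agent.LTF

open IsLocalRing

/-- the algebraic closure of `ℚ` -/
abbrev Qb := AlgebraicClosure ℚ
/-- the absolute Galois group of `ℚ` -/
abbrev GQ := AlgebraicClosure ℚ ≃ₐ[ℚ] AlgebraicClosure ℚ
/-- `2 × 2` matrices -/
abbrev M2 (A : Type*) := Matrix (Fin 2) (Fin 2) A

/-! ### The good curves -/

/-- The curves to which the 2-adic theorem applies. -/
structure GoodCurve (W : WeierstrassCurve ℤ) : Prop where
  /-- semistable minimal model -/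
  ss : W.IsSemistableModel
  /-- negative discriminant -/
  neg : W.Δ < 0
  /-- multiplicative reduction at `2` -/
  two : (2 : ℤ) ∣ W.Δ
  /-- every prime divides the discriminant to an odd power or not at all -/
  odd : ∀ r : ℕ, r.Prime → (r : ℤ) ∣ W.Δ → Odd (W.Δ.natAbs.factorization r)
  /-- `W[2]` is irreducible -/
  irr : W.ModRepIsIrreducible 2
  /-- a bad prime `≡ 11 mod 12` -/
  eleven : ∃ r : ℕ, r.Prime ∧ (r : ℤ) ∣ W.Δ ∧ r % 12 = 11

/-! ### Lifts of a residual representation with values in `GL₂(𝔽₂)` -/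

section Reps

variable {A : Type} [CommRing A]

/-- 2-adic continuity -/
def Cont (ρ : GQ →* M2 A) : Prop :=
  ∀ n : ℕ, ∃ L : IntermediateField ℚ Qb, FiniteDimensional ℚ L ∧
    ∀ σ : GQ, (∀ x ∈ L, σ x = x) → ∀ i j, (2 : A) ^ n ∣ (ρ σ - 1) i j

/-- determinant = 2-adic cyclotomic character -/
def DetCyc (ρ : GQ →* M2 A) : Prop :=
  ∀ (n : ℕ) (σ : GQ) (a : ℕ), (∀ μ : Qb, μ ^ 2 ^ n = 1 → σ μ = μ ^ a) →
    (2 : A) ^ n ∣ (ρ σ).det - (a : A)

/-- `ρ` is unramified at `ℓ` -/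
def Unr (ρ : GQ →* M2 A) (ℓ : ℕ) : Prop :=
  ∀ B : ValuationSubring Qb, B.LiesOverPrime ℓ → ∀ σ ∈ B.inertiaSubgroupIn ℚ, ρ σ = 1

/-- `Kind B v z σ s`: either `σ` is in the inertia group of `B` and `s = 1`, or `σ` is a
Frobenius at `B` and `s = z`. -/
def Kind (B : ValuationSubring Qb) (v : ℕ) (z : A) (σ : GQ) (s : A) : Prop :=
  (σ ∈ B.inertiaSubgroupIn ℚ ∧ s = 1) ∨ (B.IsFrobeniusAt σ v ∧ s = z)

/-- `Steinberg up to the sign z` at `v` (also for `v = 2`): there is a `D_v`-stable line on which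
`D_v` acts by `χ·λ(z)`, with `D_v` acting by `λ(z)` on the quotient; in matrix form. -/
def St (ρ : GQ →* M2 A) (v : ℕ) (z : A) : Prop :=
  z * z = 1 ∧ ∀ B : ValuationSubring Qb, B.LiesOverPrime v →
    ∀ (σ τ : GQ) (s t : A), Kind B v z σ s → Kind B v z τ t →
      (ρ σ - ((ρ σ).det * s) • (1 : M2 A)) * (ρ τ - t • (1 : M2 A)) = 0

/-- the set of places where the Steinberg condition is imposed: the primes dividing `N` and the
auxiliary primes `q ∈ P` -/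
def stPrimes (N : ℕ) (P : Finset ℕ) : Finset ℕ := N.primeFactors ∪ P

variable [IsLocalRing A]

/-- `ρ` is a lift of `r̄ : GQ →* M₂(𝔽₂)` (the residue field of `A` has characteristic 2) -/
def Lifts (rbar : GQ →* M2 (ZMod 2)) (ρ : GQ →* M2 A) : Prop :=
  (2 : A) ∈ maximalIdeal A ∧
  ∀ σ i j, (rbar σ i j = 0 → ρ σ i j ∈ maximalIdeal A) ∧
    (rbar σ i j = 1 → ρ σ i j - 1 ∈ maximalIdeal A)

/-- `(ρ, z)` is a deformation of type `(N, P)`. -/
structure IsType (rbar : GQ →* M2 (ZMod 2)) (N : ℕ) (P : Finset ℕ) (ρ : GQ →* M2 A) (z : ℕ → A) :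
    Prop where
  lifts : Lifts rbar ρ
  cont : Cont ρ
  det : DetCyc ρ
  unr : ∀ ℓ : ℕ, ℓ.Prime → ℓ ∉ stPrimes N P → Unr ρ ℓ
  st : ∀ v ∈ stPrimes N P, St ρ v (z v)

end Reps

/-! ### Auxiliary primes -/

/-- `q` is an auxiliary prime: `q ∤ 2N` and `r̄(Frob_q)` is an involution (`≠ 1`). -/
structure Aux (rbar : GQ →* M2 (ZMod 2)) (N q : ℕ) : Prop where
  prime : q.Prime
  ne_two : q ≠ 2
  not_dvd : ¬ q ∣ N
  frob : ∀ B : ValuationSubring Qb, B.LiesOverPrime q → ∀ σ : GQ, B.IsFrobeniusAt σ q →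
    rbar σ * rbar σ = 1 ∧ rbar σ ≠ 1

/-- The residual data coming from a good curve: `r̄ = W[2]`, `N` = conductor. -/
structure ResData (rbar : GQ →* M2 (ZMod 2)) (N : ℕ) : Prop where
  two_dvd : 2 ∣ N
  sqf : Squarefree N
  eleven : ∃ r : ℕ, r.Prime ∧ r ∣ N ∧ r % 12 = 11
  /-- the image is all of `GL₂(𝔽₂) ≅ S₃` -/
  surj : ∀ g : M2 (ZMod 2), g.det = 1 → ∃ σ, rbar σ = g
  cont : ∃ L : IntermediateField ℚ Qb, FiniteDimensional ℚ L ∧
    ∀ σ : GQ, (∀ x ∈ L, σ x = x) → rbar σ = 1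
  /-- the quadratic subfield is `ℚ(√-N)`: `σ` fixes `√-N` iff `r̄ σ` is not an involution -/
  quad : ∀ (σ : GQ) (s : Qb), s ^ 2 = -(N : Qb) → (σ s = s ↔ rbar σ ^ 3 = 1)
  unr : ∀ ℓ : ℕ, ℓ.Prime → ¬ ℓ ∣ N → ∀ B : ValuationSubring Qb, B.LiesOverPrime ℓ →
    ∀ σ ∈ B.inertiaSubgroupIn ℚ, rbar σ = 1
  /-- at `r ∣ N` the whole decomposition group acts through a group of order `2`, and inertia
  acts nontrivially -/
  dec : ∀ r : ℕ, r.Prime → r ∣ N → ∀ B : ValuationSubring Qb, B.LiesOverPrime r →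
    (∀ σ ∈ B.decompositionSubgroup ℚ, rbar σ * rbar σ = 1) ∧
    (∀ σ ∈ B.decompositionSubgroup ℚ, ∀ τ ∈ B.decompositionSubgroup ℚ,
      rbar σ = 1 ∨ rbar τ = 1 ∨ rbar σ = rbar τ) ∧
    ∃ σ ∈ B.inertiaSubgroupIn ℚ, rbar σ ≠ 1

end Fermat.Agent.LTF

end
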