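import Fermat.Agent.LTF.ArtD
import Fermat.Agent.LTF.Defs

/-!
# LTFREE, [ART3-b]: the cubic character, concrete form for `ResData`
-/

set_option autoImplicit false

noncomputable section

namespace Fermat.Agent.LTF.ArtC

open NumberField
open scoped nonZeroDivisors Pointwise

/-- the quadratic field `ℚ(s)`, `s² = -N` -/
abbrev KK (s : Qb) : IntermediateField ℚ Qb := IntermediateField.adjoin ℚ {s}

section Quad

variable {N : ℕ} {s : Qb}

lemma mem_KK (s : Qb) : s ∈ KK s := IntermediateField.mem_adjoin_simple_self ℚ s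

lemma mem_fixing_KK {σ : GQ} : σ ∈ (KK s).fixingSubgroup ↔ σ s = s := by
  constructor
  · intro h
    exact (IntermediateField.mem_fixingSubgroup_iff _ _).mp h s (mem_KK s)
  · intro h
    have h1 : KK s ≤ IntermediateField.fixedField (Subgroup.zpowers σ) := by
      rw [IntermediateField.adjoin_le_iff, Set.singleton_subset_iff]
      show s ∈ IntermediateField.fixedField (Subgroup.zpowers σ)
      rw [IntermediateField.mem_fixedField_iff]
      rintro g ⟨n, rfl⟩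
      have h2 : ∀ m : ℕ, (σ ^ m) s = s := by
        intro m
        induction m with
        | zero => rfl
        | succ m ih => rw [pow_succ, AlgEquiv.mul_apply, h, ih]
      obtain ⟨m, rfl | rfl⟩ := n.eq_nat_or_neg
      · change (σ ^ (m : ℤ)) s = s
        rw [zpow_natCast]; exact h2 m
      · change (σ ^ (-(m : ℤ))) s = s
        rw [zpow_neg, zpow_natCast]
        have h3 := congrArg (fun x => (σ ^ m)⁻¹ x) (h2 m)
        rw [← AlgEquiv.mul_apply, inv_mul_cancel, AlgEquiv.one_apply] at h3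
        exact h3.symm
    rw [IntermediateField.mem_fixingSubgroup_iff]
    intro x hx
    have h2 := h1 hx
    rw [IntermediateField.mem_fixedField_iff] at h2
    exact h2 σ (Subgroup.mem_zpowers σ)

instance finiteDimensional_KK (s : Qb) : FiniteDimensional ℚ (KK s) :=
  IntermediateField.adjoin.finiteDimensional (Algebra.IsIntegral.isIntegral s)

instance numberField_KK (s : Qb) : NumberField (KK s) := ⟨⟩

/-- `s` as an element of the ring of integers -/
def sInt (hs : s ^ 2 = -(N : Qb)) : 𝓞 (KK s) :=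
  ⟨⟨s, mem_KK s⟩, (isIntegral_algebraMap_iff (A := KK s) (B := Qb)
    (FaithfulSMul.algebraMap_injective _ _)).mp (isIntegral_s hs)⟩

lemma coe_sInt (hs : s ^ 2 = -(N : Qb)) : (((sInt hs : 𝓞 (KK s)) : KK s) : Qb) = s := rfl

/-- units of an imaginary quadratic field `ℚ(√-N)`, `N` even squarefree -/
lemma units_eq {K : Type*} [Field K] [NumberField K] {t : 𝓞 K} (h : QuadInt.IsQF N t)
    (u : (𝓞 K)ˣ) : u = 1 ∨ u = -1 := by
  obtain ⟨a, b, hab⟩ := h.exists_coords (u : 𝓞 K)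
  obtain ⟨c, d, hcd⟩ := h.exists_coords ((u⁻¹ : (𝓞 K)ˣ) : 𝓞 K)
  have h1 : (u : 𝓞 K) * ((u⁻¹ : (𝓞 K)ˣ) : 𝓞 K) = 1 := by rw [← Units.val_mul, mul_inv_cancel]; rfl
  rw [hab, hcd] at h1
  have h2 : ((a * c - N * (b * d) - 1 : ℤ) : 𝓞 K) + ((a * d + b * c : ℤ) : 𝓞 K) * t = 0 := by
    push_cast
    linear_combination h1 - (b : 𝓞 K) * d * h.sq
  obtain ⟨h3, h4⟩ := h.intInd _ _ h2
  have h5 : (a ^ 2 + N * b ^ 2) * (c ^ 2 + N * d ^ 2) = 1 := by
    have h6 : (a * c - N * (b * d)) = 1 := by linarith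
    have h7 : (a ^ 2 + N * b ^ 2) * (c ^ 2 + N * d ^ 2) =
      (a * c - N * (b * d)) ^ 2 + N * (a * d + b * c) ^ 2 := by ring
    rw [h7, h6, h4]
    ring
  have hN2 : (2 : ℤ) ≤ N := by
    obtain ⟨m, hm⟩ := h.even
    have := h.pos
    omega
  have h6 : a ^ 2 + N * b ^ 2 = 1 := by
    have h7 : (0 : ℤ) ≤ a ^ 2 + N * b ^ 2 := by positivity
    exact (Int.eq_one_or_neg_one_of_mul_eq_one h5).resolve_right (by linarith)
  have hb : b = 0 := by
    by_contra hb
    have : 1 ≤ b ^ 2 := by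
      have : 0 < b ^ 2 := by positivity
      omega
    nlinarith [sq_nonneg a]
  rw [hb] at h6
  have ha : a = 1 ∨ a = -1 := by
    have : a ^ 2 = 1 ^ 2 := by linarith [h6]
    exact sq_eq_sq_iff_eq_or_eq_neg.mp this
  rcases ha with rfl | rfl
  · left
    apply Units.ext
    rw [hab, hb]
    simp
  · right
    apply Units.ext
    rw [hab, hb]
    simp

end Quad

section Res

variable {rbar : GQ →* M2 (ZMod 2)} {N : ℕ} (h : ResData rbar N) {s : Qb}
  (hs : s ^ 2 = -(N : Qb))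

include h hs

lemma mem_fixing_iff (σ : GQ) : σ ∈ (KK s).fixingSubgroup ↔ rbar σ ^ 3 = 1 := by
  rw [mem_fixing_KK, h.quad σ s hs]

lemma isQF : QuadInt.IsQF N (sInt hs) where
  sq := by
    apply RingOfIntegers.ext
    apply Subtype.ext
    push_cast
    rw [coe_sInt]
    exact hs
  deg := finrank_K h.surj (mem_fixing_iff h hs)
  sqf := h.sqf
  even := h.two_dvd

lemma inertia_eq_one (q : ℕ) (hq : q.Prime) (A : ValuationSubring Qb) (hA : A.LiesOverPrime q)
    (σ : GQ) (hσ : σ ∈ A.inertiaSubgroupIn ℚ) (hσK : σ ∈ (KK s).fixingSubgroup) : rbar σ = 1 := by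
  by_cases hqN : q ∣ N
  · have h1 : rbar σ ^ 3 = 1 := (mem_fixing_iff h hs σ).mp hσK
    have h2 : σ ∈ A.decompositionSubgroup ℚ := by
      obtain ⟨⟨g, hg⟩, -, rfl⟩ := hσ
      exact hg
    have h3 := (h.dec q hq hqN A hA).1 σ h2
    have h4 : ∀ m : M2 (ZMod 2), m ^ 3 = 1 → m * m = 1 → m = 1 := by decide
    exact h4 _ h1 h3
  · exact h.unr q hq hqN A hA σ hσ

/-- **[ART3-b]** for the residual data of a good curve. -/
theorem exists_psi_resData : ∃ ψ : ClassGroup (𝓞 (KK s)) →* Multiplicative (ZMod 3), ψ ≠ 1 ∧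
    (∀ (q : ℕ), q.Prime → ∀ A : ValuationSubring Qb, A.LiesOverPrime q →
        ∀ φ : GQ, A.IsFrobeniusAt φ q → rbar φ = 1 →
          ∀ I : (Ideal (𝓞 (KK s)))⁰, (I : Ideal (𝓞 (KK s))) = below (KK s) A →
            ψ (ClassGroup.mk0 I) = 1) ∧
    ∀ (k : Type) [Field k] [CharP k 2] (r : GQ →* M2 k),
      (∃ L : IntermediateField ℚ Qb, FiniteDimensional ℚ L ∧
        ∀ σ : GQ, (∀ x ∈ L, σ x = x) → r σ = 1) →
      (∀ σ, (r σ).det = 1) → ∀ (T : Finset ℕ) (a : ℕ → k),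
      (∀ q : ℕ, q.Prime → q ∉ T → ∀ A : ValuationSubring Qb, A.LiesOverPrime q →
        ∀ φ : GQ, A.IsFrobeniusAt φ q → (r φ).trace = a q) →
      (∀ q : ℕ, q.Prime → q ∉ T → (¬ ∃ I : Ideal (𝓞 (KK s)), Ideal.absNorm I = q) → a q = 0) →
      (∀ q : ℕ, q.Prime → q ∉ T → ∀ I : (Ideal (𝓞 (KK s)))⁰,
        Ideal.absNorm (I : Ideal (𝓞 (KK s))) = q →
          a q = if ψ (ClassGroup.mk0 I) = 1 then 0 else 1) →
      ∀ σ, ((rbar σ).trace = 0 → (r σ).trace = 0) ∧ ((rbar σ).trace = 1 → (r σ).trace = 1) := by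
  obtain ⟨ψ, hψ, hψ2⟩ := exists_psi_rbar h.cont h.surj (mem_fixing_iff h hs)
    (inertia_eq_one h hs) (units_eq (isQF h hs))
  refine ⟨ψ, hψ, hψ2, fun k _ _ r hr hdet T a htr hin hsp σ => ?_⟩
  exact trace_rigid h.cont (mem_fixing_iff h hs) h.sqf.ne_zero hs (mem_KK s)
    (fun σ hσ => mem_fixing_KK.mpr hσ) hψ hψ2 r hr hdet T a htr hin hsp σ

end Res

end Fermat.Agent.LTF.ArtC

end
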