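import Fermat.Agent.LTF.ArtMain
import Fermat.Agent.LTF.ArtDefs

/-!
# Unramified Artin reciprocity for abelian `2`-extensions of totally complex number fields
-/

set_option autoImplicit false
set_option linter.unusedSectionVars false

namespace Fermat.Agent.LTF.Art

open IsDedekindDomain NumberField Fermat.Agent.CFT MulAction
open scoped Pointwise

lemma exists_ord_eq_one {K : Type*} [Field K] [NumberField K] (v : HeightOneSpectrum (𝓞 K)) :
    ∃ x : Kˣ, SUnits.ord v x = 1 := by
  obtain ⟨x, hx⟩ := v.valuation_exists_uniformizer K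
  have hx0 : x ≠ 0 := by
    rintro rfl
    rw [map_zero] at hx
    exact WithZero.exp_ne_zero hx.symm
  refine ⟨Units.mk0 x hx0, ?_⟩
  have h := SUnits.valuation_eq_exp_neg_ord K v (Units.mk0 x hx0)
  rw [Units.val_mk0, hx] at h
  have h2 := WithZero.exp_inj.mp h
  linarith

section Tower

variable (K : Type*) (E : Type*) {L : Type*} [Field K] [NumberField K] [Field E] [NumberField E]
  [Field L] [NumberField L] [Algebra K E] [Algebra E L] [Algebra K L] [IsScalarTower K E L]

omit [NumberField K] [NumberField E] [NumberField L] in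
lemma under_under (w : HeightOneSpectrum (𝓞 L)) :
    SUnits.under K (SUnits.under E w) = SUnits.under K w := by
  apply HeightOneSpectrum.ext
  rw [SUnits.under_asIdeal, SUnits.under_asIdeal, SUnits.under_asIdeal, Ideal.under_under]

omit [NumberField K] [NumberField E] [NumberField L] in
lemma map_map (x : Kˣ) :
    Units.map (algebraMap E L : E →* L) (Units.map (algebraMap K E : K →* E) x) =
    Units.map (algebraMap K L : K →* L) x := by
  apply Units.ext
  exact (IsScalarTower.algebraMap_apply K E L (x : K)).symm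

lemma ramIdx_tower (w : HeightOneSpectrum (𝓞 L)) :
    SUnits.ramIdx K w = SUnits.ramIdx E w * SUnits.ramIdx K (SUnits.under E w) := by
  obtain ⟨x, hx⟩ := exists_ord_eq_one (SUnits.under K w)
  have h1 := SUnits.ord_algebraMap w x
  have h2 := SUnits.ord_algebraMap w (Units.map (algebraMap K E : K →* E) x)
  rw [SUnits.ord_algebraMap (SUnits.under E w) x, map_map, under_under, h1, hx] at h2
  have h3 : (SUnits.ramIdx K w : ℤ) = SUnits.ramIdx E w * SUnits.ramIdx K (SUnits.under E w) := by
    linarith
  exact_mod_cast h3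

end Tower

section Orbit

variable {K L : Type*} [Field K] [NumberField K] [Field L] [NumberField L] [Algebra K L]
  (F : Type*) [Field F] [NumberField F] [Algebra F L]

/-- `F` is the fixed field of `H` -/
def IsFix (H : Subgroup Gal(L/K)) : Prop :=
  ∀ x : L, (∀ h ∈ H, h x = x) ↔ x ∈ Set.range (algebraMap F L)

variable {F} {H : Subgroup Gal(L/K)} (hF : IsFix F H)
include hF

omit [NumberField K] [NumberField L] [NumberField F] in
lemma IsFix.fixes {h : Gal(L/K)} (hh : h ∈ H) (x : F) : h (algebraMap F L x) = algebraMap F L x :=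
  (hF _).mpr ⟨x, rfl⟩ h hh

omit [NumberField K] [NumberField L] [NumberField F] in
lemma IsFix.smulComm : SMulCommClass H (𝓞 F) (𝓞 L) where
  smul_comm h a x := by
    apply RingOfIntegers.coe_injective
    have e : ∀ y : 𝓞 L, algebraMap (𝓞 L) L (h • y) = (h : Gal(L/K)) (algebraMap (𝓞 L) L y) :=
      fun y => SUnits.coe_smul_int (h : Gal(L/K)) y
    rw [e, Algebra.smul_def, Algebra.smul_def, map_mul, map_mul, map_mul, e,
      ← IsScalarTower.algebraMap_apply (𝓞 F) (𝓞 L) L, IsScalarTower.algebraMap_apply (𝓞 F) F L,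
      hF.fixes h.2]

omit [NumberField K] [NumberField L] [NumberField F] in
lemma IsFix.isInvariant : Algebra.IsInvariant (𝓞 F) (𝓞 L) H where
  isInvariant b hb := by
    have e : ∀ y : 𝓞 L, ∀ h : H, algebraMap (𝓞 L) L (h • y) =
      (h : Gal(L/K)) (algebraMap (𝓞 L) L y) :=
      fun y h => SUnits.coe_smul_int (h : Gal(L/K)) y
    obtain ⟨a, ha⟩ := (hF (algebraMap (𝓞 L) L b)).mp (by
      intro h hh
      rw [← e b ⟨h, hh⟩, hb])
    have hint : IsIntegral ℤ a := by
      have h1 : IsIntegral ℤ (algebraMap F L a) := by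
        rw [ha]
        exact b.isIntegral_coe
      exact (isIntegral_algebraMap_iff (algebraMap F L).injective).mp h1
    refine ⟨⟨a, hint⟩, ?_⟩
    apply RingOfIntegers.coe_injective
    exact ha

omit [NumberField K] [NumberField L] [NumberField F] in
lemma IsFix.under_eq_iff [FiniteDimensional K L] {w w' : HeightOneSpectrum (𝓞 L)} :
    SUnits.under F w' = SUnits.under F w ↔ w' ∈ orbit H w := by
  have h1 := hF.smulComm
  have h2 := hF.isInvariant
  constructor
  · intro h
    have h3 := congrArg HeightOneSpectrum.asIdeal h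
    rw [SUnits.under_asIdeal, SUnits.under_asIdeal] at h3
    obtain ⟨g, hg⟩ := Algebra.IsInvariant.exists_smul_of_under_eq (𝓞 F) (𝓞 L) H _ _ h3.symm
    rw [mem_orbit_iff']
    exact ⟨g, g.2, HeightOneSpectrum.ext hg.symm⟩
  · rintro ⟨g, rfl⟩
    apply HeightOneSpectrum.ext
    rw [SUnits.under_asIdeal, SUnits.under_asIdeal]
    exact Ideal.under_smul (A := 𝓞 F) w.asIdeal g

end Orbit

section Cyc

variable {K L : Type*} [Field K] [NumberField K] [Field L] [NumberField L] [Algebra K L]
  [IsGalois K L]

omit [NumberField K] [NumberField L] [IsGalois K L] in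
lemma stabilizer_eq (w : HeightOneSpectrum (𝓞 L)) :
    stabilizer Gal(L/K) w = stabilizer Gal(L/K) w.asIdeal := by
  ext σ
  rw [mem_stabilizer_iff, mem_stabilizer_iff, HeightOneSpectrum.ext_iff, SUnits.smul_asIdeal]

/-- the decomposition groups of an unramified extension are cyclic -/
lemma isCyclic_stabilizer (w : HeightOneSpectrum (𝓞 L)) (hw : SUnits.ramIdx K w = 1) :
    IsCyclic (stabilizer Gal(L/K) w) := by
  rw [stabilizer_eq]
  set v := SUnits.under K w with hv
  have hmaxv : v.asIdeal.IsMaximal := v.isMaximal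
  have hmaxw : w.asIdeal.IsMaximal := w.isMaximal
  let _ : Field (𝓞 K ⧸ v.asIdeal) := Ideal.Quotient.field _
  let _ : Field (𝓞 L ⧸ w.asIdeal) := Ideal.Quotient.field _
  have hfin : Finite (𝓞 L ⧸ w.asIdeal) := Ideal.finiteQuotientOfFreeOfNeBot _ w.ne_bot
  have hfinv : Finite (𝓞 K ⧸ v.asIdeal) := Ideal.finiteQuotientOfFreeOfNeBot _ v.ne_bot
  have hcard : Nat.card (w.asIdeal.inertia Gal(L/K)) = 1 := by
    rw [Ideal.card_inertia_eq_ramificationIdxIn v.asIdeal w.asIdeal,
      Ideal.ramificationIdxIn_eq_ramificationIdx v.asIdeal w.asIdeal Gal(L/K), ← hw]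
    exact (Ideal.ramificationIdx'_eq_ramificationIdx v.asIdeal w.asIdeal v.ne_bot).symm
  have hinj : Function.Injective (Ideal.Quotient.stabilizerHom w.asIdeal v.asIdeal Gal(L/K)) := by
    rw [← MonoidHom.ker_eq_bot_iff]
    have h1 := Ideal.Quotient.map_ker_stabilizer_subtype (G := Gal(L/K)) w.asIdeal v.asIdeal
    have h2 : w.asIdeal.inertia Gal(L/K) = ⊥ := Subgroup.card_eq_one.mp hcard
    rw [h2, Subgroup.map_eq_bot_iff_of_injective _ (Subgroup.subtype_injective _)] at h1
    exact h1
  have hcyc : IsCyclic ((𝓞 L ⧸ w.asIdeal) ≃ₐ[𝓞 K ⧸ v.asIdeal] (𝓞 L ⧸ w.asIdeal)) := by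
    have : IsCyclic Gal((𝓞 L ⧸ w.asIdeal)/(𝓞 K ⧸ v.asIdeal)) := inferInstance
    exact this
  exact isCyclic_of_injective _ hinj

end Cyc

section Res

variable {K L : Type*} [Field K] [NumberField K] [Field L] [NumberField L] [Algebra K L]
  {F : Type*} [Field F] [NumberField F] [Algebra F L] {H H₁ : Subgroup Gal(L/K)}
  {E : Type*} [Field E] [NumberField E] [Algebra E L] [Algebra F E] [IsScalarTower F E L]

/-- an element of `H` as an automorphism over `F` -/
noncomputable def IsFix.toGal (hF : IsFix F H) {h : Gal(L/K)} (hh : h ∈ H) : Gal(L/F) :=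
  AlgEquiv.ofRingEquiv (f := h.toRingEquiv) (fun x => hF.fixes hh x)

omit [NumberField K] [NumberField L] [NumberField F] in
lemma IsFix.toGal_apply (hF : IsFix F H) {h : Gal(L/K)} (hh : h ∈ H) (x : L) :
    hF.toGal hh x = h x := rfl

/-- the restriction -/
noncomputable def IsFix.res (hF : IsFix F H) (E : Type*) [Field E] [Algebra E L] [Algebra F E]
    [IsScalarTower F E L] [Normal F E] {h : Gal(L/K)} (hh : h ∈ H) : Gal(E/F) :=
  (hF.toGal hh).restrictNormal E

omit [NumberField K] [NumberField L] [NumberField F] [NumberField E] in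
lemma IsFix.res_apply (hF : IsFix F H) [Normal F E] {h : Gal(L/K)} (hh : h ∈ H) (x : E) :
    algebraMap E L (hF.res E hh x) = h (algebraMap E L x) :=
  AlgEquiv.restrictNormal_commutes (hF.toGal hh) E x

omit [NumberField K] [NumberField L] [NumberField F] [NumberField E] [IsScalarTower F E L] in
lemma under_smul_of {σ : Gal(E/F)} {h : Gal(L/K)}
    (hσ : ∀ x : E, algebraMap E L (σ x) = h (algebraMap E L x)) (w : HeightOneSpectrum (𝓞 L)) :
    SUnits.under E (h • w) = σ • SUnits.under E w := by
  apply HeightOneSpectrum.ext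
  rw [SUnits.under_asIdeal, SUnits.smul_asIdeal, SUnits.smul_asIdeal, SUnits.under_asIdeal]
  ext a
  rw [Ideal.mem_comap, Ideal.mem_pointwise_smul_iff_inv_smul_mem,
    Ideal.mem_pointwise_smul_iff_inv_smul_mem, Ideal.mem_comap]
  have e : h⁻¹ • (algebraMap (𝓞 E) (𝓞 L) a) = algebraMap (𝓞 E) (𝓞 L) (σ⁻¹ • a) := by
    rw [inv_smul_eq_iff]
    apply RingOfIntegers.coe_injective
    rw [SUnits.coe_smul_int, ← IsScalarTower.algebraMap_apply (𝓞 E) (𝓞 L) L,
      ← IsScalarTower.algebraMap_apply (𝓞 E) (𝓞 L) L,
      IsScalarTower.algebraMap_apply (𝓞 E) E L, IsScalarTower.algebraMap_apply (𝓞 E) E L,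
      ← hσ, SUnits.coe_smul_int, AlgEquiv.aut_inv, AlgEquiv.apply_symm_apply]
  rw [e]

omit [NumberField K] [NumberField L] in
lemma IsFix.mem_of_fixes [FiniteDimensional K L] {t : Gal(L/K)} (hE : IsFix E H₁)
    (ht : ∀ x : E, t (algebraMap E L x) = algebraMap E L x) : t ∈ H₁ := by
  rw [← IntermediateField.fixingSubgroup_fixedField H₁, IntermediateField.mem_fixingSubgroup_iff]
  intro x hx
  rw [IntermediateField.mem_fixedField_iff] at hx
  obtain ⟨y, rfl⟩ := (hE x).mp hx
  exact ht y

omit [NumberField K] in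
lemma exists_notMem (hidx : H₁.relIndex H = 2) : ∃ t ∈ H, t ∉ H₁ := by
  by_contra hcon
  push Not at hcon
  have := Subgroup.relIndex_eq_one.mpr (show H ≤ H₁ from hcon)
  omega

/-- the Galois group of the quadratic extension -/
lemma eq_one_or_eq [FiniteDimensional K L] [IsGalois F E] (hF : IsFix F H) (hE : IsFix E H₁)
    (hd : Module.finrank F E = 2) {t : Gal(L/K)} (ht : t ∈ H) (ht1 : t ∉ H₁) :
    hF.res E ht ≠ 1 ∧ ∀ σ : Gal(E/F), σ = 1 ∨ σ = hF.res E ht := by
  have h1 : hF.res E ht ≠ 1 := by
    intro h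
    apply ht1
    apply hE.mem_of_fixes
    intro x
    rw [← hF.res_apply ht, h]
    rfl
  refine ⟨h1, ?_⟩
  have hfin : FiniteDimensional F E := Module.finite_of_finrank_pos (by omega)
  have hcard : Nat.card Gal(E/F) = 2 := by rw [IsGalois.card_aut_eq_finrank, hd]
  obtain ⟨y, -, hy⟩ := (Nat.card_eq_two_iff' (1 : Gal(E/F))).mp hcard
  intro σ
  by_cases h : σ = 1
  · exact Or.inl h
  · right
    rw [hy σ h, ← hy _ h1]

lemma fixed_iff [FiniteDimensional K L] [IsGalois F E] (hF : IsFix F H) (hE : IsFix E H₁)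
    (hle : H₁ ≤ H) (hidx : H₁.relIndex H = 2)
    (hd : Module.finrank F E = 2) (w : HeightOneSpectrum (𝓞 L)) :
    Fixed F (SUnits.under E w) ↔ ¬ (stabilizer Gal(L/K) w ⊓ H ≤ H₁) := by
  constructor
  · intro hfix hst
    obtain ⟨t, ht, ht1⟩ := exists_notMem hidx
    have h1 := under_smul_of (hF.res_apply (E := E) ht) w
    rw [hfix, hE.under_eq_iff, mem_orbit_iff'] at h1
    obtain ⟨h, hh, hhw⟩ := h1
    have h2 : h⁻¹ * t ∈ stabilizer Gal(L/K) w ⊓ H := by
      refine Subgroup.mem_inf.mpr ⟨?_, mul_mem (inv_mem (hle hh)) ht⟩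
      rw [mem_stabilizer_iff, mul_smul, ← hhw, inv_smul_smul]
    have h3 := hst h2
    exact ht1 (by simpa using mul_mem hh h3)
  · intro hw
    rw [SetLike.not_le_iff_exists] at hw
    obtain ⟨t, htm, ht1⟩ := hw
    obtain ⟨hts, ht⟩ := Subgroup.mem_inf.mp htm
    intro σ
    rcases (eq_one_or_eq hF hE hd ht ht1).2 σ with rfl | rfl
    · exact one_smul _ _
    · rw [← under_smul_of (hF.res_apply (E := E) ht) w, mem_stabilizer_iff.mp hts]

lemma norm_eq [FiniteDimensional K L] [IsGalois F E] (hF : IsFix F H) (hE : IsFix E H₁)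
    (hd : Module.finrank F E = 2) {t : Gal(L/K)} (ht : t ∈ H) (ht1 : t ∉ H₁) (z : E) :
    algebraMap F L (Algebra.norm F z) = algebraMap E L z * t (algebraMap E L z) := by
  classical
  have hfin : FiniteDimensional F E := Module.finite_of_finrank_pos (by omega)
  obtain ⟨h1, h2⟩ := eq_one_or_eq hF hE hd ht ht1
  have hu : (Finset.univ : Finset Gal(E/F)) = {1, hF.res E ht} := by
    ext σ
    simpa using h2 σ
  rw [IsScalarTower.algebraMap_apply F E L, Algebra.norm_eq_prod_automorphisms, hu,
    Finset.prod_pair h1.symm, map_mul, hF.res_apply]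
  rfl

end Res

section System

variable (K L : Type*) [Field K] [NumberField K] [Field L] [NumberField L] [Algebra K L]

/-- the arithmetic system -/
noncomputable def sys : Sys Gal(L/K) (HeightOneSpectrum (𝓞 L)) (Additive Lˣ) where
  act :=
    { toFun := fun σ => MonoidHom.toAdditive (SUnits.galU σ).toMonoidHom
      map_one' := by
        ext x
        rfl
      map_mul' := fun σ τ => by
        ext x
        rfl }
  dv :=
    { toFun := fun x => SUnits.div x.toMul
      map_zero' := SUnits.div_one L
      map_add' := fun x y => SUnits.div_mul L x.toMul y.toMul }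
  dv_act := fun σ x => by
    ext w
    exact SUnits.ord_galU σ w x.toMul

variable {K L}

lemma sys_dv (x : Lˣ) (w : HeightOneSpectrum (𝓞 L)) :
    (sys K L).dv (Additive.ofMul x) w = SUnits.ord w x := rfl

lemma mem_fix_iff {F : Type*} [Field F] [Algebra F L] {H : Subgroup Gal(L/K)} (hF : IsFix F H)
    (m : Additive Lˣ) : m ∈ (sys K L).fix H ↔
      ∃ x : Fˣ, m = Additive.ofMul (Units.map (algebraMap F L : F →* L) x) := by
  constructor
  · intro h
    obtain ⟨a, ha⟩ := (hF (m.toMul : L)).mp (fun g hg => congrArg Units.val (h g hg))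
    have ha0 : a ≠ 0 := by
      rintro rfl
      rw [map_zero] at ha
      exact m.toMul.ne_zero ha.symm
    refine ⟨Units.mk0 a ha0, ?_⟩
    exact congrArg Additive.ofMul (Units.ext ha.symm : m.toMul = _)
  · rintro ⟨x, rfl⟩ g hg
    exact congrArg Additive.ofMul (Units.ext (hF.fixes hg (x : F)))

/-- an invariant divisor divisible by the residue degrees is in the norm group -/
lemma mem_closure_of_dvd {G W : Type*} [CommGroup G] [MulAction G W] [Finite G]
    (H₁ H : Subgroup G) {b : W →₀ ℤ} (hb : b ∈ inv W H)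
    (hd : ∀ w, (Sys.fd H₁ H w : ℤ) ∣ b w) :
    b ∈ AddSubgroup.closure (Set.range fun w : W => Sys.fd H₁ H w • s H w) := by
  classical
  induction hn : b.support.card using Nat.strong_induction_on generalizing b with
  | _ n ih =>
    by_cases h0 : b = 0
    · rw [h0]
      exact zero_mem _
    · obtain ⟨w, hw⟩ : ∃ w, b w ≠ 0 := by
        by_contra hcon
        push Not at hcon
        exact h0 (Finsupp.ext hcon)
      set b' := b - b w • s H w with hb'
      have hb'm : b' ∈ inv W H := sub_mem hb (zsmul_mem (s_mem_inv H w) _)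
      have hval : ∀ w', b' w' = if w' ∈ orbit H w then 0 else b w' := by
        intro w'
        rw [hb', Finsupp.sub_apply, Finsupp.smul_apply, s_apply]
        split_ifs with h
        · obtain ⟨g, hg, rfl⟩ := mem_orbit_iff'.mp h
          rw [hb g hg w]
          simp
        · simp
      have hlt : b'.support.card < n := by
        rw [← hn]
        apply Finset.card_lt_card
        rw [Finset.ssubset_iff_of_subset]
        · refine ⟨w, ?_, ?_⟩
          · rwa [Finsupp.mem_support_iff]
          · rw [Finsupp.notMem_support_iff, hval, if_pos (mem_orbit_self w)]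
        · intro x hx
          rw [Finsupp.mem_support_iff, hval] at hx
          rw [Finsupp.mem_support_iff]
          intro hx0
          rw [hx0] at hx
          simp at hx
      have hd' : ∀ w', (Sys.fd H₁ H w' : ℤ) ∣ b' w' := by
        intro w'
        rw [hval]
        split_ifs
        · exact dvd_zero _
        · exact hd w'
      have h1 := ih _ hlt hb'm hd' rfl
      have h2 : b = b' + b w • s H w := by rw [hb', sub_add_cancel]
      rw [h2]
      obtain ⟨c, hc⟩ := hd w
      refine add_mem h1 ?_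
      rw [hc, mul_comm, mul_smul, natCast_zsmul]
      exact zsmul_mem (AddSubgroup.subset_closure (Set.mem_range_self w)) _

end System

section Quad

variable {K L : Type*} [Field K] [NumberField K] [Field L] [NumberField L] [Algebra K L]
  {F : Type*} [Field F] [NumberField F] [Algebra F L] {H H₁ : Subgroup Gal(L/K)}
  {E : Type*} [Field E] [NumberField E] [Algebra E L] [Algebra F E] [IsScalarTower F E L]

lemma ord_of_fix (hr : ∀ w : HeightOneSpectrum (𝓞 L), SUnits.ramIdx F w = 1)
    (x : Fˣ) (w : HeightOneSpectrum (𝓞 L)) :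
    SUnits.ord w (Units.map (algebraMap F L : F →* L) x) = SUnits.ord (SUnits.under F w) x := by
  rw [SUnits.ord_algebraMap, hr w]
  simp

theorem quad_of_UQ [FiniteDimensional K L] [IsGalois F E] (hcomm : ∀ a b : Gal(L/K), a * b = b * a)
    (hF : IsFix F H) (hE : IsFix E H₁)
    (hle : H₁ ≤ H) (hidx : H₁.relIndex H = 2) (hd : Module.finrank F E = 2)
    (hr : ∀ w : HeightOneSpectrum (𝓞 L), SUnits.ramIdx F w = 1) (hUQ : UQ F E) :
    (sys K L).Quad H₁ H := by
  let _ : CommGroup Gal(L/K) := { (inferInstance : Group Gal(L/K)) with mul_comm := hcomm }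
  have hfix := fixed_iff hF hE hle hidx hd
  have hodd : ∀ (x : Fˣ) (w : HeightOneSpectrum (𝓞 L)),
      SUnits.ord w (Units.map (algebraMap F L : F →* L) x) = SUnits.ord (SUnits.under F w) x :=
    ord_of_fix hr
  have hund : ∀ u w : HeightOneSpectrum (𝓞 L), ¬ (stabilizer Gal(L/K) w ⊓ H ≤ H₁) →
      (SUnits.under E u = SUnits.under E w ↔ u ∈ orbit H w) := by
    intro u w hw
    constructor
    · intro h
      rw [← hF.under_eq_iff, ← under_under F E u, h, under_under]
    · intro h
      obtain ⟨g, hg, rfl⟩ := mem_orbit_iff'.mp h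
      exact hE.under_eq_iff.mpr (mem_orbit_of_inert hidx hw hg)
  refine ⟨?_, ?_, ?_, ?_⟩
  · obtain ⟨w', hw'⟩ := hUQ.inert
    obtain ⟨w, rfl⟩ := SUnits.under_surjective L w'
    exact ⟨w, (hfix w).mp hw'⟩
  · intro w w' hw hw'
    by_cases hww : w' ∈ orbit H w
    · rw [s_eq_of_mem hww, ← two_nsmul, ← fd_of_inert hidx hw]
      exact (sys K L).smul_mem_D H₁ H w
    · have hne : SUnits.under E w ≠ SUnits.under E w' := by
        intro h
        apply hww
        rw [← hF.under_eq_iff, ← under_under F E w, h, under_under]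
      obtain ⟨x, hx⟩ := hUQ.exist _ _ ((hfix w).mpr hw) ((hfix w').mpr hw') hne
      set m : Additive Lˣ := Additive.ofMul (Units.map (algebraMap F L : F →* L) x) with hm
      have hmfix : m ∈ (sys K L).fix H := (mem_fix_iff hF m).mpr ⟨x, rfl⟩
      have hprin : (sys K L).dv m ∈ (sys K L).prin H := ⟨m, hmfix, rfl⟩
      have hb : s H w + s H w' - (sys K L).dv m ∈ inv (HeightOneSpectrum (𝓞 L)) H :=
        sub_mem (add_mem (s_mem_inv H w) (s_mem_inv H w')) ((sys K L).prin_le_inv H hprin)
      have hcl := mem_closure_of_dvd H₁ H hb (by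
        intro u
        by_cases hu : stabilizer Gal(L/K) u ⊓ H ≤ H₁
        · rw [fd_of_not_inert hu]
          simp
        · rw [fd_of_inert hidx hu, Finsupp.sub_apply, Finsupp.add_apply, s_apply, s_apply]
          have e1 : (sys K L).dv m u = SUnits.ord (SUnits.under F (SUnits.under E u)) x := by
            rw [under_under, ← hodd]
            rfl
          have e2 := hx _ ((hfix u).mpr hu)
          rw [← e1, hund u w hw, hund u w' hw'] at e2
          rw [Nat.cast_ofNat, ← even_iff_two_dvd]
          by_cases h1 : u ∈ orbit H w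
          · have h2 : u ∉ orbit H w' := by
              intro h2
              apply hww
              rw [← orbit_eq_iff.mpr h1, orbit_eq_iff.mpr h2]
              exact mem_orbit_self w'
            rw [if_pos h1, if_neg h2, add_zero]
            exact Odd.sub_odd odd_one (e2.mpr (Or.inl h1))
          · by_cases h2 : u ∈ orbit H w'
            · rw [if_neg h1, if_pos h2, zero_add]
              exact Odd.sub_odd odd_one (e2.mpr (Or.inr h2))
            · rw [if_neg h1, if_neg h2, zero_add, zero_sub, even_neg, ← Int.not_odd_iff_even, e2]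
              exact fun h => h.elim h1 h2)
      have := add_mem ((le_sup_left : _ ≤ (sys K L).D H₁ H) hcl) ((sys K L).prin_le_D H₁ H hprin)
      rwa [sub_add_cancel] at this
  · intro w hw hmem
    obtain ⟨c, hc, p, hp, hcp⟩ := AddSubgroup.mem_sup.mp hmem
    obtain ⟨m, hm, rfl⟩ := hp
    obtain ⟨x, rfl⟩ := (mem_fix_iff hF m).mp hm
    have hceven : ∀ u, ¬ (stabilizer Gal(L/K) u ⊓ H ≤ H₁) → Even (c u) := by
      intro u hu
      clear hcp
      induction hc using AddSubgroup.closure_induction with
      | mem y hy =>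
        obtain ⟨w', rfl⟩ := hy
        simp only [Finsupp.smul_apply, s_apply]
        by_cases h1 : u ∈ orbit H w'
        · obtain ⟨g, hg, rfl⟩ := mem_orbit_iff'.mp h1
          rw [stabilizer_smul hcomm] at hu
          rw [fd_of_inert hidx hu, if_pos h1]
          exact ⟨1, by simp⟩
        · rw [if_neg h1, smul_zero]
          exact Even.zero
      | zero => exact Even.zero
      | add y z _ _ hy hz => exact hy.add hz
      | neg y _ hy => exact hy.neg
    have hpar : ∀ u, ¬ (stabilizer Gal(L/K) u ⊓ H ≤ H₁) →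
        (Odd (SUnits.ord (SUnits.under F u) x) ↔ u ∈ orbit H w) := by
      intro u hu
      have e1 := DFunLike.congr_fun hcp u
      rw [Finsupp.add_apply, s_apply] at e1
      have e2 : (sys K L).dv (Additive.ofMul (Units.map (algebraMap F L : F →* L) x)) u =
        SUnits.ord (SUnits.under F u) x := hodd x u
      rw [e2] at e1
      obtain ⟨k, hk⟩ := hceven u hu
      rw [hk] at e1
      split_ifs at e1 with h
      · simp only [h, iff_true]
        exact ⟨-k, by linarith⟩
      · simp only [h, iff_false, Int.not_odd_iff_even]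
        exact ⟨-k, by linarith⟩
    have hset : {v : HeightOneSpectrum (𝓞 F) |
        (∃ w : HeightOneSpectrum (𝓞 E), SUnits.under F w = v ∧ Fixed F w) ∧
          Odd (SUnits.ord v x)} = {SUnits.under F w} := by
      ext v
      rw [Set.mem_ofPred_eq, Set.mem_singleton_iff]
      constructor
      · rintro ⟨⟨w', rfl, hw'⟩, ho⟩
        obtain ⟨u, rfl⟩ := SUnits.under_surjective L w'
        rw [under_under] at ho ⊢
        rw [hF.under_eq_iff]
        exact (hpar u ((hfix u).mp hw')).mp ho
      · rintro rfl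
        exact ⟨⟨SUnits.under E w, under_under F E w, (hfix w).mpr hw⟩,
          (hpar w hw).mpr (mem_orbit_self w)⟩
    have h3 := hUQ.recip x
    rw [hset, Set.ncard_singleton] at h3
    exact absurd h3 (by decide)
  · intro m hm hev
    obtain ⟨x, rfl⟩ := (mem_fix_iff hF m).mp hm
    obtain ⟨z, hz⟩ := hUQ.hasse x (by
      intro w' hw'
      obtain ⟨w, rfl⟩ := SUnits.under_surjective L w'
      rw [under_under, ← hodd]
      exact hev w ((hfix w).mp hw'))
    obtain ⟨t, ht, ht1⟩ := exists_notMem hidx
    refine ⟨Additive.ofMul (Units.map (algebraMap E L : E →* L) z), (mem_fix_iff hE _).mpr ⟨z, rfl⟩,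
      t, ht, ht1, ?_⟩
    have h1 := norm_eq hF hE hd ht ht1 (z : E)
    rw [hz] at h1
    exact congrArg Additive.ofMul (Units.ext h1 :
      Units.map (algebraMap F L : F →* L) x = Units.map (algebraMap E L : E →* L) z *
        SUnits.galU t (Units.map (algebraMap E L : E →* L) z))

end Quad

section ClassMap

variable (K L : Type*) [Field K] [NumberField K] [Field L] [NumberField L] [Algebra K L]

/-- a choice of a place of `L` above each place of `K` -/
noncomputable def sec (v : HeightOneSpectrum (𝓞 K)) : HeightOneSpectrum (𝓞 L) :=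
  (SUnits.under_surjective L v).choose

lemma under_sec (v : HeightOneSpectrum (𝓞 K)) : SUnits.under K (sec K L v) = v :=
  (SUnits.under_surjective L v).choose_spec

lemma sec_injective : Function.Injective (sec K L) := fun v v' h => by
  rw [← under_sec K L v, h, under_sec]

/-- the class of an invariant divisor -/
noncomputable def piCl :
    Multiplicative (inv (HeightOneSpectrum (𝓞 L)) (⊤ : Subgroup Gal(L/K))) →*
      ClassGroup (𝓞 K) :=
  (SUnits.classOf (K := K)).comp (AddMonoidHom.toMultiplicative
    ((Finsupp.comapDomain.addMonoidHom (sec_injective K L)).comp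
      (inv (HeightOneSpectrum (𝓞 L)) (⊤ : Subgroup Gal(L/K))).subtype))

lemma piCl_eq_one_iff (b : Multiplicative (inv (HeightOneSpectrum (𝓞 L))
    (⊤ : Subgroup Gal(L/K)))) :
    piCl K L b = 1 ↔ ∃ x : Kˣ, ∀ v : HeightOneSpectrum (𝓞 K),
      SUnits.ord v x = (b.toAdd : HeightOneSpectrum (𝓞 L) →₀ ℤ) (sec K L v) := by
  unfold piCl
  rw [MonoidHom.comp_apply, SUnits.classOf_eq_one_iff]
  constructor
  · rintro ⟨x, hx⟩
    exact ⟨x, fun v => DFunLike.congr_fun hx v⟩
  · rintro ⟨x, hx⟩
    refine ⟨x, ?_⟩
    ext v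
    exact hx v

lemma isFix_top [IsGalois K L] : IsFix K (⊤ : Subgroup Gal(L/K)) := by
  intro x
  rw [IsGalois.mem_range_algebraMap_iff_fixed]
  exact ⟨fun h g => h g (Subgroup.mem_top g), fun h g _ => h g⟩

variable {K L}

lemma piCl_ker [IsGalois K L] (hr : ∀ w : HeightOneSpectrum (𝓞 L), SUnits.ramIdx K w = 1)
    (b : Multiplicative (inv (HeightOneSpectrum (𝓞 L)) (⊤ : Subgroup Gal(L/K)))) :
    piCl K L b = 1 ↔ ((b.toAdd : inv (HeightOneSpectrum (𝓞 L)) (⊤ : Subgroup Gal(L/K))) :
      HeightOneSpectrum (𝓞 L) →₀ ℤ) ∈ (sys K L).prin (⊤ : Subgroup Gal(L/K)) := by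
  rw [piCl_eq_one_iff]
  have hb := b.toAdd.2
  rw [mem_inv] at hb
  constructor
  · rintro ⟨x, hx⟩
    refine ⟨Additive.ofMul (Units.map (algebraMap K L : K →* L) x),
      (mem_fix_iff (isFix_top K L) _).mpr ⟨x, rfl⟩, ?_⟩
    ext w
    have h1 : (sys K L).dv (Additive.ofMul (Units.map (algebraMap K L : K →* L) x)) w =
      SUnits.ord (SUnits.under K w) x := ord_of_fix hr x w
    rw [h1, hx]
    obtain ⟨g, hg, hgw⟩ := mem_orbit_iff'.mp
      ((isFix_top K L).under_eq_iff.mp (under_sec K L (SUnits.under K w)))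
    rw [← hgw, hb g hg]
  · rintro ⟨m, hm, hmb⟩
    obtain ⟨x, rfl⟩ := (mem_fix_iff (isFix_top K L) _).mp hm
    refine ⟨x, fun v => ?_⟩
    rw [← hmb]
    have h1 := ord_of_fix hr x (sec K L v)
    rw [under_sec] at h1
    exact h1.symm

lemma piCl_surjective [IsGalois K L] : Function.Surjective (piCl K L) := by
  intro c
  obtain ⟨D, rfl⟩ := SUnits.classOf_surjective c
  let b : HeightOneSpectrum (𝓞 L) →₀ ℤ :=
    Finsupp.onFinset (SUnits.aboveS L D.toAdd.support) (fun w => D.toAdd (SUnits.under K w))
      (by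
        intro w hw
        rw [SUnits.mem_aboveS, Finsupp.mem_support_iff]
        exact hw)
  have hb : b ∈ inv (HeightOneSpectrum (𝓞 L)) (⊤ : Subgroup Gal(L/K)) := by
    intro g _ w
    change D.toAdd (SUnits.under K (g • w)) = D.toAdd (SUnits.under K w)
    rw [SUnits.under_smul]
  refine ⟨Multiplicative.ofAdd ⟨b, hb⟩, ?_⟩
  unfold piCl
  rw [MonoidHom.comp_apply]
  congr 1
  apply Multiplicative.toAdd.injective
  ext v
  change D.toAdd (SUnits.under K (sec K L v)) = D.toAdd v
  rw [under_sec]

end ClassMap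

section Final

lemma isFix_fixedField {K L : Type*} [Field K] [Field L] [Algebra K L] (H : Subgroup Gal(L/K)) :
    IsFix (IntermediateField.fixedField H) H := by
  intro x
  constructor
  · intro h
    exact ⟨⟨x, IntermediateField.mem_fixedField_iff H x |>.mpr h⟩, rfl⟩
  · rintro ⟨y, rfl⟩ h hh
    exact (IntermediateField.mem_fixedField_iff H _).mp y.2 h hh

/-- **Unramified Artin reciprocity** for abelian `2`-extensions of totally complex number fields:
the class number is divisible by the degree. -/
theorem art (hUQ : UQStatement) (K L : Type) [Field K] [NumberField K] [IsTotallyComplex K]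
    [Field L] [NumberField L] [Algebra K L] [IsGalois K L]
    (hcomm : ∀ a b : Gal(L/K), a * b = b * a) {m : ℕ} (hm : Nat.card Gal(L/K) = 2 ^ m)
    (hr : ∀ w : HeightOneSpectrum (𝓞 L), SUnits.ramIdx K w = 1) :
    2 ^ m ∣ Nat.card (ClassGroup (𝓞 K)) := by
  let _ : CommGroup Gal(L/K) := { (inferInstance : Group Gal(L/K)) with mul_comm := hcomm }
  rw [← hm]
  refine card_dvd_card (sys K L) hm ?_ (fun w => isCyclic_stabilizer w (hr w)) (piCl K L)
    piCl_surjective (piCl_ker hr)
  intro H₁ H hle hidx
  have hFE : IntermediateField.fixedField H ≤ IntermediateField.fixedField H₁ :=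
    IntermediateField.fixedField_antitone hle
  let F := IntermediateField.fixedField H
  let E := IntermediateField.fixedField H₁
  let _ : Algebra F E := (IntermediateField.inclusion hFE).toRingHom.toAlgebra
  have hKFE : IsScalarTower K F E := IsScalarTower.of_algebraMap_eq (fun x => rfl)
  have hFEL : IsScalarTower F E L := IsScalarTower.of_algebraMap_eq (fun x => rfl)
  have hF : IsFix F H := isFix_fixedField H
  have hE : IsFix E H₁ := isFix_fixedField H₁
  have hnorm : H₁.Normal := inferInstance
  have hgalE : IsGalois K E := inferInstance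
  have hgal : IsGalois F E := IsGalois.tower_top_of_isGalois K F E
  have htc : IsTotallyComplex F := isTotallyComplex_of_algebra K F
  have hd : Module.finrank F E = 2 := by
    have h1 : Module.finrank F L = Nat.card H := IntermediateField.finrank_fixedField_eq_card H
    have h2 : Module.finrank E L = Nat.card H₁ := IntermediateField.finrank_fixedField_eq_card H₁
    have h3 := Module.finrank_mul_finrank F E L
    have h4 : Nat.card H₁ * H₁.relIndex H = Nat.card H := by
      rw [← Subgroup.relIndex_bot_left, ← Subgroup.relIndex_bot_left]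
      exact Subgroup.relIndex_mul_relIndex ⊥ H₁ H bot_le hle
    rw [h1, h2, ← h4, hidx, mul_comm] at h3
    exact Nat.eq_of_mul_eq_mul_left Nat.card_pos h3
  have hrF : ∀ w : HeightOneSpectrum (𝓞 L), SUnits.ramIdx F w = 1 := by
    intro w
    have h1 := ramIdx_tower K F w
    rw [hr w] at h1
    exact Nat.eq_one_of_mul_eq_one_right h1.symm
  refine quad_of_UQ hcomm hF hE hle hidx hd hrF (hUQ F E hd ?_)
  intro w'
  obtain ⟨w, rfl⟩ := SUnits.under_surjective L w'
  have h1 := ramIdx_tower F E w
  rw [hrF w] at h1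
  exact Nat.eq_one_of_mul_eq_one_left h1.symm

end Final

end Fermat.Agent.LTF.Art
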