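import Fermat.Agent.LTF.Gal.ArtUse
import Fermat.Agent.LTF.Gal.Defs
import Fermat.Agent.CFT.SExt
import Fermat.Agent.S14_KummerC
import Fermat.Agent.TW.InertiaField

/-!
# (ART-GRP): unramified Artin reciprocity for `2`-extensions in group form
-/

set_option autoImplicit false

noncomputable section

namespace Fermat.Agent.LTF.ArtGrp

open IsDedekindDomain NumberField Fermat.Agent.CFT Fermat.Agent.LTF.Gal
open Fermat.Agent.Frob Fermat.Agent.Minkowski
open scoped Pointwise

/-- `e(L/K) = 1` if the inertia group of `M/K` acts trivially on `L`. -/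
theorem ramIdx_eq_one {K L M : Type*} [Field K] [NumberField K] [Field L] [NumberField L]
    [Field M] [NumberField M] [Algebra K L] [Algebra L M] [Algebra K M] [IsScalarTower K L M]
    [IsGalois K M] (W : HeightOneSpectrum (𝓞 M))
    (h : ∀ τ : Gal(M/K), τ ∈ W.asIdeal.inertia Gal(M/K) → ∀ x : L,
      τ (algebraMap L M x) = algebraMap L M x) :
    SUnits.ramIdx K (SUnits.under L W) = 1 := by
  classical
  have hLM : IsGalois L M := IsGalois.tower_top_of_isGalois K L M
  have : IsScalarTower (𝓞 K) (𝓞 L) (𝓞 M) := by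
    refine IsScalarTower.of_algebraMap_eq fun x => ?_
    apply RingOfIntegers.coe_injective
    rw [← IsScalarTower.algebraMap_apply (𝓞 K) (𝓞 M) M,
      ← IsScalarTower.algebraMap_apply (𝓞 L) (𝓞 M) M,
      IsScalarTower.algebraMap_apply (𝓞 L) L M, 
      ← IsScalarTower.algebraMap_apply (𝓞 K) (𝓞 L) L,
      IsScalarTower.algebraMap_apply (𝓞 K) K L, IsScalarTower.algebraMap_apply (𝓞 K) K M,
      ← IsScalarTower.algebraMap_apply K L M]
  have hG1 : IsGaloisGroup Gal(M/K) (𝓞 K) (𝓞 M) :=
    IsGaloisGroup.of_isFractionRing Gal(M/K) (𝓞 K) (𝓞 M) K M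
  have hG2 : IsGaloisGroup Gal(M/L) (𝓞 L) (𝓞 M) :=
    IsGaloisGroup.of_isFractionRing Gal(M/L) (𝓞 L) (𝓞 M) L M
  let P : Ideal (𝓞 M) := W.asIdeal
  let w : Ideal (𝓞 L) := P.under (𝓞 L)
  let v : Ideal (𝓞 K) := w.under (𝓞 K)
  have : P.IsPrime := W.isPrime
  have : w.IsPrime := inferInstance
  have : v.IsPrime := inferInstance
  have hv0 : v ≠ ⊥ := (SUnits.under K (SUnits.under L W)).ne_bot
  have hw0 : w ≠ ⊥ := (SUnits.under L W).ne_bot
  have hfv : Finite (𝓞 K ⧸ v) := Ring.HasFiniteQuotients.finiteQuotient hv0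
  have hfw : Finite (𝓞 L ⧸ w) := Ring.HasFiniteQuotients.finiteQuotient hw0
  have : v.IsMaximal := Ideal.IsPrime.isMaximal inferInstance hv0
  have : w.IsMaximal := Ideal.IsPrime.isMaximal inferInstance hw0
  have : P.LiesOver w := ⟨rfl⟩
  have : w.LiesOver v := ⟨rfl⟩
  have : P.LiesOver v := Ideal.LiesOver.trans P w v
  have h1 : Nat.card (P.inertia Gal(M/K)) = P.ramificationIdx (𝓞 K) := by
    rw [Ideal.card_inertia_eq_ramificationIdxIn (G := Gal(M/K)) v P,
      Ideal.ramificationIdxIn_eq_ramificationIdx v P Gal(M/K)]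
  have h2 : Nat.card (P.inertia Gal(M/L)) = P.ramificationIdx (𝓞 L) := by
    rw [Ideal.card_inertia_eq_ramificationIdxIn (G := Gal(M/L)) w P,
      Ideal.ramificationIdxIn_eq_ramificationIdx w P Gal(M/L)]
  have h3 : Nat.card (P.inertia Gal(M/K)) ≤ Nat.card (P.inertia Gal(M/L)) := by
    have hfin : Finite Gal(M/L) := inferInstance
    refine Nat.card_le_card_of_injective (fun τ : P.inertia Gal(M/K) =>
      (⟨{ (τ : Gal(M/K)) with commutes' := fun x => h τ τ.2 x }, ?_⟩ : P.inertia Gal(M/L))) ?_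
    · exact τ.2
    · intro a b hab
      apply Subtype.ext
      ext x
      have := congrArg (fun σ : P.inertia Gal(M/L) => (σ : Gal(M/L)) x) hab
      exact this
  have h6 : P.ramificationIdx (𝓞 K) = w.ramificationIdx (𝓞 K) * P.ramificationIdx (𝓞 L) :=
    Ideal.ramificationIdx_tower (R := 𝓞 K) w P
  have h8 : 0 < P.ramificationIdx (𝓞 L) := Ideal.ramificationIdx_pos P (𝓞 L)
  have h9 : 0 < w.ramificationIdx (𝓞 K) := Ideal.ramificationIdx_pos w (𝓞 K)
  have h10 : w.ramificationIdx (𝓞 K) = 1 := by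
    rw [h1, h2, h6] at h3
    nlinarith [h3, h8, h9]
  change v.ramificationIdx' w = 1
  rw [Ideal.ramificationIdx'_eq_ramificationIdx v w hv0]
  exact h10

/-- a rational prime in a prime ideal -/
lemma exists_natPrime_mem {K : Type*} [Field K] [NumberField K] (v : HeightOneSpectrum (𝓞 K)) :
    ∃ q : ℕ, q.Prime ∧ (q : 𝓞 K) ∈ v.asIdeal := by
  have := v.isPrime
  have h0 : v.asIdeal.under ℤ ≠ ⊥ := Ideal.IsIntegral.comap_ne_bot ℤ v.ne_bot
  have h1 : (v.asIdeal.under ℤ).IsPrime := inferInstance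
  obtain ⟨n, hn⟩ := (IsPrincipalIdealRing.principal (v.asIdeal.under ℤ)).principal
  rw [Ideal.submodule_span_eq] at hn
  have hn0 : n ≠ 0 := by
    rintro rfl
    exact h0 (by rw [hn, Ideal.span_singleton_eq_bot])
  have hnp : Prime n := by
    rw [hn, Ideal.span_singleton_prime hn0] at h1
    exact h1
  have hq : (n.natAbs).Prime := Int.prime_iff_natAbs_prime.mp hnp
  refine ⟨n.natAbs, hq, ?_⟩
  have h2 : (n : ℤ) ∈ v.asIdeal.under ℤ := by rw [hn]; exact Ideal.mem_span_singleton_self n
  have h3 : ((n.natAbs : ℕ) : ℤ) ∈ v.asIdeal.under ℤ := by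
    rcases Int.natAbs_eq n with h | h
    · rwa [← h]
    · rw [h] at h2
      exact (Ideal.neg_mem_iff _).mp h2
  have h4 : algebraMap ℤ (𝓞 K) ((n.natAbs : ℕ) : ℤ) ∈ v.asIdeal := h3
  rwa [eq_intCast, Int.cast_natCast] at h4

/-- the class field theoretic input: the class number of a totally complex field is divisible by
the degree of an unramified abelian `2`-extension -/
def ArtField : Prop :=
  ∀ (K L : Type) [Field K] [NumberField K] [IsTotallyComplex K] [Field L] [NumberField L]
    [Algebra K L] [IsGalois K L] (m : ℕ), (∀ σ τ : Gal(L/K), σ * τ = τ * σ) →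
    Nat.card Gal(L/K) = 2 ^ m → (∀ w : HeightOneSpectrum (𝓞 L), SUnits.ramIdx K w = 1) →
    2 ^ m ∣ Nat.card (ClassGroup (𝓞 K))

section

variable {K L : IntermediateField ℚ Qb}

/-- normality of `L / K` from stability under `G_K` -/
lemma normal_of_stable (hKL : K ≤ L)
    (h : ∀ g ∈ K.fixingSubgroup, ∀ x ∈ L, g x ∈ L) :
    letI := (IntermediateField.inclusion hKL).toAlgebra
    Normal K L := by
  let := (IntermediateField.inclusion hKL).toAlgebra
  let L' := IntermediateField.extendScalars hKL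
  have h1 : Normal K L' := by
    rw [IntermediateField.normal_iff_forall_map_le']
    intro σ x hx
    obtain ⟨y, hy, rfl⟩ := hx
    have h2 : ((σ.restrictScalars ℚ : GQ) y) ∈ L := by
      refine h (σ.restrictScalars ℚ) ?_ y hy
      intro z
      exact σ.commutes z
    exact h2
  let e : L' ≃ₐ[K] L :=
    { toFun := fun x => ⟨x.1, x.2⟩
      invFun := fun x => ⟨x.1, x.2⟩
      left_inv := fun _ => rfl
      right_inv := fun _ => rfl
      map_mul' := fun _ _ => rfl
      map_add' := fun _ _ => rfl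
      commutes' := fun _ => rfl }
  exact Normal.of_algEquiv e

end

theorem artGrp (hart : ArtField) (K : IntermediateField ℚ Qb) [NumberField K]
    [IsTotallyComplex K] : ArtGrp K (h2 K) := by
  intro H m hHK ⟨L₀, hfd₀, hL₀⟩ hnorm hcomm hin hidx
  -- the field `L`
  have hHo : IsOpen (H : Set GQ) := by
    refine Subgroup.isOpen_mono hL₀ (IntermediateField.fixingSubgroup_isOpen L₀)
  have hHc : IsClosed (H : Set GQ) := H.isClosed_of_isOpen hHo
  let L : IntermediateField ℚ Qb := IntermediateField.fixedField H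
  have hfix : L.fixingSubgroup = H := InfiniteGalois.fixingSubgroup_fixedField ⟨H, hHc⟩
  have hfd : FiniteDimensional ℚ L := by
    rw [← InfiniteGalois.isOpen_iff_finite, hfix]
    exact hHo
  have hKL : K ≤ L := by
    rw [IntermediateField.le_iff_le]
    exact hHK
  have hstab : ∀ g ∈ K.fixingSubgroup, ∀ x ∈ L, g x ∈ L := by
    intro g hg x hx
    rw [IntermediateField.mem_fixedField_iff] at hx ⊢
    intro h hh
    have h1 := hx _ (hnorm g⁻¹ (inv_mem hg) h hh)
    have h2 : g ((g⁻¹ * h * g⁻¹⁻¹) x) = h (g x) := by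
      rw [inv_inv]
      exact g.apply_symm_apply _
    rw [← h2, h1]
  obtain ⟨M, hLM, hfdM, hgalM⟩ := Fermat.Agent.TW.exists_galois_ge L
  have hKM : K ≤ M := hKL.trans hLM
  let aKL : Algebra K L := (IntermediateField.inclusion hKL).toAlgebra
  let aLM : Algebra L M := (IntermediateField.inclusion hLM).toAlgebra
  let aKM : Algebra K M := (IntermediateField.inclusion hKM).toAlgebra
  have htow : IsScalarTower K L M := IsScalarTower.of_algebraMap_eq fun _ => rfl
  have hNL : NumberField L := ⟨⟩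
  have hNM : NumberField M := ⟨⟩
  have htQ : IsScalarTower ℚ K L := IsScalarTower.of_algebraMap_eq fun _ => rfl
  have htQM : IsScalarTower ℚ K M := IsScalarTower.of_algebraMap_eq fun _ => rfl
  have hgKM : IsGalois K M := IsGalois.tower_top_of_isGalois ℚ K M
  have hnKL : Normal K L := normal_of_stable hKL hstab
  have hfKL : FiniteDimensional K L := FiniteDimensional.right ℚ K L
  have hsep : Algebra.IsSeparable K L := inferInstance
  have hgKL : IsGalois K L := ⟨⟩
  -- commutativity
  have hlift : ∀ σ : Gal(L/K), ∃ g ∈ K.fixingSubgroup, ∀ x : L, g (x : Qb) = σ x := by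
    intro σ
    refine ⟨(σ.restrictScalars ℚ).liftNormal Qb, ?_, fun x => ?_⟩
    · intro z
      have h1 := (σ.restrictScalars ℚ).liftNormal_commutes Qb (algebraMap K L z)
      have h2 : (σ.restrictScalars ℚ) (algebraMap K L z) = algebraMap K L z := σ.commutes z
      rw [h2] at h1
      exact h1
    · exact (σ.restrictScalars ℚ).liftNormal_commutes Qb x
  have hcom : ∀ σ τ : Gal(L/K), σ * τ = τ * σ := by
    intro σ τ
    obtain ⟨g, hg, hgσ⟩ := hlift σ
    obtain ⟨g', hg', hgτ⟩ := hlift τ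
    ext x
    have h1 := hcomm g hg g' hg'
    rw [← hfix] at h1
    have h2 : (g * g' * g⁻¹ * g'⁻¹) ((τ (σ x) : L) : Qb) = ((τ (σ x) : L) : Qb) := h1 (τ (σ x))
    have h3 : (g * g' * g⁻¹ * g'⁻¹) ((τ (σ x) : L) : Qb) = ((σ (τ x) : L) : Qb) := by
      rw [← hgτ, ← hgσ, ← hgσ, ← hgτ]
      have : (g * g' * g⁻¹ * g'⁻¹) (g' (g (x : Qb))) =
        (g * g' * g⁻¹ * g'⁻¹ * g' * g) (x : Qb) := rfl
      rw [this]
      have h4 : g * g' * g⁻¹ * g'⁻¹ * g' * g = g * g' := by group
      rw [h4]
      rfl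
    exact h3.symm.trans h2
  -- cardinality
  have hcard : Nat.card Gal(L/K) = 2 ^ m := by
    rw [IsGalois.card_aut_eq_finrank, ← hidx]
    have h1 : Module.finrank ℚ L = H.index := by
      rw [IntermediateField.finrank_eq_fixingSubgroup_index, hfix]
    have h2 : Module.finrank ℚ K = K.fixingSubgroup.index := by
      rw [IntermediateField.finrank_eq_fixingSubgroup_index]
    have h3 := Subgroup.relIndex_mul_index hHK
    have h4 := Module.finrank_mul_finrank ℚ K L
    have h5 : 0 < Module.finrank ℚ K := Module.finrank_pos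
    rw [← h1, ← h2, ← h4, mul_comm] at h3
    exact (Nat.eq_of_mul_eq_mul_left h5 h3).symm
  -- ramification
  have hram : ∀ w : HeightOneSpectrum (𝓞 L), SUnits.ramIdx K w = 1 := by
    intro w
    obtain ⟨W, rfl⟩ := SUnits.under_surjective (K := L) M w
    obtain ⟨q, hq, hqW⟩ := exists_natPrime_mem W
    have hWp : W.asIdeal.IsPrime := W.isPrime
    obtain ⟨B, hB, hBW⟩ := Fermat.Agent.S14kummer.exists_place_above M W.asIdeal hq hqW
    refine ramIdx_eq_one W fun τ hτ x => ?_
    obtain ⟨σ, hσ, hστ⟩ := exists_lift_inertia M hq hB (τ.restrictScalars ℚ) (fun y =>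
      ⟨τ • y - y, rfl, (hBW _).mp (hτ y)⟩)
    have hσK : σ ∈ K.fixingSubgroup := by
      intro z
      have h1 := hστ (algebraMap K M z)
      have h2 : (τ.restrictScalars ℚ) (algebraMap K M z) = algebraMap K M z := τ.commutes z
      rw [h2] at h1
      exact h1
    have h3 : σ ∈ L.fixingSubgroup := by
      rw [hfix]
      exact hin q hq B hB ⟨hσ, hσK⟩
    have h4 : σ (x : Qb) = x := h3 x
    apply Subtype.ext
    exact (hστ (algebraMap L M x)).symm.trans h4
  have hdvd := hart K L m hcom hcard hram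
  have hpos : Nat.card (ClassGroup (𝓞 K)) ≠ 0 := Nat.card_pos.ne'
  exact Nat.pow_le_pow_right (by norm_num)
    ((Nat.prime_two.pow_dvd_iff_le_factorization hpos).mp hdvd)

end Fermat.Agent.LTF.ArtGrp
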