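import Fermat.Agent.CFT.Global2.Unramified
import Fermat.Agent.LTF.ArtDefs

/-!
# Unramified quadratic extensions: the statement `UQStatement`
-/

set_option autoImplicit false

namespace Fermat.Agent.LTF.Art

open IsDedekindDomain NumberField Fermat.Agent.CFT Fermat.Agent.CFT.Global2

open scoped Pointwise

section

variable {K L : Type*} [Field K] [NumberField K] [Field L] [NumberField L] [Algebra K L]

lemma smul_eq_conj (σ : Gal(L/K)) (w : HeightOneSpectrum (𝓞 L)) : σ • w = Places.conj σ w := by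
  apply HeightOneSpectrum.ext
  rw [← Unr.smul_asIdeal]
  rfl

omit [NumberField K] [NumberField L] in
lemma under_eq (w : HeightOneSpectrum (𝓞 L)) : SUnits.under K w = w.under (𝓞 K) :=
  HeightOneSpectrum.ext rfl

lemma inert_under_iff (v : HeightOneSpectrum (𝓞 K)) :
    (∃ w : HeightOneSpectrum (𝓞 L), SUnits.under K w = v ∧ Fixed K w) ↔ Unr.Inert L v := by
  constructor
  · rintro ⟨w, hw, h⟩
    exact ⟨w, by rw [← under_eq, hw], fun σ => by rw [← smul_eq_conj, h σ]⟩
  · rintro ⟨w, hw, h⟩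
    exact ⟨w, by rw [under_eq, hw], fun σ => by rw [smul_eq_conj, h σ]⟩

variable [IsGalois K L]

lemma eq_of_under_eq {w w' : HeightOneSpectrum (𝓞 L)} (hw : Fixed K w)
    (h : SUnits.under K w = SUnits.under K w') : w = w' := by
  have h3 : w.asIdeal.LiesOver (w'.under (𝓞 K)).asIdeal := by
    rw [← under_eq, ← h]
    infer_instance
  obtain ⟨τ, hτ⟩ := Ideal.exists_smul_eq_of_isGaloisGroup (w'.under (𝓞 K)).asIdeal w.asIdeal
    w'.asIdeal Gal(L/K)
  have h4 : τ • w = w' := HeightOneSpectrum.ext hτ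
  rw [← h4, hw τ]

end

/-- **Class field theory of unramified quadratic extensions** of totally complex fields. -/
theorem uqStatement : UQStatement := by
  intro K L _ _ _ _ _ _ _ h2 hram
  have he : ∀ w : HeightOneSpectrum (𝓞 L),
      (w.under (𝓞 K)).asIdeal.ramificationIdx' w.asIdeal = 1 := by
    intro w
    rw [← hram w, SUnits.ramIdx, under_eq]
  refine ⟨fun x => ?_, fun w₁ w₂ h₁ h₂ h12 => ?_, fun x hx => ?_, ?_⟩
  · have h := Unr.recip h2 he x
    simp only [← inert_under_iff] at h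
    exact h
  · obtain ⟨x, hx⟩ := Unr.exist h2 he (v₁ := SUnits.under K w₁) (v₂ := SUnits.under K w₂)
      (fun h => h12 (eq_of_under_eq h₁ h)) ((inert_under_iff _).mp ⟨w₁, rfl, h₁⟩)
      ((inert_under_iff _).mp ⟨w₂, rfl, h₂⟩)
    refine ⟨x, fun w hw => ?_⟩
    rw [hx _ ((inert_under_iff _).mp ⟨w, rfl, hw⟩)]
    constructor
    · rintro (h | h)
      · exact Or.inl (eq_of_under_eq hw h)
      · exact Or.inr (eq_of_under_eq hw h)
    · rintro (rfl | rfl)
      · exact Or.inl rfl
      · exact Or.inr rfl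
  · obtain ⟨z, hz⟩ := Unr.hasse h2 he x (by
      intro v hv
      obtain ⟨w, rfl, hw⟩ := (inert_under_iff _).mpr hv
      exact hx w hw)
    have hz0 : z ≠ 0 := by
      rintro rfl
      rw [Algebra.norm_zero] at hz
      exact x.ne_zero hz.symm
    exact ⟨Units.mk0 z hz0, hz⟩
  · obtain ⟨v, hv⟩ := Unr.exists_inert h2 he
    obtain ⟨w, -, hw⟩ := (inert_under_iff _).mpr hv
    exact ⟨w, hw⟩

end Fermat.Agent.LTF.Art
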