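import Fermat.Agent.LTF.ArtField
import Fermat.Agent.LTF.ArtUQ
import Fermat.Agent.LTF.ArtGrp

/-!
# Unramified Artin reciprocity for `2`-extensions, unconditional
-/

set_option autoImplicit false

namespace Fermat.Agent.LTF.Art

open IsDedekindDomain NumberField Fermat.Agent.CFT

/-- **Unramified Artin reciprocity** for abelian `2`-extensions of totally complex fields. -/
theorem artField : Fermat.Agent.LTF.ArtGrp.ArtField :=
  fun K L _ _ _ _ _ _ _ _ hcomm hm hr => art uqStatement K L hcomm hm hr

/-- (ART-GRP), unconditional. -/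
theorem artGrp' (K : IntermediateField ℚ Fermat.Agent.LTF.Qb) [NumberField K]
    [IsTotallyComplex K] : Fermat.Agent.LTF.Gal.ArtGrp K (Fermat.Agent.LTF.Gal.h2 K) :=
  Fermat.Agent.LTF.ArtGrp.artGrp artField K

end Fermat.Agent.LTF.Art
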