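import Fermat.Agent.LTF.ArtAbs
import Fermat.Agent.LTF.ArtCount

/-!
# Unramified Artin reciprocity for abelian `2`-extensions, abstract form
-/

set_option autoImplicit false

namespace Fermat.Agent.LTF.Art

open MulAction

section Cyclic

/-- In a finite cyclic group subgroups of the same index are equal. -/
lemma eq_of_index_eq {T : Type*} [Group T] [Finite T] [IsCyclic T] {A B : Subgroup T}
    (h : A.index = B.index) : A = B := by
  classical
  have := Fintype.ofFinite T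
  have hcard : Nat.card A = Nat.card B := by
    have h1 := A.card_mul_index
    have h2 := B.card_mul_index
    rw [← h2, h] at h1
    exact Nat.eq_of_mul_eq_mul_right (Nat.pos_of_ne_zero B.index_ne_zero_of_finite) h1
  have key : ∀ C : Subgroup T, Nat.card C = Nat.card B →
      (C : Set T).toFinset = Finset.univ.filter (fun x : T => x ^ Nat.card B = 1) := by
    intro C hC
    apply Finset.eq_of_subset_of_card_le
    · intro x hx
      rw [Set.mem_toFinset] at hx
      rw [Finset.mem_filter]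
      refine ⟨Finset.mem_univ _, ?_⟩
      have h1 : (⟨x, hx⟩ : C) ^ Nat.card C = 1 := pow_card_eq_one'
      rw [hC] at h1
      exact congrArg Subtype.val h1
    · refine (IsCyclic.card_pow_eq_one_le Nat.card_pos).trans ?_
      rw [← hC, Set.toFinset_card, ← Nat.card_eq_fintype_card]
      exact le_rfl
  have h3 := (key A hcard).trans (key B rfl).symm
  rw [Set.toFinset_inj] at h3
  exact SetLike.coe_injective h3

end Cyclic

section Main

variable {G W M : Type*} [CommGroup G] [MulAction G W] [AddCommGroup M] (S : Sys G W M) [Finite G]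

omit [Finite G] in
/-- a generator of a cyclic quotient -/
lemma exists_gen_of_isCyclic (H' H : Subgroup G) (h : IsCyclic (G ⧸ H')) :
    ∃ g ∈ H, ∀ x ∈ H, ∃ h ∈ H ⊓ H', ∃ j : ℤ, x = h * g ^ j := by
  have h1 : IsCyclic (H.map (QuotientGroup.mk' H')) := inferInstance
  obtain ⟨⟨y, hy⟩, hgen⟩ := h1.exists_generator
  obtain ⟨g, hg, rfl⟩ := hy
  refine ⟨g, hg, ?_⟩
  intro x hx
  obtain ⟨j, hj⟩ := Subgroup.mem_zpowers_iff.mp
    (hgen ⟨QuotientGroup.mk' H' x, Subgroup.mem_map_of_mem _ hx⟩)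
  have h2 : (QuotientGroup.mk' H' g) ^ j = QuotientGroup.mk' H' x := congrArg Subtype.val hj
  refine ⟨x * (g ^ j)⁻¹, Subgroup.mem_inf.mpr ⟨mul_mem hx (inv_mem (zpow_mem hg j)), ?_⟩, j, ?_⟩
  · rw [← QuotientGroup.eq_one_iff]
    change QuotientGroup.mk' H' (x * (g ^ j)⁻¹) = 1
    rw [map_mul, map_inv, map_zpow, h2, mul_inv_cancel]
  · rw [inv_mul_cancel_right]

omit [Finite G] in
lemma exists_relIndex_eq {a : ℕ} (hG : Nat.card G = 2 ^ a) {H' H : Subgroup G} :
    ∃ k, H'.relIndex H = 2 ^ k := by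
  have h1 : H'.relIndex H ∣ 2 ^ a := by
    rw [← hG]
    exact (Subgroup.relIndex_dvd_card H' H).trans (Subgroup.card_subgroup_dvd_card H)
  obtain ⟨k, -, hk⟩ := (Nat.dvd_prime_pow Nat.prime_two).mp h1
  exact ⟨k, hk⟩

/-- the norm group as a subgroup of the class group -/
noncomputable def Phi {Q : Type*} [CommGroup Q]
    (π : Multiplicative (inv W (⊤ : Subgroup G)) →* Q) (H : Subgroup G) : Subgroup Q :=
  (AddSubgroup.toSubgroup ((S.D H ⊤).addSubgroupOf (inv W ⊤))).map π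

lemma mem_Phi_iff {Q : Type*} [CommGroup Q] (π : Multiplicative (inv W (⊤ : Subgroup G)) →* Q)
    (hker : ∀ b, π b = 1 ↔ ((b.toAdd : inv W (⊤ : Subgroup G)) : W →₀ ℤ) ∈
      S.prin (⊤ : Subgroup G)) (H : Subgroup G) (b : Multiplicative (inv W (⊤ : Subgroup G))) :
    π b ∈ Phi S π H ↔ ((b.toAdd : inv W (⊤ : Subgroup G)) : W →₀ ℤ) ∈ S.D H ⊤ := by
  constructor
  · rintro ⟨c, hcD, hcb⟩
    have h1 : ((c.toAdd : inv W (⊤ : Subgroup G)) : W →₀ ℤ) ∈ S.D H ⊤ := hcD
    have h2 : π (b / c) = 1 := by rw [map_div, hcb, div_self']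
    rw [hker] at h2
    have h3 := S.prin_le_D H ⊤ h2
    have h4 : ((b.toAdd : inv W (⊤ : Subgroup G)) : W →₀ ℤ) =
      (((b / c).toAdd : inv W (⊤ : Subgroup G)) : W →₀ ℤ) +
        ((c.toAdd : inv W (⊤ : Subgroup G)) : W →₀ ℤ) := by
      rw [toAdd_div, AddSubgroup.coe_sub, sub_add_cancel]
    rw [h4]
    exact add_mem h3 h1
  · intro h
    exact ⟨b, h, rfl⟩

theorem card_dvd_card {a : ℕ} (hG : Nat.card G = 2 ^ a)
    (hQ : ∀ H₁ H : Subgroup G, H₁ ≤ H → H₁.relIndex H = 2 → S.Quad H₁ H)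
    (hcy : ∀ w : W, IsCyclic (stabilizer G w))
    {Q : Type*} [CommGroup Q] [Finite Q] (π : Multiplicative (inv W (⊤ : Subgroup G)) →* Q)
    (hπ : Function.Surjective π)
    (hker : ∀ b, π b = 1 ↔ ((b.toAdd : inv W (⊤ : Subgroup G)) : W →₀ ℤ) ∈
      S.prin (⊤ : Subgroup G)) :
    Nat.card G ∣ Nat.card Q := by
  have hc : ∀ a b : G, a * b = b * a := mul_comm
  have hgood : ∀ H : Subgroup G, IsCyclic (G ⧸ H) →
      ∃ k, H.relIndex ⊤ = 2 ^ k ∧ Good S H ⊤ (2 ^ k) ∧
        (H.relIndex ⊤ = 1 ∨ ∃ w : W, Sys.fd H ⊤ w = 2 ^ k) := by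
    intro H hH
    obtain ⟨g, hg, hgen⟩ := exists_gen_of_isCyclic H ⊤ hH
    obtain ⟨k, hk⟩ := exists_relIndex_eq hG (H' := H) (H := ⊤)
    have hgen' : ∀ x ∈ (⊤ : Subgroup G), ∃ h ∈ H, ∃ j : ℤ, x = h * g ^ j := by
      intro x hx
      obtain ⟨h, hh, j, hj⟩ := hgen x hx
      exact ⟨h, (Subgroup.mem_inf.mp hh).2, j, hj⟩
    refine ⟨k, hk, good_of_cyclic S hc hQ k H ⊤ g le_top hg hgen' hk, ?_⟩
    rcases k with _ | k
    · left
      simpa using hk
    · right
      obtain ⟨hle1, hle2, hidx2⟩ := half_spec hc le_top hg hgen' hk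
      obtain ⟨w, hw⟩ := (hQ _ _ hle2 hidx2).ex
      refine ⟨w, ?_⟩
      obtain ⟨x, hx, hgx⟩ := gen_of_inert hc hg hgen' hk hw
      rw [fd_eq_of_gen hc le_top le_rfl hx hgx, hk]
  have hidx : ∀ H : Subgroup G,
      (Phi S π H).index = (S.D H ⊤).relIndex (inv W (⊤ : Subgroup G)) := by
    intro H
    unfold Phi
    rw [Subgroup.index_map_eq _ hπ, AddSubgroup.index_toSubgroup]
    · rfl
    · intro b hb
      exact S.prin_le_D H ⊤ ((hker b).mp hb)
  refine card_dvd_of_inj (Phi S π) hG ?_ ?_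
  · intro H hH
    obtain ⟨k, hk, ⟨hg1, hg2⟩, hw⟩ := hgood H hH
    have hcard : Nat.card (Q ⧸ Phi S π H) = 2 ^ k := by
      have := hidx H
      rw [hg1] at this
      exact this
    have hcardG : Nat.card (G ⧸ H) = 2 ^ k := by
      rw [Subgroup.relIndex_top_right] at hk
      exact hk
    refine ⟨?_, by rw [hcard, hcardG]⟩
    rcases hw with hw | ⟨w, hw⟩
    · have h1 : Nat.card (Q ⧸ Phi S π H) = 1 := by rw [hcard, ← hk, hw]
      have : Subsingleton (Q ⧸ Phi S π H) := (Nat.card_eq_one_iff_unique.mp h1).1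
      infer_instance
    · let b : Multiplicative (inv W (⊤ : Subgroup G)) :=
        Multiplicative.ofAdd ⟨s (⊤ : Subgroup G) w, s_mem_inv (⊤ : Subgroup G) w⟩
      apply isCyclic_of_orderOf_eq_card ((π b : Q) : Q ⧸ Phi S π H)
      rw [hcard]
      have h4 : ∀ n : ℕ, ((π b : Q) : Q ⧸ Phi S π H) ^ n = 1 ↔ 2 ^ k ∣ n := by
        intro n
        rw [← QuotientGroup.mk_pow, ← map_pow, QuotientGroup.eq_one_iff, mem_Phi_iff S π hker]
        have h5 : (((b ^ n).toAdd : inv W (⊤ : Subgroup G)) : W →₀ ℤ) =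
            (n : ℤ) • s (⊤ : Subgroup G) w := by
          rw [toAdd_pow, AddSubgroup.coe_nsmul, natCast_zsmul]
          rfl
        rw [h5, hg2, hw, Int.natCast_dvd_natCast]
      apply Nat.dvd_antisymm
      · rw [orderOf_dvd_iff_pow_eq_one, h4]
      · rw [← h4, pow_orderOf_eq_one]
  · -- injectivity
    have key : ∀ H H' : Subgroup G, IsCyclic (G ⧸ H) → IsCyclic (G ⧸ H') →
        Phi S π H = Phi S π H' → H ≤ H' := by
      intro H H' hH hH' hPhi
      by_contra hnle
      obtain ⟨k, -, ⟨-, hg2⟩, -⟩ := hgood H hH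
      obtain ⟨k', -, ⟨-, hg2'⟩, -⟩ := hgood H' hH'
      -- the residue degrees are the same
      have hfd : ∀ w : W, Sys.fd H ⊤ w = Sys.fd H' ⊤ w := by
        intro w
        have h3 : ∀ n : ℕ, Sys.fd H ⊤ w ∣ n ↔ Sys.fd H' ⊤ w ∣ n := by
          intro n
          rw [← Int.natCast_dvd_natCast, ← Int.natCast_dvd_natCast, ← hg2, ← hg2']
          let b : Multiplicative (inv W (⊤ : Subgroup G)) :=
            Multiplicative.ofAdd ⟨(n : ℤ) • s (⊤ : Subgroup G) w,
              zsmul_mem (s_mem_inv (⊤ : Subgroup G) w) _⟩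
          have e1 := mem_Phi_iff S π hker H b
          have e2 := mem_Phi_iff S π hker H' b
          rw [hPhi] at e1
          exact e1.symm.trans e2
        exact Nat.dvd_antisymm ((h3 _).mpr dvd_rfl) ((h3 _).mp dvd_rfl)
      -- a place distinguishing
      obtain ⟨g, hg, hgen⟩ := exists_gen_of_isCyclic H' H hH'
      obtain ⟨j, hj⟩ := exists_relIndex_eq hG (H' := H ⊓ H') (H := H)
      obtain ⟨j', rfl⟩ : ∃ j', j = j' + 1 := by
        rcases j with _ | j
        · exfalso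
          apply hnle
          have := Subgroup.relIndex_eq_one.mp (by simpa using hj : (H ⊓ H').relIndex H = 1)
          exact this.trans inf_le_right
        · exact ⟨j, rfl⟩
      obtain ⟨hle1, hle2, hidx2⟩ := half_spec hc inf_le_left hg hgen hj
      obtain ⟨w, hw⟩ := (hQ _ _ hle2 hidx2).ex
      rw [SetLike.not_le_iff_exists] at hw
      obtain ⟨x, hx, hx1⟩ := hw
      obtain ⟨hxT, hxH⟩ := Subgroup.mem_inf.mp hx
      have hxH' : x ∉ H' := fun h => hx1 (hle1 (Subgroup.mem_inf.mpr ⟨hxH, h⟩))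
      have h6 := hfd w
      unfold Sys.fd at h6
      rw [inf_top_eq] at h6
      have hcyw := hcy w
      have h7 : H.subgroupOf (stabilizer G w) = H'.subgroupOf (stabilizer G w) :=
        eq_of_index_eq h6
      have h8 : (⟨x, hxT⟩ : stabilizer G w) ∈ H.subgroupOf (stabilizer G w) := hxH
      rw [h7] at h8
      exact hxH' h8
    intro H H' hH hH' hPhi
    exact le_antisymm (key H H' hH hH' hPhi) (key H' H hH' hH hPhi.symm)

end Main

end Fermat.Agent.LTF.Art
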