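import Fermat.Agent.Ribet.Morita

/-!
# Boston–Lenstra–Ribet in all characteristics

`G` acts `T`-linearly on `V` through `r`, `ρ : G →* M₂(T)` has image spanning `M₂(T)`, and
`r g + det (ρ g) r g⁻¹ = tr (ρ g)` on `V` for all `g`.  Then the action of `G` on `V` factors
through `M₂(T)`.  No hypothesis on `2`.
-/

set_option autoImplicit false

namespace Fermat.Agent.LTF.BLR

open Matrix MulOpposite Fermat.Agent.Ribet

section Factor

variable {T : Type*} [CommRing T] {G : Type*} [Group G] {V : Type*} [AddCommGroup V] [Module T V]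
variable {r : G →* Module.End T V} {ρ : G →* Matrix (Fin 2) (Fin 2) T}

/-- The kernel of the span acts by zero. -/
theorem tripleSpan_eq_zero (hES : ESRel r ρ)
    (hspan : Submodule.span T (Set.range ρ) = ⊤)
    {x : Module.End T V × Matrix (Fin 2) (Fin 2) T × (Module.End T V)ᵐᵒᵖ}
    (hx : x ∈ tripleSpan r ρ) (hx0 : x.2.1 = 0) : x.1 = 0 := by
  -- elements of the kernel are anti-selfadjoint
  have hstar : ∀ y ∈ tripleSpan r ρ, y.2.1 = 0 → unop y.2.2 = - y.1 := by
    intro y hy hy0
    have := tripleSpan_add_eq hES hy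
    rw [hy0, Matrix.trace_zero, zero_smul] at this
    exact (neg_eq_of_add_eq_zero_right this).symm
  have key : ∀ y ∈ tripleSpan r ρ, y.2.1 = 0 → ∀ b ∈ tripleSpan r ρ,
      y.1 * b.1 = unop b.2.2 * y.1 := by
    intro y hy hy0 b hb
    have h1 := tripleSpan_add_eq hES (tripleSpan_mul hy hb)
    simp only [Prod.fst_mul, Prod.snd_mul, hy0, zero_mul, Matrix.trace_zero, zero_smul,
      unop_mul, hstar y hy hy0, mul_neg] at h1
    exact sub_eq_zero.mp (by rw [sub_eq_add_neg]; exact h1)
  have key' : ∀ y ∈ tripleSpan r ρ, y.2.1 = 0 → ∀ b ∈ tripleSpan r ρ,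
      b.1 * y.1 = y.1 * unop b.2.2 := by
    intro y hy hy0 b hb
    have h1 := tripleSpan_add_eq hES (tripleSpan_mul hb hy)
    simp only [Prod.fst_mul, Prod.snd_mul, hy0, mul_zero, Matrix.trace_zero, zero_smul,
      unop_mul, hstar y hy hy0, neg_mul] at h1
    exact sub_eq_zero.mp (by rw [sub_eq_add_neg]; exact h1)
  obtain ⟨b, hb, hbm⟩ := exists_mem_tripleSpan (r := r) hspan !![0, 1; 0, 0]
  obtain ⟨b', hb', hbm'⟩ := exists_mem_tripleSpan (r := r) hspan !![0, 0; 1, 0]
  set d := b * b' - b' * b with hddef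
  have hd : d ∈ tripleSpan r ρ :=
    (tripleSpan r ρ).sub_mem (tripleSpan_mul hb hb') (tripleSpan_mul hb' hb)
  have hdm : d.2.1 = !![1, 0; 0, -1] := by
    rw [hddef]
    simp only [Prod.snd_sub, Prod.fst_sub, Prod.snd_mul, Prod.fst_mul, hbm, hbm']
    ext i j
    fin_cases i <;> fin_cases j <;> simp
  have h3 : d.1 = - unop d.2.2 := by
    have := tripleSpan_add_eq hES hd
    rw [hdm, Matrix.trace_fin_two] at this
    simp only [Matrix.of_apply, Matrix.cons_val', Matrix.cons_val_zero, Matrix.cons_val_fin_one,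
      Matrix.cons_val_one, add_neg_cancel, zero_smul] at this
    exact eq_neg_of_add_eq_zero_left this
  have hdy : ∀ y ∈ tripleSpan r ρ, y.2.1 = 0 → d.1 * y.1 = 0 := by
    intro y hy hy0
    have e1 : unop b.2.2 * (unop b'.2.2 * y.1) = unop b'.2.2 * (unop b.2.2 * y.1) := by
      rw [← key y hy hy0 b' hb', ← mul_assoc, ← key y hy hy0 b hb, mul_assoc]
      have := key y hy hy0 _ (tripleSpan_mul hb hb')
      simp only [Prod.fst_mul, Prod.snd_mul, unop_mul] at this
      rw [this, mul_assoc, ← key y hy hy0 b hb]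
    have hds : unop d.2.2 * y.1 = 0 := by
      rw [hddef]
      simp only [Prod.snd_sub, Prod.snd_mul, unop_sub, unop_mul, sub_mul, mul_assoc]
      rw [e1, sub_self]
    rw [h3, neg_mul, hds, neg_zero]
  -- the element `e = 1 - d²` of the kernel acts as the identity on the image of the kernel
  set e := tripleHom r ρ 1 - d * d with hedef
  have he : e ∈ tripleSpan r ρ :=
    (tripleSpan r ρ).sub_mem (Submodule.subset_span ⟨1, rfl⟩) (tripleSpan_mul hd hd)
  have he0 : e.2.1 = 0 := by
    rw [hedef]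
    have h1 : (tripleHom r ρ 1).2.1 = 1 := by simp
    simp only [Prod.snd_sub, Prod.fst_sub, Prod.snd_mul, Prod.fst_mul, hdm, h1]
    ext i j
    fin_cases i <;> fin_cases j <;> simp
  have he1 : e.1 = 1 - d.1 * d.1 := by
    rw [hedef]
    have h1 : (tripleHom r ρ 1).1 = 1 := by simp
    simp only [Prod.fst_sub, Prod.fst_mul, h1]
  have hey : ∀ y ∈ tripleSpan r ρ, y.2.1 = 0 → e.1 * y.1 = y.1 := by
    intro y hy hy0
    rw [he1, sub_mul, mul_assoc, hdy y hy hy0, mul_zero, sub_zero, one_mul]
  have hee : e.1 * e.1 = e.1 := hey e he he0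
  -- `2 e = 0`
  have h2e : e.1 + e.1 = 0 := by
    have h1 := key e he he0 e he
    rw [hstar e he he0, neg_mul, hee] at h1
    exact eq_neg_iff_add_eq_zero.mp h1
  -- `e` commutes with everything
  have hcomm : ∀ c ∈ tripleSpan r ρ, c.1 * e.1 = e.1 * c.1 := by
    intro c hc
    have hce : (c * e).2.1 = 0 := by
      simp only [Prod.snd_mul, Prod.fst_mul, he0, mul_zero]
    have hec : (e * c).2.1 = 0 := by
      simp only [Prod.snd_mul, Prod.fst_mul, he0, zero_mul]
    have h1 : e.1 * (c.1 * e.1) = c.1 * e.1 := by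
      have := hey (c * e) (tripleSpan_mul hc he) hce
      simpa only [Prod.fst_mul] using this
    have h2 : (e.1 * c.1) * e.1 = e.1 * c.1 := by
      rw [key e he he0 c hc, mul_assoc, hee]
    rw [← h1, ← mul_assoc, h2]
  -- the trace kills `e`
  obtain ⟨c, hc, hcm⟩ := exists_mem_tripleSpan (r := r) hspan !![1, 0; 0, 0]
  have hte : e.1 = 0 := by
    have h1 := tripleSpan_add_eq hES hc
    rw [hcm, Matrix.trace_fin_two] at h1
    simp only [Matrix.of_apply, Matrix.cons_val', Matrix.cons_val_zero, Matrix.cons_val_fin_one,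
      Matrix.cons_val_one, add_zero, one_smul] at h1
    have h2 : c.1 * e.1 + unop c.2.2 * e.1 = e.1 := by
      rw [← add_mul, h1, one_mul]
    rw [← key e he he0 c hc, hcomm c hc] at h2
    rw [← h2, ← mul_add]
    have h4 : e.1 * (c.1 + c.1) = (e.1 + e.1) * c.1 := by rw [mul_add, add_mul]
    rw [h4, h2e, zero_mul]
  rw [← hey x hx hx0, hte, zero_mul]

/-- **Factorisation through `M₂(T)`** (Boston–Lenstra–Ribet), any characteristic. -/
theorem exists_algHom (hES : ESRel r ρ)
    (hspan : Submodule.span T (Set.range ρ) = ⊤) :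
    ∃ Φ : Matrix (Fin 2) (Fin 2) T →ₐ[T] Module.End T V, ∀ g, Φ (ρ g) = r g := by
  classical
  choose s hs hsm using fun A => exists_mem_tripleSpan (r := r) hspan A
  have huniq : ∀ x ∈ tripleSpan r ρ, (s x.2.1).1 = x.1 := by
    intro x hx
    have h1 := (tripleSpan r ρ).sub_mem (hs x.2.1) hx
    have h3 := tripleSpan_eq_zero hES hspan h1 (by
      simp only [Prod.snd_sub, Prod.fst_sub, hsm, sub_self])
    exact sub_eq_zero.mp h3
  have hone : (s 1).1 = 1 := by
    have := huniq (tripleHom r ρ 1) (Submodule.subset_span ⟨1, rfl⟩)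
    simpa [map_one] using this
  let Φ : Matrix (Fin 2) (Fin 2) T →ₐ[T] Module.End T V :=
    AlgHom.ofLinearMap
      { toFun := fun A => (s A).1
        map_add' := fun A B => by
          have := huniq _ ((tripleSpan r ρ).add_mem (hs A) (hs B))
          simpa only [Prod.snd_add, Prod.fst_add, hsm] using this
        map_smul' := fun a A => by
          have := huniq _ ((tripleSpan r ρ).smul_mem a (hs A))
          simpa only [Prod.smul_snd, Prod.smul_fst, hsm, RingHom.id_apply] using this }
      hone (fun A B => by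
        have := huniq _ (tripleSpan_mul (hs A) (hs B))
        simp only [Prod.snd_mul, Prod.fst_mul, hsm] at this
        exact this)
  refine ⟨Φ, fun g => ?_⟩
  exact huniq (tripleHom r ρ g) (Submodule.subset_span ⟨g, rfl⟩)

end Factor

end Fermat.Agent.LTF.BLR
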