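import Mathlib

/-!
# The start element (BETA): the determinant trick on a `ℤ_p`-lattice

`Λ` is a finite free `ℤ_p`-module on which a commutative `ℤ_p`-algebra `𝒫` acts, and `I` is an ideal
of `𝒫` containing a power of `p`.  Then there are `e` and a primitive vector `x ∈ Λ` such that
`I x ⊆ p^e Λ`, and an element of `p^(e g) + I`, `g = rank Λ`, which kills `Λ`.
-/

set_option autoImplicit false

noncomputable section

namespace Fermat.Agent.LTF.Beta

open Module

section Det

variable {P : Type*} [CommRing P] {M : Type*} [AddCommGroup M] [Module P M]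
  {ι : Type*} [Fintype ι] [DecidableEq ι]

theorem det_smul_eq_zero (B : Matrix ι ι P) (b : ι → M) (h : ∀ i, ∑ j, B i j • b j = 0) (k : ι) :
    B.det • b k = 0 := by
  have h1 : ∑ i, B.adjugate k i • ∑ j, B i j • b j = 0 :=
    Finset.sum_eq_zero fun i _ => by rw [h i, smul_zero]
  have h2 : ∑ i, B.adjugate k i • ∑ j, B i j • b j = ∑ j, (B.adjugate * B) k j • b j := by
    simp only [Finset.smul_sum, smul_smul, Matrix.mul_apply, Finset.sum_smul]
    exact Finset.sum_comm
  rw [h2, Matrix.adjugate_mul] at h1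
  have h3 : ∑ j, (B.det • (1 : Matrix ι ι P)) k j • b j = B.det • b k := by
    rw [Finset.sum_eq_single k]
    · simp
    · intro j _ hj
      simp [Matrix.one_apply_ne hj.symm]
    · simp
  rw [h3] at h1
  exact h1

theorem det_sub_mem (I : Ideal P) (c : P) (A : Matrix ι ι P) (hA : ∀ i j, A i j ∈ I) :
    (c • (1 : Matrix ι ι P) - A).det - c ^ Fintype.card ι ∈ I := by
  rw [← Ideal.Quotient.eq_zero_iff_mem, map_sub, RingHom.map_det, map_pow]
  have h1 : (Ideal.Quotient.mk I).mapMatrix (c • (1 : Matrix ι ι P) - A) =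
      (Ideal.Quotient.mk I c) • (1 : Matrix ι ι (P ⧸ I)) := by
    ext i j
    rw [RingHom.mapMatrix_apply, Matrix.map_apply, Matrix.sub_apply, map_sub,
      Ideal.Quotient.eq_zero_iff_mem.mpr (hA i j), sub_zero]
    rcases eq_or_ne i j with rfl | hij
    · simp
    · simp [Matrix.one_apply_ne hij]
  rw [h1, Matrix.det_smul, Matrix.det_one, mul_one, sub_self]

end Det

section Lattice

variable {p : ℕ} [Fact p.Prime]
variable {Λ : Type*} [AddCommGroup Λ] [Module ℤ_[p] Λ] [Module.Free ℤ_[p] Λ]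
  [Module.Finite ℤ_[p] Λ]

theorem exists_smul_of_dual (c : ℤ_[p]) (y : Λ) (h : ∀ μ : Dual ℤ_[p] Λ, c ∣ μ y) :
    ∃ z : Λ, y = c • z := by
  classical
  let b := Module.finBasis ℤ_[p] Λ
  choose d hd using fun i => h (b.coord i)
  refine ⟨∑ i, d i • b i, ?_⟩
  rw [Finset.smul_sum, ← b.sum_repr y]
  refine Finset.sum_congr rfl fun i _ => ?_
  rw [smul_smul, ← hd i]
  simp

variable {P : Type*} [CommRing P] [Algebra ℤ_[p] P] (act : P →ₐ[ℤ_[p]] Module.End ℤ_[p] Λ)

/-- The action on the dual. -/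
def dact : P →+* Module.End ℤ_[p] (Dual ℤ_[p] Λ) where
  toFun t := (act t).dualMap
  map_one' := by rw [map_one]; rfl
  map_mul' s t := by
    rw [mul_comm, map_mul]; rfl
  map_zero' := by
    rw [map_zero]
    ext μ x
    exact map_zero μ
  map_add' s t := by
    rw [map_add]
    ext μ x
    exact map_add μ _ _

theorem dact_apply (t : P) (μ : Dual ℤ_[p] Λ) (x : Λ) : dact act t μ x = μ (act t x) := rfl

theorem dact_algebraMap (c : ℤ_[p]) (μ : Dual ℤ_[p] Λ) :
    dact act (algebraMap ℤ_[p] P c) μ = c • μ := by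
  ext x
  rw [dact_apply, AlgHom.commutes, Module.algebraMap_end_apply, map_smul]
  rfl

theorem dact_mul (s t : P) (μ : Dual ℤ_[p] Λ) :
    dact act (s * t) μ = dact act s (dact act t μ) := by
  rw [map_mul]; rfl

theorem dact_natCast (c : ℕ) (μ : Dual ℤ_[p] Λ) :
    dact act (c : P) μ = (c : ℤ_[p]) • μ := by
  rw [← map_natCast (algebraMap ℤ_[p] P) c]
  exact dact_algebraMap act _ μ

/-- `I M` for `M` the dual lattice. -/
def idealDual (I : Ideal P) : Submodule ℤ_[p] (Dual ℤ_[p] Λ) :=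
  Submodule.span ℤ_[p] {ν | ∃ t ∈ I, ∃ μ, ν = dact act t μ}

theorem dact_mem_idealDual {I : Ideal P} {t : P} (ht : t ∈ I) (μ : Dual ℤ_[p] Λ) :
    dact act t μ ∈ idealDual act I := Submodule.subset_span ⟨t, ht, μ, rfl⟩

theorem exists_coeffs {ι : Type*} [Fintype ι] (b : Basis ι ℤ_[p] (Dual ℤ_[p] Λ)) {I : Ideal P}
    {ν : Dual ℤ_[p] Λ} (hν : ν ∈ idealDual act I) :
    ∃ A : ι → P, (∀ i, A i ∈ I) ∧ ν = ∑ i, dact act (A i) (b i) := by
  induction hν using Submodule.span_induction with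
  | mem x h =>
    obtain ⟨t, ht, μ, rfl⟩ := h
    refine ⟨fun i => t * algebraMap ℤ_[p] P (b.repr μ i), fun i => I.mul_mem_right _ ht, ?_⟩
    conv_lhs => rw [← b.sum_repr μ, map_sum]
    refine Finset.sum_congr rfl fun i _ => ?_
    rw [dact_mul, dact_algebraMap]
  | zero => exact ⟨fun _ => 0, fun _ => I.zero_mem, by simp⟩
  | add x y _ _ hx hy =>
    obtain ⟨A, hA, rfl⟩ := hx
    obtain ⟨B, hB, rfl⟩ := hy
    refine ⟨fun i => A i + B i, fun i => I.add_mem (hA i) (hB i), ?_⟩
    rw [← Finset.sum_add_distrib]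
    exact Finset.sum_congr rfl fun i _ => by rw [map_add]; rfl
  | smul c x _ hx =>
    obtain ⟨A, hA, rfl⟩ := hx
    refine ⟨fun i => algebraMap ℤ_[p] P c * A i, fun i => I.mul_mem_left _ (hA i), ?_⟩
    rw [Finset.smul_sum]
    exact Finset.sum_congr rfl fun i _ => by rw [dact_mul, dact_algebraMap]

/-- **The determinant trick.** -/
theorem exists_primitive [Nontrivial Λ] (I : Ideal P) {n : ℕ} (hn : (p : P) ^ n ∈ I) :
    ∃ (e : ℕ) (x : Λ), (∀ y : Λ, x ≠ (p : ℤ_[p]) • y) ∧
      (∀ t ∈ I, ∃ y : Λ, act t x = (p : ℤ_[p]) ^ e • y) ∧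
      ∃ i ∈ I, act ((p : P) ^ (e * finrank ℤ_[p] Λ) + i) = 0 := by
  classical
  set g := finrank ℤ_[p] Λ with hg
  have hgpos : 0 < g := Module.finrank_pos
  let b₀ := Module.finBasis ℤ_[p] Λ
  let b : Basis (Fin g) ℤ_[p] (Dual ℤ_[p] Λ) := b₀.dualBasis
  set N := idealDual act I with hN
  have hpn : ∀ μ : Dual ℤ_[p] Λ, (p : ℤ_[p]) ^ n • μ ∈ N := by
    intro μ
    have h1 := dact_mem_idealDual act hn μ
    have h2 : dact act ((p : P) ^ n) μ = (p : ℤ_[p]) ^ n • μ := by
      have := dact_natCast act (p ^ n) μ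
      push_cast at this
      exact this
    rwa [h2] at h1
  have hrank : finrank ℤ_[p] N = finrank ℤ_[p] (Dual ℤ_[p] Λ) := by
    apply le_antisymm (Submodule.finrank_le N)
    let f : Dual ℤ_[p] Λ →ₗ[ℤ_[p]] N :=
      { toFun := fun μ => ⟨(p : ℤ_[p]) ^ n • μ, hpn μ⟩
        map_add' := fun μ ν => Subtype.ext (smul_add _ _ _)
        map_smul' := fun c μ => Subtype.ext (smul_comm _ _ _) }
    refine LinearMap.finrank_le_finrank_of_injective (f := f) ?_
    intro μ ν h
    have h1 : (p : ℤ_[p]) ^ n • μ = (p : ℤ_[p]) ^ n • ν := congrArg Subtype.val h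
    have hp0 : ((p : ℤ_[p]) ^ n) ≠ 0 :=
      pow_ne_zero _ (by exact_mod_cast (Fact.out : p.Prime).ne_zero)
    exact smul_right_injective _ hp0 h1
  obtain ⟨b', a, ab', hab⟩ := Submodule.exists_smith_normal_form_of_rank_eq b hrank
  -- coordinates of elements of `N`
  have hcoord : ∀ ν ∈ N, ∀ i, a i ∣ b'.repr ν i := by
    intro ν hν i
    have h1 : (ν : Dual ℤ_[p] Λ) = ∑ j, (ab'.repr ⟨ν, hν⟩ j * a j) • b' j := by
      have h2 := congrArg Subtype.val (ab'.sum_repr ⟨ν, hν⟩)
      simp only [Submodule.coe_sum, Submodule.coe_smul, hab, smul_smul] at h2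
      exact h2.symm
    rw [h1, map_sum, Finsupp.finsetSum_apply, Finset.sum_eq_single i]
    · rw [map_smul, Basis.repr_self, Finsupp.smul_apply, Finsupp.single_eq_same, smul_eq_mul,
        mul_one]
      exact dvd_mul_left _ _
    · intro j _ hj
      rw [map_smul, Basis.repr_self, Finsupp.smul_apply, Finsupp.single_apply, if_neg hj,
        smul_zero]
    · simp
  have hdvd : ∀ i, a i ∣ (p : ℤ_[p]) ^ n := by
    intro i
    have h1 := hcoord _ (hpn (b' i)) i
    rw [map_smul, Basis.repr_self, Finsupp.smul_apply, Finsupp.single_eq_same, smul_eq_mul,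
      mul_one] at h1
    exact h1
  have hassoc : ∀ i, ∃ k, Associated (a i) ((p : ℤ_[p]) ^ k) := by
    intro i
    obtain ⟨k, -, hk⟩ := (dvd_prime_pow PadicInt.prime_p n).mp (hdvd i)
    exact ⟨k, hk⟩
  choose ex hex using hassoc
  haveI : Nonempty (Fin g) := ⟨⟨0, hgpos⟩⟩
  obtain ⟨i₀, -, hi₀⟩ := Finset.exists_max_image Finset.univ ex Finset.univ_nonempty
  -- `p^e M ⊆ N`
  have hpe : ∀ μ : Dual ℤ_[p] Λ, (p : ℤ_[p]) ^ (ex i₀) • μ ∈ N := by
    intro μ
    rw [← b'.sum_repr μ, Finset.smul_sum]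
    refine N.sum_mem fun i _ => ?_
    rw [smul_comm]
    refine N.smul_mem _ ?_
    obtain ⟨c, hc⟩ := (hex i).dvd.trans (pow_dvd_pow (p : ℤ_[p]) (hi₀ i (Finset.mem_univ i)))
    rw [hc, mul_comm, mul_smul, ← hab]
    exact N.smul_mem _ (ab' i).2
  -- the primitive vector
  set x : Λ := (evalEquiv ℤ_[p] Λ).symm (b'.coord i₀) with hx
  have hxμ : ∀ μ : Dual ℤ_[p] Λ, μ x = b'.repr μ i₀ := by
    intro μ
    rw [hx, Module.apply_evalEquiv_symm_apply]
    rfl
  refine ⟨ex i₀, x, ?_, ?_, ?_⟩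
  · intro y hy
    have h1 := hxμ (b' i₀)
    rw [hy, map_smul, Basis.repr_self, Finsupp.single_eq_same, smul_eq_mul] at h1
    exact PadicInt.prime_p.not_unit (IsUnit.of_mul_eq_one _ h1)
  · intro t ht
    refine exists_smul_of_dual _ _ fun μ => ?_
    have h1 : μ (act t x) = b'.repr (dact act t μ) i₀ := by
      rw [← hxμ]; rfl
    rw [h1]
    exact (hex i₀).symm.dvd.trans (hcoord _ (dact_mem_idealDual act ht μ) i₀)
  · choose A hA hA' using fun j => exists_coeffs act b (hpe (b j))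
    letI : Module P (Dual ℤ_[p] Λ) := Module.compHom _ (dact act)
    have hsm : ∀ (t : P) (μ : Dual ℤ_[p] Λ), t • μ = dact act t μ := fun _ _ => rfl
    set B : Matrix (Fin g) (Fin g) P :=
      ((p : P) ^ (ex i₀)) • (1 : Matrix (Fin g) (Fin g) P) - Matrix.of A with hB
    have h1 : ∀ i, ∑ j, B i j • b j = 0 := by
      intro i
      have h2 : ∑ j, B i j • b j = ∑ j, (((p : P) ^ (ex i₀)) • (1 : Matrix (Fin g) (Fin g) P)) i j
          • b j - ∑ j, A i j • b j := by
        rw [← Finset.sum_sub_distrib]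
        refine Finset.sum_congr rfl fun j _ => ?_
        rw [hB, Matrix.sub_apply, sub_smul, Matrix.of_apply]
      have h3 : ∑ j, (((p : P) ^ (ex i₀)) • (1 : Matrix (Fin g) (Fin g) P)) i j • b j =
          ((p : P) ^ (ex i₀)) • b i := by
        rw [Finset.sum_eq_single i]
        · simp
        · intro j _ hj
          rw [Matrix.smul_apply, Matrix.one_apply_ne hj.symm, smul_zero, zero_smul]
        · simp
      have h4 : ((p : P) ^ (ex i₀)) • b i = (p : ℤ_[p]) ^ (ex i₀) • b i := by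
        rw [hsm]
        have := dact_natCast act (p ^ (ex i₀)) (b i)
        push_cast at this
        exact this
      rw [h2, h3, h4, hA' i]
      simp only [hsm, sub_self]
    have h2 : ∀ k, B.det • b k = 0 := det_smul_eq_zero B b h1
    have h3 : act B.det = 0 := by
      ext y
      apply b₀.ext_elem
      intro k
      have h4 : (b k) (act B.det y) = 0 := by
        have := LinearMap.congr_fun (h2 k) y
        exact this
      have h5 : (b k) (act B.det y) = b₀.repr (act B.det y) k := by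
        show b₀.dualBasis k _ = _
        rw [Basis.dualBasis_apply]
      rw [← h5, h4]
      simp
    have h4 := det_sub_mem I ((p : P) ^ (ex i₀)) (Matrix.of A) (fun i j => hA i j)
    rw [← pow_mul, Fintype.card_fin] at h4
    refine ⟨_, h4, ?_⟩
    rw [add_sub_cancel]
    exact h3

end Lattice

end Fermat.Agent.LTF.Beta

end
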