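import Fermat.Agent.LTF.Beta1

/-!
# The start element (BETA): abstract form

`L` is a finite free `ℤ_p`-module with an action of `P`, `v_f` are finitely many vectors of `L`, `T`
is a finite `ℤ_p`-algebra and `π : P → T` such that elements of `ker π` kill all `v_f`.  If
`θ : P → ℤ/pⁿ` vanishes on the annihilator of the `v_f` then there is a primitive vector `x ∈ L` which
modulo `p^k` is killed by `ker θ`, with `n ≤ k |F| rank T`.
-/

set_option autoImplicit false

noncomputable section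

namespace Fermat.Agent.LTF.Beta

open Module

variable {p : ℕ} [Fact p.Prime]

/-- The `p`-saturation of a submodule of a Noetherian module. -/
theorem exists_saturation {L : Type*} [AddCommGroup L] [Module ℤ_[p] L] [Module.Finite ℤ_[p] L]
    (W : Submodule ℤ_[p] L) :
    ∃ (c : ℕ) (Λ : Submodule ℤ_[p] L), W ≤ Λ ∧ (∀ x, x ∈ Λ ↔ (p : ℤ_[p]) ^ c • x ∈ W) ∧
      ∀ x, (p : ℤ_[p]) • x ∈ Λ → x ∈ Λ := by
  let f : ℕ →o Submodule ℤ_[p] L :=
    { toFun := fun m => W.comap (LinearMap.lsmul ℤ_[p] L ((p : ℤ_[p]) ^ m))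
      monotone' := by
        intro a b hab s hs
        simp only [Submodule.mem_comap, LinearMap.lsmul_apply] at hs ⊢
        rw [← Nat.sub_add_cancel hab, pow_add, mul_smul]
        exact W.smul_mem _ hs }
  have hnoe : IsNoetherian ℤ_[p] L := isNoetherian_of_isNoetherianRing_of_finite ℤ_[p] L
  obtain ⟨c, hc⟩ := monotone_stabilizes_iff_noetherian.mpr hnoe f
  have hmem : ∀ x, x ∈ f c ↔ (p : ℤ_[p]) ^ c • x ∈ W := fun x => Iff.rfl
  refine ⟨c, f c, fun x hx => (hmem x).mpr (W.smul_mem _ hx), hmem, fun x hx => ?_⟩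
  have h1 : x ∈ f (c + 1) := by
    show (p : ℤ_[p]) ^ (c + 1) • x ∈ W
    rw [pow_succ, mul_smul]
    exact hx
  rw [← hc (c + 1) (Nat.le_succ c)] at h1
  exact h1

theorem natCast_pow_eq_zero {n m : ℕ} (h : ((p ^ m : ℕ) : ZMod (p ^ n)) = 0) : n ≤ m := by
  rw [ZMod.natCast_eq_zero_iff] at h
  exact (Nat.pow_dvd_pow_iff_le_right (Fact.out : p.Prime).one_lt).mp h

/-- **Abstract form of the start element.** -/
theorem exists_start {F : Type*} [Fintype F] {L : Type*} [AddCommGroup L] [Module ℤ_[p] L]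
    [Module.Free ℤ_[p] L] [Module.Finite ℤ_[p] L] {P : Type*} [CommRing P] [Algebra ℤ_[p] P]
    (act : P →ₐ[ℤ_[p]] Module.End ℤ_[p] L) (v : F → L) {T : Type*} [CommRing T]
    [Algebra ℤ_[p] T] [Module.Finite ℤ_[p] T] [Module.Free ℤ_[p] T] (π : P →ₐ[ℤ_[p]] T)
    (hA1 : ∀ t, π t = 0 → ∀ f, act t (v f) = 0) {n : ℕ} (hn : n ≠ 0) (θ : P →+* ZMod (p ^ n))
    (hA2 : ∀ t, (∀ f, act t (v f) = 0) → θ t = 0) :
    ∃ (k : ℕ) (x : L), n ≤ k * (Fintype.card F * finrank ℤ_[p] T) ∧
      (∀ y, x ≠ (p : ℤ_[p]) • y) ∧ ∀ t, θ t = 0 → ∃ y, act t x = (p : ℤ_[p]) ^ k • y := by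
  classical
  have hp : p.Prime := Fact.out
  haveI : Fact (1 < p ^ n) := ⟨Nat.one_lt_pow hn hp.one_lt⟩
  -- the span of the orbits
  let Ψ : (F → P) →ₗ[ℤ_[p]] L :=
    { toFun := fun t => ∑ f, act (t f) (v f)
      map_add' := fun s t => by
        simp only [Pi.add_apply, map_add, LinearMap.add_apply, Finset.sum_add_distrib]
      map_smul' := fun c t => by
        simp only [Pi.smul_apply, map_smul, LinearMap.smul_apply, Finset.smul_sum,
          RingHom.id_apply] }
  have hΨ : ∀ t, Ψ t = ∑ f, act (t f) (v f) := fun _ => rfl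
  set W := LinearMap.range Ψ with hW
  have hWact : ∀ t : P, ∀ x ∈ W, act t x ∈ W := by
    rintro t _ ⟨s, rfl⟩
    refine ⟨fun f => t * s f, ?_⟩
    rw [hΨ, hΨ, map_sum]
    exact Finset.sum_congr rfl fun f _ => by rw [map_mul]; rfl
  have hvW : ∀ f, v f ∈ W := by
    intro f
    refine ⟨Pi.single f 1, ?_⟩
    rw [hΨ, Finset.sum_eq_single f]
    · simp
    · intro j _ hj
      rw [Pi.single_eq_of_ne hj, map_zero, LinearMap.zero_apply]
    · simp
  have hrankW : finrank ℤ_[p] W ≤ Fintype.card F * finrank ℤ_[p] T := by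
    -- `W` is a quotient of `F → π.range`
    let π' : (F → P) →ₗ[ℤ_[p]] (F → T) :=
      { toFun := fun t f => π (t f)
        map_add' := fun s t => by ext f; simp
        map_smul' := fun c t => by ext f; simp }
    have hker : LinearMap.ker π' ≤ LinearMap.ker Ψ := by
      intro t ht
      rw [LinearMap.mem_ker] at ht ⊢
      rw [hΨ]
      exact Finset.sum_eq_zero fun f _ => hA1 _ (congrFun ht f) f
    -- the induced map
    have h1 : finrank ℤ_[p] W ≤ finrank ℤ_[p] (LinearMap.range π') := by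
      let e1 := π'.quotKerEquivRange
      let q : (F → P) ⧸ LinearMap.ker π' →ₗ[ℤ_[p]] W :=
        (LinearMap.ker π').liftQ Ψ.rangeRestrict (by
          intro t ht
          rw [LinearMap.mem_ker]
          exact Subtype.ext (hker ht))
      have hq : Function.Surjective q := by
        rintro ⟨_, ⟨t, rfl⟩⟩
        exact ⟨Submodule.Quotient.mk t, rfl⟩
      have hfin : Module.Finite ℤ_[p] (LinearMap.range π') := inferInstance
      have hfin' : Module.Finite ℤ_[p] ((F → P) ⧸ LinearMap.ker π') :=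
        Module.Finite.equiv e1.symm
      have h2 : finrank ℤ_[p] W ≤ finrank ℤ_[p] ((F → P) ⧸ LinearMap.ker π') :=
        LinearMap.finrank_le_finrank_of_surjective (f := q) hq
      rwa [e1.finrank_eq] at h2
    refine h1.trans ((Submodule.finrank_le _).trans ?_)
    rw [Module.finrank_pi_fintype]
    simp
  obtain ⟨c, Λ, hWΛ, hmem, hsat⟩ := exists_saturation W
  have hΛact : ∀ t : P, ∀ x ∈ Λ, act t x ∈ Λ := by
    intro t x hx
    rw [hmem] at hx ⊢
    rw [← map_smul]
    exact hWact t _ hx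
  have hrankΛ : finrank ℤ_[p] Λ ≤ finrank ℤ_[p] W := by
    let f : Λ →ₗ[ℤ_[p]] W :=
      { toFun := fun x => ⟨(p : ℤ_[p]) ^ c • (x : L), (hmem x).mp x.2⟩
        map_add' := fun μ ν => Subtype.ext (smul_add _ _ _)
        map_smul' := fun c μ => Subtype.ext (smul_comm _ _ _) }
    refine LinearMap.finrank_le_finrank_of_injective (f := f) ?_
    intro μ ν h
    have h1 : (p : ℤ_[p]) ^ c • (μ : L) = (p : ℤ_[p]) ^ c • (ν : L) := congrArg Subtype.val h
    have hp0 : ((p : ℤ_[p]) ^ c) ≠ 0 := pow_ne_zero _ (by exact_mod_cast hp.ne_zero)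
    exact Subtype.ext (smul_right_injective _ hp0 h1)
  -- the action on `Λ`
  let act₁ : P →ₐ[ℤ_[p]] Module.End ℤ_[p] Λ :=
    { toFun := fun t => (act t).restrict (hΛact t)
      map_one' := by ext x; simp
      map_mul' := fun s t => by ext x; simp
      map_zero' := by ext x; simp
      map_add' := fun s t => by ext x; simp
      commutes' := fun c => by ext x; simp }
  have hact₁ : ∀ t (x : Λ), ((act₁ t x : Λ) : L) = act t x := fun _ _ => rfl
  -- `Λ` is nontrivial
  haveI : Nontrivial Λ := by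
    by_contra h
    rw [not_nontrivial_iff_subsingleton] at h
    have h1 : θ 1 = 0 := hA2 1 fun f => by
      have h2 : (⟨v f, hWΛ (hvW f)⟩ : Λ) = 0 := Subsingleton.elim _ _
      have h3 : v f = 0 := congrArg Subtype.val h2
      rw [h3, map_zero]
    rw [map_one] at h1
    exact one_ne_zero h1
  have hpI : (p : P) ^ n ∈ RingHom.ker θ := by
    rw [RingHom.mem_ker, map_pow, map_natCast]
    have := ZMod.natCast_self (p ^ n)
    exact_mod_cast this
  obtain ⟨e, x, hx, hxI, i, hi, hkill⟩ := exists_primitive act₁ (RingHom.ker θ) hpI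
  refine ⟨e, x, ?_, ?_, ?_⟩
  · have h1 : θ ((p : P) ^ (e * finrank ℤ_[p] Λ) + i) = 0 := by
      refine hA2 _ fun f => ?_
      have h2 := LinearMap.congr_fun hkill ⟨v f, hWΛ (hvW f)⟩
      exact congrArg Subtype.val h2
    rw [map_add, (RingHom.mem_ker).mp hi, add_zero, map_pow, map_natCast] at h1
    have h2 : n ≤ e * finrank ℤ_[p] Λ := natCast_pow_eq_zero (p := p) (by exact_mod_cast h1)
    exact h2.trans (Nat.mul_le_mul_left e (hrankΛ.trans hrankW))
  · intro y hy
    have h1 : y ∈ Λ := hsat y (by rw [← hy]; exact x.2)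
    exact hx ⟨y, h1⟩ (Subtype.ext hy)
  · intro t ht
    obtain ⟨y, hy⟩ := hxI t ht
    exact ⟨y, congrArg Subtype.val hy⟩

end Fermat.Agent.LTF.Beta

end
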