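import Fermat.Agent.LTF.Beta2
import Fermat.Agent.HeckePar.Faithful

/-!
# The start element (BETA): lattices of parabolic homomorphisms

Hecke polynomials with coefficients in a commutative ring `R` act on `Hom(Γ₀(N), A)` for every
`R`-module `A`.  Eigenclasses with values in fields yield vectors of the `ℤ_p`-lattice of parabolic
homomorphisms with a controlled annihilator.
-/

set_option autoImplicit false

noncomputable section

open CongruenceSubgroup
open scoped MatrixGroups ModularForm

namespace Fermat.Agent.LTF.Beta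

open Module Fermat.Agent.HeckePar Fermat.Agent.GalRep ModularCurve ModularCurve.Period
open Fermat.Agent.S21per

/-! ### Evaluation of polynomials at commuting operators, general coefficients -/

section CommEval

variable (R : Type*) [CommRing R] {ι : Type*} {A : Type*} [Ring A] [Algebra R A]

theorem isMulComm_adjoinR (op : ι → A) (h : ∀ i j, Commute (op i) (op j)) :
    IsMulCommutative (Algebra.adjoin R (Set.range op)) :=
  Algebra.isMulCommutative_adjoin R (by
    rintro _ ⟨i, rfl⟩ _ ⟨j, rfl⟩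
    exact h i j)

open scoped IsMulCommutative in
/-- auxiliary: evaluation into the commutative subalgebra. -/
def commEvalRAux (op : ι → A) (h : ∀ i j, Commute (op i) (op j)) :
    MvPolynomial ι R →ₐ[R] (Algebra.adjoin R (Set.range op) : Subalgebra R A) :=
  haveI := isMulComm_adjoinR R op h
  MvPolynomial.aeval fun i =>
    (⟨op i, Algebra.subset_adjoin (Set.mem_range_self i)⟩ : Algebra.adjoin R (Set.range op))

/-- Evaluation of polynomials at pairwise commuting elements of an algebra. -/
def commEvalR (op : ι → A) (h : ∀ i j, Commute (op i) (op j)) : MvPolynomial ι R →ₐ[R] A :=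
  (Algebra.adjoin R (Set.range op)).val.comp (commEvalRAux R op h)

open scoped IsMulCommutative in
@[simp] theorem commEvalR_X (op : ι → A) (h : ∀ i j, Commute (op i) (op j)) (i : ι) :
    commEvalR R op h (MvPolynomial.X i) = op i := by
  have := isMulComm_adjoinR R op h
  show ((commEvalRAux R op h (MvPolynomial.X i) : Algebra.adjoin R (Set.range op)) : A) = op i
  rw [commEvalRAux, MvPolynomial.aeval_X]

end CommEval

section Op

variable (N : ℕ) (S : Set ℕ) (R : Type*) [CommRing R] (A : Type*) [AddCommGroup A] [Module R A]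

variable {A} in
theorem opHom_comp {B : Type*} [AddCommGroup B] (ψ : A →+ B)
    (ℓ : {ℓ : Nat.Primes // (ℓ : ℕ) ∉ S}) (φ : Additive (Gamma0 N) →+ A) :
    opHom N S B ℓ (ψ.comp φ) = ψ.comp (opHom N S A ℓ φ) := by
  have h := parEval_comp (N := N) (S := S) ψ (MvPolynomial.X ℓ) φ
  rwa [parEval_X, parEval_X] at h

/-- The Hecke operators as `R`-linear maps. -/
def opR (ℓ : {ℓ : Nat.Primes // (ℓ : ℕ) ∉ S}) : Module.End R (Additive (Gamma0 N) →+ A) where
  toFun := opHom N S A ℓ
  map_add' := map_add _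
  map_smul' c φ := opHom_comp N S (DistribSMul.toAddMonoidHom A c) ℓ φ

variable {R A} in
theorem opR_apply (ℓ : {ℓ : Nat.Primes // (ℓ : ℕ) ∉ S}) (φ : Additive (Gamma0 N) →+ A) :
    opR N S R A ℓ φ = opHom N S A ℓ φ := rfl

theorem opR_commute (ℓ ℓ' : {ℓ : Nat.Primes // (ℓ : ℕ) ∉ S}) :
    Commute (opR N S R A ℓ) (opR N S R A ℓ') := by
  refine LinearMap.ext fun φ => ?_
  exact LinearMap.congr_fun (opHom_commute (N := N) (A := A) S ℓ ℓ') φ

/-- The action of Hecke polynomials with coefficients in `R` on `Hom(Γ₀(N), A)`. -/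
def parR : MvPolynomial {ℓ : Nat.Primes // (ℓ : ℕ) ∉ S} R →ₐ[R]
    Module.End R (Additive (Gamma0 N) →+ A) :=
  commEvalR R (opR N S R A) (opR_commute N S R A)

variable {R A}

@[simp] theorem parR_X (ℓ : {ℓ : Nat.Primes // (ℓ : ℕ) ∉ S}) (φ : Additive (Gamma0 N) →+ A) :
    parR N S R A (MvPolynomial.X ℓ) φ = opHom N S A ℓ φ := by
  rw [parR, commEvalR_X]; rfl

theorem parR_C (a : R) (φ : Additive (Gamma0 N) →+ A) :
    parR N S R A (MvPolynomial.C a) φ = a • φ := by
  rw [← MvPolynomial.algebraMap_eq, AlgHom.commutes, Module.algebraMap_end_apply]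

/-- naturality in the coefficients -/
theorem parR_comp {B : Type*} [AddCommGroup B] [Module R B] (ψ : A →ₗ[R] B)
    (t : MvPolynomial {ℓ : Nat.Primes // (ℓ : ℕ) ∉ S} R) (φ : Additive (Gamma0 N) →+ A) :
    parR N S R B t (ψ.toAddMonoidHom.comp φ) = ψ.toAddMonoidHom.comp (parR N S R A t φ) := by
  induction t using MvPolynomial.induction_on generalizing φ with
  | C a =>
    rw [parR_C, parR_C]
    ext x
    exact (map_smul ψ a (φ x)).symm
  | add p q hp hq =>
    rw [map_add, map_add, LinearMap.add_apply, LinearMap.add_apply, hp, hq]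
    ext x
    exact (map_add ψ _ _).symm
  | mul_X p ℓ hp =>
    rw [map_mul, map_mul, Module.End.mul_apply, Module.End.mul_apply, parR_X, parR_X,
      opHom_comp, hp]

/-- Eigenclasses. -/
theorem parR_eigen {Ω : Type*} [CommRing Ω] [Algebra R Ω] {b : {ℓ : Nat.Primes // (ℓ : ℕ) ∉ S} → Ω}
    {V : Additive (Gamma0 N) →+ Ω} (hV : ∀ ℓ, opHom N S Ω ℓ V = b ℓ • V)
    (t : MvPolynomial {ℓ : Nat.Primes // (ℓ : ℕ) ∉ S} R) :
    parR N S R Ω t V = (MvPolynomial.aeval b t) • V := by
  induction t using MvPolynomial.induction_on with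
  | C a =>
    rw [parR_C, ← MvPolynomial.algebraMap_eq, AlgHom.commutes]
    ext x
    exact Algebra.smul_def a (V x)
  | add p q hp hq =>
    rw [map_add, map_add, LinearMap.add_apply, hp, hq, add_smul]
  | mul_X p ℓ hp =>
    rw [map_mul, map_mul, Module.End.mul_apply, parR_X, hV, MvPolynomial.aeval_X]
    have h1 : b ℓ • V = (LinearMap.mulLeft R (b ℓ)).toAddMonoidHom.comp V := rfl
    rw [h1, parR_comp, hp]
    ext x
    show b ℓ * (MvPolynomial.aeval b p * V x) = (MvPolynomial.aeval b p * b ℓ) * V x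
    ring

theorem isParabolicHom_comp {B : Type*} [AddCommGroup B] (ψ : A →+ B)
    {φ : Additive (Gamma0 N) →+ A} (hφ : IsParabolicHom (Gamma0 N) φ) :
    IsParabolicHom (Gamma0 N) (ψ.comp φ) := by
  intro γ hγ
  rw [AddMonoidHom.comp_apply, hφ γ hγ, map_zero]

theorem parR_mem [IsAddTorsionFree A] (t : MvPolynomial {ℓ : Nat.Primes // (ℓ : ℕ) ∉ S} R)
    {φ : Additive (Gamma0 N) →+ A} (hφ : φ ∈ parabolicHoms R (Gamma0 N) A) :
    parR N S R A t φ ∈ parabolicHoms R (Gamma0 N) A := by
  induction t using MvPolynomial.induction_on generalizing φ with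
  | C a =>
    rw [parR_C]
    exact Submodule.smul_mem _ _ hφ
  | add p q hp hq =>
    rw [map_add, LinearMap.add_apply]
    exact Submodule.add_mem _ (hp hφ) (hq hφ)
  | mul_X p ℓ hp =>
    rw [map_mul, Module.End.mul_apply, parR_X]
    exact hp (isParabolicHom_opHom ℓ hφ)

end Op

section Lattice

variable (N : ℕ) [NeZero N] (p : ℕ) [Fact p.Prime]

/-- The lattice of `ℤ_p`-valued parabolic homomorphisms. -/
abbrev Lat : Submodule ℤ_[p] (Additive (Gamma0 N) →+ ℤ_[p]) := parabolicHoms ℤ_[p] (Gamma0 N) ℤ_[p]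

instance finite_hom_padic : Module.Finite ℤ_[p] (Additive (Gamma0 N) →+ ℤ_[p]) := by
  have hfg : Group.FG (Gamma0 N) := Fermat.Agent.S22alg.fg_Gamma0 N
  have hfg' : AddGroup.FG (Additive (Gamma0 N)) := inferInstance
  obtain ⟨s, hs⟩ := hfg'.out
  let ev : (Additive (Gamma0 N) →+ ℤ_[p]) →ₗ[ℤ_[p]] (s → ℤ_[p]) :=
    { toFun := fun φ x => φ x
      map_add' := fun _ _ => rfl
      map_smul' := fun _ _ => rfl }
  refine Module.Finite.of_injective ev fun φ ψ h => ?_
  refine AddMonoidHom.eq_of_eqOn_dense hs fun x hx => ?_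
  exact congrFun h ⟨x, hx⟩

instance torsionFree_hom_padic : Module.IsTorsionFree ℤ_[p] (Additive (Gamma0 N) →+ ℤ_[p]) := by
  refine Function.Injective.moduleIsTorsionFree (fun φ : Additive (Gamma0 N) →+ ℤ_[p] =>
    (φ : Additive (Gamma0 N) → ℤ_[p])) DFunLike.coe_injective fun _ _ => rfl

instance finite_lat : Module.Finite ℤ_[p] (Lat N p) := inferInstance

instance torsionFree_lat : Module.IsTorsionFree ℤ_[p] (Lat N p) := by
  refine Function.Injective.moduleIsTorsionFree (Subtype.val : Lat N p → _)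
    Subtype.val_injective fun _ _ => rfl

instance free_lat : Module.Free ℤ_[p] (Lat N p) := by
  have h1 : IsPrincipalIdealRing ℤ_[p] := inferInstance
  have h2 : IsDomain ℤ_[p] := inferInstance
  exact Module.free_of_finite_type_torsion_free' (R := ℤ_[p]) (M := Lat N p)

/-- The action of Hecke polynomials on the lattice. -/
def actLat (S : Set ℕ) : MvPolynomial {ℓ : Nat.Primes // (ℓ : ℕ) ∉ S} ℤ_[p] →ₐ[ℤ_[p]]
    Module.End ℤ_[p] (Lat N p) where
  toFun t := (parR N S ℤ_[p] ℤ_[p] t).restrict fun _ hφ => parR_mem N S t hφ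
  map_one' := by ext x; simp
  map_mul' s t := by ext x; simp
  map_zero' := by ext x; simp
  map_add' s t := by ext x; simp
  commutes' c := by ext x; simp

theorem coe_actLat (S : Set ℕ) (t : MvPolynomial {ℓ : Nat.Primes // (ℓ : ℕ) ∉ S} ℤ_[p])
    (x : Lat N p) : ((actLat N p S t x : Lat N p) : Additive (Gamma0 N) →+ ℤ_[p]) =
      parR N S ℤ_[p] ℤ_[p] t x := rfl

end Lattice

end Fermat.Agent.LTF.Beta

end
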