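import Fermat.Agent.LTF.Beta3

/-!
# The start element (BETA): from eigenclasses to primitive integral classes
-/

set_option autoImplicit false

noncomputable section

open CongruenceSubgroup
open scoped MatrixGroups ModularForm

namespace Fermat.Agent.LTF.Beta

open Module Fermat.Agent.HeckePar Fermat.Agent.GalRep ModularCurve ModularCurve.Period
open Fermat.Agent.S21per

/-- A nonzero integral element of a domain divides a nonzero constant. -/
theorem exists_aeval_mul_eq {R O : Type*} [CommRing R] [IsDomain R] [CommRing O] [IsDomain O]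
    [Algebra R O] {α : O} (hα : α ≠ 0) (hint : IsIntegral R α) :
    ∃ (q : Polynomial R) (c : R), c ≠ 0 ∧ Polynomial.aeval α q * α = algebraMap R O c := by
  set q₀ := minpoly R α with hq₀
  have hmon : q₀.Monic := minpoly.monic hint
  have haev : Polynomial.aeval α q₀ = 0 := minpoly.aeval R α
  have hdec := Polynomial.divX_mul_X_add q₀
  have h1 : Polynomial.aeval α q₀.divX * α + algebraMap R O (q₀.coeff 0) = 0 := by
    rw [← hdec, map_add, map_mul, Polynomial.aeval_X, Polynomial.aeval_C] at haev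
    exact haev
  refine ⟨q₀.divX, -q₀.coeff 0, ?_, ?_⟩
  · intro h0
    rw [neg_eq_zero] at h0
    rw [h0, map_zero, add_zero] at h1
    have h2 : Polynomial.aeval α q₀.divX = 0 := (mul_eq_zero.mp h1).resolve_right hα
    rw [h0, map_zero, add_zero] at hdec
    have h3 : q₀.divX.Monic := by
      have h4 : (q₀.divX * Polynomial.X).Monic := by rw [hdec]; exact hmon
      exact Polynomial.Monic.of_mul_monic_right Polynomial.monic_X h4
    have h5 := minpoly.min R α h3 h2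
    rw [← hq₀] at h5
    have h8 : q₀.degree = q₀.divX.degree + 1 := by
      rw [← Polynomial.degree_mul_X, hdec]
    rw [h8, Polynomial.degree_eq_natDegree h3.ne_zero] at h5
    have h7 : q₀.divX.natDegree + 1 ≤ q₀.divX.natDegree := by exact_mod_cast h5
    omega
  · rw [map_neg]
    exact eq_neg_of_add_eq_zero_left h1

section Vector

variable (N : ℕ) [NeZero N] {p : ℕ} [Fact p.Prime] (S : Set ℕ)

/-- Clearing denominators. -/
theorem exists_lift_of_hom (H : Additive (Gamma0 N) →+ ℚ_[p]) :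
    ∃ (c : ℤ_[p]) (v : Additive (Gamma0 N) →+ ℤ_[p]), c ≠ 0 ∧
      ∀ x, algebraMap ℤ_[p] ℚ_[p] (v x) = algebraMap ℤ_[p] ℚ_[p] c * H x := by
  classical
  have hfg : Group.FG (Gamma0 N) := Fermat.Agent.S22alg.fg_Gamma0 N
  have hfg' : AddGroup.FG (Additive (Gamma0 N)) := inferInstance
  obtain ⟨s, hs⟩ := hfg'.out
  obtain ⟨b, hb⟩ := IsLocalization.exist_integer_multiples_of_finset (nonZeroDivisors ℤ_[p])
    (s.image H)
  have hinj : Function.Injective (algebraMap ℤ_[p] ℚ_[p]) := IsFractionRing.injective _ _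
  -- the subgroup of good elements
  let G : AddSubgroup (Additive (Gamma0 N)) :=
    { carrier := {x | ∃ z : ℤ_[p], algebraMap ℤ_[p] ℚ_[p] z = algebraMap ℤ_[p] ℚ_[p] b * H x}
      zero_mem' := ⟨0, by simp⟩
      add_mem' := by
        rintro x y ⟨z, hz⟩ ⟨w, hw⟩
        exact ⟨z + w, by rw [map_add, map_add, hz, hw, mul_add]⟩
      neg_mem' := by
        rintro x ⟨z, hz⟩
        exact ⟨-z, by rw [map_neg, map_neg, hz, mul_neg]⟩ }
  have hG : G = ⊤ := by
    rw [eq_top_iff, ← hs, AddSubgroup.closure_le]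
    intro x hx
    obtain ⟨z, hz⟩ := hb (H x) (Finset.mem_image_of_mem H hx)
    exact ⟨z, by rw [hz, Algebra.smul_def]⟩
  have hall : ∀ x, ∃ z : ℤ_[p], algebraMap ℤ_[p] ℚ_[p] z = algebraMap ℤ_[p] ℚ_[p] b * H x := by
    intro x
    have : x ∈ G := by rw [hG]; trivial
    exact this
  choose v hv using hall
  refine ⟨b, { toFun := v, map_zero' := hinj ?_, map_add' := fun x y => hinj ?_ },
    nonZeroDivisors.coe_ne_zero b, hv⟩
  · rw [hv, map_zero, map_zero, mul_zero]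
  · rw [hv, map_add, map_add, hv, hv, mul_add]

variable {N S}

/-- From an eigenclass with values in a field to a vector of the `ℤ_p`-lattice. -/
theorem exists_lat_vector {O : Type*} [CommRing O] [IsDomain O] [Algebra ℤ_[p] O]
    [Algebra.IsIntegral ℤ_[p] O] {Ω : Type*} [Field Ω] [Algebra ℤ_[p] Ω]
    (hinj : Function.Injective (algebraMap ℤ_[p] Ω)) (j : O →ₐ[ℤ_[p]] Ω)
    {b : {ℓ : Nat.Primes // (ℓ : ℕ) ∉ S} → O} {V : Additive (Gamma0 N) →+ Ω} (hV0 : V ≠ 0)
    (hpar : IsParabolicHom (Gamma0 N) V) (hV : ∀ ℓ, opHom N S Ω ℓ V = j (b ℓ) • V) :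
    ∃ v : Lat N p, ∀ t : MvPolynomial {ℓ : Nat.Primes // (ℓ : ℕ) ∉ S} ℤ_[p],
      MvPolynomial.aeval b t = 0 ↔ actLat N p S t v = 0 := by
  classical
  have hinjQ : Function.Injective (algebraMap ℤ_[p] ℚ_[p]) := IsFractionRing.injective _ _
  letI algQ : Algebra ℚ_[p] Ω := (IsFractionRing.lift (K := ℚ_[p]) hinj).toAlgebra
  haveI : IsScalarTower ℤ_[p] ℚ_[p] Ω := IsScalarTower.of_algebraMap_eq fun x =>
    (IsFractionRing.lift_algebraMap (K := ℚ_[p]) hinj x).symm
  obtain ⟨γ, hγ⟩ : ∃ γ, V γ ≠ 0 := by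
    by_contra h
    push Not at h
    exact hV0 (AddMonoidHom.ext h)
  obtain ⟨h₀, hh₀⟩ : ∃ h₀ : Module.Dual ℚ_[p] Ω, h₀ (V γ) ≠ 0 := by
    by_contra h
    push Not at h
    exact hγ ((Module.forall_dual_apply_eq_zero_iff ℚ_[p] (V γ)).mp h)
  let h₁ : Ω →ₗ[ℤ_[p]] ℚ_[p] := h₀.restrictScalars ℤ_[p]
  obtain ⟨c, v, hc, hv⟩ := exists_lift_of_hom N (h₁.toAddMonoidHom.comp V)
  let h₂ : Ω →ₗ[ℤ_[p]] ℚ_[p] := c • h₁
  let J : ℤ_[p] →ₗ[ℤ_[p]] ℚ_[p] := Algebra.linearMap ℤ_[p] ℚ_[p]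
  have hJ : J.toAddMonoidHom.comp v = h₂.toAddMonoidHom.comp V := by
    ext x
    show algebraMap ℤ_[p] ℚ_[p] (v x) = c • h₁ (V x)
    rw [hv, Algebra.smul_def]
    rfl
  have hvpar : v ∈ parabolicHoms ℤ_[p] (Gamma0 N) ℤ_[p] := by
    intro δ hδ
    apply hinjQ
    rw [hv, map_zero]
    show _ * h₁ (V (Additive.ofMul δ)) = 0
    rw [hpar δ hδ, map_zero, mul_zero]
  have hv0 : v γ ≠ 0 := by
    intro h0
    have h1 := hv γ
    rw [h0, map_zero] at h1
    rcases mul_eq_zero.mp h1.symm with h2 | h2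
    · exact hc (hinjQ (by rw [h2, map_zero]))
    · exact hh₀ h2
  -- the key identity
  have key : ∀ t : MvPolynomial {ℓ : Nat.Primes // (ℓ : ℕ) ∉ S} ℤ_[p],
      J.toAddMonoidHom.comp (parR N S ℤ_[p] ℤ_[p] t v) =
        h₂.toAddMonoidHom.comp ((MvPolynomial.aeval (fun ℓ => j (b ℓ)) t) • V) := by
    intro t
    rw [← parR_comp, hJ, parR_comp, parR_eigen N S hV]
  have haev : ∀ t : MvPolynomial {ℓ : Nat.Primes // (ℓ : ℕ) ∉ S} ℤ_[p],
      MvPolynomial.aeval (fun ℓ => j (b ℓ)) t = j (MvPolynomial.aeval b t) := by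
    intro t
    have : (MvPolynomial.aeval (fun ℓ => j (b ℓ)) : MvPolynomial _ ℤ_[p] →ₐ[ℤ_[p]] Ω) =
        j.comp (MvPolynomial.aeval b) := by
      ext ℓ
      simp
    rw [this]; rfl
  have hdir : ∀ t : MvPolynomial {ℓ : Nat.Primes // (ℓ : ℕ) ∉ S} ℤ_[p],
      MvPolynomial.aeval b t = 0 → actLat N p S t ⟨v, hvpar⟩ = 0 := by
    intro t ht
    apply Subtype.ext
    have h1 := key t
    rw [haev, ht, map_zero, zero_smul] at h1
    refine DFunLike.ext _ _ fun x => hinjQ ?_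
    have h2 := DFunLike.congr_fun h1 x
    have h3 : algebraMap ℤ_[p] ℚ_[p] (parR N S ℤ_[p] ℤ_[p] t v x) = h₂ 0 := h2
    rw [map_zero] at h3
    exact h3.trans (map_zero _).symm
  refine ⟨⟨v, hvpar⟩, fun t => ⟨hdir t, fun ht => ?_⟩⟩
  by_contra hα
  obtain ⟨q, c₀, hc₀, hq⟩ := exists_aeval_mul_eq hα
    (Algebra.IsIntegral.isIntegral (R := ℤ_[p]) (MvPolynomial.aeval b t))
  have h1 : MvPolynomial.aeval b (Polynomial.aeval t q * t + MvPolynomial.C (-c₀)) = 0 := by
    rw [map_add, map_mul, ← Polynomial.aeval_algHom_apply, hq, ← MvPolynomial.algebraMap_eq,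
      AlgHom.commutes, map_neg, add_neg_cancel]
  have h2 := hdir _ h1
  rw [map_add, map_mul, LinearMap.add_apply, Module.End.mul_apply, ht, map_zero, zero_add,
    ← MvPolynomial.algebraMap_eq, AlgHom.commutes, Module.algebraMap_end_apply] at h2
  have h3 : (-c₀) • v = 0 := congrArg Subtype.val h2
  have h4 : (-c₀) * v γ = 0 := DFunLike.congr_fun h3 γ
  exact (mul_ne_zero (neg_ne_zero.mpr hc₀) hv0) h4

end Vector

section Integral

variable {N : ℕ} [NeZero N]

/-- Parabolic homomorphisms with torsion free values are combinations of integral ones. -/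
theorem exists_decomp {C : Type*} [AddCommGroup C] [IsAddTorsionFree C]
    {φ : Additive (Gamma0 N) →+ C} (hφ : IsParabolicHom (Gamma0 N) φ) :
    ∃ (n : ℕ) (c : Fin n → C) (l : Fin n → parabolicHoms ℤ (Gamma0 N) ℤ),
      ∀ x, φ x = ∑ i, (l i : Additive (Gamma0 N) →+ ℤ) x • c i := by
  have hfg : Group.FG (Gamma0 N) := Fermat.Agent.S22alg.fg_Gamma0 N
  let M := Additive (Abelianization (Gamma0 N))
  have hfgA : Group.FG (Abelianization (Gamma0 N)) :=
    Group.fg_of_surjective (f := Abelianization.of) (Quotient.mk_surjective)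
  have hfgM : AddGroup.FG M := GroupFG.iff_add_fg.mp hfgA
  let q : Additive (Gamma0 N) →+ M := MonoidHom.toAdditive Abelianization.of
  let φ' : M →+ C := MonoidHom.toAdditiveLeft
    (Abelianization.lift (AddMonoidHom.toMultiplicativeRight φ))
  have hφ' : ∀ x, φ' (q x) = φ x := fun x => rfl
  obtain ⟨n, c, l, h1, h2⟩ := exists_integral_decomposition φ'
  refine ⟨n, c, fun i => ⟨(l i).comp q, fun γ hγ => ?_⟩, fun x => ?_⟩
  · have h5 := hφ γ hγ
    rw [← hφ'] at h5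
    exact h2 _ h5 i
  · rw [← hφ', h1]
    rfl

variable {p : ℕ} [Fact p.Prime]

/-- The map from integral to `p`-adic classes. -/
def toLat : parabolicHoms ℤ (Gamma0 N) ℤ →+ Lat N p where
  toFun φ := ⟨(Int.castAddHom ℤ_[p]).comp (φ : Additive (Gamma0 N) →+ ℤ), by
    intro γ hγ
    rw [AddMonoidHom.comp_apply, φ.2 γ hγ, map_zero]⟩
  map_zero' := Subtype.ext (DFunLike.ext _ _ fun _ => Int.cast_zero)
  map_add' φ ψ := Subtype.ext (DFunLike.ext _ _ fun _ => Int.cast_add _ _)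

theorem toLat_apply (φ : parabolicHoms ℤ (Gamma0 N) ℤ) (x : Additive (Gamma0 N)) :
    ((toLat φ : Lat N p) : Additive (Gamma0 N) →+ ℤ_[p]) x =
      (((φ : Additive (Gamma0 N) →+ ℤ) x : ℤ) : ℤ_[p]) := rfl

/-- Approximation of `p`-adic classes by integral ones. -/
theorem exists_approx (x : Lat N p) (m : ℕ) :
    ∃ (x' : parabolicHoms ℤ (Gamma0 N) ℤ) (z : Lat N p), x = toLat x' + (p : ℤ_[p]) ^ m • z := by
  obtain ⟨n, c, l, h⟩ := exists_decomp (C := ℤ_[p]) x.2
  have hd : ∀ i, ∃ d : ℤ_[p], c i = ((c i).appr m : ℤ_[p]) + (p : ℤ_[p]) ^ m * d := by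
    intro i
    have h1 := PadicInt.appr_spec m (c i)
    rw [Ideal.mem_span_singleton] at h1
    obtain ⟨d, hd⟩ := h1
    exact ⟨d, by rw [← hd]; ring⟩
  choose d hd using hd
  refine ⟨∑ i, ((c i).appr m : ℤ) • l i, ∑ i, d i • toLat (l i), Subtype.ext ?_⟩
  refine DFunLike.ext _ _ fun y => ?_
  rw [h]
  have e1 : ((∑ i, ((c i).appr m : ℤ) • l i : parabolicHoms ℤ (Gamma0 N) ℤ) :
      Additive (Gamma0 N) →+ ℤ) y = ∑ i, ((c i).appr m : ℤ) * (l i : Additive (Gamma0 N) →+ ℤ) y := by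
    rw [AddSubmonoidClass.coe_finsetSum, AddMonoidHom.finsetSum_apply]
    rfl
  have e2 : ((∑ i, d i • toLat (l i) : Lat N p) : Additive (Gamma0 N) →+ ℤ_[p]) y =
      ∑ i, d i * (((l i : Additive (Gamma0 N) →+ ℤ) y : ℤ) : ℤ_[p]) := by
    rw [AddSubmonoidClass.coe_finsetSum, AddMonoidHom.finsetSum_apply]
    rfl
  show _ = ((toLat (∑ i, ((c i).appr m : ℤ) • l i) : Lat N p) : Additive (Gamma0 N) →+ ℤ_[p]) y +
    (p : ℤ_[p]) ^ m * ((∑ i, d i • toLat (l i) : Lat N p) : Additive (Gamma0 N) →+ ℤ_[p]) y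
  rw [toLat_apply, e1, e2, Finset.mul_sum]
  push_cast
  rw [← Finset.sum_add_distrib]
  refine Finset.sum_congr rfl fun i _ => ?_
  conv_lhs => rw [hd i]
  rw [zsmul_eq_mul]
  ring

end Integral

end Fermat.Agent.LTF.Beta

end
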