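import Fermat.Agent.LTF.Beta4
import Fermat.Agent.LTF.BLR2
import Fermat.Agent.GalRep.JZ9_Map

/-!
# The start element (BETA)

If a system `a` of integers is, modulo `pⁿ`, a value of the Hecke polynomials vanishing on a finite
family of eigenforms of level `M`, then the eigen-subgroup of `J₀(M)[pᵏ]` for the system `a`
contains an element of exact order `pᵏ`, where `n ≤ k · C`.
-/

set_option autoImplicit false

noncomputable section

open CongruenceSubgroup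
open scoped MatrixGroups ModularForm

namespace Fermat.Agent.LTF.Beta

open Module Fermat.Agent.HeckePar Fermat.Agent.GalRep ModularCurve ModularCurve.Period
open Fermat.Agent.S21per

/-- Transport of scalars along two ring homomorphisms with the same kernel. -/
theorem exists_transport {R F₁ F₂ : Type*} [CommRing R] [Field F₁] [Field F₂] (α : R →+* F₁)
    (β : R →+* F₂) (h : ∀ r, α r = 0 ↔ β r = 0) {z : F₁} (hz : z ≠ 0) :
    ∃ ψ : F₁ →+ F₂, ψ z ≠ 0 ∧ ∀ r x, ψ (α r * x) = β r * ψ x := by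
  classical
  have hker : RingHom.ker α = RingHom.ker β := by
    ext r
    exact h r
  haveI : (RingHom.ker α).IsPrime := RingHom.ker_isPrime α
  let A := R ⧸ RingHom.ker α
  let α' : A →+* F₁ := Ideal.Quotient.lift _ α fun r hr => hr
  let β' : A →+* F₂ := Ideal.Quotient.lift _ β fun r hr => (h r).mp hr
  have hα' : Function.Injective α' := RingHom.lift_injective_of_ker_le_ideal _ _ le_rfl
  have hβ' : Function.Injective β' := RingHom.lift_injective_of_ker_le_ideal _ _ hker.ge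
  let K := FractionRing A
  let κ₁ : K →+* F₁ := IsFractionRing.lift hα'
  let κ₂ : K →+* F₂ := IsFractionRing.lift hβ'
  letI : Algebra K F₁ := κ₁.toAlgebra
  obtain ⟨f, hf⟩ : ∃ f : Module.Dual K F₁, f z ≠ 0 := by
    by_contra hcon
    push Not at hcon
    exact hz ((Module.forall_dual_apply_eq_zero_iff K z).mp hcon)
  refine ⟨κ₂.toAddMonoidHom.comp f.toAddMonoidHom, fun h0 => hf ?_, fun r x => ?_⟩
  · exact κ₂.injective (by rw [map_zero]; exact h0)
  · have h1 : α r * x = (algebraMap A K (Ideal.Quotient.mk _ r)) • x := by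
      rw [Algebra.smul_def]
      congr 1
      show α r = κ₁ (algebraMap A K (Ideal.Quotient.mk _ r))
      rw [IsFractionRing.lift_algebraMap]
      rfl
    show κ₂ (f (α r * x)) = β r * κ₂ (f x)
    rw [h1, map_smul, smul_eq_mul, map_mul, IsFractionRing.lift_algebraMap]
    rfl

section Eigenclass

variable {M : ℕ} [NeZero M] {S : Set ℕ}

/-- From an eigenform to an eigenclass with values in another field of characteristic zero. -/
theorem exists_eigenclass {g : CuspForm (Gamma0 M) 2} (hg : g ≠ 0)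
    (heig : ∀ t : CuspForm.heckeAlgebra M 2 S, ∃ c : ℂ,
      (t : Module.End ℂ (CuspForm (Gamma0 M) 2)) g = c • g)
    {Ω : Type*} [Field Ω] (χ : CuspForm.heckeAlgebra M 2 S →+* Ω)
    (hχ : ∀ t, χ t = 0 ↔ (t : Module.End ℂ (CuspForm (Gamma0 M) 2)) g = 0) :
    ∃ V : Additive (Gamma0 M) →+ Ω, V ≠ 0 ∧ IsParabolicHom (Gamma0 M) V ∧
      ∀ ℓ, opHom M S Ω ℓ V = χ (evS M S (MvPolynomial.X ℓ)) • V := by
  classical
  choose e he using heig
  have hsm : ∀ c d : ℂ, c • g = d • g → c = d := fun c d h => smul_left_injective ℂ hg h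
  -- the eigenvalue character
  let α : CuspForm.heckeAlgebra M 2 S →+* ℂ :=
    { toFun := e
      map_one' := hsm _ _ (by rw [← he, one_smul]; rfl)
      map_mul' := fun s t => hsm _ _ (by
        rw [← he, Subalgebra.coe_mul, Module.End.mul_apply, he t, map_smul, he s, smul_smul,
          mul_comm])
      map_zero' := hsm _ _ (by rw [← he, zero_smul]; rfl)
      map_add' := fun s t => hsm _ _ (by
        rw [← he, Subalgebra.coe_add, LinearMap.add_apply, he t, he s, add_smul]) }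
  have hα : ∀ t, α t = 0 ↔ χ t = 0 := by
    intro t
    rw [hχ, he]
    exact ⟨fun h => by rw [show e t = 0 from h, zero_smul],
      fun h => (smul_eq_zero.mp h).resolve_right hg⟩
  obtain ⟨γ, hγ⟩ : ∃ γ, periodLin M g γ ≠ 0 := by
    by_contra h
    push Not at h
    refine hg (periodLin_injective (N := M) ?_)
    rw [map_zero]
    exact AddMonoidHom.ext h
  obtain ⟨ψ, hψ, hψ'⟩ := exists_transport α χ hα hγ
  refine ⟨ψ.comp (periodLin M g), fun h0 => hψ ?_, ?_, fun ℓ => ?_⟩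
  · exact DFunLike.congr_fun h0 γ
  · exact isParabolicHom_comp _ ψ (isParabolicHom_periodLin g)
  · have h1 : opHom M S ℂ ℓ (periodLin M g) =
        α (evS M S (MvPolynomial.X ℓ)) • periodLin M g := by
      rw [← parEval_X, ← periodLin_evS, he, map_smul]
      rfl
    rw [opHom_comp, h1]
    refine AddMonoidHom.ext fun x => ?_
    exact hψ' _ _

end Eigenclass

section Final

variable {M : ℕ} [NeZero M] {p : ℕ} [Fact p.Prime] {S : Set ℕ}

/-- Divisibility of integral classes can be tested over `ℤ_p`. -/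
theorem exists_eq_zsmul {φ : parabolicHoms ℤ (Gamma0 M) ℤ} {m : ℕ} {y : Lat M p}
    (h : toLat φ = (p : ℤ_[p]) ^ m • y) :
    ∃ ψ : parabolicHoms ℤ (Gamma0 M) ℤ, φ = ((p ^ m : ℕ) : ℤ) • ψ := by
  have hp : p.Prime := Fact.out
  have hn' : ((p ^ m : ℕ) : ℤ) ≠ 0 := by exact_mod_cast pow_ne_zero m hp.ne_zero
  have h3 : ∀ γ : Additive (Gamma0 M), ((p ^ m : ℕ) : ℤ) ∣ (φ : Additive (Gamma0 M) →+ ℤ) γ := by
    intro γ
    have h1 := DFunLike.congr_fun (congrArg Subtype.val h) γ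
    have h2 : (((φ : Additive (Gamma0 M) →+ ℤ) γ : ℤ) : ℤ_[p]) =
        (p : ℤ_[p]) ^ m * (y : Additive (Gamma0 M) →+ ℤ_[p]) γ := h1
    have h4 : ((p : ℤ_[p]) ^ m) ∣ (((φ : Additive (Gamma0 M) →+ ℤ) γ : ℤ) : ℤ_[p]) := ⟨_, h2⟩
    have h5 := (PadicInt.pow_p_dvd_int_iff m ((φ : Additive (Gamma0 M) →+ ℤ) γ)).mp h4
    exact_mod_cast h5
  choose ψ hψ using h3
  let ψ' : Additive (Gamma0 M) →+ ℤ :=
    { toFun := ψ
      map_zero' := by
        apply mul_left_cancel₀ hn'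
        rw [← hψ, map_zero, mul_zero]
      map_add' := fun a b => by
        apply mul_left_cancel₀ hn'
        rw [mul_add, ← hψ, ← hψ, ← hψ, map_add] }
  have hφψ : (φ : Additive (Gamma0 M) →+ ℤ) = ((p ^ m : ℕ) : ℤ) • ψ' :=
    DFunLike.ext _ _ fun γ => hψ γ
  refine ⟨⟨ψ', fun γ hγ => ?_⟩, Subtype.ext hφψ⟩
  have h1 := φ.2 γ hγ
  rw [hφψ] at h1
  exact (smul_eq_zero.mp (show ((p ^ m : ℕ) : ℤ) • ψ' (Additive.ofMul γ) = 0 from h1)).resolve_left
    hn'

theorem toLat_opPar (ℓ : {ℓ : Nat.Primes // (ℓ : ℕ) ∉ S}) (φ : parabolicHoms ℤ (Gamma0 M) ℤ) :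
    (toLat (opPar M ℓ.1 φ) : Lat M p) = actLat M p S (MvPolynomial.X ℓ) (toLat φ) := by
  apply Subtype.ext
  rw [coe_actLat, parR_X]
  exact (opHom_comp M S (Int.castAddHom ℤ_[p]) ℓ (φ : Additive (Gamma0 M) →+ ℤ)).symm

omit [NeZero M] in
theorem eq_smul_sub {c : ℤ_[p]} {A B C : Lat M p} (h : A + c • B = c • C) : A = c • (C - B) := by
  apply Subtype.ext
  refine DFunLike.ext _ _ fun γ => ?_
  have h1 := DFunLike.congr_fun (congrArg Subtype.val h) γ
  have h2 : (A : Additive (Gamma0 M) →+ ℤ_[p]) γ + c * (B : Additive (Gamma0 M) →+ ℤ_[p]) γ =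
    c * (C : Additive (Gamma0 M) →+ ℤ_[p]) γ := h1
  show (A : Additive (Gamma0 M) →+ ℤ_[p]) γ = c * ((C : Additive (Gamma0 M) →+ ℤ_[p]) γ -
    (B : Additive (Gamma0 M) →+ ℤ_[p]) γ)
  linear_combination h2

/-- From a primitive `p`-adic class to an element of the Jacobian. -/
theorem exists_eigJ_of_lat (hS : ∀ ℓ : ℕ, ℓ.Prime → ℓ ∣ M → ℓ ∈ S) {a : ℕ → ℤ} {k : ℕ}
    (hk : k ≠ 0) {x : Lat M p} (hx : ∀ y, x ≠ (p : ℤ_[p]) • y)
    (hx' : ∀ ℓ : {ℓ : Nat.Primes // (ℓ : ℕ) ∉ S}, ∃ y,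
      actLat M p S (MvPolynomial.X ℓ + MvPolynomial.C (-((a ℓ.1 : ℤ) : ℤ_[p]))) x =
        (p : ℤ_[p]) ^ k • y) :
    ∃ X : JZero M, X ∈ BLR.eigJ M S a (p ^ k) ∧ p ^ (k - 1) • X ≠ 0 := by
  classical
  have hp : p.Prime := Fact.out
  have hpk : p ^ k ≠ 0 := pow_ne_zero k hp.ne_zero
  obtain ⟨x', z, hz⟩ := exists_approx x k
  refine ⟨jMap M (p ^ k) hpk x', ⟨nsmul_jMap hpk x', fun ℓ hℓ hℓS => ?_⟩, fun h0 => ?_⟩
  · have hM : ¬ ℓ ∣ M := fun h => hℓS (hS ℓ hℓ h)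
    obtain ⟨y, hy⟩ := hx' ⟨⟨ℓ, hℓ⟩, hℓS⟩
    have h1 : (toLat (opPar M ⟨ℓ, hℓ⟩ x' + (-(a ℓ)) • x') : Lat M p) = (p : ℤ_[p]) ^ k •
        (y - actLat M p S (MvPolynomial.X ⟨⟨ℓ, hℓ⟩, hℓS⟩ +
          MvPolynomial.C (-((a ℓ : ℤ) : ℤ_[p]))) z) := by
      have h2 : (toLat ((-(a ℓ)) • x') : Lat M p) = (-((a ℓ : ℤ) : ℤ_[p])) • toLat x' := by
        rw [map_zsmul]
        apply Subtype.ext
        refine DFunLike.ext _ _ fun γ => ?_
        show (-(a ℓ)) • _ = (-((a ℓ : ℤ) : ℤ_[p])) * _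
        rw [zsmul_eq_mul]
        push_cast
        rfl
      have h4 : actLat M p S (MvPolynomial.X ⟨⟨ℓ, hℓ⟩, hℓS⟩ +
          MvPolynomial.C (-((a ℓ : ℤ) : ℤ_[p]))) (toLat x') =
          toLat (opPar M ⟨ℓ, hℓ⟩ x' + (-(a ℓ)) • x') := by
        rw [map_add, map_add, LinearMap.add_apply, toLat_opPar (S := S) ⟨⟨ℓ, hℓ⟩, hℓS⟩, h2,
          ← MvPolynomial.algebraMap_eq, AlgHom.commutes, Module.algebraMap_end_apply]
      rw [← h4]
      have h5 : actLat M p S (MvPolynomial.X ⟨⟨ℓ, hℓ⟩, hℓS⟩ +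
          MvPolynomial.C (-((a ℓ : ℤ) : ℤ_[p]))) (toLat x') + (p : ℤ_[p]) ^ k •
          actLat M p S (MvPolynomial.X ⟨⟨ℓ, hℓ⟩, hℓS⟩ +
            MvPolynomial.C (-((a ℓ : ℤ) : ℤ_[p]))) z = (p : ℤ_[p]) ^ k • y := by
        rw [← map_smul, ← map_add, ← hz]
        exact hy
      exact eq_smul_sub h5
    obtain ⟨ψ, hψ⟩ := exists_eq_zsmul h1
    have h5 : jMap M (p ^ k) hpk (opPar M ⟨ℓ, hℓ⟩ x' + (-(a ℓ)) • x') = 0 :=
      (jMap_eq_zero_iff hpk).mpr ⟨ψ, hψ⟩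
    rw [map_add, map_zsmul, neg_smul, ← sub_eq_add_neg, sub_eq_zero] at h5
    rw [heckeOperatorBar_jMap hpk ⟨ℓ, hℓ⟩ hM, h5]
  · rw [← map_nsmul, jMap_eq_zero_iff] at h0
    obtain ⟨ψ, hψ⟩ := h0
    have h1 : x' = (p : ℤ) • ψ := by
      apply Subtype.ext
      refine DFunLike.ext _ _ fun γ => ?_
      have h2 := DFunLike.congr_fun (congrArg Subtype.val hψ) γ
      have h3 : (p ^ (k - 1)) • (x' : Additive (Gamma0 M) →+ ℤ) γ =
        ((p ^ k : ℕ) : ℤ) • (ψ : Additive (Gamma0 M) →+ ℤ) γ := h2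
      have h4 : (p : ℤ) ^ (k - 1) ≠ 0 := pow_ne_zero _ (by exact_mod_cast hp.ne_zero)
      apply mul_left_cancel₀ h4
      rw [nsmul_eq_mul, smul_eq_mul] at h3
      push_cast at h3
      rw [h3]
      show _ = (p : ℤ) ^ (k - 1) * ((p : ℤ) * (ψ : Additive (Gamma0 M) →+ ℤ) γ)
      rw [← mul_assoc, ← pow_succ, Nat.sub_add_cancel (Nat.one_le_iff_ne_zero.mpr hk)]
    refine hx (toLat ψ + (p : ℤ_[p]) ^ (k - 1) • z) ?_
    have h5 : (toLat ((p : ℤ) • ψ) : Lat M p) = (p : ℤ_[p]) • toLat ψ := by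
      rw [map_zsmul]
      apply Subtype.ext
      refine DFunLike.ext _ _ fun γ => ?_
      show (p : ℤ) • _ = (p : ℤ_[p]) * _
      rw [zsmul_eq_mul]
      push_cast
      rfl
    rw [hz, h1, h5, smul_add, smul_smul, ← pow_succ', Nat.sub_add_cancel
      (Nat.one_le_iff_ne_zero.mpr hk)]

theorem algebraMap_padic_injective {O : Type*} [CommRing O] [IsDomain O] [Algebra ℤ_[p] O]
    [CharZero O] : Function.Injective (algebraMap ℤ_[p] O) := by
  have hp : p.Prime := Fact.out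
  rw [injective_iff_map_eq_zero]
  intro x hx
  by_contra h0
  obtain ⟨u, hu⟩ : ∃ u : ℤ_[p]ˣ, x = u * (p : ℤ_[p]) ^ x.valuation :=
    ⟨PadicInt.unitCoeff h0, PadicInt.unitCoeff_spec h0⟩
  rw [hu, map_mul, map_pow, map_natCast] at hx
  have h2 : ((p : ℕ) : O) ≠ 0 := by exact_mod_cast hp.ne_zero
  exact mul_ne_zero (u.isUnit.map (algebraMap ℤ_[p] O)).ne_zero (pow_ne_zero _ h2) hx

/-- **The start element.** -/
theorem exists_start_element (hS : ∀ ℓ : ℕ, ℓ.Prime → ℓ ∣ M → ℓ ∈ S) {ι : Type*} [Fintype ι]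
    {O : ι → Type*} [∀ i, CommRing (O i)] [∀ i, IsDomain (O i)] [∀ i, Algebra ℤ_[p] (O i)]
    [∀ i, Module.Finite ℤ_[p] (O i)] [∀ i, CharZero (O i)]
    {g : ι → CuspForm (Gamma0 M) 2} (hg : ∀ i, g i ≠ 0)
    (heig : ∀ i, ∀ t : CuspForm.heckeAlgebra M 2 S, ∃ c : ℂ,
      (t : Module.End ℂ (CuspForm (Gamma0 M) 2)) (g i) = c • g i)
    (χ : ∀ i, CuspForm.heckeAlgebra M 2 S →+* O i)
    (hχ : ∀ i t, χ i t = 0 ↔ (t : Module.End ℂ (CuspForm (Gamma0 M) 2)) (g i) = 0)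
    {a : ℕ → ℤ} {n : ℕ} (hn : n ≠ 0)
    (hθ : ∀ P : MvPolynomial {ℓ : Nat.Primes // (ℓ : ℕ) ∉ S} ℤ_[p],
      (∀ i, MvPolynomial.aeval (fun ℓ => χ i (evS M S (MvPolynomial.X ℓ))) P = 0) →
        MvPolynomial.eval₂ (PadicInt.toZModPow n) (fun ℓ => ((a ℓ.1 : ℤ) : ZMod (p ^ n))) P = 0)
    {B : ℕ} (hB : finrank ℤ_[p] (MvPolynomial.aeval
      (fun (ℓ : {ℓ : Nat.Primes // (ℓ : ℕ) ∉ S}) (i : ι) => χ i (evS M S (MvPolynomial.X ℓ))) :
        MvPolynomial {ℓ : Nat.Primes // (ℓ : ℕ) ∉ S} ℤ_[p] →ₐ[ℤ_[p]] (∀ i, O i)).range ≤ B) :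
    ∃ (k : ℕ) (x : JZero M), n ≤ k * (Fintype.card ι * B) ∧ x ∈ BLR.eigJ M S a (p ^ k) ∧
      p ^ (k - 1) • x ≠ 0 := by
  classical
  set ev : MvPolynomial {ℓ : Nat.Primes // (ℓ : ℕ) ∉ S} ℤ_[p] →ₐ[ℤ_[p]] (∀ i, O i) :=
    MvPolynomial.aeval (fun (ℓ : {ℓ : Nat.Primes // (ℓ : ℕ) ∉ S}) (i : ι) =>
      χ i (evS M S (MvPolynomial.X ℓ))) with hev
  -- the components
  have hcomp : ∀ (t : MvPolynomial {ℓ : Nat.Primes // (ℓ : ℕ) ∉ S} ℤ_[p]) (i : ι),
      ev t i = MvPolynomial.aeval (fun ℓ => χ i (evS M S (MvPolynomial.X ℓ))) t := by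
    intro t i
    have h1 : (Pi.evalAlgHom ℤ_[p] O i).comp ev =
        MvPolynomial.aeval (fun ℓ => χ i (evS M S (MvPolynomial.X ℓ))) := by
      refine MvPolynomial.algHom_ext fun ℓ => ?_
      rw [AlgHom.comp_apply, hev, MvPolynomial.aeval_X, MvPolynomial.aeval_X]
      rfl
    exact DFunLike.congr_fun h1 t
  -- the lattice vectors
  have hv : ∀ i, ∃ v : Lat M p, ∀ t : MvPolynomial {ℓ : Nat.Primes // (ℓ : ℕ) ∉ S} ℤ_[p],
      MvPolynomial.aeval (fun ℓ => χ i (evS M S (MvPolynomial.X ℓ))) t = 0 ↔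
        actLat M p S t v = 0 := by
    intro i
    let j : O i →ₐ[ℤ_[p]] FractionRing (O i) := IsScalarTower.toAlgHom ℤ_[p] (O i) _
    have hj : Function.Injective j := IsFractionRing.injective (O i) (FractionRing (O i))
    obtain ⟨V, hV0, hVpar, hV⟩ := exists_eigenclass (S := S) (hg i) (heig i)
      ((j : O i →+* FractionRing (O i)).comp (χ i)) (fun t => by
        rw [← hχ i t]
        exact ⟨fun h => hj (by rw [map_zero]; exact h), fun h => by
          rw [RingHom.comp_apply, h, map_zero]⟩)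
    refine exists_lat_vector (O := O i) (Ω := FractionRing (O i)) ?_ j hV0 hVpar hV
    rw [IsScalarTower.algebraMap_eq ℤ_[p] (O i) (FractionRing (O i))]
    exact (IsFractionRing.injective (O i) (FractionRing (O i))).comp algebraMap_padic_injective
  choose v hv using hv
  -- the ring `T`
  haveI : Module.Finite ℤ_[p] (∀ i, O i) := inferInstance
  haveI : Module.Finite ℤ_[p] ev.range := Module.Finite.of_injective
    (ev.range.val.toLinearMap) Subtype.val_injective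
  haveI htf : ∀ i, Module.IsTorsionFree ℤ_[p] (O i) := fun i =>
    Module.isTorsionFree_iff_algebraMap_injective.mpr algebraMap_padic_injective
  haveI : Module.IsTorsionFree ℤ_[p] ev.range :=
    Function.Injective.moduleIsTorsionFree (Subtype.val : ev.range → ∀ i, O i)
      Subtype.val_injective fun _ _ => rfl
  haveI : Module.Free ℤ_[p] ev.range := Module.free_of_finite_type_torsion_free'
  obtain ⟨k, x, h1, h2, h3⟩ := exists_start (actLat M p S) v ev.rangeRestrict (fun t ht i => by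
      rw [← hv, ← hcomp]
      have h0 : ev t = 0 := congrArg Subtype.val ht
      rw [h0]; rfl) hn
    (MvPolynomial.eval₂Hom (PadicInt.toZModPow n) (fun ℓ => ((a ℓ.1 : ℤ) : ZMod (p ^ n))))
    (fun t ht => hθ t fun i => (hv i t).mpr (ht i))
  have hk : k ≠ 0 := by
    rintro rfl
    rw [zero_mul] at h1
    exact hn (Nat.le_zero.mp h1)
  obtain ⟨X, hX, hX'⟩ := exists_eigJ_of_lat (S := S) (a := a) hS hk h2 (fun ℓ => h3 _ (by
    rw [map_add, MvPolynomial.eval₂Hom_X', MvPolynomial.eval₂Hom_C, map_neg, map_intCast,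
      add_neg_cancel]))
  exact ⟨k, X, h1.trans (Nat.mul_le_mul_left k (Nat.mul_le_mul_left _ hB)), hX, hX'⟩

end Final

end Fermat.Agent.LTF.Beta

end
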