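import Fermat.Agent.LTF.CMPull
import Fermat.Agent.TriGauss.AL

/-!
# The Atkin--Lehner involution on places attached to points of the upper half plane
-/

set_option autoImplicit false
set_option linter.style.haveILetI false
set_option linter.unusedSectionVars false

open UpperHalfPlane Function CongruenceSubgroup ModularForm
open scoped Manifold MatrixGroups IntermediateField

noncomputable section

namespace Fermat.Agent.LTF.CM

open Fermat.Agent.X0Emb Fermat.Agent.X0Deg AlgebraicCurve Fermat.Agent.HeckePar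
open ModularCurve Fermat.Agent.JLevelOne Fermat.Agent.GalRep Fermat.Agent.HeckeComm
open Fermat.Agent.TwoGauss Fermat.Agent.TriGauss

local notation "KQ" => AlgebraicClosure ℚ

variable {M Q m : ℕ} [NeZero M] [NeZero Q]

/-- the Atkin--Lehner matrix -/
def atkG (x y : ℤ) (h : x * Q - y * m = 1) : GL (Fin 2) ℝ :=
  ((mk2 x y m Q h : SL(2, ℤ)) : GL (Fin 2) ℝ) * hrep Q none

theorem atkG_smul (x y : ℤ) (h : x * Q - y * m = 1) (τ : ℍ) : atkG x y h • τ = atkW x y h τ := by
  rw [atkG, mul_smul, ModFun.hrep_none_smul]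
  rfl

theorem det_atkG_pos (x y : ℤ) (h : x * Q - y * m = 1) : 0 < (atkG x y h).det.val := by
  rw [atkG, map_mul, Units.val_mul]
  refine mul_pos ?_ (ModularForm.det_heckeDiagMatrix_pos Q)
  simp

/-- `w` is the Atkin--Lehner involution `w_Q`. -/
structure IsAtkin (hM : M = m * Q) (hc : Q.Coprime m)
    (w : modularFunctionFieldBar M ≃ₐ[KQ] modularFunctionFieldBar M) : Prop where
  jdB : ∀ d : Dv M, w (jdB KQ M d) = jdB KQ M (swapQ M Q m hM (NeZero.ne Q) hc d)
  invol : ∀ f, w (w f) = f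

theorem exists_isAtkin (hM : M = m * Q) (hc : Q.Coprime m) : ∃ w, IsAtkin hM hc w := by
  obtain ⟨w, h1, h2⟩ := exists_atkinLehnerQ (K := KQ) iota hM (NeZero.ne Q) hc
  exact ⟨w, h1, h2⟩

theorem em_jdB (d : Dv M) : em M (TwoGauss.jdB KQ M d) = algebraMap Hol MerH
    (haveI := Dv.neZero d; jAff d.1 0 1) := by
  haveI := Dv.neZero d
  exact em_jd d.1 d.2

section

variable {hM : M = m * Q} {hc : Q.Coprime m}
  {w : modularFunctionFieldBar M ≃ₐ[KQ] modularFunctionFieldBar M}

theorem em_atkin (hw : IsAtkin hM hc w) (x y : ℤ) (h : x * Q - y * m = 1)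
    (f : modularFunctionFieldBar M) :
    em M (w f) = pullM (atkG x y h) (det_atkG_pos x y h) (em M f) := by
  refine em_ringHom_eq (Φ := (em M).comp (w.toRingEquiv : modularFunctionFieldBar M →+*
      modularFunctionFieldBar M))
    (Ψ := (pullM (atkG x y h) (det_atkG_pos x y h)).comp (em M)) (fun c => ?_) (fun d _ hd => ?_) f
  · show em M (w (algebraMap KQ (modularFunctionFieldBar M) c)) =
      pullM (atkG x y h) (det_atkG_pos x y h) (em M (algebraMap KQ (modularFunctionFieldBar M) c))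
    rw [AlgEquiv.commutes, pullM_em_algebraMap]
  · show em M (w (TwoGauss.jdB KQ M ⟨d, hd⟩)) =
      pullM (atkG x y h) (det_atkG_pos x y h) (em M (TwoGauss.jdB KQ M ⟨d, hd⟩))
    rw [hw.jdB, em_jdB, em_jdB, pullM_algebraMap]
    refine congrArg (algebraMap Hol MerH) (Hol.ext fun τ => ?_)
    rw [pull_apply, jAff_apply, jAff_apply, atkG_smul]
    exact (jFun_aff_swapQ hM (NeZero.ne Q) hc x y h ⟨d, hd⟩ τ).symm

theorem At.atkin (hw : IsAtkin hM hc w) (x y : ℤ) (h : x * Q - y * m = 1)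
    {v : Place KQ (modularFunctionFieldBar M)} {τ : ℍ} {k : ℤ} (hv : At v τ k) :
    At (SemilinearAut.ofAlgAut w • v) (atkG x y h • τ) k := by
  refine ⟨hv.1, fun f hf => ?_⟩
  have hwf : w f ≠ 0 := (map_ne_zero _).mpr hf
  rw [← ordAt_pullM _ (det_atkG_pos x y h) τ (em_ne_zero hf), ← em_atkin hw, hv.2 _ hwf,
    ← SemilinearAut.ord_smul (SemilinearAut.ofAlgAut w) v (w f), SemilinearAut.ofAlgAut_smul,
    hw.invol]

/-- a place fixed by `w_Q` is a fixed point of a matrix. -/
theorem At.exists_fixed (hw : IsAtkin hM hc w) (x y : ℤ) (h : x * Q - y * m = 1)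
    {v : Place KQ (modularFunctionFieldBar M)} {τ : ℍ} {k : ℤ} (hv : At v τ k)
    (hfix : SemilinearAut.ofAlgAut w • v = v) : ∃ γ ∈ Gamma0 M, γ • (atkG x y h • τ) = τ := by
  have h1 := hv.atkin hw x y h
  rw [hfix] at h1
  exact h1.exists_smul hv

theorem jdB_ne {a b : Dv M} (hab : (a : ℕ) ≠ b) :
    TwoGauss.jdB KQ M a ≠ TwoGauss.jdB KQ M b := by
  haveI := Dv.neZero a
  haveI := Dv.neZero b
  intro h
  have h1 : qExpand KQ a.1 (jqModC KQ) = qExpand KQ b.1 (jqModC KQ) := congrArg Subtype.val h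
  have h2 := congrArg HahnSeries.order h1
  rw [order_qExpand, order_qExpand, order_jqModC] at h2
  apply hab
  exact_mod_cast (by omega : ((a : ℕ) : ℤ) = (b : ℕ))

/-- existence of the place at a fixed point of `w_Q`. -/
theorem exists_at_of_fixed (hw : IsAtkin hM hc w) (hQ : Q ≠ 1) (x y : ℤ) (h : x * Q - y * m = 1)
    {τ : ℍ} {γ : SL(2, ℤ)} (hγ : γ ∈ Gamma0 M) (hτ : γ • (atkG x y h • τ) = τ) :
    ∃ (v : Place KQ (modularFunctionFieldBar M)) (k : ℤ), At v τ k ∧
      SemilinearAut.ofAlgAut w • v = v := by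
  set d1 : Dv M := ⟨1, one_dvd M⟩ with hd1
  set f : modularFunctionFieldBar M := TwoGauss.jdB KQ M d1 - w (TwoGauss.jdB KQ M d1) with hf
  have hs : (swapQ M Q m hM (NeZero.ne Q) hc d1 : ℕ) = Q := by
    have h1 : (1 * Q) ∣ M := by rw [one_mul, hM]; exact Dvd.intro_left m rfl
    have h2 := swapQ_mul hM (NeZero.ne Q) hc (a := 1) (b := 1) (b' := Q) (one_dvd m) (mul_one Q)
      (by simp) h1
    have h3 := congrArg Subtype.val h2
    simpa using h3
  have hf0 : f ≠ 0 := by
    rw [hf, hw.jdB, sub_ne_zero]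
    refine jdB_ne ?_
    rw [hs]
    exact fun h0 => hQ h0.symm
  have hemf : em M f = algebraMap Hol MerH (jH - pull (atkG x y h) (det_atkG_pos x y h) jH) := by
    have h1 : em M (TwoGauss.jdB KQ M d1) = algebraMap Hol MerH jH := by
      rw [em_jdB]
      refine congrArg (algebraMap Hol MerH) (Hol.ext fun τ => ?_)
      rw [jAff_apply, jH_apply]
      exact congrArg jFun (aff_one τ)
    rw [hf, RingHom.map_sub, em_atkin hw x y h, h1, pullM_algebraMap, ← map_sub]
  have hne : jH - pull (atkG x y h) (det_atkG_pos x y h) jH ≠ 0 := by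
    intro h0
    rw [h0, map_zero] at hemf
    exact em_ne_zero hf0 hemf
  have hval : (jH - pull (atkG x y h) (det_atkG_pos x y h) jH : Hol) τ = 0 := by
    rw [Hol.sub_apply, pull_apply, sub_eq_zero, jH_apply, jH_apply]
    conv_lhs => rw [← hτ]
    rw [jFun_smul]
  have hpos : 0 < ordAt τ (em M f) := by
    rw [hemf, ordAt_algebraMap τ hne]
    have h1 : ordH τ (jH - pull (atkG x y h) (det_atkG_pos x y h) jH) ≠ 0 := by
      rw [ordH, (analyticAt_of_mdiff (Hol.mdiff _) τ).analyticOrderAt_ne_zero]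
      simpa using hval
    have h2 := ordH_ne_top τ hne
    have h3 : (ordH τ (jH - pull (atkG x y h) (det_atkG_pos x y h) jH)).toNat ≠ 0 := by
      rw [Ne, ENat.toNat_eq_zero, not_or]
      exact ⟨h1, h2⟩
    omega
  obtain ⟨v, k, hv⟩ := exists_at_of_pos τ ⟨f, hf0, hpos⟩
  refine ⟨v, k, hv, ?_⟩
  have h1 := (hv.atkin hw x y h).smul hγ
  rw [hτ] at h1
  exact (h1.unique hv).1

end

end Fermat.Agent.LTF.CM
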