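import Fermat.Agent.LTF.CMFix

/-!
# Hecke correspondences on CM points
-/

namespace Fermat.Agent.LTF.QuadInt

open NumberField UpperHalfPlane Complex CongruenceSubgroup
open scoped MatrixGroups

variable {K : Type*} [Field K] [NumberField K] {N : ℕ} {s : 𝓞 K}

set_option linter.unusedSectionVars false

/-- the explicit Hecke points: `ℓ τ` and `(τ + b)/ℓ` -/
noncomputable def hpt (ℓ : ℕ) : Option (ZMod ℓ) → ℂ → ℂ
  | none, τ => ℓ * τ
  | some b, τ => (τ + (b.val : ℂ)) / ℓ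

/-- the pairs `(a', c')` of the Hecke points -/
def tgt (ℓ : ℕ) (a c : ℤ) : Option (ZMod ℓ) → ℤ × ℤ
  | none => (a, c / ℓ)
  | some b => (a + b.val * c, c * ℓ)

/-- the Hecke point is again a CM point -/
def Fx (N ℓ : ℕ) (a c : ℤ) : Option (ZMod ℓ) → Prop
  | none => (ℓ : ℤ) ∣ c
  | some b => c * ℓ ∣ 1 + N * (a + b.val * c) ^ 2

lemma tgt_pos {ℓ : ℕ} (hℓ : 0 < ℓ) {a c : ℤ} (hc : 0 < c) {x : Option (ZMod ℓ)}
    (hx : Fx N ℓ a c x) : 0 < (tgt ℓ a c x).2 := by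
  have hℓ' : (0 : ℤ) < ℓ := by exact_mod_cast hℓ
  cases x with
  | none =>
    obtain ⟨e, he⟩ := hx
    change 0 < c / ℓ
    rw [he, Int.mul_ediv_cancel_left _ hℓ'.ne']
    rw [he] at hc
    exact (mul_pos_iff_of_pos_left hℓ').1 hc
  | some b => exact mul_pos hc hℓ'

lemma tgt_dvd {ℓ : ℕ} {a c : ℤ} (hd : c ∣ 1 + N * a ^ 2) {x : Option (ZMod ℓ)}
    (hx : Fx N ℓ a c x) : (tgt ℓ a c x).2 ∣ 1 + N * (tgt ℓ a c x).1 ^ 2 := by
  cases x with
  | none =>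
    change c / ℓ ∣ 1 + N * a ^ 2
    exact (Int.ediv_dvd_of_dvd hx).trans hd
  | some b => exact hx

lemma hpt_eq {ℓ : ℕ} (hN : 0 < N) (hℓ : 0 < ℓ) {a c : ℤ} (hc : 0 < c) {x : Option (ZMod ℓ)}
    (hx : Fx N ℓ a c x) :
    hpt ℓ x (tau N a c) = (tau N (tgt ℓ a c x).1 (tgt ℓ a c x).2 : ℂ) := by
  have hpos := tgt_pos hℓ hc hx
  have h1 := mul_tau hN a hc
  have h2 := mul_tau hN (tgt ℓ a c x).1 hpos
  have hNC : (N : ℂ) ≠ 0 := by exact_mod_cast hN.ne'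
  have hcC : ((tgt ℓ a c x).2 : ℂ) ≠ 0 := by exact_mod_cast hpos.ne'
  have hℓC : (ℓ : ℂ) ≠ 0 := by exact_mod_cast hℓ.ne'
  apply mul_left_cancel₀ (mul_ne_zero hNC hcC)
  rw [h2]
  cases x with
  | none =>
    obtain ⟨e, he⟩ := hx
    have h3 : (tgt ℓ a c none).2 = e := by
      change c / ℓ = e
      rw [he, Int.mul_ediv_cancel_left]
      exact_mod_cast hℓ.ne'
    have h4 : (c : ℂ) = ℓ * e := by exact_mod_cast he
    rw [h3]
    change (N : ℂ) * e * (ℓ * _) = N * a + rt N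
    rw [← h1, h4]
    ring
  | some b =>
    change (N : ℂ) * ((c * ℓ : ℤ) : ℂ) * ((tau N a c + (b.val : ℂ)) / ℓ) =
      N * ((a + b.val * c : ℤ) : ℂ) + rt N
    push_cast
    field_simp
    linear_combination h1

lemma fx_of_hpt_eq {ℓ : ℕ} (hN : 0 < N) (hℓ : 0 < ℓ) {a c a' c' : ℤ} (hc : 0 < c) (hc' : 0 < c')
    (hd' : c' ∣ 1 + N * a' ^ 2) {x : Option (ZMod ℓ)}
    (hx : hpt ℓ x (tau N a c) = (tau N a' c' : ℂ)) :
    Fx N ℓ a c x ∧ tgt ℓ a c x = (a', c') := by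
  have h1 := mul_tau hN a hc
  have h2 := mul_tau hN a' hc'
  rw [← hx] at h2
  have hNC : (N : ℂ) ≠ 0 := by exact_mod_cast hN.ne'
  have hℓC : (ℓ : ℂ) ≠ 0 := by exact_mod_cast hℓ.ne'
  have hsN : (0 : ℝ) < Real.sqrt N := Real.sqrt_pos.2 (by exact_mod_cast hN)
  -- comparison of coordinates
  have cmp : ∀ u v u' v' : ℤ, (u : ℂ) * (N * v + rt N) = u' * (N * v' + rt N) → u = u' ∧
      (u ≠ 0 → v = v') := by
    intro u v u' v' huv
    have h3 := congrArg Complex.im huv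
    have h4 := congrArg Complex.re huv
    simp only [mul_im, mul_re, add_im, add_re, intCast_re, intCast_im, natCast_re, natCast_im,
      rt_im, rt_re, mul_zero, zero_mul, add_zero, zero_add, sub_zero] at h3 h4
    have h5 : (u : ℝ) = u' := mul_right_cancel₀ hsN.ne' h3
    refine ⟨by exact_mod_cast h5, fun hu => ?_⟩
    rw [← h5] at h4
    have hu' : (u : ℝ) ≠ 0 := by exact_mod_cast hu
    have h6 := mul_left_cancel₀ hu' h4
    have hNR : (N : ℝ) ≠ 0 := by exact_mod_cast hN.ne'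
    exact_mod_cast mul_left_cancel₀ hNR h6
  cases x with
  | none =>
    change (N : ℂ) * c' * (ℓ * _) = _ at h2
    have h3 : ((c' * ℓ : ℤ) : ℂ) * (N * a + rt N) = (c : ℤ) * (N * a' + rt N) := by
      rw [← h1, ← h2]; push_cast; ring
    obtain ⟨h4, h5⟩ := cmp _ _ _ _ h3
    have h6 : c' * ℓ ≠ 0 := mul_ne_zero hc'.ne' (by exact_mod_cast hℓ.ne')
    refine ⟨⟨c', by linarith⟩, ?_⟩
    change (a, c / ℓ) = (a', c')
    rw [h5 h6, ← h4, Int.mul_ediv_cancel]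
    exact_mod_cast hℓ.ne'
  | some b =>
    change (N : ℂ) * c' * ((_ + (b.val : ℂ)) / ℓ) = _ at h2
    have h3 : ((c' : ℤ) : ℂ) * (N * ((a + b.val * c : ℤ) : ℂ) + rt N) =
        ((c * ℓ : ℤ) : ℂ) * (N * a' + rt N) := by
      field_simp at h2
      push_cast
      linear_combination -(c' : ℂ) * h1 + (c : ℂ) * h2
    obtain ⟨h4, h5⟩ := cmp _ _ _ _ h3
    have h6 := h5 hc'.ne'
    refine ⟨?_, ?_⟩
    · change c * ℓ ∣ 1 + N * (a + b.val * c) ^ 2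
      rw [← h4, h6]
      exact hd'
    · change (a + b.val * c, c * (ℓ : ℤ)) = (a', c')
      rw [h6, h4]

/-! ## the ideals -/

/-- the ideal attached to a Hecke point -/
noncomputable def LL (N : ℕ) (s : 𝓞 K) (ℓ : ℕ) (a c : ℤ) : Option (ZMod ℓ) → Ideal (𝓞 K)
  | none => Ideal.span {(ℓ : 𝓞 K)} * idl N s a (c / ℓ)
  | some b => idl N s (a + b.val * c) (c * ℓ)

namespace IsQF

variable (h : IsQF N s)
include h

lemma icl_LL {ℓ : ℕ} (hℓ : 0 < ℓ) {a c : ℤ} (hc : 0 < c) {x : Option (ZMod ℓ)}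
    (hx : Fx N ℓ a c x) :
    icl (LL N s ℓ a c x) = icl (idl N s (tgt ℓ a c x).1 (tgt ℓ a c x).2) := by
  cases x with
  | none =>
    have hpos : 0 < c / (ℓ : ℤ) := tgt_pos (N := N) hℓ hc (x := none) hx
    have hℓ' : (ℓ : 𝓞 K) ≠ 0 := by exact_mod_cast hℓ.ne'
    change icl (Ideal.span {(ℓ : 𝓞 K)} * idl N s a (c / ℓ)) = icl (idl N s a (c / ℓ))
    rw [icl_mul _ (idl_ne_bot hpos.ne'), icl_span hℓ', one_mul]
    rwa [Ne, Ideal.span_singleton_eq_bot]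
  | some b => rfl

lemma LL_ne_bot {ℓ : ℕ} (hℓ : 0 < ℓ) {a c : ℤ} (hc : 0 < c) {x : Option (ZMod ℓ)}
    (hx : Fx N ℓ a c x) : LL N s ℓ a c x ≠ ⊥ := by
  cases x with
  | none =>
    have hpos := tgt_pos hℓ hc hx
    have hℓ' : (ℓ : 𝓞 K) ≠ 0 := by exact_mod_cast hℓ.ne'
    refine mul_ne_zero ?_ (idl_ne_bot hpos.ne')
    rwa [Ne, Ideal.zero_eq_bot, Ideal.span_singleton_eq_bot]
  | some b => exact idl_ne_bot (tgt_pos (N := N) hℓ hc (x := some b) hx).ne'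

lemma absNorm_LL {ℓ : ℕ} (hℓ : 0 < ℓ) {a c : ℤ} (hd : c ∣ 1 + N * a ^ 2)
    {x : Option (ZMod ℓ)} (hx : Fx N ℓ a c x) :
    Ideal.absNorm (LL N s ℓ a c x) = ℓ * c.natAbs := by
  cases x with
  | none =>
    have hd' : c / (ℓ : ℤ) ∣ 1 + N * a ^ 2 := tgt_dvd hd (x := none) hx
    obtain ⟨e, he⟩ := hx
    have h3 : c / (ℓ : ℤ) = e := by
      rw [he, Int.mul_ediv_cancel_left]
      exact_mod_cast hℓ.ne'
    change Ideal.absNorm (Ideal.span {(ℓ : 𝓞 K)} * idl N s a (c / ℓ)) = _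
    rw [h3] at hd' ⊢
    have h4 := h.absNorm_int (ℓ : ℤ)
    rw [Int.cast_natCast, Int.natAbs_natCast] at h4
    rw [map_mul, h4, h.absNorm_idl hd', he, Int.natAbs_mul, Int.natAbs_natCast]
    ring
  | some b =>
    change Ideal.absNorm (idl N s (a + b.val * c) (c * ℓ)) = _
    rw [h.absNorm_idl hx, Int.natAbs_mul, Int.natAbs_natCast, mul_comm]

/-- the ideal of a Hecke point is `𝔩 · 𝔞` with `N𝔩 = ℓ` -/
lemma exists_of_Fx {ℓ : ℕ} (hℓ : 0 < ℓ) {a c : ℤ} (hc : 0 < c) (hd : c ∣ 1 + N * a ^ 2)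
    {x : Option (ZMod ℓ)} (hx : Fx N ℓ a c x) :
    ∃ 𝔩 : Ideal (𝓞 K), Ideal.absNorm 𝔩 = ℓ ∧ LL N s ℓ a c x = 𝔩 * idl N s a c := by
  have hle : LL N s ℓ a c x ≤ idl N s a c := by
    cases x with
    | none =>
      obtain ⟨e, he⟩ := hx
      have h3 : c / (ℓ : ℤ) = e := by
        rw [he, Int.mul_ediv_cancel_left]
        exact_mod_cast hℓ.ne'
      change Ideal.span {(ℓ : 𝓞 K)} * idl N s a (c / ℓ) ≤ _
      rw [h3, Ideal.span_singleton_mul_le_iff]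
      intro z hz
      obtain ⟨u, v, rfl⟩ := Ideal.mem_span_pair.1 hz
      have h4 : (ℓ : 𝓞 K) * e = c := by exact_mod_cast congrArg (Int.cast : ℤ → 𝓞 K) he.symm
      have : (ℓ : 𝓞 K) * (u * e + v * (N * a + s)) = u * c + (ℓ * v) * (N * a + s) := by
        rw [← h4]; ring
      rw [this]
      exact Ideal.add_mem _ (Ideal.mul_mem_left _ _ (c_mem _ _))
        (Ideal.mul_mem_left _ _ (w_mem _ _))
    | some b =>
      change idl N s (a + b.val * c) (c * ℓ) ≤ _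
      rw [idl, Ideal.span_le]
      rintro z (rfl | rfl)
      · push_cast
        exact Ideal.mul_mem_right _ _ (c_mem _ _)
      · have : (N : 𝓞 K) * ((a + b.val * c : ℤ) : 𝓞 K) + s = (N * (b.val : 𝓞 K)) * c
            + (N * a + s) := by
          push_cast; ring
        rw [SetLike.mem_coe, this]
        exact Ideal.add_mem _ (Ideal.mul_mem_left _ _ (c_mem _ _)) (w_mem _ _)
  obtain ⟨𝔩, h𝔩⟩ := Ideal.dvd_iff_le.2 hle
  refine ⟨𝔩, ?_, by rw [h𝔩, mul_comm]⟩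
  have h1 := h.absNorm_LL hℓ hd hx
  rw [h𝔩, map_mul, h.absNorm_idl hd, mul_comm ℓ] at h1
  exact mul_left_cancel₀ (by omega : c.natAbs ≠ 0) h1

lemma absNorm_s : Ideal.absNorm (Ideal.span {s}) = N := by
  have h1 : Ideal.absNorm (Ideal.span {s}) ^ 2 = N ^ 2 := by
    have h2 := h.absNorm_int (-(N : ℤ))
    rw [Int.natAbs_neg, Int.natAbs_natCast] at h2
    rw [← h2, ← map_pow, Ideal.span_singleton_pow, h.sq]
    simp
  exact Nat.pow_left_injective (n := 2) (by norm_num) h1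

lemma absNorm_w (m : ℤ) :
    Ideal.absNorm (Ideal.span {(N : 𝓞 K) * m + s}) = (N * (1 + N * m ^ 2) : ℤ).natAbs := by
  have h1 : Ideal.span {(1 : 𝓞 K) - m * s} = idl N s m (1 + N * m ^ 2) := by
    apply le_antisymm
    · rw [Ideal.span_singleton_le_iff_mem]
      have : (1 : 𝓞 K) - m * s = (m ^ 2 * s) * (N * m + s) +
          (1 - m * s) * ((1 + N * m ^ 2 : ℤ) : 𝓞 K) := by
        push_cast
        linear_combination -((m : 𝓞 K) ^ 2) * h.sq'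
      rw [this]
      exact Ideal.add_mem _ (Ideal.mul_mem_left _ _ (w_mem _ _))
        (Ideal.mul_mem_left _ _ (c_mem _ _))
    · rw [idl, Ideal.span_le]
      rintro z (rfl | rfl)
      · rw [SetLike.mem_coe, Ideal.mem_span_singleton]
        exact ⟨1 + m * s, by push_cast; linear_combination (m : 𝓞 K) ^ 2 * h.sq'⟩
      · rw [SetLike.mem_coe, Ideal.mem_span_singleton]
        exact ⟨s, by linear_combination (m : 𝓞 K) * h.sq'⟩
  have h2 : (N : 𝓞 K) * m + s = s * (1 - m * s) := by linear_combination (m : 𝓞 K) * h.sq'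
  rw [h2, ← Ideal.span_singleton_mul_span_singleton, map_mul, h.absNorm_s, h1,
    h.absNorm_idl dvd_rfl, Int.natAbs_mul, Int.natAbs_natCast]

omit h in
lemma exists_int_sub_mem {ℓ : ℕ} (hℓ : ℓ.Prime) {𝔩 : Ideal (𝓞 K)}
    (h𝔩 : Ideal.absNorm 𝔩 = ℓ) (z : 𝓞 K) : ∃ m : ℤ, z - m ∈ 𝔩 := by
  have : Fact ℓ.Prime := ⟨hℓ⟩
  have hcard : Nat.card (𝓞 K ⧸ 𝔩) = ℓ := by
    rw [← h𝔩, Ideal.absNorm_apply, Submodule.cardQuot_apply]
  have hne : (1 : 𝓞 K ⧸ 𝔩) ≠ 0 := by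
    intro h0
    have h1 : 𝔩 = ⊤ := by
      rw [Ideal.eq_top_iff_one, ← Ideal.Quotient.eq_zero_iff_mem, map_one]
      exact h0
    rw [h1, Ideal.absNorm_top] at h𝔩
    exact hℓ.one_lt.ne h𝔩
  have htop := zmultiples_eq_top_of_prime_card hcard hne
  have hmem : Ideal.Quotient.mk 𝔩 z ∈ AddSubgroup.zmultiples (1 : 𝓞 K ⧸ 𝔩) := by
    rw [htop]; trivial
  obtain ⟨m, hm⟩ := hmem
  refine ⟨m, ?_⟩
  rw [← Ideal.Quotient.eq, ← hm]
  simp

/-- every ideal `𝔩` of prime norm `ℓ` comes from a Hecke point -/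
lemma exists_Fx {ℓ : ℕ} (hℓ : ℓ.Prime) (hℓN : ¬ ℓ ∣ N) {a c : ℤ} (hc : 0 < c)
    (hd : c ∣ 1 + N * a ^ 2) {𝔩 : Ideal (𝓞 K)} (h𝔩 : Ideal.absNorm 𝔩 = ℓ) :
    ∃ x : Option (ZMod ℓ), Fx N ℓ a c x ∧ LL N s ℓ a c x = 𝔩 * idl N s a c := by
  have : Fact ℓ.Prime := ⟨hℓ⟩
  have hℓmem : (ℓ : 𝓞 K) ∈ 𝔩 := by
    have := Ideal.absNorm_mem 𝔩
    rwa [h𝔩] at this
  have h𝔩0 : 𝔩 ≠ ⊥ := by
    rintro rfl
    rw [Ideal.absNorm_bot] at h𝔩
    exact hℓ.ne_zero h𝔩.symm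
  have hnorm : Ideal.absNorm (𝔩 * idl N s a c) = ℓ * c.natAbs := by
    rw [map_mul, h𝔩, h.absNorm_idl hd]
  have hfin : ∀ x : Option (ZMod ℓ), Fx N ℓ a c x → LL N s ℓ a c x ≤ 𝔩 * idl N s a c →
      LL N s ℓ a c x = 𝔩 * idl N s a c := by
    intro x hx hle
    refine eq_of_le_of_absNorm_eq hle (h.LL_ne_bot hℓ.pos hc hx) ?_
    rw [hnorm, h.absNorm_LL hℓ.pos hd hx]
  have hcN := IsQF.coprime_N hd
  by_cases hcm : (c : 𝓞 K) ∈ 𝔩 * idl N s a c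
  · have h1 : ℓ * c.natAbs ∣ c.natAbs ^ 2 := by
      rw [← hnorm, ← h.absNorm_int]
      exact Ideal.absNorm_dvd_absNorm_of_le ((Ideal.span_singleton_le_iff_mem _).2 hcm)
    have h2 : ℓ ∣ c.natAbs := by
      rw [pow_two] at h1
      exact Nat.dvd_of_mul_dvd_mul_right (by omega) h1
    have hx : Fx N ℓ a c none := by
      change (ℓ : ℤ) ∣ c
      rwa [Int.natCast_dvd]
    refine ⟨none, hx, hfin none hx ?_⟩
    obtain ⟨e, he⟩ := hx
    have h3 : c / (ℓ : ℤ) = e := by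
      rw [he, Int.mul_ediv_cancel_left]
      exact_mod_cast hℓ.ne_zero
    change Ideal.span {(ℓ : 𝓞 K)} * idl N s a (c / ℓ) ≤ _
    rw [h3, Ideal.span_singleton_mul_le_iff]
    intro z hz
    obtain ⟨u, v, rfl⟩ := Ideal.mem_span_pair.1 hz
    have h4 : (ℓ : 𝓞 K) * e = c := by exact_mod_cast congrArg (Int.cast : ℤ → 𝓞 K) he.symm
    have : (ℓ : 𝓞 K) * (u * e + v * (N * a + s)) = u * c + v * (ℓ * (N * a + s)) := by
      rw [← h4]; ring
    rw [this]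
    exact Ideal.add_mem _ (Ideal.mul_mem_left _ _ hcm)
      (Ideal.mul_mem_left _ _ (Ideal.mul_mem_mul hℓmem (w_mem _ _)))
  · -- the subgroup of integers `m` with `m c ∈ 𝔩 𝔞` is `ℓ ℤ`
    have hm : ∃ m : ℤ, ((N : 𝓞 K) * a + s) + m * c ∈ 𝔩 * idl N s a c := by
      have hJ : 𝔩 * idl N s a c ⊔ Ideal.span {(c : 𝓞 K)} = idl N s a c := by
        have hle : 𝔩 * idl N s a c ⊔ Ideal.span {(c : 𝓞 K)} ≤ idl N s a c :=
          sup_le Ideal.mul_le_right ((Ideal.span_singleton_le_iff_mem _).2 (c_mem _ _))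
        obtain ⟨M, hM⟩ := Ideal.dvd_iff_le.2 hle
        have hne := idl_ne_bot (N := N) (s := s) (a := a) hc.ne'
        have h1 : 𝔩 ≤ M := by
          have h2 : 𝔩 * idl N s a c ≤ idl N s a c * M := by rw [← hM]; exact le_sup_left
          rw [mul_comm (idl N s a c), ← Ideal.dvd_iff_le] at h2
          rw [← Ideal.dvd_iff_le]
          exact (mul_dvd_mul_iff_right hne).1 h2
        have h2 : Ideal.absNorm M ∣ ℓ := by
          rw [← h𝔩]; exact Ideal.absNorm_dvd_absNorm_of_le h1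
        rcases (Nat.dvd_prime hℓ).1 h2 with h3 | h3
        · rw [Ideal.absNorm_eq_one_iff] at h3
          rw [hM, h3, Ideal.mul_top]
        · exfalso
          have h4 : 𝔩 = M := eq_of_le_of_absNorm_eq h1 h𝔩0 (by rw [h𝔩, h3])
          apply hcm
          rw [h4, mul_comm, ← hM]
          exact Ideal.mem_sup_right (Ideal.mem_span_singleton_self _)
      have hw : (N : 𝓞 K) * a + s ∈ 𝔩 * idl N s a c ⊔ Ideal.span {(c : 𝓞 K)} := by
        rw [hJ]; exact w_mem _ _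
      obtain ⟨y, hy, z, hz, hyz⟩ := Submodule.mem_sup.1 hw
      obtain ⟨z', rfl⟩ := Ideal.mem_span_singleton.1 hz
      obtain ⟨m, hm⟩ := exists_int_sub_mem hℓ h𝔩 z'
      refine ⟨-m, ?_⟩
      have : ((N : 𝓞 K) * a + s) + ((-m : ℤ) : 𝓞 K) * c = y + (z' - m) * c := by
        rw [← hyz]; push_cast; ring
      rw [this]
      exact Ideal.add_mem _ hy (Ideal.mul_mem_mul hm (c_mem _ _))
    obtain ⟨m, hm⟩ := hm
    obtain ⟨b, hb⟩ : ∃ b : ZMod ℓ, ∃ k : ℤ, m = N * b.val + ℓ * k := by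
      have hN' : (N : ZMod ℓ) ≠ 0 := by
        rwa [Ne, ZMod.natCast_eq_zero_iff]
      refine ⟨(m : ZMod ℓ) / N, ?_⟩
      have : ((m - N * ((m : ZMod ℓ) / N).val : ℤ) : ZMod ℓ) = 0 := by
        push_cast
        rw [ZMod.natCast_zmod_val, mul_div_cancel₀ _ hN', sub_self]
      obtain ⟨k, hk⟩ := (ZMod.intCast_zmod_eq_zero_iff_dvd _ _).1 this
      exact ⟨k, by linarith⟩
    obtain ⟨k, hk⟩ := hb
    have hmem : (N : 𝓞 K) * ((a + b.val * c : ℤ) : 𝓞 K) + s ∈ 𝔩 * idl N s a c := by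
      have : (N : 𝓞 K) * ((a + b.val * c : ℤ) : 𝓞 K) + s = (((N : 𝓞 K) * a + s) + m * c)
          - k * (ℓ * c) := by
        rw [hk]; push_cast; ring
      rw [this]
      exact Ideal.sub_mem _ hm (Ideal.mul_mem_left _ _ (Ideal.mul_mem_mul hℓmem (c_mem _ _)))
    have hx : Fx N ℓ a c (some b) := by
      change c * ℓ ∣ 1 + N * (a + b.val * c) ^ 2
      have h1 : ((c * ℓ : ℤ) : ℤ) ∣ N * (1 + N * (a + b.val * c) ^ 2) := by
        have h2 : Ideal.absNorm (𝔩 * idl N s a c) ∣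
            (N * (1 + N * (a + b.val * c) ^ 2) : ℤ).natAbs := by
          rw [← h.absNorm_w]
          exact Ideal.absNorm_dvd_absNorm_of_le ((Ideal.span_singleton_le_iff_mem _).2 hmem)
        rw [hnorm] at h2
        rw [← Int.natAbs_dvd_natAbs, Int.natAbs_mul, Int.natAbs_natCast, mul_comm]
        exact h2
      have h3 : IsCoprime (c * ℓ : ℤ) (N : ℤ) := by
        apply IsCoprime.mul_left hcN
        rw [Int.isCoprime_iff_gcd_eq_one]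
        have : Nat.Coprime ℓ N := (Nat.Prime.coprime_iff_not_dvd hℓ).2 hℓN
        simpa [Int.gcd, Nat.Coprime] using this
      exact h3.dvd_of_dvd_mul_left h1
    refine ⟨some b, hx, hfin _ hx ?_⟩
    change idl N s (a + b.val * c) (c * ℓ) ≤ _
    rw [idl, Ideal.span_le]
    rintro z (rfl | rfl)
    · have : ((c * ℓ : ℤ) : 𝓞 K) = ℓ * c := by push_cast; ring
      rw [SetLike.mem_coe, this]
      exact Ideal.mul_mem_mul hℓmem (c_mem _ _)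
    · exact hmem

/-- the Hecke point is determined by the ideal -/
lemma LL_injective {ℓ : ℕ} (hℓ : ℓ.Prime) (hℓN : ¬ ℓ ∣ N) {a c : ℤ} (hc : 0 < c)
    (hd : c ∣ 1 + N * a ^ 2) {x y : Option (ZMod ℓ)} (hx : Fx N ℓ a c x) (hy : Fx N ℓ a c y)
    (hxy : LL N s ℓ a c x = LL N s ℓ a c y) : x = y := by
  have : Fact ℓ.Prime := ⟨hℓ⟩
  have hℓ' : (ℓ : ℤ) ≠ 0 := by exact_mod_cast hℓ.ne_zero
  -- `N m + s` is not divisible by `ℓ`
  have key : ∀ (m : ℤ) (J : Ideal (𝓞 K)), (N : 𝓞 K) * m + s ∉ Ideal.span {(ℓ : 𝓞 K)} * J := by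
    intro m J hm
    have h1 : (N : 𝓞 K) * m + s ∈ Ideal.span {(ℓ : 𝓞 K)} := Ideal.mul_le_left hm
    obtain ⟨z, hz⟩ := Ideal.mem_span_singleton.1 h1
    obtain ⟨u, v, rfl⟩ := h.exists_coords z
    have h2 := h.int_ext (N * m) 1 (ℓ * u) (ℓ * v) (by push_cast; linear_combination hz)
    have h3 : (ℓ : ℤ) ∣ 1 := ⟨v, h2.2⟩
    have h4 : ℓ ∣ 1 := by exact_mod_cast h3
    exact hℓ.one_lt.ne' (Nat.dvd_one.1 h4)
  cases x with
  | none =>
    cases y with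
    | none => rfl
    | some b =>
      exfalso
      refine key (a + b.val * c) (idl N s a (c / ℓ)) ?_
      change _ ∈ LL N s ℓ a c none
      rw [hxy]
      exact w_mem _ _
  | some b =>
    cases y with
    | none =>
      exfalso
      refine key (a + b.val * c) (idl N s a (c / ℓ)) ?_
      change _ ∈ LL N s ℓ a c none
      rw [← hxy]
      exact w_mem _ _
    | some b' =>
      have h1 : (N : 𝓞 K) * ((a + b.val * c : ℤ) : 𝓞 K) + s ∈ LL N s ℓ a c (some b) := w_mem _ _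
      have h2 : (N : 𝓞 K) * ((a + b'.val * c : ℤ) : 𝓞 K) + s ∈ LL N s ℓ a c (some b) := by
        rw [hxy]; exact w_mem _ _
      have h3 := Ideal.sub_mem _ h1 h2
      have h4 : (N : 𝓞 K) * ((a + b.val * c : ℤ) : 𝓞 K) + s -
          ((N : 𝓞 K) * ((a + b'.val * c : ℤ) : 𝓞 K) + s) =
          ((N * (b.val - b'.val) * c : ℤ) : 𝓞 K) := by push_cast; ring
      rw [h4] at h3
      have h5 : c * ℓ ∣ N * (b.val - b'.val) * c := (h.int_mem_idl hx).1 h3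
      have h6 : (ℓ : ℤ) ∣ N * (b.val - b'.val) := by
        rw [mul_comm c] at h5
        exact Int.dvd_of_mul_dvd_mul_right hc.ne' h5
      have h7 : ((N * (b.val - b'.val) : ℤ) : ZMod ℓ) = 0 :=
        (ZMod.intCast_zmod_eq_zero_iff_dvd _ _).2 h6
      push_cast at h7
      rw [ZMod.natCast_zmod_val, ZMod.natCast_zmod_val] at h7
      have hN' : (N : ZMod ℓ) ≠ 0 := by rwa [Ne, ZMod.natCast_eq_zero_iff]
      rw [sub_eq_zero.1 ((mul_eq_zero.1 h7).resolve_left hN')]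

/-- **Hecke operators on CM points**: the number of Hecke points `ℓτ`, `(τ + b)/ℓ` of
`τ = tau N a c` which are `Γ₀(N)`-equivalent to `tau N a' c'` is the number of ideals `𝔩` of norm
`ℓ` with `[𝔩] [𝔞(a,c)] = [𝔞(a',c')]`. -/
theorem hecke_card {ℓ : ℕ} (hℓ : ℓ.Prime) (hℓN : ¬ ℓ ∣ N) {a c a' c' : ℤ} (hc : 0 < c)
    (hd : c ∣ 1 + N * a ^ 2) (hc' : 0 < c') (hd' : c' ∣ 1 + N * a' ^ 2) :
    Nat.card {x : Option (ZMod ℓ) // ∃ γ ∈ Gamma0 N, ∃ z : ℍ, (z : ℂ) = hpt ℓ x (tau N a c) ∧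
      γ • z = tau N a' c'} =
    Nat.card {𝔩 : Ideal (𝓞 K) // Ideal.absNorm 𝔩 = ℓ ∧
      icl 𝔩 * icl (idl N s a c) = icl (idl N s a' c')} := by
  have hN := h.pos
  have hne := idl_ne_bot (N := N) (s := s) (a := a) hc.ne'
  have h𝔩0 : ∀ 𝔩 : Ideal (𝓞 K), Ideal.absNorm 𝔩 = ℓ → 𝔩 ≠ ⊥ := by
    rintro 𝔩 h𝔩 rfl
    rw [Ideal.absNorm_bot] at h𝔩
    exact hℓ.ne_zero h𝔩.symm
  -- reformulation of the condition on `x`
  have hP : ∀ x : Option (ZMod ℓ), (∃ γ ∈ Gamma0 N, ∃ z : ℍ, (z : ℂ) = hpt ℓ x (tau N a c) ∧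
      γ • z = tau N a' c') ↔ Fx N ℓ a c x ∧ icl (LL N s ℓ a c x) = icl (idl N s a' c') := by
    intro x
    constructor
    · rintro ⟨γ, hγ, z, hz, hγz⟩
      obtain ⟨a'', c'', g1, g2, g3⟩ := exists_smul_tau hN hc' hd' (inv_mem hγ)
      have hz' : z = tau N a'' c'' := by rw [← g3, ← hγz, inv_smul_smul]
      rw [hz'] at hz hγz
      obtain ⟨hx, hxt⟩ := fx_of_hpt_eq hN hℓ.pos hc g1 g2 hz.symm
      refine ⟨hx, ?_⟩
      rw [h.icl_LL hℓ.pos hc hx, hxt]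
      exact h.icl_eq_of_smul g1 hc' g2 hd' hγ hγz
    · rintro ⟨hx, hcl⟩
      rw [h.icl_LL hℓ.pos hc hx] at hcl
      obtain ⟨γ, hγ, hγz⟩ := h.exists_smul_of_icl_eq (tgt_pos hℓ.pos hc hx) hc' (tgt_dvd hd hx)
        hd' hcl
      exact ⟨γ, hγ, _, (hpt_eq hN hℓ.pos hc hx).symm, hγz⟩
  choose f hf1 hf2 using fun 𝔩 : {𝔩 : Ideal (𝓞 K) // Ideal.absNorm 𝔩 = ℓ ∧
      icl 𝔩 * icl (idl N s a c) = icl (idl N s a' c')} => h.exists_Fx hℓ hℓN hc hd 𝔩.2.1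
  have hf3 : ∀ 𝔩, icl (LL N s ℓ a c (f 𝔩)) = icl (idl N s a' c') := by
    intro 𝔩
    rw [hf2, icl_mul (h𝔩0 _ 𝔩.2.1) hne]
    exact 𝔩.2.2
  let g : {𝔩 : Ideal (𝓞 K) // Ideal.absNorm 𝔩 = ℓ ∧
      icl 𝔩 * icl (idl N s a c) = icl (idl N s a' c')} →
      {x : Option (ZMod ℓ) // ∃ γ ∈ Gamma0 N, ∃ z : ℍ, (z : ℂ) = hpt ℓ x (tau N a c) ∧
      γ • z = tau N a' c'} := fun 𝔩 => ⟨f 𝔩, (hP _).2 ⟨hf1 𝔩, hf3 𝔩⟩⟩
  refine (Nat.card_eq_of_bijective g ⟨?_, ?_⟩).symm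
  · intro 𝔩 𝔩' h1
    have h2 : f 𝔩 = f 𝔩' := congrArg Subtype.val h1
    have h3 := hf2 𝔩
    rw [h2, hf2 𝔩'] at h3
    exact Subtype.ext (mul_right_cancel₀ hne h3).symm
  · rintro ⟨x, hx⟩
    obtain ⟨hx1, hx2⟩ := (hP x).1 hx
    obtain ⟨𝔩, h𝔩, hL⟩ := h.exists_of_Fx hℓ.pos hc hd hx1
    rw [hL, icl_mul (h𝔩0 _ h𝔩) hne] at hx2
    refine ⟨⟨𝔩, h𝔩, hx2⟩, ?_⟩
    apply Subtype.ext
    exact h.LL_injective hℓ hℓN hc hd (hf1 _) hx1 (by rw [hf2, hL])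

end IsQF

end Fermat.Agent.LTF.QuadInt
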