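import Fermat.Agent.LTF.CMEquiv

/-!
# The fixed points of `w_N`
-/

namespace Fermat.Agent.LTF.QuadInt

open NumberField UpperHalfPlane Complex CongruenceSubgroup
open scoped MatrixGroups

/-- a point of `ℍ` fixed by a trace `0` matrix `(N x, y; N d z, -N x)` of determinant `N` -/
theorem exists_tau_of_fixed_trace_zero {N d : ℕ} (hN : 0 < N) (hd : 0 < d) {x y z : ℤ}
    (hdet : -(N * x ^ 2) - d * y * z = 1) {τ : ℍ}
    (hfix : (N * x : ℂ) * τ + y = τ * ((N * d * z : ℂ) * τ - N * x)) :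
    ∃ a c : ℤ, 0 < c ∧ (d : ℤ) ∣ c ∧ c ∣ 1 + N * a ^ 2 ∧ τ = tau N a c := by
  have hz : z ≠ 0 := by
    rintro rfl
    have h1 : (0 : ℤ) ≤ N * x ^ 2 := by positivity
    simp at hdet
    linarith
  have hdetC : -((N : ℂ) * x ^ 2) - d * y * z = 1 := by exact_mod_cast hdet
  have hsq : ((N * d * z : ℂ) * τ - N * x) ^ 2 = rt N ^ 2 := by
    rw [rt_sq]
    linear_combination -(N * d * z : ℂ) * hfix - (N : ℂ) * hdetC
  have him : 0 < (τ : ℂ).im := τ.im_pos
  have hNR : (0 : ℝ) < N := by exact_mod_cast hN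
  have hdR : (0 : ℝ) < d := by exact_mod_cast hd
  have hsN : 0 < Real.sqrt N := Real.sqrt_pos.2 hNR
  rcases sq_eq_sq_iff_eq_or_eq_neg.1 hsq with h1 | h1
  · -- then `z > 0`
    have h2 : (N * d * z : ℝ) * (τ : ℂ).im = Real.sqrt N := by
      have := congrArg Complex.im h1
      rw [rt_im] at this
      rw [← this]
      simp
    have h3 : (0 : ℝ) < z := by
      by_contra hcon
      push Not at hcon
      have h5 : 0 ≤ (N * d * (-z) : ℝ) * (τ : ℂ).im := by
        have : (0 : ℝ) ≤ -z := by linarith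
        positivity
      linarith
    have h3' : 0 < z := by exact_mod_cast h3
    have hc : 0 < (d : ℤ) * z := by positivity
    refine ⟨x, d * z, hc, ⟨z, rfl⟩, ⟨-y, by linarith⟩, ?_⟩
    rw [eq_tau_iff hN _ hc]
    push_cast
    linear_combination h1
  · have h2 : (N * d * z : ℝ) * (τ : ℂ).im = - Real.sqrt N := by
      have := congrArg Complex.im h1
      rw [neg_im, rt_im] at this
      rw [← this]
      simp
    have h3 : (z : ℝ) < 0 := by
      by_contra hcon
      push Not at hcon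
      have : 0 ≤ (N * d * z : ℝ) * (τ : ℂ).im := by positivity
      linarith
    have h3' : z < 0 := by exact_mod_cast h3
    have hc : 0 < (d : ℤ) * (-z) := by
      have : 0 < -z := by linarith
      positivity
    refine ⟨-x, d * (-z), hc, ⟨-z, rfl⟩, ⟨y, by linarith⟩, ?_⟩
    rw [eq_tau_iff hN _ hc]
    push_cast
    linear_combination -h1

/-- a matrix `(N x, y; N d z, N t)` of determinant `N ≥ 4` with a fixed point in `ℍ` has trace 0 -/
theorem trace_zero_of_fixed {N d : ℕ} (hN : 4 ≤ N) (hd : 0 < d) {x y z t : ℤ}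
    (hdet : N * x * t - d * y * z = 1) {τ : ℍ}
    (hfix : (N * x : ℂ) * τ + y = τ * ((N * d * z : ℂ) * τ + N * t)) : t = -x := by
  -- take imaginary and real parts
  have him : 0 < (τ : ℂ).im := τ.im_pos
  set u := (τ : ℂ).re with hu
  set v := (τ : ℂ).im with hv
  have hτ : (τ : ℂ) = u + v * Complex.I := (Complex.re_add_im _).symm
  have h1 := congrArg Complex.im hfix
  have h2 := congrArg Complex.re hfix
  rw [hτ] at h1 h2
  simp only [add_re, mul_re, natCast_re, intCast_re, natCast_im, intCast_im, ofReal_re, Complex.I_re,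
    ofReal_im, Complex.I_im, mul_zero, mul_one, zero_mul, sub_zero, add_zero, zero_add, mul_im,
    add_im, sub_self] at h1 h2
  -- `h1 : N x v = ...`
  have h3 : (N : ℝ) * x = 2 * (N * d * z) * u + N * t := by
    have : v * ((N : ℝ) * x) = v * (2 * (N * d * z) * u + N * t) := by linarith
    exact mul_left_cancel₀ him.ne' this
  have h4 : (N : ℝ) * x * u + y = (N * d * z) * (u ^ 2 - v ^ 2) + N * t * u := by linarith
  have hdetR : (N : ℝ) * x * t - d * y * z = 1 := by exact_mod_cast hdet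
  -- discriminant
  have h5 : ((N : ℝ) * (t + x)) ^ 2 - 4 * N = -(2 * (N * d * z) * v) ^ 2 := by
    have e1 : (N : ℝ) * (t + x) = 2 * (N * x) - 2 * (N * d * z) * u := by linarith
    have e2 : (y : ℝ) = (N * d * z) * (u ^ 2 - v ^ 2) + N * t * u - N * x * u := by linarith
    have e3 : (N : ℝ) * t = N * x - 2 * (N * d * z) * u := by linarith
    have e4 : (4 : ℝ) * N = 4 * (N * x) * (N * t) - 4 * (N * d * z) * y := by
      have : (N : ℝ) = N * (N * x * t - d * y * z) := by rw [hdetR, mul_one]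
      linear_combination 4 * this
    rw [e4, e2, e1, e3]
    ring
  have hz : z ≠ 0 := by
    rintro rfl
    have h6 : (N : ℤ) ∣ 1 := ⟨x * t, by linarith⟩
    have h7 := Int.le_of_dvd one_pos h6
    have : (4 : ℤ) ≤ N := by exact_mod_cast hN
    omega
  have hNR : (4 : ℝ) ≤ N := by exact_mod_cast hN
  have hdR : (0 : ℝ) < d := by exact_mod_cast hd
  have hzR : (z : ℝ) ≠ 0 := by exact_mod_cast hz
  have h6 : (N : ℝ) * (t + x) ^ 2 < 4 := by
    have h7 : 0 < (2 * ((N : ℝ) * d * z) * v) ^ 2 := by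
      have : 2 * ((N : ℝ) * d * z) * v ≠ 0 := by
        have hN0 : (N : ℝ) ≠ 0 := by linarith
        have hv0 : v ≠ 0 := him.ne'
        have hd0 : (d : ℝ) ≠ 0 := hdR.ne'
        positivity
      positivity
    have : (N : ℝ) * (N * (t + x) ^ 2) < N * 4 := by nlinarith
    exact lt_of_mul_lt_mul_left this (by linarith)
  by_contra hne
  have hne' : t + x ≠ 0 := fun h0 => hne (by linarith)
  have h7 : (1 : ℤ) ≤ (t + x) ^ 2 := by
    have := sq_pos_of_ne_zero hne'
    omega
  have h8 : (N : ℤ) * (t + x) ^ 2 < 4 := by exact_mod_cast h6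
  have hN' : (4 : ℤ) ≤ N := by exact_mod_cast hN
  nlinarith

/-- **the fixed points of `w_N` on `Γ₀(N d)`** -/
theorem exists_tau_of_fixed {N d : ℕ} (hN : 4 ≤ N) (hd : 0 < d) {x y z t : ℤ}
    (hdet : N * x * t - d * y * z = 1) {τ : ℍ}
    (hfix : (N * x : ℂ) * τ + y = τ * ((N * d * z : ℂ) * τ + N * t)) :
    ∃ a c : ℤ, 0 < c ∧ (d : ℤ) ∣ c ∧ c ∣ 1 + N * a ^ 2 ∧ τ = tau N a c := by
  have ht := trace_zero_of_fixed hN hd hdet hfix
  subst ht
  apply exists_tau_of_fixed_trace_zero (N := N) (d := d) (x := x) (y := y) (z := z) (by omega) hd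
  · linarith
  · rw [hfix]
    push_cast
    ring

/-- no fixed point if an inert prime divides `d` -/
theorem no_fixed {N d q : ℕ} (hN : 4 ≤ N) (hd : 0 < d) (hqd : q ∣ d)
    (hq : ¬ IsSquare (-(N : ZMod q))) {x y z t : ℤ}
    (hdet : N * x * t - d * y * z = 1) {τ : ℍ}
    (hfix : (N * x : ℂ) * τ + y = τ * ((N * d * z : ℂ) * τ + N * t)) : False := by
  obtain ⟨a, c, -, h1, h2, -⟩ := exists_tau_of_fixed hN hd hdet hfix
  apply hq
  have h3 : (q : ℤ) ∣ 1 + N * a ^ 2 :=
    (Int.natCast_dvd_natCast.2 hqd).trans (h1.trans h2)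
  have h4 : ((1 + N * a ^ 2 : ℤ) : ZMod q) = 0 := (ZMod.intCast_zmod_eq_zero_iff_dvd _ _).2 h3
  push_cast at h4
  exact ⟨N * a, by linear_combination -(N : ZMod q) * h4⟩

/-- `tau` is fixed by a matrix of `w_N`-type -/
theorem tau_fixed {N : ℕ} (hN : 0 < N) {a c e : ℤ} (hc : 0 < c) (he : 1 + N * a ^ 2 = c * e) :
    (N * a : ℂ) * tau N a c + (-e : ℤ) = tau N a c * ((N * c : ℂ) * tau N a c - N * a) := by
  have h1 := mul_tau hN a hc
  have h2 := rt_sq N
  have h3 : (1 : ℂ) + N * a ^ 2 = c * e := by exact_mod_cast he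
  have hNC : (N : ℂ) ≠ 0 := by exact_mod_cast hN.ne'
  have hcC : (c : ℂ) ≠ 0 := by exact_mod_cast hc.ne'
  apply mul_left_cancel₀ (mul_ne_zero hNC hcC)
  push_cast
  linear_combination (2 * N * a : ℂ) * h1 - (N * c * (tau N a c : ℂ) + N * a + rt N) * h1 - h2
    + (N : ℂ) * h3

/-- the set of the points `tau N a c`, `c ∣ 1 + N a²`, is stable under `Γ₀(N)` -/
theorem exists_smul_tau {N : ℕ} (hN : 0 < N) {a c : ℤ} (hc : 0 < c) (hd : c ∣ 1 + N * a ^ 2)
    {γ : SL(2, ℤ)} (hγ : γ ∈ Gamma0 N) :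
    ∃ a' c' : ℤ, 0 < c' ∧ c' ∣ 1 + N * a' ^ 2 ∧ γ • tau N a c = tau N a' c' := by
  obtain ⟨e, he⟩ := hd
  obtain ⟨r, hr⟩ : (N : ℤ) ∣ γ 1 0 := by
    rw [Gamma0_mem] at hγ
    exact (ZMod.intCast_zmod_eq_zero_iff_dvd _ _).1 hγ
  have hdet : γ 0 0 * γ 1 1 - γ 0 1 * γ 1 0 = 1 := by
    have := γ.det_coe
    rwa [Matrix.det_fin_two] at this
  set τ' := γ • tau N a c with hτ'
  have hsm := (smul_eq_iff γ (tau N a c) τ').1 hτ'.symm
  set p := γ 0 0
  set q := γ 0 1
  set t := γ 1 1
  have hfix := tau_fixed hN hc he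
  rw [hr] at hdet hsm
  have hdetC : (p : ℂ) * t - q * (N * r) = 1 := by exact_mod_cast hdet
  push_cast at hsm
  have hne : (N * r : ℂ) * tau N a c + t ≠ 0 := by
    have := UpperHalfPlane.denom_ne_zero (γ : GL (Fin 2) ℝ) (tau N a c)
    rw [UpperHalfPlane.denom] at this
    have e1 : ((N * r : ℂ) * tau N a c + t) = ((γ 1 0 : ℤ) : ℂ) * tau N a c + (γ 1 1 : ℤ) := by
      rw [hr]; push_cast; rfl
    rw [e1]
    simpa using this
  set w : ℂ := (tau N a c : ℂ) with hw
  push_cast at hfix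
  have hA : (N : ℂ) * ((p * a + q * c) * t + (p * e + q * N * a) * r) * (p * w + q) +
      (-((p * N * a + q * N * c) * q + (p * e + q * N * a) * p)) * (N * r * w + t) =
      (N * c * w - N * a) * (p * w + q) := by
    linear_combination (p * (N * a * w - e) + q * (N * c * w - N * a)) * hdetC + (p : ℂ) * hfix
  have hB : (N : ℂ) * ((N * r * a + t * c) * t + (N * r * e + t * N * a) * r) * (p * w + q) -
      (N : ℂ) * ((p * a + q * c) * t + (p * e + q * N * a) * r) * (N * r * w + t) =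
      (N * c * w - N * a) * (N * r * w + t) := by
    linear_combination (N * r * (N * a * w - e) + t * (N * c * w - N * a)) * hdetC
      + (N * r : ℂ) * hfix
  rw [hsm] at hA hB
  have hA' : (N : ℂ) * ((p * a + q * c) * t + (p * e + q * N * a) * r) * τ' +
      (-((p * N * a + q * N * c) * q + (p * e + q * N * a) * p)) =
      (N * c * w - N * a) * τ' := by
    apply mul_right_cancel₀ hne
    linear_combination hA
  have hB' : (N : ℂ) * ((N * r * a + t * c) * t + (N * r * e + t * N * a) * r) * τ' -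
      (N : ℂ) * ((p * a + q * c) * t + (p * e + q * N * a) * r) =
      (N * c * w - N * a) := by
    apply mul_right_cancel₀ hne
    linear_combination hB
  -- the conjugated matrix
  obtain ⟨a', c', h1, -, h3, h4⟩ := exists_tau_of_fixed_trace_zero (N := N) (d := 1) (x :=
    (p * a + q * c) * t + (p * e + q * N * a) * r)
    (y := -((p * N * a + q * N * c) * q + (p * e + q * N * a) * p))
    (z := (N * r * a + t * c) * t + (N * r * e + t * N * a) * r) (τ := τ') hN one_pos
    (by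
      push_cast
      have e1 : (p * t - q * (N * r)) ^ 2 = 1 := by rw [hdet]; norm_num
      linear_combination (c * e - N * a ^ 2) * e1 - he)
    (by
      push_cast
      linear_combination hA' - (τ' : ℂ) * hB')
  exact ⟨a', c', h1, h3, h4⟩

end Fermat.Agent.LTF.QuadInt
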