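import Fermat.Agent.LTF.JInj
import Fermat.Agent.LTF.CMFix

/-!
# The CM points `tau N a c` (`N` squarefree, even) are not elliptic
-/

namespace Fermat.Agent.LTF.QuadInt

open UpperHalfPlane Complex CongruenceSubgroup ModularForm EisensteinSeries
open Fermat.Agent.JLevelOne Fermat.Agent.LTF.CM
open scoped MatrixGroups

/-- an integral quadratic equation for `tau N a c` is proportional to the obvious one -/
lemma quad_tau {N : ℕ} (hN : 0 < N) {a c e : ℤ} (hc : 0 < c) (he : 1 + N * a ^ 2 = c * e)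
    {A B C : ℤ} (hq : (A : ℂ) * (tau N a c : ℂ) ^ 2 + B * (tau N a c : ℂ) + C = 0) :
    B * (N * c) = -(2 * N * a) * A ∧ C * (N * c) = A * e := by
  have h1 := mul_tau hN a hc
  have h2 := rt_sq N
  have h3 : (1 : ℂ) + N * a ^ 2 = c * e := by exact_mod_cast he
  have hNC : (N : ℂ) ≠ 0 := by exact_mod_cast hN.ne'
  have hcC : (c : ℂ) ≠ 0 := by exact_mod_cast hc.ne'
  set w : ℂ := (tau N a c : ℂ) with hw
  have hs : (N : ℂ) * c * w ^ 2 - 2 * N * a * w + e = 0 := by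
    apply mul_left_cancel₀ (mul_ne_zero hNC hcC)
    linear_combination (N * c * w + N * a + rt N - 2 * N * a) * h1 + h2 - (N : ℂ) * h3
  have hlin : ((B * (N * c) + 2 * N * a * A : ℤ) : ℂ) * w + ((C * (N * c) - A * e : ℤ) : ℂ) = 0 := by
    push_cast
    linear_combination (N * c : ℂ) * hq - (A : ℂ) * hs
  have him : 0 < w.im := (tau N a c).im_pos
  have h4 := congrArg Complex.im hlin
  rw [add_im, mul_im, intCast_re, intCast_im, zero_mul, add_zero, intCast_im, add_zero,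
    zero_im] at h4
  have h5 : (B * (N * c) + 2 * N * a * A : ℤ) = 0 := by
    have := (mul_eq_zero.1 h4).resolve_right him.ne'
    exact_mod_cast this
  rw [h5] at hlin
  have h6 : (C * (N * c) - A * e : ℤ) = 0 := by
    simp only [Int.cast_zero, zero_mul, zero_add] at hlin
    exact_mod_cast hlin
  constructor <;> linarith

/-- `tau N a c` does not satisfy an integral equation of discriminant `-3` or `-4` -/
lemma disc_tau {N : ℕ} (hsq : Squarefree N) (h2 : 2 ∣ N) {a c e : ℤ} (hc : 0 < c)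
    (he : 1 + N * a ^ 2 = c * e) {A B C : ℤ}
    (hq : (A : ℂ) * (tau N a c : ℂ) ^ 2 + B * (tau N a c : ℂ) + C = 0) :
    B ^ 2 - 4 * A * C ≠ -3 ∧ B ^ 2 - 4 * A * C ≠ -4 := by
  have hN : 0 < N := Nat.pos_of_ne_zero hsq.ne_zero
  obtain ⟨h3, h4⟩ := quad_tau hN hc he hq
  have hN0 : (N : ℤ) ≠ 0 := by exact_mod_cast hN.ne'
  have hsqZ : Squarefree (N : ℤ) := Int.squarefree_natCast.2 hsq
  have hd : c ∣ 1 + N * a ^ 2 := ⟨e, he⟩
  have hcop := IsQF.coprime_N hd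
  have h2N : ¬ (N : ℤ) ∣ 1 := by
    intro h0
    have : N ∣ 1 := by exact_mod_cast h0
    rw [Nat.dvd_one] at this
    omega
  have hcN : IsCoprime (N : ℤ) (c ^ 2) := hcop.symm.pow_right
  -- `N c² (B² - 4AC) = -4 A²`
  have key : (N : ℤ) * (c ^ 2 * (B ^ 2 - 4 * A * C)) = -(4 * A ^ 2) := by
    apply mul_left_cancel₀ hN0
    linear_combination (B * (N * c) - 2 * N * a * A) * h3 - 4 * A * N * c * h4
      + 4 * A ^ 2 * N * he
  constructor
  · intro h5
    rw [h5] at key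
    have h6 : (N : ℤ) ∣ (2 * A) ^ 2 := ⟨3 * c ^ 2, by linarith⟩
    have h7 : (N : ℤ) ∣ 2 * A := (hsqZ.dvd_pow_iff_dvd (by norm_num)).1 h6
    obtain ⟨k, hk⟩ := h7
    have h8 : 3 * c ^ 2 = N * k ^ 2 := by
      apply mul_left_cancel₀ hN0
      have : (2 * A) ^ 2 = (N * k) ^ 2 := by rw [hk]
      linarith
    have h9 : (N : ℤ) ∣ 3 := hcN.dvd_of_dvd_mul_right ⟨k ^ 2, h8⟩
    have h10 : N ∣ 3 := by exact_mod_cast h9
    rcases (Nat.dvd_prime Nat.prime_three).1 h10 with h11 | h11 <;> omega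
  · intro h5
    rw [h5] at key
    have h6 : (N : ℤ) ∣ A ^ 2 := ⟨c ^ 2, by linarith⟩
    have h7 : (N : ℤ) ∣ A := (hsqZ.dvd_pow_iff_dvd (by norm_num)).1 h6
    obtain ⟨k, hk⟩ := h7
    have h8 : c ^ 2 = N * k ^ 2 := by
      apply mul_left_cancel₀ hN0
      have : A ^ 2 = (N * k) ^ 2 := by rw [hk]
      linarith
    have h9 : (N : ℤ) ∣ 1 := hcN.dvd_of_dvd_mul_right (y := 1) ⟨k ^ 2, by linarith⟩
    exact h2N h9

theorem E₄_tau_ne {N : ℕ} (hsq : Squarefree N) (h2 : 2 ∣ N) {a c : ℤ} (hc : 0 < c)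
    (hd : c ∣ 1 + N * a ^ 2) : E₄ (tau N a c) ≠ 0 := by
  intro h0
  obtain ⟨e, he⟩ := hd
  have h1 : jFun (tau N a c) = jFun ρ := by rw [jFun_ρ, jFun_eq_zero_iff]; exact h0
  obtain ⟨γ, hγ⟩ := jFun_eq_iff.1 h1
  rw [smul_eq_iff] at hγ
  have hdet : γ 0 0 * γ 1 1 - γ 0 1 * γ 1 0 = 1 := by
    have := γ.det_coe
    rwa [Matrix.det_fin_two] at this
  set p := γ 0 0
  set q := γ 0 1
  set r := γ 1 0
  set t := γ 1 1
  have hρ := ρ_sq
  refine (disc_tau hsq h2 hc he (A := p ^ 2 + p * r + r ^ 2) (B := 2 * p * q + p * t + q * r +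
    2 * r * t) (C := q ^ 2 + q * t + t ^ 2) ?_).1 ?_
  · push_cast
    set w : ℂ := (tau N a c : ℂ)
    have : ((p : ℂ) * w + q) ^ 2 + (p * w + q) * (r * w + t) + (r * w + t) ^ 2 = 0 := by
      rw [hγ]
      linear_combination (r * w + t) ^ 2 * hρ
    linear_combination this
  · linear_combination (-3 * (p * t - q * r) - 3) * hdet

theorem E₆_tau_ne {N : ℕ} (hsq : Squarefree N) (h2 : 2 ∣ N) {a c : ℤ} (hc : 0 < c)
    (hd : c ∣ 1 + N * a ^ 2) : E₆ (tau N a c) ≠ 0 := by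
  intro h0
  obtain ⟨e, he⟩ := hd
  have h1 : jFun (tau N a c) = jFun UpperHalfPlane.I := by
    rw [jFun_I, jFun_eq_1728_iff]; exact h0
  obtain ⟨γ, hγ⟩ := jFun_eq_iff.1 h1
  rw [smul_eq_iff] at hγ
  have hdet : γ 0 0 * γ 1 1 - γ 0 1 * γ 1 0 = 1 := by
    have := γ.det_coe
    rwa [Matrix.det_fin_two] at this
  set p := γ 0 0
  set q := γ 0 1
  set r := γ 1 0
  set t := γ 1 1
  refine (disc_tau hsq h2 hc he (A := p ^ 2 + r ^ 2) (B := 2 * p * q + 2 * r * t)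
    (C := q ^ 2 + t ^ 2) ?_).2 ?_
  · push_cast
    set w : ℂ := (tau N a c : ℂ)
    have : ((p : ℂ) * w + q) ^ 2 + (r * w + t) ^ 2 = 0 := by
      rw [hγ, UpperHalfPlane.coe_I]
      linear_combination (r * w + t) ^ 2 * Complex.I_sq
    linear_combination this
  · linear_combination (-4 * (p * t - q * r) - 4) * hdet

end Fermat.Agent.LTF.QuadInt
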