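import Fermat.Agent.LTF.QuadClass

/-!
# CM points: `Γ₀(N)`-classes of the points `(a + i/√N)/c` and ideal classes of `ℤ[√-N]`
-/

namespace Fermat.Agent.LTF.QuadInt

open NumberField UpperHalfPlane Complex CongruenceSubgroup
open scoped MatrixGroups

variable {K : Type*} [Field K] [NumberField K]

set_option linter.unusedSectionVars false

/-- `i √N` -/
noncomputable def rt (N : ℕ) : ℂ := Complex.I * ((Real.sqrt N : ℝ) : ℂ)

lemma rt_sq (N : ℕ) : rt N ^ 2 = -(N : ℂ) := by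
  rw [rt, mul_pow, I_sq, ← ofReal_pow, Real.sq_sqrt (Nat.cast_nonneg N)]
  simp

lemma rt_im (N : ℕ) : (rt N).im = Real.sqrt N := by simp [rt]

lemma rt_re (N : ℕ) : (rt N).re = 0 := by simp [rt]

lemma im_tau_pos {N : ℕ} (hN : 0 < N) (a : ℤ) {c : ℤ} (hc : 0 < c) :
    0 < (((N : ℂ) * a + rt N) / (N * c)).im := by
  have h1 : ((N : ℂ) * a + rt N) / (N * c) =
      (((N : ℝ) * a / (N * c) : ℝ) : ℂ) + rt N * (((N * c : ℝ)⁻¹ : ℝ) : ℂ) := by
    push_cast
    ring
  rw [h1, add_im, ofReal_im, im_mul_ofReal, rt_im, zero_add]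
  have h2 : (0 : ℝ) < Real.sqrt N := Real.sqrt_pos.2 (by exact_mod_cast hN)
  have h3 : (0 : ℝ) < N * c := by
    have h4 : (0 : ℝ) < N := by exact_mod_cast hN
    have h5 : (0 : ℝ) < c := by exact_mod_cast hc
    positivity
  positivity

/-- the point `(N a + i√N)/(N c)` of the upper half plane (junk if `N = 0` or `c ≤ 0`) -/
noncomputable def tau (N : ℕ) (a c : ℤ) : ℍ :=
  if h : 0 < N ∧ 0 < c then ⟨((N : ℂ) * a + rt N) / (N * c), im_tau_pos h.1 a h.2⟩ else UpperHalfPlane.I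

lemma coe_tau {N : ℕ} (hN : 0 < N) (a : ℤ) {c : ℤ} (hc : 0 < c) :
    (tau N a c : ℂ) = ((N : ℂ) * a + rt N) / (N * c) := by
  rw [tau, dif_pos ⟨hN, hc⟩]

lemma mul_tau {N : ℕ} (hN : 0 < N) (a : ℤ) {c : ℤ} (hc : 0 < c) :
    (N : ℂ) * c * (tau N a c : ℂ) = N * a + rt N := by
  rw [coe_tau hN a hc]
  have h1 : (N : ℂ) ≠ 0 := by exact_mod_cast hN.ne'
  have h2 : (c : ℂ) ≠ 0 := by exact_mod_cast hc.ne'
  field_simp

lemma eq_tau_iff {N : ℕ} (hN : 0 < N) (a : ℤ) {c : ℤ} (hc : 0 < c) (τ : ℍ) :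
    τ = tau N a c ↔ (N : ℂ) * c * (τ : ℂ) = N * a + rt N := by
  constructor
  · rintro rfl
    exact mul_tau hN a hc
  · intro h
    apply UpperHalfPlane.ext
    rw [← mul_tau hN a hc] at h
    have h1 : (N : ℂ) * c ≠ 0 := by
      have h1 : (N : ℂ) ≠ 0 := by exact_mod_cast hN.ne'
      have h2 : (c : ℂ) ≠ 0 := by exact_mod_cast hc.ne'
      exact mul_ne_zero h1 h2
    exact mul_left_cancel₀ h1 h

/-- the action of `SL₂(ℤ)` -/
lemma smul_eq_iff (g : SL(2, ℤ)) (τ τ' : ℍ) :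
    g • τ = τ' ↔ (g 0 0 : ℂ) * τ + g 0 1 = τ' * ((g 1 0 : ℂ) * τ + g 1 1) := by
  have hne : (g 1 0 : ℂ) * τ + g 1 1 ≠ 0 := by
    have := UpperHalfPlane.denom_ne_zero (g : GL (Fin 2) ℝ) τ
    rw [UpperHalfPlane.denom] at this
    simpa using this
  rw [UpperHalfPlane.ext_iff, coe_specialLinearGroup_apply]
  have e : ∀ i j, ((algebraMap ℤ ℝ (g i j) : ℝ) : ℂ) = (g i j : ℂ) := by
    intro i j; simp
  rw [e, e, e, e, div_eq_iff hne]

variable {N : ℕ} {s : 𝓞 K}

namespace IsQF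

variable (h : IsQF N s)
include h

/-- an embedding with `s ↦ i√N` -/
theorem exists_emb : ∃ σ : K →+* ℂ, σ (s : K) = rt N := by
  obtain ⟨σ⟩ : Nonempty (K →+* ℂ) := inferInstance
  have h1 : σ (s : K) ^ 2 = rt N ^ 2 := by
    rw [rt_sq, ← map_pow, h.sqK]
    simp
  rcases sq_eq_sq_iff_eq_or_eq_neg.1 h1 with h2 | h2
  · exact ⟨σ, h2⟩
  · refine ⟨(starRingEnd ℂ).comp σ, ?_⟩
    rw [RingHom.comp_apply, h2, rt]
    simp

/-- `Γ₀(N)`-equivalent points have the same ideal class -/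
theorem icl_eq_of_smul {a c a' c' : ℤ} (hc : 0 < c) (hc' : 0 < c') (hd : c ∣ 1 + N * a ^ 2)
    (hd' : c' ∣ 1 + N * a' ^ 2) {γ : SL(2, ℤ)} (hγ : γ ∈ Gamma0 N)
    (hγτ : γ • tau N a c = tau N a' c') :
    icl (idl N s a c) = icl (idl N s a' c') := by
  obtain ⟨σ, hσ⟩ := h.exists_emb
  have hN := h.pos
  rw [smul_eq_iff] at hγτ
  have hdet : γ 0 0 * γ 1 1 - γ 0 1 * γ 1 0 = 1 := by
    have := γ.det_coe
    rwa [Matrix.det_fin_two] at this
  obtain ⟨r, hr⟩ : (N : ℤ) ∣ γ 1 0 := by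
    rw [Gamma0_mem] at hγ
    exact (ZMod.intCast_zmod_eq_zero_iff_dvd _ _).1 hγ
  set p := γ 0 0
  set q := γ 0 1
  set t := γ 1 1
  have hNC : (N : ℂ) ≠ 0 := by exact_mod_cast hN.ne'
  have hcC : (c : ℂ) ≠ 0 := by exact_mod_cast hc.ne'
  have hcC' : (c' : ℂ) ≠ 0 := by exact_mod_cast hc'.ne'
  -- the relation over `ℂ`
  have key : ((p : ℂ) * (N * a + rt N) + q * (N * c)) * c' =
      (N * a' + rt N) * (r * (N * a + rt N) + t * c) := by
    rw [hr] at hγτ
    push_cast at hγτ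
    rw [← mul_tau hN a hc, ← mul_tau hN a' hc']
    linear_combination (N : ℂ) * c * c' * hγτ
  -- over `K`
  have keyK : ((p : K) * (N * a + (s : K)) + q * (N * c)) * c' =
      (N * a' + (s : K)) * (r * (N * a + (s : K)) + t * c) := by
    apply σ.injective
    simp only [map_mul, map_add, map_intCast, map_natCast, hσ]
    exact key
  have keyO : ((p : 𝓞 K) * (N * a + s) + q * (N * c)) * c' =
      (N * a' + s) * (r * (N * a + s) + t * c) := by
    apply NumberField.RingOfIntegers.ext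
    simpa using keyK
  set μ : 𝓞 K := r * (N * a + s) + t * c with hμ
  have hμ0 : μ ≠ 0 := by
    intro h0
    have h1 := h.int_ext (r * (N * a) + t * c) r 0 0 (by
      push_cast
      rw [hμ] at h0
      linear_combination h0)
    obtain ⟨h2, h3⟩ := h1
    rw [h3] at h2 hr
    have h4 : t = 0 := by
      have : t * c = 0 := by linarith
      exact (mul_eq_zero.1 this).resolve_right hc.ne'
    rw [hr, h4] at hdet
    simp at hdet
  have hdetO : (p : 𝓞 K) * t - q * (N * r) = 1 := by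
    rw [hr] at hdet
    exact_mod_cast congrArg (Int.cast : ℤ → 𝓞 K) hdet
  rw [icl_eq_iff (idl_ne_bot hc.ne') (idl_ne_bot hc'.ne')]
  refine ⟨c', μ, by exact_mod_cast hc'.ne', hμ0, ?_⟩
  apply le_antisymm
  · rw [Ideal.span_singleton_mul_le_iff]
    intro z hz
    obtain ⟨u, v, rfl⟩ := (h.mem_idl hd).1 hz
    have : (c' : 𝓞 K) * (u * c + v * (N * a + s)) =
        μ * ((u * p - v * (q * N)) * c' + (v * t - u * r) * (N * a' + s)) := by
      linear_combination ((v : 𝓞 K) * t - u * r) * keyO + (-(u : 𝓞 K) * c' * c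
        - v * c' * (N * a + s)) * hdetO
    rw [this]
    refine Ideal.mul_mem_mul (Ideal.mem_span_singleton_self _) ?_
    exact Ideal.add_mem _ (Ideal.mul_mem_left _ _ (c_mem _ _)) (Ideal.mul_mem_left _ _ (w_mem _ _))
  · rw [Ideal.span_singleton_mul_le_iff]
    intro z hz
    obtain ⟨u, v, rfl⟩ := (h.mem_idl hd').1 hz
    have : μ * (u * c' + v * (N * a' + s)) =
        (c' : 𝓞 K) * ((u * t + v * q * N) * c + (u * r + v * p) * (N * a + s)) := by
      linear_combination -(v : 𝓞 K) * keyO + u * c' * hμ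
    rw [this]
    refine Ideal.mul_mem_mul (Ideal.mem_span_singleton_self _) ?_
    exact Ideal.add_mem _ (Ideal.mul_mem_left _ _ (c_mem _ _)) (Ideal.mul_mem_left _ _ (w_mem _ _))

/-- points with the same ideal class are `Γ₀(N)`-equivalent -/
theorem exists_smul_of_icl_eq {a c a' c' : ℤ} (hc : 0 < c) (hc' : 0 < c')
    (hd : c ∣ 1 + N * a ^ 2) (hd' : c' ∣ 1 + N * a' ^ 2)
    (hcl : icl (idl N s a c) = icl (idl N s a' c')) :
    ∃ γ : SL(2, ℤ), γ ∈ Gamma0 N ∧ γ • tau N a c = tau N a' c' := by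
  obtain ⟨σ, hσ⟩ := h.exists_emb
  have hN := h.pos
  obtain ⟨x, y, hx, hy, hxy⟩ := (icl_eq_iff (idl_ne_bot hc.ne') (idl_ne_bot hc'.ne')).1 hcl
  have hI : ∀ z ∈ idl N s a c, ∃ z' ∈ idl N s a' c', x * z = y * z' := by
    intro z hz
    have h1 : x * z ∈ Ideal.span {y} * idl N s a' c' := by
      rw [← hxy]; exact Ideal.mul_mem_mul (Ideal.mem_span_singleton_self _) hz
    obtain ⟨z', hz', e⟩ := Ideal.mem_span_singleton_mul.1 h1
    exact ⟨z', hz', e.symm⟩
  have hI' : ∀ z ∈ idl N s a' c', ∃ z' ∈ idl N s a c, y * z = x * z' := by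
    intro z hz
    have h1 : y * z ∈ Ideal.span {x} * idl N s a c := by
      rw [hxy]; exact Ideal.mul_mem_mul (Ideal.mem_span_singleton_self _) hz
    obtain ⟨z', hz', e⟩ := Ideal.mem_span_singleton_mul.1 h1
    exact ⟨z', hz', e.symm⟩
  obtain ⟨e, he⟩ := hd
  obtain ⟨e', he'⟩ := hd'
  have heO : (1 : 𝓞 K) + N * a ^ 2 = c * e := by
    exact_mod_cast congrArg (Int.cast : ℤ → 𝓞 K) he
  have heO' : (1 : 𝓞 K) + N * a' ^ 2 = c' * e' := by
    exact_mod_cast congrArg (Int.cast : ℤ → 𝓞 K) he'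
  -- `1 - a' s ∈ I'`
  have hmem : (1 : 𝓞 K) - a' * s ∈ idl N s a' c' := by
    have : (1 : 𝓞 K) - a' * s = (a' ^ 2 * s) * (N * a' + s) + (e' * (1 - a' * s)) * c' := by
      linear_combination ((1 : 𝓞 K) - a' * s) * heO' - (a' : 𝓞 K) ^ 2 * h.sq'
    rw [this]
    exact Ideal.add_mem _ (Ideal.mul_mem_left _ _ (w_mem _ _)) (Ideal.mul_mem_left _ _ (c_mem _ _))
  obtain ⟨z1, hz1, e1⟩ := hI' c' (c_mem _ _)
  obtain ⟨t, r, rfl⟩ := (h.mem_idl ⟨e, he⟩).1 hz1
  obtain ⟨z2, hz2, e2⟩ := hI' _ hmem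
  obtain ⟨u, v, rfl⟩ := (h.mem_idl ⟨e, he⟩).1 hz2
  obtain ⟨z3, hz3, e3⟩ := hI c (c_mem _ _)
  obtain ⟨α, β, rfl⟩ := (h.mem_idl ⟨e', he'⟩).1 hz3
  obtain ⟨z4, hz4, e4⟩ := hI _ (w_mem a c)
  obtain ⟨γ', δ, rfl⟩ := (h.mem_idl ⟨e', he'⟩).1 hz4
  set p : ℤ := u * c + v * N * a with hp
  set q : ℤ := -(u * a + v * e) with hq
  have e2' : y * (N * a' + s) = x * (p * (N * a + s) + N * q * c) := by
    rw [hp, hq]
    push_cast
    linear_combination s * e2 + (y * a' + x * v) * h.sq' - (x * v * N) * heO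
  -- the two matrices are inverse to each other
  have f1 := h.int_ext ((α * t + β * (N * q)) * c + N * a * (α * r + β * p)) (α * r + β * p) c 0
    (by
      apply mul_left_cancel₀ hx
      push_cast
      linear_combination -e3 - (α : 𝓞 K) * e1 - (β : 𝓞 K) * e2')
  have f2 := h.int_ext ((γ' * t + δ * (N * q)) * c + N * a * (γ' * r + δ * p)) (γ' * r + δ * p)
    (N * a) 1
    (by
      apply mul_left_cancel₀ hx
      push_cast
      linear_combination -e4 - (γ' : 𝓞 K) * e1 - (δ : 𝓞 K) * e2')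
  obtain ⟨f3, f4⟩ := f1
  obtain ⟨f5, f6⟩ := f2
  have f7 : α * t + β * (N * q) = 1 := by
    rw [f4] at f3
    have : (α * t + β * (N * q) - 1) * c = 0 := by linarith
    have := (mul_eq_zero.1 this).resolve_right hc.ne'
    linarith
  have f8 : γ' * t + δ * (N * q) = 0 := by
    rw [f6] at f5
    have : (γ' * t + δ * (N * q)) * c = 0 := by linarith
    exact (mul_eq_zero.1 this).resolve_right hc.ne'
  have hunit : (p * t - q * (N * r)) * (α * δ - β * γ') = 1 := by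
    linear_combination (γ' * r + δ * p) * f7 + f6 - (α * r + β * p) * f8
  -- the relation between the points
  have hσx : σ (x : K) ≠ 0 := by
    rw [Ne, map_eq_zero]
    exact_mod_cast hx
  have g1 : σ (y : K) * (c' : ℂ) = σ (x : K) * (t * c + r * (N * a + rt N)) := by
    have := congrArg (fun z : 𝓞 K => σ (z : K)) e1
    simpa [hσ] using this
  have g2 : σ (y : K) * (N * a' + rt N) = σ (x : K) * (p * (N * a + rt N) + N * q * c) := by
    have := congrArg (fun z : 𝓞 K => σ (z : K)) e2'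
    simpa [hσ] using this
  set τ : ℂ := (tau N a c : ℂ) with hτ
  set τ' : ℂ := (tau N a' c' : ℂ) with hτ'
  have m1 : (N : ℂ) * c * τ = N * a + rt N := mul_tau hN a hc
  have m2 : (N : ℂ) * c' * τ' = N * a' + rt N := mul_tau hN a' hc'
  have hNC : (N : ℂ) ≠ 0 := by exact_mod_cast hN.ne'
  have hcC : (c : ℂ) ≠ 0 := by exact_mod_cast hc.ne'
  have key : (p : ℂ) * τ + q = τ' * ((N * r : ℂ) * τ + t) := by
    rw [← m1] at g1 g2
    rw [← m2] at g2
    have : σ (x : K) * (N * c) * ((p : ℂ) * τ + q) =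
        σ (x : K) * (N * c) * (τ' * ((N * r : ℂ) * τ + t)) := by
      linear_combination -g2 + N * τ' * g1
    exact mul_left_cancel₀ (mul_ne_zero hσx (mul_ne_zero hNC hcC)) this
  have him : 0 < τ.im := (tau N a c).im_pos
  have him' : 0 < τ'.im := (tau N a' c').im_pos
  have hpos : 0 ≤ p * t - q * (N * r) := by
    have h1 : ((p * t - q * (N * r) : ℤ) : ℝ) * τ.im =
        τ'.im * Complex.normSq ((N * r : ℂ) * τ + t) := by
      have h2 : (((p : ℂ) * τ + q) * (starRingEnd ℂ) ((N * r : ℂ) * τ + t)).im =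
          ((p * t - q * (N * r) : ℤ) : ℝ) * τ.im := by
        simp [Complex.mul_im, Complex.mul_re]
        ring
      rw [← h2, key, mul_assoc, Complex.mul_conj]
      simp
    have h3 : 0 ≤ ((p * t - q * (N * r) : ℤ) : ℝ) * τ.im := by
      rw [h1]; exact mul_nonneg him'.le (Complex.normSq_nonneg _)
    have h4 := nonneg_of_mul_nonneg_left h3 him
    exact_mod_cast h4
  have hdet : p * t - q * (N * r) = 1 := by
    rcases Int.eq_one_or_neg_one_of_mul_eq_one hunit with h1 | h1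
    · exact h1
    · rw [h1] at hpos; norm_num at hpos
  refine ⟨⟨!![p, q; N * r, t], by rw [Matrix.det_fin_two_of]; exact hdet⟩, ?_, ?_⟩
  · rw [Gamma0_mem]
    simp
  · rw [smul_eq_iff]
    simpa using key

end IsQF

end Fermat.Agent.LTF.QuadInt
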