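import Mathlib

/-!
# The `m`-part of `𝔽₂[Cl]` (pure algebra)

`G` a finite commutative group with a character `ψ : G →* Multiplicative (ZMod 3)`.
On `G → ZMod 2` we have the operators `T c = R c + R c⁻¹`.  The generalised eigenspace
of the system `c ↦ a c` (`a c = 0` if `ψ c = 1`, `a c = 1` otherwise) has at least
`2 ^ (2 * h₂)` elements, where `h₂` is the order of the `2`-part of `G`.
-/

namespace Fermat.Agent.LTF.ClassAlg

open Multiplicative

/-! ## the representation of `ℤ/3` on `𝔽₂²` -/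

/-- the plane `𝔽₂²`, as the space of functions on `ℤ/3` with sum zero -/
abbrev Pl := ZMod 2 × ZMod 2

/-- coordinates -/
def L (i : ZMod 3) (w : Pl) : ZMod 2 :=
  if i = 0 then w.1 else if i = 1 then w.2 else w.1 + w.2

/-- the action of `ℤ/3` -/
def M (i : ZMod 3) (w : Pl) : Pl := (L i w, L (i + 1) w)

lemma L_add (i j : ZMod 3) (w : Pl) : L (i + j) w = L j (M i w) := by
  revert i j w; decide

lemma L_add' (i : ZMod 3) (w w' : Pl) : L i (w + w') = L i w + L i w' := by
  revert i w w'; decide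

lemma M_add' (i : ZMod 3) (w w' : Pl) : M i (w + w') = M i w + M i w' := by
  simp [M, L_add']

lemma M_add (i j : ZMod 3) (w : Pl) : M (i + j) w = M j (M i w) := by
  revert i j w; decide

lemma M_zero (w : Pl) : M 0 w = w := by
  revert w; decide

lemma L_zero (w : Pl) : L 0 w = w.1 := rfl

lemma L_one (w : Pl) : L 1 w = w.2 := by
  revert w; decide

/-- `a i = M i + M (-i)` is a scalar -/
def a (i : ZMod 3) : ZMod 2 := if i = 0 then 0 else 1

lemma M_add_neg (i : ZMod 3) (w : Pl) : M i w + M (-i) w = a i • w := by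
  revert i w; decide

lemma L_smul (i : ZMod 3) (c : ZMod 2) (w : Pl) : L i (c • w) = c * L i w := by
  revert i c w; decide

variable {G : Type*} [CommGroup G] [Finite G]

set_option linter.unusedSectionVars false

/-! ## translations -/

/-- translation operators on functions -/
def R (c : G) : Module.End (ZMod 2) (G → ZMod 2) where
  toFun f g := f (c * g)
  map_add' _ _ := rfl
  map_smul' _ _ := rfl

lemma R_apply (c : G) (f : G → ZMod 2) (g : G) : R c f g = f (c * g) := rfl

lemma R_mul (c d : G) : R (c * d) = R c * R d := by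
  ext f g
  simp [R_apply, mul_comm, mul_left_comm]

lemma R_one : R (1 : G) = 1 := by
  ext f g
  simp [R_apply]

lemma R_pow (c : G) (n : ℕ) : R (c ^ n) = R c ^ n := by
  induction n with
  | zero => simp [R_one]
  | succ n ih => rw [pow_succ, R_mul, ih, pow_succ]

/-- the operator `T c = R c + R c⁻¹` -/
def T (c : G) : Module.End (ZMod 2) (G → ZMod 2) := R c + R c⁻¹

lemma T_apply (c : G) (f : G → ZMod 2) (g : G) : T c f g = f (c * g) + f (c⁻¹ * g) := rfl

lemma R_commute (c d : G) : Commute (R c) (R d) := by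
  rw [Commute, SemiconjBy, ← R_mul, ← R_mul, mul_comm]

lemma T_commute (c d : G) : Commute (T c) (T d) :=
  ((R_commute _ _).add_right (R_commute _ _)).add_left
    ((R_commute _ _).add_right (R_commute _ _))

lemma charP_end : CharP (Module.End (ZMod 2) (G → ZMod 2)) 2 := by
  have : Nontrivial (Module.End (ZMod 2) (G → ZMod 2)) := by
    refine ⟨⟨0, 1, fun h => ?_⟩⟩
    have := congrArg (fun φ : Module.End (ZMod 2) (G → ZMod 2) => φ (fun _ => 1) 1) h
    simp at this
  exact charP_of_injective_algebraMap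
    (algebraMap (ZMod 2) (Module.End (ZMod 2) (G → ZMod 2))).injective 2

lemma T_pow (c : G) (k : ℕ) : T c ^ 2 ^ k = T (c ^ 2 ^ k) := by
  have := charP_end (G := G)
  rw [T, add_pow_char_pow_of_commute _ _ (R_commute c c⁻¹), ← R_pow, ← R_pow, T, inv_pow]

/-! ## the two-part -/

/-- the order of the `2`-part -/
noncomputable def h₂ (G : Type*) : ℕ := 2 ^ (Nat.card G).factorization 2

/-- an exponent projecting onto the two-part -/
lemma exists_exp (G : Type*) [CommGroup G] [Finite G] :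
    ∃ e : ℕ, e ≡ 1 [MOD h₂ G] ∧ e ≡ 0 [MOD (Nat.card G / h₂ G)] := by
  have hG : Nat.card G ≠ 0 := Nat.card_pos.ne'
  have hcop : Nat.Coprime (h₂ G) (Nat.card G / h₂ G) :=
    Nat.Coprime.pow_left _ (Nat.coprime_ordCompl Nat.prime_two hG)
  exact ⟨_, (Nat.chineseRemainder hcop 1 0).2⟩

/-- the exponent -/
noncomputable def ex (G : Type*) [CommGroup G] [Finite G] : ℕ := (exists_exp G).choose

lemma ex_one : ex G ≡ 1 [MOD h₂ G] := (exists_exp G).choose_spec.1

lemma ex_zero : ex G ≡ 0 [MOD (Nat.card G / h₂ G)] := (exists_exp G).choose_spec.2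

lemma h₂_dvd : h₂ G ∣ Nat.card G := Nat.ordProj_dvd _ _

/-- the two-part -/
def Two (G : Type*) [CommGroup G] : Subgroup G where
  carrier := {g | g ^ h₂ G = 1}
  mul_mem' {x y} hx hy := by
    simp only [Set.mem_ofPred_eq] at *
    rw [mul_pow, hx, hy, one_mul]
  one_mem' := by simp
  inv_mem' {x} hx := by
    simp only [Set.mem_ofPred_eq] at *
    rw [inv_pow, hx, inv_one]

lemma mem_Two {g : G} : g ∈ Two G ↔ g ^ h₂ G = 1 := Iff.rfl

/-- projection to the two-part -/
noncomputable def pr : G →* Two G where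
  toFun g := ⟨g ^ ex G, by
    rw [mem_Two, ← pow_mul, ← orderOf_dvd_iff_pow_eq_one]
    have h1 : Nat.card G / h₂ G ∣ ex G := (Nat.modEq_zero_iff_dvd).1 ex_zero
    refine (orderOf_dvd_natCard g).trans ?_
    obtain ⟨c, hc⟩ := h1
    rw [hc]
    refine ⟨c, ?_⟩
    have := Nat.div_mul_cancel (h₂_dvd (G := G))
    calc Nat.card G / h₂ G * c * h₂ G = (Nat.card G / h₂ G * h₂ G) * c := by ring
      _ = _ := by rw [this]⟩
  map_one' := by ext; simp
  map_mul' x y := by ext; simp [mul_pow]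

lemma coe_pr (g : G) : ((pr g : Two G) : G) = g ^ ex G := rfl

lemma pr_coe (s : Two G) : pr (s : G) = s := by
  apply Subtype.ext
  rw [coe_pr]
  have h : (s : G) ^ h₂ G = 1 := s.2
  have hd : orderOf (s : G) ∣ h₂ G := orderOf_dvd_of_pow_eq_one h
  have := (ex_one (G := G)).of_dvd hd
  conv_rhs => rw [← pow_one (s : G)]
  exact pow_eq_pow_iff_modEq.2 this

lemma natCard_Two : Nat.card (Two G) = h₂ G := by
  obtain ⟨P⟩ : Nonempty (Sylow 2 G) := inferInstance
  have hP : Nat.card P = h₂ G := P.card_eq_multiplicity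
  have hle : (P : Subgroup G) ≤ Two G := by
    intro g hg
    rw [mem_Two, ← orderOf_dvd_iff_pow_eq_one, ← hP]
    have := orderOf_dvd_natCard (⟨g, hg⟩ : P)
    rwa [Subgroup.orderOf_mk] at this
  have hp : IsPGroup 2 (Two G) := by
    intro g
    refine ⟨(Nat.card G).factorization 2, ?_⟩
    apply Subtype.ext
    have := g.2
    rw [mem_Two] at this
    simpa [h₂] using this
  have : Two G = (P : Subgroup G) := P.is_maximal' hp hle
  rw [this]
  exact hP

/-! ## the space `W` of functions on the two-part with values in the plane -/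

variable (ψ : G →* Multiplicative (ZMod 3))

/-- the additive version of the character -/
def ps (g : G) : ZMod 3 := toAdd (ψ g)

lemma ps_mul (g h : G) : ps ψ (g * h) = ps ψ g + ps ψ h := by simp [ps]

lemma ps_inv (g : G) : ps ψ g⁻¹ = - ps ψ g := by simp [ps]

lemma ps_pow (g : G) (n : ℕ) : ps ψ (g ^ n) = n * ps ψ g := by simp [ps]

lemma ps_Two (s : Two G) : ps ψ (s : G) = 0 := by
  have h := s.2
  rw [mem_Two] at h
  have h1 := ps_pow ψ (s : G) (h₂ G)
  rw [h] at h1
  have h2 : ps ψ (1 : G) = 0 := by simp [ps]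
  rw [h2] at h1
  have h3 : IsUnit ((h₂ G : ℕ) : ZMod 3) := by
    rw [h₂, Nat.cast_pow]
    exact IsUnit.pow _ (by decide)
  exact (h3.mul_right_eq_zero).1 h1.symm

/-- the embedding of `W = (Two G → Pl)` into `G → ZMod 2` -/
noncomputable def emb : (Two G → Pl) →ₗ[ZMod 2] (G → ZMod 2) where
  toFun w g := L (ps ψ g) (w (pr g))
  map_add' w w' := by
    ext g
    simp [L_add']
  map_smul' c w := by
    ext g
    simp [L_smul]

lemma emb_apply (w : Two G → Pl) (g : G) : emb ψ w g = L (ps ψ g) (w (pr g)) := rfl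

lemma exists_odd (hψ : ψ ≠ 1) : ∃ o : G, ps ψ o = 1 ∧ pr o = 1 := by
  obtain ⟨g, hg⟩ : ∃ g, ψ g ≠ 1 := by
    by_contra hcon
    push Not at hcon
    exact hψ (MonoidHom.ext hcon)
  have hg' : ps ψ g ≠ 0 := by
    intro h
    apply hg
    have : toAdd (ψ g) = toAdd (1 : Multiplicative (ZMod 3)) := h
    exact toAdd.injective this
  obtain ⟨o, ho, ho'⟩ : ∃ o : G, ps ψ o ≠ 0 ∧ pr o = 1 := by
    refine ⟨g * ((pr g : Two G) : G)⁻¹, ?_, ?_⟩
    · rw [ps_mul, ps_inv, ps_Two]
      simpa using hg'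
    · rw [map_mul, map_inv, pr_coe, mul_inv_cancel]
  have h3 : ps ψ o = 1 ∨ ps ψ o = -1 := by
    revert ho
    generalize ps ψ o = x
    revert x
    decide
  rcases h3 with h3 | h3
  · exact ⟨o, h3, ho'⟩
  · exact ⟨o⁻¹, by rw [ps_inv, h3, neg_neg], by rw [map_inv, ho', inv_one]⟩

lemma emb_injective (hψ : ψ ≠ 1) : Function.Injective (emb ψ) := by
  rw [injective_iff_map_eq_zero]
  intro w hw
  obtain ⟨o, ho, ho'⟩ := exists_odd ψ hψ
  funext s
  have h1 := congrFun hw (s : G)
  have h2 := congrFun hw ((s : G) * o)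
  rw [emb_apply, ps_Two, pr_coe, L_zero] at h1
  rw [emb_apply, ps_mul, ps_Two, ho, map_mul, pr_coe, ho', mul_one, zero_add, L_one] at h2
  exact Prod.ext h1 h2

/-- the subspace `E` -/
noncomputable def E : Submodule (ZMod 2) (G → ZMod 2) := LinearMap.range (emb ψ)

lemma natCard_E (hψ : ψ ≠ 1) : Nat.card (E ψ) = 2 ^ (2 * h₂ G) := by
  have h1 : Nat.card (E ψ) = Nat.card (Two G → Pl) :=
    (Nat.card_congr (LinearEquiv.ofInjective (emb ψ) (emb_injective ψ hψ)).toEquiv).symm
  rw [h1, Nat.card_fun, natCard_Two, Nat.card_prod, Nat.card_zmod, pow_mul, sq]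

lemma R_emb (c : G) (w : Two G → Pl) :
    R c (emb ψ w) = emb ψ (fun s => M (ps ψ c) (w (pr c * s))) := by
  ext g
  rw [R_apply, emb_apply, emb_apply, ps_mul, map_mul, L_add]

lemma R_mem (c : G) {f : G → ZMod 2} (hf : f ∈ E ψ) : R c f ∈ E ψ := by
  obtain ⟨w, rfl⟩ := hf
  rw [R_emb]
  exact ⟨_, rfl⟩

/-- `E` is stable under the operators -/
lemma T_mem (c : G) {f : G → ZMod 2} (hf : f ∈ E ψ) : T c f ∈ E ψ :=
  (E ψ).add_mem (R_mem ψ c hf) (R_mem ψ c⁻¹ hf)

/-- the eigenvalue attached to `c` -/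
def ev (c : G) : ZMod 2 := a (ps ψ c)

lemma a_two_mul (i : ZMod 3) : a (2 * i) = a i := by
  revert i; decide

lemma ev_pow (c : G) (k : ℕ) : ev ψ (c ^ 2 ^ k) = ev ψ c := by
  induction k with
  | zero => simp
  | succ k ih =>
    rw [pow_succ, pow_mul, ← ih]
    unfold ev
    rw [ps_pow _ (c ^ 2 ^ k)]
    exact a_two_mul _

lemma T_emb_of_pr {c : G} (hc : pr c = 1) (w : Two G → Pl) :
    T c (emb ψ w) = ev ψ c • emb ψ w := by
  have h1 : T c (emb ψ w) = R c (emb ψ w) + R c⁻¹ (emb ψ w) := rfl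
  rw [h1, R_emb, R_emb, ← map_add, ← map_smul]
  congr 1
  funext s
  rw [Pi.add_apply, Pi.smul_apply, map_inv, hc, ps_inv, inv_one, one_mul]
  exact M_add_neg _ _

lemma pr_pow (c : G) {k : ℕ} (hk : (Nat.card G).factorization 2 ≤ k) :
    pr (c ^ 2 ^ k) = 1 := by
  rw [map_pow]
  obtain ⟨j, rfl⟩ := Nat.exists_eq_add_of_le hk
  rw [pow_add, pow_mul]
  have : pr c ^ 2 ^ (Nat.card G).factorization 2 = 1 := by
    apply Subtype.ext
    exact (pr c).2
  rw [this, one_pow]

/-- `(T c - a c) ^ (2 ^ k) = 0` on `E` -/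
theorem T_sub_pow (c : G) {k : ℕ} (hk : (Nat.card G).factorization 2 ≤ k)
    {f : G → ZMod 2} (hf : f ∈ E ψ) :
    ((T c - algebraMap (ZMod 2) (Module.End (ZMod 2) (G → ZMod 2)) (ev ψ c)) ^ 2 ^ k :
      Module.End (ZMod 2) (G → ZMod 2)) f = 0 := by
  have := charP_end (G := G)
  obtain ⟨w, rfl⟩ := hf
  have hcomm : Commute (T c) (algebraMap (ZMod 2) (Module.End (ZMod 2) (G → ZMod 2)) (ev ψ c)) :=
    (Algebra.commutes _ _).symm
  rw [sub_pow_char_pow_of_commute _ _ hcomm, T_pow, ← map_pow, LinearMap.sub_apply,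
    T_emb_of_pr ψ (pr_pow c hk), ev_pow]
  have h2 : ev ψ c ^ 2 ^ k = ev ψ c := by
    generalize ev ψ c = x
    have hx : ∀ y : ZMod 2, y ^ 2 = y := by decide
    clear hk hcomm
    induction k with
    | zero => simp
    | succ k ih => rw [pow_succ, pow_mul, ih, hx]
  rw [h2, Module.algebraMap_end_apply, sub_self]

/-! ## the group algebra version -/

open MonoidAlgebra

/-- the coefficient function -/
def cf (f : MonoidAlgebra (ZMod 2) G) : G → ZMod 2 := fun g => f.coeff g

lemma cf_add (f f' : MonoidAlgebra (ZMod 2) G) : cf (f + f') = cf f + cf f' := rfl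

lemma cf_smul (r : ZMod 2) (f : MonoidAlgebra (ZMod 2) G) : cf (r • f) = r • cf f := rfl

lemma cf_zero : cf (0 : MonoidAlgebra (ZMod 2) G) = 0 := rfl

lemma cf_injective : Function.Injective (cf : MonoidAlgebra (ZMod 2) G → G → ZMod 2) := by
  intro f f' h
  apply MonoidAlgebra.coeff_injective
  ext g
  exact congrFun h g

/-- the operator attached to `c` as an element of the group algebra -/
noncomputable def TA (c : G) : MonoidAlgebra (ZMod 2) G := single c 1 + single c⁻¹ 1

lemma cf_single_mul (c : G) (f : MonoidAlgebra (ZMod 2) G) :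
    cf (single c 1 * f) = R c⁻¹ (cf f) := by
  ext g
  change (single c 1 * f).coeff g = _
  rw [MonoidAlgebra.coeff_single_mul_apply, one_mul, R_apply]
  rfl

lemma cf_TA_mul (c : G) (f : MonoidAlgebra (ZMod 2) G) :
    cf (TA c * f) = T c (cf f) := by
  rw [TA, add_mul, cf_add, cf_single_mul, cf_single_mul, inv_inv, add_comm]
  rfl

lemma cf_C_mul (r : ZMod 2) (f : MonoidAlgebra (ZMod 2) G) :
    cf (algebraMap (ZMod 2) _ r * f) = r • cf f := by
  rw [← Algebra.smul_def]
  rfl

/-- the ideal `E` of the group algebra -/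
noncomputable def EA : Ideal (MonoidAlgebra (ZMod 2) G) where
  carrier := {f | cf f ∈ E ψ}
  add_mem' {x y} hx hy := (E ψ).add_mem hx hy
  zero_mem' := (E ψ).zero_mem
  smul_mem' c x hx := by
    change cf (c * x) ∈ E ψ
    induction c using MonoidAlgebra.induction_on with
    | of g =>
      rw [MonoidAlgebra.of_apply, cf_single_mul]
      exact R_mem ψ _ hx
    | add a b ha hb =>
      rw [add_mul, cf_add]
      exact (E ψ).add_mem ha hb
    | smul r a ha =>
      rw [smul_mul_assoc, cf_smul]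
      exact (E ψ).smul_mem r ha

lemma mem_EA {f : MonoidAlgebra (ZMod 2) G} : f ∈ EA ψ ↔ cf f ∈ E ψ := Iff.rfl

theorem natCard_EA (hψ : ψ ≠ 1) : Nat.card (EA ψ) = 2 ^ (2 * h₂ G) := by
  rw [← natCard_E ψ hψ]
  refine Nat.card_congr
    { toFun := fun x => ⟨cf x, x.2⟩
      invFun := fun x => ⟨ofCoeff (Finsupp.equivFunOnFinite.symm (x : G → ZMod 2)), x.2⟩
      left_inv := fun x => ?_
      right_inv := fun x => ?_ }
  · apply Subtype.ext
    apply cf_injective
    rfl
  · apply Subtype.ext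
    rfl

theorem TA_sub_pow (c : G) {k : ℕ} (hk : (Nat.card G).factorization 2 ≤ k)
    {f : MonoidAlgebra (ZMod 2) G} (hf : f ∈ EA ψ) :
    (TA c - algebraMap (ZMod 2) _ (ev ψ c)) ^ 2 ^ k * f = 0 := by
  apply cf_injective
  have key : ∀ n : ℕ, ∀ f : MonoidAlgebra (ZMod 2) G,
      cf ((TA c - algebraMap (ZMod 2) _ (ev ψ c)) ^ n * f) =
        ((T c - algebraMap (ZMod 2) (Module.End (ZMod 2) (G → ZMod 2)) (ev ψ c)) ^ n :
          Module.End (ZMod 2) (G → ZMod 2)) (cf f) := by
    intro n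
    induction n with
    | zero => intro f; simp
    | succ n ih =>
      intro f
      rw [pow_succ, mul_assoc, ih, pow_succ, Module.End.mul_apply]
      congr 1
      rw [sub_mul, LinearMap.sub_apply, Module.algebraMap_end_apply, ← cf_TA_mul, ← cf_C_mul]
      rfl
  rw [key, T_sub_pow ψ c hk hf]
  rfl

/-- a commutative ring `Rr` acting through the group algebra, `𝔪` generated by elements acting
as `T c - a c` or as `0`: then some power of `𝔪` kills `E`. -/
theorem exists_pow_smul_eq_zero {Rr : Type*} [CommRing Rr]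
    (φ : Rr →+* MonoidAlgebra (ZMod 2) G) (𝔪 : Ideal Rr) (gen : Set Rr)
    (hgen : 𝔪 ≤ Ideal.span gen)
    (h : ∀ r ∈ gen, φ r = 0 ∨ ∃ c : G, φ r = TA c - algebraMap (ZMod 2) _ (ev ψ c)) :
    ∃ j : ℕ, ∀ r ∈ 𝔪 ^ j, ∀ f ∈ EA ψ, φ r * f = 0 := by
  let I : Ideal (MonoidAlgebra (ZMod 2) G) := Module.annihilator _ (EA ψ)
  have hI : ∀ x, x ∈ I ↔ ∀ f ∈ EA ψ, x * f = 0 := by
    intro x
    rw [Module.mem_annihilator]
    constructor
    · intro hx f hf
      exact congrArg Subtype.val (hx ⟨f, hf⟩)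
    · intro hx f
      exact Subtype.ext (hx f f.2)
  have : Finite (MonoidAlgebra (ZMod 2) G) := Finite.of_injective cf cf_injective
  have h1 : 𝔪.map φ ≤ I.radical := by
    refine (Ideal.map_mono hgen).trans ?_
    rw [Ideal.map_span, Ideal.span_le]
    rintro _ ⟨r, hr, rfl⟩
    rcases h r hr with h0 | ⟨c, hc⟩
    · rw [h0]
      exact Ideal.zero_mem _
    · refine ⟨2 ^ (Nat.card G).factorization 2, ?_⟩
      rw [hI, hc]
      intro f hf
      exact TA_sub_pow ψ c le_rfl hf
  obtain ⟨j, hj⟩ := Ideal.exists_pow_le_of_le_radical_of_fg h1 (IsNoetherian.noetherian _)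
  refine ⟨j, fun r hr f hf => ?_⟩
  refine (hI _).1 (hj ?_) f hf
  rw [← Ideal.map_pow]
  exact Ideal.mem_map_of_mem φ hr

end Fermat.Agent.LTF.ClassAlg
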