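import Fermat.Agent.LTF.Smith
import Fermat.Agent.QX4.Commute
import Fermat.Agent.HeckeComm.Galois
import Fermat.Agent.Mazur.CuspHecke
import Fermat.Agent.S37aux.RI
import Fermat.Agent.Cofaith.Finite

/-!
# Smith theory on `J₀(mq)` for the Atkin--Lehner involution `w_q`, `q` an exact divisor
-/

set_option autoImplicit false

noncomputable section

open ModularCurve AlgebraicCurve IntermediateField Fermat.Agent.TEll Fermat.Agent.X0Emb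
open Fermat.Agent.RR (div div_apply)

namespace Fermat.Agent.LTF.Smith

variable {m q : ℕ} [NeZero m] [NeZero q]

/-- the Atkin--Lehner involution `w_q` of the function field of `X₀(mq)`, `(q, m) = 1`. -/
def wC (hqm : Nat.Coprime q m) : modularFunctionFieldBar (m * q) ≃ₐ[AlgebraicClosure ℚ]
    modularFunctionFieldBar (m * q) := swapEquiv iota hqm

theorem wC_wC (hqm : Nat.Coprime q m) (f : modularFunctionFieldBar (m * q)) :
    wC hqm (wC hqm f) = f := swapHom_swapHom iota hqm f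

theorem wC_ne_refl (hqm : Nat.Coprime q m) (hq : 1 < q) : wC hqm ≠ AlgEquiv.refl := by
  intro h
  have h1 := swapHom_alpha iota hqm ⟨coeffEmb _ jq, coeffEmb_jq_mem⟩
  have h2 : wC hqm (heckeAlphaBar (AlgebraicClosure ℚ) m q ⟨coeffEmb _ jq, coeffEmb_jq_mem⟩) =
      heckeAlphaBar (AlgebraicClosure ℚ) m q ⟨coeffEmb _ jq, coeffEmb_jq_mem⟩ := by rw [h]; rfl
  have h3 : heckeAlphaBar (AlgebraicClosure ℚ) m q ⟨coeffEmb _ jq, coeffEmb_jq_mem⟩ =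
      heckeBetaBar (AlgebraicClosure ℚ) m q ⟨coeffEmb _ jq, coeffEmb_jq_mem⟩ :=
    h2.symm.trans h1
  have h4 := congrArg Subtype.val h3
  rw [coe_heckeAlphaBar, coe_heckeBetaBar] at h4
  have h5 := congrArg (fun x : LaurentSeries (AlgebraicClosure ℚ) => x.coeff (-1)) h4
  simp only at h5
  rw [coeffEmb_jq_coeff_neg_one, qExpand_coeff_of_not_dvd] at h5
  · exact one_ne_zero h5
  · rw [Int.dvd_neg]
    intro h
    have := Int.natCast_dvd_natCast.mp (by simpa using h : ((q : ℕ) : ℤ) ∣ ((1 : ℕ) : ℤ))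
    exact hq.ne' (Nat.dvd_one.mp this)

variable {ℓ : ℕ} [NeZero ℓ]

theorem heckeDiv_smul_wC (hqm : Nat.Coprime q m) (hqℓ : Nat.Coprime q ℓ)
    (D : Divisor (AlgebraicClosure ℚ) (modularFunctionFieldBar (m * q))) :
    heckeDiv (m * q) ℓ (SemilinearAut.ofAlgAut (wC hqm) • D) =
      SemilinearAut.ofAlgAut (wC hqm) • heckeDiv (m * q) ℓ D :=
  HeckeComm.correspondence_smul _ _ (intBeta (m * q) ℓ) (intAlpha (m * q) ℓ) (finAlpha (m * q) ℓ)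
    (nfAlpha (m * q) ℓ) (SemilinearAut.ofAlgAut (wC hqm))
    (SemilinearAut.ofAlgAut (QX4.bigSwap iota hqm hqℓ))
    (fun x => QX4.bigSwap_beta iota hqm hqℓ x) (fun x => QX4.bigSwap_alpha iota hqm hqℓ x) D

theorem TEll_neg (hℓ : ℓ.Prime) (hℓ2 : ℓ ≠ 2) {N : ℕ} [NeZero N] (hN : ¬ ℓ ∣ N)
    (f : modularFunctionFieldBar N) :
    TEll (AlgebraicClosure ℚ) N ℓ (-f) = TEll (AlgebraicClosure ℚ) N ℓ f := by
  have h1 : TEll (AlgebraicClosure ℚ) N ℓ (-1) = 1 := by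
    rw [TEll_apply, map_neg, map_one]
    have h2 : (-1 : modularFunctionFieldBar (N * ℓ)) =
        heckeAlphaBar (AlgebraicClosure ℚ) N ℓ (-1) := by rw [map_neg, map_one]
    rw [h2, normAlong_algebraMap, finrankAlong_alpha N ℓ hℓ hN, Even.neg_one_pow]
    exact (hℓ.odd_of_ne_two hℓ2).add_one
  rw [← neg_one_mul, map_mul, h1, one_mul]

/-- `T_ℓ` as an even correspondence commuting with `w_q`. -/
def evenHecke (hqm : Nat.Coprime q m) (hℓ : ℓ.Prime) (hℓ2 : ℓ ≠ 2) (hℓm : ¬ ℓ ∣ m * q) :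
    EvenCorr (wC hqm) where
  T := heckeDiv (m * q) ℓ
  τ := TEll (AlgebraicClosure ℚ) (m * q) ℓ
  τ_ne _ hf := TEll_ne_zero _ _ _ (finAlpha _ _) hf
  T_div _ hf := heckeDiv_div hf
  T_smul D := heckeDiv_smul_wC hqm
    ((Nat.Prime.coprime_iff_not_dvd hℓ).mpr fun h => hℓm (h.mul_left m)).symm D
  τ_w f _ := QX4.TEll_swap iota hqm
    ((Nat.Prime.coprime_iff_not_dvd hℓ).mpr fun h => hℓm (h.mul_left m)).symm f
  τ_neg f _ := TEll_neg hℓ hℓ2 hℓm f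
  c := (((ℓ + 1) / 2 : ℕ) : ℤ)
  degree_T D := by
    rw [degree_heckeDiv, MazurCusp.finrankAlong_beta _ _ hℓ hℓm]
    congr 1
    have h := (hℓ.odd_of_ne_two hℓ2).add_one
    obtain ⟨k, hk⟩ := h
    rw [hk]
    omega

theorem evenHecke_pic (hqm : Nat.Coprime q m) (hℓ : ℓ.Prime) (hℓ2 : ℓ ≠ 2) (hℓm : ¬ ℓ ∣ m * q)
    (x : JZero (m * q)) :
    (evenHecke hqm hℓ hℓ2 hℓm).pic x = heckeOperatorBar (m * q) ⟨ℓ, hℓ⟩ x := by
  obtain ⟨D, rfl⟩ := Pic0.mk_surjective x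
  obtain ⟨D', hD', h⟩ := heckeOperatorBar_mk ⟨ℓ, hℓ⟩ D
  rw [h]
  obtain ⟨D, hD⟩ := D
  rw [EvenCorr.pic_mk]
  congr 1
  exact Subtype.ext hD'.symm

section module

open Fermat.Agent.GalRep

variable (M : ℕ) [NeZero M] (S : Set ℕ)

/-- The anemic Hecke ring acts on `J₀(M)`. -/
@[reducible] def modS : Module (HeckeAlgS S) (JZero M) :=
  letI := heckeModuleBar M
  Module.compHom (JZero M) (inclS S).toRingHom

theorem X_smul (ℓ : {ℓ : Nat.Primes // (ℓ : ℕ) ∉ S}) (x : JZero M) :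
    letI := modS M S
    (MvPolynomial.X ℓ : HeckeAlgS S) • x = heckeOperatorBar M ℓ.1 x := by
  have h : inclS S (MvPolynomial.X ℓ) = heckeGen ℓ.1 := by
    rw [inclS, MvPolynomial.rename_X]; rfl
  exact (congrArg (fun t => letI := heckeModuleBar M; t • x) h).trans
    (heckeModuleBar_heckeGen_smul (HeckeComm.heckeOperatorsCommuteBar M) ℓ.1 x)

end module

section final

open Fermat.Agent.GalRep

variable {m q : ℕ} [NeZero m] [NeZero q] (hqm : Nat.Coprime q m) {S : Set ℕ}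

/-- `T_ℓ`, `ℓ ∉ S`, as an even correspondence. -/
def evenS (hS : ∀ ℓ : ℕ, ℓ.Prime → ℓ ∣ m * q → ℓ ∈ S) (h2 : 2 ∈ S)
    (ℓ : {ℓ : Nat.Primes // (ℓ : ℕ) ∉ S}) : EvenCorr (wC hqm) :=
  haveI : NeZero (ℓ.1 : ℕ) := ⟨ℓ.1.2.ne_zero⟩
  evenHecke hqm (ℓ := ℓ.1) ℓ.1.2 (fun h => ℓ.2 (h ▸ h2)) (fun h => ℓ.2 (hS _ ℓ.1.2 h))

theorem evenS_T (hS : ∀ ℓ : ℕ, ℓ.Prime → ℓ ∣ m * q → ℓ ∈ S) (h2 : 2 ∈ S)
    (ℓ : {ℓ : Nat.Primes // (ℓ : ℕ) ∉ S}) :
    (evenS hqm hS h2 ℓ).T =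
      (haveI : NeZero (ℓ.1 : ℕ) := ⟨ℓ.1.2.ne_zero⟩; heckeDiv (m * q) ℓ.1) := rfl

theorem evenS_pic (hS : ∀ ℓ : ℕ, ℓ.Prime → ℓ ∣ m * q → ℓ ∈ S) (h2 : 2 ∈ S)
    (ℓ : {ℓ : Nat.Primes // (ℓ : ℕ) ∉ S}) (x : JZero (m * q)) :
    letI := modS (m * q) S
    (MvPolynomial.X ℓ : HeckeAlgS S) • x = (evenS hqm hS h2 ℓ).pic x := by
  letI := modS (m * q) S
  haveI : NeZero (ℓ.1 : ℕ) := ⟨ℓ.1.2.ne_zero⟩
  rw [X_smul]
  exact (evenHecke_pic hqm (ℓ := ℓ.1) ℓ.1.2 (fun h => ℓ.2 (h ▸ h2))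
    (fun h => ℓ.2 (hS _ ℓ.1.2 h)) x).symm

theorem smul_X_comm (hS : ∀ ℓ : ℕ, ℓ.Prime → ℓ ∣ m * q → ℓ ∈ S) (h2 : 2 ∈ S)
    (ℓ : {ℓ : Nat.Primes // (ℓ : ℕ) ∉ S}) (x : JZero (m * q)) :
    letI := modS (m * q) S
    SemilinearAut.ofAlgAut (wC hqm) • (MvPolynomial.X ℓ : HeckeAlgS S) • x =
      (MvPolynomial.X ℓ : HeckeAlgS S) • SemilinearAut.ofAlgAut (wC hqm) • x :=
  (congrArg (fun y : JZero (m * q) => SemilinearAut.ofAlgAut (wC hqm) • y)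
    (evenS_pic hqm hS h2 ℓ x)).trans
    (((evenS hqm hS h2 ℓ).pic_smul x).symm.trans
      (evenS_pic hqm hS h2 ℓ (SemilinearAut.ofAlgAut (wC hqm) • x)).symm)

theorem smul_comm_wC (hS : ∀ ℓ : ℕ, ℓ.Prime → ℓ ∣ m * q → ℓ ∈ S) (h2 : 2 ∈ S)
    (r : HeckeAlgS S) (x : JZero (m * q)) :
    letI := modS (m * q) S
    SemilinearAut.ofAlgAut (wC hqm) • r • x = r • SemilinearAut.ofAlgAut (wC hqm) • x := by
  letI := modS (m * q) S
  let φ : JZero (m * q) →+ JZero (m * q) :=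
    DistribSMul.toAddMonoidHom (JZero (m * q)) (SemilinearAut.ofAlgAut (wC hqm))
  have hX : ∀ (ℓ : {ℓ : Nat.Primes // (ℓ : ℕ) ∉ S}) (y : JZero (m * q)),
      φ ((MvPolynomial.X ℓ : HeckeAlgS S) • y) = (MvPolynomial.X ℓ : HeckeAlgS S) • φ y :=
    fun ℓ y => smul_X_comm hqm hS h2 ℓ y
  change φ (r • x) = r • φ x
  clear_value φ
  induction r using MvPolynomial.induction_on generalizing x with
  | C a =>
    have h1 : (MvPolynomial.C a : HeckeAlgS S) = ((a : ℤ) : HeckeAlgS S) :=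
      eq_intCast (MvPolynomial.C : ℤ →+* HeckeAlgS S) a
    rw [h1, Int.cast_smul_eq_zsmul, Int.cast_smul_eq_zsmul, map_zsmul]
  | add p q hp hq => rw [add_smul, map_add, hp, hq, add_smul]
  | mul_X p ℓ hp => rw [mul_smul, hp, mul_smul, hX]

/-- `w_q` on `J₀(mq)`. -/
def wLin (hS : ∀ ℓ : ℕ, ℓ.Prime → ℓ ∣ m * q → ℓ ∈ S) (h2 : 2 ∈ S) :
    letI := modS (m * q) S
    JZero (m * q) →ₗ[HeckeAlgS S] JZero (m * q) :=
  letI := modS (m * q) S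
  { toFun := fun x => SemilinearAut.ofAlgAut (wC hqm) • x
    map_add' := fun x y => smul_add _ x y
    map_smul' := fun r x => smul_comm_wC hqm hS h2 r x }

theorem wLin_apply (hS : ∀ ℓ : ℕ, ℓ.Prime → ℓ ∣ m * q → ℓ ∈ S) (h2 : 2 ∈ S) (x : JZero (m * q)) :
    letI := modS (m * q) S
    wLin hqm hS h2 x = SemilinearAut.ofAlgAut (wC hqm) • x := rfl

theorem two_smul_modS (M : ℕ) [NeZero M] (S : Set ℕ) (x : JZero M) :
    letI := modS M S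
    (2 : HeckeAlgS S) • x = (2 : ℕ) • x := by
  letI := modS M S
  rw [two_smul, two_nsmul]

theorem divS (M : ℕ) [NeZero M] (S : Set ℕ) (x : JZero M) :
    letI := modS M S
    ∃ y : JZero M, (2 : HeckeAlgS S) • y = x := by
  letI := modS M S
  obtain ⟨y, hy⟩ := S37aux.jZero_divisible M 2 two_ne_zero x
  exact ⟨y, by rw [two_smul_modS]; exact hy⟩

theorem torsS_finite (M : ℕ) [NeZero M] (S : Set ℕ) :
    letI := modS M S
    (tors (HeckeAlgS S) (JZero M) 1 : Set (JZero M)).Finite := by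
  letI := modS M S
  refine (Cofaith.finite_torsion_set M two_ne_zero).subset fun x hx => ?_
  have h1 : (2 : HeckeAlgS S) ^ 1 • x = 0 := hx
  rw [pow_one, two_smul_modS] at h1
  exact h1

/-- **Smith theory on `J₀(mq)` without fixed points.** -/
theorem smithJ_eq (hq1 : 1 < q) (hS : ∀ ℓ : ℕ, ℓ.Prime → ℓ ∣ m * q → ℓ ∈ S) (h2 : 2 ∈ S)
    (𝔪 : Ideal (HeckeAlgS S)) [𝔪.IsMaximal] (ℓ₀ : {ℓ : Nat.Primes // (ℓ : ℕ) ∉ S})
    (hℓ₀ : (MvPolynomial.X ℓ₀ : HeckeAlgS S) ∉ 𝔪)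
    (hfix : ∀ v : Place (AlgebraicClosure ℚ) (modularFunctionFieldBar (m * q)),
      SemilinearAut.ofAlgAut (wC hqm) • v ≠ v) :
    letI := modS (m * q) S
    Nat.card (plusPart (wLin hqm hS h2) 𝔪 ⊓ tors (HeckeAlgS S) (JZero (m * q)) 1 :
        Submodule (HeckeAlgS S) (JZero (m * q))) =
      Nat.card (minusPart (wLin hqm hS h2) 𝔪 ⊓ tors (HeckeAlgS S) (JZero (m * q)) 1 :
        Submodule (HeckeAlgS S) (JZero (m * q))) := by
  letI := modS (m * q) S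
  exact smith_eq (K := AlgebraicClosure ℚ) (F := modularFunctionFieldBar (m * q)) (w := wC hqm)
    two_ne_zero (wC_wC hqm) (wC_ne_refl hqm hq1) (fun x => rfl) (divS _ S) (torsS_finite _ S)
    hℓ₀ (evenS hqm hS h2 ℓ₀) (fun x => evenS_pic hqm hS h2 ℓ₀ x) hfix

/-- **Smith theory on `J₀(mq)` with fixed points.** -/
theorem smithJ_le (hq1 : 1 < q) (hS : ∀ ℓ : ℕ, ℓ.Prime → ℓ ∣ m * q → ℓ ∈ S) (h2 : 2 ∈ S)
    (𝔪 : Ideal (HeckeAlgS S)) [𝔪.IsMaximal] (ℓ₀ : {ℓ : Nat.Primes // (ℓ : ℕ) ∉ S})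
    (hℓ₀ : (MvPolynomial.X ℓ₀ : HeckeAlgS S) ∉ 𝔪)
    {V : Type*} [AddCommGroup V] [Module (HeckeAlgS S) V] {j : ℕ}
    (hV : ∀ r ∈ 𝔪 ^ j, ∀ v : V, r • v = 0)
    (ι : V →+ (Place (AlgebraicClosure ℚ) (modularFunctionFieldBar (m * q)) →₀ ZMod 2))
    (hι : Function.Injective ι)
    (hιfix : ∀ x, ∀ v ∈ (ι x).support, SemilinearAut.ofAlgAut (wC hqm) • v = v)
    (hιT : ∀ (ℓ : {ℓ : Nat.Primes // (ℓ : ℕ) ∉ S}) (x : V)
      (D : Divisor (AlgebraicClosure ℚ) (modularFunctionFieldBar (m * q))),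
      SemilinearAut.ofAlgAut (wC hqm) • D = D →
      (∀ v, SemilinearAut.ofAlgAut (wC hqm) • v = v → par D v = ι x v) →
      ∀ v, SemilinearAut.ofAlgAut (wC hqm) • v = v →
        par ((evenS hqm hS h2 ℓ).T D) v = ι ((MvPolynomial.X ℓ : HeckeAlgS S) • x) v) :
    letI := modS (m * q) S
    Nat.card V * Nat.card (plusPart (wLin hqm hS h2) 𝔪 ⊓
        tors (HeckeAlgS S) (JZero (m * q)) 1 : Submodule (HeckeAlgS S) (JZero (m * q))) ≤
      Nat.card (minusPart (wLin hqm hS h2) 𝔪 ⊓ tors (HeckeAlgS S) (JZero (m * q)) 1 :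
        Submodule (HeckeAlgS S) (JZero (m * q))) := by
  letI := modS (m * q) S
  exact smith_le (K := AlgebraicClosure ℚ) (F := modularFunctionFieldBar (m * q)) (w := wC hqm)
    two_ne_zero (wC_wC hqm) (wC_ne_refl hqm hq1) (fun x => rfl) (divS _ S) (torsS_finite _ S)
    (fun ℓ => (MvPolynomial.X ℓ : HeckeAlgS S)) MvPolynomial.adjoin_range_X
    (evenS hqm hS h2) (fun i x => evenS_pic hqm hS h2 i x) ℓ₀ hℓ₀ hV ι hι hιfix hιT

end final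

end Fermat.Agent.LTF.Smith
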