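import Fermat.Agent.LTF.CMHeckeB
import Fermat.Agent.LTF.SmithB
import Fermat.Agent.LTF.CMFix
import Fermat.Agent.LTF.ClassAlg

/-!
# The fixed places of `w_N` on `X₀(N d)`
-/

set_option autoImplicit false
set_option linter.style.haveILetI false
set_option linter.unusedSectionVars false

open UpperHalfPlane Function CongruenceSubgroup ModularForm
open scoped Manifold MatrixGroups IntermediateField NumberField

noncomputable section

namespace Fermat.Agent.LTF.CM

open Fermat.Agent.X0Emb Fermat.Agent.X0Deg AlgebraicCurve Fermat.Agent.HeckePar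
open ModularCurve Fermat.Agent.JLevelOne Fermat.Agent.GalRep Fermat.Agent.HeckeComm
open Fermat.Agent.TriGauss Fermat.Agent.LTF.QuadInt

local notation "KQ" => AlgebraicClosure ℚ

section AL

variable {m q : ℕ} [NeZero m] [NeZero q]

theorem isAtkin_wC (hqm : Nat.Coprime q m) :
    IsAtkin (M := m * q) (Q := q) (m := m) rfl hqm (Smith.wC hqm) where
  jdB d := by
    obtain ⟨d, hd⟩ := d
    obtain ⟨a, b, b', ha, hb, rfl⟩ := exists_factor (N := m * q) (Q := q) (m := m) rfl hd
    have hbq : b ∣ q := Dvd.intro_left b' hb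
    have hb'q : b' ∣ q := Dvd.intro b hb
    have h' : a * b' ∣ m * q := mul_dvd_mul ha hb'q
    rw [swapQ_mul rfl (NeZero.ne q) hqm ha hb hd h']
    let i : TEll.Ix m q := (⟨a, Nat.mem_divisors.mpr ⟨ha, NeZero.ne m⟩⟩,
      ⟨b, Nat.mem_divisors.mpr ⟨hbq, NeZero.ne q⟩⟩)
    have h1 := TEll.swapHom_jser (L := KQ) iota hqm i
    have h2 : TwoGauss.jdB KQ (m * q) ⟨a * b, hd⟩ = ⟨TEll.jser KQ i, TEll.jser_mem KQ i⟩ := rfl
    have hb0 : 0 < b := Nat.pos_of_dvd_of_pos hbq (Nat.pos_of_ne_zero (NeZero.ne q))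
    have h3 : q / b = b' := by rw [← hb, Nat.mul_div_cancel _ hb0]
    have h4 : TwoGauss.jdB KQ (m * q) ⟨a * b', h'⟩ =
        ⟨TEll.jser KQ (TEll.swapIx i), TEll.jser_mem KQ (TEll.swapIx i)⟩ := by
      apply Subtype.ext
      subst h3
      rfl
    rw [h2, h4]
    exact h1
  invol f := Smith.wC_wC hqm f

/-- **`w_N` has no fixed places on `X₀(N d)`** if `d` is divisible by a prime `p` such that `-N` is
not a square modulo `p`. -/
theorem no_fixed_wC (hqm : Nat.Coprime q m) (hq : 4 ≤ q) (hsq : Squarefree q) {p : ℕ}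
    (hp : p ∣ m) (hns : ¬ IsSquare (-(q : ZMod p)))
    (v : Place KQ (modularFunctionFieldBar (m * q))) :
    SemilinearAut.ofAlgAut (Smith.wC hqm) • v ≠ v := by
  intro hfix
  obtain ⟨x, y, h⟩ := exists_bezoutQ hqm
  obtain ⟨τ, k, hv, hτ⟩ := exists_at_fixed (isAtkin_wC hqm) (by omega) hsq x y h hfix
  obtain ⟨x', y', z', t', hdet, hfix'⟩ := (exists_smul_atkG_iff rfl x y h τ).mp hτ
  exact no_fixed hq (Nat.pos_of_ne_zero (NeZero.ne m)) hp hns hdet hfix'

end AL

end Fermat.Agent.LTF.CM
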