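import Fermat.Agent.LTF.CMPull
import Fermat.Agent.TEll.HeckeDiv

/-!
# The Hecke correspondence on places attached to points of the upper half plane
-/

set_option autoImplicit false
set_option linter.style.haveILetI false
set_option linter.unusedSectionVars false

open UpperHalfPlane Function CongruenceSubgroup ModularForm
open scoped Manifold MatrixGroups IntermediateField

noncomputable section

namespace Fermat.Agent.LTF.CM

open Fermat.Agent.X0Emb Fermat.Agent.X0Deg AlgebraicCurve Fermat.Agent.HeckePar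
open ModularCurve Fermat.Agent.JLevelOne Fermat.Agent.GalRep Fermat.Agent.HeckeComm

local notation "KQ" => AlgebraicClosure ℚ

variable {M : ℕ} [NeZero M]

theorem ordAt_prod {ι : Type*} (s : Finset ι) (τ : ℍ) (F : ι → MerH) (hF : ∀ i ∈ s, F i ≠ 0) :
    ordAt τ (∏ i ∈ s, F i) = ∑ i ∈ s, ordAt τ (F i) := by
  classical
  induction s using Finset.induction_on with
  | empty =>
    rw [Finset.prod_empty, Finset.sum_empty]
    have := ordAt_algebraMap τ (f := 1) one_ne_zero
    rw [map_one] at this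
    rw [this]
    have h2 : ordH τ 1 = 0 := ordH_const τ one_ne_zero
    rw [h2]; rfl
  | insert a s ha ih =>
    rw [Finset.prod_insert ha, Finset.sum_insert ha, ordAt_mul τ _ _ (hF a (Finset.mem_insert_self _ _))
      (Finset.prod_ne_zero_iff.mpr fun i hi => hF i (Finset.mem_insert_of_mem hi)),
      ih fun i hi => hF i (Finset.mem_insert_of_mem hi)]

section

variable (ℓ : ℕ) [hℓ : Fact ℓ.Prime]

instance neZero_of_fact_prime : NeZero ℓ := ⟨hℓ.out.ne_zero⟩

variable {ℓ}

theorem em_TEll_coe (hM : ¬ ℓ ∣ M) (a : AA M) :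
    em M (TEll.TEll KQ M ℓ (a : modularFunctionFieldBar M)) =
      algebraMap Hol MerH (∏ x : HIdx M ℓ, pull (hrep ℓ x.1) (hrep_det_pos x.1) (ev M a)) := by
  set y := TEll.TEll KQ M ℓ (a : modularFunctionFieldBar M) with hy
  set P : Hol := ∏ x : HIdx M ℓ, pull (hrep ℓ x.1) (hrep_det_pos x.1) (ev M a) with hP
  have h1 : LExp 1 (P : ℍ → ℂ) (coeffMap iota (y : LaurentSeries KQ)) := by
    have h2 := Fermat.Agent.ModFun.lexp_TEll hM
      (Fermat.Agent.TEll.hasSwap_bar M ℓ ((Nat.Prime.coprime_iff_not_dvd hℓ.out).mpr hM))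
      (Fermat.Agent.TEll.finrankAlong_alpha M ℓ hℓ.out hM) iota (lexp_ev a)
    have h3 : (P : ℍ → ℂ) = (heckeSys M ℓ).mulOp (ev M a : ℍ → ℂ) := by
      rw [hP]
      funext τ
      have h4 : ((∏ x : HIdx M ℓ, pull (hrep ℓ x.1) (hrep_det_pos x.1) (ev M a) : Hol) : ℍ → ℂ) =
          ∏ x : HIdx M ℓ, ((pull (hrep ℓ x.1) (hrep_det_pos x.1) (ev M a) : Hol) : ℍ → ℂ) :=
        map_prod Hol.subtype _ _
      rw [h4, Finset.prod_apply]
      rfl
    rw [h3]
    exact h2
  obtain ⟨c, d, hd, hcd⟩ := (embData M).frac y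
  have hd' : (d : modularFunctionFieldBar M) ≠ 0 := fun h => hd (Subtype.ext h)
  have h5 : P * ev M d = ev M c := by
    refine lexp_hol_unique (h := 1) (G := coeffMap iota (((c : AA M) : modularFunctionFieldBar M) : LaurentSeries KQ)) ?_ (lexp_ev c)
    rw [← hcd]
    have h6 := LExp.mul h1 (lexp_ev d)
    rw [← RingHom.map_mul] at h6
    exact h6
  have h7 : em M y * em M (d : modularFunctionFieldBar M) = em M (c : modularFunctionFieldBar M) := by
    rw [← RingHom.map_mul]
    exact congrArg _ hcd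
  rw [em_coe d, em_coe c, ← h5, map_mul] at h7
  refine mul_right_cancel₀ ?_ h7
  rw [← em_coe d]
  exact em_ne_zero hd'

theorem em_TEll (hM : ¬ ℓ ∣ M) (f : modularFunctionFieldBar M) :
    em M (TEll.TEll KQ M ℓ f) =
      ∏ x : HIdx M ℓ, pullM (hrep ℓ x.1) (hrep_det_pos x.1) (em M f) := by
  have key : ∀ a : AA M, em M (TEll.TEll KQ M ℓ (a : modularFunctionFieldBar M)) =
      ∏ x : HIdx M ℓ, pullM (hrep ℓ x.1) (hrep_det_pos x.1) (em M a) := by
    intro a
    rw [em_TEll_coe hM, map_prod]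
    refine Finset.prod_congr rfl fun x _ => ?_
    rw [em_coe, pullM_algebraMap]
  obtain ⟨c, d, hd, hcd⟩ := (embData M).frac f
  have hd' : (d : modularFunctionFieldBar M) ≠ 0 := fun h => hd (Subtype.ext h)
  have kd : em M (TEll.TEll KQ M ℓ (d : modularFunctionFieldBar M)) = _ := key d
  have kc : em M (TEll.TEll KQ M ℓ (c : modularFunctionFieldBar M)) = _ := key c
  have h1 : em M (TEll.TEll KQ M ℓ f) * em M (TEll.TEll KQ M ℓ (d : modularFunctionFieldBar M)) =
      em M (TEll.TEll KQ M ℓ (c : modularFunctionFieldBar M)) := by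
    rw [← RingHom.map_mul, ← MonoidHom.map_mul]
    exact congrArg (fun z => em M (TEll.TEll KQ M ℓ z)) hcd
  have h2 : (∏ x : HIdx M ℓ, pullM (hrep ℓ x.1) (hrep_det_pos x.1) (em M f)) *
      em M (TEll.TEll KQ M ℓ (d : modularFunctionFieldBar M)) =
      em M (TEll.TEll KQ M ℓ (c : modularFunctionFieldBar M)) := by
    rw [kd, kc, ← Finset.prod_mul_distrib]
    refine Finset.prod_congr rfl fun x _ => ?_
    rw [← RingHom.map_mul, ← RingHom.map_mul]
    exact congrArg (fun z => pullM (hrep ℓ x.1) (hrep_det_pos x.1) (em M z)) hcd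
  refine mul_right_cancel₀ ?_ (h1.trans h2.symm)
  rw [kd]
  exact Finset.prod_ne_zero_iff.mpr fun x _ => (map_ne_zero _).mpr (em_ne_zero hd')

theorem ordAt_TEll (hM : ¬ ℓ ∣ M) (τ : ℍ) {f : modularFunctionFieldBar M} (hf : f ≠ 0) :
    ordAt τ (em M (TEll.TEll KQ M ℓ f)) =
      ∑ x : Option (ZMod ℓ), ordAt (hrep ℓ x • τ) (em M f) := by
  rw [em_TEll hM, ordAt_prod _ _ _ fun x _ => (map_ne_zero _).mpr (em_ne_zero hf)]
  rw [← (hidxEquivOfNotDvd hM).sum_comp]
  refine Finset.sum_congr rfl fun x _ => ?_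
  rw [ordAt_pullM _ _ _ (em_ne_zero hf)]
  rfl

/-- **The Hecke correspondence at a point of the upper half plane.** -/
theorem At.hecke (hM : ¬ ℓ ∣ M) {v : Place KQ (modularFunctionFieldBar M)} {τ : ℍ} {m : ℤ}
    (h : At v τ m) {u : Option (ZMod ℓ) → Place KQ (modularFunctionFieldBar M)}
    {n : Option (ZMod ℓ) → ℤ} (hu : ∀ x, At (u x) (hrep ℓ x • τ) (n x))
    (D : Divisor KQ (modularFunctionFieldBar M)) :
    m * TEll.heckeDiv M ℓ D v = ∑ x : Option (ZMod ℓ), n x * D (u x) := by
  classical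
  let T : Divisor KQ (modularFunctionFieldBar M) →+ Divisor KQ (modularFunctionFieldBar M) :=
    { toFun := fun D => Finsupp.single v (m * TEll.heckeDiv M ℓ D v)
      map_zero' := by simp
      map_add' := fun a b => by
        rw [map_add, Finsupp.add_apply, mul_add, Finsupp.single_add] }
  let S : Divisor KQ (modularFunctionFieldBar M) →+ Divisor KQ (modularFunctionFieldBar M) :=
    { toFun := fun D => Finsupp.single v (∑ x : Option (ZMod ℓ), n x * D (u x))
      map_zero' := by simp
      map_add' := fun a b => by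
        rw [← Finsupp.single_add, ← Finset.sum_add_distrib]
        congr 1
        refine Finset.sum_congr rfl fun x _ => ?_
        rw [Finsupp.add_apply, mul_add] }
  have hT : FiniteRows T := by
    intro Q
    have h1 : FiniteRows (TEll.heckeDiv M ℓ) := finiteRows_correspondence _ _ _ _
    refine (h1 v).subset fun R hR => ?_
    rw [Set.mem_ofPred_eq] at hR ⊢
    intro h2
    apply hR
    show Finsupp.single v (m * TEll.heckeDiv M ℓ (Finsupp.single R 1) v) Q = 0
    rw [h2]
    simp
  have hS : FiniteRows S := by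
    intro Q
    refine (Set.finite_range u).subset fun R hR => ?_
    rw [Set.mem_ofPred_eq] at hR
    by_contra h2
    apply hR
    show Finsupp.single v (∑ x : Option (ZMod ℓ), n x * (Finsupp.single R (1 : ℤ)) (u x)) Q = 0
    rw [Finset.sum_eq_zero, Finsupp.single_zero, Finsupp.zero_apply]
    intro x _
    rw [Finsupp.single_apply, if_neg, mul_zero]
    rintro rfl
    exact h2 ⟨x, rfl⟩
  have hTS : T = S := eq_of_principal hT hS fun f hf => by
    show Finsupp.single v (m * TEll.heckeDiv M ℓ (RR.div f) v) =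
      Finsupp.single v (∑ x : Option (ZMod ℓ), n x * (RR.div f : Divisor _ _) (u x))
    congr 1
    rw [TEll.heckeDiv_div hf, RR.div_apply]
    have hf' : TEll.TEll KQ M ℓ f ≠ 0 := TEll.TEll_ne_zero KQ M ℓ (TEll.finAlpha M ℓ) hf
    rw [← h.2 _ hf', ordAt_TEll hM τ hf]
    refine Finset.sum_congr rfl fun x _ => ?_
    rw [(hu x).2 f hf, RR.div_apply]
  have h3 := DFunLike.congr_fun (DFunLike.congr_fun hTS D) v
  change Finsupp.single v (m * TEll.heckeDiv M ℓ D v) v =
    Finsupp.single v (∑ x : Option (ZMod ℓ), n x * D (u x)) v at h3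
  rwa [Finsupp.single_eq_same, Finsupp.single_eq_same] at h3

end

end Fermat.Agent.LTF.CM
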