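import Fermat.Agent.GalRep.JZ8_Div
import Fermat.Agent.LTF.JInj
import Fermat.Agent.X0Emb.OrdAt

/-!
# Places of the modular function field and points of the upper half plane
-/

set_option autoImplicit false
set_option linter.style.haveILetI false
set_option linter.unusedSectionVars false

open UpperHalfPlane Function CongruenceSubgroup ModularForm EisensteinSeries
open scoped Manifold MatrixGroups IntermediateField

noncomputable section

namespace Fermat.Agent.LTF.CM

open Fermat.Agent.X0Emb Fermat.Agent.X0Deg Fermat.Agent.S24aux AlgebraicCurve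
open ModularCurve Fermat.Agent.FF Fermat.Agent.JLevelOne Fermat.Agent.FFOrb

section Orbit

variable {K F : Type*} [Field K] [Field F] [Algebra K F]

theorem place_eq_of_mul_ord {v v' : Place K F} {m m' : ℤ} (hm : 0 < m) (hm' : 0 < m')
    (h : ∀ f : F, f ≠ 0 → m * v.ord f = m' * v'.ord f) : v = v' ∧ m = m' := by
  have hv : v = v' := by
    apply Place.ext
    ext f
    rcases eq_or_ne f 0 with rfl | hf
    · simp
    · rw [FFDiff.mem_iff_ord_nonneg v hf, FFDiff.mem_iff_ord_nonneg v' hf]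
      have h1 := h f hf
      constructor
      · intro h2
        exact (mul_nonneg_iff_of_pos_left hm').mp (h1 ▸ mul_nonneg hm.le h2)
      · intro h2
        exact (mul_nonneg_iff_of_pos_left hm).mp (h1 ▸ mul_nonneg hm'.le h2)
  refine ⟨hv, ?_⟩
  subst hv
  obtain ⟨ϖ, hϖ⟩ := IsDiscreteValuationRing.exists_irreducible v.toValuationSubring
  have hϖ0 : (ϖ : F) ≠ 0 := by
    simpa [ne_eq, ZeroMemClass.coe_eq_zero] using hϖ.ne_zero
  have h1 := h ϖ hϖ0
  rw [v.ord_coe_irreducible hϖ] at h1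
  omega

/-- In an orbit datum, embeddings inducing the same place are in the same orbit. -/
theorem OrbitDatum.same_orbit [IsAlgClosed K] [CharZero K] [IsFF K F] {y : F}
    (hy : Transcendental K y) {X : Type*} [Finite X]
    (hcard : Nat.card X = Module.finrank K⟮y⟯ F) {π : Equiv.Perm X} {L : Type*} [Field L]
    (d : OrbitDatum K y π L) (v : Place K F) {x x' : X} {m m' : ℤ} (hm : 0 < m) (hm' : 0 < m')
    (h : ∀ f : F, f ≠ 0 → d.o (d.Ψ x f) = m * v.ord f)
    (h' : ∀ f : F, f ≠ 0 → d.o (d.Ψ x' f) = m' * v.ord f) :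
    x' ∈ MulAction.orbit (Subgroup.zpowers π) x := by
  classical
  have hy0 : y ≠ 0 := by
    rintro rfl
    exact hy isAlgebraic_zero
  -- places give embeddings
  have h1 : ∀ v : {v : Place K F // 0 < v.ord y}, ∃ (x : X) (m : ℤ), 0 < m ∧
      ∀ f : F, f ≠ 0 → d.o (d.Ψ x f) = m * v.1.ord f := by
    rintro ⟨v, hv⟩
    obtain ⟨x, r, hr, -, hf⟩ := GalRep.OrbitDatum_exists hy hcard d v hv
    have hr' : (0 : ℤ) < r := by exact_mod_cast hr
    obtain ⟨ϖ, hϖ⟩ := IsDiscreteValuationRing.exists_irreducible v.toValuationSubring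
    have hϖ0 : (ϖ : F) ≠ 0 := by
      simpa [ne_eq, ZeroMemClass.coe_eq_zero] using hϖ.ne_zero
    have h2 := hf ϖ hϖ0
    rw [v.ord_coe_irreducible hϖ, mul_one] at h2
    have h3 := d.oy x
    refine ⟨x, d.o (d.Ψ x ϖ), ?_, fun f hf0 => ?_⟩
    · rw [← h2] at h3
      exact (mul_pos_iff_of_pos_left hr').mp h3
    · have h4 := hf f hf0
      rw [← h2, mul_assoc] at h4
      exact mul_left_cancel₀ hr'.ne' h4
  choose X0 M0 hM0 hX0 using h1
  -- orbit invariance
  have hinv : ∀ (x x' : X), x' ∈ MulAction.orbit (Subgroup.zpowers π) x →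
      ∀ f : F, f ≠ 0 → d.o (d.Ψ x' f) = d.o (d.Ψ x f) := by
    rintro x x' ⟨⟨g, n, rfl⟩, rfl⟩ f hf
    show d.o (d.Ψ ((π ^ n) x) f) = _
    induction n using Int.induction_on with
    | zero => simp
    | succ n ih => rw [add_comm, zpow_one_add, Equiv.Perm.mul_apply, d.o_perm _ _ hf, ih]
    | pred n ih =>
      rw [← d.o_perm _ _ hf, ← Equiv.Perm.mul_apply, ← zpow_one_add]
      rw [show (1 : ℤ) + (-(n : ℤ) - 1) = -(n : ℤ) by ring]
      exact ih
  let σ : {v : Place K F // 0 < v.ord y} → MulAction.orbitRel.Quotient (Subgroup.zpowers π) X :=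
    fun v => Quotient.mk'' (X0 v)
  have hσ : Function.Injective σ := by
    intro v v' hvv
    have h2 : X0 v ∈ MulAction.orbit (Subgroup.zpowers π) (X0 v') :=
      MulAction.orbitRel_apply.mp (Quotient.exact hvv)
    have h3 := hinv _ _ h2
    apply Subtype.ext
    refine (place_eq_of_mul_ord (hM0 v) (hM0 v') fun f hf => ?_).1
    rw [← hX0 v f hf, ← hX0 v' f hf, h3 f hf]
  have hfin : Finite (MulAction.orbitRel.Quotient (Subgroup.zpowers π) X) := inferInstance
  have hfin' : Finite {v : Place K F // 0 < v.ord y} := Finite.of_injective σ hσ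
  have hsurj : Function.Surjective σ := by
    have hc : Nat.card {v : Place K F // 0 < v.ord y} =
        Nat.card (MulAction.orbitRel.Quotient (Subgroup.zpowers π) X) :=
      OrbitDatum.card_eq hy hcard d
    exact ((Nat.bijective_iff_injective_and_card σ).mpr ⟨hσ, hc⟩).2
  have key : ∀ (x : X) (m : ℤ), 0 < m → (∀ f : F, f ≠ 0 → d.o (d.Ψ x f) = m * v.ord f) →
      ∃ hv : 0 < v.ord y, σ ⟨v, hv⟩ = Quotient.mk'' x := by
    intro x m hm hx
    obtain ⟨v1, hv1⟩ := hsurj (Quotient.mk'' x)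
    have h2 : X0 v1 ∈ MulAction.orbit (Subgroup.zpowers π) x :=
      MulAction.orbitRel_apply.mp (Quotient.exact hv1)
    have h3 := hinv _ _ h2
    have h4 : v1.1 = v := by
      refine (place_eq_of_mul_ord (hM0 v1) hm fun f hf => ?_).1
      rw [← hX0 v1 f hf, ← hx f hf, h3 f hf]
    obtain ⟨v1, hv1'⟩ := v1
    subst h4
    exact ⟨hv1', hv1⟩
  obtain ⟨hv, h2⟩ := key x m hm h
  obtain ⟨hv', h3⟩ := key x' m' hm' h'
  have h4 : (Quotient.mk'' x' : MulAction.orbitRel.Quotient (Subgroup.zpowers π) X) =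
      Quotient.mk'' x := by rw [← h2, ← h3]
  exact MulAction.orbitRel_apply.mp (Quotient.exact h4)

end Orbit

section Points

local notation "KQ" => AlgebraicClosure ℚ

variable (M : ℕ) [NeZero M]

/-- the embedding of the function field into the meromorphic functions on the upper half plane. -/
def em : modularFunctionFieldBar M →+* MerH := (embData M).embM (QuotientGroup.mk 1)

variable {M}

theorem em_ne_zero {f : modularFunctionFieldBar M} (hf : f ≠ 0) : em M f ≠ 0 := (map_ne_zero _).mpr hf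

theorem em_coe (a : AA M) : em M (a : modularFunctionFieldBar M) = algebraMap Hol MerH (ev M a) := by
  have h := embA_mk 1 a
  rw [one_smul] at h
  exact ((embData M).embM_coe _ a).trans (congrArg _ h)

theorem em_algebraMap (c : KQ) :
    em M (algebraMap KQ (modularFunctionFieldBar M) c) = algebraMap Hol MerH (constHol (iota c)) :=
  (embData M).embM_const _ c

theorem em_jF : em M (jF M) = algebraMap Hol MerH jH := (embData M).embM_jF _

theorem embM_mk (σ : SL(2, ℤ)) (f : modularFunctionFieldBar M) :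
    (embData M).embM (QuotientGroup.mk σ) f = σ • em M f := by
  have h : (QuotientGroup.mk σ : XX M) = σ • (QuotientGroup.mk 1 : XX M) := by
    rw [MulAction.Quotient.smul_mk, smul_eq_mul, mul_one]
  rw [em, ← EmbData.embM_smul, ← h]

/-- the place `v` is the point `τ` of the upper half plane, with multiplicity `m`. -/
def At (v : Place KQ (modularFunctionFieldBar M)) (τ : ℍ) (m : ℤ) : Prop :=
  0 < m ∧ ∀ f : modularFunctionFieldBar M, f ≠ 0 → ordAt τ (em M f) = m * v.ord f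

theorem At.unique {v v' : Place KQ (modularFunctionFieldBar M)} {τ : ℍ} {m m' : ℤ}
    (h : At v τ m) (h' : At v' τ m') : v = v' ∧ m = m' :=
  place_eq_of_mul_ord h.1 h'.1 fun f hf => by rw [← h.2 f hf, ← h'.2 f hf]

theorem ordAt_const (τ : ℍ) {c : KQ} (hc : c ≠ 0) :
    ordAt τ (em M (algebraMap KQ (modularFunctionFieldBar M) c)) = 0 := by
  have h1 : iota c ≠ 0 := (map_ne_zero _).mpr hc
  have h2 : constHol (iota c) ≠ 0 := fun h => h1 (by
    have := congrArg (fun u : Hol => u UpperHalfPlane.I) h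
    simpa using this)
  rw [em_algebraMap, ordAt_algebraMap τ h2, ordH_const τ h1]
  rfl

/-- existence of the place attached to a point, if some function vanishes there. -/
theorem exists_at_of_pos (τ : ℍ) (h : ∃ f : modularFunctionFieldBar M, f ≠ 0 ∧ 0 < ordAt τ (em M f)) :
    ∃ (v : Place KQ (modularFunctionFieldBar M)) (m : ℤ), At v τ m := by
  set W := valOfOrd (ordAt τ) (ordAt_mul τ) (ordAt_add τ) with hW
  have hWap : ∀ f : MerH, f ≠ 0 → W f = WithZero.exp (-(ordAt τ f)) :=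
    fun f hf => valOfOrd_apply _ _ _ hf
  set w : Valuation (modularFunctionFieldBar M) (WithZero (Multiplicative ℤ)) := W.comap (em M) with hw
  have hwap : ∀ f : modularFunctionFieldBar M, f ≠ 0 → w f = WithZero.exp (-(ordAt τ (em M f))) :=
    fun f hf => hWap _ (em_ne_zero hf)
  have hwK : ∀ a : KQ, w (algebraMap KQ (modularFunctionFieldBar M) a) ≤ 1 := by
    intro c
    rcases eq_or_ne c 0 with rfl | hc
    · simp
    · rw [hwap _ (by simpa using hc), ordAt_const τ hc]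
      simp
  obtain ⟨f, hf, hpos⟩ := h
  have hwnt : ∃ f : modularFunctionFieldBar M, f ≠ 0 ∧ w f < 1 := by
    refine ⟨f, hf, ?_⟩
    rw [hwap f hf, ← WithZero.exp_zero, WithZero.exp_lt_exp]
    omega
  obtain ⟨m, hm, hmf⟩ := exists_mult w hwK hwnt
  refine ⟨FFOrb.placeOf w hwK hwnt, m, hm, fun f hf => ?_⟩
  have h1 := hmf f hf
  rw [hwap f hf, WithZero.exp_inj] at h1
  omega

theorem transcendental_sub_jF (a : KQ) :
    Transcendental KQ ((embData M).jF - algebraMap KQ (modularFunctionFieldBar M) a) :=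
  FFFund.transcendental_sub (embData M).transcendental_jF a

instance finite_XX : Finite (XX M) := inferInstanceAs (Finite (SL(2, ℤ) ⧸ Gamma0 M))

theorem card_XX (a : KQ) : Nat.card (XX M) =
    Module.finrank KQ⟮(embData M).jF - algebraMap KQ (modularFunctionFieldBar M) a⟯
      (modularFunctionFieldBar M) := by
  rw [FFFund.finrank_of_eq (FFFund.adjoin_sub_algebraMap (embData M).jF a)]
  exact GalRep.finite_card

end Points

section Datum

variable {K : Type*} [Field K] {F : IntermediateField K (LaurentSeries K)}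
  {X : Type*} [MulAction SL(2, ℤ) X] {N : ℕ} (D : EmbData F X N)

theorem ordAt_jF_sub {a : K} {τ0 : ℍ} {n : ℕ} (hn : ordH τ0 (jH - constHol (D.ι a)) = n) (x : X) :
    ordAt τ0 (D.embM x (D.jF - algebraMap K F a)) = n := by
  have h1 : jH - constHol (D.ι a) ≠ 0 := by
    intro h
    rw [h, ordH_zero] at hn
    exact ENat.top_ne_natCast n hn
  rw [embM_jF_sub, ordAt_algebraMap τ0 h1, hn]
  rfl

theorem jFun_eq_of_ordH {c : ℂ} {τ0 : ℍ} (hn : ordH τ0 (jH - constHol c) ≠ 0) : jFun τ0 = c := by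
  rw [ordH, (analyticAt_of_mdiff (Hol.mdiff _) τ0).analyticOrderAt_ne_zero] at hn
  have h3 : (jH - constHol c : Hol) τ0 = 0 := by simpa using hn
  rw [Hol.sub_apply, constHol_apply, sub_eq_zero] at h3
  exact h3

/-- The point data at a value of `j`. -/
structure PtData (a : K) where
  τ0 : ℍ
  g : SL(2, ℤ)
  n : ℕ
  hg : g • τ0 = τ0
  d : OrbitDatum K (D.jF - algebraMap K F a) (MulAction.toPerm g : Equiv.Perm X) MerH
  hj : jFun τ0 = D.ι a
  hΨ : d.Ψ = D.embM
  ho : d.o = ordAt τ0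
  hn : ∀ x, ordAt τ0 (D.embM x (D.jF - algebraMap K F a)) = n
  hgen : a ≠ 0 → a ≠ 1728 → n = 1 ∧ g = 1

theorem ptData_zero : Nonempty (PtData D 0) := by
  have hn : ordH ρ (jH - constHol (D.ι 0)) = (3 : ℕ) := by
    rw [ordH_jH_sub, map_zero]
    simpa using! analyticOrderAt_jFun_ρ
  exact ⟨⟨ρ, _, 3, ST_smul_ρ, datum0 D, jFun_eq_of_ordH (by rw [hn]; norm_num), rfl, rfl,
    ordAt_jF_sub D hn, fun h => absurd rfl h⟩⟩

theorem ptData_1728 : Nonempty (PtData D 1728) := by
  have hn : ordH UpperHalfPlane.I (jH - constHol (D.ι 1728)) = (2 : ℕ) := by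
    rw [ordH_jH_sub, map_ofNat]
    simpa using! analyticOrderAt_jFun_sub_1728_I
  exact ⟨⟨UpperHalfPlane.I, _, 2, S_smul_I, datum1 D, jFun_eq_of_ordH (by rw [hn]; norm_num),
    rfl, rfl, ordAt_jF_sub D hn, fun _ h => absurd rfl h⟩⟩

theorem ptData_gen {a : K} (h0 : a ≠ 0) (h1 : a ≠ 1728) : Nonempty (PtData D a) := by
  obtain ⟨τ0, hτ0⟩ := jFun_surjective (D.ι a)
  have h4 : E₄ τ0 ≠ 0 := by
    rw [Ne, ← jFun_eq_zero_iff, hτ0]
    exact (map_ne_zero _).mpr h0
  have h6 : E₆ τ0 ≠ 0 := by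
    rw [Ne, ← jFun_eq_1728_iff, hτ0, ← map_ofNat D.ι]
    exact fun h => h1 (D.ι.injective h)
  have hn : ordH τ0 (jH - constHol (D.ι a)) = (1 : ℕ) := by
    rw [ordH_jH_sub, ← hτ0]
    exact analyticOrderAt_jFun_sub_of_ne h4 h6
  exact ⟨⟨τ0, 1, 1, one_smul _ _, datum D τ0 1 (one_smul _ _) a 1 one_pos hn
      (fun f r _ _ => by simp), hτ0, rfl, rfl, ordAt_jF_sub D hn, fun _ _ => ⟨rfl, rfl⟩⟩⟩

/-- the point data exist at every value of `j`. -/
theorem nonempty_ptData (a : K) : Nonempty (PtData D a) := by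
  by_cases h0 : a = 0
  · subst h0
    exact ptData_zero D
  by_cases h1 : a = 1728
  · subst h1
    exact ptData_1728 D
  · exact ptData_gen D h0 h1

end Datum

section Points2

local notation "KQ" => AlgebraicClosure ℚ

variable {M : ℕ} [NeZero M]

theorem jF_sub_ne (a : KQ) : jF M - algebraMap KQ (modularFunctionFieldBar M) a ≠ 0 := by
  intro h
  have h1 : Transcendental KQ (jF M) := (embData M).transcendental_jF
  rw [sub_eq_zero] at h
  rw [h] at h1
  exact h1 (isAlgebraic_algebraMap a)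

theorem exists_value (v : Place KQ (modularFunctionFieldBar M)) {f : modularFunctionFieldBar M}
    (hf : ∀ a, f - algebraMap KQ (modularFunctionFieldBar M) a ≠ 0) (hv : 0 ≤ v.ord f) :
    ∃ a : KQ, 0 < v.ord (f - algebraMap KQ (modularFunctionFieldBar M) a) := by
  have hf0 : f ≠ 0 := by
    have := hf 0
    rwa [map_zero, sub_zero] at this
  have hmem : f ∈ v.toValuationSubring := (FFDiff.mem_iff_ord_nonneg v hf0).mpr hv
  obtain ⟨a, ha⟩ := (algebraMap_residueField_bijective v).2 (IsLocalRing.residue _ ⟨f, hmem⟩)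
  refine ⟨a, ?_⟩
  have h1 : IsLocalRing.residue v.toValuationSubring (⟨f, hmem⟩ - algebraMap KQ _ a) = 0 := by
    rw [map_sub, ← ha]
    exact sub_self _
  rw [IsLocalRing.residue_eq_zero_iff] at h1
  rw [IsLocalRing.mem_maximalIdeal, mem_nonunits_iff] at h1
  have h2 : f - algebraMap KQ (modularFunctionFieldBar M) a ∈ v.toValuationSubring :=
    sub_mem hmem (v.algebraMap_mem' a)
  have h3 := (FFDiff.mem_iff_ord_nonneg v (hf a)).mp h2
  refine lt_of_le_of_ne h3 fun h0 => h1 ?_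
  have h4 : (f - algebraMap KQ (modularFunctionFieldBar M) a)⁻¹ ∈ v.toValuationSubring := by
    rw [FFDiff.mem_iff_ord_nonneg v (inv_ne_zero (hf a)), Place.ord_inv]
    omega
  refine IsUnit.of_mul_eq_one ⟨_, h4⟩ (Subtype.ext ?_)
  exact mul_inv_cancel₀ (hf a)

theorem em_jF_sub (a : KQ) : em M (jF M - algebraMap KQ (modularFunctionFieldBar M) a) =
    algebraMap Hol MerH (jH - constHol (iota a)) := by
  rw [map_sub, map_sub, em_jF, em_algebraMap]

theorem jH_sub_ne (c : ℂ) : jH - constHol c ≠ 0 := by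
  intro h
  obtain ⟨τ, hτ⟩ := jFun_surjective (c + 1)
  have h1 := congrArg (fun u : Hol => u τ) h
  simp only [Hol.sub_apply, jH_apply, constHol_apply, Hol.zero_apply, hτ] at h1
  simp at h1

theorem At.jFun_eq {v : Place KQ (modularFunctionFieldBar M)} {τ : ℍ} {m : ℤ} (h : At v τ m)
    {a : KQ} (ha : 0 < v.ord (jF M - algebraMap KQ (modularFunctionFieldBar M) a)) :
    jFun τ = iota a := by
  have h1 := h.2 _ (jF_sub_ne a)
  rw [em_jF_sub, ordAt_algebraMap τ (jH_sub_ne _)] at h1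
  apply jFun_eq_of_ordH
  intro h2
  rw [h2] at h1
  have h3 := mul_pos h.1 ha
  rw [← h1] at h3
  simp at h3

theorem jF_ne_zero' : jF M ≠ 0 := by
  have := jF_sub_ne (M := M) 0
  rwa [map_zero, sub_zero] at this

theorem At.ord_jF_nonneg {v : Place KQ (modularFunctionFieldBar M)} {τ : ℍ} {m : ℤ}
    (h : At v τ m) : 0 ≤ v.ord (jF M) := by
  have h1 := h.2 _ jF_ne_zero'
  have h0 : (jH : Hol) ≠ 0 := by
    have := jH_sub_ne 0
    rwa [map_zero, sub_zero] at this
  rw [em_jF, ordAt_algebraMap τ h0] at h1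
  have h2 : 0 ≤ m * v.ord (jF M) := by rw [← h1]; exact Int.natCast_nonneg _
  exact (mul_nonneg_iff_of_pos_left h.1).mp h2

theorem At.exists_value {v : Place KQ (modularFunctionFieldBar M)} {τ : ℍ} {m : ℤ}
    (h : At v τ m) : ∃ a : KQ, jFun τ = iota a ∧
      0 < v.ord (jF M - algebraMap KQ (modularFunctionFieldBar M) a) := by
  obtain ⟨a, ha⟩ := CM.exists_value v jF_sub_ne h.ord_jF_nonneg
  exact ⟨a, h.jFun_eq ha, ha⟩

theorem ordAt_smul' (τ : ℍ) (σ : SL(2, ℤ)) {f : MerH} (hf : f ≠ 0) :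
    ordAt (σ • τ) f = ordAt τ (σ⁻¹ • f) := by
  rw [ordAt_smul τ σ⁻¹ f hf, inv_inv]

/-- every place with `j` finite is a point of the upper half plane. -/
theorem exists_at (v : Place KQ (modularFunctionFieldBar M)) (hv : 0 ≤ v.ord (jF M)) :
    ∃ (τ : ℍ) (m : ℤ), At v τ m := by
  obtain ⟨a, ha⟩ := CM.exists_value v jF_sub_ne hv
  obtain ⟨D⟩ := nonempty_ptData (embData M) a
  obtain ⟨x, r, hr, -, hf⟩ := GalRep.OrbitDatum_exists (transcendental_sub_jF a) (card_XX a) D.d v ha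
  rw [D.hΨ, D.ho] at hf
  have hr' : (0 : ℤ) < r := by exact_mod_cast hr
  obtain ⟨ϖ, hϖ⟩ := IsDiscreteValuationRing.exists_irreducible v.toValuationSubring
  have hϖ0 : (ϖ : modularFunctionFieldBar M) ≠ 0 := by
    simpa [ne_eq, ZeroMemClass.coe_eq_zero] using hϖ.ne_zero
  have h2 := hf ϖ hϖ0
  rw [v.ord_coe_irreducible hϖ, mul_one] at h2
  obtain ⟨σ, rfl⟩ := QuotientGroup.mk_surjective x
  have h3 := D.d.oy (QuotientGroup.mk σ)
  rw [D.hΨ, D.ho] at h3
  refine ⟨σ⁻¹ • D.τ0, ordAt D.τ0 ((embData M).embM (QuotientGroup.mk σ) ϖ), ?_, fun f hf0 => ?_⟩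
  · rw [← h2] at h3
    exact (mul_pos_iff_of_pos_left hr').mp h3
  · have h4 := hf f hf0
    rw [← h2, mul_assoc] at h4
    rw [ordAt_smul' _ _ (em_ne_zero hf0), inv_inv, ← embM_mk]
    exact mul_left_cancel₀ hr'.ne' h4

theorem smul_em {γ : SL(2, ℤ)} (hγ : γ ∈ Gamma0 M) (f : modularFunctionFieldBar M) :
    γ • em M f = em M f := by
  rw [← embM_mk, em]
  congr 2
  rw [eq_comm, QuotientGroup.eq, inv_one, one_mul]
  exact hγ

theorem At.smul {v : Place KQ (modularFunctionFieldBar M)} {τ : ℍ} {m : ℤ} (h : At v τ m)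
    {γ : SL(2, ℤ)} (hγ : γ ∈ Gamma0 M) : At v (γ • τ) m := by
  refine ⟨h.1, fun f hf => ?_⟩
  rw [ordAt_smul' _ _ (em_ne_zero hf), smul_em (inv_mem hγ)]
  exact h.2 f hf

/-- points giving the same place are equivalent. -/
theorem At.exists_smul {v : Place KQ (modularFunctionFieldBar M)} {τ τ' : ℍ} {m m' : ℤ}
    (h : At v τ m) (h' : At v τ' m') : ∃ γ ∈ Gamma0 M, γ • τ = τ' := by
  obtain ⟨a, ha, hv⟩ := h.exists_value
  have ha' := h'.jFun_eq hv
  obtain ⟨D⟩ := nonempty_ptData (embData M) a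
  have hj : jFun D.τ0 = iota a := D.hj
  obtain ⟨σ, hσ⟩ := jFun_eq_iff.mp (hj.trans ha.symm)
  obtain ⟨σ', hσ'⟩ := jFun_eq_iff.mp (hj.trans ha'.symm)
  have h1 : ∀ f : modularFunctionFieldBar M, f ≠ 0 →
      D.d.o (D.d.Ψ (QuotientGroup.mk σ⁻¹) f) = m * v.ord f := by
    intro f hf
    rw [D.hΨ, D.ho, embM_mk, ← ordAt_smul' _ _ (em_ne_zero hf), hσ]
    exact h.2 f hf
  have h2 : ∀ f : modularFunctionFieldBar M, f ≠ 0 →
      D.d.o (D.d.Ψ (QuotientGroup.mk σ'⁻¹) f) = m' * v.ord f := by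
    intro f hf
    rw [D.hΨ, D.ho, embM_mk, ← ordAt_smul' _ _ (em_ne_zero hf), hσ']
    exact h'.2 f hf
  have h3 := OrbitDatum.same_orbit (transcendental_sub_jF a) (card_XX a) D.d v h.1 h'.1 h1 h2
  obtain ⟨⟨_, n, rfl⟩, hn⟩ := h3
  have hpow : ∀ (n : ℤ) (x : XX M), ((MulAction.toPerm D.g : Equiv.Perm (XX M)) ^ n) x = D.g ^ n • x := by
    intro n x
    have := congrArg (fun e : Equiv.Perm (XX M) => e x)
      (map_zpow (MulAction.toPermHom SL(2, ℤ) (XX M)) D.g n)
    exact this.symm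
  have hn' : D.g ^ n • (QuotientGroup.mk σ⁻¹ : XX M) = QuotientGroup.mk σ'⁻¹ :=
    (hpow n _).symm.trans hn
  rw [MulAction.Quotient.smul_mk, smul_eq_mul, QuotientGroup.eq] at hn'
  have hg : ∀ n : ℤ, D.g ^ n • D.τ0 = D.τ0 := fun n =>
    (MulAction.stabilizer SL(2, ℤ) D.τ0).zpow_mem (show D.g ∈ MulAction.stabilizer SL(2, ℤ) D.τ0 from D.hg) n
  refine ⟨((D.g ^ n * σ⁻¹)⁻¹ * σ'⁻¹)⁻¹, inv_mem hn', ?_⟩
  rw [← hσ, ← hσ', ← mul_smul]
  have : ((D.g ^ n * σ⁻¹)⁻¹ * σ'⁻¹)⁻¹ * σ = σ' * D.g ^ n := by group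
  rw [this, mul_smul, hg]

/-- the multiplicity is one at non elliptic points. -/
theorem At.mult {v : Place KQ (modularFunctionFieldBar M)} {τ : ℍ} {m : ℤ} (h : At v τ m)
    (h4 : E₄ τ ≠ 0) (h6 : E₆ τ ≠ 0) : m = 1 := by
  obtain ⟨a, ha, hv⟩ := h.exists_value
  have h1 := h.2 _ (jF_sub_ne a)
  have hn : ordH τ (jH - constHol (iota a)) = (1 : ℕ) := by
    rw [ordH_jH_sub, ← ha]
    exact analyticOrderAt_jFun_sub_of_ne h4 h6
  rw [em_jF_sub, ordAt_algebraMap τ (jH_sub_ne _), hn] at h1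
  have h2 : m * v.ord (jF M - algebraMap KQ (modularFunctionFieldBar M) a) = 1 := h1.symm
  rcases Int.eq_one_or_neg_one_of_mul_eq_one h2 with h3 | h3
  · exact h3
  · have := h.1
    omega

end Points2

end Fermat.Agent.LTF.CM
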