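import Fermat.Agent.LTF.CMPlace
import Fermat.Agent.GalRep.JZ9_Map
import Fermat.Agent.HeckeComm.Rows

/-!
# Pullback of meromorphic functions along elements of `GL₂⁺(ℝ)`
-/

set_option autoImplicit false
set_option linter.style.haveILetI false
set_option linter.unusedSectionVars false

open UpperHalfPlane Function CongruenceSubgroup ModularForm
open scoped Manifold MatrixGroups IntermediateField

noncomputable section

namespace Fermat.Agent.LTF.CM

open Fermat.Agent.X0Emb Fermat.Agent.X0Deg AlgebraicCurve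
open ModularCurve Fermat.Agent.JLevelOne

/-- pullback of holomorphic functions. -/
def pull (g : GL (Fin 2) ℝ) (hg : 0 < g.det.val) : Hol →+* Hol where
  toFun f := ⟨fun τ => f (g • τ), (Hol.mdiff f).comp (mdifferentiable_smul hg)⟩
  map_one' := rfl
  map_mul' _ _ := rfl
  map_zero' := rfl
  map_add' _ _ := rfl

@[simp] theorem pull_apply (g : GL (Fin 2) ℝ) (hg : 0 < g.det.val) (f : Hol) (τ : ℍ) :
    pull g hg f τ = f (g • τ) := rfl

theorem pull_injective (g : GL (Fin 2) ℝ) (hg : 0 < g.det.val) : Injective (pull g hg) := by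
  intro a b h
  ext τ
  have h1 := congrArg (fun u : Hol => u (g⁻¹ • τ)) h
  simpa using h1

@[simp] theorem pull_constHol (g : GL (Fin 2) ℝ) (hg : 0 < g.det.val) (c : ℂ) :
    pull g hg (constHol c) = constHol c := rfl

/-- pullback of meromorphic functions. -/
def pullM (g : GL (Fin 2) ℝ) (hg : 0 < g.det.val) : MerH →+* MerH :=
  IsFractionRing.lift (g := (algebraMap Hol MerH).comp (pull g hg))
    ((IsFractionRing.injective Hol MerH).comp (pull_injective g hg))

@[simp] theorem pullM_algebraMap (g : GL (Fin 2) ℝ) (hg : 0 < g.det.val) (f : Hol) :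
    pullM g hg (algebraMap Hol MerH f) = algebraMap Hol MerH (pull g hg f) :=
  IsFractionRing.lift_algebraMap _ _

theorem ordH_pull (g : GL (Fin 2) ℝ) (hg : 0 < g.det.val) (f : Hol) (τ : ℍ) :
    ordH τ (pull g hg f) = ordH (g • τ) f :=
  analyticOrderAt_comp_smul_GL (g := g) hg f τ

theorem ordAt_inv' (τ : ℍ) {f : MerH} (hf : f ≠ 0) : ordAt τ f⁻¹ = - ordAt τ f := by
  have h := ordAt_mul τ f f⁻¹ hf (inv_ne_zero hf)
  have h1 : ordAt τ (1 : MerH) = 0 := by
    have := ordAt_algebraMap τ (f := 1) one_ne_zero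
    rw [map_one] at this
    rw [this]
    have h2 : ordH τ 1 = 0 := ordH_const τ one_ne_zero
    rw [h2]; rfl
  rw [mul_inv_cancel₀ hf, h1] at h
  omega

theorem ordAt_div' (τ : ℍ) {f g : MerH} (hf : f ≠ 0) (hg : g ≠ 0) :
    ordAt τ (f / g) = ordAt τ f - ordAt τ g := by
  rw [div_eq_mul_inv, ordAt_mul τ _ _ hf (inv_ne_zero hg), ordAt_inv' τ hg]
  ring

theorem ordAt_pullM (g : GL (Fin 2) ℝ) (hg : 0 < g.det.val) (τ : ℍ) {f : MerH} (hf : f ≠ 0) :
    ordAt τ (pullM g hg f) = ordAt (g • τ) f := by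
  obtain ⟨a, b, hb, rfl⟩ := IsFractionRing.div_surjective Hol f
  have hb0 : b ≠ 0 := nonZeroDivisors.ne_zero hb
  have ha0 : a ≠ 0 := by
    rintro rfl
    simp at hf
  have h1 : ∀ {c : Hol}, c ≠ 0 → algebraMap Hol MerH c ≠ 0 := fun hc =>
    (map_ne_zero_iff _ (IsFractionRing.injective Hol MerH)).mpr hc
  have h2 : ∀ {c : Hol}, c ≠ 0 → pull g hg c ≠ 0 := fun hc =>
    (map_ne_zero_iff _ (pull_injective g hg)).mpr hc
  rw [map_div₀, pullM_algebraMap, pullM_algebraMap, ordAt_div' τ (h1 (h2 ha0)) (h1 (h2 hb0)),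
    ordAt_div' _ (h1 ha0) (h1 hb0), ordAt_algebraMap τ (h2 ha0), ordAt_algebraMap τ (h2 hb0),
    ordAt_algebraMap _ ha0, ordAt_algebraMap _ hb0, ordH_pull, ordH_pull]

section Emb

local notation "KQ" => AlgebraicClosure ℚ

variable {M : ℕ} [NeZero M]

/-- the generators `j(d τ)`. -/
def jd (M d : ℕ) [NeZero d] (hd : d ∣ M) : modularFunctionFieldBar M := (jdA M d hd : AA M)

theorem em_jd (d : ℕ) [NeZero d] (hd : d ∣ M) :
    em M (jd M d hd) = algebraMap Hol MerH (jAff d 0 1) := by
  rw [jd, em_coe, ev_jdA]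

theorem em_ringHom_eq {Φ Ψ : modularFunctionFieldBar M →+* MerH}
    (hc : ∀ c : KQ, Φ (algebraMap KQ (modularFunctionFieldBar M) c) =
      Ψ (algebraMap KQ (modularFunctionFieldBar M) c))
    (hj : ∀ (d : ℕ) [NeZero d] (hd : d ∣ M), Φ (jd M d hd) = Ψ (jd M d hd))
    (f : modularFunctionFieldBar M) : Φ f = Ψ f := by
  have key : ∀ a : AA M, Φ (a : modularFunctionFieldBar M) = Ψ a := by
    intro a
    induction a using AA_induction with
    | hj d hd => exact hj d hd
    | hc c => exact hc c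
    | hadd f g hf hg =>
      have : ((f + g : AA M) : modularFunctionFieldBar M) = f + g := rfl
      rw [this, RingHom.map_add, RingHom.map_add, hf, hg]
    | hmul f g hf hg =>
      have : ((f * g : AA M) : modularFunctionFieldBar M) = f * g := rfl
      rw [this, RingHom.map_mul, RingHom.map_mul, hf, hg]
  obtain ⟨a, b, rfl⟩ := exists_div M f
  rw [map_div₀, map_div₀, key, key]

theorem pullM_em_algebraMap (g : GL (Fin 2) ℝ) (hg : 0 < g.det.val) (c : KQ) :
    pullM g hg (em M (algebraMap KQ (modularFunctionFieldBar M) c)) =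
      em M (algebraMap KQ (modularFunctionFieldBar M) c) := by
  rw [em_algebraMap, pullM_algebraMap, pull_constHol]

end Emb

end Fermat.Agent.LTF.CM
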