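import Fermat.Agent.LTF.CMCount
import Fermat.Agent.LTF.ClassAlg

/-!
# Ideals of prime norm; the Hecke operator on CM points modulo `2`; CM points are not elliptic
-/

namespace Fermat.Agent.LTF.QuadInt

open NumberField UpperHalfPlane Complex CongruenceSubgroup
open scoped MatrixGroups

variable {K : Type*} [Field K] [NumberField K] {N : ℕ} {s : 𝓞 K}

set_option linter.unusedSectionVars false

namespace IsQF

variable (h : IsQF N s)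
include h

/-- an ideal of prime norm `ℓ ∤ N` is `𝔞(a, ℓ)` -/
lemma eq_idl_of_absNorm {ℓ : ℕ} (hℓ : ℓ.Prime) (hℓN : ¬ ℓ ∣ N) {𝔩 : Ideal (𝓞 K)}
    (h𝔩 : Ideal.absNorm 𝔩 = ℓ) : ∃ a : ℤ, (ℓ : ℤ) ∣ 1 + N * a ^ 2 ∧ 𝔩 = idl N s a ℓ := by
  have hℓmem : (ℓ : 𝓞 K) ∈ 𝔩 := by
    have := Ideal.absNorm_mem 𝔩
    rwa [h𝔩] at this
  have h𝔩0 : 𝔩 ≠ ⊥ := by
    rintro rfl
    rw [Ideal.absNorm_bot] at h𝔩
    exact hℓ.ne_zero h𝔩.symm
  have hcop : IsCoprime (ℓ : ℤ) (N : ℤ) := by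
    rw [Int.isCoprime_iff_gcd_eq_one]
    have : Nat.Coprime ℓ N := (Nat.Prime.coprime_iff_not_dvd hℓ).2 hℓN
    simpa [Int.gcd, Nat.Coprime] using this
  obtain ⟨x, y, hxy⟩ := hcop
  have hxyO : (x : 𝓞 K) * ℓ + y * N = 1 := by exact_mod_cast congrArg (Int.cast : ℤ → 𝓞 K) hxy
  have hsup : 𝔩 ⊔ Ideal.span {(N : 𝓞 K)} = ⊤ := by
    rw [Ideal.eq_top_iff_one, ← hxyO]
    exact Ideal.add_mem _ (Ideal.mul_mem_left _ _ (Ideal.mem_sup_left hℓmem))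
      (Ideal.mul_mem_left _ _ (Ideal.mem_sup_right (Ideal.mem_span_singleton_self _)))
  obtain ⟨n, a, c, hn, hc, hd, h1⟩ := h.exists_of_coprime h𝔩0 hsup
  have h2 : n.natAbs ^ 2 * c.natAbs = ℓ := by
    rw [← h𝔩, h1, map_mul, h.absNorm_int, h.absNorm_idl hd]
  have h3 : n.natAbs = 1 := by
    have h4 : n.natAbs ∣ ℓ := ⟨n.natAbs * c.natAbs, by rw [← h2]; ring⟩
    rcases (Nat.dvd_prime hℓ).1 h4 with h5 | h5
    · exact h5
    · exfalso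
      rw [h5] at h2
      have h6 : ℓ * (ℓ * c.natAbs) = ℓ * 1 := by rw [mul_one]; nlinarith
      have h7 := Nat.eq_of_mul_eq_mul_left hℓ.pos h6
      exact hℓ.one_lt.ne' (Nat.eq_one_of_mul_eq_one_right h7)
  have h4 : c = ℓ := by
    rw [h3] at h2
    omega
  refine ⟨a, by rw [← h4]; exact hd, ?_⟩
  rw [h1, h4]
  have h5 : Ideal.span {(n : 𝓞 K)} = ⊤ := by
    rw [← Ideal.absNorm_eq_one_iff, h.absNorm_int, h3, one_pow]
  rw [h5, Ideal.top_mul]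

/-- the ideals of norm `ℓ ∤ 2N` -/
theorem norm_cases {ℓ : ℕ} (hℓ : ℓ.Prime) (hℓN : ¬ ℓ ∣ 2 * N) :
    (∀ 𝔩 : Ideal (𝓞 K), Ideal.absNorm 𝔩 ≠ ℓ) ∨ ∃ 𝔩 𝔩' : Ideal (𝓞 K), 𝔩 ≠ 𝔩' ∧
      icl 𝔩' = (icl 𝔩)⁻¹ ∧ ∀ 𝔮 : Ideal (𝓞 K), Ideal.absNorm 𝔮 = ℓ ↔ 𝔮 = 𝔩 ∨ 𝔮 = 𝔩' := by
  have hℓN' : ¬ ℓ ∣ N := fun h0 => hℓN (h0.mul_left 2)
  have hℓ0 : (ℓ : ℤ) ≠ 0 := by exact_mod_cast hℓ.ne_zero
  have hp : Prime (ℓ : ℤ) := Nat.prime_iff_prime_int.1 hℓ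
  by_cases hex : ∃ 𝔩 : Ideal (𝓞 K), Ideal.absNorm 𝔩 = ℓ
  · right
    obtain ⟨𝔩, h𝔩⟩ := hex
    obtain ⟨a, hd, rfl⟩ := h.eq_idl_of_absNorm hℓ hℓN' h𝔩
    have hd' : (ℓ : ℤ) ∣ 1 + N * (-a) ^ 2 := by rwa [neg_sq]
    refine ⟨idl N s a ℓ, idl N s (-a) ℓ, ?_, ?_, ?_⟩
    · intro heq
      have h1 : (N : 𝓞 K) * a + s ∈ idl N s a ℓ := w_mem _ _
      have h2 : (N : 𝓞 K) * ((-a : ℤ) : 𝓞 K) + s ∈ idl N s a ℓ := by rw [heq]; exact w_mem _ _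
      have h3 := Ideal.sub_mem _ h1 h2
      have h4 : (N : 𝓞 K) * a + s - ((N : 𝓞 K) * ((-a : ℤ) : 𝓞 K) + s) =
          ((2 * N * a : ℤ) : 𝓞 K) := by push_cast; ring
      rw [h4] at h3
      have h5 := (h.int_mem_idl hd).1 h3
      rcases hp.dvd_or_dvd h5 with h6 | h6
      · apply hℓN
        have : (ℓ : ℤ) ∣ ((2 * N : ℕ) : ℤ) := by push_cast; exact h6
        exact_mod_cast this
      · have h7 : (ℓ : ℤ) ∣ 1 := by
          have := hd.sub (h6.mul_left (N * a))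
          have e : (1 + N * a ^ 2 - N * a * a : ℤ) = 1 := by ring
          rwa [e] at this
        exact hp.not_isUnit (isUnit_of_dvd_one h7)
    · have h1 := h.idl_mul_conj hℓ0 hd
      rw [eq_comm, inv_eq_iff_mul_eq_one, ← icl_mul (idl_ne_bot hℓ0) (idl_ne_bot hℓ0), h1,
        icl_span (by exact_mod_cast hℓ0)]
    · intro 𝔮
      constructor
      · intro h𝔮
        obtain ⟨b, hb, rfl⟩ := h.eq_idl_of_absNorm hℓ hℓN' h𝔮
        have h1 : (ℓ : ℤ) ∣ N * ((b - a) * (b + a)) := by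
          have := hb.sub hd
          have e : (1 + N * b ^ 2 - (1 + N * a ^ 2) : ℤ) = N * ((b - a) * (b + a)) := by ring
          rwa [e] at this
        rcases hp.dvd_or_dvd h1 with h2 | h2
        · exact absurd (Int.natCast_dvd_natCast.1 h2) hℓN'
        · rcases hp.dvd_or_dvd h2 with h3 | h3
          · obtain ⟨k, hk⟩ := h3
            left
            have : b = a + k * ℓ := by linarith
            rw [this, idl_add]
          · obtain ⟨k, hk⟩ := h3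
            right
            have : b = -a + k * ℓ := by linarith
            rw [this, idl_add]
      · rintro (rfl | rfl)
        · rw [h.absNorm_idl hd, Int.natAbs_natCast]
        · rw [h.absNorm_idl hd', Int.natAbs_natCast]
  · left
    push Not at hex
    exact hex

/-- the mod `2` Hecke matrix on CM points: either `0`, or given by a class `g` and its inverse -/
theorem hecke_two {ℓ : ℕ} (hℓ : ℓ.Prime) (hℓN : ¬ ℓ ∣ 2 * N) :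
    ((∀ 𝔩 : Ideal (𝓞 K), Ideal.absNorm 𝔩 ≠ ℓ) ∧
      ∀ a c a' c' : ℤ, 0 < c → c ∣ 1 + N * a ^ 2 → 0 < c' → c' ∣ 1 + N * a' ^ 2 →
      Nat.card {x : Option (ZMod ℓ) // ∃ γ ∈ Gamma0 N, ∃ z : ℍ, (z : ℂ) = hpt ℓ x (tau N a c) ∧
        γ • z = tau N a' c'} = 0) ∨
    ∃ 𝔩 : Ideal (𝓞 K), Ideal.absNorm 𝔩 = ℓ ∧
      ∀ a c a' c' : ℤ, 0 < c → c ∣ 1 + N * a ^ 2 → 0 < c' → c' ∣ 1 + N * a' ^ 2 →
      ∀ [Decidable (icl 𝔩 * icl (idl N s a c) = icl (idl N s a' c'))]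
        [Decidable ((icl 𝔩)⁻¹ * icl (idl N s a c) = icl (idl N s a' c'))],
      Nat.card {x : Option (ZMod ℓ) // ∃ γ ∈ Gamma0 N, ∃ z : ℍ, (z : ℂ) = hpt ℓ x (tau N a c) ∧
        γ • z = tau N a' c'} =
      (if icl 𝔩 * icl (idl N s a c) = icl (idl N s a' c') then 1 else 0) +
      (if (icl 𝔩)⁻¹ * icl (idl N s a c) = icl (idl N s a' c') then 1 else 0) := by
  have hℓN' : ¬ ℓ ∣ N := fun h0 => hℓN (h0.mul_left 2)
  rcases h.norm_cases hℓ hℓN with h1 | ⟨𝔩, 𝔩', hne, hinv, h2⟩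
  · left
    refine ⟨h1, fun a c a' c' hc hd hc' hd' => ?_⟩
    rw [h.hecke_card hℓ hℓN' hc hd hc' hd', Nat.card_eq_zero]
    left
    exact ⟨fun x => h1 _ x.2.1⟩
  · right
    refine ⟨𝔩, (h2 𝔩).2 (Or.inl rfl), fun a c a' c' hc hd hc' hd' => ?_⟩
    intro _ _
    rw [h.hecke_card hℓ hℓN' hc hd hc' hd']
    have hset : {𝔮 : Ideal (𝓞 K) | Ideal.absNorm 𝔮 = ℓ ∧
        icl 𝔮 * icl (idl N s a c) = icl (idl N s a' c')} =
        {𝔮 | 𝔮 = 𝔩 ∧ icl 𝔩 * icl (idl N s a c) = icl (idl N s a' c')} ∪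
        {𝔮 | 𝔮 = 𝔩' ∧ (icl 𝔩)⁻¹ * icl (idl N s a c) = icl (idl N s a' c')} := by
      ext 𝔮
      simp only [Set.mem_ofPred_eq, Set.mem_union, h2]
      constructor
      · rintro ⟨rfl | rfl, h3⟩
        · exact Or.inl ⟨rfl, h3⟩
        · exact Or.inr ⟨rfl, by rw [← hinv]; exact h3⟩
      · rintro (⟨rfl, h3⟩ | ⟨rfl, h3⟩)
        · exact ⟨Or.inl rfl, h3⟩
        · exact ⟨Or.inr rfl, by rw [hinv]; exact h3⟩
    have hcard : Nat.card {𝔮 : Ideal (𝓞 K) // Ideal.absNorm 𝔮 = ℓ ∧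
        icl 𝔮 * icl (idl N s a c) = icl (idl N s a' c')} =
        Set.ncard ({𝔮 : Ideal (𝓞 K) | 𝔮 = 𝔩 ∧ icl 𝔩 * icl (idl N s a c) = icl (idl N s a' c')} ∪
        {𝔮 | 𝔮 = 𝔩' ∧ (icl 𝔩)⁻¹ * icl (idl N s a c) = icl (idl N s a' c')}) := by
      rw [← hset, ← Nat.card_coe_set_eq]
      rfl
    have hfin1 : {𝔮 : Ideal (𝓞 K) | 𝔮 = 𝔩 ∧
        icl 𝔩 * icl (idl N s a c) = icl (idl N s a' c')}.Finite :=
      Set.Finite.subset (Set.finite_singleton 𝔩) (fun x hx => hx.1)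
    have hfin2 : {𝔮 : Ideal (𝓞 K) | 𝔮 = 𝔩' ∧
        (icl 𝔩)⁻¹ * icl (idl N s a c) = icl (idl N s a' c')}.Finite :=
      Set.Finite.subset (Set.finite_singleton 𝔩') (fun x hx => hx.1)
    rw [hcard, Set.ncard_union_eq ?_ hfin1 hfin2]
    · congr 1
      · split_ifs with h3
        · simp [h3]
        · simp [h3]
      · split_ifs with h3
        · simp [h3]
        · simp [h3]
    · rw [Set.disjoint_left]
      rintro 𝔮 ⟨rfl, -⟩ ⟨h3, -⟩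
      exact hne h3

end IsQF

end Fermat.Agent.LTF.QuadInt
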