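import Fermat.Agent.LTF.CMFixed
import Fermat.Agent.LTF.CMTwo
import Fermat.Agent.LTF.CMEll

/-!
# Smith theory for `w_N` on `J₀(N)`: the contribution of the CM points
-/

set_option autoImplicit false
set_option linter.style.haveILetI false
set_option linter.unusedSectionVars false

open UpperHalfPlane Function CongruenceSubgroup ModularForm
open scoped Manifold MatrixGroups IntermediateField NumberField

noncomputable section

namespace Fermat.Agent.LTF.CM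

open Fermat.Agent.X0Emb Fermat.Agent.X0Deg AlgebraicCurve Fermat.Agent.HeckePar
open ModularCurve Fermat.Agent.JLevelOne Fermat.Agent.GalRep Fermat.Agent.HeckeComm
open Fermat.Agent.TriGauss Fermat.Agent.LTF.QuadInt

local notation "KQ" => AlgebraicClosure ℚ

section Fix

variable {K : Type*} [Field K] [NumberField K] {N : ℕ} [NeZero N] {s : 𝓞 K}

/-- the involution `w_N` of level `N` -/
abbrev wN (N : ℕ) [NeZero N] : modularFunctionFieldBar (1 * N) ≃ₐ[KQ] modularFunctionFieldBar (1 * N) :=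
  Smith.wC (m := 1) (q := N) (Nat.coprime_one_right N)

theorem mem_gamma0_one_mul {γ : SL(2, ℤ)} : γ ∈ Gamma0 (1 * N) ↔ γ ∈ Gamma0 N := by
  rw [one_mul]

theorem exists_place_tau (h : IsQF N s) {a c : ℤ} (hc : 0 < c) (hd : c ∣ 1 + N * a ^ 2) :
    ∃ v : Place KQ (modularFunctionFieldBar (1 * N)), At v (tau N a c) 1 ∧
      SemilinearAut.ofAlgAut (wN N) • v = v := by
  have hN := h.pos
  have hN1 : N ≠ 1 := by
    rintro rfl
    have := h.even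
    omega
  obtain ⟨x, y, hxy⟩ := exists_bezoutQ (Q := N) (m := 1) (Nat.coprime_one_right N)
  obtain ⟨e, he⟩ := hd
  have h1 := tau_fixed hN hc he
  obtain ⟨γ, hγ, hfix⟩ := (exists_smul_atkG_iff (M := 1 * N) rfl x y hxy (tau N a c)).mpr
    ⟨a, -e, c, -a, by push_cast; linear_combination -he, by
      push_cast at h1 ⊢
      linear_combination h1⟩
  obtain ⟨v, k, hv, hw⟩ := exists_at_of_fixed (isAtkin_wC (m := 1) (q := N)
    (Nat.coprime_one_right N)) hN1 x y hxy hγ hfix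
  have hk := hv.mult (E₄_tau_ne h.sqf h.even hc ⟨e, he⟩) (E₆_tau_ne h.sqf h.even hc ⟨e, he⟩)
  subst hk
  exact ⟨v, hv, hw⟩

theorem exists_P (h : IsQF N s) (C : ClassGroup (𝓞 K)) :
    ∃ (a c : ℤ) (v : Place KQ (modularFunctionFieldBar (1 * N))), 0 < c ∧ c ∣ 1 + N * a ^ 2 ∧
      icl (idl N s a c) = C ∧ At v (tau N a c) 1 ∧ SemilinearAut.ofAlgAut (wN N) • v = v := by
  obtain ⟨a, c, hc, hd, hC⟩ := h.exists_idl C
  obtain ⟨v, hv, hw⟩ := exists_place_tau h hc hd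
  exact ⟨a, c, v, hc, hd, hC, hv, hw⟩

/-- representatives -/
def Pa (h : IsQF N s) (C : ClassGroup (𝓞 K)) : ℤ := (exists_P h C).choose

/-- representatives -/
def Pc (h : IsQF N s) (C : ClassGroup (𝓞 K)) : ℤ := (exists_P h C).choose_spec.choose

/-- the CM places -/
def P (h : IsQF N s) (C : ClassGroup (𝓞 K)) : Place KQ (modularFunctionFieldBar (1 * N)) :=
  (exists_P h C).choose_spec.choose_spec.choose

theorem P_spec (h : IsQF N s) (C : ClassGroup (𝓞 K)) : 0 < Pc h C ∧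
    Pc h C ∣ 1 + N * Pa h C ^ 2 ∧ icl (idl N s (Pa h C) (Pc h C)) = C ∧
      At (P h C) (tau N (Pa h C) (Pc h C)) 1 ∧ SemilinearAut.ofAlgAut (wN N) • P h C = P h C :=
  (exists_P h C).choose_spec.choose_spec.choose_spec

theorem P_injective (h : IsQF N s) : Injective (P h) := by
  intro C C' hCC
  obtain ⟨hc, hd, hC, hv, -⟩ := P_spec h C
  obtain ⟨hc', hd', hC', hv', -⟩ := P_spec h C'
  rw [hCC] at hv
  obtain ⟨γ, hγ, h1⟩ := hv.exists_smul hv'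
  rw [← hC, ← hC']
  exact h.icl_eq_of_smul hc hc' hd hd' (mem_gamma0_one_mul.mp hγ) h1

theorem P_surj (h : IsQF N s) (hN4 : 4 ≤ N) {v : Place KQ (modularFunctionFieldBar (1 * N))}
    (hv : SemilinearAut.ofAlgAut (wN N) • v = v) : ∃ C, P h C = v := by
  have hN1 : N ≠ 1 := by omega
  obtain ⟨x, y, hxy⟩ := exists_bezoutQ (Q := N) (m := 1) (Nat.coprime_one_right N)
  obtain ⟨τ, k, hat, hτ⟩ := exists_at_fixed (isAtkin_wC (m := 1) (q := N)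
    (Nat.coprime_one_right N)) hN1 h.sqf x y hxy hv
  obtain ⟨x', y', z', t', hdet, hfix'⟩ := (exists_smul_atkG_iff rfl x y hxy τ).mp hτ
  obtain ⟨a, c, hc, -, hd, rfl⟩ := exists_tau_of_fixed (d := 1) hN4 one_pos hdet hfix'
  refine ⟨icl (idl N s a c), ?_⟩
  obtain ⟨hc', hd', hC', hv', -⟩ := P_spec h (icl (idl N s a c))
  obtain ⟨γ, hγ, h1⟩ := h.exists_smul_of_icl_eq hc' hc hd' hd hC'
  have h2 := hv'.smul (mem_gamma0_one_mul.mpr hγ)
  rw [h1] at h2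
  exact (h2.unique hat).1

theorem coe_hrep_smul {ℓ : ℕ} [NeZero ℓ] (x : Option (ZMod ℓ)) (τ : ℍ) :
    ((hrep ℓ x • τ : ℍ) : ℂ) = hpt ℓ x τ := by
  cases x with
  | none =>
    rw [ModFun.hrep_none_smul, coe_aff, hpt]
    push_cast
    ring
  | some b =>
    rw [ModFun.hrep_some_smul, coe_aff, hpt]
    push_cast
    ring

/-- the Hecke multiplicities between CM places -/
theorem heckeDiv_P (h : IsQF N s) {ℓ : ℕ} [hℓ : Fact ℓ.Prime] (hℓN : ¬ ℓ ∣ N)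
    (C C' : ClassGroup (𝓞 K)) :
    TEll.heckeDiv (1 * N) ℓ (Finsupp.single (P h C') 1) (P h C) =
      (Nat.card {x : Option (ZMod ℓ) // ∃ γ ∈ Gamma0 N, ∃ z : ℍ,
        (z : ℂ) = hpt ℓ x (tau N (Pa h C) (Pc h C)) ∧ γ • z = tau N (Pa h C') (Pc h C')} : ℤ) := by
  obtain ⟨hc, hd, hC, hv, -⟩ := P_spec h C
  obtain ⟨hc', hd', hC', hv', -⟩ := P_spec h C'
  rw [hv.hecke_single (by rwa [one_mul]) hv']
  congr 1
  refine Nat.card_congr (Equiv.subtypeEquivRight fun x => ?_)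
  constructor
  · rintro ⟨γ, hγ, h1⟩
    exact ⟨γ, mem_gamma0_one_mul.mp hγ, _, coe_hrep_smul x _, h1⟩
  · rintro ⟨γ, hγ, z, hz, h1⟩
    refine ⟨γ, mem_gamma0_one_mul.mpr hγ, ?_⟩
    have : hrep ℓ x • tau N (Pa h C) (Pc h C) = z := UpperHalfPlane.ext (by
      rw [coe_hrep_smul, hz])
    rw [this, h1]

end Fix

section Final

variable {K : Type*} [Field K] [NumberField K] {N : ℕ} [NeZero N] {s : 𝓞 K}
variable {S : Set ℕ}

open Classical in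
/-- the operator attached to a prime -/
def tA (K : Type*) [Field K] [NumberField K] (ℓ : ℕ) :
    MonoidAlgebra (ZMod 2) (ClassGroup (𝓞 K)) :=
  if hex : ∃ 𝔩 : Ideal (𝓞 K), Ideal.absNorm 𝔩 = ℓ then ClassAlg.TA (icl hex.choose) else 0

theorem TA_inv {G : Type*} [CommGroup G] [Finite G] (c : G) :
    ClassAlg.TA c⁻¹ = ClassAlg.TA c := by
  rw [ClassAlg.TA, ClassAlg.TA, inv_inv, add_comm]

theorem tA_eq (h : IsQF N s) {ℓ : ℕ} (hℓ : ℓ.Prime) (hℓN : ¬ ℓ ∣ 2 * N) {𝔩 : Ideal (𝓞 K)}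
    (h𝔩 : Ideal.absNorm 𝔩 = ℓ) : tA K ℓ = ClassAlg.TA (icl 𝔩) := by
  have hex : ∃ 𝔩 : Ideal (𝓞 K), Ideal.absNorm 𝔩 = ℓ := ⟨𝔩, h𝔩⟩
  rw [tA, dif_pos hex]
  rcases h.norm_cases hℓ hℓN with h1 | ⟨𝔮, 𝔮', hne, hinv, h2⟩
  · exact absurd h𝔩 (h1 _)
  · rcases (h2 _).mp h𝔩 with h3 | h3 <;> rcases (h2 _).mp hex.choose_spec with h4 | h4
    · rw [h3, h4]
    · rw [h3, h4, hinv, TA_inv]
    · rw [h3, h4, hinv, TA_inv]
    · rw [h3, h4]

theorem tA_eq_zero {ℓ : ℕ} (h : ∀ 𝔩 : Ideal (𝓞 K), Ideal.absNorm 𝔩 ≠ ℓ) : tA K ℓ = 0 := by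
  rw [tA, dif_neg]
  rintro ⟨𝔩, h𝔩⟩
  exact h 𝔩 h𝔩

/-- the Hecke ring acts on the group algebra -/
def phiA (K : Type*) [Field K] [NumberField K] (S : Set ℕ) :
    HeckeAlgS S →+* MonoidAlgebra (ZMod 2) (ClassGroup (𝓞 K)) :=
  MvPolynomial.eval₂Hom (Int.castRingHom _) (fun ℓ => tA K (ℓ.1 : ℕ))

theorem phiA_X (ℓ : {ℓ : Nat.Primes // (ℓ : ℕ) ∉ S}) :
    phiA K S (MvPolynomial.X ℓ) = tA K (ℓ.1 : ℕ) := by
  rw [phiA, MvPolynomial.coe_eval₂Hom, MvPolynomial.eval₂_X]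

open Classical in
/-- parities of Hecke translates -/
theorem par_heckeDiv_P (h : IsQF N s) {ℓ : ℕ} [hℓ : Fact ℓ.Prime] (hℓN : ¬ ℓ ∣ 2 * N)
    (x : MonoidAlgebra (ZMod 2) (ClassGroup (𝓞 K))) (C : ClassGroup (𝓞 K)) :
    ∑ C', ClassAlg.cf x C' * Smith.par (TEll.heckeDiv (1 * N) ℓ (Finsupp.single (P h C') 1))
      (P h C) = ClassAlg.cf (tA K ℓ * x) C := by
  have hℓN' : ¬ ℓ ∣ N := fun h0 => hℓN (h0.mul_left 2)
  rcases h.hecke_two hℓ.out hℓN with ⟨h1, h2⟩ | ⟨𝔩, h𝔩, h2⟩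
  · rw [tA_eq_zero h1, zero_mul, ClassAlg.cf_zero]
    refine Finset.sum_eq_zero fun C' _ => ?_
    obtain ⟨hc, hd, -, -, -⟩ := P_spec h C
    obtain ⟨hc', hd', -, -, -⟩ := P_spec h C'
    rw [Smith.par, heckeDiv_P h hℓN', h2 _ _ _ _ hc hd hc' hd']
    simp
  · rw [tA_eq h hℓ.out hℓN h𝔩, ClassAlg.cf_TA_mul, ClassAlg.T_apply]
    have h3 : ∀ C', ClassAlg.cf x C' * Smith.par (TEll.heckeDiv (1 * N) ℓ
        (Finsupp.single (P h C') 1)) (P h C) =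
        (if icl 𝔩 * C = C' then ClassAlg.cf x C' else 0) +
          (if (icl 𝔩)⁻¹ * C = C' then ClassAlg.cf x C' else 0) := by
      intro C'
      obtain ⟨hc, hd, hC, -, -⟩ := P_spec h C
      obtain ⟨hc', hd', hC', -, -⟩ := P_spec h C'
      rw [Smith.par, heckeDiv_P h hℓN', h2 _ _ _ _ hc hd hc' hd', hC, hC']
      push_cast
      rw [mul_add]
      congr 1 <;> split_ifs <;> simp
    rw [Finset.sum_congr rfl fun C' _ => h3 C', Finset.sum_add_distrib, Finset.sum_ite_eq,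
      Finset.sum_ite_eq, if_pos (Finset.mem_univ _), if_pos (Finset.mem_univ _)]

/-- the parity vector -/
def iotaA (h : IsQF N s) : MonoidAlgebra (ZMod 2) (ClassGroup (𝓞 K)) →+
    (Place KQ (modularFunctionFieldBar (1 * N)) →₀ ZMod 2) where
  toFun x := Finsupp.mapDomain (P h) x.coeff
  map_zero' := Finsupp.mapDomain_zero
  map_add' _ _ := Finsupp.mapDomain_add

theorem iotaA_P (h : IsQF N s) (x : MonoidAlgebra (ZMod 2) (ClassGroup (𝓞 K)))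
    (C : ClassGroup (𝓞 K)) : iotaA h x (P h C) = ClassAlg.cf x C :=
  Finsupp.mapDomain_apply (P_injective h) _ _

theorem iotaA_injective (h : IsQF N s) : Injective (iotaA h) := by
  intro x y hxy
  apply ClassAlg.cf_injective
  funext C
  rw [← iotaA_P h, ← iotaA_P h, hxy]

/-- generators of the maximal ideal -/
theorem ker_le_span (χ : HeckeAlgS S →+* ZMod 2) :
    RingHom.ker χ ≤ Ideal.span (insert (2 : HeckeAlgS S)
      (Set.range fun ℓ : {ℓ : Nat.Primes // (ℓ : ℕ) ∉ S} =>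
        (MvPolynomial.X ℓ - (((χ (MvPolynomial.X ℓ)).val : ℤ) : HeckeAlgS S)))) := by
  set I := Ideal.span (insert (2 : HeckeAlgS S)
      (Set.range fun ℓ : {ℓ : Nat.Primes // (ℓ : ℕ) ∉ S} =>
        (MvPolynomial.X ℓ - (((χ (MvPolynomial.X ℓ)).val : ℤ) : HeckeAlgS S)))) with hI
  have key : ∀ p : HeckeAlgS S, ∃ n : ℤ, p - (n : HeckeAlgS S) ∈ I := by
    intro p
    induction p using MvPolynomial.induction_on with
    | C a =>
      refine ⟨a, ?_⟩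
      have h1 : (MvPolynomial.C a : HeckeAlgS S) = ((a : ℤ) : HeckeAlgS S) :=
        eq_intCast (MvPolynomial.C : ℤ →+* HeckeAlgS S) a
      rw [h1, sub_self]
      exact I.zero_mem
    | add p q hp hq =>
      obtain ⟨n, hn⟩ := hp
      obtain ⟨m, hm⟩ := hq
      refine ⟨n + m, ?_⟩
      have : p + q - ((n + m : ℤ) : HeckeAlgS S) = (p - (n : HeckeAlgS S)) + (q - (m : HeckeAlgS S)) := by
        push_cast; ring
      rw [this]
      exact I.add_mem hn hm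
    | mul_X p ℓ hp =>
      obtain ⟨n, hn⟩ := hp
      refine ⟨n * (χ (MvPolynomial.X ℓ)).val, ?_⟩
      have : p * MvPolynomial.X ℓ - ((n * (χ (MvPolynomial.X ℓ)).val : ℤ) : HeckeAlgS S) =
          MvPolynomial.X ℓ * (p - (n : HeckeAlgS S)) +
            (n : HeckeAlgS S) * (MvPolynomial.X ℓ - (((χ (MvPolynomial.X ℓ)).val : ℤ) : HeckeAlgS S)) := by
        push_cast; ring
      rw [this]
      exact I.add_mem (I.mul_mem_left _ hn) (I.mul_mem_left _ (Ideal.subset_span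
        (Set.mem_insert_of_mem _ ⟨ℓ, rfl⟩)))
  have hIk : I ≤ RingHom.ker χ := by
    rw [hI, Ideal.span_le]
    rintro r (rfl | ⟨ℓ, rfl⟩)
    · rw [SetLike.mem_coe, RingHom.mem_ker, map_ofNat]
      rfl
    · rw [SetLike.mem_coe, RingHom.mem_ker, map_sub, map_intCast]
      simp
  intro p hp
  obtain ⟨n, hn⟩ := key p
  have h1 : χ (n : HeckeAlgS S) = 0 := by
    have h2 := hIk hn
    rw [RingHom.mem_ker, map_sub, RingHom.mem_ker.mp hp, zero_sub, neg_eq_zero] at h2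
    exact h2
  rw [map_intCast, ZMod.intCast_zmod_eq_zero_iff_dvd] at h1
  obtain ⟨k, rfl⟩ := h1
  have h3 : (((2 : ℕ) * k : ℤ) : HeckeAlgS S) ∈ I := by
    have : (((2 : ℕ) * k : ℤ) : HeckeAlgS S) = (k : HeckeAlgS S) * 2 := by push_cast; ring
    rw [this]
    exact I.mul_mem_left _ (Ideal.subset_span (Set.mem_insert _ _))
  have := I.add_mem hn h3
  rwa [sub_add_cancel] at this

theorem phiA_gen (h : IsQF N s) (hℓN : ∀ ℓ : {ℓ : Nat.Primes // (ℓ : ℕ) ∉ S}, ¬ (ℓ.1 : ℕ) ∣ 2 * N)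
    (ψ : ClassGroup (𝓞 K) →* Multiplicative (ZMod 3))
    (χ : HeckeAlgS S →+* ZMod 2)
    (hχ1 : ∀ (ℓ : {ℓ : Nat.Primes // (ℓ : ℕ) ∉ S}) (𝔩 : Ideal (𝓞 K)),
      Ideal.absNorm 𝔩 = (ℓ.1 : ℕ) → χ (MvPolynomial.X ℓ) = ClassAlg.ev ψ (icl 𝔩))
    (hχ0 : ∀ (ℓ : {ℓ : Nat.Primes // (ℓ : ℕ) ∉ S}),
      (∀ 𝔩 : Ideal (𝓞 K), Ideal.absNorm 𝔩 ≠ (ℓ.1 : ℕ)) → χ (MvPolynomial.X ℓ) = 0)
    (r : HeckeAlgS S) (hr : r ∈ insert (2 : HeckeAlgS S)
      (Set.range fun ℓ : {ℓ : Nat.Primes // (ℓ : ℕ) ∉ S} =>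
        (MvPolynomial.X ℓ - (((χ (MvPolynomial.X ℓ)).val : ℤ) : HeckeAlgS S)))) :
    phiA K S r = 0 ∨ ∃ c : ClassGroup (𝓞 K),
        phiA K S r = ClassAlg.TA c - algebraMap (ZMod 2) _ (ClassAlg.ev ψ c) := by
  have h22 : (2 : MonoidAlgebra (ZMod 2) (ClassGroup (𝓞 K))) = 0 := by
    have : (2 : MonoidAlgebra (ZMod 2) (ClassGroup (𝓞 K))) = algebraMap (ZMod 2) _ 2 := by
      rw [map_ofNat]
    rw [this]
    have h23 : (2 : ZMod 2) = 0 := rfl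
    rw [h23, map_zero]
  rcases hr with rfl | ⟨ℓ, rfl⟩
  · left
    rw [map_ofNat, h22]
  · have h3 : phiA K S (((χ (MvPolynomial.X ℓ)).val : ℤ) : HeckeAlgS S) =
        algebraMap (ZMod 2) _ (χ (MvPolynomial.X ℓ)) := by
      rw [map_intCast]
      conv_rhs => rw [← ZMod.natCast_zmod_val (χ (MvPolynomial.X ℓ))]
      rw [map_natCast]
      push_cast
      rfl
    by_cases hex : ∃ 𝔩 : Ideal (𝓞 K), Ideal.absNorm 𝔩 = (ℓ.1 : ℕ)
    · obtain ⟨𝔩, h𝔩⟩ := hex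
      right
      refine ⟨icl 𝔩, ?_⟩
      rw [map_sub, h3, phiA_X, tA_eq h ℓ.1.2 (hℓN ℓ) h𝔩, hχ1 ℓ 𝔩 h𝔩]
    · left
      push Not at hex
      rw [map_sub, h3, phiA_X, tA_eq_zero hex, hχ0 ℓ hex, map_zero, sub_zero]

theorem iotaA_support (h : IsQF N s) (x : MonoidAlgebra (ZMod 2) (ClassGroup (𝓞 K)))
    (v : Place KQ (modularFunctionFieldBar (1 * N))) (hv : v ∈ (iotaA h x).support) :
    SemilinearAut.ofAlgAut (wN N) • v = v := by
  classical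
  have h3 : (Finsupp.mapDomain (P h) x.coeff).support ⊆ Finset.image (P h) _ :=
    Finsupp.mapDomain_support
  obtain ⟨C, -, rfl⟩ := Finset.mem_image.mp (h3 hv)
  exact (P_spec h C).2.2.2.2

theorem iotaA_T (h : IsQF N s) (hN4 : 4 ≤ N)
    (hS : ∀ ℓ : ℕ, ℓ.Prime → ℓ ∣ 1 * N → ℓ ∈ S) (h2 : 2 ∈ S)
    (ℓ : {ℓ : Nat.Primes // (ℓ : ℕ) ∉ S}) (hℓN : ¬ (ℓ.1 : ℕ) ∣ 2 * N)
    (x : MonoidAlgebra (ZMod 2) (ClassGroup (𝓞 K)))
    (D : Divisor KQ (modularFunctionFieldBar (1 * N)))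
    (hD : SemilinearAut.ofAlgAut (wN N) • D = D)
    (hpar : ∀ v, SemilinearAut.ofAlgAut (wN N) • v = v → Smith.par D v = iotaA h x v)
    (v : Place KQ (modularFunctionFieldBar (1 * N)))
    (hv : SemilinearAut.ofAlgAut (wN N) • v = v) :
    Smith.par ((Smith.evenS (m := 1) (q := N) (Nat.coprime_one_right N) hS h2 ℓ).T D) v =
      iotaA h (phiA K S (MvPolynomial.X ℓ) * x) v := by
  classical
  haveI : Fact (ℓ.1 : ℕ).Prime := ⟨ℓ.1.2⟩
  obtain ⟨C, rfl⟩ := P_surj h hN4 hv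
  have h3 := Smith.par_T_of_single (Smith.wC_wC (m := 1) (q := N) (Nat.coprime_one_right N))
    (Smith.evenS (m := 1) (q := N) (Nat.coprime_one_right N) hS h2 ℓ) (P h)
    (fun C => (P_spec h C).2.2.2.2) (ClassAlg.cf x) hD (fun u hu => by
      rw [hpar u hu]
      obtain ⟨C, rfl⟩ := P_surj h hN4 hu
      rw [iotaA_P, Finset.sum_eq_single C]
      · rw [if_pos rfl]
      · intro b _ hb
        rw [if_neg fun h0 => hb (P_injective h h0)]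
      · intro hC
        exact absurd (Finset.mem_univ _) hC) (v := P h C) hv
  refine h3.trans ?_
  rw [iotaA_P, phiA_X, ← par_heckeDiv_P h hℓN]
  exact Finset.sum_congr rfl fun C' _ => rfl

/-- **Smith theory for `w_N` on `J₀(N)`**: the class group contribution. -/
theorem smith_class (h : IsQF N s) (hN4 : 4 ≤ N)
    (hS : ∀ ℓ : ℕ, ℓ.Prime → ℓ ∣ 1 * N → ℓ ∈ S) (h2 : 2 ∈ S)
    (ψ : ClassGroup (𝓞 K) →* Multiplicative (ZMod 3)) (hψ : ψ ≠ 1)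
    (χ : HeckeAlgS S →+* ZMod 2)
    (hχ1 : ∀ (ℓ : {ℓ : Nat.Primes // (ℓ : ℕ) ∉ S}) (𝔩 : Ideal (𝓞 K)),
      Ideal.absNorm 𝔩 = (ℓ.1 : ℕ) → χ (MvPolynomial.X ℓ) = ClassAlg.ev ψ (icl 𝔩))
    (hχ0 : ∀ (ℓ : {ℓ : Nat.Primes // (ℓ : ℕ) ∉ S}),
      (∀ 𝔩 : Ideal (𝓞 K), Ideal.absNorm 𝔩 ≠ (ℓ.1 : ℕ)) → χ (MvPolynomial.X ℓ) = 0)
    (ℓ₀ : {ℓ : Nat.Primes // (ℓ : ℕ) ∉ S}) (hℓ₀ : χ (MvPolynomial.X ℓ₀) ≠ 0)
    [(RingHom.ker χ).IsMaximal] :
    letI := Smith.modS (1 * N) S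
    2 ^ (2 * ClassAlg.h₂ (ClassGroup (𝓞 K))) * Nat.card (Smith.plusPart
        (Smith.wLin (m := 1) (q := N) (Nat.coprime_one_right N) hS h2) (RingHom.ker χ) ⊓
        Smith.tors (HeckeAlgS S) (JZero (1 * N)) 1 : Submodule (HeckeAlgS S) (JZero (1 * N))) ≤
      Nat.card (Smith.minusPart
        (Smith.wLin (m := 1) (q := N) (Nat.coprime_one_right N) hS h2) (RingHom.ker χ) ⊓
        Smith.tors (HeckeAlgS S) (JZero (1 * N)) 1 : Submodule (HeckeAlgS S) (JZero (1 * N))) := by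
  classical
  have hℓN : ∀ ℓ : {ℓ : Nat.Primes // (ℓ : ℕ) ∉ S}, ¬ (ℓ.1 : ℕ) ∣ 2 * N := by
    intro ℓ hd
    rcases (Nat.Prime.dvd_mul ℓ.1.2).mp hd with h3 | h3
    · have h4 := (Nat.prime_dvd_prime_iff_eq ℓ.1.2 Nat.prime_two).mp h3
      exact ℓ.2 (h4 ▸ h2)
    · exact ℓ.2 (hS _ ℓ.1.2 (by rwa [one_mul]))
  letI : Module (HeckeAlgS S) (ClassAlg.EA ψ) := Module.compHom (ClassAlg.EA ψ) (phiA K S)
  have hsmul : ∀ (r : HeckeAlgS S) (x : ClassAlg.EA ψ),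
      ((r • x : ClassAlg.EA ψ) : MonoidAlgebra (ZMod 2) (ClassGroup (𝓞 K))) = phiA K S r * x :=
    fun r x => rfl
  obtain ⟨j, hj⟩ := ClassAlg.exists_pow_smul_eq_zero ψ (phiA K S) (RingHom.ker χ) _
    (ker_le_span χ) (phiA_gen h hℓN ψ χ hχ1 hχ0)
  have hV : ∀ r ∈ (RingHom.ker χ) ^ j, ∀ v : ClassAlg.EA ψ, r • v = 0 := by
    intro r hr v
    apply Subtype.ext
    rw [hsmul]
    exact hj r hr v v.2
  rw [← ClassAlg.natCard_EA ψ hψ]
  let ι : ClassAlg.EA ψ →+ (Place KQ (modularFunctionFieldBar (1 * N)) →₀ ZMod 2) :=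
    (iotaA h).comp (ClassAlg.EA ψ).toAddSubmonoid.subtype
  have hι : ∀ x : ClassAlg.EA ψ, ι x =
      iotaA h (x : MonoidAlgebra (ZMod 2) (ClassGroup (𝓞 K))) := fun x => rfl
  refine Smith.smithJ_le (m := 1) (q := N) (Nat.coprime_one_right N) (by omega) hS h2
    (RingHom.ker χ) ℓ₀ (fun h0 => hℓ₀ (RingHom.mem_ker.mp h0)) hV ι ?_ ?_ ?_
  · exact (iotaA_injective h).comp Subtype.val_injective
  · intro x v hv
    rw [hι] at hv
    exact iotaA_support h _ v hv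
  · intro ℓ x D hD hpar v hv
    rw [hι, hsmul]
    exact iotaA_T h hN4 hS h2 ℓ (hℓN ℓ) _ D hD (fun v hv => by rw [hpar v hv, hι]) v hv

end Final

end Fermat.Agent.LTF.CM
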