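import Fermat.Agent.S52.Place
import Fermat.Agent.EC.RedFrob
import Fermat.Agent.ECFrob.Main
import Fermat.Agent.S44w.Model
import Fermat.Agent.LTF.Fam3

/-! The congruence modulo `3` between the traces of Frobenius in the `3`-pencil. -/

set_option autoImplicit false

open Polynomial WeierstrassCurve

namespace Fermat.Agent.LTF.Tr3

open Fermat.Agent.ECRed Fermat.Agent.S52x Fermat.Agent.ECFrob

section defs

variable {R : Type*} [CommRing R] {S : Type*} [CommRing S] (f : R →+* S)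

/-- The curve `y ^ 2 = x ^ 3 - 27 * c4 * x - 54 * c6`. -/
def sh (c4 c6 : R) : WeierstrassCurve R := ⟨0, 0, 0, -27 * c4, -54 * c6⟩

/-- `c₄` of the curve `y ^ 2 + a * x * y + b * y = x ^ 3` -/
def c4T (a b : R) : R := a ^ 4 - 24 * a * b

/-- `c₆` of the curve `y ^ 2 + a * x * y + b * y = x ^ 3` -/
def c6T (a b : R) : R := -a ^ 6 + 36 * a ^ 3 * b - 216 * b ^ 2

/-- transported parameter -/
def at' (a b l m : R) : R := a * l + (36 * b - a ^ 3) * m

/-- transported parameter -/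
def bt' (a b l m : R) : R :=
  b * (l ^ 3 + a ^ 2 * l ^ 2 * m + (144 * a * b - 5 * a ^ 4) * l * m ^ 2
    + 3 * (a ^ 3 - 24 * b) ^ 2 * m ^ 3)

theorem C43_T (a b l m : R) :
    C43 (c4T a b) (c6T a b) l m = c4T (at' a b l m) (bt' a b l m) := by
  simp only [C43, c4T, c6T, at', bt']; ring

theorem C63_T (a b l m : R) :
    C63 (c4T a b) (c6T a b) l m = c6T (at' a b l m) (bt' a b l m) := by
  simp only [C63, c4T, c6T, at', bt']; ring

theorem sh_c₄ (c4 c6 : R) : (sh c4 c6).c₄ = 1296 * c4 := by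
  simp only [WeierstrassCurve.c₄, WeierstrassCurve.b₂, WeierstrassCurve.b₄, sh]; ring

theorem sh_c₆ (c4 c6 : R) : (sh c4 c6).c₆ = 46656 * c6 := by
  simp only [WeierstrassCurve.c₆, WeierstrassCurve.b₂, WeierstrassCurve.b₄,
    WeierstrassCurve.b₆, sh]; ring

theorem sh_Δ (c4 c6 : R) : (sh c4 c6).Δ = 1259712 * (c4 ^ 3 - c6 ^ 2) := by
  simp only [WeierstrassCurve.Δ, WeierstrassCurve.b₂, WeierstrassCurve.b₄,
    WeierstrassCurve.b₆, WeierstrassCurve.b₈, sh]; ring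

theorem map_sh (c4 c6 : R) : (sh c4 c6).map f = sh (f c4) (f c6) := by
  ext <;> simp only [sh, WeierstrassCurve.map, map_zero, map_mul, map_neg, map_ofNat]

theorem map_c4T (a b : R) : f (c4T a b) = c4T (f a) (f b) := by
  simp only [c4T, map_sub, map_mul, map_pow, map_ofNat]

theorem map_c6T (a b : R) : f (c6T a b) = c6T (f a) (f b) := by
  simp only [c6T, map_sub, map_add, map_neg, map_mul, map_pow, map_ofNat]

theorem map_at' (a b l m : R) : f (at' a b l m) = at' (f a) (f b) (f l) (f m) := by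
  simp only [at', map_sub, map_add, map_mul, map_pow, map_ofNat]

theorem map_bt' (a b l m : R) : f (bt' a b l m) = bt' (f a) (f b) (f l) (f m) := by
  simp only [bt', map_sub, map_add, map_mul, map_pow, map_ofNat]

theorem disc_T (a b : R) : c4T a b ^ 3 - c6T a b ^ 2 = 1728 * (b ^ 3 * (a ^ 3 - 27 * b)) := by
  simp only [c4T, c6T]; ring

theorem C43_one_zero (c4 c6 : R) : C43 c4 c6 1 0 = c4 := by simp [C43]

theorem C63_one_zero (c4 c6 : R) : C63 c4 c6 1 0 = c6 := by simp [C63]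

theorem at'_one_zero (a b : R) : at' a b 1 0 = a := by simp [at']

theorem bt'_one_zero (a b : R) : bt' a b 1 0 = b := by simp [bt']

end defs

section points

variable {F : Type*} [Field F]

theorem eq_sh (c4 c6 a b : F) (h4 : c4 = c4T a b) (h6 : c6 = c6T a b) :
    (sh c4 c6).toAffine.Equation (3 * a ^ 2) (108 * b) := by
  rw [Affine.equation_iff, h4, h6]
  simp only [sh, c4T, c6T]; ring

theorem nonsing_sh {c4 c6 a b : F} (hΔ : (sh c4 c6).Δ ≠ 0) (h4 : c4 = c4T a b)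
    (h6 : c6 = c6T a b) : (sh c4 c6).toAffine.Nonsingular (3 * a ^ 2) (108 * b) := by
  rw [← Affine.equation_iff_nonsingular_of_Δ_ne_zero hΔ]
  exact eq_sh _ _ _ _ h4 h6

theorem b_ne_zero {c4 c6 a b : F} (hΔ : (sh c4 c6).Δ ≠ 0) (h4 : c4 = c4T a b)
    (h6 : c6 = c6T a b) : b ≠ 0 := by
  intro hb
  apply hΔ
  rw [sh_Δ, h4, h6, disc_T, hb]; ring

variable [DecidableEq F]

open WeierstrassCurve.Affine in
/-- The points with parameters are killed by `3`. -/
theorem three_nsmul {c4 c6 a b : F} (h2 : (2 : F) ≠ 0) (h3 : (3 : F) ≠ 0)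
    (hΔ : (sh c4 c6).Δ ≠ 0) (h4 : c4 = c4T a b) (h6 : c6 = c6T a b)
    (h : (sh c4 c6).toAffine.Nonsingular (3 * a ^ 2) (108 * b)) :
    3 • (Point.some _ _ h : (sh c4 c6).toAffine.Point) = 0 := by
  have hb := b_ne_zero hΔ h4 h6
  have h216 : (216 : F) ≠ 0 := by
    have : (216 : F) = 2 ^ 3 * 3 ^ 3 := by norm_num
    rw [this]; exact mul_ne_zero (pow_ne_zero _ h2) (pow_ne_zero _ h3)
  have hy : 108 * b ≠ (sh c4 c6).toAffine.negY (3 * a ^ 2) (108 * b) := by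
    rw [Affine.negY]
    intro hy
    have : 216 * b = 0 := by
      simp only [sh] at hy
      linear_combination hy
    exact (mul_ne_zero h216 hb) this
  have hsl : (sh c4 c6).toAffine.slope (3 * a ^ 2) (3 * a ^ 2) (108 * b) (108 * b) = 3 * a := by
    rw [slope_of_Y_ne rfl hy, Affine.negY]
    simp only [sh]
    have hd : 108 * b - (-(108 * b) - 0 * (3 * a ^ 2) - 0) = 216 * b := by ring
    rw [hd, div_eq_iff (mul_ne_zero h216 hb), h4, c4T]
    ring
  obtain ⟨x2, y2, hh2, hD, hx2, hy2⟩ : ∃ (x2 y2 : F) (hh2 : (sh c4 c6).toAffine.Nonsingular x2 y2),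
      (Point.some _ _ h : (sh c4 c6).toAffine.Point) + Point.some _ _ h = Point.some x2 y2 hh2 ∧
        x2 = 3 * a ^ 2 ∧ y2 = -(108 * b) := by
    refine ⟨_, _, _, Point.add_self_of_Y_ne (h₁ := h) hy, ?_, ?_⟩
    · rw [hsl, Affine.addX]; simp only [sh]; ring
    · rw [hsl, Affine.addY, Affine.negAddY, Affine.addX, Affine.negY]; simp only [sh]; ring
  subst hx2 hy2
  have e : (3 : ℕ) • (Point.some _ _ h : (sh c4 c6).toAffine.Point) =
      (Point.some _ _ h + Point.some _ _ h) + Point.some _ _ h := by abel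
  rw [e, hD]
  apply Point.add_of_Y_eq rfl
  rw [Affine.negY]; simp only [sh]; ring

open WeierstrassCurve.Affine in
/-- Every point of order three has parameters. -/
theorem exists_param {c4 c6 x y : F} (h2 : (2 : F) ≠ 0) (h3 : (3 : F) ≠ 0)
    (h : (sh c4 c6).toAffine.Nonsingular x y)
    (hP : 3 • (Point.some _ _ h : (sh c4 c6).toAffine.Point) = 0) :
    ∃ a b : F, x = 3 * a ^ 2 ∧ y = 108 * b ∧ c4 = c4T a b ∧ c6 = c6T a b := by
  have h27 : (27 : F) ≠ 0 := by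
    have : (27 : F) = 3 ^ 3 := by norm_num
    rw [this]; exact pow_ne_zero _ h3
  have h54 : (54 : F) ≠ 0 := by
    have : (54 : F) = 2 * 3 ^ 3 := by norm_num
    rw [this]; exact mul_ne_zero h2 (pow_ne_zero _ h3)
  have h108 : (108 : F) ≠ 0 := by
    have : (108 : F) = 2 ^ 2 * 3 ^ 3 := by norm_num
    rw [this]; exact mul_ne_zero (pow_ne_zero _ h2) (pow_ne_zero _ h3)
  set P : (sh c4 c6).toAffine.Point := Point.some x y h with hPdef
  have hP0 : P ≠ 0 := Point.some_ne_zero h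
  have e : (3 : ℕ) • P = P + P + P := by abel
  have hPP : P + P = -P := by
    rw [e] at hP
    exact eq_neg_of_add_eq_zero_left hP
  have hy0 : 2 * y ≠ 0 := by
    intro hy0
    have hy : y = (sh c4 c6).toAffine.negY x y := by
      rw [Affine.negY]; simp only [sh]; linear_combination hy0
    have : P + P = 0 := Point.add_self_of_Y_eq hy
    rw [this] at hPP
    exact hP0 (neg_eq_zero.1 hPP.symm)
  have hy : y ≠ (sh c4 c6).toAffine.negY x y := by
    intro hy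
    apply hy0
    rw [Affine.negY] at hy
    simp only [sh] at hy
    linear_combination hy
  set n : F := (3 * x ^ 2 - 27 * c4) / (2 * y) with hn
  have hn' : n * (2 * y) = 3 * x ^ 2 - 27 * c4 := by rw [hn, div_mul_cancel₀ _ hy0]
  have hsl : (sh c4 c6).toAffine.slope x x y y = n := by
    rw [slope_of_Y_ne rfl hy, Affine.negY]
    simp only [sh]
    have hd : y - (-y - 0 * x - 0) = 2 * y := by ring
    rw [hd, hn]
    congr 1
    ring
  obtain ⟨x2, y2, hh2, hD, hx2⟩ : ∃ (x2 y2 : F) (hh2 : (sh c4 c6).toAffine.Nonsingular x2 y2),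
      P + P = Point.some x2 y2 hh2 ∧ x2 = n ^ 2 - 2 * x := by
    refine ⟨_, _, _, Point.add_self_of_Y_ne (h₁ := h) hy, ?_⟩
    rw [hsl, Affine.addX]; simp only [sh]; ring
  have hxx : x2 = x := by
    rw [hPP] at hD
    exact (Point.X_eq_iff (h₁ := hh2) (h₂ := h)).2 (Or.inr (by rw [← hD]))
  have hn2 : n ^ 2 = 3 * x := by rw [hxx] at hx2; linear_combination -hx2
  have heq := ((sh c4 c6).toAffine.equation_iff x y).1 h.1
  simp only [sh] at heq
  have hx : x = 3 * (n / 3) ^ 2 := by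
    field_simp
    linear_combination -hn2
  have hy' : y = 108 * (y / 108) := by field_simp
  have hc4 : c4 = c4T (n / 3) (y / 108) := by
    apply mul_left_cancel₀ h27
    rw [c4T]
    have e1 : (27 : F) * ((n / 3) ^ 4 - 24 * (n / 3) * (y / 108)) = 3 * (3 * (n / 3) ^ 2) ^ 2
        - 2 * (3 * (n / 3)) * (108 * (y / 108)) := by ring
    rw [e1, ← hx, ← hy', mul_div_cancel₀ _ h3]
    linear_combination hn'
  refine ⟨n / 3, y / 108, hx, hy', hc4, ?_⟩
  apply mul_left_cancel₀ h54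
  have e1 : 54 * c6T (n / 3) (y / 108) = (3 * (n / 3) ^ 2) ^ 3
    - 27 * c4T (n / 3) (y / 108) * (3 * (n / 3) ^ 2) - (108 * (y / 108)) ^ 2 := by
    simp only [c6T, c4T]; ring
  rw [e1, ← hx, ← hy', ← hc4]
  linear_combination heq

end points

section rel

variable {F : Type*} [Field F]

/-- The relation between `3`-torsion points of two curves of the pencil; the curves `E` and `E'`
are meant to be `sh c4 c6` and `sh (C43 c4 c6 l m) (C63 c4 c6 l m)`. -/
def Rel (E E' : WeierstrassCurve F) (c4 c6 l m : F) (P : E.toAffine.Point)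
    (Q : E'.toAffine.Point) : Prop :=
  (P = 0 ∧ Q = 0) ∨ ∃ (a b : F) (h : E.toAffine.Nonsingular (3 * a ^ 2) (108 * b))
    (h' : E'.toAffine.Nonsingular (3 * at' a b l m ^ 2) (108 * bt' a b l m)),
      c4 = c4T a b ∧ c6 = c6T a b ∧
      P = Affine.Point.some _ _ h ∧ Q = Affine.Point.some _ _ h'

variable {E E' : WeierstrassCurve F} {c4 c6 l m : F}

theorem Rel.zero : Rel E E' c4 c6 l m 0 0 := Or.inl ⟨rfl, rfl⟩

theorem Rel.eq_zero {Q : E'.toAffine.Point} (h : Rel E E' c4 c6 l m 0 Q) : Q = 0 := by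
  rcases h with ⟨-, h⟩ | ⟨a, b, h, h', -, -, hP, -⟩
  · exact h
  · exact absurd hP.symm (Affine.Point.some_ne_zero h)

theorem Rel.eq_zero' {P : E.toAffine.Point} (h : Rel E E' c4 c6 l m P 0) : P = 0 := by
  rcases h with ⟨h, -⟩ | ⟨a, b, h, h', -, -, -, hP⟩
  · exact h
  · exact absurd hP.symm (Affine.Point.some_ne_zero h')

variable [DecidableEq F]

theorem Rel.exists (h2 : (2 : F) ≠ 0) (h3 : (3 : F) ≠ 0) (hE : E = sh c4 c6)
    (hE' : E' = sh (C43 c4 c6 l m) (C63 c4 c6 l m))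
    (hΔ' : E'.Δ ≠ 0) {P : E.toAffine.Point} (hP : 3 • P = 0) :
    ∃ Q : E'.toAffine.Point, Rel E E' c4 c6 l m P Q := by
  subst hE hE'
  rcases P with _ | ⟨x, y, h⟩
  · exact ⟨0, Or.inl ⟨rfl, rfl⟩⟩
  obtain ⟨a, b, rfl, rfl, h4, h6⟩ := exists_param h2 h3 h hP
  have h4' : C43 c4 c6 l m = c4T (at' a b l m) (bt' a b l m) := by rw [h4, h6, C43_T]
  have h6' : C63 c4 c6 l m = c6T (at' a b l m) (bt' a b l m) := by rw [h4, h6, C63_T]
  exact ⟨Affine.Point.some _ _ (nonsing_sh hΔ' h4' h6'), Or.inr ⟨a, b, h,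
    nonsing_sh hΔ' h4' h6', h4, h6, rfl, rfl⟩⟩

theorem Rel.three (h2 : (2 : F) ≠ 0) (h3 : (3 : F) ≠ 0)
    (hE' : E' = sh (C43 c4 c6 l m) (C63 c4 c6 l m))
    (hΔ' : E'.Δ ≠ 0) {P : E.toAffine.Point} {Q : E'.toAffine.Point}
    (h : Rel E E' c4 c6 l m P Q) : 3 • Q = 0 := by
  subst hE'
  rcases h with ⟨-, hQ⟩ | ⟨a, b, h, h', h4, h6, hP, hQ⟩
  · rw [hQ]; simp
  · subst hQ
    have h4' : C43 c4 c6 l m = c4T (at' a b l m) (bt' a b l m) := by rw [h4, h6, C43_T]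
    have h6' : C63 c4 c6 l m = c6T (at' a b l m) (bt' a b l m) := by rw [h4, h6, C63_T]
    exact three_nsmul h2 h3 hΔ' h4' h6' h'

end rel

section main

variable {k : Type*} [Field k]

/-- The path in the pencil. -/
noncomputable def lX (l : k) : k[X] := 1 + C (l - 1) * X

/-- The path in the pencil. -/
noncomputable def mX (m : k) : k[X] := C m * X

/-- The family over the affine line. -/
noncomputable def WX (c4 c6 l m : k) : WeierstrassCurve k[X] :=
  sh (C43 (C c4) (C c6) (lX l) (mX m)) (C63 (C c4) (C c6) (lX l) (mX m))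

/-- The generic member of the family. -/
noncomputable def EK (c4 c6 l m : k) : WeierstrassCurve (FractionRing k[X]) :=
  (WX c4 c6 l m).map (algebraMap k[X] (FractionRing k[X]))

theorem WX_eval (c4 c6 l m t : k) : (WX c4 c6 l m).map (evalRingHom t) =
    sh (C43 c4 c6 (1 + (l - 1) * t) (m * t)) (C63 c4 c6 (1 + (l - 1) * t) (m * t)) := by
  rw [WX, map_sh, map_C43, map_C63]
  simp only [lX, mX, coe_evalRingHom, eval_C, eval_add, eval_mul, eval_X, eval_one]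

theorem redCurve_EK (c4 c6 l m t : k) :
    RedCurve (evPR t) (EK c4 c6 l m)
      (sh (C43 c4 c6 (1 + (l - 1) * t) (m * t)) (C63 c4 c6 (1 + (l - 1) * t) (m * t))) := by
  rw [← WX_eval, EK]
  exact ⟨redTo_poly t _, redTo_poly t _, redTo_poly t _, redTo_poly t _, redTo_poly t _⟩

theorem redCurve_EK_zero (c4 c6 l m : k) :
    RedCurve (evPR (0 : k)) (EK c4 c6 l m) (sh c4 c6) := by
  have := redCurve_EK c4 c6 l m 0
  rwa [mul_zero, mul_zero, add_zero, C43_one_zero, C63_one_zero] at this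

theorem redCurve_EK_one (c4 c6 l m : k) :
    RedCurve (evPR (1 : k)) (EK c4 c6 l m) (sh (C43 c4 c6 l m) (C63 c4 c6 l m)) := by
  have := redCurve_EK c4 c6 l m 1
  rwa [mul_one, mul_one, show 1 + (l - 1) = l by ring] at this

theorem EK_Δ {c4 c6 : k} (hΔ : (sh c4 c6).Δ ≠ 0) (l m : k) : (EK c4 c6 l m).Δ ≠ 0 :=
  Δ_ne_zero_of_redCurve (redCurve_EK_zero c4 c6 l m) (isPlacePR 0) hΔ

theorem FK_ne {k : Type*} [Field k] (n : ℕ) (h : (n : k) ≠ 0) :
    (n : FractionRing k[X]) ≠ 0 := by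
  intro h0
  apply h
  have h1 : algebraMap k[X] (FractionRing k[X]) (C (n : k)) = 0 := by
    rw [map_natCast, map_natCast]; exact h0
  have h2 := (map_eq_zero_iff _ (IsFractionRing.injective k[X] (FractionRing k[X]))).1 h1
  exact C_eq_zero.1 h2

/-- The lifted point. -/
theorem exists_lift [DecidableEq (FractionRing k[X])] {c4 c6 l m : k}
    (hΔ : (sh c4 c6).Δ ≠ 0) (h2 : (2 : k) ≠ 0) (h3 : (3 : k) ≠ 0) {P : (sh c4 c6).toAffine.Point}
    {Q : (sh (C43 c4 c6 l m) (C63 c4 c6 l m)).toAffine.Point}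
    (hPQ : Rel (sh c4 c6) (sh (C43 c4 c6 l m) (C63 c4 c6 l m)) c4 c6 l m P Q) :
    ∃ L : (EK c4 c6 l m).toAffine.Point, 3 • L = 0 ∧
      IsRed (E := EK c4 c6 l m) (E' := sh (C43 c4 c6 l m) (C63 c4 c6 l m))
        (ValuationRing.valuation (PR (1 : k)) (FractionRing k[X])) (evPR (1 : k)) L Q ∧
      IsRed (E := EK c4 c6 l m) (E' := sh c4 c6)
        (ValuationRing.valuation (PR (0 : k)) (FractionRing k[X])) (evPR (0 : k)) L P := by
  rcases hPQ with ⟨hP, hQ⟩ | ⟨a, b, h, h', h4, h6, hP, hQ⟩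
  · subst hP hQ
    exact ⟨0, by simp, isRed_zero_zero, isRed_zero_zero⟩
  subst hP hQ
  have h2K : (2 : FractionRing k[X]) ≠ 0 := by
    have := FK_ne (k := k) 2 (by exact_mod_cast h2)
    exact_mod_cast this
  have h3K : (3 : FractionRing k[X]) ≠ 0 := by
    have := FK_ne (k := k) 3 (by exact_mod_cast h3)
    exact_mod_cast this
  set ι : k[X] →+* FractionRing k[X] := algebraMap k[X] (FractionRing k[X]) with hι
  set A : k[X] := at' (C a) (C b) (lX l) (mX m) with hA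
  set B : k[X] := bt' (C a) (C b) (lX l) (mX m) with hB
  have hEK : EK c4 c6 l m = sh (ι (C43 (C c4) (C c6) (lX l) (mX m)))
      (ι (C63 (C c4) (C c6) (lX l) (mX m))) := by
    rw [EK, WX, map_sh]
  have hΔK := EK_Δ hΔ l m
  have e4 : C43 (C c4) (C c6) (lX l) (mX m) = c4T A B := by
    rw [h4, h6, map_c4T, map_c6T, C43_T]
  have e6 : C63 (C c4) (C c6) (lX l) (mX m) = c6T A B := by
    rw [h4, h6, map_c4T, map_c6T, C63_T]
  have e4' : ι (C43 (C c4) (C c6) (lX l) (mX m)) = c4T (ι A) (ι B) := by rw [e4, map_c4T]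
  have e6' : ι (C63 (C c4) (C c6) (lX l) (mX m)) = c6T (ι A) (ι B) := by rw [e6, map_c6T]
  have hns : (EK c4 c6 l m).toAffine.Nonsingular (3 * (ι A) ^ 2) (108 * ι B) := by
    rw [hEK] at hΔK ⊢
    exact nonsing_sh hΔK e4' e6'
  have h3L : 3 • (Affine.Point.some _ _ hns : (EK c4 c6 l m).toAffine.Point) = 0 := by
    have key : ∀ (E : WeierstrassCurve (FractionRing k[X])) (_ : E = sh (ι (C43 (C c4) (C c6) (lX l) (mX m)))
      (ι (C63 (C c4) (C c6) (lX l) (mX m)))) (_ : E.Δ ≠ 0)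
        (hns : E.toAffine.Nonsingular (3 * (ι A) ^ 2) (108 * ι B)),
        3 • (Affine.Point.some _ _ hns : E.toAffine.Point) = 0 := by
      rintro E rfl hΔ hns
      exact three_nsmul h2K h3K hΔ e4' e6' hns
    exact key _ hEK hΔK hns
  have ex : (3 : FractionRing k[X]) * (ι A) ^ 2 = ι (3 * A ^ 2) := by
    rw [map_mul, map_pow, map_ofNat]
  have ey : (108 : FractionRing k[X]) * (ι B) = ι (108 * B) := by
    rw [map_mul, map_ofNat]
  refine ⟨Affine.Point.some _ _ hns, h3L, ?_, ?_⟩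
  · rw [isRed_some_some_iff, ex, ey]
    have ax : 3 * at' a b l m ^ 2 = (3 * A ^ 2).eval 1 := by
      have := map_at' (evalRingHom (1 : k)) (C a) (C b) (lX l) (mX m)
      simp only [coe_evalRingHom, eval_C, lX, mX, eval_add, eval_mul, eval_X, eval_one,
        mul_one, add_sub_cancel] at this
      rw [eval_mul, eval_pow, hA, lX, mX, this, eval_ofNat]
    have ay : 108 * bt' a b l m = (108 * B).eval 1 := by
      have := map_bt' (evalRingHom (1 : k)) (C a) (C b) (lX l) (mX m)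
      simp only [coe_evalRingHom, eval_C, lX, mX, eval_add, eval_mul, eval_X, eval_one,
        mul_one, add_sub_cancel] at this
      rw [eval_mul, hB, lX, mX, this, eval_ofNat]
    rw [ax, ay]
    exact ⟨redTo_poly 1 _, redTo_poly 1 _⟩
  · rw [isRed_some_some_iff, ex, ey]
    have ax : 3 * a ^ 2 = (3 * A ^ 2).eval 0 := by
      have := map_at' (evalRingHom (0 : k)) (C a) (C b) (lX l) (mX m)
      simp only [coe_evalRingHom, eval_C, lX, mX, eval_add, eval_mul, eval_X, eval_one,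
        mul_zero, add_zero, at'_one_zero] at this
      rw [eval_mul, eval_pow, hA, lX, mX, this, eval_ofNat]
    have ay : 108 * b = (108 * B).eval 0 := by
      have := map_bt' (evalRingHom (0 : k)) (C a) (C b) (lX l) (mX m)
      simp only [coe_evalRingHom, eval_C, lX, mX, eval_add, eval_mul, eval_X, eval_one,
        mul_zero, add_zero, bt'_one_zero] at this
      rw [eval_mul, hB, lX, mX, this, eval_ofNat]
    rw [ax, ay]
    exact ⟨redTo_poly 0 _, redTo_poly 0 _⟩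

/-- The relation is additive. -/
theorem Rel.add [DecidableEq k] {c4 c6 l m : k} {E E' : WeierstrassCurve k}
    (hE : E = sh c4 c6) (hE' : E' = sh (C43 c4 c6 l m) (C63 c4 c6 l m)) (hΔ : E.Δ ≠ 0)
    (hΔ' : E'.Δ ≠ 0)
    (h2 : (2 : k) ≠ 0) (h3 : (3 : k) ≠ 0) {P P' : E.toAffine.Point}
    {Q Q' : E'.toAffine.Point} (hP : 3 • P = 0) (hP' : 3 • P' = 0)
    (h : Rel E E' c4 c6 l m P Q) (h' : Rel E E' c4 c6 l m P' Q') :
    Rel E E' c4 c6 l m (P + P') (Q + Q') := by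
  classical
  have hPP : 3 • (P + P') = 0 := by rw [nsmul_add, hP, hP', add_zero]
  obtain ⟨Q'', h''⟩ := Rel.exists h2 h3 hE hE' hΔ' hPP
  subst hE hE'
  obtain ⟨L, hL3, hL1, hL0⟩ := exists_lift hΔ h2 h3 h
  obtain ⟨L', hL3', hL1', hL0'⟩ := exists_lift hΔ h2 h3 h'
  obtain ⟨L'', hL3'', hL1'', hL0''⟩ := exists_lift hΔ h2 h3 h''
  have h0 := hL0.add (redCurve_EK_zero c4 c6 l m) (isPlacePR 0) hL0'
  have hLL : L + L' = L'' := by
    refine eq_of_isRed_of_nsmul (n := 3) (redCurve_EK_zero c4 c6 l m) (isPlacePR 0)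
      (v_natCast_eq_one (isPlacePR 0) (by exact_mod_cast h3)) h0 hL0'' ?_
    rw [nsmul_sub, nsmul_add, hL3, hL3', hL3'']; simp
  have hm := hL1.add (redCurve_EK_one c4 c6 l m) (isPlacePR 1) hL1'
  rw [hLL] at hm
  rw [IsRed.unique (isPlacePR 1) hm hL1'']
  exact h''

end main

section smul

variable {k : Type*} [Field k] [DecidableEq k] {E E' : WeierstrassCurve k} {c4 c6 l m : k}

theorem Rel.neg (hE : E = sh c4 c6) (hE' : E' = sh (C43 c4 c6 l m) (C63 c4 c6 l m))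
    (hΔ : E.Δ ≠ 0) (hΔ' : E'.Δ ≠ 0) (h2 : (2 : k) ≠ 0) (h3 : (3 : k) ≠ 0)
    {P : E.toAffine.Point} {Q : E'.toAffine.Point} (hP : 3 • P = 0)
    (h : Rel E E' c4 c6 l m P Q) : Rel E E' c4 c6 l m (-P) (-Q) := by
  have hP' : 3 • (-P) = 0 := by rw [smul_neg, hP, _root_.neg_zero]
  obtain ⟨Q', hQ'⟩ := Rel.exists h2 h3 hE hE' hΔ' hP'
  have := Rel.add hE hE' hΔ hΔ' h2 h3 hP hP' h hQ'
  rw [add_neg_cancel] at this
  have h0 := this.eq_zero
  rwa [← eq_neg_of_add_eq_zero_right h0]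

theorem Rel.nsmul (hE : E = sh c4 c6) (hE' : E' = sh (C43 c4 c6 l m) (C63 c4 c6 l m))
    (hΔ : E.Δ ≠ 0) (hΔ' : E'.Δ ≠ 0) (h2 : (2 : k) ≠ 0) (h3 : (3 : k) ≠ 0)
    {P : E.toAffine.Point} {Q : E'.toAffine.Point} (hP : 3 • P = 0)
    (h : Rel E E' c4 c6 l m P Q) (n : ℕ) : Rel E E' c4 c6 l m (n • P) (n • Q) := by
  induction n with
  | zero => simpa using Rel.zero
  | succ n ih =>
    rw [succ_nsmul, succ_nsmul]
    refine Rel.add hE hE' hΔ hΔ' h2 h3 ?_ hP ih h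
    rw [← mul_nsmul', mul_nsmul, hP, smul_zero]

theorem Rel.zsmul (hE : E = sh c4 c6) (hE' : E' = sh (C43 c4 c6 l m) (C63 c4 c6 l m))
    (hΔ : E.Δ ≠ 0) (hΔ' : E'.Δ ≠ 0) (h2 : (2 : k) ≠ 0) (h3 : (3 : k) ≠ 0)
    {P : E.toAffine.Point} {Q : E'.toAffine.Point} (hP : 3 • P = 0)
    (h : Rel E E' c4 c6 l m P Q) (n : ℤ) : Rel E E' c4 c6 l m (n • P) (n • Q) := by
  rcases n.eq_nat_or_neg with ⟨j, rfl | rfl⟩
  · simpa using Rel.nsmul hE hE' hΔ hΔ' h2 h3 hP h j
  · have hj := Rel.nsmul hE hE' hΔ hΔ' h2 h3 hP h j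
    rw [neg_smul, neg_smul, natCast_zsmul, natCast_zsmul]
    refine Rel.neg hE hE' hΔ hΔ' h2 h3 ?_ hj
    rw [← mul_nsmul', mul_nsmul, hP, smul_zero]

end smul

open WeierstrassCurve.Affine WeierstrassCurve.Affine.Point

section frob

variable {k₀ : Type*} [Field k₀] [Fintype k₀] {K : Type*} [Field K] [DecidableEq K] [Algebra k₀ K]

theorem Rel.frob {W₀ V₀ : Affine k₀} (c4 c6 l m : k₀) {P : (W₀⁄K).Point} {Q : (V₀⁄K).Point}
    (h : Rel (W₀⁄K) (V₀⁄K) (algebraMap k₀ K c4) (algebraMap k₀ K c6) (algebraMap k₀ K l)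
      (algebraMap k₀ K m) P Q) :
    Rel (W₀⁄K) (V₀⁄K) (algebraMap k₀ K c4) (algebraMap k₀ K c6) (algebraMap k₀ K l)
      (algebraMap k₀ K m) (Fermat.Agent.ECFrob.frob W₀ K P) (Fermat.Agent.ECFrob.frob V₀ K Q) := by
  rcases h with ⟨hP, hQ⟩ | ⟨a, b, h, h', h4, h6, hP, hQ⟩
  · rw [hP, hQ, _root_.map_zero, _root_.map_zero]
    exact Rel.zero
  · subst hP hQ
    rw [frob_some, frob_some]
    set f : K →+* K := (FiniteField.frobeniusAlgHom k₀ K : K →+* K) with hf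
    have hf' : ∀ z, FiniteField.frobeniusAlgHom k₀ K z = f z := fun z => rfl
    have hfa : ∀ c : k₀, f (algebraMap k₀ K c) = algebraMap k₀ K c := fun c =>
      (FiniteField.frobeniusAlgHom k₀ K).commutes c
    have e1 : f (3 * a ^ 2) = 3 * f a ^ 2 := by rw [map_mul, map_pow, map_ofNat]
    have e2 : f (108 * b) = 108 * f b := by rw [map_mul, map_ofNat]
    have e3 : f (3 * at' a b (algebraMap k₀ K l) (algebraMap k₀ K m) ^ 2) =
        3 * at' (f a) (f b) (algebraMap k₀ K l) (algebraMap k₀ K m) ^ 2 := by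
      rw [map_mul, map_pow, map_ofNat, map_at', hfa, hfa]
    have e4 : f (108 * bt' a b (algebraMap k₀ K l) (algebraMap k₀ K m)) =
        108 * bt' (f a) (f b) (algebraMap k₀ K l) (algebraMap k₀ K m) := by
      rw [map_mul, map_ofNat, map_bt', hfa, hfa]
    refine Or.inr ⟨f a, f b, ?_, ?_, ?_, ?_, ?_, ?_⟩
    · rw [← e1, ← e2]
      exact (W₀.baseChange_nonsingular (f := FiniteField.frobeniusAlgHom k₀ K)
        (FiniteField.frobeniusAlgHom k₀ K).injective ..).mpr h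
    · rw [← e3, ← e4]
      exact (V₀.baseChange_nonsingular (f := FiniteField.frobeniusAlgHom k₀ K)
        (FiniteField.frobeniusAlgHom k₀ K).injective ..).mpr h'
    · rw [← map_c4T, ← h4, hfa]
    · rw [← map_c6T, ← h6, hfa]
    · simp only [hf', e1, e2]
    · simp only [hf', e3, e4]

end frob

section exists_point

variable {K : Type*} [Field K] [IsAlgClosed K]

theorem exists_ab {c4 c6 : K} (h2 : (2 : K) ≠ 0) (h3 : (3 : K) ≠ 0) :
    ∃ a b : K, c4 = c4T a b ∧ c6 = c6T a b := by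
  have h24 : (24 : K) ≠ 0 := by
    have : (24 : K) = 2 ^ 3 * 3 := by norm_num
    rw [this]; exact mul_ne_zero (pow_ne_zero _ h2) h3
  have h216 : (216 : K) ≠ 0 := by
    have : (216 : K) = 2 ^ 3 * 3 ^ 3 := by norm_num
    rw [this]; exact mul_ne_zero (pow_ne_zero _ h2) (pow_ne_zero _ h3)
  by_cases hc : c4 = 0
  · obtain ⟨b, hb⟩ := IsAlgClosed.exists_pow_nat_eq (-(c6 / 216)) (n := 2) (by norm_num)
    refine ⟨0, b, ?_, ?_⟩
    · rw [hc, c4T]; ring
    · rw [c6T, hb]; field_simp; ring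
  · obtain ⟨x, hx⟩ : ∃ x : K, D3 c4 c6 x 1 = 0 := by
      have hdeg : (X ^ 4 - C (6 * c4) * X ^ 2 - C (8 * c6) * X - C (3 * c4 ^ 2) : K[X]).degree ≠ 0 := by
        have : (X ^ 4 - C (6 * c4) * X ^ 2 - C (8 * c6) * X - C (3 * c4 ^ 2) : K[X]).degree = 4 := by
          compute_degree!
        rw [this]; norm_num
      obtain ⟨x, hx⟩ := IsAlgClosed.exists_root _ hdeg
      refine ⟨x, ?_⟩
      simp only [IsRoot.def, eval_sub, eval_pow, eval_X, eval_mul, eval_C] at hx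
      rw [D3]; linear_combination hx
    obtain ⟨a, ha⟩ := IsAlgClosed.exists_pow_nat_eq x (n := 2) (by norm_num)
    have ha0 : a ≠ 0 := by
      rintro rfl
      apply hc
      have hx0 : x = 0 := by rw [← ha]; ring
      rw [hx0, D3] at hx
      have : 3 * c4 ^ 2 = 0 := by linear_combination -hx
      have := (mul_eq_zero.1 this).resolve_left h3
      exact pow_eq_zero_iff (two_ne_zero) |>.1 this
    refine ⟨a, (a ^ 4 - c4) / (24 * a), ?_, ?_⟩
    · rw [c4T]; field_simp; ring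
    · subst ha
      rw [D3] at hx
      have h8 : (8 * a ^ 2 : K) ≠ 0 := by
        have : (8 : K) = 2 ^ 3 := by norm_num
        rw [this]; exact mul_ne_zero (pow_ne_zero _ h2) (pow_ne_zero _ ha0)
      apply mul_left_cancel₀ h8
      have e : 8 * a ^ 2 * c6T a ((a ^ 4 - c4) / (24 * a)) =
          -8 * a ^ 8 + 12 * a ^ 4 * (a ^ 4 - c4) - 3 * (a ^ 4 - c4) ^ 2 := by
        set b := (a ^ 4 - c4) / (24 * a) with hb
        have hb' : b * (24 * a) = a ^ 4 - c4 := by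
          rw [hb, div_mul_cancel₀ _ (mul_ne_zero h24 ha0)]
        rw [← hb', c6T]; ring
      rw [e]
      linear_combination -hx

end exists_point

section trace

theorem trace_congr_sh {k₀ : Type*} [Field k₀] [Fintype k₀] {c4 c6 l m : k₀}
    (hΔ : (sh c4 c6).Δ ≠ 0) (hΔ' : (sh (C43 c4 c6 l m) (C63 c4 c6 l m)).Δ ≠ 0)
    (h2 : (2 : k₀) ≠ 0) (h3 : (3 : k₀) ≠ 0) :
    (3 : ℤ) ∣ (sh (C43 c4 c6 l m) (C63 c4 c6 l m)).traceOfFrobenius -
      (sh c4 c6).traceOfFrobenius := by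
  classical
  let K := AlgebraicClosure k₀
  set W₀ : WeierstrassCurve k₀ := sh c4 c6 with hW₀'
  set V₀ : WeierstrassCurve k₀ := sh (C43 c4 c6 l m) (C63 c4 c6 l m) with hV₀
  set g : k₀ →+* K := algebraMap k₀ K with hg
  have h2K : (2 : K) ≠ 0 := by
    rw [← map_ofNat g 2]; exact (_root_.map_ne_zero _).2 h2
  have h3K : (3 : K) ≠ 0 := by
    rw [← map_ofNat g 3]; exact (_root_.map_ne_zero _).2 h3
  have hW₀ : W₀.IsElliptic := ⟨isUnit_iff_ne_zero.2 hΔ⟩
  have hV₀e : V₀.IsElliptic := ⟨isUnit_iff_ne_zero.2 hΔ'⟩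
  have hΔK : WeierstrassCurve.Δ (W₀⁄K) ≠ 0 := by
    change (W₀.map g).Δ ≠ 0
    rw [WeierstrassCurve.map_Δ]; exact (_root_.map_ne_zero _).2 hΔ
  have hΔK' : WeierstrassCurve.Δ (V₀⁄K) ≠ 0 := by
    change (V₀.map g).Δ ≠ 0
    rw [WeierstrassCurve.map_Δ]; exact (_root_.map_ne_zero _).2 hΔ'
  have hWK : (W₀⁄K) = sh (g c4) (g c6) := by
    change W₀.map g = _
    rw [hW₀', map_sh]
  have hVK : (V₀⁄K) = sh (C43 (g c4) (g c6) (g l) (g m)) (C63 (g c4) (g c6) (g l) (g m)) := by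
    change V₀.map g = _
    rw [hV₀, map_sh, map_C43, map_C63]
  obtain ⟨a, b, h4, h6⟩ := exists_ab (c4 := g c4) (c6 := g c6) h2K h3K
  obtain ⟨P, hP0, hP3⟩ : ∃ P : (W₀⁄K).Point, P ≠ 0 ∧ 3 • P = 0 := by
    have key : ∀ (E : WeierstrassCurve K) (_ : E = sh (g c4) (g c6)) (_ : E.Δ ≠ 0),
        ∃ P : E.toAffine.Point, P ≠ 0 ∧ 3 • P = 0 := by
      rintro E rfl hΔ
      have hns := nonsing_sh hΔ h4 h6
      exact ⟨Point.some _ _ hns, Point.some_ne_zero _, three_nsmul h2K h3K hΔ h4 h6 hns⟩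
    exact key _ hWK hΔK
  obtain ⟨Q, hQ⟩ : ∃ Q : (V₀⁄K).Point, Rel (W₀⁄K) (V₀⁄K) (g c4) (g c6) (g l) (g m) P Q :=
    Rel.exists h2K h3K hWK hVK hΔK' hP3
  set P₁ := Fermat.Agent.ECFrob.frob W₀ K P with hP₁
  set Q₁ := Fermat.Agent.ECFrob.frob V₀ K Q with hQ₁
  set P₂ := Fermat.Agent.ECFrob.frob W₀ K P₁ with hP₂
  set Q₂ := Fermat.Agent.ECFrob.frob V₀ K Q₁ with hQ₂
  have r1 : Rel (W₀⁄K) (V₀⁄K) (g c4) (g c6) (g l) (g m) P₁ Q₁ := hQ.frob c4 c6 l m
  have r2 : Rel (W₀⁄K) (V₀⁄K) (g c4) (g c6) (g l) (g m) P₂ Q₂ := r1.frob c4 c6 l m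
  have hP₁3 : 3 • P₁ = 0 := by rw [hP₁, ← map_nsmul, hP3, _root_.map_zero]
  have hP₂3 : 3 • P₂ = 0 := by rw [hP₂, ← map_nsmul, hP₁3, _root_.map_zero]
  set a : ℤ := W₀.traceOfFrobenius with ha
  set a' : ℤ := V₀.traceOfFrobenius with ha'
  set q : ℤ := (Fintype.card k₀ : ℤ) with hq
  have e1 : P₂ - a • P₁ + q • P = 0 := frob_charEq W₀ K P
  have e2 : Q₂ - a' • Q₁ + q • Q = 0 := frob_charEq V₀ K Q
  have hP₁3' : 3 • (-a) • P₁ = 0 := by rw [smul_comm, hP₁3, smul_zero]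
  have hP3' : 3 • q • P = 0 := by
    rw [smul_comm, hP3]; exact smul_zero (A := (W₀⁄K).Point) q
  have r3 : Rel (W₀⁄K) (V₀⁄K) (g c4) (g c6) (g l) (g m) (P₂ + (-a) • P₁) (Q₂ + (-a) • Q₁) :=
    Rel.add hWK hVK hΔK hΔK' h2K h3K hP₂3 hP₁3' r2
      (Rel.zsmul hWK hVK hΔK hΔK' h2K h3K hP₁3 r1 (-a))
  have r4 : Rel (W₀⁄K) (V₀⁄K) (g c4) (g c6) (g l) (g m) (P₂ + (-a) • P₁ + q • P)
      (Q₂ + (-a) • Q₁ + q • Q) :=
    Rel.add hWK hVK hΔK hΔK' h2K h3K
      (by rw [nsmul_add, hP₂3, hP₁3', add_zero]) hP3' r3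
      (Rel.zsmul hWK hVK hΔK hΔK' h2K h3K hP3 hQ q)
  have e1' : P₂ + (-a) • P₁ + q • P = 0 := by rw [neg_smul, ← sub_eq_add_neg]; exact e1
  rw [e1'] at r4
  have e3 := r4.eq_zero
  have e4 : (a' - a) • Q₁ = 0 := by
    have : (a' - a) • Q₁ = (Q₂ + (-a) • Q₁ + q • Q) - (Q₂ - a' • Q₁ + q • Q) := by
      rw [sub_smul, neg_smul]; abel
    rw [this, e3, e2, sub_zero]
  have hQ₁0 : Q₁ ≠ 0 := by
    intro h0
    have : P₁ = 0 := by
      have := r1
      rw [h0] at this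
      exact this.eq_zero'
    rw [hP₁] at this
    have hinj' : Function.Injective (Fermat.Agent.ECFrob.frob W₀ K) := Point.map_injective _
    exact hP0 (hinj' (by rw [this, _root_.map_zero]))
  have hQ₁3 : (3 : ℤ) • Q₁ = 0 := by
    have := Rel.three h2K h3K hVK hΔK' r1
    exact_mod_cast this
  by_contra hdvd
  have hcop : IsCoprime (3 : ℤ) (a' - a) :=
    (Int.prime_iff_natAbs_prime.2 (by norm_num) : Prime (3 : ℤ)).coprime_iff_not_dvd.2 hdvd
  obtain ⟨u, v, huv⟩ := hcop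
  apply hQ₁0
  have : (1 : ℤ) • Q₁ = 0 := by
    rw [← huv, add_smul, mul_smul, mul_smul, hQ₁3, e4, smul_zero, smul_zero, add_zero]
  simpa using this

end trace

section short

variable {k : Type*} [Field k]

/-- The change of variables to short form. -/
noncomputable def toSh (W : WeierstrassCurve k) (w : kˣ) (h2 : (2 : k) ≠ 0) (h3 : (3 : k) ≠ 0) :
    VariableChange k where
  u := (Units.mk0 6 (by
    have : (6 : k) = 2 * 3 := by norm_num
    rw [this]; exact mul_ne_zero h2 h3) * w)⁻¹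
  r := -W.b₂ / 12
  s := -W.a₁ / 2
  t := -(W.a₃ - W.b₂ / 12 * W.a₁) / 2

theorem toSh_smul (W : WeierstrassCurve k) (w : kˣ) (h2 : (2 : k) ≠ 0) (h3 : (3 : k) ≠ 0) :
    toSh W w h2 h3 • W = sh ((w : k) ^ 4 * W.c₄) ((w : k) ^ 6 * W.c₆) := by
  have h12 : (12 : k) ≠ 0 := by
    have : (12 : k) = 2 ^ 2 * 3 := by norm_num
    rw [this]; exact mul_ne_zero (pow_ne_zero _ h2) h3
  ext
  · rw [variableChange_a₁]
    simp only [toSh, sh, inv_inv]
    field_simp
    ring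
  · rw [variableChange_a₂]
    simp only [toSh, sh, inv_inv, WeierstrassCurve.b₂]
    field_simp
    ring
  · rw [variableChange_a₃]
    simp only [toSh, sh, inv_inv, WeierstrassCurve.b₂]
    field_simp
    ring
  · rw [variableChange_a₄]
    simp only [toSh, sh, inv_inv, WeierstrassCurve.b₂, WeierstrassCurve.c₄, WeierstrassCurve.b₄,
      Units.val_mul, Units.val_mk0]
    field_simp
    ring
  · rw [variableChange_a₆]
    simp only [toSh, sh, inv_inv, WeierstrassCurve.b₂, WeierstrassCurve.c₆, WeierstrassCurve.b₄,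
      WeierstrassCurve.b₆, Units.val_mul, Units.val_mk0]
    field_simp
    ring

theorem trace_sh [Finite k] (W : WeierstrassCurve k) (hΔ : W.Δ ≠ 0) {w : k} (hw : w ≠ 0)
    (h2 : (2 : k) ≠ 0) (h3 : (3 : k) ≠ 0) :
    (sh (w ^ 4 * W.c₄) (w ^ 6 * W.c₆)).traceOfFrobenius = W.traceOfFrobenius := by
  have h := toSh_smul W (Units.mk0 w hw) h2 h3
  rw [Units.val_mk0] at h
  rw [← h, traceOfFrobenius, traceOfFrobenius, Fermat.Agent.S44w.card_variableChange _ _ hΔ]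

theorem sh_Δ_ne (W : WeierstrassCurve k) (hΔ : W.Δ ≠ 0) {w : k} (hw : w ≠ 0)
    (h2 : (2 : k) ≠ 0) (h3 : (3 : k) ≠ 0) :
    (sh (w ^ 4 * W.c₄) (w ^ 6 * W.c₆)).Δ ≠ 0 := by
  have h := toSh_smul W (Units.mk0 w hw) h2 h3
  rw [Units.val_mk0] at h
  rw [← h, variableChange_Δ]
  exact mul_ne_zero (pow_ne_zero _ (Units.ne_zero _)) hΔ

end short

end Fermat.Agent.LTF.Tr3

namespace Fermat.Agent.LTF

/-- **Congruence modulo `3` of the traces of Frobenius in the `3`-pencil.** -/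
theorem trace_congr3 {k₀ : Type*} [Field k₀] [Fintype k₀] (h2 : (2 : k₀) ≠ 0)
    (h3 : (3 : k₀) ≠ 0) {W V : WeierstrassCurve k₀} (hW : W.Δ ≠ 0) (hV : V.Δ ≠ 0)
    (l m u : k₀) (hu : u ≠ 0) (h4 : u ^ 4 * V.c₄ = C43 W.c₄ W.c₆ l m)
    (h6 : u ^ 6 * V.c₆ = C63 W.c₄ W.c₆ l m) :
    (3 : ℤ) ∣ V.traceOfFrobenius - W.traceOfFrobenius := by
  rw [← Tr3.trace_sh V hV hu h2 h3, ← Tr3.trace_sh W hW one_ne_zero h2 h3, one_pow, one_pow,
    one_mul, one_mul, h4, h6]
  refine Tr3.trace_congr_sh ?_ ?_ h2 h3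
  · have := Tr3.sh_Δ_ne W hW one_ne_zero h2 h3
    rwa [one_pow, one_pow, one_mul, one_mul] at this
  · have := Tr3.sh_Δ_ne V hV hu h2 h3
    rwa [h4, h6] at this

/-- Version for integral models. -/
theorem apOfModel_congr3 {W V : WeierstrassCurve ℤ} (l m u : ℤ) (ℓ : ℕ) (hℓ : ℓ.Prime)
    (h2 : ℓ ≠ 2) (h3 : ℓ ≠ 3) (hu : ¬ (ℓ : ℤ) ∣ u) (hW : W.IsGoodPrimeFor ℓ)
    (hV : V.IsGoodPrimeFor ℓ) (h4 : u ^ 4 * V.c₄ = C43 W.c₄ W.c₆ l m)
    (h6 : u ^ 6 * V.c₆ = C63 W.c₄ W.c₆ l m) :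
    (3 : ℤ) ∣ V.apOfModel ℓ - W.apOfModel ℓ := by
  have := Fact.mk hℓ
  have hc : ∀ n : ℤ, ¬ (ℓ : ℤ) ∣ n → ((n : ℤ) : ZMod ℓ) ≠ 0 := fun n hn h0 =>
    hn ((ZMod.intCast_zmod_eq_zero_iff_dvd n ℓ).1 h0)
  have hp : ∀ p : ℕ, p.Prime → ℓ ≠ p → ¬ (ℓ : ℤ) ∣ (p : ℤ) := by
    intro p hp hne hd
    rw [Int.natCast_dvd_natCast, Nat.prime_dvd_prime_iff_eq hℓ hp] at hd
    exact hne hd
  simp only [WeierstrassCurve.apOfModel]
  refine trace_congr3 (l := (l : ZMod ℓ)) (m := (m : ZMod ℓ)) (u := (u : ZMod ℓ)) ?_ ?_ ?_ ?_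
    (hc u hu) ?_ ?_
  · have := hc 2 (hp 2 Nat.prime_two h2)
    exact_mod_cast this
  · have := hc 3 (hp 3 Nat.prime_three h3)
    exact_mod_cast this
  · rw [WeierstrassCurve.reductionMod, WeierstrassCurve.map_Δ]
    exact hc _ hW
  · rw [WeierstrassCurve.reductionMod, WeierstrassCurve.map_Δ]
    exact hc _ hV
  · have := congrArg (Int.castRingHom (ZMod ℓ)) h4
    rw [map_mul, map_pow, map_C43] at this
    simpa only [WeierstrassCurve.reductionMod, WeierstrassCurve.map_c₄,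
      WeierstrassCurve.map_c₆, eq_intCast] using this
  · have := congrArg (Int.castRingHom (ZMod ℓ)) h6
    rw [map_mul, map_pow, map_C63] at this
    simpa only [WeierstrassCurve.reductionMod, WeierstrassCurve.map_c₄,
      WeierstrassCurve.map_c₆, eq_intCast] using this

end Fermat.Agent.LTF
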