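import Fermat.Agent.LTF.IrrTwo
import Fermat.Prelude.Def_FLTPrelim_Modularity
import Mathlib.Data.Nat.Factorization.Basic

/-!
# Curves with odd discriminant valuations and negative discriminant are irreducible mod `2`

A semistable curve over `ℤ`, multiplicative at `2`, with negative discriminant all of whose
valuations are odd or zero, has no rational `2`-torsion point.
-/

set_option autoImplicit false

namespace Fermat.Agent.LTF

open WeierstrassCurve

/-- additivity of valuations in the form used below -/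
lemma fac_sq_mul {P Q : ℤ} (hP : P ≠ 0) (hQ : Q ≠ 0) (r : ℕ) :
    (P ^ 2 * Q).natAbs.factorization r =
      2 * P.natAbs.factorization r + Q.natAbs.factorization r := by
  rw [Int.natAbs_mul, Int.natAbs_pow, Nat.factorization_mul (pow_ne_zero _ (by simpa using hP))
    (by simpa using hQ), Nat.factorization_pow]
  simp

lemma fac_mul {P Q : ℤ} (hP : P ≠ 0) (hQ : Q ≠ 0) (r : ℕ) :
    (P * Q).natAbs.factorization r =
      P.natAbs.factorization r + Q.natAbs.factorization r := by
  rw [Int.natAbs_mul, Nat.factorization_mul (by simpa using hP) (by simpa using hQ)]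
  simp

lemma fac_pos_iff {P : ℤ} (hP : P ≠ 0) {r : ℕ} (hr : r.Prime) :
    P.natAbs.factorization r ≠ 0 ↔ (r : ℤ) ∣ P := by
  rw [Int.natCast_dvd]
  constructor
  · intro h
    by_contra hd
    exact h (Nat.factorization_eq_zero_of_not_dvd hd)
  · intro h
    exact (hr.factorization_pos_of_dvd (by simpa using hP) h).ne'

/-- **No rational `2`-torsion.** -/
theorem no_root_of_odd (W : WeierstrassCurve ℤ) (ss : W.IsSemistableModel) (neg : W.Δ < 0)
    (two : (2 : ℤ) ∣ W.Δ)
    (odd : ∀ r : ℕ, r.Prime → (r : ℤ) ∣ W.Δ → Odd (W.Δ.natAbs.factorization r)) :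
    ∀ x : ℤ, x ^ 3 - 3 * W.c₄ * x - 2 * W.c₆ ≠ 0 := by
  intro X hX
  have hΔ0 : W.Δ ≠ 0 := neg.ne
  have hrel : 1728 * W.Δ = W.c₄ ^ 3 - W.c₆ ^ 2 := W.c_relation
  set c := W.c₄ with hc
  have key : (X ^ 2 - c) ^ 2 * (4 * c - X ^ 2) = 6912 * W.Δ := by
    linear_combination (-4) * hrel - (X ^ 3 - 3 * c * X + 2 * W.c₆) * hX
  have hc2 : ¬ (2 : ℤ) ∣ c := by
    have := ss 2 Nat.prime_two (by exact_mod_cast two)
    exact_mod_cast this
  have hc8 : c % 8 = 1 := by
    have hcb : c = W.b₂ ^ 2 - 24 * W.b₄ := by rw [hc, WeierstrassCurve.c₄]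
    have hb : W.b₂ % 2 = 1 := by
      by_contra h
      have h2 : (2 : ℤ) ∣ W.b₂ := by omega
      apply hc2
      rw [hcb]
      obtain ⟨k, hk⟩ := h2
      exact ⟨2 * k ^ 2 - 12 * W.b₄, by rw [hk]; ring⟩
    obtain ⟨k, hk⟩ : ∃ k, W.b₂ = 2 * k + 1 := ⟨W.b₂ / 2, by omega⟩
    obtain ⟨m, hm⟩ := Int.even_mul_succ_self k
    have : c = 8 * (m - 3 * W.b₄) + 1 := by
      rw [hcb, hk]; linear_combination 4 * hm
    omega
  have h6912 : (6912 : ℤ) ≠ 0 := by norm_num
  have hprod0 : (X ^ 2 - c) ^ 2 * (4 * c - X ^ 2) ≠ 0 := by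
    rw [key]; exact mul_ne_zero h6912 hΔ0
  -- `X` is even
  have hXeven : (2 : ℤ) ∣ X := by
    by_contra hXo
    have hA0 : X ^ 2 - c ≠ 0 := by
      intro h; rw [h] at hprod0; simp at hprod0
    have hB0 : 4 * c - X ^ 2 ≠ 0 := right_ne_zero_of_mul hprod0
    have hB2 : (4 * c - X ^ 2).natAbs.factorization 2 = 0 := by
      by_contra h
      have h2 : ((2 : ℕ) : ℤ) ∣ 4 * c - X ^ 2 := (fac_pos_iff hB0 Nat.prime_two).mp h
      have h3 : (2 : ℤ) ∣ X ^ 2 := by
        have h4 : (2 : ℤ) ∣ 4 * c := ⟨2 * c, by ring⟩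
        have := dvd_sub h4 (by exact_mod_cast h2 : (2 : ℤ) ∣ 4 * c - X ^ 2)
        simpa using this
      exact hXo (Int.prime_two.dvd_of_dvd_pow h3)
    have hv := congrArg (fun n : ℤ => n.natAbs.factorization 2) key
    simp only [fac_sq_mul hA0 hB0, fac_mul h6912 hΔ0, hB2] at hv
    have hv6912 : (6912 : ℤ).natAbs.factorization 2 = 8 := by
      have : (6912 : ℤ).natAbs = 2 ^ 8 * 27 := by norm_num
      rw [this, Nat.factorization_mul (by norm_num) (by norm_num), Nat.factorization_pow]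
      simp [Nat.prime_two.factorization_self,
        Nat.factorization_eq_zero_of_not_dvd (show ¬ 2 ∣ 27 by norm_num)]
    rw [hv6912] at hv
    obtain ⟨k, hk⟩ := odd 2 Nat.prime_two (by exact_mod_cast two)
    omega
  obtain ⟨Y, rfl⟩ := hXeven
  set P := 4 * Y ^ 2 - c with hP
  set Q := c - Y ^ 2 with hQ
  have key2 : P ^ 2 * Q = 1728 * W.Δ := by
    have : 4 * (P ^ 2 * Q) = 4 * (1728 * W.Δ) := by
      rw [hP, hQ]; linear_combination key
    omega
  have h1728 : (1728 : ℤ) ≠ 0 := by norm_num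
  have hprod1 : P ^ 2 * Q ≠ 0 := by rw [key2]; exact mul_ne_zero h1728 hΔ0
  have hP0 : P ≠ 0 := by intro h; rw [h] at hprod1; simp at hprod1
  have hQ0 : Q ≠ 0 := right_ne_zero_of_mul hprod1
  have hPQ : P + Q = 3 * Y ^ 2 := by rw [hP, hQ]; ring
  have hval : ∀ r : ℕ, 2 * P.natAbs.factorization r + Q.natAbs.factorization r =
      (1728 : ℤ).natAbs.factorization r + W.Δ.natAbs.factorization r := by
    intro r
    rw [← fac_sq_mul hP0 hQ0, key2, fac_mul h1728 hΔ0]
  have hv3 : (1728 : ℤ).natAbs.factorization 3 = 3 := by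
    have : (1728 : ℤ).natAbs = 3 ^ 3 * 64 := by norm_num
    rw [this, Nat.factorization_mul (by norm_num) (by norm_num), Nat.factorization_pow]
    simp [Nat.prime_three.factorization_self,
      Nat.factorization_eq_zero_of_not_dvd (show ¬ 3 ∣ 64 by norm_num)]
  -- common divisors of `P` and `Q`
  have hcommon : ∀ r : ℕ, r.Prime → (r : ℤ) ∣ W.Δ → (r : ℤ) ∣ Y → (r : ℤ) ∣ Q → False := by
    intro r hr hrΔ hrY hrQ
    apply ss r hr hrΔ
    have h1 : (r : ℤ) ∣ Y ^ 2 := dvd_pow hrY two_ne_zero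
    have : c = Q + Y ^ 2 := by rw [hQ]; ring
    change (r : ℤ) ∣ c
    rw [this]
    exact dvd_add hrQ h1
  -- the prime factors of `P`
  have hP3 : P.natAbs ∣ 3 := by
    rw [← Nat.factorization_le_iff_dvd (by simpa using hP0) (by norm_num)]
    intro r
    by_cases hr : r.Prime
    swap
    · rw [Nat.factorization_eq_zero_of_not_prime _ hr]; exact Nat.zero_le _
    by_cases hrP : (r : ℤ) ∣ P
    swap
    · have : P.natAbs.factorization r = 0 := by
        by_contra h; exact hrP ((fac_pos_iff hP0 hr).mp h)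
      rw [this]; exact Nat.zero_le _
    -- `r ≠ 2`
    have hr2 : r ≠ 2 := by
      rintro rfl
      apply hc2
      have : c = 4 * Y ^ 2 - P := by rw [hP]; ring
      rw [this]
      exact dvd_sub ⟨2 * Y ^ 2, by ring⟩ (by exact_mod_cast hrP)
    by_cases hr3 : r = 3
    · subst hr3
      rw [Nat.prime_three.factorization_self]
      by_cases h3Δ : ((3 : ℕ) : ℤ) ∣ W.Δ
      · -- multiplicative at `3`
        obtain ⟨k, hk⟩ := odd 3 Nat.prime_three h3Δ
        have hv := hval 3
        rw [hv3, hk] at hv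
        have h3Q : ((3 : ℕ) : ℤ) ∣ Q := by
          have : Q = 3 * Y ^ 2 - P := by rw [← hPQ]; ring
          rw [this]
          exact dvd_sub ⟨Y ^ 2, by push_cast; ring⟩ hrP
        have hvQ0 : Q.natAbs.factorization 3 ≠ 0 := (fac_pos_iff hQ0 Nat.prime_three).mpr h3Q
        have h9Q : (9 : ℤ) ∣ Q := by
          have h2 : 2 ≤ Q.natAbs.factorization 3 := by omega
          have : 3 ^ 2 ∣ Q.natAbs :=
            (Nat.prime_three.pow_dvd_iff_le_factorization (by simpa using hQ0)).mpr h2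
          exact Int.natCast_dvd.mpr (by simpa using this)
        by_contra hcon
        have h9P : (9 : ℤ) ∣ P := by
          have h2 : 2 ≤ P.natAbs.factorization 3 := by omega
          have : 3 ^ 2 ∣ P.natAbs :=
            (Nat.prime_three.pow_dvd_iff_le_factorization (by simpa using hP0)).mpr h2
          exact Int.natCast_dvd.mpr (by simpa using this)
        have h9 : (9 : ℤ) ∣ 3 * Y ^ 2 := by rw [← hPQ]; exact dvd_add h9P h9Q
        have h3Y2 : (3 : ℤ) ∣ Y ^ 2 := by
          obtain ⟨m, hm⟩ := h9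
          exact ⟨m, by linarith⟩
        have h3Y : (3 : ℤ) ∣ Y := Int.prime_three.dvd_of_dvd_pow h3Y2
        exact hcommon 3 Nat.prime_three h3Δ (by exact_mod_cast h3Y) h3Q
      · have hv := hval 3
        have hΔ3 : W.Δ.natAbs.factorization 3 = 0 := by
          by_contra h; exact h3Δ ((fac_pos_iff hΔ0 Nat.prime_three).mp h)
        rw [hv3, hΔ3] at hv
        omega
    · exfalso
      have hr1728 : (1728 : ℤ).natAbs.factorization r = 0 := by
        apply Nat.factorization_eq_zero_of_not_dvd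
        intro hd
        have h1 : r ∣ 2 ^ 6 * 3 ^ 3 := by simpa using hd
        rcases (Nat.Prime.dvd_mul hr).mp h1 with h2 | h2
        · exact hr2 ((Nat.prime_dvd_prime_iff_eq hr Nat.prime_two).mp (hr.dvd_of_dvd_pow h2))
        · exact hr3 ((Nat.prime_dvd_prime_iff_eq hr Nat.prime_three).mp (hr.dvd_of_dvd_pow h2))
      have hv := hval r
      rw [hr1728, zero_add] at hv
      have hvP : P.natAbs.factorization r ≠ 0 := (fac_pos_iff hP0 hr).mpr hrP
      have hrΔ : (r : ℤ) ∣ W.Δ := (fac_pos_iff hΔ0 hr).mp (by omega)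
      obtain ⟨k, hk⟩ := odd r hr hrΔ
      have hvQ : Q.natAbs.factorization r ≠ 0 := by omega
      have hrQ : (r : ℤ) ∣ Q := (fac_pos_iff hQ0 hr).mp hvQ
      have hr3Y : (r : ℤ) ∣ 3 * Y ^ 2 := by rw [← hPQ]; exact dvd_add hrP hrQ
      have hrp : Prime (r : ℤ) := Nat.prime_iff_prime_int.mp hr
      have hrY : (r : ℤ) ∣ Y := by
        rcases hrp.dvd_or_dvd hr3Y with h | h
        · exfalso
          have h' : r ∣ 3 := by exact_mod_cast h
          exact hr3 ((Nat.prime_dvd_prime_iff_eq hr Nat.prime_three).mp h')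
        · exact hrp.dvd_of_dvd_pow h
      exact hcommon r hr hrΔ hrY hrQ
  have hPval : P.natAbs = 1 ∨ P.natAbs = 3 := (Nat.dvd_prime Nat.prime_three).mp hP3
  -- the sign
  have hQneg : Q < 0 := by
    have h1 : P ^ 2 * Q < 0 := by rw [key2]; linarith
    have h2 : 0 < P ^ 2 := by positivity
    by_contra h
    push Not at h
    have := mul_nonneg h2.le h
    linarith
  have hP3Y : 3 * Y ^ 2 < P := by linarith
  have hY2 := sq_nonneg Y
  -- conclusion modulo `8`
  rcases Int.even_or_odd' Y with ⟨k, hk | hk⟩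
  · have hPk : P = 16 * k ^ 2 - c := by rw [hP, hk]; ring
    have hP8 : P % 8 = 7 := by omega
    omega
  · obtain ⟨m, hm⟩ := Int.even_mul_succ_self k
    have hPk : P = 32 * m + 4 - c := by
      rw [hP, hk]; linear_combination 16 * hm
    have hP8 : P % 8 = 3 := by omega
    have hY1 : 1 ≤ Y ^ 2 := by
      have : Y ≠ 0 := by omega
      have := Int.one_le_abs this
      nlinarith [sq_abs Y]
    omega

/-- **Irreducibility of `W[2]`** under the parity and sign hypotheses. -/
theorem irr_of_odd (W : WeierstrassCurve ℤ) (ss : W.IsSemistableModel) (neg : W.Δ < 0)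
    (two : (2 : ℤ) ∣ W.Δ)
    (odd : ∀ r : ℕ, r.Prime → (r : ℤ) ∣ W.Δ → Odd (W.Δ.natAbs.factorization r)) :
    W.ModRepIsIrreducible 2 :=
  irreducible_two_of_no_root W neg.ne (no_root_of_odd W ss neg two odd)

end Fermat.Agent.LTF
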