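import Fermat.Agent.Switch.PrimeHom
import Mathlib.NumberTheory.LegendreSymbol.QuadraticReciprocity
import Mathlib.Topology.Order.IntermediateValue

/-!
# Primes `≡ 11 mod 12` at which a polynomial with a real root has a root
-/

set_option autoImplicit false

open Polynomial

namespace Fermat.Agent.LTF

/-- If `r ≡ 3 mod 4`, `r ≠ 3`, and `3` is a square modulo `r` then `r ≡ 11 mod 12`. -/
theorem mod_twelve_of_isSquare_three {r : ℕ} [Fact r.Prime] (h4 : r % 4 = 3) (h3 : 3 < r)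
    (hs : IsSquare (3 : ZMod r)) : r % 12 = 11 := by
  have : Fact (Nat.Prime 3) := ⟨Nat.prime_three⟩
  have h := ZMod.exists_sq_eq_prime_iff_of_mod_four_eq_three (p := r) (q := 3) h4 (by norm_num)
    (by omega)
  have h' : ¬ IsSquare ((r : ℕ) : ZMod 3) := h.1 (by exact_mod_cast hs)
  have hr3 : r % 3 = 2 := by
    have hlt : r % 3 < 3 := Nat.mod_lt _ (by norm_num)
    have hcast : ((r : ℕ) : ZMod 3) = ((r % 3 : ℕ) : ZMod 3) := by
      rw [ZMod.natCast_mod]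
    rw [hcast] at h'
    interval_cases hh : r % 3
    · exact absurd (by simp) h'
    · exact absurd (by simp) h'
    · rfl
  omega

/-- **Primes `≡ 11 mod 12`** at which a monic integer polynomial with a real root has a root. -/
theorem exists_prime_root_mod_twelve (f : ℤ[X]) (hf : f.Monic) {θ : ℝ}
    (hθ : eval₂ (Int.castRingHom ℝ) θ f = 0) (B : ℕ) :
    ∃ r : ℕ, r.Prime ∧ B < r ∧ r % 12 = 11 ∧ ∃ x : ℤ, (r : ℤ) ∣ f.eval x := by
  classical
  have hθi : IsIntegral ℚ θ := by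
    refine ⟨f.map (Int.castRingHom ℚ), hf.map _, ?_⟩
    rw [eval₂_map, show (algebraMap ℚ ℝ).comp (Int.castRingHom ℚ) = Int.castRingHom ℝ from
      RingHom.ext_int _ _]
    exact hθ
  have h3i : IsIntegral ℚ (Real.sqrt 3) := by
    refine ⟨X ^ 2 - C 3, monic_X_pow_sub_C _ (by norm_num), ?_⟩
    simp
  let K : IntermediateField ℚ ℝ := IntermediateField.adjoin ℚ {θ, Real.sqrt 3}
  have hfd : FiniteDimensional ℚ K := by
    apply IntermediateField.finiteDimensional_adjoin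
    intro x hx
    rcases hx with rfl | hx
    · exact hθi
    · rw [Set.mem_singleton_iff] at hx
      rw [hx]; exact h3i
  have hθK : θ ∈ K := IntermediateField.subset_adjoin _ _ (by simp)
  have h3K : Real.sqrt 3 ∈ K := IntermediateField.subset_adjoin _ _ (by simp)
  obtain ⟨r, hr, hrB, hr4, ⟨φ⟩⟩ := Fermat.Agent.Switch.exists_prime_hom (K := K)
    ({⟨θ, hθK⟩, ⟨Real.sqrt 3, h3K⟩} : Finset K) (B + 3)
  have := Fact.mk hr
  let A := Algebra.adjoin ℤ ((({⟨θ, hθK⟩, ⟨Real.sqrt 3, h3K⟩} : Finset K)) : Set K)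
  let t : A := ⟨⟨θ, hθK⟩, Algebra.subset_adjoin (by simp)⟩
  let s : A := ⟨⟨Real.sqrt 3, h3K⟩, Algebra.subset_adjoin (by simp)⟩
  have hs : s * s = 3 := by
    apply Subtype.ext
    apply Subtype.ext
    change Real.sqrt 3 * Real.sqrt 3 = ((3 : K) : ℝ)
    rw [Real.mul_self_sqrt (by norm_num)]
    rfl
  have ht : eval₂ (Int.castRingHom A) t f = 0 := by
    have hinj : Function.Injective (((algebraMap K ℝ).comp (algebraMap A K)) : A →+* ℝ) := by
      intro a b hab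
      exact Subtype.ext (Subtype.ext hab)
    apply hinj
    rw [map_zero, hom_eval₂, show ((algebraMap K ℝ).comp (algebraMap A K)).comp
      (Int.castRingHom A) = Int.castRingHom ℝ from RingHom.ext_int _ _]
    exact hθ
  have hφs : IsSquare (3 : ZMod r) := ⟨φ s, by rw [← map_mul, hs, map_ofNat]⟩
  have hφt : eval₂ (Int.castRingHom (ZMod r)) (φ t) f = 0 := by
    have := congrArg φ ht
    rwa [map_zero, hom_eval₂, show φ.comp (Int.castRingHom A) = Int.castRingHom (ZMod r) from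
      RingHom.ext_int _ _] at this
  refine ⟨r, hr, by omega, mod_twelve_of_isSquare_three hr4 (by omega) hφs,
    ((φ t).val : ℤ), ?_⟩
  rw [← ZMod.intCast_zmod_eq_zero_iff_dvd]
  have h1 := eval₂_at_apply (Int.castRingHom (ZMod r)) ((φ t).val : ℤ) (p := f)
  rw [eq_intCast, eq_intCast] at h1
  rw [← h1, Int.cast_natCast, ZMod.natCast_zmod_val, hφt]

/-- The quartic attached to the pencil of curves with given `3`-torsion has a root modulo
infinitely many primes `≡ 11 mod 12`. -/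
theorem exists_prime_quartic (c4 c6 : ℤ) (B : ℕ) :
    ∃ r : ℕ, r.Prime ∧ B < r ∧ r % 12 = 11 ∧
      ∃ x : ℤ, (r : ℤ) ∣ x ^ 4 - 6 * c4 * x ^ 2 - 8 * c6 * x - 3 * c4 ^ 2 := by
  set f : ℤ[X] := X ^ 4 - C (6 * c4) * X ^ 2 - C (8 * c6) * X - C (3 * c4 ^ 2) with hf
  have hfm : f.Monic := by
    rw [hf]
    monicity!
  have hev : ∀ y : ℝ, eval₂ (Int.castRingHom ℝ) y f =
      y ^ 4 - 6 * c4 * y ^ 2 - 8 * c6 * y - 3 * c4 ^ 2 := by
    intro y
    rw [hf]
    simp only [eval₂_sub, eval₂_mul, eval₂_pow, eval₂_X, eval₂_C]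
    simp only [eq_intCast]
    push_cast
    ring
  -- a real root
  obtain ⟨θ, hθ⟩ : ∃ θ : ℝ, eval₂ (Int.castRingHom ℝ) θ f = 0 := by
    set b : ℝ := 1 + 6 * |(c4 : ℝ)| + 8 * |(c6 : ℝ)| + 3 * (c4 : ℝ) ^ 2 with hb
    have hb1 : 1 ≤ b := by
      have := abs_nonneg (c4 : ℝ); have := abs_nonneg (c6 : ℝ); have := sq_nonneg (c4 : ℝ)
      rw [hb]; nlinarith
    have h0 : eval₂ (Int.castRingHom ℝ) (0 : ℝ) f ≤ 0 := by
      rw [hev]
      have := sq_nonneg (c4 : ℝ)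
      nlinarith
    have h1 : 0 ≤ eval₂ (Int.castRingHom ℝ) b f := by
      rw [hev]
      have e4 : (c4 : ℝ) ≤ |(c4 : ℝ)| := le_abs_self _
      have e6 : (c6 : ℝ) ≤ |(c6 : ℝ)| := le_abs_self _
      have n4 := abs_nonneg (c4 : ℝ)
      have n6 := abs_nonneg (c6 : ℝ)
      have nc := sq_nonneg (c4 : ℝ)
      have hb0 : 0 ≤ b := by linarith
      have hb2 : 0 ≤ b ^ 2 := sq_nonneg _
      have hb3 : b ≤ b ^ 3 := by nlinarith [sq_nonneg (b - 1), sq_nonneg b]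
      have hb23 : b ^ 2 ≤ b ^ 3 := by nlinarith
      have hb13 : 1 ≤ b ^ 3 := by linarith
      have hb30 : 0 ≤ b ^ 3 := by linarith
      have key : b ^ 4 = b ^ 3 + 6 * |(c4 : ℝ)| * b ^ 3 + 8 * |(c6 : ℝ)| * b ^ 3 +
          3 * (c4 : ℝ) ^ 2 * b ^ 3 := by
        have : b ^ 4 = b * b ^ 3 := by ring
        rw [this]
        nth_rewrite 1 [hb]
        ring
      have t1 : 6 * (c4 : ℝ) * b ^ 2 ≤ 6 * |(c4 : ℝ)| * b ^ 3 := by
        calc 6 * (c4 : ℝ) * b ^ 2 ≤ 6 * |(c4 : ℝ)| * b ^ 2 := by nlinarith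
          _ ≤ 6 * |(c4 : ℝ)| * b ^ 3 := by nlinarith
      have t2 : 8 * (c6 : ℝ) * b ≤ 8 * |(c6 : ℝ)| * b ^ 3 := by
        calc 8 * (c6 : ℝ) * b ≤ 8 * |(c6 : ℝ)| * b := by nlinarith
          _ ≤ 8 * |(c6 : ℝ)| * b ^ 3 := by nlinarith
      have t3 : 3 * (c4 : ℝ) ^ 2 ≤ 3 * (c4 : ℝ) ^ 2 * b ^ 3 := by nlinarith
      linarith
    have hcont : Continuous fun y : ℝ => eval₂ (Int.castRingHom ℝ) y f := by
      simp only [hev]
      fun_prop
    obtain ⟨θ, -, hθ⟩ : ∃ θ ∈ Set.Icc 0 b, eval₂ (Int.castRingHom ℝ) θ f = 0 :=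
      intermediate_value_Icc (by linarith) hcont.continuousOn ⟨h0, h1⟩
    exact ⟨θ, hθ⟩
  obtain ⟨r, hr, hB, h12, x, hx⟩ := exists_prime_root_mod_twelve f hfm hθ B
  refine ⟨r, hr, hB, h12, x, ?_⟩
  have : f.eval x = x ^ 4 - 6 * c4 * x ^ 2 - 8 * c6 * x - 3 * c4 ^ 2 := by
    rw [hf]; simp
  rwa [this] at hx

end Fermat.Agent.LTF
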