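import Mathlib
import Fermat.Agent.LTF.Defs
import Fermat.Agent.LTF.Local3
import Fermat.Agent.LTF.Trace3
import Fermat.Agent.LTF.PrimeEleven
import Fermat.Agent.LTF.NoRoot
import Fermat.Agent.LTF.QuarticZero

/-!
# The good switch: `W` semistable, multiplicative at `2`, `W[3]` irreducible
-/

set_option autoImplicit false

namespace Fermat.Agent.LTF

open WeierstrassCurve

/-- Chinese remainder theorem modulo squares of distinct primes -/
theorem crt_sq (S : Finset ℕ) (hS : ∀ r ∈ S, r.Prime) (f : ℕ → ℤ) :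
    ∃ x : ℤ, ∀ r ∈ S, (r : ℤ) ^ 2 ∣ x - f r := by
  classical
  induction S using Finset.induction_on with
  | empty => exact ⟨0, by simp⟩
  | insert p S hp ih =>
    obtain ⟨x, hx⟩ := ih (fun r hr => hS r (Finset.mem_insert_of_mem hr))
    have hcop : IsCoprime (∏ r ∈ S, (r : ℤ) ^ 2) ((p : ℤ) ^ 2) := by
      refine IsCoprime.prod_left fun r hr => IsCoprime.pow ?_
      have h1 := hS r (Finset.mem_insert_of_mem hr)
      have h2 := hS p (Finset.mem_insert_self _ _)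
      refine Nat.isCoprime_iff_coprime.2 ((Nat.coprime_primes h1 h2).2 ?_)
      rintro rfl
      exact hp hr
    obtain ⟨u, v, huv⟩ := hcop
    refine ⟨x + u * (∏ r ∈ S, (r : ℤ) ^ 2) * (f p - x), fun r hr => ?_⟩
    rcases Finset.mem_insert.1 hr with rfl | hr
    · refine ⟨v * (x - f r), ?_⟩
      linear_combination (f r - x) * huv
    · have h1 : (r : ℤ) ^ 2 ∣ ∏ r ∈ S, (r : ℤ) ^ 2 := Finset.dvd_prod_of_mem _ hr
      have h2 : (r : ℤ) ^ 2 ∣ u * (∏ r ∈ S, (r : ℤ) ^ 2) * (f p - x) :=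
        Dvd.dvd.mul_right (Dvd.dvd.mul_left h1 _) _
      have e : x + u * (∏ r ∈ S, (r : ℤ) ^ 2) * (f p - x) - f r =
          (x - f r) + u * (∏ r ∈ S, (r : ℤ) ^ 2) * (f p - x) := by ring
      rw [e]
      exact dvd_add (hx r hr) h2

/-- homogeneity of `G3` -/
theorem G3_smul {R : Type*} [CommRing R] (W : WeierstrassCurve R) (s t u : R) :
    G3 W (u * s) (u * t) = u ^ 4 * G3 W s t := by
  unfold G3; ring

/-- the sign of the form near a direction -/
theorem exists_dir (W : WeierstrassCurve ℝ) (x0 y0 ε : ℝ) (h : 0 < ε * G3 W x0 y0) :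
    ∃ C : ℕ, 0 < C ∧ ∀ L : ℝ, 0 < L → ∀ s t : ℝ, |s - C * L * x0| ≤ 2 * L →
      |t - C * L * y0| ≤ 2 * L → 0 < ε * G3 W s t := by
  have hcont : Continuous fun p : ℝ × ℝ => ε * G3 W p.1 p.2 := by
    unfold G3
    fun_prop
  have hev : ∀ᶠ p : ℝ × ℝ in nhds (x0, y0), 0 < ε * G3 W p.1 p.2 :=
    hcont.continuousAt.eventually (lt_mem_nhds h)
  obtain ⟨δ, hδ, hball⟩ := Metric.eventually_nhds_iff.1 hev
  obtain ⟨C, hC⟩ := exists_nat_gt (2 / δ)
  have hCpos : (0 : ℝ) < C := lt_trans (by positivity) hC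
  refine ⟨C, by exact_mod_cast hCpos, fun L hL s t hs ht => ?_⟩
  have hlam : (0 : ℝ) < C * L := by positivity
  have key : ∀ z z0 : ℝ, |z - C * L * z0| ≤ 2 * L → |z / (C * L) - z0| < δ := by
    intro z z0 hz
    have e : z / (C * L) - z0 = (z - C * L * z0) / (C * L) := by field_simp
    rw [e, abs_div, abs_of_pos hlam, div_lt_iff₀ hlam]
    calc |z - C * L * z0| ≤ 2 * L := hz
      _ < δ * (C * L) := by
        rw [div_lt_iff₀ hδ] at hC
        nlinarith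
  have hd : dist (s / (C * L), t / (C * L)) (x0, y0) < δ := by
    rw [Prod.dist_eq, max_lt_iff, Real.dist_eq, Real.dist_eq]
    exact ⟨key s x0 hs, key t y0 ht⟩
  have hpos := hball hd
  have e : G3 W s t = (C * L) ^ 4 * G3 W (s / (C * L)) (t / (C * L)) := by
    rw [← G3_smul]
    congr 1 <;> field_simp
  rw [e]
  have h4 : (0 : ℝ) < (C * L) ^ 4 := by positivity
  have := mul_pos h4 hpos
  calc (0 : ℝ) < (C * L) ^ 4 * (ε * G3 W (s / (C * L)) (t / (C * L))) := this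
    _ = _ := by ring


/-- coefficients of `G3` in the shape of the sieve -/
def cf (W : WeierstrassCurve ℤ) : Fin 5 → ℤ := ![27 * W.b₈, 27 * W.b₆, 9 * W.b₄, W.b₂, 1]

theorem F_cf (W : WeierstrassCurve ℤ) (s t : ℤ) : Sieve.F (cf W) s t = G3 W s t := by
  simp only [Sieve.F, cf, G3, Matrix.cons_val]
  ring

theorem Fs_cf (W : WeierstrassCurve ℤ) (s t : ℤ) : Sieve.Fs (cf W) s t = G3s W s t := by
  simp only [Sieve.Fs, cf, G3s, Matrix.cons_val]
  ring

/-- the direction in which the discriminant of the member of the family is negative -/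
theorem exists_sign (W : WeierstrassCurve ℤ) (hΔ : W.Δ ≠ 0) (hc : W.c₄ ≠ 0) :
    ∃ x0 y0 : ℤ, 0 < (-(W.Δ : ℝ)) * G3 (W.map (Int.castRingHom ℝ)) x0 y0 := by
  rcases lt_or_gt_of_ne hΔ with h | h
  · refine ⟨1, 0, ?_⟩
    have e : G3 (W.map (Int.castRingHom ℝ)) ((1 : ℤ) : ℝ) ((0 : ℤ) : ℝ) = 1 := by simp [G3]
    rw [e, mul_one]
    have : (W.Δ : ℝ) < 0 := by exact_mod_cast h
    linarith
  · refine ⟨-W.b₂, 4, ?_⟩
    have h1 : 256 * G3 W (-W.b₂) 4 = 256 * (-3 * W.c₄ ^ 2) := by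
      rw [fam3_G3]
      unfold D3
      ring
    have h2 : G3 W (-W.b₂) 4 = -3 * W.c₄ ^ 2 := mul_left_cancel₀ (by norm_num) h1
    have h3 : G3 W (-W.b₂) 4 < 0 := by
      rw [h2]
      have : 0 < W.c₄ ^ 2 := by positivity
      linarith
    have e : G3 (W.map (Int.castRingHom ℝ)) ((-W.b₂ : ℤ) : ℝ) ((4 : ℤ) : ℝ) =
        ((G3 W (-W.b₂) 4 : ℤ) : ℝ) := (map_G3 (Int.castRingHom ℝ) W (-W.b₂) 4).symm
    rw [e]
    have h4 : ((G3 W (-W.b₂) 4 : ℤ) : ℝ) < 0 := by exact_mod_cast h3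
    have h5 : (0 : ℝ) < W.Δ := by exact_mod_cast h
    nlinarith

theorem c₄_ne_zero (W : WeierstrassCurve ℤ) (hW : W.IsSemistableModel) : W.c₄ ≠ 0 := by
  intro h
  have h1 : W.Δ.natAbs = 1 := by
    by_contra hne
    obtain ⟨p, hp, hpd⟩ := Nat.exists_prime_and_dvd hne
    exact hW p hp (Int.natCast_dvd.2 hpd) (by rw [h]; exact dvd_zero _)
  have h2 := W.c_relation
  rw [h] at h2
  have h3 : W.c₆ ^ 2 = 1728 := by
    rcases Int.natAbs_eq W.Δ with h4 | h4
    · rw [h4, h1] at h2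
      have : 0 ≤ W.c₆ ^ 2 := by positivity
      push_cast at h2
      linarith
    · rw [h4, h1] at h2
      push_cast at h2
      linarith
  have h4 : W.c₆.natAbs ^ 2 = 1728 := by
    have := Int.natAbs_pow W.c₆ 2
    rw [h3] at this
    exact this.symm
  have h5 : W.c₆.natAbs < 42 := by
    by_contra h
    have := Nat.pow_le_pow_left (not_lt.1 h) 2
    omega
  have h6 : 41 < W.c₆.natAbs := by
    by_contra h
    have := Nat.pow_le_pow_left (not_lt.1 h) 2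
    omega
  omega

/-- the output of the combination sieve + CRT + direction -/
theorem exists_member (W : WeierstrassCurve ℤ) (hΔ : W.Δ ≠ 0) (hW : W.IsSemistableModel)
    (h2 : (2 : ℤ) ∣ W.Δ ∨ ∃ x : ℤ, SimpleAt (W.map (Int.castRingHom (ZMod 2))) (x : ZMod 2))
    (h3 : W.ModRepIsIrreducible 3) :
    ∃ s t : ℤ, IsCoprime s t ∧ W.Δ * G3 W s t < 0 ∧
      (∀ r : ℕ, r.Prime → LG W r s t) ∧ (2 : ℤ) ∣ W.Δ * G3 W s t ∧
      ∃ r : ℕ, r.Prime ∧ r % 12 = 11 ∧ (r : ℤ) ∣ G3 W s t := by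
  classical
  have hc0 : W.c₄ ≠ 0 := c₄_ne_zero W hW
  obtain ⟨r₁, hr₁, hB, h12, hx⟩ := exists_prime_quartic W.c₄ W.c₆ (W.Δ.natAbs + 3)
  have hr₁Δ : ¬ (r₁ : ℤ) ∣ W.Δ := by
    intro h
    have h' : r₁ ∣ W.Δ.natAbs := Int.natCast_dvd.1 h
    have := Nat.le_of_dvd (Int.natAbs_pos.2 hΔ) h'
    omega
  have hfac : W.Δ.natAbs.factorization r₁ = 0 :=
    Nat.factorization_eq_zero_of_not_dvd (fun h => hr₁Δ (Int.natCast_dvd.2 h))
  -- local choices
  have hloc : ∀ r : ℕ, r.Prime → ∃ s t : ℤ, LG W r s t ∧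
      ((r = r₁ ∨ (r = 2 ∧ ¬ (2 : ℤ) ∣ W.Δ)) → (r : ℤ) ∣ G3 W s t) := by
    intro r hr
    by_cases hrr : r = r₁
    · subst hrr
      obtain ⟨x, hx'⟩ := exists_simpleAt_good W hr (by omega) (by omega) hr₁Δ hx
      obtain ⟨s, t, h1, h2⟩ := LG.of_simpleAt W hr (by rw [hfac]; decide) hx'
      exact ⟨s, t, h1, fun _ => h2⟩
    · by_cases hr2 : r = 2 ∧ ¬ (2 : ℤ) ∣ W.Δ
      · obtain ⟨rfl, hr2⟩ := hr2
        obtain ⟨x, hx'⟩ := h2.resolve_left hr2
        have hf2 : W.Δ.natAbs.factorization 2 = 0 :=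
          Nat.factorization_eq_zero_of_not_dvd (fun h => hr2 (Int.natCast_dvd.2 h))
        obtain ⟨s, t, h1, h2⟩ := LG.of_simpleAt W hr (by rw [hf2]; decide) hx'
        exact ⟨s, t, h1, fun _ => h2⟩
      · obtain ⟨s, t, h⟩ := LG.exists W hr (hW r hr)
        exact ⟨s, t, h, fun h => absurd h (by tauto)⟩
  choose! f g hfg using hloc
  -- the set of special primes
  set B : ℕ := 2310 * W.Δ.natAbs * r₁ with hBdef
  have hB0 : B ≠ 0 := by
    have := Int.natAbs_pos.2 hΔ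
    have := hr₁.pos
    positivity
  set S : Finset ℕ := B.primeFactors with hS
  have hSp : ∀ r ∈ S, r.Prime := fun r hr => Nat.prime_of_mem_primeFactors hr
  have hmemS : ∀ r : ℕ, r.Prime → (r ∈ S ↔ r ∣ B) := fun r hr => by
    rw [hS, Nat.mem_primeFactors]
    exact ⟨fun h => h.2.1, fun h => ⟨hr, h, hB0⟩⟩
  set M : ℕ := ∏ r ∈ S, r ^ 2 with hM
  have hMpos : 0 < M := Finset.prod_pos fun r hr => pow_pos (hSp r hr).pos 2
  have hdvdM : ∀ r : ℕ, r.Prime → (r ∣ M ↔ r ∈ S) := by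
    intro r hr
    constructor
    · intro h
      obtain ⟨q, hq, hrq⟩ := (Prime.dvd_finsetProd_iff hr.prime _).1 h
      have h1 : r ∣ q := hr.dvd_of_dvd_pow hrq
      rwa [(Nat.prime_dvd_prime_iff_eq hr (hSp q hq)).1 h1]
    · intro h
      exact (dvd_pow_self _ two_ne_zero).trans (Finset.dvd_prod_of_mem _ h)
  have hsqM : ∀ r ∈ S, (r : ℤ) ^ 2 ∣ (M : ℤ) := by
    intro r hr
    have : r ^ 2 ∣ M := Finset.dvd_prod_of_mem (fun r => r ^ 2) hr
    exact_mod_cast Int.natCast_dvd_natCast.2 this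
  have hsmall : ∀ r : ℕ, r.Prime → r < 13 → r ∣ M := by
    intro r hr hlt
    rw [hdvdM r hr, hmemS r hr, hBdef, mul_assoc]
    refine Dvd.dvd.mul_right ?_ _
    interval_cases r <;> first | (exact absurd hr (by decide)) | decide
  have hgoodM : ∀ r : ℕ, r.Prime → ¬ r ∣ M → ¬ (r : ℤ) ∣ W.Δ := by
    intro r hr hrM h
    apply hrM
    rw [hdvdM r hr, hmemS r hr, hBdef]
    exact Dvd.dvd.mul_right (Dvd.dvd.mul_left (Int.natCast_dvd.1 h) _) _
  obtain ⟨s0, hs0⟩ := crt_sq S hSp f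
  obtain ⟨t0, ht0⟩ := crt_sq S hSp g
  have hLG0 : ∀ r ∈ S, LG W r s0 t0 := fun r hr =>
    (hfg r (hSp r hr)).1.congr W (hs0 r hr) (ht0 r hr)
  obtain ⟨x0, y0, hxy⟩ := exists_sign W hΔ hc0
  obtain ⟨C, hC0, hC⟩ := exists_dir (W.map (Int.castRingHom ℝ)) x0 y0 _ hxy
  obtain ⟨N, hN0, hNpos, a, b, ha, hb, hcop, hsq⟩ := Sieve.exists_sqfree (cf W) M hMpos hsmall
    (by
      intro r hr _ h
      have h1 : cf W 4 = 1 := rfl
      rw [h1] at h
      have h2 : (r : ℤ) ∣ ((1 : ℕ) : ℤ) := by simpa using h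
      exact hr.one_lt.ne' (Nat.dvd_one.1 (Int.natCast_dvd_natCast.1 h2)))
    (by
      intro r hr hrM s t ht hF hFs
      rw [F_cf] at hF
      rw [Fs_cf] at hFs
      have h2 : r ≠ 2 := by
        rintro rfl
        exact hrM (hsmall 2 hr (by norm_num))
      have h3 : r ≠ 3 := by
        rintro rfl
        exact hrM (hsmall 3 hr (by norm_num))
      exact ht (good_D W hr h2 h3 (hgoodM r hr hrM) hF hFs).2)
    (by
      intro s t h
      rw [F_cf] at h
      exact quartic_ne_zero W hΔ h3 s t h)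
    s0 t0 (fun r hr hrM => (hLG0 r ((hdvdM r hr).1 hrM)).prim)
    (C * x0) (C * y0) (s0.natAbs + t0.natAbs + 1)
  set s : ℤ := s0 + M * (C * x0 * N) + M * (a : ℤ) with hs
  set t : ℤ := t0 + M * (C * y0 * N) + M * (b : ℤ) with ht
  have hLGS : ∀ r ∈ S, LG W r s t ∧
      ((r = r₁ ∨ (r = 2 ∧ ¬ (2 : ℤ) ∣ W.Δ)) → (r : ℤ) ∣ G3 W s t) := by
    intro r hr
    have e1 : (r : ℤ) ^ 2 ∣ s - f r := by
      have : s - f r = (s0 - f r) + M * (C * x0 * N + a) := by rw [hs]; ring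
      rw [this]
      exact dvd_add (hs0 r hr) (Dvd.dvd.mul_right (hsqM r hr) _)
    have e2 : (r : ℤ) ^ 2 ∣ t - g r := by
      have : t - g r = (t0 - g r) + M * (C * y0 * N + b) := by rw [ht]; ring
      rw [this]
      exact dvd_add (ht0 r hr) (Dvd.dvd.mul_right (hsqM r hr) _)
    refine ⟨(hfg r (hSp r hr)).1.congr W e1 e2, fun h => ?_⟩
    have h1 := (hfg r (hSp r hr)).2 h
    have h2 := G3_congr W ((dvd_pow_self _ two_ne_zero).trans e1)
      ((dvd_pow_self _ two_ne_zero).trans e2)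
    simpa using dvd_add h1 h2
  refine ⟨s, t, hcop, ?_, ?_, ?_, r₁, hr₁, h12, ?_⟩
  · -- the sign
    have hMN : (0 : ℝ) < (M : ℝ) * N := by positivity
    have hN1 : (s0.natAbs : ℝ) + t0.natAbs + 1 ≤ N := by exact_mod_cast hN0
    have hM1 : (1 : ℝ) ≤ M := by exact_mod_cast hMpos
    have hbd : ∀ (z0 : ℤ) (c : ℕ), (z0.natAbs : ℝ) ≤ N → c < N →
        |(z0 : ℝ) + M * (c : ℝ)| ≤ 2 * (M * N) := by
      intro z0 c h1 h2
      have h3 : |(z0 : ℝ)| = (z0.natAbs : ℝ) := by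
        rw [Nat.cast_natAbs, Int.cast_abs]
      have h4 : (c : ℝ) ≤ N := by exact_mod_cast h2.le
      calc |(z0 : ℝ) + M * (c : ℝ)| ≤ |(z0 : ℝ)| + |(M : ℝ) * c| := abs_add_le _ _
        _ = z0.natAbs + M * c := by rw [h3, abs_of_nonneg (by positivity)]
        _ ≤ N + M * N := by gcongr
        _ ≤ M * N + M * N := by
          have : (N : ℝ) ≤ M * N := le_mul_of_one_le_left (by positivity) hM1
          linarith
        _ = 2 * (M * N) := by ring
    have hpos := hC (M * N) hMN (s : ℝ) (t : ℝ)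
      (by
        have e : (s : ℝ) - C * (M * N) * x0 = s0 + M * (a : ℝ) := by
          rw [hs]; push_cast; ring
        rw [e]
        refine hbd s0 a ?_ ha
        have : (0 : ℝ) ≤ t0.natAbs := by positivity
        linarith)
      (by
        have e : (t : ℝ) - C * (M * N) * y0 = t0 + M * (b : ℝ) := by
          rw [ht]; push_cast; ring
        rw [e]
        refine hbd t0 b ?_ hb
        have : (0 : ℝ) ≤ s0.natAbs := by positivity
        linarith)
    have e : G3 (W.map (Int.castRingHom ℝ)) (s : ℝ) (t : ℝ) = ((G3 W s t : ℤ) : ℝ) :=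
      (map_G3 (Int.castRingHom ℝ) W s t).symm
    rw [e] at hpos
    have h5 : ((W.Δ * G3 W s t : ℤ) : ℝ) < 0 := by
      push_cast
      linarith
    exact_mod_cast h5
  · intro r hr
    by_cases hrM : r ∣ M
    · exact (hLGS r ((hdvdM r hr).1 hrM)).1
    · have h2 : r ≠ 2 := by
        rintro rfl
        exact hrM (hsmall 2 hr (by norm_num))
      have h3 : r ≠ 3 := by
        rintro rfl
        exact hrM (hsmall 3 hr (by norm_num))
      have hΔr := hgoodM r hr hrM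
      have hprim : ¬ ((r : ℤ) ∣ s ∧ (r : ℤ) ∣ t) := by
        rintro ⟨h1, h2⟩
        have h3 := hcop.isUnit_of_dvd' h1 h2
        have h4 : (r : ℤ) ∣ 1 := h3.dvd
        have h5 : (r : ℤ) ∣ ((1 : ℕ) : ℤ) := by simpa using h4
        exact hr.one_lt.ne' (Nat.dvd_one.1 (Int.natCast_dvd_natCast.1 h5))
      have hrp : Prime (r : ℤ) := Nat.prime_iff_prime_int.1 hr
      have hf0 : W.Δ.natAbs.factorization r = 0 :=
        Nat.factorization_eq_zero_of_not_dvd (fun h => hΔr (Int.natCast_dvd.2 h))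
      refine ⟨hprim, ?_, ?_, ?_, ?_⟩
      · have := hsq r hr hrM
        rwa [F_cf] at this
      · intro h hc
        exact hprim (good_C W hr h2 h3 hΔr ((hrp.dvd_or_dvd h).resolve_left hΔr) hc)
      · intro h
        rw [hf0] at h
        exact absurd h (by decide)
      · intro h
        exact absurd h hΔr
  · by_cases h : (2 : ℤ) ∣ W.Δ
    · exact Dvd.dvd.mul_right h _
    · have h2S : 2 ∈ S := (hdvdM 2 Nat.prime_two).1 (hsmall 2 Nat.prime_two (by norm_num))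
      have := (hLGS 2 h2S).2 (Or.inr ⟨rfl, h⟩)
      exact Dvd.dvd.mul_left (by exact_mod_cast this) _
  · have hr₁S : r₁ ∈ S := by
      rw [hmemS r₁ hr₁, hBdef]
      exact Dvd.intro_left _ rfl
    exact (hLGS r₁ hr₁S).2 (Or.inl rfl)

/-- **The good switch**, general form: `W` is multiplicative at `2` or its reduction at `2` is
3-congruent to a nodal curve. -/
theorem exists_good_switch_gen (W : WeierstrassCurve ℤ) (hΔ : W.Δ ≠ 0) (hW : W.IsSemistableModel)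
    (h2 : (2 : ℤ) ∣ W.Δ ∨ ∃ x : ℤ, SimpleAt (W.map (Int.castRingHom (ZMod 2))) (x : ZMod 2))
    (h3 : W.ModRepIsIrreducible 3) :
    ∃ W' : WeierstrassCurve ℤ, GoodCurve W' ∧
      ∀ ℓ : ℕ, ℓ.Prime → ℓ ≠ 3 → W.IsGoodPrimeFor ℓ → W'.IsGoodPrimeFor ℓ →
        (3 : ℤ) ∣ W'.apOfModel ℓ - W.apOfModel ℓ := by
  obtain ⟨s, t, hcop, hneg, hLG, h22, r₁, hr₁, h12, hr₁G⟩ := exists_member W hΔ hW h2 h3
  have hΔ' : (fam3 W s t).Δ = W.Δ * G3 W s t ^ 3 := fam3_Δ W s t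
  have hG0 : G3 W s t ≠ 0 := by
    intro h
    rw [h, mul_zero] at hneg
    exact lt_irrefl _ hneg
  have hdvd : ∀ r : ℕ, r.Prime → (r : ℤ) ∣ (fam3 W s t).Δ → (r : ℤ) ∣ W.Δ * G3 W s t := by
    intro r hr h
    rw [hΔ'] at h
    have hrp : Prime (r : ℤ) := Nat.prime_iff_prime_int.1 hr
    rcases hrp.dvd_or_dvd h with h1 | h1
    · exact Dvd.dvd.mul_right h1 _
    · exact Dvd.dvd.mul_left (hrp.dvd_of_dvd_pow h1) _
  have hss : (fam3 W s t).IsSemistableModel := fun r hr h =>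
    (hLG r hr).ss (hdvd r hr h)
  have hneg' : (fam3 W s t).Δ < 0 := by
    rw [hΔ']
    have h1 : 0 < G3 W s t ^ 2 := by positivity
    calc W.Δ * G3 W s t ^ 3 = (W.Δ * G3 W s t) * G3 W s t ^ 2 := by ring
      _ < 0 := mul_neg_of_neg_of_pos hneg h1
  have htwo : (2 : ℤ) ∣ (fam3 W s t).Δ := by
    rw [hΔ', show W.Δ * G3 W s t ^ 3 = (W.Δ * G3 W s t) * G3 W s t ^ 2 by ring]
    exact Dvd.dvd.mul_right h22 _
  have hodd : ∀ r : ℕ, r.Prime → (r : ℤ) ∣ (fam3 W s t).Δ →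
      Odd ((fam3 W s t).Δ.natAbs.factorization r) := by
    intro r hr h
    have hrp : Prime (r : ℤ) := Nat.prime_iff_prime_int.1 hr
    have hL := hLG r hr
    have hval : (fam3 W s t).Δ.natAbs.factorization r =
        W.Δ.natAbs.factorization r + 3 * (G3 W s t).natAbs.factorization r := by
      rw [hΔ', Int.natAbs_mul, Int.natAbs_pow, Nat.factorization_mul (Int.natAbs_ne_zero.2 hΔ)
        (pow_ne_zero _ (Int.natAbs_ne_zero.2 hG0)), Nat.factorization_pow]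
      simp
    rw [hval]
    by_cases hG : (r : ℤ) ∣ G3 W s t
    · have h1 : (G3 W s t).natAbs.factorization r = 1 := by
        have hle : ¬ r ^ 2 ∣ (G3 W s t).natAbs := by
          intro h
          exact hL.sq (by exact_mod_cast Int.natCast_dvd.2 h)
        have hge : r ^ 1 ∣ (G3 W s t).natAbs := by
          rw [pow_one]; exact Int.natCast_dvd.1 hG
        rw [hr.pow_dvd_iff_le_factorization (Int.natAbs_ne_zero.2 hG0)] at hle hge
        omega
      have h2 : ¬ Odd (W.Δ.natAbs.factorization r) := fun h => hL.odd h hG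
      rw [h1]
      rw [Nat.not_odd_iff_even] at h2
      exact h2.add_odd (by decide)
    · have h1 : (G3 W s t).natAbs.factorization r = 0 :=
        Nat.factorization_eq_zero_of_not_dvd (fun h => hG (Int.natCast_dvd.2 h))
      have h2 : (r : ℤ) ∣ W.Δ := by
        have := hdvd r hr h
        exact (hrp.dvd_or_dvd this).resolve_right hG
      have h3 : Odd (W.Δ.natAbs.factorization r) := by
        by_contra h4
        exact hG (hL.even h2 h4)
      rw [h1]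
      simpa using h3
  refine ⟨fam3 W s t, ⟨hss, hneg', htwo, hodd, irr_of_odd _ hss hneg' htwo hodd, r₁, hr₁, ?_, h12⟩,
    ?_⟩
  · rw [hΔ']
    exact Dvd.dvd.mul_left (dvd_pow hr₁G (by norm_num)) _
  · intro ℓ hℓ hℓ3 hg hg'
    have hℓ2 : ℓ ≠ 2 := by
      rintro rfl
      exact hg' (by exact_mod_cast htwo)
    refine apOfModel_congr3 (4 * s + W.b₂ * t) t 4 ℓ hℓ hℓ2 hℓ3 ?_ hg hg' ?_ ?_
    · intro h
      have h1 : (ℓ : ℤ) ∣ ((4 : ℕ) : ℤ) := by simpa using h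
      have h2 : ℓ ∣ 2 ^ 2 := by simpa using Int.natCast_dvd_natCast.1 h1
      exact hℓ2 ((Nat.prime_dvd_prime_iff_eq hℓ Nat.prime_two).1 (hℓ.dvd_of_dvd_pow h2))
    · have := fam3_c₄ W s t
      linear_combination this
    · have := fam3_c₆ W s t
      linear_combination this


/-- **The good switch.** -/
theorem exists_good_switch (W : WeierstrassCurve ℤ) (hΔ : W.Δ ≠ 0) (hW : W.IsSemistableModel)
    (h2 : (2 : ℤ) ∣ W.Δ) (h3 : W.ModRepIsIrreducible 3) :
    ∃ W' : WeierstrassCurve ℤ, GoodCurve W' ∧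
      ∀ ℓ : ℕ, ℓ.Prime → ℓ ≠ 3 → W.IsGoodPrimeFor ℓ → W'.IsGoodPrimeFor ℓ →
        (3 : ℤ) ∣ W'.apOfModel ℓ - W.apOfModel ℓ :=
  exists_good_switch_gen W hΔ hW (Or.inl h2) h3

/-- a curve with good supersingular reduction at `2` and `a₂ = 0` -/
theorem simpleAt_zero_of_supersingular (V : WeierstrassCurve (ZMod 2)) (h1 : V.a₁ = 0)
    (h3 : V.a₃ ≠ 0) (h24 : V.a₂ + V.a₄ = 0) : SimpleAt V 0 := by
  have key : ∀ a1 a2 a3 a4 a6 : ZMod 2, a1 = 0 → a3 ≠ 0 → a2 + a4 = 0 →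
      G3 (⟨a1, a2, a3, a4, a6⟩ : WeierstrassCurve (ZMod 2)) 0 1 = 0 ∧
        G3s (⟨a1, a2, a3, a4, a6⟩ : WeierstrassCurve (ZMod 2)) 0 1 ≠ 0 ∧
        (fam3 (⟨a1, a2, a3, a4, a6⟩ : WeierstrassCurve (ZMod 2)) 0 1).c₄ ≠ 0 := by
    decide +kernel
  obtain ⟨a1, a2, a3, a4, a6⟩ := V
  exact key a1 a2 a3 a4 a6 h1 h3 h24

/-- The good switch for a curve with `a₁` even, `a₃` odd, `a₂ + a₄` even (supersingular at `2`
with `a₂ = 0`). -/
theorem exists_good_switch_supersingular (W : WeierstrassCurve ℤ) (hΔ : W.Δ ≠ 0)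
    (hW : W.IsSemistableModel) (h1 : Even W.a₁) (ha3 : Odd W.a₃) (h24 : Even (W.a₂ + W.a₄))
    (h3 : W.ModRepIsIrreducible 3) :
    ∃ W' : WeierstrassCurve ℤ, GoodCurve W' ∧
      ∀ ℓ : ℕ, ℓ.Prime → ℓ ≠ 3 → W.IsGoodPrimeFor ℓ → W'.IsGoodPrimeFor ℓ →
        (3 : ℤ) ∣ W'.apOfModel ℓ - W.apOfModel ℓ := by
  refine exists_good_switch_gen W hΔ hW (Or.inr ⟨0, ?_⟩) h3
  rw [Int.cast_zero]
  refine simpleAt_zero_of_supersingular _ ?_ ?_ ?_
  · exact ZMod.intCast_eq_zero_iff_even.2 h1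
  · intro h
    exact (Int.not_even_iff_odd.2 ha3) (ZMod.intCast_eq_zero_iff_even.1 h)
  · have : ((W.a₂ + W.a₄ : ℤ) : ZMod 2) = 0 := ZMod.intCast_eq_zero_iff_even.2 h24
    simpa using this

end Fermat.Agent.LTF
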