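import Mathlib

/-!
# [COUNT]: comparing a ring with its torsion free quotient by counting modulo a prime
-/

set_option autoImplicit false

open Module

namespace Fermat.Agent.LTF.Count

section Module

variable {𝒪 : Type*} [CommRing 𝒪] [IsLocalRing 𝒪] {ϖ : 𝒪} (hϖ : ϖ ∈ IsLocalRing.maximalIdeal 𝒪)
  {M N : Type*} [AddCommGroup M] [Module 𝒪 M] [AddCommGroup N] [Module 𝒪 N]

/-- multiples of `ϖ` -/
def mulSub (ϖ : 𝒪) (M : Type*) [AddCommGroup M] [Module 𝒪 M] : Submodule 𝒪 M :=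
  LinearMap.range (LinearMap.lsmul 𝒪 M ϖ)

omit [IsLocalRing 𝒪] in
theorem mem_mulSub {x : M} : x ∈ mulSub ϖ M ↔ ∃ y, ϖ • y = x := Iff.rfl

omit [IsLocalRing 𝒪] in
theorem map_mem_mulSub (f : M →ₗ[𝒪] N) {x : M} (hx : x ∈ mulSub ϖ M) : f x ∈ mulSub ϖ N := by
  obtain ⟨y, rfl⟩ := hx
  exact ⟨f y, (f.map_smul ϖ y).symm⟩

include hϖ in
/-- A surjection of a finite module onto a torsion free one is injective if the source is not
larger modulo `ϖ`. -/
theorem injective_of_card [IsNoetherian 𝒪 M] (f : M →ₗ[𝒪] N) (hf : Function.Surjective f)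
    (htf : ∀ x : N, ϖ • x = 0 → x = 0) [Finite (M ⧸ mulSub ϖ M)]
    (hcard : Nat.card (M ⧸ mulSub ϖ M) ≤ Nat.card (N ⧸ mulSub ϖ N)) : Function.Injective f := by
  let g : (M ⧸ mulSub ϖ M) →ₗ[𝒪] (N ⧸ mulSub ϖ N) :=
    Submodule.mapQ _ _ f fun x hx => map_mem_mulSub f hx
  have hg : Function.Surjective g := by
    intro y
    obtain ⟨y, rfl⟩ := (mulSub ϖ N).mkQ_surjective y
    obtain ⟨x, rfl⟩ := hf y
    exact ⟨(mulSub ϖ M).mkQ x, rfl⟩
  have : Finite (N ⧸ mulSub ϖ N) := Finite.of_surjective g hg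
  have hbij : Function.Injective g := by
    have h1 : Nat.card (N ⧸ mulSub ϖ N) ≤ Nat.card (M ⧸ mulSub ϖ M) :=
      Nat.card_le_card_of_surjective g hg
    have h2 : Nat.card (M ⧸ mulSub ϖ M) = Nat.card (N ⧸ mulSub ϖ N) := le_antisymm hcard h1
    exact ((Nat.bijective_iff_surjective_and_card g).mpr ⟨hg, h2⟩).1
  rw [← LinearMap.ker_eq_bot]
  apply Submodule.eq_bot_of_le_smul_of_le_jacobson_bot (IsLocalRing.maximalIdeal 𝒪) _
    (IsNoetherian.noetherian _) _ (IsLocalRing.maximalIdeal_le_jacobson _)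
  intro x hx
  rw [LinearMap.mem_ker] at hx
  have h1 : (mulSub ϖ M).mkQ x = 0 := by
    apply hbij
    rw [map_zero]
    show (mulSub ϖ N).mkQ (f x) = 0
    rw [hx, map_zero]
  rw [Submodule.mkQ_apply, Submodule.Quotient.mk_eq_zero] at h1
  obtain ⟨y, rfl⟩ := h1
  have h2 : f y = 0 := htf _ (by rw [← f.map_smul]; exact hx)
  exact Submodule.smul_mem_smul hϖ (LinearMap.mem_ker.mpr h2)

end Module

section Characters

/-- Distinct characters bound the rank from below. -/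
theorem card_le_finrank {𝒪 T Ω ι : Type*} [CommRing 𝒪] [Nontrivial 𝒪] [CommRing T] [Algebra 𝒪 T]
    [Module.Free 𝒪 T] [Module.Finite 𝒪 T] [Field Ω] [Algebra 𝒪 Ω] [Fintype ι]
    (x : ι → T →ₐ[𝒪] Ω) (hx : Function.Injective x) : Fintype.card ι ≤ finrank 𝒪 T := by
  have h1 : LinearIndependent Ω (fun i => (x i).toLinearMap) :=
    (linearIndependent_algHom_toLinearMap 𝒪 T Ω).comp x hx
  have h2 := h1.fintype_card_le_finrank
  rwa [Module.finrank_linearMap_self] at h2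

/-- The size of a finite free module modulo `ϖ`. -/
theorem card_quot_eq {𝒪 T : Type*} [CommRing 𝒪] [IsLocalRing 𝒪] {ϖ : 𝒪} [AddCommGroup T]
    [Module 𝒪 T] [Module.Free 𝒪 T] [Module.Finite 𝒪 T] :
    Nat.card (T ⧸ mulSub ϖ T) = Nat.card (𝒪 ⧸ mulSub ϖ 𝒪) ^ finrank 𝒪 T := by
  let b := Module.finBasis 𝒪 T
  let e : (T ⧸ mulSub ϖ T) ≃ₗ[𝒪] ((Fin (finrank 𝒪 T) → 𝒪) ⧸ mulSub ϖ (Fin (finrank 𝒪 T) → 𝒪)) :=
    Submodule.Quotient.equiv _ _ b.equivFun (by
      ext x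
      rw [Submodule.mem_map]
      constructor
      · rintro ⟨y, ⟨z, rfl⟩, rfl⟩
        exact ⟨b.equivFun z, (b.equivFun.map_smul ϖ z).symm⟩
      · rintro ⟨z, rfl⟩
        exact ⟨ϖ • b.equivFun.symm z, ⟨_, rfl⟩, by
          show b.equivFun (ϖ • b.equivFun.symm z) = ϖ • z
          rw [map_smul, LinearEquiv.apply_symm_apply]⟩)
  rw [Nat.card_congr e.toEquiv]
  -- functions modulo `ϖ`
  let F : (Fin (finrank 𝒪 T) → 𝒪) →ₗ[𝒪] (Fin (finrank 𝒪 T) → 𝒪 ⧸ mulSub ϖ 𝒪) :=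
    LinearMap.pi fun i => (mulSub ϖ 𝒪).mkQ ∘ₗ LinearMap.proj i
  have hF : Function.Surjective F := by
    intro y
    choose z hz using fun i => (mulSub ϖ 𝒪).mkQ_surjective (y i)
    exact ⟨z, funext hz⟩
  have hker : LinearMap.ker F = mulSub ϖ (Fin (finrank 𝒪 T) → 𝒪) := by
    ext x
    rw [LinearMap.mem_ker]
    constructor
    · intro hx
      have h1 : ∀ i, x i ∈ mulSub ϖ 𝒪 := fun i => by
        have := congrFun hx i
        exact (Submodule.Quotient.mk_eq_zero _).mp this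
      choose y hy using h1
      exact ⟨y, funext hy⟩
    · rintro ⟨y, rfl⟩
      funext i
      exact (Submodule.Quotient.mk_eq_zero _).mpr ⟨y i, rfl⟩
  rw [← hker, Nat.card_congr (F.quotKerEquivOfSurjective hF).toEquiv, Nat.card_pi,
    Finset.prod_const, Finset.card_univ, Fintype.card_fin]

end Characters

section Ring

/-- **[COUNT]** Let `f : B → T` be a surjection of `𝒪`-algebras, `B` finite over `𝒪`, `T` free over
`𝒪` and with at least `R` characters, and suppose that `B / ϖ B` has at most `|𝒪 / ϖ| ^ R`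
elements.  Then `f` is injective. -/
theorem injective_of_characters {𝒪 B T Ω ι : Type*} [CommRing 𝒪] [IsLocalRing 𝒪]
    [IsNoetherianRing 𝒪] {ϖ : 𝒪} (hϖ : ϖ ∈ IsLocalRing.maximalIdeal 𝒪)
    (hϖ0 : ϖ ∈ nonZeroDivisors 𝒪) [Finite (𝒪 ⧸ mulSub ϖ 𝒪)]
    [CommRing B] [Algebra 𝒪 B] [Module.Finite 𝒪 B] [CommRing T] [Algebra 𝒪 T] [Module.Free 𝒪 T]
    [Field Ω] [Algebra 𝒪 Ω] [Fintype ι] (x : ι → T →ₐ[𝒪] Ω) (hx : Function.Injective x)
    (f : B →ₐ[𝒪] T) (hf : Function.Surjective f) [Finite (B ⧸ mulSub ϖ B)]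
    (hcard : Nat.card (B ⧸ mulSub ϖ B) ≤ Nat.card (𝒪 ⧸ mulSub ϖ 𝒪) ^ Fintype.card ι) :
    Function.Injective f := by
  have : Module.Finite 𝒪 T := Module.Finite.of_surjective f.toLinearMap hf
  refine injective_of_card (N := T) hϖ f.toLinearMap hf ?_ ?_
  · intro y hy
    let b := Module.finBasis 𝒪 T
    apply b.repr.injective
    ext i
    have h1 := congrArg (fun z => b.repr z i) hy
    simp only [map_smul, Finsupp.smul_apply, map_zero, Finsupp.zero_apply, smul_eq_mul] at h1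
    rw [map_zero, Finsupp.zero_apply]
    have h2 : b.repr y i * ϖ = 0 := by rw [mul_comm]; exact h1
    exact (mem_nonZeroDivisors_iff.mp hϖ0).2 _ h2
  · rw [card_quot_eq (T := T)]
    refine hcard.trans (Nat.pow_le_pow_right Nat.card_pos (card_le_finrank x hx))

/-- the quotient by `ϖ` as a quotient ring -/
noncomputable def quotEquiv {𝒪 B : Type*} [CommRing 𝒪] [CommRing B] [Algebra 𝒪 B] (ϖ : 𝒪) :
    (B ⧸ mulSub ϖ B) ≃+ (B ⧸ Ideal.span {algebraMap 𝒪 B ϖ}) :=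
  QuotientAddGroup.congr _ _ (AddEquiv.refl B) (by
    ext x
    constructor
    · rintro ⟨_, ⟨y, rfl⟩, rfl⟩
      refine Ideal.mem_span_singleton'.mpr ⟨y, ?_⟩
      show y * algebraMap 𝒪 B ϖ = ϖ • y
      rw [Algebra.smul_def, mul_comm]
    · intro hx
      obtain ⟨y, hy⟩ := Ideal.mem_span_singleton'.mp hx
      refine ⟨x, ⟨y, ?_⟩, rfl⟩
      show ϖ • y = x
      rw [Algebra.smul_def, mul_comm, hy])

/-- `ℤ₂` has two elements modulo `2`. -/
theorem card_padicInt_quot (p : ℕ) [Fact p.Prime] :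
    Nat.card (ℤ_[p] ⧸ mulSub (p : ℤ_[p]) ℤ_[p]) = p := by
  rw [Nat.card_congr (quotEquiv (B := ℤ_[p]) (p : ℤ_[p])).toEquiv]
  have h1 : Ideal.span {algebraMap ℤ_[p] ℤ_[p] (p : ℤ_[p])} = IsLocalRing.maximalIdeal ℤ_[p] := by
    rw [Algebra.algebraMap_self, RingHom.id_apply, PadicInt.maximalIdeal_eq_span_p]
  rw [h1]
  exact (Nat.card_congr (PadicInt.residueField (p := p)).toEquiv).trans (Nat.card_zmod p)

/-- **[COUNT] over `ℤ_p`.** -/
theorem injective_of_characters_padic {p : ℕ} [Fact p.Prime] {B T Ω ι : Type*} [CommRing B]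
    [Algebra ℤ_[p] B] [Module.Finite ℤ_[p] B] [CommRing T] [Algebra ℤ_[p] T] [Module.Free ℤ_[p] T]
    [Field Ω] [Algebra ℤ_[p] Ω] [Fintype ι] (x : ι → T →ₐ[ℤ_[p]] Ω) (hx : Function.Injective x)
    (f : B →ₐ[ℤ_[p]] T) (hf : Function.Surjective f) [Finite (B ⧸ Ideal.span {(p : B)})]
    (hcard : Nat.card (B ⧸ Ideal.span {(p : B)}) ≤ p ^ Fintype.card ι) :
    Function.Injective f := by
  have h0 : algebraMap ℤ_[p] B (p : ℤ_[p]) = (p : B) := map_natCast _ p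
  have e := quotEquiv (B := B) (p : ℤ_[p])
  rw [h0] at e
  have : Finite (B ⧸ mulSub (p : ℤ_[p]) B) := Finite.of_equiv _ e.symm.toEquiv
  have hp0 : (p : ℤ_[p]) ≠ 0 := Nat.cast_ne_zero.mpr (Fact.out : p.Prime).ne_zero
  have hp : (p : ℤ_[p]) ∈ IsLocalRing.maximalIdeal ℤ_[p] := by
    rw [PadicInt.maximalIdeal_eq_span_p]
    exact Ideal.mem_span_singleton_self _
  have hfin : Finite (ℤ_[p] ⧸ mulSub (p : ℤ_[p]) ℤ_[p]) := by
    apply Nat.finite_of_card_ne_zero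
    rw [card_padicInt_quot]
    exact (Fact.out : p.Prime).ne_zero
  refine injective_of_characters (𝒪 := ℤ_[p]) (ϖ := (p : ℤ_[p])) hp
    (mem_nonZeroDivisors_of_ne_zero hp0) x hx f hf ?_
  rw [card_padicInt_quot, Nat.card_congr e.toEquiv]
  exact hcard

end Ring

end Fermat.Agent.LTF.Count
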