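import Mathlib

/-!
# The group theory of the deep choice of auxiliary primes (LTFREE, C0)

`G` any group with a representation `r : G → GL₂(ℤ/2ⁿ)`, residually onto `GL₂(𝔽₂)`, and an
element `τ` with `r τ = 1 + N`, `N² = 0`, `N ≢ 0 mod 2`.  A cocycle `e : G → V = 𝔽₂²` which
vanishes on `ker r` and with `e τ ∈ V^τ` is a coboundary.
-/

namespace Fermat.Agent.LTF.Deep

open Matrix

/-- reduction of matrices mod 2 -/
def red2 {n : ℕ} (hn : n ≠ 0) :
    Matrix (Fin 2) (Fin 2) (ZMod (2 ^ n)) →+* Matrix (Fin 2) (Fin 2) (ZMod 2) :=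
  (ZMod.castHom (dvd_pow_self 2 hn) (ZMod 2)).mapMatrix

theorem red2_apply {n : ℕ} (hn : n ≠ 0) (A : Matrix (Fin 2) (Fin 2) (ZMod (2 ^ n))) (i j : Fin 2) :
    red2 hn A i j = ZMod.castHom (dvd_pow_self 2 hn) (ZMod 2) (A i j) := rfl

/-- the span of the three conjugates of a nilpotent matrix -/
theorem span_sl2 : ∀ a : Matrix (Fin 2) (Fin 2) (ZMod 2), a.trace = 0 →
    ∀ N : Matrix (Fin 2) (Fin 2) (ZMod 2), N * N = 0 → N ≠ 0 →
    ∃ c₀ c₁ c₂ : ZMod 2, a = c₀ • N + c₁ • (!![0,1;1,1] * N * !![1,1;1,0]) +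
      c₂ • (!![1,1;1,0] * N * !![0,1;1,1]) := by
  decide +revert

section Zmod

variable {n : ℕ} (hn : n ≠ 0)

theorem two_dvd_of_cast {x : ZMod (2 ^ n)}
    (hx : ZMod.castHom (dvd_pow_self 2 hn) (ZMod 2) x = 0) : ∃ y, x = 2 * y := by
  have : NeZero (2 ^ n) := ⟨by positivity⟩
  have h1 : ((x.val : ℕ) : ZMod 2) = 0 := by
    rw [← hx, ZMod.castHom_apply, ZMod.natCast_val]
  rw [ZMod.natCast_eq_zero_iff] at h1
  obtain ⟨m, hm⟩ := h1
  refine ⟨(m : ZMod (2 ^ n)), ?_⟩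
  rw [← ZMod.natCast_zmod_val x, hm]
  push_cast
  rfl

theorem exists_two_smul {A : Matrix (Fin 2) (Fin 2) (ZMod (2 ^ n))} (hA : red2 hn A = 0) :
    ∃ B : Matrix (Fin 2) (Fin 2) (ZMod (2 ^ n)), A = (2 : ZMod (2 ^ n)) • B := by
  have h : ∀ i j, ∃ y, A i j = 2 * y := fun i j =>
    two_dvd_of_cast hn (by rw [← red2_apply hn, hA]; rfl)
  choose B hB using h
  exact ⟨Matrix.of B, by ext i j; simp [hB i j]⟩

theorem cast_eq_zero_of_mul {k : ℕ} (hk : k < n) {y : ZMod (2 ^ n)} (hy : 2 ^ k * y = 0) :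
    ZMod.castHom (dvd_pow_self 2 hn) (ZMod 2) y = 0 := by
  have : NeZero (2 ^ n) := ⟨by positivity⟩
  have h1 : ((2 ^ k * y.val : ℕ) : ZMod (2 ^ n)) = 0 := by
    push_cast
    rw [ZMod.natCast_zmod_val]
    exact hy
  rw [ZMod.natCast_eq_zero_iff] at h1
  have h2 : 2 ∣ y.val := by
    have h3 : 2 ^ k * 2 ∣ 2 ^ k * y.val := by
      refine dvd_trans ?_ h1
      rw [← pow_succ]
      exact pow_dvd_pow 2 (by omega)
    exact Nat.dvd_of_mul_dvd_mul_left (by positivity) h3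
  rw [ZMod.castHom_apply, ← ZMod.natCast_val, ZMod.natCast_eq_zero_iff]
  exact h2

theorem two_pow_eq_zero {k : ℕ} (hk : n ≤ k) : (2 : ZMod (2 ^ n)) ^ k = 0 := by
  have h : ((2 ^ k : ℕ) : ZMod (2 ^ n)) = 0 := by
    rw [ZMod.natCast_eq_zero_iff]
    exact pow_dvd_pow 2 hk
  push_cast at h
  exact h

end Zmod

section Main

variable {G : Type*} [Group G] {n : ℕ} (hn : n ≠ 0)
  (r : G →* Matrix (Fin 2) (Fin 2) (ZMod (2 ^ n)))

/-- `r g = 1 + 2^k A`, `A ≡ a mod 2` -/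
def Lvl (k : ℕ) (g : G) (a : Matrix (Fin 2) (Fin 2) (ZMod 2)) : Prop :=
  ∃ A : Matrix (Fin 2) (Fin 2) (ZMod (2 ^ n)), r g = 1 + (2 : ZMod (2 ^ n)) ^ k • A ∧
    red2 hn A = a

variable {r}

theorem red2_smul (c : ZMod (2 ^ n)) (A : Matrix (Fin 2) (Fin 2) (ZMod (2 ^ n))) :
    red2 hn (c • A) = ZMod.castHom (dvd_pow_self 2 hn) (ZMod 2) c • red2 hn A := by
  ext i j
  rw [Matrix.smul_apply, red2_apply, red2_apply, Matrix.smul_apply, smul_eq_mul, smul_eq_mul,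
    map_mul]

theorem cast_two_pow {k : ℕ} (hk : 1 ≤ k) :
    ZMod.castHom (dvd_pow_self 2 hn) (ZMod 2) ((2 : ZMod (2 ^ n)) ^ k) = 0 := by
  rw [map_pow, map_ofNat]
  have : (2 : ZMod 2) = 0 := rfl
  rw [this, zero_pow (by omega)]

theorem Lvl.mul {k : ℕ} (hk : 1 ≤ k) {g s : G} {a b : Matrix (Fin 2) (Fin 2) (ZMod 2)}
    (hg : Lvl hn r k g a) (hs : Lvl hn r k s b) : Lvl hn r k (g * s) (a + b) := by
  obtain ⟨A, hA, rfl⟩ := hg
  obtain ⟨B, hB, rfl⟩ := hs
  refine ⟨A + B + (2 : ZMod (2 ^ n)) ^ k • (A * B), ?_, ?_⟩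
  · rw [map_mul, hA, hB, add_mul, one_mul, mul_add, mul_one, Matrix.smul_mul, Matrix.mul_smul,
      smul_add, smul_add]
    abel
  · rw [map_add, map_add, red2_smul, cast_two_pow hn hk, zero_smul, add_zero]

theorem Lvl.one {k : ℕ} : Lvl hn r k (1 : G) 0 :=
  ⟨0, by rw [map_one, smul_zero, add_zero], map_zero _⟩

theorem Lvl.succ {k : ℕ} {g : G} (hg : Lvl hn r k g 0) : ∃ a, Lvl hn r (k + 1) g a := by
  obtain ⟨A, hA, h0⟩ := hg
  obtain ⟨B, rfl⟩ := exists_two_smul hn h0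
  exact ⟨_, B, by rw [hA, smul_smul, pow_succ], rfl⟩

theorem Lvl.trace {k : ℕ} (hk : 1 ≤ k) (hkn : k < n) {g : G} {a : Matrix (Fin 2) (Fin 2) (ZMod 2)}
    (hg : Lvl hn r k g a) (hd : (r g).det = 1) : a.trace = 0 := by
  obtain ⟨A, hA, rfl⟩ := hg
  rw [hA, Matrix.det_fin_two] at hd
  simp only [Matrix.add_apply, Matrix.smul_apply, smul_eq_mul, Matrix.one_apply_eq, ne_eq,
    zero_ne_one, not_false_eq_true, Matrix.one_apply_ne, zero_add, one_ne_zero] at hd
  have h1 : (2 : ZMod (2 ^ n)) ^ k *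
      (A 0 0 + A 1 1 + 2 ^ k * (A 0 0 * A 1 1 - A 0 1 * A 1 0)) = 0 := by
    linear_combination hd
  have h2 := cast_eq_zero_of_mul hn hkn h1
  rw [map_add, map_mul, cast_two_pow hn hk, zero_mul, add_zero, map_add] at h2
  rw [Matrix.trace_fin_two, red2_apply, red2_apply]
  exact h2

/-- powers of a unipotent element -/
theorem unip_pow {R : Type*} [Ring R] {N : R} (hN : N * N = 0) (m : ℕ) :
    (1 + N) ^ m = 1 + (m : R) * N := by
  induction m with
  | zero => simp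
  | succ m ih =>
    rw [pow_succ, ih, add_mul, mul_add, mul_add, mul_one, one_mul, mul_one, mul_assoc, hN,
      mul_zero, add_zero]
    push_cast
    rw [add_mul, one_mul]
    abel

variable {τ : G} {N : Matrix (Fin 2) (Fin 2) (ZMod (2 ^ n))}

theorem lvl_tau (hτ : r τ = 1 + N) (hN : N * N = 0) (k : ℕ) :
    Lvl hn r k (τ ^ 2 ^ k) (red2 hn N) := by
  refine ⟨N, ?_, rfl⟩
  rw [map_pow, hτ, unip_pow hN]
  congr 1
  push_cast
  rw [← Nat.cast_ofNat (R := ZMod (2 ^ n)), ← Nat.cast_ofNat (R := Matrix (Fin 2) (Fin 2) _),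
    ← Nat.cast_pow, ← Nat.cast_pow, ← nsmul_eq_mul, Nat.cast_smul_eq_nsmul]

theorem Lvl.conj {k : ℕ} {s : G} {a : Matrix (Fin 2) (Fin 2) (ZMod 2)} (hs : Lvl hn r k s a)
    (g : G) : Lvl hn r k (g * s * g⁻¹) (red2 hn (r g) * a * red2 hn (r g⁻¹)) := by
  obtain ⟨A, hA, rfl⟩ := hs
  refine ⟨r g * A * r g⁻¹, ?_, by rw [map_mul, map_mul]⟩
  rw [map_mul, map_mul, hA, mul_add, add_mul, mul_one, ← map_mul, mul_inv_cancel, map_one,
    Matrix.mul_smul, Matrix.smul_mul]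

/-- if a subgroup contains `ker r`, and all conjugates of `τ²`, then it contains all elements
of determinant 1 which are residually trivial -/
theorem mem_of_lvl (hsurj : ∀ m : Matrix (Fin 2) (Fin 2) (ZMod 2), m.det = 1 →
      ∃ g, red2 hn (r g) = m)
    (hτ : r τ = 1 + N) (hN : N * N = 0) (hN2 : red2 hn N ≠ 0) (hd : (r τ).det = 1)
    (H : Subgroup G) (hker : ∀ g, r g = 1 → g ∈ H) (hH : ∀ g, g * τ ^ 2 * g⁻¹ ∈ H) :
    ∀ (m k : ℕ), 1 ≤ k → n ≤ k + m → ∀ g a, Lvl hn r k g a → (r g).det = 1 → g ∈ H := by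
  intro m
  induction m with
  | zero =>
    intro k _ hkn g a ⟨A, hA, _⟩ _
    apply hker
    rw [hA, two_pow_eq_zero (by omega), zero_smul, add_zero]
  | succ m ih =>
    intro k hk hkn g a hg hdg
    by_cases hkn' : n ≤ k
    · obtain ⟨A, hA, _⟩ := hg
      apply hker
      rw [hA, two_pow_eq_zero hkn', zero_smul, add_zero]
    · have htr := hg.trace hn hk (by omega) hdg
      have hNN : red2 hn N * red2 hn N = 0 := by rw [← map_mul, hN, map_zero]
      obtain ⟨c₀, c₁, c₂, hc⟩ := span_sl2 a htr _ hNN hN2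
      obtain ⟨h, hh⟩ := hsurj !![0,1;1,1] (by decide)
      have hhi : red2 hn (r h⁻¹) = !![1,1;1,0] := by
        have h1 : red2 hn (r h⁻¹) * red2 hn (r h) = 1 := by
          rw [← map_mul, ← map_mul, inv_mul_cancel, map_one, map_one]
        have h2 : (!![0,1;1,1] : Matrix (Fin 2) (Fin 2) (ZMod 2)) * !![1,1;1,0] = 1 := by decide
        calc red2 hn (r h⁻¹) = red2 hn (r h⁻¹) * (!![0,1;1,1] * !![1,1;1,0]) := by
              rw [h2, mul_one]
          _ = !![1,1;1,0] := by rw [← mul_assoc, ← hh, h1, one_mul]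
      -- the elements
      have hmem : ∀ g, g * τ ^ 2 ^ k * g⁻¹ ∈ H := by
        intro g
        have : g * τ ^ 2 ^ k * g⁻¹ = (g * τ ^ 2 * g⁻¹) ^ 2 ^ (k - 1) := by
          rw [conj_pow, ← pow_mul, ← pow_succ']
          congr 4
          omega
        rw [this]
        exact H.pow_mem (hH g) _
      have hdet : ∀ g, (r (g * τ ^ 2 ^ k * g⁻¹)).det = 1 := by
        intro g
        rw [map_mul, map_mul, Matrix.det_mul, Matrix.det_mul, mul_right_comm, ← Matrix.det_mul,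
          ← map_mul, mul_inv_cancel, map_one, Matrix.det_one, one_mul, map_pow, Matrix.det_pow, hd,
          one_pow]
      have key : ∀ (c : ZMod 2) (g : G), ∃ s ∈ H, (r s).det = 1 ∧
          Lvl hn r k s (c • (red2 hn (r g) * red2 hn N * red2 hn (r g⁻¹))) := by
        intro c g
        rcases (show c = 0 ∨ c = 1 by revert c; decide) with rfl | rfl
        · exact ⟨1, H.one_mem, by rw [map_one, Matrix.det_one], by
            rw [zero_smul]; exact Lvl.one hn⟩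
        · exact ⟨_, hmem g, hdet g, by rw [one_smul]; exact (lvl_tau hn hτ hN k).conj hn g⟩
      obtain ⟨s₀, hs₀, hd₀, hl₀⟩ := key c₀ 1
      obtain ⟨s₁, hs₁, hd₁, hl₁⟩ := key c₁ h
      obtain ⟨s₂, hs₂, hd₂, hl₂⟩ := key c₂ h⁻¹
      rw [inv_one, map_one, map_one, one_mul, mul_one] at hl₀
      rw [hh, hhi] at hl₁
      rw [inv_inv, hh, hhi] at hl₂
      have hl := ((hg.mul hn hk hl₀).mul hn hk hl₁).mul hn hk hl₂
      have h0 : a + c₀ • red2 hn N + c₁ • (!![0,1;1,1] * red2 hn N * !![1,1;1,0]) +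
          c₂ • (!![1,1;1,0] * red2 hn N * !![0,1;1,1]) = 0 := by
        rw [add_assoc, add_assoc, ← add_assoc (c₀ • red2 hn N), ← hc]
        ext i j
        simp only [Matrix.add_apply, Matrix.zero_apply]
        exact CharTwo.add_self_eq_zero _
      rw [h0] at hl
      obtain ⟨b, hb⟩ := hl.succ hn
      have hfin := ih (k + 1) (by omega) (by omega) _ b hb (by
        rw [map_mul, map_mul, map_mul, Matrix.det_mul, Matrix.det_mul, Matrix.det_mul, hdg, hd₀,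
          hd₁, hd₂]
        simp)
      have h3 := (H.mul_mem_cancel_right hs₂).1 hfin
      have h4 := (H.mul_mem_cancel_right hs₁).1 h3
      exact (H.mul_mem_cancel_right hs₀).1 h4

/-- the same for all residually trivial elements of determinant 1 -/
theorem mem_of_red (hsurj : ∀ m : Matrix (Fin 2) (Fin 2) (ZMod 2), m.det = 1 →
      ∃ g, red2 hn (r g) = m)
    (hτ : r τ = 1 + N) (hN : N * N = 0) (hN2 : red2 hn N ≠ 0) (hd : (r τ).det = 1)
    (H : Subgroup G) (hker : ∀ g, r g = 1 → g ∈ H) (hH : ∀ g, g * τ ^ 2 * g⁻¹ ∈ H)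
    {g : G} (hg : red2 hn (r g) = 1) (hdg : (r g).det = 1) : g ∈ H := by
  have h0 : red2 hn (r g - 1) = 0 := by rw [map_sub, hg, map_one, sub_self]
  obtain ⟨A, hA⟩ := exists_two_smul hn h0
  refine mem_of_lvl hn hsurj hτ hN hN2 hd H hker hH n 1 le_rfl (by omega) g (red2 hn A)
    ⟨A, ?_, rfl⟩ hdg
  rw [pow_one, ← hA]
  abel

end Main

section Coc

variable {G : Type*} [Group G]

/-- `H¹(S₃, V) = 0` -/
theorem coboundary_of_ker (ρ : G →* Matrix (Fin 2) (Fin 2) (ZMod 2))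
    (hsurj : ∀ m : Matrix (Fin 2) (Fin 2) (ZMod 2), m.det = 1 → ∃ g, ρ g = m)
    (e : G → (Fin 2 → ZMod 2)) (he : ∀ g h, e (g * h) = e g + ρ g *ᵥ e h)
    (hker : ∀ g, ρ g = 1 → e g = 0) : ∃ x, ∀ g, e g = ρ g *ᵥ x - x := by
  obtain ⟨c, hc⟩ := hsurj !![0,1;1,1] (by decide)
  have hx : ∀ v : Fin 2 → ZMod 2, ∃ x, v = (!![0,1;1,1] : Matrix (Fin 2) (Fin 2) (ZMod 2)) *ᵥ x - x := by
    decide
  obtain ⟨x, hx⟩ := hx (e c)
  refine ⟨x, ?_⟩
  -- `e' g = e g - (g x - x)`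
  have h1 : e 1 = 0 := hker 1 (map_one ρ)
  -- e only depends on ρ
  have hdep : ∀ g h, ρ g = ρ h → e g = e h := by
    intro g h hgh
    have h2 : e (g * (g⁻¹ * h)) = e g + ρ g *ᵥ e (g⁻¹ * h) := he _ _
    have h3 : ρ (g⁻¹ * h) = 1 := by
      rw [map_mul, ← hgh, ← map_mul, inv_mul_cancel, map_one]
    rw [hker _ h3, Matrix.mulVec_zero, add_zero, mul_inv_cancel_left] at h2
    exact h2.symm
  have hnormal : ∀ m : Matrix (Fin 2) (Fin 2) (ZMod 2), m.det = 1 →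
      m * !![0,1;1,1] = !![0,1;1,1] * m ∨ m * !![0,1;1,1] = !![1,1;1,0] * m := by
    decide
  have hker1 : ∀ v : Fin 2 → ZMod 2, (!![0,1;1,1] : Matrix (Fin 2) (Fin 2) (ZMod 2)) *ᵥ v = v →
      v = 0 := by decide
  have hker2 : ∀ v : Fin 2 → ZMod 2, (!![1,1;1,0] : Matrix (Fin 2) (Fin 2) (ZMod 2)) *ᵥ v = v →
      v = 0 := by decide
  have hinv : ρ (c * c) = !![1,1;1,0] := by rw [map_mul, hc]; decide
  have hec2 : e (c * c) = ρ (c * c) *ᵥ x - x := by
    rw [he, hx, map_mul, hc, Matrix.mulVec_sub, Matrix.mulVec_mulVec]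
    abel
  intro g
  have hdetg : (ρ g).det = 1 := by
    have h2 : (ρ g).det * (ρ g⁻¹).det = 1 := by
      rw [← Matrix.det_mul, ← map_mul, mul_inv_cancel, map_one, Matrix.det_one]
    have h3 : ∀ a b : ZMod 2, a * b = 1 → a = 1 := by decide
    exact h3 _ _ h2
  rw [← sub_eq_zero]
  rcases hnormal (ρ g) hdetg with h | h
  · apply hker1
    have h4 : e (g * c) = e (c * g) := hdep _ _ (by rw [map_mul, map_mul, hc, h])
    rw [he, he, hc, hx] at h4
    have h5 : ρ g *ᵥ ((!![0,1;1,1] : Matrix (Fin 2) (Fin 2) (ZMod 2)) *ᵥ x) =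
        !![0,1;1,1] *ᵥ (ρ g *ᵥ x) := by
      rw [Matrix.mulVec_mulVec, h, Matrix.mulVec_mulVec]
    rw [Matrix.mulVec_sub, h5] at h4
    rw [Matrix.mulVec_sub, Matrix.mulVec_sub]
    linear_combination (exp := 1) -h4
  · apply hker2
    have h4 : e (g * c) = e ((c * c) * g) := hdep _ _ (by
      rw [map_mul, map_mul _ (c * c), hc, hinv, h])
    rw [he, he, hinv, hec2, hinv, hx] at h4
    have h5 : ρ g *ᵥ ((!![0,1;1,1] : Matrix (Fin 2) (Fin 2) (ZMod 2)) *ᵥ x) =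
        !![1,1;1,0] *ᵥ (ρ g *ᵥ x) := by
      rw [Matrix.mulVec_mulVec, h, Matrix.mulVec_mulVec]
    rw [Matrix.mulVec_sub, h5] at h4
    rw [Matrix.mulVec_sub, Matrix.mulVec_sub]
    linear_combination (exp := 1) -h4

end Coc

section Deep

variable {G : Type*} [Group G] {n : ℕ} (hn : n ≠ 0)
  (r : G →* Matrix (Fin 2) (Fin 2) (ZMod (2 ^ n)))
  (hsurj : ∀ m : Matrix (Fin 2) (Fin 2) (ZMod 2), m.det = 1 → ∃ g, red2 hn (r g) = m)
  {τ : G} (hτ : (r τ - 1) * (r τ - 1) = 0) (hτ2 : red2 hn (r τ) ≠ 1) (hd : (r τ).det = 1)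
  (e : G → (Fin 2 → ZMod 2)) (he : ∀ g h, e (g * h) = e g + red2 hn (r g) *ᵥ e h)
  (hτe : red2 hn (r τ) *ᵥ e τ = e τ)

include hsurj hτ hτ2 hd he hτe in
/-- **the group theory of the deep choice of `Q`**: a cocycle which vanishes on `ker r` and
satisfies the local condition at `τ` is a coboundary -/
theorem coboundary_of_deep (hker : ∀ g, r g = 1 → e g = 0) :
    ∃ x, ∀ g, e g = red2 hn (r g) *ᵥ x - x := by
  set N := r τ - 1 with hNdef
  have hτ' : r τ = 1 + N := by rw [hNdef]; abel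
  have hN2 : red2 hn N ≠ 0 := by
    rw [hNdef, map_sub, map_one, sub_ne_zero]
    exact hτ2
  have h1 : e 1 = 0 := hker 1 (map_one r)
  let H : Subgroup G :=
    { carrier := {g | red2 hn (r g) = 1 ∧ e g = 0}
      one_mem' := ⟨by rw [map_one, map_one], h1⟩
      mul_mem' := by
        rintro a b ⟨ha, ha'⟩ ⟨hb, hb'⟩
        exact ⟨by rw [map_mul, map_mul, ha, hb, mul_one], by
          rw [he, ha', hb', Matrix.mulVec_zero, add_zero]⟩
      inv_mem' := by
        rintro a ⟨ha, ha'⟩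
        have h2 : red2 hn (r a⁻¹) = 1 := by
          calc red2 hn (r a⁻¹) = red2 hn (r a⁻¹) * red2 hn (r a) := by rw [ha, mul_one]
            _ = 1 := by rw [← map_mul, ← map_mul, inv_mul_cancel, map_one, map_one]
        refine ⟨h2, ?_⟩
        have h3 := he a⁻¹ a
        rw [inv_mul_cancel, h1, ha', Matrix.mulVec_zero, add_zero] at h3
        exact h3.symm }
  have hHmem : ∀ g, g ∈ H ↔ red2 hn (r g) = 1 ∧ e g = 0 := fun g => Iff.rfl
  have hconj : ∀ g s, s ∈ H → g * s * g⁻¹ ∈ H := by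
    rintro g s ⟨hs, hs'⟩
    refine ⟨?_, ?_⟩
    · rw [map_mul, map_mul, map_mul, map_mul, hs, mul_one, ← map_mul, ← map_mul, mul_inv_cancel,
        map_one, map_one]
    · rw [mul_assoc, he, he, hs', hs, zero_add, Matrix.one_mulVec, ← he, mul_inv_cancel, h1]
  have hτ2H : τ ^ 2 ∈ H := by
    refine ⟨?_, ?_⟩
    · rw [map_pow, hτ', unip_pow hτ, map_add, map_one, map_mul, map_natCast]
      have : ((2 : ℕ) : Matrix (Fin 2) (Fin 2) (ZMod 2)) = 0 := by decide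
      rw [this, zero_mul, add_zero]
    · rw [pow_two, he, hτe]
      ext i
      simp only [Pi.add_apply, Pi.zero_apply]
      exact CharTwo.add_self_eq_zero _
  have hmem : ∀ g, red2 hn (r g) = 1 → (r g).det = 1 → g ∈ H := fun g hg hdg =>
    mem_of_red hn hsurj hτ' hτ hN2 hd H
      (fun g hg => ⟨by rw [hg, map_one], hker g hg⟩) (fun g => hconj g _ hτ2H) hg hdg
  refine coboundary_of_ker ((red2 hn : _ →+* _).toMonoidHom.comp r) hsurj e he ?_
  intro γ hγ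
  replace hγ : red2 hn (r γ) = 1 := hγ
  have hker1 : ∀ v : Fin 2 → ZMod 2, (!![0,1;1,1] : Matrix (Fin 2) (Fin 2) (ZMod 2)) *ᵥ v = v →
      v = 0 := by decide
  obtain ⟨g, hg⟩ := hsurj !![0,1;1,1] (by decide)
  apply hker1
  rw [← hg]
  have hγi : red2 hn (r γ⁻¹) = 1 := by
    calc red2 hn (r γ⁻¹) = red2 hn (r γ⁻¹) * red2 hn (r γ) := by rw [hγ, mul_one]
      _ = 1 := by rw [← map_mul, ← map_mul, inv_mul_cancel, map_one, map_one]
  have hu : g * γ * g⁻¹ * γ⁻¹ ∈ H := by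
    apply hmem
    · rw [map_mul, map_mul, map_mul, map_mul, map_mul, map_mul, hγ, hγi, mul_one, mul_one,
        ← map_mul, ← map_mul, mul_inv_cancel, map_one, map_one]
    · have h2 : (r g).det * (r g⁻¹).det = 1 := by
        rw [← Matrix.det_mul, ← map_mul, mul_inv_cancel, map_one, Matrix.det_one]
      have h3 : (r γ).det * (r γ⁻¹).det = 1 := by
        rw [← Matrix.det_mul, ← map_mul, mul_inv_cancel, map_one, Matrix.det_one]
      rw [map_mul, map_mul, map_mul, Matrix.det_mul, Matrix.det_mul, Matrix.det_mul]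
      linear_combination (r γ).det * (r γ⁻¹).det * h2 + h3
  have h4 : g * γ = (g * γ * g⁻¹ * γ⁻¹) * (γ * g) := by group
  have h5 : e (g * γ) = e (γ * g) := by
    rw [h4, he, hu.2, hu.1, Matrix.one_mulVec, zero_add]
  rw [he, he, hγ, Matrix.one_mulVec, add_comm] at h5
  exact add_right_cancel h5

include hsurj hτ hτ2 hd he hτe in
/-- **the element to be hit by Chebotarev**: if `e` is not a coboundary then for every `c` and
every `w` there is a `g` with `r g = r c` and `e g = w` -/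
theorem exists_eq_of_not_coboundary (hne : ¬ ∃ x, ∀ g, e g = red2 hn (r g) *ᵥ x - x)
    (c : G) (w : Fin 2 → ZMod 2) : ∃ g, r g = r c ∧ e g = w := by
  have h0 : ∃ γ, r γ = 1 ∧ e γ ≠ 0 := by
    by_contra hcon
    push Not at hcon
    exact hne (coboundary_of_deep hn r hsurj hτ hτ2 hd e he hτe hcon)
  obtain ⟨γ, hγ, hγ0⟩ := h0
  have h1 : e 1 = 0 := by
    have := he 1 1
    rw [mul_one, map_one, map_one, Matrix.one_mulVec] at this
    exact (add_eq_left.1 this.symm)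
  -- the values of `e` on `ker r` are everything
  have hall : ∀ v : Fin 2 → ZMod 2, ∃ γ, r γ = 1 ∧ e γ = v := by
    intro v
    have htrans : ∀ a b : Fin 2 → ZMod 2, a ≠ 0 → b ≠ 0 →
        ∃ m : Matrix (Fin 2) (Fin 2) (ZMod 2), m.det = 1 ∧ m *ᵥ a = b := by decide
    by_cases hv : v = 0
    · exact ⟨1, map_one r, by rw [h1, hv]⟩
    · obtain ⟨m, hm, hmv⟩ := htrans _ _ hγ0 hv
      obtain ⟨g, hg⟩ := hsurj m hm
      refine ⟨g * γ * g⁻¹, by rw [map_mul, map_mul, hγ, mul_one, ← map_mul, mul_inv_cancel,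
        map_one], ?_⟩
      have h2 : e (g * g⁻¹) = 0 := by rw [mul_inv_cancel, h1]
      rw [he] at h2
      rw [mul_assoc, he, he, hγ, map_one, Matrix.one_mulVec, Matrix.mulVec_add, hg, hmv, ← hg]
      linear_combination (exp := 1) h2
  obtain ⟨v, hv⟩ : ∃ v, red2 hn (r c) *ᵥ v = w - e c := by
    refine ⟨red2 hn (r c⁻¹) *ᵥ (w - e c), ?_⟩
    rw [Matrix.mulVec_mulVec, ← map_mul, ← map_mul, mul_inv_cancel, map_one, map_one,
      Matrix.one_mulVec]
  obtain ⟨γ', hγ', hγv⟩ := hall v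
  refine ⟨c * γ', by rw [map_mul, hγ', mul_one], ?_⟩
  rw [he, hγv, hv]
  abel

end Deep

end Fermat.Agent.LTF.Deep
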