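import Fermat.Agent.LTF.BLR2
import Fermat.Agent.S59.Modular
import Fermat.Agent.S35
import Fermat.Agent.Cofaith.Finite

/-!
# LTFREE (δ): the limit argument

If for every `B` the group `J_0(N)` has a point of exact order `2 ^ k`, `k ≥ B`, on which `T_ℓ`
acts by `a_ℓ(W)` for all `ℓ` outside a finite set whose new members are `> B`, then `W` is modular
of level `N`.
-/

set_option autoImplicit false
set_option linter.style.haveILetI false

noncomputable section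

open CuspForm ModularCurve Fermat.Agent.GalRep Fermat.Agent.S44w

namespace Fermat.Agent.LTF

theorem inclS_smul_of_vars {S : Finset ℕ} {a : ℕ → ℤ} {J : Type*} [AddCommGroup J]
    [Module HeckeAlg J] {x : J} (b : ℕ)
    (hx : ∀ ℓ : Nat.Primes, (ℓ : ℕ) ∉ S → (ℓ : ℕ) ≤ b → heckeGen ℓ • x = a (ℓ : ℕ) • x)
    (t : HeckeAlgS (↑S : Set ℕ)) (ht : ∀ ℓ ∈ t.vars, (ℓ.1 : ℕ) ≤ b) :
    inclS (↑S : Set ℕ) t • x = thetaZ S a t • x := by
  have h1 : t ∈ MvPolynomial.supported ℤ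
      {ℓ : {ℓ : Nat.Primes // (ℓ : ℕ) ∉ (↑S : Set ℕ)} | (ℓ.1 : ℕ) ≤ b} := by
    rw [MvPolynomial.mem_supported]
    intro ℓ hℓ
    exact ht ℓ hℓ
  rw [MvPolynomial.supported] at h1
  clear ht
  induction h1 using Algebra.adjoin_induction with
  | mem u hu =>
    obtain ⟨ℓ, hℓ, rfl⟩ := hu
    have h1 : inclS (↑S : Set ℕ) (MvPolynomial.X ℓ) = heckeGen ℓ.1 := by
      rw [inclS, MvPolynomial.rename_X]; rfl
    rw [h1, thetaZ_X]
    exact hx ℓ.1 (by simpa using ℓ.2) hℓ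
  | algebraMap c =>
    have h2 : (algebraMap ℤ (HeckeAlgS (↑S : Set ℕ))) c = ((c : ℤ) : HeckeAlgS (↑S : Set ℕ)) := by
      simp
    rw [h2, map_intCast, map_intCast, Int.cast_smul_eq_zsmul]
    simp
  | add u v _ _ hu hv =>
    rw [map_add, map_add, add_smul, add_smul, hu, hv]
  | mul u v _ _ hu hv =>
    rw [map_mul, map_mul, mul_smul, hv, smul_comm, hu, smul_smul, mul_comm]

theorem pow_dvd_of_smul_eq_zero {J : Type*} [AddCommGroup J] {x : J} {k : ℕ}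
    (h1 : (2 ^ (k - 1) : ℕ) • x ≠ 0) {c : ℤ} (h2 : c • x = 0) (h3 : (2 ^ k : ℕ) • x = 0) :
    (2 ^ k : ℤ) ∣ c := by
  have h4 : addOrderOf x = 2 ^ k := by
    rcases Nat.eq_zero_or_pos k with rfl | hk
    · simp only [pow_zero, one_smul, Nat.zero_sub] at h1 h3
      exact absurd h3 h1
    · obtain ⟨j, rfl⟩ := Nat.exists_eq_succ_of_ne_zero hk.ne'
      exact addOrderOf_eq_prime_pow h1 h3
  have h5 := addOrderOf_dvd_iff_zsmul_eq_zero.mpr h2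
  rw [h4] at h5
  exact_mod_cast h5

/-- **(δ)** points of exact order `2^k` with `k → ∞` give modularity. -/
theorem modular_of_eigenPts {W : WeierstrassCurve ℤ} (hΔ : W.Δ ≠ 0) (N : ℕ) [NeZero N]
    (S : Finset ℕ) (hNS : ∀ r : ℕ, r.Prime → r ∣ N → r ∈ S)
    (h : ∀ B : ℕ, ∃ (S' : Finset ℕ) (k : ℕ), B ≤ k ∧ (∀ q ∈ S', q ∉ S → B < q) ∧
      ∃ x ∈ BLR.eigJ N (↑S' : Set ℕ) (fun ℓ => W.apOfModel ℓ) (2 ^ k),
        (2 ^ (k - 1) : ℕ) • x ≠ 0) :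
    W.IsModularModelOfLevel N := by
  classical
  refine S59aux.modular_of_relations (fun hg => S35.result hg) hΔ S fun t ht => ?_
  obtain ⟨e, he, hcof⟩ := Fermat.Agent.Cofaith.cofaithful' (N := N)
  have hS : ∀ ℓ : ℕ, ℓ.Prime → ℓ ∣ N → ℓ ∈ (↑S : Set ℕ) := fun ℓ h1 h2 => by
    simpa using hNS ℓ h1 h2
  letI := heckeModuleBar N
  set θ := thetaZ S (fun ℓ => W.apOfModel ℓ) with hθ
  -- a bound for the primes occurring in `t`
  obtain ⟨b, hb⟩ : ∃ b : ℕ, ∀ ℓ ∈ (((e : HeckeAlgS (↑S : Set ℕ)) * t).vars), (ℓ.1 : ℕ) ≤ b :=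
    ⟨((e : HeckeAlgS (↑S : Set ℕ)) * t).vars.sup (fun ℓ => (ℓ.1 : ℕ)), fun ℓ hℓ =>
      Finset.le_sup (f := fun ℓ : {ℓ : Nat.Primes // (ℓ : ℕ) ∉ (↑S : Set ℕ)} => (ℓ.1 : ℕ)) hℓ⟩
  have key : ∀ B : ℕ, b ≤ B → (2 ^ B : ℤ) ∣ e * θ t := by
    intro B hB
    obtain ⟨S', k, hk, hS', x, ⟨hx1, hx3⟩, hx2⟩ := h B
    have h1 : inclS (↑S : Set ℕ) ((e : HeckeAlgS (↑S : Set ℕ)) * t) • x = 0 :=
      hcof (↑S : Set ℕ) hS t ht (2 ^ k) (pow_ne_zero _ two_ne_zero) x hx1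
    have h2 : inclS (↑S : Set ℕ) ((e : HeckeAlgS (↑S : Set ℕ)) * t) • x =
        θ ((e : HeckeAlgS (↑S : Set ℕ)) * t) • x := by
      refine inclS_smul_of_vars b (fun ℓ hℓ hℓb => ?_) _ hb
      rw [heckeModuleBar_heckeGen_smul (Fermat.Agent.HeckeComm.heckeOperatorsCommuteBar N)]
      refine hx3 ℓ ℓ.2 fun hℓS' => ?_
      exact absurd (hS' _ (by simpa using hℓS') hℓ) (by omega)
    rw [h1] at h2
    have h3 := pow_dvd_of_smul_eq_zero hx2 h2.symm hx1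
    rw [map_mul, map_natCast] at h3
    exact (pow_dvd_pow _ hk).trans h3
  have h0 : (e : ℤ) * θ t = 0 := by
    by_contra hne
    obtain ⟨B, hB⟩ : ∃ B : ℕ, b ≤ B ∧ ((e : ℤ) * θ t).natAbs < 2 ^ B := by
      refine ⟨b + ((e : ℤ) * θ t).natAbs, by omega, ?_⟩
      exact lt_of_lt_of_le (Nat.lt_two_pow_self) (Nat.pow_le_pow_right (by norm_num) (by omega))
    have h4 := Int.natAbs_dvd_natAbs.mpr (key B hB.1)
    rw [Int.natAbs_pow] at h4
    exact absurd (Nat.le_of_dvd (Int.natAbs_pos.mpr hne) h4) (by simpa using hB.2)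
  rcases mul_eq_zero.mp h0 with h1 | h1
  · exact absurd (by exact_mod_cast h1) he
  · exact h1

end Fermat.Agent.LTF

end
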