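import Mathlib

/-!
# Representations over finite local rings of characteristic two: graded parts

`A` is a commutative ring of characteristic two, `h` a `2 × 2` matrix with `h * h = h + 1`.
A matrix `x` has parity `ε` if `x * h = h * x + ε • x`.
-/

set_option autoImplicit false

open Matrix

namespace Fermat.Agent.LTF.Dih

abbrev M2 (A : Type*) := Matrix (Fin 2) (Fin 2) A

section Par

variable {A : Type*} [CommRing A]

/-- `x` has parity `ε` with respect to `h` -/
def Par (h : M2 A) (ε : A) (x : M2 A) : Prop := x * h = h * x + ε • x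

/-- the part of `x` of parity `ε + 1` -/
def offPart (h : M2 A) (ε : A) (x : M2 A) : M2 A := x * h + h * x + ε • x

variable {h : M2 A} {ε δ : A} {x y : M2 A}

theorem Par.mul (hx : Par h ε x) (hy : Par h δ y) : Par h (ε + δ) (x * y) := by
  unfold Par at *
  rw [mul_assoc, hy, mul_add, ← mul_assoc, hx, add_mul, mul_assoc, smul_mul_assoc, mul_smul_comm,
    add_smul, add_assoc]

theorem Par.add (hx : Par h ε x) (hy : Par h ε y) : Par h ε (x + y) := by
  unfold Par at *
  rw [add_mul, hx, hy, mul_add, smul_add]
  abel

variable [CharP A 2]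

theorem add_self_M2 (x : M2 A) : x + x = 0 := by
  ext i j
  exact CharTwo.add_self_eq_zero _

theorem par_offPart (hh : h * h = h + 1) (hε : ε * ε = ε) (x : M2 A) :
    Par h (ε + 1) (offPart h ε x) := by
  unfold Par offPart
  have e1 : (x * h + h * x + ε • x) * h = x * h + x + h * x * h + ε • (x * h) := by
    rw [add_mul, add_mul, mul_assoc x, hh, mul_add, mul_one, smul_mul_assoc]
  have e2 : h * (x * h + h * x + ε • x) = h * x * h + h * x + x + ε • (h * x) := by
    rw [mul_add, mul_add, ← mul_assoc, ← mul_assoc h h x, hh, add_mul, one_mul, mul_smul_comm]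
    abel
  have e3 : (ε + 1) • (x * h + h * x + ε • x) =
      ε • (x * h) + ε • (h * x) + ε • x + (x * h + h * x + ε • x) := by
    rw [add_smul, one_smul, smul_add, smul_add, smul_smul, hε]
  rw [e1, e2, e3]
  have a1 := add_self_M2 (h * x)
  have a2 := add_self_M2 (ε • (h * x))
  have a3 := add_self_M2 (ε • x)
  have : h * x * h + h * x + x + ε • (h * x) +
      (ε • (x * h) + ε • (h * x) + ε • x + (x * h + h * x + ε • x)) =
      (x * h + x + h * x * h + ε • (x * h)) + (h * x + h * x) + (ε • (h * x) + ε • (h * x)) +
      (ε • x + ε • x) := by abel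
  rw [this, a1, a2, a3, add_zero, add_zero, add_zero]

theorem par_add_offPart (hh : h * h = h + 1) (hε : ε * ε = ε) (x : M2 A) :
    Par h ε (x + offPart h ε x) := by
  unfold Par offPart
  have e1 : (x + (x * h + h * x + ε • x)) * h =
      x * h + (x * h + x + h * x * h + ε • (x * h)) := by
    rw [add_mul, add_mul, add_mul, mul_assoc x, hh, mul_add, mul_one, smul_mul_assoc]
  have e2 : h * (x + (x * h + h * x + ε • x)) =
      h * x + (h * x * h + h * x + x + ε • (h * x)) := by
    rw [mul_add, mul_add, mul_add, ← mul_assoc, ← mul_assoc h h x, hh, add_mul, one_mul,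
      mul_smul_comm]
    abel
  have e3 : ε • (x + (x * h + h * x + ε • x)) =
      ε • x + (ε • (x * h) + ε • (h * x) + ε • x) := by
    rw [smul_add, smul_add, smul_add, smul_smul, hε]
  rw [e1, e2, e3]
  have a1 := add_self_M2 (h * x)
  have a2 := add_self_M2 (ε • (h * x))
  have a3 := add_self_M2 (ε • x)
  have a4 := add_self_M2 (x * h)
  have t1 : h * x + (h * x * h + h * x + x + ε • (h * x)) +
      (ε • x + (ε • (x * h) + ε • (h * x) + ε • x)) =
      (x + h * x * h + ε • (x * h)) + (h * x + h * x) + (ε • (h * x) + ε • (h * x)) +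
      (ε • x + ε • x) := by abel
  have t2 : x * h + (x * h + x + h * x * h + ε • (x * h)) =
      (x + h * x * h + ε • (x * h)) + (x * h + x * h) := by abel
  rw [t1, t2, a1, a2, a3, a4, add_zero, add_zero, add_zero]

/-- Uniqueness of the decomposition. -/
theorem offPart_eq (hx : Par h ε x) (hy : Par h (ε + 1) y) : offPart h ε (x + y) = y := by
  unfold Par offPart at *
  rw [add_mul, hx, hy, mul_add, smul_add, add_smul, one_smul]
  have a1 := add_self_M2 (h * x)
  have a2 := add_self_M2 (h * y)
  have a3 := add_self_M2 (ε • x)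
  have a4 := add_self_M2 (ε • y)
  have : h * x + ε • x + (h * y + (ε • y + y)) + (h * x + h * y) + (ε • x + ε • y) =
      y + (h * x + h * x) + (h * y + h * y) + (ε • x + ε • x) + (ε • y + ε • y) := by abel
  rw [this, a1, a2, a3, a4, add_zero, add_zero, add_zero, add_zero]

/-- Multiplicativity of the parts. -/
theorem offPart_mul (hh : h * h = h + 1) (hε : ε * ε = ε) (hδ : δ * δ = δ) (x y : M2 A) :
    offPart h (ε + δ) (x * y) =
      offPart h ε x * (y + offPart h δ y) + (x + offPart h ε x) * offPart h δ y := by
  set o := offPart h ε x with ho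
  set o' := offPart h δ y with ho'
  have h1 : Par h ε (x + o) := par_add_offPart hh hε x
  have h2 : Par h δ (y + o') := par_add_offPart hh hδ y
  have h3 : Par h (ε + 1) o := par_offPart hh hε x
  have h4 : Par h (δ + 1) o' := par_offPart hh hδ y
  have h5 : x * y = ((x + o) * (y + o') + o * o') + (o * (y + o') + (x + o) * o') := by
    have a1 := add_self_M2 (x * o')
    have a2 := add_self_M2 (o * y)
    have a3 := add_self_M2 (o * o')
    have : ((x + o) * (y + o') + o * o') + (o * (y + o') + (x + o) * o') =
        x * y + (x * o' + x * o') + (o * y + o * y) + (o * o' + o * o') + (o * o' + o * o') := by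
      simp only [add_mul, mul_add]
      abel
    rw [this, a1, a2, a3, add_zero, add_zero, add_zero, add_zero]
  have h6 : Par h (ε + δ) ((x + o) * (y + o') + o * o') := by
    refine (h1.mul h2).add ?_
    have := h3.mul h4
    have e : ε + 1 + (δ + 1) = ε + δ := by
      have : (1 : A) + 1 = 0 := CharTwo.add_self_eq_zero 1
      linear_combination this
    rwa [e] at this
  have h7 : Par h (ε + δ + 1) (o * (y + o') + (x + o) * o') := by
    refine Par.add ?_ ?_
    · have := h3.mul h2
      rwa [show ε + 1 + δ = ε + δ + 1 by ring] at this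
    · have := h1.mul h4
      rwa [show ε + (δ + 1) = ε + δ + 1 by ring] at this
  conv_lhs => rw [h5]
  exact offPart_eq h6 h7

end Par

/-! ### Finite computations over `ZMod 2` -/

section F2

theorem residual_par : ∀ a b : M2 (ZMod 2), b * b = b + 1 →
    a.det = 1 → (a * b = b * a ∨ a * b = b * a + a) := by
  decide

theorem mem_V : ∀ v b : M2 (ZMod 2), b * b = b + 1 → v * b = b * v + v →
    v = !![v 0 1 + v 1 0, v 0 1; v 1 0, v 0 1 + v 1 0] := by
  decide

end F2

end Fermat.Agent.LTF.Dih
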