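import Fermat.Agent.LTF.DihBasic

/-!
# The cocycle attached to the off-dihedral part
-/

set_option autoImplicit false
set_option linter.unusedSectionVars false

open Matrix

namespace Fermat.Agent.LTF.Dih

section Lam

variable {A : Type*} [CommRing A] (r : A →+* ZMod 2)

/-- `lam` restricts to an `A`-linear functional on `I`, where `A` acts on `ZMod 2` through `r` -/
structure IsFunctional (I : Ideal A) (lam : A → ZMod 2) : Prop where
  add : ∀ x ∈ I, ∀ y ∈ I, lam (x + y) = lam x + lam y
  smul : ∀ a : A, ∀ x ∈ I, lam (a * x) = r a * lam x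

variable {r} {I : Ideal A} {lam : A → ZMod 2}

theorem IsFunctional.map_zero (hl : IsFunctional r I lam) : lam 0 = 0 := by
  have := hl.smul 0 0 I.zero_mem
  rwa [zero_mul, _root_.map_zero, zero_mul] at this

/-- matrices with entries in `I` -/
def EntriesIn (I : Ideal A) (x : M2 A) : Prop := ∀ i j, x i j ∈ I

theorem EntriesIn.add {x y : M2 A} (hx : EntriesIn I x) (hy : EntriesIn I y) :
    EntriesIn I (x + y) := fun i j => I.add_mem (hx i j) (hy i j)

theorem EntriesIn.mul_left {x : M2 A} (hx : EntriesIn I x) (a : M2 A) : EntriesIn I (a * x) := by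
  intro i j
  rw [Matrix.mul_apply]
  exact I.sum_mem fun k _ => I.mul_mem_left _ (hx k j)

theorem EntriesIn.mul_right {x : M2 A} (hx : EntriesIn I x) (a : M2 A) : EntriesIn I (x * a) := by
  intro i j
  rw [Matrix.mul_apply]
  exact I.sum_mem fun k _ => I.mul_mem_right _ (hx i k)

theorem EntriesIn.smul {x : M2 A} (hx : EntriesIn I x) (a : A) : EntriesIn I (a • x) := by
  intro i j
  exact I.mul_mem_left _ (hx i j)

/-- the functional applied entrywise -/
def Lam (lam : A → ZMod 2) (x : M2 A) : M2 (ZMod 2) := fun i j => lam (x i j)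

theorem Lam_add (hl : IsFunctional r I lam) {x y : M2 A} (hx : EntriesIn I x)
    (hy : EntriesIn I y) : Lam lam (x + y) = Lam lam x + Lam lam y := by
  ext i j
  exact hl.add _ (hx i j) _ (hy i j)

theorem Lam_mul_left (hl : IsFunctional r I lam) {x : M2 A} (hx : EntriesIn I x) (a : M2 A) :
    Lam lam (a * x) = a.map r * Lam lam x := by
  ext i j
  show lam ((a * x) i j) = _
  rw [Matrix.mul_apply, Matrix.mul_apply, Fin.sum_univ_two, Fin.sum_univ_two,
    hl.add _ (I.mul_mem_left _ (hx 0 j)) _ (I.mul_mem_left _ (hx 1 j)), hl.smul _ _ (hx 0 j),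
    hl.smul _ _ (hx 1 j)]
  rfl

theorem Lam_mul_right (hl : IsFunctional r I lam) {x : M2 A} (hx : EntriesIn I x) (a : M2 A) :
    Lam lam (x * a) = Lam lam x * a.map r := by
  ext i j
  show lam ((x * a) i j) = _
  rw [Matrix.mul_apply, Matrix.mul_apply, Fin.sum_univ_two, Fin.sum_univ_two,
    hl.add _ (I.mul_mem_right _ (hx i 0)) _ (I.mul_mem_right _ (hx i 1)), mul_comm (x i 0),
    mul_comm (x i 1), hl.smul _ _ (hx i 0), hl.smul _ _ (hx i 1), mul_comm (r _), mul_comm (r _)]
  rfl

theorem Lam_smul (hl : IsFunctional r I lam) {x : M2 A} (hx : EntriesIn I x) (a : A) :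
    Lam lam (a • x) = r a • Lam lam x := by
  ext i j
  exact hl.smul _ _ (hx i j)

theorem map_eq_zero_of_entriesIn (hI : I ≤ RingHom.ker r) {x : M2 A} (hx : EntriesIn I x) :
    x.map r = 0 := by
  ext i j
  exact hI (hx i j)

end Lam

section Equivariance

/-- the vector attached to a matrix -/
def vec (v : M2 (ZMod 2)) : Fin 2 → ZMod 2 := ![v 0 1, v 1 0]

/-- the matrix attached to a vector -/
def mat (w : Fin 2 → ZMod 2) : M2 (ZMod 2) := !![w 0 + w 1, w 0; w 1, w 0 + w 1]

theorem vec_mat (w : Fin 2 → ZMod 2) : vec (mat w) = w := by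
  ext i
  fin_cases i <;> rfl

theorem vec_add (v v' : M2 (ZMod 2)) : vec (v + v') = vec v + vec v' := by
  ext i
  fin_cases i <;> rfl

theorem vec_equivariant_aux : ∀ a b c d x y : ZMod 2, a * d + b * c = 1 →
    ((a * (x + y) + b * y) * b + (a * x + b * (x + y)) * a = a * x + b * y ∧
      (c * (x + y) + d * y) * d + (c * x + d * (x + y)) * c = c * x + d * y) := by
  decide

theorem inv_aux : ∀ a b c d : ZMod 2, a * d - b * c = 1 → a * d + b * c = 1 := by decide

theorem neg_aux : ∀ a : ZMod 2, - a = a := by decide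

theorem det_eq_one {g g' : M2 (ZMod 2)} (hg : g * g' = 1) : g.det = 1 := by
  have h1 := congrArg Matrix.det hg
  rw [Matrix.det_mul, Matrix.det_one] at h1
  have : ∀ a b : ZMod 2, a * b = 1 → a = 1 := by decide
  exact this _ _ h1

theorem inv_eq {g g' : M2 (ZMod 2)} (hg : g * g' = 1) :
    g' = !![g 1 1, g 0 1; g 1 0, g 0 0] := by
  have h1 : g.adjugate * g = 1 := by rw [Matrix.adjugate_mul, det_eq_one hg, one_smul]
  have h2 : g' = g.adjugate := by
    rw [← one_mul g', ← h1, mul_assoc, hg, mul_one]
  rw [h2, Matrix.adjugate_fin_two, neg_aux, neg_aux]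

theorem vec_equivariant {g g' : M2 (ZMod 2)} (hg : g * g' = 1) (w : Fin 2 → ZMod 2) :
    vec (g * mat w * g') = g *ᵥ w := by
  have hd := det_eq_one hg
  rw [Matrix.det_fin_two] at hd
  obtain ⟨e1, e2⟩ := vec_equivariant_aux (g 0 0) (g 0 1) (g 1 0) (g 1 1) (w 0) (w 1)
    (inv_aux _ _ _ _ hd)
  rw [inv_eq hg]
  ext i
  fin_cases i
  · show (g * mat w * _) 0 1 = (g *ᵥ w) 0
    simp only [Matrix.mul_apply, Fin.sum_univ_two, Matrix.mulVec, dotProduct]
    exact e1
  · show (g * mat w * _) 1 0 = (g *ᵥ w) 1
    simp only [Matrix.mul_apply, Fin.sum_univ_two, Matrix.mulVec, dotProduct]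
    exact e2

theorem eq_mat_of_par {v b : M2 (ZMod 2)} (hb : b * b = b + 1) (hv : Par b 1 v) :
    v = mat (vec v) :=
  mem_V v b hb (by unfold Par at hv; rw [hv, one_smul])

end Equivariance

section Cocycle

variable {G A : Type*} [Group G] [CommRing A] [CharP A 2] {r : A →+* ZMod 2} {I : Ideal A}
  {lam : A → ZMod 2} (R : G → M2 A) (h : M2 A)

open Classical in
/-- the parity of `g` -/
noncomputable def eps (r : A →+* ZMod 2) (R : G → M2 A) (h : M2 A) (g : G) : A :=
  if (R g).map r * h.map r = h.map r * (R g).map r then 0 else 1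

/-- the off-dihedral part of `R g` -/
noncomputable def off (r : A →+* ZMod 2) (R : G → M2 A) (h : M2 A) (g : G) : M2 A :=
  offPart h (eps r R h g) (R g)

theorem eps_mul_self (g : G) : eps r R h g * eps r R h g = eps r R h g := by
  unfold eps
  split_ifs <;> simp

variable {R h}

theorem map_mul' (x y : M2 A) : (x * y).map r = x.map r * y.map r := Matrix.map_mul

theorem map_add' (x y : M2 A) : (x + y).map r = x.map r + y.map r :=
  Matrix.map_add r (_root_.map_add r) x y

theorem map_one' : (1 : M2 A).map r = 1 := Matrix.map_one r (map_zero r) (map_one r)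

theorem map_hh (hh : h * h = h + 1) : h.map r * h.map r = h.map r + 1 := by
  rw [← map_mul', hh, map_add', map_one']

theorem par_residual (hh : h * h = h + 1) (hdet : ∀ g, (R g).det = 1) (g : G) :
    Par (h.map r) (r (eps r R h g)) ((R g).map r) := by
  unfold Par eps
  split_ifs with h1
  · rw [h1, _root_.map_zero, zero_smul, add_zero]
  · rcases residual_par ((R g).map r) (h.map r) (map_hh hh)
      (by rw [← RingHom.mapMatrix_apply, ← RingHom.map_det, hdet, _root_.map_one]) with h2 | h2
    · exact absurd h2 h1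
    · rw [h2, _root_.map_one, one_smul]

theorem eps_cases (g : G) : eps r R h g = 0 ∨ eps r R h g = 1 := by
  unfold eps
  split_ifs
  · exact Or.inl rfl
  · exact Or.inr rfl

theorem par_unique {b v : M2 (ZMod 2)} {δ ε : ZMod 2} (h1 : Par b δ v) (h2 : Par b ε v)
    (hv : v ≠ 0) : δ = ε := by
  unfold Par at h1 h2
  have h3 : δ • v = ε • v := by
    have := h1.symm.trans h2
    exact add_left_cancel this
  by_contra hne
  apply hv
  have h4 : (δ - ε) • v = 0 := by rw [sub_smul, h3, sub_self]
  have h5 : IsUnit (δ - ε) := isUnit_iff_ne_zero.mpr (sub_ne_zero.mpr hne)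
  exact (h5.smul_eq_zero).mp h4

theorem eps_eq_of_residual {g : G} {e : A} (he : e = 0 ∨ e = 1)
    (h1 : r (eps r R h g) = r e) : eps r R h g = e := by
  have : (1 : ZMod 2) ≠ 0 := one_ne_zero
  rcases eps_cases (r := r) (R := R) (h := h) g with h2 | h2 <;> rcases he with rfl | rfl <;>
    rw [h2] at h1 ⊢ <;> simp_all

theorem eps_mul (hh : h * h = h + 1) (hdet : ∀ g, (R g).det = 1)
    (hR : ∀ g g', R (g * g') = R g * R g') (g g' : G) :
    eps r R h (g * g') = eps r R h g + eps r R h g' := by
  have h1 := (par_residual (r := r) hh hdet g).mul (par_residual (r := r) hh hdet g')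
  have h2 := par_residual (r := r) hh hdet (g * g')
  rw [hR, map_mul'] at h2
  have hne : (R g).map r * (R g').map r ≠ 0 := by
    intro h0
    have h3 := congrArg Matrix.det h0
    rw [Matrix.det_mul, ← RingHom.mapMatrix_apply, ← RingHom.mapMatrix_apply, ← RingHom.map_det,
      ← RingHom.map_det, hdet, hdet, _root_.map_one, mul_one, Matrix.det_zero] at h3
    exact one_ne_zero h3
  have h3 := par_unique h2 h1 hne
  rw [← _root_.map_add] at h3
  have h11 : (1 : A) + 1 = 0 := CharTwo.add_self_eq_zero 1
  refine eps_eq_of_residual ?_ h3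
  rcases eps_cases (r := r) (R := R) (h := h) g with h4 | h4 <;>
    rcases eps_cases (r := r) (R := R) (h := h) g' with h5 | h5 <;> rw [h4, h5]
  · left; rw [add_zero]
  · right; rw [zero_add]
  · right; rw [add_zero]
  · left; exact h11

theorem off_mul (hh : h * h = h + 1) (hdet : ∀ g, (R g).det = 1)
    (hR : ∀ g g', R (g * g') = R g * R g') (g g' : G) :
    off r R h (g * g') = off r R h g * (R g' + off r R h g') +
      (R g + off r R h g) * off r R h g' := by
  unfold off
  rw [eps_mul hh hdet hR, hR]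
  exact offPart_mul hh (eps_mul_self R h g) (eps_mul_self R h g') _ _

/-- the cocycle -/
noncomputable def coc (r : A →+* ZMod 2) (lam : A → ZMod 2) (R : G → M2 A) (h : M2 A) (g : G) :
    M2 (ZMod 2) := Lam lam (off r R h g) * (R g⁻¹).map r

variable (hh : h * h = h + 1) (hdet : ∀ g, (R g).det = 1)
  (hR : ∀ g g', R (g * g') = R g * R g') (hR1 : R 1 = 1) (hI : I ≤ RingHom.ker r)
  (hoff : ∀ g, EntriesIn I (off r R h g)) (hl : IsFunctional r I lam)

include hI hoff in
theorem map_add_off (g : G) : (R g + off r R h g).map r = (R g).map r := by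
  rw [map_add', map_eq_zero_of_entriesIn hI (hoff g), add_zero]

include hR hR1 in
theorem map_mul_inv (g : G) : (R g).map r * (R g⁻¹).map r = 1 := by
  rw [← map_mul', ← hR, mul_inv_cancel, hR1, map_one']

include hR hR1 in
theorem map_inv_mul (g : G) : (R g⁻¹).map r * (R g).map r = 1 := by
  rw [← map_mul', ← hR, inv_mul_cancel, hR1, map_one']

include hh hdet hR hR1 hI hoff hl in
theorem coc_mul (g g' : G) :
    coc r lam R h (g * g') = coc r lam R h g +
      (R g).map r * coc r lam R h g' * (R g⁻¹).map r := by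
  unfold coc
  rw [off_mul hh hdet hR, Lam_add hl ((hoff g).mul_right _) ((hoff g').mul_left _),
    Lam_mul_right hl (hoff g), Lam_mul_left hl (hoff g'), map_add_off hI hoff,
    map_add_off hI hoff, _root_.mul_inv_rev, hR, map_mul', add_mul]
  congr 1
  · rw [← mul_assoc, mul_assoc (Lam lam (off r R h g)), map_mul_inv hR hR1, mul_one]
  · simp only [mul_assoc]

include hh hdet hR hR1 hoff hl in
theorem par_coc (g : G) : Par (h.map r) 1 (coc r lam R h g) := by
  have h1 : Par (h.map r) (r (eps r R h g) + 1) (Lam lam (off r R h g)) := by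
    have h2 : Par h (eps r R h g + 1) (off r R h g) := par_offPart hh (eps_mul_self R h g) _
    unfold Par at h2 ⊢
    rw [← Lam_mul_right hl (hoff g), h2, Lam_add hl ((hoff g).mul_left _) ((hoff g).smul _),
      Lam_mul_left hl (hoff g), Lam_smul hl (hoff g), _root_.map_add, _root_.map_one]
  have h3 := h1.mul (par_residual (r := r) hh hdet g⁻¹)
  have h4 : r (eps r R h g) + 1 + r (eps r R h g⁻¹) = 1 := by
    have h5 := eps_mul (r := r) hh hdet hR g g⁻¹
    rw [mul_inv_cancel] at h5
    have h6 : eps r R h (1 : G) = 0 := by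
      unfold eps
      rw [if_pos]
      rw [hR1, map_one', one_mul, mul_one]
    rw [h6] at h5
    have h7 := congrArg r h5
    rw [_root_.map_zero, _root_.map_add] at h7
    linear_combination -h7
  rw [h4] at h3
  exact h3

end Cocycle

end Fermat.Agent.LTF.Dih
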