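import Fermat.Agent.LTF.DihTwo

/-!
# [DIH2] (c): the size of the ring generated by a dihedral representation in characteristic two
-/

set_option autoImplicit false
set_option linter.unusedSectionVars false

open Matrix

namespace Fermat.Agent.LTF.Dih

section Count

variable {A : Type*} [CommRing A]

/-- the homomorphism `ℤ/2 → A` attached to a square root of one -/
def signHom (u : A) (hu : u * u = 1) : Multiplicative (ZMod 2) →* A where
  toFun ε := if ε.toAdd = 0 then 1 else u
  map_one' := if_pos rfl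
  map_mul' := by
    intro a b
    have h2 : ∀ x : ZMod 2, x = 0 ∨ x = 1 := by decide
    have h10 : (1 : ZMod 2) ≠ 0 := one_ne_zero
    have h11 : (1 : ZMod 2) + 1 = 0 := by decide
    rw [toAdd_mul]
    rcases h2 a.toAdd with ha | ha <;> rcases h2 b.toAdd with hb | hb <;> rw [ha, hb]
    · simp
    · simp
    · simp
    · rw [h11, if_pos rfl, if_neg h10, hu]

theorem signHom_one (u : A) (hu : u * u = 1) :
    signHom u hu (Multiplicative.ofAdd 1) = u := by
  show (if (Multiplicative.ofAdd (1 : ZMod 2)).toAdd = 0 then 1 else u) = u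
  rw [toAdd_ofAdd, if_neg one_ne_zero]

theorem card_zpowers_three {H : Type*} [Group H] (x : H) (hx : x ^ 3 = 1) (hx1 : x ≠ 1) :
    Nat.card (Subgroup.zpowers x) = 3 := by
  rw [Nat.card_zpowers]
  exact orderOf_eq_prime hx hx1

variable {κ : Type*} [Fintype κ]

/-- the homomorphism `(ℤ/2) ^ κ → A` attached to square roots of one -/
noncomputable def etaHom (U : κ → A) (hU : ∀ q, U q * U q = 1) :
    (κ → Multiplicative (ZMod 2)) →* A :=
  ∏ q, (signHom (U q) (hU q)).comp (Pi.evalMonoidHom (fun _ => Multiplicative (ZMod 2)) q)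

open Classical in
theorem etaHom_single (U : κ → A) (hU : ∀ q, U q * U q = 1) (q : κ) :
    etaHom U hU (Pi.mulSingle q (Multiplicative.ofAdd 1)) = U q := by
  unfold etaHom
  rw [MonoidHom.finsetProd_apply, Finset.prod_eq_single q]
  · rw [MonoidHom.comp_apply, Pi.evalMonoidHom_apply, Pi.mulSingle_eq_same, signHom_one]
  · intro q' _ hq'
    rw [MonoidHom.comp_apply, Pi.evalMonoidHom_apply, Pi.mulSingle_eq_of_ne hq', map_one]
  · intro hq
    exact absurd (Finset.mem_univ q) hq

/-- the homomorphism from the product group -/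
noncomputable def thetaHom (Γ : Subgroup (M2 A)ˣ) (U : κ → A) (hU : ∀ q, U q * U q = 1) :
    Γ × (κ → Multiplicative (ZMod 2)) →* M2 A where
  toFun p := (p.1 : (M2 A)ˣ).val * Matrix.scalar (Fin 2) (etaHom U hU p.2)
  map_one' := by
    show ((1 : (M2 A)ˣ) : M2 A) * Matrix.scalar (Fin 2) (etaHom U hU 1) = 1
    rw [Units.val_one, map_one, map_one, mul_one]
  map_mul' := by
    rintro ⟨x, ε⟩ ⟨y, δ⟩
    show ((x * y : Γ) : (M2 A)ˣ).val * Matrix.scalar (Fin 2) (etaHom U hU (ε * δ)) =
      ((x : (M2 A)ˣ).val * Matrix.scalar (Fin 2) (etaHom U hU ε)) *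
        ((y : (M2 A)ˣ).val * Matrix.scalar (Fin 2) (etaHom U hU δ))
    have hsc : Matrix.scalar (Fin 2) (etaHom U hU ε) * (y : (M2 A)ˣ).val =
        (y : (M2 A)ˣ).val * Matrix.scalar (Fin 2) (etaHom U hU ε) :=
      Matrix.scalar_comm _ (fun b => Commute.all _ b) _
    rw [map_mul, map_mul, Subgroup.coe_mul, Units.val_mul]
    calc (x : (M2 A)ˣ).val * (y : (M2 A)ˣ).val *
          (Matrix.scalar (Fin 2) (etaHom U hU ε) * Matrix.scalar (Fin 2) (etaHom U hU δ))
        = (x : (M2 A)ˣ).val * ((y : (M2 A)ˣ).val * Matrix.scalar (Fin 2) (etaHom U hU ε)) *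
          Matrix.scalar (Fin 2) (etaHom U hU δ) := by simp only [mul_assoc]
      _ = _ := by rw [← hsc]; simp only [mul_assoc]

variable [CharP A 2] [Finite A] (r : A →+* ZMod 2) [IsLocalHom r] {G : Type*} [Group G]
  (ρ : G →* M2 A)

include r in
/-- **[DIH2]** If `A` is generated by the traces of the dihedral representation `ρ`, by the square
roots of one `U q` and by scalars in the image of `ρ`, then
`|A| ≤ 2 ^ ([G_K : N_h] * 2 ^ |κ|)`. -/
theorem card_le_of_dihedral (hdet : ∀ g, (ρ g).det = 1) {g₀ : G}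
    (hh : ρ g₀ * ρ g₀ = ρ g₀ + 1)
    (hdih : ∀ g, ρ g * ρ g₀ = ρ g₀ * ρ g ∨ ρ g * ρ g₀ = ρ g₀ * ρ g + ρ g)
    (U : κ → A) (hU : ∀ q, U q * U q = 1) (X : Set A)
    (hX : ∀ a ∈ X, ∃ g, ρ g = Matrix.scalar (Fin 2) a)
    (hgen : Subring.closure (Set.range (fun g => (ρ g).trace) ∪ Set.range U ∪ X) = ⊤) :
    Nat.card A ≤ 2 ^ ((Nh ρ g₀).relIndex (GK ρ (ρ g₀)) * 2 ^ Fintype.card κ) := by
  classical
  let _ : Algebra (ZMod 2) A := ZMod.algebra A 2
  have hu := isUnit_h01 r hh
  set h := ρ g₀ with hdef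
  let Γ : Subgroup (M2 A)ˣ := (GK ρ h).map ρ.toHomUnits
  have hg₀ : g₀ ∈ GK ρ h := by rw [mem_GK]
  let τ : Γ := ⟨ρ.toHomUnits g₀, ⟨g₀, hg₀, rfl⟩⟩
  have hτ3 : τ ^ 3 = 1 := by
    apply Subtype.ext
    apply Units.ext
    show ((ρ.toHomUnits g₀ ^ 3 : (M2 A)ˣ) : M2 A) = 1
    rw [Units.val_pow_eq_pow_val]
    show h ^ 3 = 1
    rw [pow_succ, pow_two, hh, add_mul, one_mul, hh]
    have := add_self_M2 h
    rw [add_assoc, add_comm 1 h, ← add_assoc, this, zero_add]
  have hτ1 : τ ≠ 1 := by
    intro h1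
    have h2 := congrArg (fun x : Γ => ((x : (M2 A)ˣ) : M2 A)) h1
    have h3 : h = 1 := h2
    rw [h3, mul_one] at hh
    have h4 := add_self_M2 (1 : M2 A)
    rw [h4] at hh
    have h5 := congrFun (congrFun hh 0) 0
    rw [Matrix.one_apply_eq, Matrix.zero_apply] at h5
    have h6 := congrArg r h5
    rw [map_one, map_zero] at h6
    exact one_ne_zero h6
  let E := κ → Multiplicative (ZMod 2)
  let t : Γ × E := (τ, 1)
  let θ := thetaHom Γ U hU
  have ht3 : t ^ 3 = 1 := by
    show (τ ^ 3, (1 : E) ^ 3) = 1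
    rw [hτ3, one_pow]; rfl
  have hval : ∀ (g : G) (hg : g ∈ GK ρ h), θ (⟨ρ.toHomUnits g, ⟨g, hg, rfl⟩⟩, 1) = ρ g := by
    intro g hg
    show ρ g * Matrix.scalar (Fin 2) (etaHom U hU 1) = ρ g
    rw [map_one, map_one, mul_one]
  have htθ : θ t = h := hval g₀ hg₀
  have hθt : ∀ g, θ (g * (t * t)) = θ g + θ (g * t) := by
    intro g
    rw [map_mul, map_mul, map_mul, htθ, hh, mul_add, mul_one, add_comm]
  have hcard := card_span_le θ t ht3 hθt
  -- the subalgebra
  let W : Subalgebra (ZMod 2) (M2 A) := (MonoidAlgebra.lift (ZMod 2) (M2 A) (Γ × E) θ).range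
  have hW : (W : Set (M2 A)) ⊆ Submodule.span (ZMod 2) (Set.range θ) := by
    rintro _ ⟨f, rfl⟩
    show MonoidAlgebra.lift (ZMod 2) (M2 A) (Γ × E) θ f ∈ _
    rw [MonoidAlgebra.lift_apply]
    exact Submodule.sum_mem _ fun x _ => Submodule.smul_mem _ _ (Submodule.subset_span ⟨x, rfl⟩)
  have hθW : ∀ x, θ x ∈ W := fun x => ⟨MonoidAlgebra.of (ZMod 2) (Γ × E) x, by
    show MonoidAlgebra.lift (ZMod 2) (M2 A) (Γ × E) θ (MonoidAlgebra.of (ZMod 2) (Γ × E) x) = _
    rw [MonoidAlgebra.lift_of]⟩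
  have hρW : ∀ g ∈ GK ρ h, ρ g ∈ W := fun g hg => by rw [← hval g hg]; exact hθW _
  -- all scalars are in `W`
  have hC : ∀ a : A, Matrix.scalar (Fin 2) a ∈ W := by
    have h1 : Subring.closure (Set.range (fun g => (ρ g).trace) ∪ Set.range U ∪ X) ≤
        W.toSubring.comap (Matrix.scalar (Fin 2)) := by
      rw [Subring.closure_le]
      rintro a ((⟨g, rfl⟩ | ⟨q, rfl⟩) | ha)
      · show Matrix.scalar (Fin 2) (ρ g).trace ∈ W
        rcases hdih g with hg | hg
        · have h2 : Matrix.scalar (Fin 2) (ρ g).trace = ρ g + ρ g⁻¹ := by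
            have h3 : ρ g * ρ g⁻¹ = 1 := by rw [← map_mul, mul_inv_cancel, map_one]
            have h4 : ρ g * (ρ g).adjugate = 1 := by rw [Matrix.mul_adjugate, hdet, one_smul]
            have h5 : ρ g⁻¹ = (ρ g).adjugate := by
              have h6 : ρ g⁻¹ * ρ g = 1 := by rw [← map_mul, inv_mul_cancel, map_one]
              calc ρ g⁻¹ = ρ g⁻¹ * (ρ g * (ρ g).adjugate) := by rw [h4, mul_one]
                _ = (ρ g).adjugate := by rw [← mul_assoc, h6, one_mul]
            rw [h5, Matrix.adjugate_fin_two, Matrix.trace_fin_two]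
            ext i j
            fin_cases i <;> fin_cases j <;> simp
            ring
          rw [h2]
          exact add_mem (hρW g hg) (hρW g⁻¹ ((GK ρ h).inv_mem hg))
        · have h2 : (ρ g).trace = 0 := by
            have h3 := congrArg Matrix.trace hg
            rw [Matrix.trace_add, Matrix.trace_mul_comm] at h3
            exact left_eq_add.mp h3
          rw [h2, map_zero]
          exact zero_mem W
      · show Matrix.scalar (Fin 2) (U q) ∈ W
        have h2 : θ (1, Pi.mulSingle q (Multiplicative.ofAdd 1)) =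
            Matrix.scalar (Fin 2) (U q) := by
          show ((1 : (M2 A)ˣ) : M2 A) * Matrix.scalar (Fin 2) (etaHom U hU _) = _
          rw [Units.val_one, one_mul, etaHom_single]
        rw [← h2]
        exact hθW _
      · show Matrix.scalar (Fin 2) a ∈ W
        obtain ⟨g, hg⟩ := hX a ha
        rw [← hg]
        refine hρW g ?_
        rw [mem_GK, hg]
        exact Matrix.scalar_comm a (fun b => mul_comm a b) h
    rw [hgen] at h1
    intro a
    exact h1 (Subring.mem_top a)
  -- `A × A` embeds into `W`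
  have hhW : h ∈ W := by rw [← htθ]; exact hθW t
  let S := Submodule.span (ZMod 2) (Set.range θ)
  have : Finite S := Finite.of_injective (fun x : S => (x : M2 A)) Subtype.val_injective
  let F : A × A → S := fun p =>
    ⟨Matrix.scalar (Fin 2) p.1 + Matrix.scalar (Fin 2) p.2 * h,
      hW (add_mem (hC p.1) (mul_mem (hC p.2) hhW))⟩
  have hF : Function.Injective F := by
    rintro ⟨a, b⟩ ⟨a', b'⟩ hab
    have h1 : Matrix.scalar (Fin 2) a + Matrix.scalar (Fin 2) b * h =
        Matrix.scalar (Fin 2) a' + Matrix.scalar (Fin 2) b' * h := congrArg Subtype.val hab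
    have h01 := congrFun (congrFun h1 0) 1
    have h00 := congrFun (congrFun h1 0) 0
    simp only [Matrix.add_apply, Matrix.scalar_apply, Matrix.diagonal_mul, Matrix.diagonal_apply,
      if_true] at h01 h00
    have h01' : b * h 0 1 = b' * h 0 1 := by simpa using h01
    have hb : b = b' := hu.mul_right_cancel h01'
    rw [hb] at h00
    have ha : a = a' := add_right_cancel h00
    rw [ha, hb]
  have hcard2 : Nat.card A * Nat.card A ≤ 2 ^ (2 * (Subgroup.zpowers t).index) := by
    rw [← Nat.card_prod]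
    exact (Nat.card_le_card_of_injective F hF).trans hcard
  -- the index
  have hE : Nat.card E = 2 ^ Fintype.card κ := by
    rw [Nat.card_pi, Finset.prod_const, Finset.card_univ]
    congr 1
    rw [Nat.card_congr Multiplicative.toAdd, Nat.card_zmod]
  have ht1 : t ≠ 1 := fun h1 => hτ1 (congrArg Prod.fst h1)
  have hi1 : (Subgroup.zpowers t).index * 3 = Nat.card Γ * 2 ^ Fintype.card κ := by
    have h1 := Subgroup.index_mul_card (Subgroup.zpowers t)
    rw [card_zpowers_three t ht3 ht1, Nat.card_prod, hE] at h1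
    exact h1
  have hi2 : (Nh ρ g₀).relIndex (GK ρ h) * 3 = Nat.card Γ := by
    have h0 : (Nh ρ g₀).relIndex (GK ρ h) = (Subgroup.zpowers τ).index := by
      rw [Nh, Subgroup.relIndex_comap]
      show ((Subgroup.zpowers (ρ.toHomUnits g₀)).subgroupOf Γ).index = _
      congr 1
      ext x
      rw [Subgroup.mem_subgroupOf, Subgroup.mem_zpowers_iff, Subgroup.mem_zpowers_iff]
      constructor
      · rintro ⟨k, hk⟩
        exact ⟨k, Subtype.ext hk⟩
      · rintro ⟨k, hk⟩
        exact ⟨k, congrArg Subtype.val hk⟩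
    have h1 := Subgroup.index_mul_card (Subgroup.zpowers τ)
    rw [card_zpowers_three τ hτ3 hτ1] at h1
    rw [h0]
    exact h1
  have hi : (Subgroup.zpowers t).index =
      (Nh ρ g₀).relIndex (GK ρ h) * 2 ^ Fintype.card κ := by
    have : (Subgroup.zpowers t).index * 3 =
        ((Nh ρ g₀).relIndex (GK ρ h) * 2 ^ Fintype.card κ) * 3 := by
      rw [hi1, ← hi2]; ring
    omega
  rw [hi, two_mul, pow_add] at hcard2
  exact Nat.mul_self_le_mul_self_iff.mp hcard2

end Count

end Fermat.Agent.LTF.Dih
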