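import Fermat.Agent.LTF.DihCount

/-!
# [G4]: the bound for the characteristic two deformations of a dihedral representation
-/

set_option autoImplicit false
set_option linter.unusedSectionVars false

open Matrix

namespace Fermat.Agent.LTF.Dih

theorem residual_cube : ∀ a b : M2 (ZMod 2), b * b = b + 1 → a.det = 1 → a * b = b * a →
    a * a * a = 1 := by decide

theorem residual_cube' : ∀ a b : M2 (ZMod 2), b * b = b + 1 → a.det = 1 → a * b = b * a + a →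
    a * a * a ≠ 1 := by decide

theorem residual_cyclic : ∀ a b : M2 (ZMod 2), b * b = b + 1 → a.det = 1 → a * b = b * a →
    a = 1 ∨ a = b ∨ a = b * b := by decide

variable {A : Type*} [CommRing A] [CharP A 2] [Finite A] (r : A →+* ZMod 2) [IsLocalHom r]
  {G : Type*} [Group G] (ρ : G →* M2 A)

/-- the elements acting residually with order dividing three -/
def K3 : Set G := {g | (ρ g).map r * (ρ g).map r * (ρ g).map r = 1}

theorem det_residual (hdet : ∀ g, (ρ g).det = 1) (g : G) : ((ρ g).map r).det = 1 := by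
  rw [← RingHom.mapMatrix_apply, ← RingHom.map_det, hdet, map_one]

theorem mem_GK_iff (hdet : ∀ g, (ρ g).det = 1) {g₀ : G} (hh : ρ g₀ * ρ g₀ = ρ g₀ + 1)
    (hdih : ∀ g, ρ g * ρ g₀ = ρ g₀ * ρ g ∨ ρ g * ρ g₀ = ρ g₀ * ρ g + ρ g) (g : G) :
    g ∈ GK ρ (ρ g₀) ↔ g ∈ K3 r ρ := by
  rw [mem_GK]
  constructor
  · intro hg
    exact residual_cube _ _ (map_hh (r := r) hh) (det_residual r ρ hdet g)
      (by rw [← map_mul', ← map_mul', hg])
  · intro hg
    refine (hdih g).resolve_right fun h2 => ?_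
    exact residual_cube' _ _ (map_hh (r := r) hh) (det_residual r ρ hdet g)
      (by rw [← map_mul', ← map_mul', h2, map_add']) hg

include r in
/-- The quotient `G_K / N_h` is killed by a power of two. -/
theorem exists_pow_mem_Nh (hdet : ∀ g, (ρ g).det = 1) {g₀ : G}
    (hh : ρ g₀ * ρ g₀ = ρ g₀ + 1) :
    ∃ n : ℕ, ∀ g ∈ GK ρ (ρ g₀), g ^ (2 ^ n) ∈ Nh ρ g₀ := by
  obtain ⟨n, hn⟩ := exists_pow_eq_one (A := A) r
  have hu := isUnit_h01 r hh
  refine ⟨n, fun g hg => ?_⟩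
  -- `g` agrees residually with a power of `g₀`
  have hk : ∃ k : ℕ, (ρ g).map r = (ρ (g₀ ^ k)).map r := by
    rcases residual_cyclic _ _ (map_hh (r := r) hh) (det_residual r ρ hdet g)
      (by rw [← map_mul', ← map_mul', (mem_GK ρ).mp hg]) with h1 | h1 | h1
    · exact ⟨0, by rw [h1, pow_zero, map_one, map_one']⟩
    · exact ⟨1, by rw [h1, pow_one]⟩
    · exact ⟨2, by rw [h1, pow_two, map_mul, map_mul']⟩
  obtain ⟨k, hk⟩ := hk
  have hg₀ : g₀ ^ k ∈ GK ρ (ρ g₀) := by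
    refine pow_mem ?_ k
    rw [mem_GK]
  have hcomm := commute_of_mem_GK ρ hu hg ((GK ρ (ρ g₀)).inv_mem hg₀)
  have h1 : (ρ g * ρ (g₀ ^ k)⁻¹) ^ (2 ^ n) = 1 := by
    apply hn
    rw [map_mul', hk, ← map_mul', ← map_mul, mul_inv_cancel, map_one, map_one']
  have h2 : ρ (g ^ (2 ^ n)) = ρ ((g₀ ^ k) ^ (2 ^ n)) := by
    have hc : Commute (ρ g) (ρ (g₀ ^ k)⁻¹) := hcomm
    rw [hc.mul_pow] at h1
    have h3 : ρ (g₀ ^ k)⁻¹ ^ (2 ^ n) * ρ (g₀ ^ k) ^ (2 ^ n) = 1 := by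
      rw [← map_pow, ← map_pow, ← map_mul, inv_pow, inv_mul_cancel, map_one]
    calc ρ (g ^ (2 ^ n)) = ρ g ^ (2 ^ n) * (ρ (g₀ ^ k)⁻¹ ^ (2 ^ n) * ρ (g₀ ^ k) ^ (2 ^ n)) := by
          rw [h3, mul_one, map_pow]
      _ = ρ ((g₀ ^ k) ^ (2 ^ n)) := by rw [← mul_assoc, h1, one_mul, ← map_pow]
  refine ⟨(k * 2 ^ n : ℕ), ?_⟩
  apply Units.ext
  show ((ρ.toHomUnits g₀ ^ ((k * 2 ^ n : ℕ) : ℤ) : (M2 A)ˣ) : M2 A) = ρ (g ^ (2 ^ n))
  rw [h2, zpow_natCast, Units.val_pow_eq_pow_val, ← pow_mul, map_pow]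
  rfl

variable {ι κ : Type*} [Fintype κ]

/-- **[G4], algebraic form.** Let `ρ : G → GL₂(A)` be a representation of determinant one over a
finite local ring of characteristic two with residue field `𝔽₂`, residually with an element of
order three, satisfying the Steinberg conditions `St (u i)` on subgroups `D i` which are
residually non-trivial.  Suppose the Selmer group vanishes (`hSel`), and that every subgroup `N` of
`K3` containing the kernel of `ρ`, with abelian quotient `K3 / N` of exponent a power of two, which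
contains all `g ∈ D i ∩ K3` with `u i g = 1`, has index at most `B` (`hArt`).
If `A` is generated by the traces of `ρ`, square roots of one `U q` (`q ∈ κ`) and values
`u i g` for `g ∈ D i ∩ K3`, then `|A| ≤ 2 ^ (B * 2 ^ |κ|)`. -/
theorem card_le (hdet : ∀ g, (ρ g).det = 1)
    (h3 : ∃ g, (ρ g).map r * (ρ g).map r = (ρ g).map r + 1)
    (D : ι → Subgroup G) (u : ι → G → A) (hu : ∀ i, ∀ g ∈ D i, u i g * u i g = 1)
    (hSt : ∀ i, ∀ g ∈ D i, ∀ g' ∈ D i, (ρ g - Matrix.scalar (Fin 2) (u i g)) *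
      (ρ g' - Matrix.scalar (Fin 2) (u i g')) = 0)
    (hne : ∀ i, ∃ g ∈ D i, (ρ g).map r ≠ 1)
    (hSel : ∀ e : G → (Fin 2 → ZMod 2), (∀ g g', e (g * g') = e g + (ρ g).map r *ᵥ e g') →
      (∀ g, ρ g = 1 → e g = 0) →
      (∀ i, ∀ g ∈ D i, ∀ g' ∈ D i, (ρ g').map r *ᵥ e g = e g) →
      ∃ x, ∀ g, e g = (ρ g).map r *ᵥ x - x)
    (B : ℕ)
    (hArt : ∀ K N : Subgroup G, (∀ g, g ∈ K ↔ g ∈ K3 r ρ) → N ≤ K →
      (∀ g ∈ K, ∀ g' ∈ K, g * g' * g⁻¹ * g'⁻¹ ∈ N) → (∃ n : ℕ, ∀ g ∈ K, g ^ (2 ^ n) ∈ N) →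
      (∀ g, ρ g = 1 → g ∈ N) → (∀ i, ∀ g ∈ D i, g ∈ K → u i g = 1 → g ∈ N) →
      N.relIndex K ≤ B)
    (U : κ → A) (hU : ∀ q, U q * U q = 1)
    (X : Set A) (hX : ∀ a ∈ X, ∃ i, ∃ g ∈ D i, g ∈ K3 r ρ ∧ a = u i g)
    (hgen : Subring.closure (Set.range (fun g => (ρ g).trace) ∪ Set.range U ∪ X) = ⊤) :
    Nat.card A ≤ 2 ^ (B * 2 ^ Fintype.card κ) := by
  have hR1 : ρ 1 = 1 := map_one ρ
  have hR : ∀ g g', ρ (g * g') = ρ g * ρ g' := map_mul ρ
  obtain ⟨g₀, hh, hdih⟩ := dihedral_of_selmer r hR hR1 hdet h3 D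
    (fun i => (commute_of_steinberg (R := ρ) (D := (D i : Set G)) (hu i) (hSt i)).1)
    (fun i => (commute_of_steinberg (R := ρ) (D := (D i : Set G)) (hu i) (hSt i)).2) hSel
  have hmem := mem_GK_iff r ρ hdet hh hdih
  have hsc : ∀ i, ∀ g ∈ D i, g ∈ GK ρ (ρ g₀) → ρ g = Matrix.scalar (Fin 2) (u i g) := by
    intro i g hg hgK
    obtain ⟨g', hg', hne'⟩ := hne i
    exact eq_scalar_of_steinberg r ρ hh hdet hdih (D := (D i : Set G)) (hu i) (hSt i) hg' hne' hg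
      hgK
  have h01 := isUnit_h01 r hh
  have hidx : (Nh ρ g₀).relIndex (GK ρ (ρ g₀)) ≤ B := by
    refine hArt _ _ hmem (Nh_le ρ g₀) (fun g hg g' hg' => ?_) (exists_pow_mem_Nh r ρ hdet hh)
      (fun g hg => ker_le_Nh ρ g₀ hg) (fun i g hg hgK hu1 => ?_)
    · exact ker_le_Nh ρ g₀ (commutator_mem ρ h01 hg hg')
    · exact ker_le_Nh ρ g₀ (by rw [hsc i g hg hgK, hu1, map_one])
  refine (card_le_of_dihedral r ρ hdet hh hdih U hU X (fun a ha => ?_) hgen).trans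
    (Nat.pow_le_pow_right (by norm_num) (Nat.mul_le_mul_right _ hidx))
  obtain ⟨i, g, hg, hgK, rfl⟩ := hX a ha
  exact ⟨g, hsc i g hg ((hmem g).mpr hgK)⟩

end Fermat.Agent.LTF.Dih
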