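import Fermat.Agent.LTF.DihOne

/-!
# [DIH1]: vanishing of the Selmer group forces dihedral representations in characteristic two
-/

set_option autoImplicit false
set_option linter.unusedSectionVars false

open Matrix

namespace Fermat.Agent.LTF.Dih

theorem commuting_involutions : ∀ s t : M2 (ZMod 2), s * s = 1 → t * t = 1 → s * t = t * s →
    s ≠ 1 → t ≠ 1 → s = t := by
  decide

theorem add_self_vec (x : Fin 2 → ZMod 2) : x + x = 0 := by
  ext i
  exact CharTwo.add_self_eq_zero _

variable {G ι A : Type*} [Group G] [CommRing A] [CharP A 2] [Finite A] (r : A →+* ZMod 2)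
  [IsLocalHom r] {R : G → M2 A}

/-- **[DIH1]** Let `R : G → GL₂(A)` be a representation of determinant one over a finite local
ring `A` of characteristic two with residue field `𝔽₂`, residually containing an element of order
three, with elementary abelian image on the subgroups `D i`.  If every cocycle with values in the
residual representation which is trivial on the kernel of `R` and takes invariant values on the
`D i` is a coboundary, then `R` is dihedral. -/
theorem dihedral_of_selmer (hR : ∀ g g', R (g * g') = R g * R g') (hR1 : R 1 = 1)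
    (hdet : ∀ g, (R g).det = 1) (h3 : ∃ g, (R g).map r * (R g).map r = (R g).map r + 1)
    (D : ι → Subgroup G) (hsq : ∀ i, ∀ g ∈ D i, R g * R g = 1)
    (hcomm : ∀ i, ∀ g ∈ D i, ∀ g' ∈ D i, R g * R g' = R g' * R g)
    (hSel : ∀ e : G → (Fin 2 → ZMod 2), (∀ g g', e (g * g') = e g + (R g).map r *ᵥ e g') →
      (∀ g, R g = 1 → e g = 0) →
      (∀ i, ∀ g ∈ D i, ∀ g' ∈ D i, (R g').map r *ᵥ e g = e g) →
      ∃ x, ∀ g, e g = (R g).map r *ᵥ x - x) :
    ∃ g₀, R g₀ * R g₀ = R g₀ + 1 ∧
      ∀ g, R g * R g₀ = R g₀ * R g ∨ R g * R g₀ = R g₀ * R g + R g := by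
  classical
  obtain ⟨g₀, hh⟩ := exists_order_three r hR hR1 h3
  refine ⟨g₀, hh, ?_⟩
  set h := R g₀ with hdef
  let S : Set (Ideal A) := {I | I ≤ RingHom.ker r ∧ ∀ g, EntriesIn I (off r R h g)}
  have hSne : S.Nonempty := by
    refine ⟨RingHom.ker r, le_rfl, fun g i j => ?_⟩
    rw [RingHom.mem_ker]
    have h1 := par_residual (r := r) hh hdet g
    have h2 : (off r R h g).map r = 0 := by
      unfold off offPart
      rw [map_add', map_add', map_mul', map_mul', Matrix.map_smul' (f := r) _ _ (map_mul r),
        h1]
      have a1 := add_self_M2 (h.map r * (R g).map r)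
      have a2 := add_self_M2 (r (eps r R h g) • (R g).map r)
      have : h.map r * (R g).map r + r (eps r R h g) • (R g).map r + h.map r * (R g).map r +
          r (eps r R h g) • (R g).map r = (h.map r * (R g).map r + h.map r * (R g).map r) +
          (r (eps r R h g) • (R g).map r + r (eps r R h g) • (R g).map r) := by abel
      rw [this, a1, a2, add_zero]
    exact congrFun (congrFun h2 i) j
  obtain ⟨I, ⟨hI, hoff⟩, hmin⟩ := IsArtinian.set_has_minimal (R := A) (M := A) S hSne
  have hbot : I = ⊥ := by
    by_contra hne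
    obtain ⟨lam, hl, x₀, hx₀, hx₀'⟩ := exists_functional r hne
    -- the cocycle
    have hpar := fun g => par_coc (r := r) (lam := lam) hh hdet hR hR1 hoff hl g
    have hb := map_hh (r := r) hh
    have hmat : ∀ g, coc r lam R h g = mat (vec (coc r lam R h g)) := fun g =>
      eq_mat_of_par hb (hpar g)
    let e : G → (Fin 2 → ZMod 2) := fun g => vec (coc r lam R h g)
    have he1 : ∀ g g', e (g * g') = e g + (R g).map r *ᵥ e g' := by
      intro g g'
      show vec _ = vec _ + _
      rw [coc_mul hh hdet hR hR1 hI hoff hl, vec_add, hmat g',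
        vec_equivariant (map_mul_inv (r := r) hR hR1 g)]
    have heps : ∀ g, (R g).map r * h.map r = h.map r * (R g).map r → eps r R h g = 0 := by
      intro g hg
      unfold eps
      rw [if_pos hg]
    have hcoc0 : ∀ g, off r R h g = 0 → coc r lam R h g = 0 := by
      intro g hg
      have : Lam lam (0 : M2 A) = 0 := by
        ext i j
        exact hl.map_zero
      unfold coc
      rw [hg, this, zero_mul]
    have hvec0 : vec 0 = 0 := by
      ext i
      fin_cases i <;> rfl
    have he2 : ∀ g, R g = 1 → e g = 0 := by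
      intro g hg
      have h1 : eps r R h g = 0 := heps g (by rw [hg, map_one', one_mul, mul_one])
      have h2 : off r R h g = 0 := by
        unfold off offPart
        rw [h1, hg, one_mul, mul_one, zero_smul, add_zero, add_self_M2]
      show vec _ = 0
      rw [hcoc0 g h2, hvec0]
    have he3 : ∀ i, ∀ g ∈ D i, ∀ g' ∈ D i, (R g').map r *ᵥ e g = e g := by
      intro i g hg g' hg'
      have hfix : ∀ k ∈ D i, (R k).map r *ᵥ e k = e k := by
        intro k hk
        have h1 : e (k * k) = 0 := he2 _ (by rw [hR, hsq i k hk])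
        rw [he1] at h1
        have h2 := add_self_vec (e k)
        rw [← h2] at h1
        exact add_left_cancel h1
      have hinv : ∀ k ∈ D i, (R k).map r * (R k).map r = 1 := fun k hk => by
        rw [← map_mul', hsq i k hk, map_one']
      have hcm : e g + (R g).map r *ᵥ e g' = e g' + (R g').map r *ᵥ e g := by
        rw [← he1, ← he1]
        have hk : R (g * g' * (g' * g)⁻¹) = 1 := by
          have h1 : R (g' * g) = R (g * g') := by rw [hR, hR, hcomm i g hg g' hg']
          have h2 : R (g * g' * (g' * g)⁻¹) = R (g' * g * (g' * g)⁻¹) := by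
            rw [hR (g * g'), ← h1, ← hR]
          rw [h2, mul_inv_cancel, hR1]
        have h3 := he1 (g * g' * (g' * g)⁻¹) (g' * g)
        rw [inv_mul_cancel_right, he2 _ hk, hk, map_one', Matrix.one_mulVec, zero_add] at h3
        exact h3
      by_cases hs : (R g').map r = 1
      · rw [hs, Matrix.one_mulVec]
      by_cases ht : (R g).map r = 1
      · rw [ht, Matrix.one_mulVec, add_comm] at hcm
        exact (add_left_cancel hcm).symm
      · have h1 := commuting_involutions _ _ (hinv g' hg') (hinv g hg)
          (by rw [← map_mul', ← map_mul', hcomm i g' hg' g hg]) hs ht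
        rw [h1]
        exact hfix g hg
    obtain ⟨x, hx⟩ := hSel e he1 he2 he3
    have hx0 : x = 0 := by
      have h1 : eps r R h g₀ = 0 := heps g₀ rfl
      have h2 : off r R h g₀ = 0 := by
        unfold off offPart
        rw [h1, zero_smul, add_zero, ← hdef, add_self_M2]
      have h3 : e g₀ = 0 := by
        show vec _ = 0
        rw [hcoc0 g₀ h2, hvec0]
      rw [hx, sub_eq_zero, ← hdef] at h3
      have h4 : (h.map r * h.map r) *ᵥ x = x := by
        rw [← Matrix.mulVec_mulVec, h3, h3]
      rw [hb, Matrix.add_mulVec, Matrix.one_mulVec, h3] at h4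
      exact add_eq_left.mp h4
    have he0 : ∀ g, e g = 0 := by
      intro g
      rw [hx, hx0, Matrix.mulVec_zero, sub_zero]
    have hlam0 : ∀ g, Lam lam (off r R h g) = 0 := by
      intro g
      have h1 : coc r lam R h g = 0 := by
        rw [hmat g, show vec (coc r lam R h g) = 0 from he0 g]
        ext i j
        fin_cases i <;> fin_cases j <;> simp [mat]
      have h2 : coc r lam R h g * (R g).map r = Lam lam (off r R h g) := by
        unfold coc
        rw [mul_assoc, map_inv_mul (r := r) hR hR1, mul_one]
      rw [← h2, h1, zero_mul]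
    let J : Ideal A :=
      { carrier := {x | x ∈ I ∧ lam x = 0}
        add_mem' := by
          rintro a b ⟨ha, ha'⟩ ⟨hb, hb'⟩
          exact ⟨I.add_mem ha hb, by rw [hl.add _ ha _ hb, ha', hb', add_zero]⟩
        zero_mem' := ⟨I.zero_mem, hl.map_zero⟩
        smul_mem' := by
          rintro a b ⟨hb, hb'⟩
          exact ⟨Ideal.mul_mem_left I a hb, by rw [smul_eq_mul, hl.smul _ _ hb, hb', mul_zero]⟩ }
    have hJ : J ∈ S := by
      refine ⟨fun x hx => hI hx.1, fun g i j => ⟨hoff g i j, ?_⟩⟩
      exact congrFun (congrFun (hlam0 g) i) j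
    refine hmin J hJ (lt_of_le_of_ne (fun x hx => hx.1) ?_)
    intro hJI
    rw [← hJI] at hx₀
    exact hx₀' hx₀.2
  intro g
  have h1 : off r R h g = 0 := by
    ext i j
    have := hoff g i j
    rw [hbot] at this
    exact this
  unfold off offPart at h1
  have h2 : ∀ x y : M2 A, x + y = 0 → x = y := by
    intro x y hxy
    have := add_self_M2 y
    rw [← this] at hxy
    exact add_right_cancel hxy
  rcases eps_cases (r := r) (R := R) (h := h) g with h3 | h3
  · left
    rw [h3, zero_smul, add_zero] at h1
    exact h2 _ _ h1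
  · right
    rw [h3, one_smul, add_assoc] at h1
    exact h2 _ _ h1

/-- The Steinberg condition in characteristic two gives an elementary abelian group. -/
theorem commute_of_steinberg {D : Set G} {u : G → A} (hu : ∀ g ∈ D, u g * u g = 1)
    (hSt : ∀ g ∈ D, ∀ g' ∈ D, (R g - Matrix.scalar (Fin 2) (u g)) *
      (R g' - Matrix.scalar (Fin 2) (u g')) = 0) :
    (∀ g ∈ D, R g * R g = 1) ∧ ∀ g ∈ D, ∀ g' ∈ D, R g * R g' = R g' * R g := by
  have hsc : ∀ (a : A) (x : M2 A), Matrix.scalar (Fin 2) a * x = x * Matrix.scalar (Fin 2) a :=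
    fun a x => Matrix.scalar_comm a (fun b => mul_comm a b) x
  refine ⟨fun g hg => ?_, fun g hg g' hg' => ?_⟩
  · have h1 := hSt g hg g hg
    set s := Matrix.scalar (Fin 2) (u g) with hs
    have h2 : s * s = 1 := by rw [hs, ← map_mul, hu g hg, map_one]
    have h3 : (R g - s) * (R g - s) = R g * R g + s * s - (s * R g + R g * s) := by noncomm_ring
    rw [h3, h2, hs, hsc, ← hs, add_self_M2, sub_zero] at h1
    have h4 := add_self_M2 (1 : M2 A)
    rw [← h4] at h1
    exact add_right_cancel h1
  · have h1 := hSt g hg g' hg'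
    have h2 := hSt g' hg' g hg
    set s := Matrix.scalar (Fin 2) (u g) with hs
    set s' := Matrix.scalar (Fin 2) (u g') with hs'
    have h3 : R g * R g' - R g' * R g = (R g - s) * (R g' - s') - (R g' - s') * (R g - s) +
        (R g * s' - s' * R g) + (s * R g' - R g' * s) - (s * s' - s' * s) := by noncomm_ring
    have h4 : s' * R g = R g * s' := hsc _ _
    have h5 : s * R g' = R g' * s := hsc _ _
    have h6 : s * s' = s' * s := hsc _ _
    rw [h1, h2, h4, h5, h6] at h3
    simp only [sub_self, add_zero] at h3
    exact sub_eq_zero.mp h3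

end Fermat.Agent.LTF.Dih
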