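import Fermat.Agent.LTF.DihCoc

/-!
# Vanishing of the Selmer group forces dihedral representations in characteristic two
-/

set_option autoImplicit false
set_option linter.unusedSectionVars false

open Matrix

namespace Fermat.Agent.LTF.Dih

section Functional

variable {A : Type*} [CommRing A] [Finite A] (r : A →+* ZMod 2) [IsLocalHom r]

include r in
theorem isLocalRing_of_hom : IsLocalRing A := RingHom.domain_isLocalRing r

theorem surjective_zmod2 (r : A →+* ZMod 2) : Function.Surjective r := ZMod.ringHom_surjective r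

theorem ker_eq_maximalIdeal : letI := isLocalRing_of_hom r
    RingHom.ker r = IsLocalRing.maximalIdeal A := by
  let _ := isLocalRing_of_hom r
  have : (RingHom.ker r).IsMaximal := RingHom.ker_isMaximal_of_surjective r (surjective_zmod2 r)
  exact IsLocalRing.eq_maximalIdeal this

theorem exists_ker_pow_eq_bot : ∃ n : ℕ, (RingHom.ker r) ^ n = ⊥ := by
  let _ := isLocalRing_of_hom r
  have h1 : IsNilpotent (Ideal.jacobson (⊥ : Ideal A)) := IsArtinianRing.isNilpotent_jacobson_bot
  rw [IsLocalRing.jacobson_eq_maximalIdeal ⊥ bot_ne_top] at h1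
  obtain ⟨n, hn⟩ := h1
  exact ⟨n, by rw [ker_eq_maximalIdeal]; exact hn⟩

theorem exists_functional {I : Ideal A} (hI : I ≠ ⊥) :
    ∃ lam : A → ZMod 2, IsFunctional r I lam ∧ ∃ x ∈ I, lam x ≠ 0 := by
  classical
  let _ := isLocalRing_of_hom r
  have hnt : Nontrivial I := Submodule.nontrivial_iff_ne_bot.mpr hI
  have : Module.Finite A I := Module.Finite.of_finite
  obtain ⟨N, hN⟩ := IsCoatomic.exists_coatom (Submodule A I)
  have hs : IsSimpleModule A (I ⧸ N) := isSimpleModule_iff_isCoatom.mpr hN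
  obtain ⟨J, hJ, ⟨φ⟩⟩ := isSimpleModule_iff_quot_maximal.mp hs
  have hJr : J = RingHom.ker r := by
    rw [ker_eq_maximalIdeal]; exact IsLocalRing.eq_maximalIdeal hJ
  let ψ : (A ⧸ J) →+* ZMod 2 := Ideal.Quotient.lift J r (fun a ha => by rwa [hJr] at ha)
  have hψ : ∀ (a : A) (x : A ⧸ J), ψ (a • x) = r a * ψ x := by
    intro a x
    rw [Algebra.smul_def, map_mul]
    rfl
  let lam : A → ZMod 2 := fun x => if hx : x ∈ I then ψ (φ (N.mkQ ⟨x, hx⟩)) else 0
  have hlam : ∀ x : I, lam x = ψ (φ (N.mkQ x)) := fun x => dif_pos x.2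
  refine ⟨lam, ⟨fun x hx y hy => ?_, fun a x hx => ?_⟩, ?_⟩
  · have h1 := hlam (⟨x, hx⟩ + ⟨y, hy⟩)
    rw [map_add, map_add, map_add, ← hlam, ← hlam] at h1
    exact h1
  · have h1 := hlam (a • ⟨x, hx⟩)
    rw [map_smul, map_smul, hψ, ← hlam] at h1
    exact h1
  · obtain ⟨x, hx⟩ := (N.mkQ_surjective) (φ.symm 1)
    refine ⟨x, x.2, ?_⟩
    rw [hlam, hx, LinearEquiv.apply_symm_apply, map_one]
    exact one_ne_zero

end Functional

section OrderThree

variable {A : Type*} [CommRing A] [CharP A 2]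

theorem entriesIn_pow {I : Ideal A} {x : M2 A} (hx : EntriesIn I x) (n : ℕ) :
    EntriesIn (I ^ n) (x ^ n) := by
  induction n with
  | zero => intro i j; rw [pow_zero, Ideal.one_eq_top]; exact Submodule.mem_top
  | succ n ih =>
    rw [pow_succ, pow_succ]
    intro i j
    rw [Matrix.mul_apply]
    exact Ideal.sum_mem _ fun k _ => Ideal.mul_mem_mul (ih i k) (hx k j)

variable [Finite A] (r : A →+* ZMod 2) [IsLocalHom r]

/-- The kernel of the reduction is of exponent a power of `2`. -/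
theorem exists_pow_eq_one : ∃ n : ℕ, ∀ x : M2 A, x.map r = 1 → x ^ (2 ^ n) = 1 := by
  obtain ⟨n, hn⟩ := exists_ker_pow_eq_bot r
  refine ⟨n, fun x hx => ?_⟩
  have hX : EntriesIn (RingHom.ker r) (x - 1) := by
    intro i j
    rw [RingHom.mem_ker]
    have h1 := congrFun (congrFun hx i) j
    rw [Matrix.map_apply] at h1
    rw [Matrix.sub_apply, map_sub, h1]
    by_cases hij : i = j
    · rw [hij, Matrix.one_apply_eq, Matrix.one_apply_eq, map_one, sub_self]
    · rw [Matrix.one_apply_ne hij, Matrix.one_apply_ne hij, map_zero, sub_self]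
  have h0 : (x - 1) ^ (2 ^ n) = 0 := by
    have h1 : (x - 1) ^ n = 0 := by
      have h2 := entriesIn_pow hX n
      rw [hn] at h2
      ext i j
      exact h2 i j
    have h3 : n ≤ 2 ^ n := Nat.lt_two_pow_self.le
    rw [← Nat.sub_add_cancel h3, pow_add, h1, mul_zero]
  have h4 : x = (x - 1) + 1 := by abel
  rw [h4, add_pow_char_pow_of_commute 2 n (Commute.one_right _), h0, one_pow, zero_add]

variable {G : Type*} [Group G] {R : G → M2 A}

theorem exists_order_three (hR : ∀ g g', R (g * g') = R g * R g') (hR1 : R 1 = 1)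
    (h3 : ∃ g, (R g).map r * (R g).map r = (R g).map r + 1) :
    ∃ g, R g * R g = R g + 1 := by
  obtain ⟨n, hn⟩ := exists_pow_eq_one (A := A) r
  obtain ⟨g, hg⟩ := h3
  have hpow : ∀ (g : G) (k : ℕ), R (g ^ k) = R g ^ k := by
    intro g k
    induction k with
    | zero => rw [pow_zero, pow_zero, hR1]
    | succ k ih => rw [pow_succ, hR, ih, pow_succ]
  have hmap : ∀ (x : M2 A) (k : ℕ), (x ^ k).map r = (x.map r) ^ k := fun x k =>
    Matrix.map_pow _ _ _
  set b := (R g).map r with hb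
  have hb3 : b ^ 3 = 1 := by
    have e : b ^ 3 = b * b * b := by rw [pow_succ, pow_two]
    rw [e, hg, add_mul, one_mul, hg]
    have := add_self_M2 b
    rw [add_assoc, add_comm 1 b, ← add_assoc, this, zero_add]
  have h5 : R (g ^ (2 ^ n)) ^ 3 = 1 := by
    rw [hpow, ← pow_mul, mul_comm, pow_mul]
    exact hn _ (by rw [hmap, hb3])
  have hres : ∀ k : ℕ, b ^ (2 ^ k) * b ^ (2 ^ k) = b ^ (2 ^ k) + 1 := by
    intro k
    induction k with
    | zero => rw [pow_zero, pow_one, hg]
    | succ k ih =>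
      have e : b ^ (2 ^ (k + 1)) = b ^ (2 ^ k) * b ^ (2 ^ k) := by
        rw [← pow_add]; congr 1; ring
      rw [e, ih]
      have e2 : (b ^ (2 ^ k) + 1) * (b ^ (2 ^ k) + 1) =
          b ^ (2 ^ k) * b ^ (2 ^ k) + (b ^ (2 ^ k) + b ^ (2 ^ k)) + 1 := by noncomm_ring
      rw [e2, ih, add_self_M2, add_zero]
  refine ⟨g ^ (2 ^ n), ?_⟩
  set x := R (g ^ (2 ^ n)) with hx
  have hxr : x.map r = b ^ (2 ^ n) := by rw [hx, hpow, hmap]
  have hunit : IsUnit (x - 1) := by
    rw [Matrix.isUnit_iff_isUnit_det]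
    refine isUnit_of_map_unit r _ ?_
    rw [RingHom.map_det, RingHom.mapMatrix_apply]
    have e : (x - 1).map r = b ^ (2 ^ n) - 1 := by
      rw [Matrix.map_sub r (map_sub r), hxr, map_one']
    rw [e]
    have h6 := hres n
    have h7 : (b ^ (2 ^ n) - 1) * (b ^ (2 ^ n)) = 1 := by
      rw [sub_mul, h6, one_mul, add_sub_cancel_left]
    rw [det_eq_one h7]
    exact isUnit_one
  have h8 : (x - 1) * (x * x - (x + 1)) = 0 := by
    have e1 : (x - 1) * (x * x - (x + 1)) = x ^ 3 + 1 - (x * x + x * x) := by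
      rw [pow_succ, pow_two]
      noncomm_ring
    rw [e1, h5, add_self_M2, add_self_M2, sub_zero]
  have h9 := (hunit.mul_right_eq_zero).mp h8
  exact sub_eq_zero.mp h9

end OrderThree

end Fermat.Agent.LTF.Dih
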