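import Fermat.Agent.LTF.DihMain

/-!
# [DIH2]: the size of the ring generated by a dihedral representation in characteristic two
-/

set_option autoImplicit false
set_option linter.unusedSectionVars false

open Matrix

namespace Fermat.Agent.LTF.Dih

section Centralizer

variable {A : Type*} [CommRing A]

theorem exists_of_commute {h x : M2 A} (hu : IsUnit (h 0 1)) (hx : x * h = h * x) :
    ∃ a b : A, x = Matrix.scalar (Fin 2) a + b • h := by
  obtain ⟨v, hv⟩ := hu.exists_right_inv
  have h00 := congrFun (congrFun hx 0) 0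
  have h01 := congrFun (congrFun hx 0) 1
  rw [Matrix.mul_apply, Matrix.mul_apply, Fin.sum_univ_two, Fin.sum_univ_two] at h00 h01
  refine ⟨x 0 0 - x 0 1 * v * h 0 0, x 0 1 * v, ?_⟩
  ext i j
  fin_cases i <;> fin_cases j
  · simp
  · simp
    linear_combination (-(x 0 1)) * hv
  · simp
    linear_combination (-(x 1 0)) * hv - v * h00
  · simp
    linear_combination (-(x 1 1) + x 0 0) * hv - v * h01

theorem residual_offdiag : ∀ b : M2 (ZMod 2), b * b = b + 1 → b 0 1 = 1 := by decide

theorem residual_commute : ∀ s b : M2 (ZMod 2), b * b = b + 1 → s * s = 1 → s * b = b * s →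
    s = 1 := by decide

variable [CharP A 2] (r : A →+* ZMod 2) [IsLocalHom r]

include r in
theorem isUnit_of_residual {a : A} (ha : r a = 1) : IsUnit a :=
  isUnit_of_map_unit r a (by rw [ha]; exact isUnit_one)

include r in
theorem isUnit_h01 {h : M2 A} (hh : h * h = h + 1) : IsUnit (h 0 1) :=
  isUnit_of_residual r (residual_offdiag _ (map_hh (r := r) hh))

theorem smul_eq_zero_of_det {s : M2 A} (hs : s.det = 1) {b : A} (hb : b • s = 0) : b = 0 := by
  have h1 : b • (s * s.adjugate) = 0 := by rw [← smul_mul_assoc, hb, zero_mul]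
  rw [Matrix.mul_adjugate, hs, one_smul] at h1
  have h2 := congrFun (congrFun h1 0) 0
  simpa using h2

include r in
theorem exists_scalar {h s x : M2 A} (hh : h * h = h + 1) (hs : s * h = h * s + s)
    (hdet : s.det = 1) (hx : x * h = h * x) (hxs : x * s = s * x) :
    ∃ a : A, x = Matrix.scalar (Fin 2) a := by
  obtain ⟨a, b, rfl⟩ := exists_of_commute (isUnit_h01 r hh) hx
  have hsc : Matrix.scalar (Fin 2) a * s = s * Matrix.scalar (Fin 2) a :=
    Matrix.scalar_comm a (fun b => mul_comm a b) s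
  rw [add_mul, mul_add, hsc, smul_mul_assoc, mul_smul_comm, hs, smul_add] at hxs
  have h1 := add_left_cancel hxs
  have h2 : b • s = 0 := by
    have h3 := h1.symm
    rwa [add_eq_left] at h3
  have hb := smul_eq_zero_of_det hdet h2
  exact ⟨a, by rw [hb, zero_smul, add_zero]⟩

variable [Finite A] {G : Type*} [Group G] (ρ : G →* M2 A)

/-- At a place where the Steinberg condition holds and the residual representation is not trivial,
the elements commuting with `h` act by scalars. -/
theorem eq_scalar_of_steinberg {h : M2 A} (hh : h * h = h + 1) (hdet : ∀ g, (ρ g).det = 1)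
    (hdih : ∀ g, ρ g * h = h * ρ g ∨ ρ g * h = h * ρ g + ρ g)
    {D : Set G} {u : G → A} (hu : ∀ g ∈ D, u g * u g = 1)
    (hSt : ∀ g ∈ D, ∀ g' ∈ D, (ρ g - Matrix.scalar (Fin 2) (u g)) *
      (ρ g' - Matrix.scalar (Fin 2) (u g')) = 0)
    {g' : G} (hg' : g' ∈ D) (hne : (ρ g').map r ≠ 1) {g : G} (hg : g ∈ D)
    (hgh : ρ g * h = h * ρ g) : ρ g = Matrix.scalar (Fin 2) (u g) := by
  obtain ⟨hsq, hcomm⟩ := commute_of_steinberg (R := ρ) hu hSt
  have h1 : ρ g' * h = h * ρ g' + ρ g' := by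
    refine (hdih g').resolve_left fun h2 => hne ?_
    exact residual_commute _ (h.map r) (map_hh (r := r) hh)
      (by rw [← map_mul', hsq g' hg', map_one']) (by rw [← map_mul', ← map_mul', h2])
  obtain ⟨c, hc⟩ := exists_scalar r hh h1 (hdet g') hgh (hcomm g hg g' hg')
  have h2 := hSt g hg g' hg'
  have h3 : (c - u g) • (ρ g' - Matrix.scalar (Fin 2) (u g')) = 0 := by
    rw [hc, ← map_sub] at h2
    rw [← h2, Matrix.smul_eq_diagonal_mul]
    rfl
  -- a unit entry of `ρ g' - u g'`
  have h4 : ∃ i j, r ((ρ g' - Matrix.scalar (Fin 2) (u g')) i j) = 1 := by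
    by_contra hcon
    push Not at hcon
    apply hne
    have hall : ∀ i j, r ((ρ g' - Matrix.scalar (Fin 2) (u g')) i j) = 0 := by
      intro i j
      have : ∀ a : ZMod 2, a ≠ 1 → a = 0 := by decide
      exact this _ (hcon i j)
    have hu1 : r (u g') = 1 := by
      have h5 := congrArg r (hu g' hg')
      rw [map_mul, map_one] at h5
      have : ∀ a : ZMod 2, a * a = 1 → a = 1 := by decide
      exact this _ h5
    ext i j
    have h6 := hall i j
    rw [Matrix.sub_apply, map_sub, sub_eq_zero] at h6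
    rw [Matrix.map_apply, h6, Matrix.scalar_apply, Matrix.diagonal_apply, Matrix.one_apply]
    split_ifs
    · exact hu1
    · exact map_zero r
  obtain ⟨i, j, hij⟩ := h4
  have h5 := congrFun (congrFun h3 i) j
  rw [Matrix.smul_apply, Matrix.zero_apply, smul_eq_mul] at h5
  have h6 : c - u g = 0 := (isUnit_of_residual r hij).mul_left_eq_zero.mp h5
  rw [hc, sub_eq_zero.mp h6]

end Centralizer

section Groups

variable {A : Type*} [CommRing A] {G : Type*} [Group G] (ρ : G →* M2 A)

/-- the subgroup of elements commuting with `h` -/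
def GK (h : M2 A) : Subgroup G where
  carrier := {g | ρ g * h = h * ρ g}
  one_mem' := by
    show ρ 1 * h = h * ρ 1
    rw [map_one, one_mul, mul_one]
  mul_mem' := by
    intro a b (ha : _ = _) (hb : _ = _)
    show ρ (a * b) * h = h * ρ (a * b)
    rw [map_mul, mul_assoc, hb, ← mul_assoc, ha, mul_assoc]
  inv_mem' := by
    intro a (ha : _ = _)
    show ρ a⁻¹ * h = h * ρ a⁻¹
    have h1 : ρ a⁻¹ * ρ a = 1 := by rw [← map_mul, inv_mul_cancel, map_one]
    have h2 : ρ a * ρ a⁻¹ = 1 := by rw [← map_mul, mul_inv_cancel, map_one]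
    calc ρ a⁻¹ * h = ρ a⁻¹ * (h * (ρ a * ρ a⁻¹)) := by rw [h2, mul_one]
      _ = ρ a⁻¹ * (h * ρ a) * ρ a⁻¹ := by simp only [mul_assoc]
      _ = ρ a⁻¹ * (ρ a * h) * ρ a⁻¹ := by rw [ha]
      _ = (ρ a⁻¹ * ρ a) * h * ρ a⁻¹ := by simp only [mul_assoc]
      _ = h * ρ a⁻¹ := by rw [h1, one_mul]

theorem mem_GK {h : M2 A} {g : G} : g ∈ GK ρ h ↔ ρ g * h = h * ρ g := Iff.rfl

/-- the subgroup of elements acting through the powers of `ρ g₀` -/
def Nh (g₀ : G) : Subgroup G := (Subgroup.zpowers (ρ.toHomUnits g₀)).comap ρ.toHomUnits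

theorem Nh_le (g₀ : G) : Nh ρ g₀ ≤ GK ρ (ρ g₀) := by
  rintro g ⟨k, hk⟩
  rw [mem_GK]
  have h1 : ρ g = ((ρ.toHomUnits g₀ ^ k : (M2 A)ˣ) : M2 A) := by
    have := congrArg Units.val hk
    exact this.symm
  have h2 : ((ρ.toHomUnits g₀ : (M2 A)ˣ) : M2 A) = ρ g₀ := rfl
  rw [h1, ← h2, ← Units.val_mul, ← Units.val_mul]
  congr 1
  exact ((Commute.refl (ρ.toHomUnits g₀)).zpow_left k).eq

theorem ker_le_Nh (g₀ : G) {g : G} (hg : ρ g = 1) : g ∈ Nh ρ g₀ := by
  refine ⟨0, ?_⟩
  show _ ^ (0 : ℤ) = _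
  rw [zpow_zero]
  ext1
  exact hg.symm

theorem commute_of_mem_GK {h : M2 A} (hu : IsUnit (h 0 1)) {g g' : G} (hg : g ∈ GK ρ h)
    (hg' : g' ∈ GK ρ h) : ρ g * ρ g' = ρ g' * ρ g := by
  obtain ⟨a, b, hab⟩ := exists_of_commute hu hg
  rw [mem_GK] at hg'
  have hsc : Matrix.scalar (Fin 2) a * ρ g' = ρ g' * Matrix.scalar (Fin 2) a :=
    Matrix.scalar_comm a (fun b => mul_comm a b) _
  rw [hab, add_mul, mul_add, hsc, smul_mul_assoc, mul_smul_comm, hg']

theorem commutator_mem {h : M2 A} (hu : IsUnit (h 0 1)) {g g' : G} (hg : g ∈ GK ρ h)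
    (hg' : g' ∈ GK ρ h) : ρ (g * g' * g⁻¹ * g'⁻¹) = 1 := by
  have h1 := commute_of_mem_GK ρ hu hg hg'
  rw [map_mul, map_mul, map_mul, h1, mul_assoc (ρ g'), ← map_mul, mul_inv_cancel, map_one, mul_one,
    ← map_mul, mul_inv_cancel, map_one]

end Groups

section Span

theorem card_span_le {𝒢 V : Type*} [Group 𝒢] [Finite 𝒢] [AddCommGroup V] [Module (ZMod 2) V]
    (θ : 𝒢 → V) (t : 𝒢) (ht : t ^ 3 = 1) (hθ : ∀ g, θ (g * (t * t)) = θ g + θ (g * t)) :
    Nat.card (Submodule.span (ZMod 2) (Set.range θ)) ≤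
      2 ^ (2 * (Subgroup.zpowers t).index) := by
  classical
  have : Fintype (𝒢 ⧸ Subgroup.zpowers t) := Fintype.ofFinite _
  let f : (𝒢 ⧸ Subgroup.zpowers t) ⊕ (𝒢 ⧸ Subgroup.zpowers t) → V :=
    Sum.elim (fun c => θ (Quotient.out c)) (fun c => θ (Quotient.out c * t))
  have h1 : Submodule.span (ZMod 2) (Set.range θ) ≤ Submodule.span (ZMod 2) (Set.range f) := by
    rw [Submodule.span_le]
    rintro _ ⟨g, rfl⟩
    obtain ⟨⟨y, k, hk⟩, hy⟩ := QuotientGroup.mk_out_eq_mul (Subgroup.zpowers t) g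
    set c : 𝒢 ⧸ Subgroup.zpowers t := QuotientGroup.mk g
    have h2 : g = Quotient.out c * t ^ (-k) := by
      have hy' : Quotient.out c = g * y := hy
      have hk' : t ^ k = y := hk
      rw [hy', ← hk', _root_.zpow_neg, mul_assoc, mul_inv_cancel, mul_one]
    have h3 : t ^ (-k) = t ^ ((-k) % 3).toNat := by
      have h4 : (0 : ℤ) ≤ (-k) % 3 := Int.emod_nonneg _ (by norm_num)
      have h5 : t ^ (3 : ℤ) = 1 := by exact_mod_cast ht
      have h6 : -k = (-k) % 3 + 3 * ((-k) / 3) := (Int.emod_add_mul_ediv _ _).symm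
      rw [← zpow_natCast, Int.toNat_of_nonneg h4]
      conv_lhs => rw [h6, _root_.zpow_add, _root_.zpow_mul, h5, _root_.one_zpow, mul_one]
    have h7 : ((-k) % 3).toNat < 3 := by
      have := Int.emod_lt_of_pos (-k) (show (0 : ℤ) < 3 by norm_num)
      omega
    have m0 : θ (Quotient.out c) ∈ Submodule.span (ZMod 2) (Set.range f) :=
      Submodule.subset_span ⟨Sum.inl c, rfl⟩
    have m1 : θ (Quotient.out c * t) ∈ Submodule.span (ZMod 2) (Set.range f) :=
      Submodule.subset_span ⟨Sum.inr c, rfl⟩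
    rw [SetLike.mem_coe, h2, h3]
    generalize ((-k) % 3).toNat = n at h7
    interval_cases n
    · rwa [pow_zero, mul_one]
    · rwa [pow_one]
    · rw [pow_two, hθ]
      exact add_mem m0 m1
  have hfin : Module.Finite (ZMod 2) (Submodule.span (ZMod 2) (Set.range f)) :=
    Module.Finite.span_of_finite _ (Set.finite_range f)
  have : Finite (Submodule.span (ZMod 2) (Set.range f)) := Module.finite_of_finite (ZMod 2)
  calc Nat.card (Submodule.span (ZMod 2) (Set.range θ))
      ≤ Nat.card (Submodule.span (ZMod 2) (Set.range f)) :=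
        Nat.card_le_card_of_injective _ (Submodule.inclusion_injective h1)
    _ = 2 ^ Module.finrank (ZMod 2) (Submodule.span (ZMod 2) (Set.range f)) := by
        rw [Module.natCard_eq_pow_finrank (K := ZMod 2), Nat.card_zmod]
    _ ≤ 2 ^ (2 * (Subgroup.zpowers t).index) := by
        refine Nat.pow_le_pow_right (by norm_num) ?_
        refine (finrank_range_le_card f).trans ?_
        rw [Fintype.card_sum, Subgroup.index, Nat.card_eq_fintype_card]
        omega

end Span

end Fermat.Agent.LTF.Dih
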