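import Fermat.Agent.LTF.WLocSt
import Fermat.Agent.S53_HasMat

/-!
# Matrix form of the local conditions on `T_2 E`
-/

set_option autoImplicit false

noncomputable section

namespace Fermat.Agent.LTF.WLoc

open Matrix Fermat.Agent.S53norm Fermat.Agent.Tate Fermat.Agent.ECRed

variable {W : WeierstrassCurve ℤ} (hΔ : (W.map (Int.castRingHom ℚ)).Δ ≠ 0)

/-- the Tate module in matrix form -/
theorem exists_matHom : ∃ r : GQ →* M2 ℤ_[2],
    HasMat ((tateRep (W.map (Int.castRingHom ℚ)) hΔ 2).ρ : GQ → _) r := by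
  obtain ⟨r, hr⟩ := exists_hasMat_adic (tateRep (W.map (Int.castRingHom ℚ)) hΔ 2)
  exact ⟨⟨⟨r, hr.map_one⟩, hr.map_mul⟩, hr⟩

variable {hΔ} {r : GQ →* M2 ℤ_[2]}
  (hr : HasMat ((tateRep (W.map (Int.castRingHom ℚ)) hΔ 2).ρ : GQ → _) r)

include hr

/-- `St_q` at the primes of multiplicative reduction (`q = 2` included). -/
theorem exists_stMat {q : ℕ} (hW : IsMultAt W q) :
    ∃ z : ℤ_[2], (z = 1 ∨ z = -1) ∧
      ∀ A : ValuationSubring (AlgebraicClosure ℚ), A.LiesOverPrime q → StMat q A r z := by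
  obtain ⟨z, hz, h⟩ := exists_stEnd_tateRep hΔ hW
  exact ⟨z, hz, fun A hA => (stEnd_iff_stMat hr).mp (h A hA)⟩

/-- Unramified at the odd primes of good reduction. -/
theorem mat_inertia {q : ℕ} (hq : q.Prime) (hq2 : q ≠ 2) (hgood : W.IsGoodPrimeFor q)
    {A : ValuationSubring (AlgebraicClosure ℚ)} (hA : A.LiesOverPrime q) {σ : GQ}
    (hσ : σ ∈ A.inertiaSubgroupIn ℚ) : r σ = 1 :=
  (Fermat.Agent.RTD.hasMat_eq_one_iff hr σ).mp (tateRep_unramified hΔ 2 hq hgood hq2 A hA σ hσ)

/-- The determinant is cyclotomic. -/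
theorem mat_det (σ : GQ) : (r σ).det = ((Fermat.Agent.S30aux.cyc 2 σ : ℤ_[2]ˣ) : ℤ_[2]) := by
  rw [← det_tateRep hΔ 2 σ, ← Fermat.Agent.RTD.hasMat_det hr]

/-- Finite level of the reductions. -/
theorem mat_level (n : ℕ) : ∃ L : IntermediateField ℚ (AlgebraicClosure ℚ),
    FiniteDimensional ℚ L ∧ ∀ σ : GQ, (∀ x ∈ L, σ x = x) →
      (r σ).map (PadicInt.toZModPow (p := 2) n) = 1 := by
  obtain ⟨L, hL, h⟩ := (HasMat.isCont (ρ := tateRep (W.map (Int.castRingHom ℚ)) hΔ 2) hr) n
  refine ⟨L, hL, fun σ hσ => ?_⟩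
  ext i j
  have h1 := h σ hσ i j
  rw [PadicInt.maximalIdeal_eq_span_p, Ideal.span_singleton_pow, ← Nat.cast_pow,
    ← toZModPow_eq_zero_iff, Matrix.sub_apply, map_sub, sub_eq_zero] at h1
  rw [Matrix.map_apply, h1, Matrix.one_apply, Matrix.one_apply]
  split_ifs
  · rw [map_one]
  · rw [map_zero]

/-- Complex conjugation is an involution of determinant `-1` and trace `0`. -/
theorem mat_cc : r complexConjugation * r complexConjugation = 1 ∧
    (r complexConjugation).det = -1 ∧ (r complexConjugation).trace = 0 := by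
  have h1 : r complexConjugation * r complexConjugation = 1 := by
    rw [← map_mul, complexConjugation_mul_self, map_one]
  have h2 : (r complexConjugation).det = -1 := by
    rw [mat_det hr, Fermat.Agent.S30aux.cyc_complexConjugation]
  refine ⟨h1, h2, ?_⟩
  have e00 := congrFun (congrFun h1 0) 0
  have e01 := congrFun (congrFun h1 0) 1
  have e10 := congrFun (congrFun h1 1) 0
  have e11 := congrFun (congrFun h1 1) 1
  rw [Matrix.mul_apply, Fin.sum_univ_two] at e00 e01 e10 e11
  rw [Matrix.det_fin_two] at h2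
  rw [Matrix.trace_fin_two]
  simp only [Matrix.one_apply_eq, ne_eq, zero_ne_one, not_false_eq_true, Matrix.one_apply_ne,
    one_ne_zero] at e00 e01 e10 e11
  set a := r complexConjugation 0 0
  set b := r complexConjugation 0 1
  set c := r complexConjugation 1 0
  set d := r complexConjugation 1 1
  have k1 : (a + d) * a = 0 := by linear_combination e00 + h2
  have k4 : (a + d) * d = 0 := by linear_combination e11 + h2
  have k5 : (a + d) * (a + d) = 0 := by linear_combination k1 + k4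
  exact mul_self_eq_zero.mp k5

/-- **Deep primes**: if `q ≠ 2` is good and a Frobenius element is conjugate to complex conjugation
modulo `2 ^ n`, then `St_q` holds modulo `2 ^ n` (with any sign `U`). -/
theorem stMat_deep {q : ℕ} (hq : q.Prime) (hq2 : q ≠ 2) (hgood : W.IsGoodPrimeFor q) (n : ℕ)
    {A : ValuationSubring (AlgebraicClosure ℚ)} (hA : A.LiesOverPrime q)
    {φ : GQ} (hφ : A.IsFrobeniusAt φ q) (u : (M2 (ZMod (2 ^ n)))ˣ)
    (hu : (u : M2 (ZMod (2 ^ n))) * (r φ).map (PadicInt.toZModPow (p := 2) n) =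
      (r complexConjugation).map (PadicInt.toZModPow (p := 2) n) * u)
    {U : ZMod (2 ^ n)} (hU : U * U = 1)
    {A' : ValuationSubring (AlgebraicClosure ℚ)} (hA' : A'.LiesOverPrime q) :
    StMat q A' (fun g => (r g).map (PadicInt.toZModPow (p := 2) n)) U := by
  obtain ⟨L, hL, hL1⟩ := mat_level hr n
  obtain ⟨hc1, hc2, -⟩ := mat_cc hr
  let π : M2 ℤ_[2] →+* M2 (ZMod (2 ^ n)) := (PadicInt.toZModPow (p := 2) n).mapMatrix
  let r' : GQ →* M2 (ZMod (2 ^ n)) := (π : M2 ℤ_[2] →* M2 (ZMod (2 ^ n))).comp r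
  have hu' : r' φ = ((u⁻¹ : (M2 (ZMod (2 ^ n)))ˣ) : M2 (ZMod (2 ^ n))) *
      π (r complexConjugation) * u := by
    rw [mul_assoc]
    change r' φ = ((u⁻¹ : (M2 (ZMod (2 ^ n)))ˣ) : M2 (ZMod (2 ^ n))) *
      ((r complexConjugation).map (PadicInt.toZModPow (p := 2) n) * u)
    rw [← hu, ← mul_assoc, Units.inv_mul, one_mul]
    rfl
  have hcc : π (r complexConjugation) * π (r complexConjugation) = 1 := by
    rw [← map_mul, hc1, map_one]
  have hdc : (π (r complexConjugation)).det = -1 := by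
    have h1 : (π (r complexConjugation)).det =
        PadicInt.toZModPow (p := 2) n (r complexConjugation).det := (RingHom.map_det _ _).symm
    rw [h1, hc2, map_neg, map_one]
  have h2 : r' φ * r' φ = 1 := by
    rw [hu']
    calc _ = ((u⁻¹ : (M2 (ZMod (2 ^ n)))ˣ) : M2 (ZMod (2 ^ n))) * (π (r complexConjugation) *
          ((u : M2 (ZMod (2 ^ n))) * ((u⁻¹ : (M2 (ZMod (2 ^ n)))ˣ) : M2 (ZMod (2 ^ n)))) *
          π (r complexConjugation)) * u := by simp only [mul_assoc]
      _ = 1 := by rw [Units.mul_inv, mul_one, hcc, mul_one, Units.inv_mul]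
  have hdet : (r' φ).det = -1 := by
    rw [hu', Matrix.det_mul, Matrix.det_mul, mul_comm, ← mul_assoc, ← Matrix.det_mul,
      Units.mul_inv, Matrix.det_one, one_mul, hdc]
  have key : StMat q A r' U :=
    stMat_of_frob (r := r') hq hA L (fun σ hσ => hL1 σ hσ) (fun τ hτ => by
      change π (r τ) = 1
      rw [mat_inertia hr hq hq2 hgood hA hτ, map_one]) hφ h2 hdet hU
  exact key.place hq hA hA'

end Fermat.Agent.LTF.WLoc
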