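import Fermat.Agent.LTF.TwoDivLoc
import Fermat.Agent.LTF.Defs
import Fermat.Prelude.Def_GaloisRep_ComplexConjugation

/-!
# The residual data of a good curve
-/

set_option autoImplicit false

noncomputable section

open WeierstrassCurve WeierstrassCurve.Affine WeierstrassCurve.Affine.Point
open FermatAgent.ECVal Fermat.Agent.ECRed
open scoped WeierstrassCurve.Affine

namespace Fermat.Agent.LTF.TwoDiv

open Fermat.Agent.S53norm (GQ M2 HasMat)

variable {W : WeierstrassCurve ℤ} {rbar : GQ →* M2 (ZMod 2)} {x : (Fin 2 → ZMod 2) → Qb}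

/-- **(b3)** negative discriminant: complex conjugation acts as an involution `≠ 1`. -/
theorem Roots.conj (h : Roots W rbar x) (hneg : W.Δ < 0) :
    rbar complexConjugation * rbar complexConjugation = 1 ∧ rbar complexConjugation ≠ 1 := by
  rcases h.act_rootΔ complexConjugation with ⟨-, h1⟩ | ⟨-, h1, h2, -⟩
  · exfalso
    have h3 := complexEmbedding_complexConjugation (rootΔ x)
    rw [h1] at h3
    obtain ⟨r, hr⟩ := Complex.conj_eq_iff_real.mp h3.symm
    have h4 : complexEmbedding (rootΔ x) ^ 2 = ((W.Δ : ℤ) : ℂ) := by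
      rw [← map_pow, h.sq_rootΔ, map_intCast]
    rw [hr] at h4
    have h5 : r ^ 2 = ((W.Δ : ℤ) : ℝ) := by exact_mod_cast h4
    have h6 : ((W.Δ : ℤ) : ℝ) < 0 := by exact_mod_cast hneg
    nlinarith [sq_nonneg r]
  · exact ⟨h1, h2⟩

theorem exists_mulVec_ne (h : TwoMat W rbar) (hirr : W.ModRepIsIrreducible 2)
    (w : Fin 2 → ZMod 2) (hw : w ≠ 0) : ∃ σ, (rbar σ).mulVec w ≠ w := by
  by_contra hcon
  push Not at hcon
  obtain ⟨e, he⟩ := h
  have hst : Affine.Point.IsGaloisStable (W' := W.map (Int.castRingHom ℚ))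
      (K := AlgebraicClosure ℚ) ℚ (Submodule.span (ZMod 2) {e.symm w}) := by
    intro σ y hy
    obtain ⟨c, rfl⟩ := Submodule.mem_span_singleton.mp hy
    have h1 : galoisRepModuleEnd (K := Qb) ℚ (W.map (Int.castRingHom ℚ)) 2 σ (e.symm w) =
        e.symm w := by
      apply e.injective
      rw [he, LinearEquiv.apply_symm_apply, hcon]
    have h2 : galoisRepModuleEnd (K := Qb) ℚ (W.map (Int.castRingHom ℚ)) 2 σ (c • e.symm w) =
        c • e.symm w := by
      rw [map_smul, h1]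
    change galoisRepModuleEnd (K := Qb) ℚ (W.map (Int.castRingHom ℚ)) 2 σ (c • e.symm w) ∈ _
    rw [h2]
    exact hy
  rcases hirr.2 _ hst with h1 | h1
  · rw [Submodule.span_singleton_eq_bot] at h1
    rw [LinearEquiv.map_eq_zero_iff] at h1
    exact hw h1
  · have key : ∀ w : Fin 2 → ZMod 2, w ≠ 0 → ∃ u : Fin 2 → ZMod 2, ∀ c : ZMod 2, c • w ≠ u := by
      decide
    obtain ⟨u, hu⟩ := key w hw
    have h2 : e.symm u ∈ Submodule.span (ZMod 2) {e.symm w} := by rw [h1]; trivial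
    obtain ⟨c, hc⟩ := Submodule.mem_span_singleton.mp h2
    apply hu c
    have h3 := congrArg e hc
    rwa [map_smul, LinearEquiv.apply_symm_apply, LinearEquiv.apply_symm_apply] at h3

/-- **(b4)** the image is `GL₂(𝔽₂)` as soon as `W[2]` is irreducible and some `rbar σ` is an
involution. -/
theorem surj_of_involution (h : TwoMat W rbar) (hirr : W.ModRepIsIrreducible 2) (c : GQ)
    (hc : rbar c * rbar c = 1 ∧ rbar c ≠ 1) (g : M2 (ZMod 2)) (hg : g.det = 1) :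
    ∃ σ, rbar σ = g := by
  obtain ⟨w, hw, hw1, hw2⟩ := exists_axis (rbar c) hc
  obtain ⟨τ, hτ⟩ := exists_mulVec_ne h hirr w hw
  rcases gen_cases (rbar c) hc (rbar τ) (det_eq_one rbar τ) (by
    intro w' hw' hcw'
    rw [hw2 w' hw' hcw']
    exact hτ) g hg with h1 | h1 | h1 | h1 | h1 | h1 | h1
  · exact ⟨1, by rw [h1, map_one]⟩
  · exact ⟨c, h1.symm⟩
  · exact ⟨τ, h1.symm⟩
  · exact ⟨c * τ, by rw [h1, map_mul]⟩
  · exact ⟨τ * c, by rw [h1, map_mul]⟩
  · exact ⟨τ * τ, by rw [h1, map_mul]⟩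
  · exact ⟨c * τ * c, by rw [h1, map_mul, map_mul]⟩

/-- **(b4)** if `W[2]` is irreducible and `Δ` is not a rational square then the image is
`GL₂(𝔽₂)`. -/
theorem surj_of_not_isSquare (h : TwoMat W rbar) (hirr : W.ModRepIsIrreducible 2)
    (hsq : ¬ IsSquare (W.Δ : ℤ)) (g : M2 (ZMod 2)) (hg : g.det = 1) : ∃ σ, rbar σ = g := by
  obtain ⟨x, hx⟩ := exists_roots h
  by_cases hall : ∀ σ : GQ, σ (rootΔ x) = rootΔ x
  · exfalso
    have : Algebra.IsAlgebraic ℚ (AlgebraicClosure ℚ) := AlgebraicClosure.isAlgebraic ℚ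
    have : IsAlgClosure ℚ (AlgebraicClosure ℚ) := ⟨AlgebraicClosure.isAlgClosed ℚ, this⟩
    have : IsGalois ℚ (AlgebraicClosure ℚ) := IsAlgClosure.isGalois ℚ _
    have h1 := (InfiniteGalois.mem_bot_iff_fixed (k := ℚ) (K := AlgebraicClosure ℚ)
      (rootΔ x)).mpr hall
    rw [IntermediateField.mem_bot] at h1
    obtain ⟨q, hq⟩ := h1
    have h2 : q ^ 2 = ((W.Δ : ℤ) : ℚ) := by
      have h3 := hx.sq_rootΔ
      rw [← hq, ← map_pow] at h3
      have h4 : algebraMap ℚ (AlgebraicClosure ℚ) (q ^ 2) =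
          algebraMap ℚ (AlgebraicClosure ℚ) ((W.Δ : ℤ) : ℚ) := by
        rw [h3, map_intCast]
      exact (algebraMap ℚ (AlgebraicClosure ℚ)).injective h4
    apply hsq
    have h5 : IsSquare ((W.Δ : ℤ) : ℚ) := ⟨q, by rw [← h2, sq]⟩
    exact Rat.isSquare_intCast_iff.mp h5
  · push Not at hall
    obtain ⟨c, hc⟩ := hall
    rcases hx.act_rootΔ c with ⟨-, h1⟩ | ⟨-, h1, h2, -⟩
    · exact absurd h1 hc
    · exact surj_of_involution h hirr c ⟨h1, h2⟩ g hg

/-- **(b5)** -/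
theorem exists_sq_mul_radical (n : ℕ) (hn : n ≠ 0)
    (hodd : ∀ r : ℕ, r.Prime → r ∣ n → Odd (n.factorization r)) :
    ∃ m : ℕ, m ≠ 0 ∧ n = UniqueFactorizationMonoid.radical n * m ^ 2 := by
  refine ⟨∏ p ∈ n.primeFactors, p ^ ((n.factorization p - 1) / 2), ?_, ?_⟩
  · rw [Finset.prod_ne_zero_iff]
    intro p hp
    exact pow_ne_zero _ (Nat.prime_of_mem_primeFactors hp).ne_zero
  · rw [Nat.radical_eq_prod_primeFactors, ← Finset.prod_pow, ← Finset.prod_mul_distrib]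
    conv_lhs => rw [← Nat.prod_factorization_pow_eq_self hn]
    rw [Finsupp.prod, Nat.support_factorization]
    refine Finset.prod_congr rfl fun p hp => ?_
    obtain ⟨k, hk⟩ := hodd p (Nat.prime_of_mem_primeFactors hp) (Nat.dvd_of_mem_primeFactors hp)
    rw [hk, show (2 * k + 1 - 1) / 2 = k by omega, ← pow_mul, ← pow_succ']
    congr 1
    ring

theorem GoodCurve.Δ_eq (hW : GoodCurve W) :
    ∃ m : ℕ, m ≠ 0 ∧ W.Δ = -((W.conductorLevel : ℤ) * (m : ℤ) ^ 2) := by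
  have hne : W.Δ ≠ 0 := hW.neg.ne
  obtain ⟨m, hm0, hm⟩ := exists_sq_mul_radical W.Δ.natAbs (Int.natAbs_ne_zero.mpr hne) (by
    intro r hr hrd
    exact hW.odd r hr (Int.natCast_dvd.mpr hrd))
  refine ⟨m, hm0, ?_⟩
  have h1 : (W.Δ.natAbs : ℤ) = (W.conductorLevel : ℤ) * (m : ℤ) ^ 2 := by
    rw [conductorLevel]
    exact_mod_cast hm
  have h2 : (W.Δ.natAbs : ℤ) = -W.Δ := by
    rw [Int.natCast_natAbs]; exact abs_of_neg hW.neg
  linarith

theorem TwoMat.cont (h : TwoMat W rbar) (hΔ : W.Δ ≠ 0) :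
    ∃ L : IntermediateField ℚ Qb, FiniteDimensional ℚ L ∧
      ∀ σ : GQ, (∀ x ∈ L, σ x = x) → rbar σ = 1 := by
  obtain ⟨L, hL, h1⟩ := Fermat.Agent.Torsion.galoisRep_factors (Tate.map_Δ_ne_zero hΔ)
    (n := 2) two_ne_zero
  refine ⟨L, hL, fun σ hσ => ?_⟩
  obtain ⟨e, he⟩ := h
  have h2 := h1 σ hσ
  apply Matrix.mulVec_injective
  funext v
  rw [Matrix.one_mulVec]
  have h3 := he σ (e.symm v)
  have h4 : (galoisRepModuleEnd (K := Qb) ℚ (W.map (Int.castRingHom ℚ)) 2 : GQ → _) σ = 1 := h2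
  rw [h4, Module.End.one_apply, LinearEquiv.apply_symm_apply] at h3
  exact h3.symm

theorem TwoMat.unramified (h : TwoMat W rbar) {ℓ : ℕ} (hℓ : ℓ.Prime) (hℓ2 : ℓ ≠ 2)
    (hgood : ¬ (ℓ : ℤ) ∣ W.Δ) {B : ValuationSubring Qb} (hB : B.LiesOverPrime ℓ) {σ : GQ}
    (hσ : σ ∈ B.inertiaSubgroupIn ℚ) : rbar σ = 1 := by
  classical
  obtain ⟨e, he⟩ := h
  apply Matrix.mulVec_injective
  funext v
  rw [Matrix.one_mulVec]
  have h3 := he σ (e.symm v)
  rw [LinearEquiv.apply_symm_apply] at h3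
  rw [← h3]
  have hΔ' : (Ek W B).Δ ≠ 0 := by
    have h1 : ¬ B.valuation ((W.Δ : ℤ) : AlgebraicClosure ℚ) < 1 := by
      rw [val_intCast_eq_one B.valuation hℓ (lt_one_of_liesOver hB) hgood]
      exact lt_irrefl _
    intro h0
    apply h1
    have h2 := (redEk W B).Δ
    rw [h0, EQ_Δ] at h2
    exact (isPlace_valuationSubring B).lt_one h2
  have hv2 : B.valuation ((2 : ℕ) : AlgebraicClosure ℚ) = 1 := by
    have := Tate.val_prime_eq_one (p := 2) Nat.prime_two hℓ hℓ2 hB 1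
    rwa [pow_one] at this
  have h4 : σ • ((e.symm v : Submodule.torsionBy ℤ (EQ W).Point ((2 : ℕ) : ℤ)) : (EQ W).Point) =
      (e.symm v : Submodule.torsionBy ℤ (EQ W).Point ((2 : ℕ) : ℤ)) :=
    smul_eq_of_torsion_of_good (W' := W.map (Int.castRingHom ℚ)) hσ hv2 (redEk W B) hΔ'
      (Tate.mem_torsionBy_nat.mp (e.symm v).2)
  have h5 : galoisRepModuleEnd (K := Qb) ℚ (W.map (Int.castRingHom ℚ)) 2 σ (e.symm v) =
      e.symm v := Subtype.ext h4
  change e (galoisRepModuleEnd (K := Qb) ℚ (W.map (Int.castRingHom ℚ)) 2 σ (e.symm v)) = v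
  rw [h5, LinearEquiv.apply_symm_apply]

/-- **The residual data of a good curve.** -/
theorem resData_of_goodCurve (hW : GoodCurve W) (h : TwoMat W rbar) :
    ResData rbar W.conductorLevel := by
  obtain ⟨x, hx⟩ := exists_roots h
  have hne : W.Δ ≠ 0 := hW.neg.ne
  have hdvd : ∀ {q : ℕ}, q.Prime → (q ∣ W.conductorLevel ↔ (q : ℤ) ∣ W.Δ) :=
    fun hq => W.prime_dvd_conductorLevel_iff hne hq
  have hmult : ∀ {r : ℕ}, r.Prime → r ∣ W.conductorLevel → IsMultAt W r := fun hr hrN =>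
    ⟨hr, (hdvd hr).mp hrN, hW.ss _ hr ((hdvd hr).mp hrN), hne⟩
  refine ⟨?_, W.squarefree_conductorLevel, ?_, ?_, h.cont hne, ?_, ?_, ?_⟩
  · exact (hdvd Nat.prime_two).mpr hW.two
  · obtain ⟨r, hr, hrd, hr12⟩ := hW.eleven
    exact ⟨r, hr, (hdvd hr).mpr hrd, hr12⟩
  · intro g hg
    exact surj_of_involution h hW.irr _ (hx.conj hW.neg) g hg
  · intro σ s hs
    obtain ⟨m, hm0, hm⟩ := GoodCurve.Δ_eq hW
    have hm0' : (m : Qb) ≠ 0 := by exact_mod_cast hm0
    rw [← hx.fix_iff (s := (m : Qb) * s) (by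
      rw [mul_pow, hs, hm]
      push_cast
      ring) σ, map_mul, map_natCast]
    exact ⟨fun e => by rw [e], fun e => mul_left_cancel₀ hm0' e⟩
  · intro ℓ hℓ hℓN B hB σ hσ
    refine h.unramified hℓ ?_ (fun hd => hℓN ((hdvd hℓ).mpr hd)) hB hσ
    rintro rfl
    exact hℓN ((hdvd Nat.prime_two).mpr hW.two)
  · intro r hr hrN B hB
    obtain ⟨v, hv, hfix⟩ := hx.exists_fixed hr hB (hmult hr hrN)
    refine ⟨fun σ hσ => ?_, fun σ hσ τ hτ => ?_, ?_⟩
    · exact fix_cases v hv _ (det_eq_one rbar σ) (hfix σ hσ)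
    · exact fix_unique v hv _ _ (det_eq_one rbar σ) (det_eq_one rbar τ) (hfix σ hσ) (hfix τ hτ)
    · exact hx.exists_inertia hr hB hne (hW.odd r hr ((hdvd hr).mp hrN))

end Fermat.Agent.LTF.TwoDiv
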