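import Fermat.Agent.LTF.TwoDiv

/-!
# Matrix forms of `T_p E` and of `E[p^n]`
-/

set_option autoImplicit false

noncomputable section

open WeierstrassCurve WeierstrassCurve.Affine WeierstrassCurve.Affine.Point
open Fermat.Agent.ECRed Fermat.Agent.Tate
open scoped WeierstrassCurve.Affine

namespace Fermat.Agent.LTF.TwoDiv

open Fermat.Agent.S53norm (GQ M2 HasMat)

section general

variable {p : ℕ} [hp : Fact p.Prime] {A : Type} [AddCommGroup A]

/-- coordinates at level `n` -/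
lemma exists_level_coord (hT : HasTwoRank p A) (n : ℕ)
    [Module (ZMod (p ^ n)) (Submodule.torsionBy ℤ A ((p ^ n : ℕ) : ℤ))]
    (e : TMod p A ≃ₗ[ℤ_[p]] (Fin 2 → ℤ_[p])) :
    ∃ e' : Submodule.torsionBy ℤ A ((p ^ n : ℕ) : ℤ) ≃ₗ[ZMod (p ^ n)] (Fin 2 → ZMod (p ^ n)),
      ∀ v : TMod p A, e' (proj n v) = fun i => PadicInt.toZModPow n (e v i) := by
  have hne : NeZero (p ^ n) := ⟨(pow_pos hp.out.pos n).ne'⟩
  -- kernels
  have hker : ∀ v : TMod p A, proj n v = 0 →
      (fun i => PadicInt.toZModPow n (e v i)) = (0 : Fin 2 → ZMod (p ^ n)) := by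
    intro v hv
    obtain ⟨g, rfl⟩ := (proj_eq_zero_iff n v).mp hv
    funext i
    rw [map_smul, Pi.smul_apply, smul_eq_mul, map_mul, map_pow, map_natCast, ← Nat.cast_pow,
      ZMod.natCast_self, zero_mul]
    rfl
  have hker' : ∀ v : TMod p A,
      (fun i => PadicInt.toZModPow n (e v i)) = (0 : Fin 2 → ZMod (p ^ n)) → proj n v = 0 := by
    intro v hv
    have h1 : ∀ i, ∃ c : ℤ_[p], e v i = (p : ℤ_[p]) ^ n * c := by
      intro i
      have h2 := congrFun hv i
      have h3 : e v i ∈ RingHom.ker (PadicInt.toZModPow (p := p) n) := h2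
      rw [PadicInt.ker_toZModPow, Ideal.mem_span_singleton] at h3
      exact h3
    choose c hc using h1
    refine (proj_eq_zero_iff n v).mpr ⟨e.symm c, ?_⟩
    apply e.injective
    rw [map_smul, LinearEquiv.apply_symm_apply]
    funext i
    rw [hc i]; rfl
  choose s hs using proj_surjective (p := p) hT n
  let f : Submodule.torsionBy ℤ A ((p ^ n : ℕ) : ℤ)
      → (Fin 2 → ZMod (p ^ n)) := fun y i => PadicInt.toZModPow n (e (s y) i)
  have hf : ∀ v : TMod p A, f (proj n v) = fun i => PadicInt.toZModPow n (e v i) := by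
    intro v
    have h1 : proj n (s (proj n v) - v) = 0 := by rw [map_sub, hs, sub_self]
    have h2 := hker _ h1
    funext i
    have h3 := congrFun h2 i
    simp only [map_sub, Pi.sub_apply, Pi.zero_apply] at h3
    rw [sub_eq_zero] at h3
    exact h3
  let F : Submodule.torsionBy ℤ A ((p ^ n : ℕ) : ℤ) →ₗ[ZMod (p ^ n)] (Fin 2 → ZMod (p ^ n)) :=
    { toFun := f
      map_add' := by
        intro y z
        rw [← hs y, ← hs z, ← map_add, hf, hf, hf]
        funext i
        rw [Pi.add_apply, ← map_add, map_add e, Pi.add_apply]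
      map_smul' := by
        intro c y
        obtain ⟨a, rfl⟩ : ∃ a : ℤ_[p], PadicInt.toZModPow n a = c :=
          ⟨((c.val : ℕ) : ℤ_[p]), by rw [map_natCast, ZMod.natCast_zmod_val]⟩
        rw [← hs y, ← proj_smul, hf, hf, RingHom.id_apply]
        funext i
        rw [Pi.smul_apply, smul_eq_mul, ← map_mul, map_smul e, Pi.smul_apply, smul_eq_mul] }
  have hbij : Function.Bijective F := by
    constructor
    · rw [injective_iff_map_eq_zero]
      intro y hy
      rw [← hs y] at hy ⊢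
      exact hker' _ ((hf (s y)).symm.trans hy)
    · intro c
      have h1 : ∀ i, ∃ a : ℤ_[p], PadicInt.toZModPow n a = c i := fun i =>
        ⟨(((c i).val : ℕ) : ℤ_[p]), by rw [map_natCast, ZMod.natCast_zmod_val]⟩
      choose a ha using h1
      refine ⟨proj n (e.symm a), ?_⟩
      refine (hf _).trans ?_
      funext i
      rw [← ha i, LinearEquiv.apply_symm_apply]
  exact ⟨LinearEquiv.ofBijective F hbij, fun v => hf v⟩

/-- a matrix form of an action on `T_p A` gives a matrix form of the action on `A[p^n]`. -/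
theorem hasMat_level_aux (hT : HasTwoRank p A) (n : ℕ)
    [Module (ZMod (p ^ n)) (Submodule.torsionBy ℤ A ((p ^ n : ℕ) : ℤ))]
    {G : Type} {φ : G → Module.End ℤ_[p] (TMod p A)}
    {ψ : G → Module.End (ZMod (p ^ n)) (Submodule.torsionBy ℤ A ((p ^ n : ℕ) : ℤ))}
    (hφψ : ∀ σ x, proj n (φ σ x) = ψ σ (proj n x))
    {r : G → M2 ℤ_[p]} (h : HasMat φ r) :
    HasMat ψ (fun σ => (r σ).map (PadicInt.toZModPow n)) := by
  obtain ⟨e, he⟩ := h
  obtain ⟨e', he'⟩ := exists_level_coord hT n e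
  refine ⟨e', fun σ v => ?_⟩
  obtain ⟨w, rfl⟩ := proj_surjective (p := p) hT n v
  rw [← hφψ, he', he']
  funext i
  have h2 := congrFun (he σ w) i
  rw [h2]
  simp only [Matrix.mulVec, dotProduct, Matrix.map_apply, map_sum, map_mul]

end general

section curve

variable {W : WeierstrassCurve ℚ} (hΔ : W.Δ ≠ 0) (p : ℕ) [hp : Fact p.Prime]

/-- a matrix form of `T_p E` gives a matrix form of `E[p^n]`. -/
theorem hasMat_level (n : ℕ) {r : GQ → M2 ℤ_[p]} (h : HasMat ((tateRep W hΔ p).ρ : GQ → _) r) :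
    HasMat (galoisRepModuleEnd (K := AlgebraicClosure ℚ) ℚ W (p ^ n) : GQ → _)
      (fun σ => (r σ).map (PadicInt.toZModPow n)) :=
  hasMat_level_aux (hasTwoRank_curve hΔ p) n (fun σ x => proj_tateRep hΔ p σ x n) h

end curve

/-- reduction of a matrix form of `T_2 E` modulo `2`. -/
def redTwo (r : GQ →* M2 ℤ_[2]) : GQ →* M2 (ZMod 2) :=
  ((PadicInt.toZModPow (p := 2) 1 : ℤ_[2] →+* ZMod 2).mapMatrix :
    M2 ℤ_[2] →+* M2 (ZMod 2)).toMonoidHom.comp r

/-- reduction modulo `2` of a matrix form of `T_2 E` is a matrix form of `E[2]`. -/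
theorem twoMat_of_tate {W : WeierstrassCurve ℤ} (hΔ : (W.map (Int.castRingHom ℚ)).Δ ≠ 0)
    {r : GQ →* M2 ℤ_[2]}
    (h : HasMat ((tateRep (W.map (Int.castRingHom ℚ)) hΔ 2).ρ : GQ → _) (r : GQ → _)) :
    TwoMat W (redTwo r) :=
  hasMat_level hΔ 2 1 h

/-- existence of matrix forms of `T_p E`. -/
theorem exists_tateMat {W : WeierstrassCurve ℚ} (hΔ : W.Δ ≠ 0) (p : ℕ) [hp : Fact p.Prime] :
    ∃ r : GQ →* M2 ℤ_[p], HasMat ((tateRep W hΔ p).ρ : GQ → _) (r : GQ → _) := by
  obtain ⟨r, hr⟩ := Fermat.Agent.S53norm.exists_hasMat_adic (tateRep W hΔ p)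
  exact ⟨{ toFun := r, map_one' := hr.map_one, map_mul' := hr.map_mul }, hr⟩

/-- existence of matrix forms of `E[2]`. -/
theorem exists_twoMat {W : WeierstrassCurve ℤ} (hΔ : W.Δ ≠ 0) :
    ∃ rbar : GQ →* M2 (ZMod 2), TwoMat W rbar := by
  obtain ⟨r, hr⟩ := exists_tateMat (Tate.map_Δ_ne_zero hΔ) 2
  exact ⟨redTwo r, twoMat_of_tate (Tate.map_Δ_ne_zero hΔ) hr⟩

end Fermat.Agent.LTF.TwoDiv
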