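import Mathlib

set_option autoImplicit false
set_option linter.unusedSectionVars false

/-!
# From Frobenius characteristic polynomials to the Steinberg relation: pure algebra
-/

namespace Fermat.Agent.LTF

open Polynomial

section Alg

variable {O V : Type*} [CommRing O] [IsDomain O] [CharZero O] [AddCommGroup V] [Module O V]
  [Module.Free O V] [Module.Finite O V]

lemma charpoly_two (hV : Module.finrank O V = 2) (f : Module.End O V) :
    f.charpoly = X ^ 2 - C (LinearMap.trace O V f) * X + C (LinearMap.det f) := by
  classical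
  set b : Module.Basis (Fin 2) O V := Module.finBasisOfFinrankEq O V hV with hb
  rw [← LinearMap.charpoly_toMatrix f b, LinearMap.trace_eq_matrix_trace O b,
    ← LinearMap.det_toMatrix b, Matrix.charpoly_fin_two]

lemma trace_det_of_charpoly (hV : Module.finrank O V = 2) {f : Module.End O V} {t d : O}
    (h : f.charpoly = X ^ 2 - C t * X + C d) :
    LinearMap.trace O V f = t ∧ LinearMap.det f = d := by
  rw [charpoly_two hV] at h
  have h0 := congrArg (fun P : O[X] => P.coeff 0) h
  have h1 := congrArg (fun P : O[X] => P.coeff 1) h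
  simp [coeff_X, coeff_C] at h0 h1
  exact ⟨h1, h0⟩

lemma trace_one_two (hV : Module.finrank O V = 2) : LinearMap.trace O V 1 = 2 := by
  rw [LinearMap.trace_one, hV]
  norm_num

lemma eq_zero_of_smul_mul {c : O} (hc : c ≠ 0) {F : Module.End O V}
    (h : c • F = 0) : F = 0 := by
  refine LinearMap.ext fun v => ?_
  have h1 := congrArg (fun f : Module.End O V => f v) h
  simp only [LinearMap.smul_apply, LinearMap.zero_apply] at h1
  exact (smul_eq_zero.mp h1).resolve_left hc

/-- Two Frobenius elements differing by inertia satisfy the Steinberg relation. -/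
theorem frob_pair (hV : Module.finrank O V = 2) {q : O} (hq : q + 1 ≠ 0)
    {F S F' : Module.End O V} {ε ε' : O} (hε : ε * ε = 1)
    (hF : F.charpoly = X ^ 2 - C (ε * (q + 1)) * X + C q)
    (hF' : F'.charpoly = X ^ 2 - C (ε' * (q + 1)) * X + C q)
    (hFS : F' = F * S) (hS : LinearMap.trace O V S = 2)
    (hrel : (F * F - algebraMap O (Module.End O V) (q ^ 2)) * (S - 1) = 0) :
    ε' = ε ∧ (F - algebraMap O (Module.End O V) (q * ε)) *
      (F' - algebraMap O (Module.End O V) ε) = 0 := by
  obtain ⟨ht, hd⟩ := trace_det_of_charpoly hV hF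
  obtain ⟨ht', hd'⟩ := trace_det_of_charpoly hV hF'
  have hCH := LinearMap.aeval_self_charpoly F
  rw [hF] at hCH
  simp only [map_add, map_sub, map_mul, aeval_X, aeval_C, map_pow, map_one] at hCH
  set a : O →+* Module.End O V := algebraMap O (Module.End O V) with ha
  have hcomm : ∀ (x : O) (G : Module.End O V), a x * G = G * a x := fun x G =>
    Algebra.commutes x G
  -- the relation on inertia
  have h1 : (F - a (q * ε)) * (S - 1) = 0 := by
    have e1 : (q + 1) • (((ε • F) - a q) * (S - 1)) = 0 := by
      have e2 : F * F = (ε * (q + 1)) • F - a q := by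
        have : F * F = F ^ 2 := (pow_two F).symm
        rw [this, Algebra.smul_def, ← sub_eq_zero, ← hCH, map_mul, map_add, map_one]
        abel
      rw [e2] at hrel
      rw [← smul_mul_assoc]
      have e3 : (q + 1) • (ε • F - a q) = (ε * (q + 1)) • F - a q - a (q ^ 2) := by
        rw [smul_sub, smul_smul, mul_comm (q + 1) ε, sub_sub, ← map_add, Algebra.smul_def (q + 1) (a q),
          ← ha, ← map_mul]
        congr 2
        ring
      rw [e3]
      exact hrel
    have e4 := eq_zero_of_smul_mul hq e1
    have e5 : F - a (q * ε) = ε • (ε • F - a q) := by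
      rw [smul_sub, smul_smul, hε, one_smul, Algebra.smul_def ε (a q), ← ha, ← map_mul,
        mul_comm ε q]
    rw [e5, smul_mul_assoc, e4, smul_zero]
  -- the trace
  have h2 : F' = F + F * (S - 1) := by rw [hFS]; noncomm_ring
  have h3 : F * (S - 1) = (q * ε) • (S - 1) := by
    rw [Algebra.smul_def, ← ha, ← sub_eq_zero, ← sub_mul]
    exact h1
  have h4 : LinearMap.trace O V (S - 1) = 0 := by
    rw [map_sub, hS, trace_one_two hV, sub_self]
  have h5 : ε' * (q + 1) = ε * (q + 1) := by
    rw [← ht', ← ht, h2, map_add, h3, map_smul, h4, smul_zero, add_zero]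
  have h6 : ε' = ε := mul_right_cancel₀ hq h5
  refine ⟨h6, ?_⟩
  have h7 : (F - a (q * ε)) * (F - a ε) = 0 := by
    have : (F - a (q * ε)) * (F - a ε) = F ^ 2 - a ε * (a q + 1) * F + a q := by
      have e1 : a (q * ε) * a ε = a q := by rw [← map_mul, mul_assoc, hε, mul_one]
      calc (F - a (q * ε)) * (F - a ε) = F * F - F * a ε - a (q * ε) * F + a (q * ε) * a ε := by
            noncomm_ring
        _ = F ^ 2 - a ε * (a q + 1) * F + a q := by
            rw [e1, ← hcomm ε F, pow_two, map_mul, mul_add, mul_one, add_mul, ← map_mul, ← map_mul,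
              mul_comm q ε]
            abel
    rw [this, ← hCH]
  have h8 : (F - a (q * ε)) * (F * (S - 1)) = 0 := by
    have : (F - a (q * ε)) * F = F * (F - a (q * ε)) := by
      rw [sub_mul, mul_sub, hcomm]
    rw [← mul_assoc, this, mul_assoc, h1, mul_zero]
  rw [h2, add_sub_right_comm, mul_add, h7, h8, add_zero]

end Alg

end Fermat.Agent.LTF
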