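import Mathlib
import Fermat.Agent.FlatP.Tame
import Fermat.Agent.LocE.K0

set_option autoImplicit false

/-!
# The unramified degree modulo two
-/

namespace Fermat.Agent.LTF

open IsLocalRing FermatAgent.ECVal Fermat.Agent.FlatP Fermat.Agent.FlatGS

/-- The unramified degree modulo two of an element of a decomposition group at `q`. -/
noncomputable def unrDeg (q : ℕ) (σ : AlgebraicClosure ℚ ≃ₐ[ℚ] AlgebraicClosure ℚ) : ℕ :=
  open Classical in if ∀ x : AlgebraicClosure ℚ, x ^ (q ^ 2 - 1) = 1 → σ x = x then 0 else 1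

variable {q : ℕ} {σ τ : AlgebraicClosure ℚ ≃ₐ[ℚ] AlgebraicClosure ℚ}

lemma unrDeg_eq_zero_iff :
    unrDeg q σ = 0 ↔ ∀ x : AlgebraicClosure ℚ, x ^ (q ^ 2 - 1) = 1 → σ x = x := by
  constructor
  · intro h0
    by_contra h
    unfold unrDeg at h0
    rw [if_neg h] at h0
    exact one_ne_zero h0
  · intro h
    unfold unrDeg
    rw [if_pos h]

lemma unrDeg_eq_zero_or_one (q : ℕ) (σ : AlgebraicClosure ℚ ≃ₐ[ℚ] AlgebraicClosure ℚ) :
    unrDeg q σ = 0 ∨ unrDeg q σ = 1 := by
  unfold unrDeg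
  split_ifs with h
  · exact Or.inl rfl
  · exact Or.inr rfl

lemma unrDeg_one (q : ℕ) : unrDeg q 1 = 0 := unrDeg_eq_zero_iff.mpr fun _ _ => rfl

lemma sq_sub_one_pos (hq : q.Prime) : 0 < q ^ 2 - 1 := by
  have := hq.two_le
  have h2 : 2 ^ 2 ≤ q ^ 2 := Nat.pow_le_pow_left this 2
  omega

lemma not_dvd_sq_sub_one (hq : q.Prime) : ¬ q ∣ q ^ 2 - 1 := by
  intro h
  have h0 := sq_sub_one_pos hq
  have h1 : q ∣ q ^ 2 := dvd_pow_self q two_ne_zero
  have h2 : q ∣ q ^ 2 - (q ^ 2 - 1) := Nat.dvd_sub h1 h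
  have h3 : q ^ 2 - (q ^ 2 - 1) = 1 := by omega
  rw [h3] at h2
  exact hq.one_lt.ne' (Nat.dvd_one.mp h2)

/-- The unramified degree vanishes on inertia. -/
theorem unrDeg_inertia (hq : q.Prime) {A : ValuationSubring (AlgebraicClosure ℚ)}
    (hA : A.LiesOverPrime q) (hσ : σ ∈ A.inertiaSubgroupIn ℚ) : unrDeg q σ = 0 :=
  unrDeg_eq_zero_iff.mpr fun _ hx =>
    Fermat.Agent.LocE.isFixed_of_pow_eq_one hq hA (sq_sub_one_pos hq) (not_dvd_sq_sub_one hq) hx
      σ hσ

lemma exists_natCast_of_pow_eq {k : Type*} [Field k] (hq : q.Prime) [CharP k q] {y : k}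
    (hy : y ^ q = y) : ∃ n : ℕ, y = n := by
  classical
  have : Fact q.Prime := ⟨hq⟩
  by_contra hcon
  push Not at hcon
  have hne : (Polynomial.X ^ q - Polynomial.X : Polynomial k) ≠ 0 :=
    FiniteField.X_pow_card_sub_X_ne_zero k hq.one_lt
  let S : Finset k := insert y ((Finset.range q).image (fun n : ℕ => (n : k)))
  have hS : S ⊆ (Polynomial.X ^ q - Polynomial.X : Polynomial k).roots.toFinset := by
    intro z hz
    rw [Multiset.mem_toFinset, Polynomial.mem_roots hne, Polynomial.IsRoot, Polynomial.eval_sub,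
      Polynomial.eval_pow, Polynomial.eval_X, sub_eq_zero]
    rcases Finset.mem_insert.mp hz with rfl | hz
    · exact hy
    · obtain ⟨n, -, rfl⟩ := Finset.mem_image.mp hz
      have h1 : ((n : ZMod q)) ^ q = n := ZMod.pow_card _
      have h2 := congrArg (ZMod.castHom (dvd_refl q) k) h1
      rwa [map_pow, map_natCast] at h2
  have hcard : S.card = q + 1 := by
    rw [Finset.card_insert_of_notMem, Finset.card_image_of_injOn, Finset.card_range]
    · intro a ha b hb hab
      have ha' := Finset.mem_range.mp ha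
      have hb' := Finset.mem_range.mp hb
      have h1 := (CharP.natCast_eq_natCast k q).mp hab
      rwa [Nat.ModEq, Nat.mod_eq_of_lt ha', Nat.mod_eq_of_lt hb'] at h1
    · intro h
      obtain ⟨n, -, hn⟩ := Finset.mem_image.mp h
      exact hcon n hn.symm
  have h1 := (Finset.card_le_card hS).trans (Multiset.toFinset_card_le _)
  have h2 := Polynomial.card_roots' (Polynomial.X ^ q - Polynomial.X : Polynomial k)
  rw [FiniteField.X_pow_card_sub_X_natDegree_eq k hq.one_lt] at h2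
  omega

variable {A : ValuationSubring (AlgebraicClosure ℚ)}

/-- Action of the decomposition group on elements of degree at most two over `𝔽_q`. -/
lemma rs_decomp_cases (hq : q.Prime) (hA : A.LiesOverPrime q)
    (hσ : σ ∈ A.decompositionSubgroup ℚ) {x : AlgebraicClosure ℚ} (hx : x ∈ A)
    (hxq : rs A x ^ (q ^ 2) = rs A x) : rs A (σ x) = rs A x ∨ rs A (σ x) = rs A x ^ q := by
  have : Fact q.Prime := ⟨hq⟩
  have : CharP (ResidueField A) q := charP_residueField hq hA
  rw [rs_decomp hσ hx]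
  set g : A.decompositionSubgroup ℚ := ⟨σ, hσ⟩ with hg
  set a := rs A x with ha
  have h0 : (a ^ q) ^ q = a := by rw [← pow_mul, ← sq]; exact hxq
  obtain ⟨t, ht⟩ := exists_natCast_of_pow_eq hq (y := a + a ^ q) (by
    rw [add_pow_char, h0, add_comm])
  obtain ⟨n, hn⟩ := exists_natCast_of_pow_eq hq (y := a * a ^ q) (by
    rw [mul_pow, h0, mul_comm])
  have hsm : ∀ m : ℕ, g • (m : ResidueField A) = m := fun m =>
    map_natCast (MulSemiringAction.toRingHom _ _ g) m
  have h1 : g • a + (g • a) ^ q = t := by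
    have h := congrArg (g • ·) ht
    simp only [smul_add, hsm] at h
    rw [smul_pow'] at h
    exact h
  have h2 : g • a * (g • a) ^ q = n := by
    have h := congrArg (g • ·) hn
    simp only [hsm] at h
    rw [smul_mul', smul_pow'] at h
    exact h
  have h3 : (g • a - a) * (g • a - a ^ q) = 0 := by
    have e1 : (g • a - a) * (g • a - a ^ q) = (g • a) ^ 2 - (a + a ^ q) * (g • a) + a * a ^ q := by
      ring
    rw [e1, ht, hn, ← h1, ← h2]
    ring
  rcases mul_eq_zero.mp h3 with h | h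
  · exact Or.inl (sub_eq_zero.mp h)
  · exact Or.inr (sub_eq_zero.mp h)

lemma mem_of_pow_eq_one {n : ℕ} (hn : 0 < n) {z : AlgebraicClosure ℚ} (hz : z ^ n = 1) :
    z ∈ A := by
  rw [← ValuationSubring.valuation_le_one_iff]
  by_contra h
  rw [not_le] at h
  have h2 := one_lt_pow₀ h hn.ne'
  rw [← map_pow, hz, map_one] at h2
  exact lt_irrefl _ h2

lemma pow_sq_of_pow_eq_one (hq : q.Prime) {M : Type*} [Monoid M] {z : M}
    (hz : z ^ (q ^ 2 - 1) = 1) : z ^ (q ^ 2) = z := by
  have h1 : q ^ 2 = (q ^ 2 - 1) + 1 := by have := sq_sub_one_pos hq; omega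
  rw [h1, pow_succ, hz, one_mul]

/-- Reduction is injective on roots of unity of order prime to `q`. -/
lemma eq_of_rs_eq (hq : q.Prime) (hA : A.LiesOverPrime q) {n : ℕ} (hn : 0 < n) (hqn : ¬ q ∣ n)
    {z w : AlgebraicClosure ℚ} (hz : z ^ n = 1) (hw : w ^ n = 1) (h : rs A z = rs A w) :
    z = w := by
  have hcp : CharP (ResidueField A) q := charP_residueField hq hA
  have hzA := mem_of_pow_eq_one (A := A) hn hz
  have hwA := mem_of_pow_eq_one (A := A) hn hw
  have hw0 : w ≠ 0 := by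
    rintro rfl
    rw [zero_pow hn.ne'] at hw
    exact zero_ne_one hw
  have hwi : (w⁻¹) ^ n = 1 := by rw [inv_pow, hw, inv_one]
  have hwiA := mem_of_pow_eq_one (A := A) hn hwi
  set ξ := z * w⁻¹ with hξ
  have hξA : ξ ∈ A := A.mul_mem _ _ hzA hwiA
  have hξn : ξ ^ n = 1 := by rw [hξ, mul_pow, hz, hwi, one_mul]
  have hξ1 : rs A ξ = 1 := by
    rw [hξ, rs_mul hzA hwiA, h, ← rs_mul hwA hwiA, mul_inv_cancel₀ hw0, rs_one]
  by_contra hne
  have hξne : ξ ≠ 1 := by
    intro h1
    apply hne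
    rw [hξ] at h1
    exact (mul_inv_eq_one₀ hw0).mp h1
  have hgeom : ∑ i ∈ Finset.range n, ξ ^ i = 0 := by
    have h1 := mul_geom_sum ξ n
    rw [hξn, sub_self] at h1
    exact (mul_eq_zero.mp h1).resolve_left (sub_ne_zero.mpr hξne)
  have h2 := congrArg (rs A) hgeom
  rw [rs_sum _ (fun i _ => A.toSubring.pow_mem hξA i), rs_zero] at h2
  have h3 : ∀ i ∈ Finset.range n, rs A (ξ ^ i) = 1 := by
    intro i _
    rw [rs_pow hξA, hξ1, one_pow]
  rw [Finset.sum_congr rfl h3, Finset.sum_const, Finset.card_range, nsmul_eq_mul, mul_one,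
    CharP.cast_eq_zero_iff (ResidueField A) q] at h2
  exact hqn h2

/-- An element of the decomposition group acts on the roots of unity of order `q² - 1` by `1` or
by `q`. -/
lemma decomp_root_cases (hq : q.Prime) (hA : A.LiesOverPrime q)
    (hσ : σ ∈ A.decompositionSubgroup ℚ) {z : AlgebraicClosure ℚ} (hz : z ^ (q ^ 2 - 1) = 1) :
    σ z = z ∨ σ z = z ^ q := by
  have h0 := sq_sub_one_pos hq
  have hzA := mem_of_pow_eq_one (A := A) h0 hz
  have hσz : (σ z) ^ (q ^ 2 - 1) = 1 := by rw [← map_pow, hz, map_one]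
  have hzq : (z ^ q) ^ (q ^ 2 - 1) = 1 := by rw [← pow_mul, mul_comm, pow_mul, hz, one_pow]
  have hr : rs A z ^ (q ^ 2) = rs A z := by
    rw [← rs_pow hzA, pow_sq_of_pow_eq_one hq hz]
  rcases rs_decomp_cases hq hA hσ hzA hr with h | h
  · exact Or.inl (eq_of_rs_eq hq hA h0 (not_dvd_sq_sub_one hq) hσz hz h)
  · rw [← rs_pow hzA] at h
    exact Or.inr (eq_of_rs_eq hq hA h0 (not_dvd_sq_sub_one hq) hσz hzq h)

lemma exists_primitive_sq (hq : q.Prime) :
    ∃ ζ : AlgebraicClosure ℚ, IsPrimitiveRoot ζ (q ^ 2 - 1) := by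
  have : NeZero ((q ^ 2 - 1 : ℕ) : AlgebraicClosure ℚ) :=
    ⟨by exact_mod_cast (sq_sub_one_pos hq).ne'⟩
  exact HasEnoughRootsOfUnity.exists_primitiveRoot (AlgebraicClosure ℚ) (q ^ 2 - 1)

/-- If the unramified degree is one then the roots of unity are raised to the `q`-th power. -/
lemma apply_of_unrDeg_one (hq : q.Prime) (hA : A.LiesOverPrime q)
    (hσ : σ ∈ A.decompositionSubgroup ℚ) (hd : unrDeg q σ = 1) {z : AlgebraicClosure ℚ}
    (hz : z ^ (q ^ 2 - 1) = 1) : σ z = z ^ q := by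
  obtain ⟨ζ, hζ⟩ := exists_primitive_sq hq
  have h0 := sq_sub_one_pos hq
  have : NeZero (q ^ 2 - 1) := ⟨h0.ne'⟩
  rcases decomp_root_cases hq hA hσ hζ.pow_eq_one with h | h
  · exfalso
    have : unrDeg q σ = 0 := unrDeg_eq_zero_iff.mpr fun x hx => by
      obtain ⟨i, -, rfl⟩ := hζ.eq_pow_of_pow_eq_one hx
      rw [map_pow, h]
    omega
  · obtain ⟨i, -, rfl⟩ := hζ.eq_pow_of_pow_eq_one hz
    rw [map_pow, h, ← pow_mul, ← pow_mul, mul_comm]

/-- The unramified degree is additive modulo two. -/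
theorem pow_unrDeg_mul {R : Type*} [CommRing R] {U : R} (hU : U * U = 1) (hq : q.Prime)
    (hA : A.LiesOverPrime q) (hσ : σ ∈ A.decompositionSubgroup ℚ)
    (hτ : τ ∈ A.decompositionSubgroup ℚ) :
    U ^ unrDeg q (σ * τ) = U ^ unrDeg q σ * U ^ unrDeg q τ := by
  rcases unrDeg_eq_zero_or_one q τ with h1 | h1
  · have h1' := unrDeg_eq_zero_iff.mp h1
    have h2 : unrDeg q (σ * τ) = unrDeg q σ := by
      have key : unrDeg q (σ * τ) = 0 ↔ unrDeg q σ = 0 := by
        rw [unrDeg_eq_zero_iff, unrDeg_eq_zero_iff]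
        constructor <;> intro h x hx
        · have := h x hx
          rwa [AlgEquiv.mul_apply, h1' x hx] at this
        · rw [AlgEquiv.mul_apply, h1' x hx, h x hx]
      rcases unrDeg_eq_zero_or_one q (σ * τ) with h3 | h3 <;>
        rcases unrDeg_eq_zero_or_one q σ with h4 | h4 <;> omega
    rw [h1, h2, pow_zero, mul_one]
  · rcases unrDeg_eq_zero_or_one q σ with h2 | h2
    · have h2' := unrDeg_eq_zero_iff.mp h2
      have h3 : unrDeg q (σ * τ) = 1 := by
        rcases unrDeg_eq_zero_or_one q (σ * τ) with h | h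
        · exfalso
          have h4 : unrDeg q τ = 0 := unrDeg_eq_zero_iff.mpr fun x hx => by
            have h5 := unrDeg_eq_zero_iff.mp h x hx
            have h6 : (τ x) ^ (q ^ 2 - 1) = 1 := by rw [← map_pow, hx, map_one]
            rwa [AlgEquiv.mul_apply, h2' _ h6] at h5
          omega
        · exact h
      rw [h1, h2, h3, pow_zero, one_mul]
    · have h3 : unrDeg q (σ * τ) = 0 := unrDeg_eq_zero_iff.mpr fun x hx => by
        rw [AlgEquiv.mul_apply, apply_of_unrDeg_one hq hA hτ h1 hx, map_pow,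
          apply_of_unrDeg_one hq hA hσ h2 hx, ← pow_mul, ← sq, pow_sq_of_pow_eq_one hq hx]
      rw [h1, h2, h3, pow_zero, pow_one, hU]

/-- Frobenius elements have unramified degree one. -/
theorem unrDeg_frob (hq : q.Prime) (hA : A.LiesOverPrime q) (hσ : A.IsFrobeniusAt σ q) :
    unrDeg q σ = 1 := by
  rcases unrDeg_eq_zero_or_one q σ with h | h
  · exfalso
    obtain ⟨ζ, hζ⟩ := exists_primitive_sq hq
    have h0 := sq_sub_one_pos hq
    have h1 := unrDeg_eq_zero_iff.mp h ζ hζ.pow_eq_one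
    have hζA := mem_of_pow_eq_one (A := A) h0 hζ.pow_eq_one
    have h2 := rs_frob hσ hζA
    rw [← rs_pow hζA] at h2
    have hzq : (ζ ^ q) ^ (q ^ 2 - 1) = 1 := by
      rw [← pow_mul, mul_comm, pow_mul, hζ.pow_eq_one, one_pow]
    have hσz : (σ ζ) ^ (q ^ 2 - 1) = 1 := by rw [← map_pow, hζ.pow_eq_one, map_one]
    have h3 := eq_of_rs_eq hq hA h0 (not_dvd_sq_sub_one hq) hσz hzq h2
    rw [h1] at h3
    have hζ0 : ζ ≠ 0 := hζ.ne_zero h0.ne'
    have h4 : ζ ^ (q - 1) = 1 := by
      have h5 : ζ ^ (q - 1) * ζ = 1 * ζ := by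
        rw [one_mul, ← pow_succ]
        have h6 : q - 1 + 1 = q := Nat.succ_pred_prime hq
        rw [h6]
        exact h3.symm
      exact mul_right_cancel₀ hζ0 h5
    have h5 := hζ.dvd_of_pow_eq_one _ h4
    have h6 := Nat.le_of_dvd (by have := hq.two_le; omega) h5
    have h7 : q * 2 ≤ q ^ 2 := by rw [sq]; exact Nat.mul_le_mul_left q hq.two_le
    have := hq.two_le
    omega
  · exact h

lemma exists_root_of_rs (hq : q.Prime) (hA : A.LiesOverPrime q) {a : ResidueField A}
    (ha : a ^ (q ^ 2) = a) (ha0 : a ≠ 0) :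
    ∃ z : AlgebraicClosure ℚ, z ^ (q ^ 2 - 1) = 1 ∧ rs A z = a := by
  classical
  have h0 := sq_sub_one_pos hq
  obtain ⟨ζ, hζ⟩ := exists_primitive_sq hq
  have hζA := mem_of_pow_eq_one (A := A) h0 hζ.pow_eq_one
  by_contra hcon
  push Not at hcon
  have ha1 : a ^ (q ^ 2 - 1) = 1 := by
    have h1 : a ^ (q ^ 2 - 1) * a = 1 * a := by
      rw [one_mul, ← pow_succ]
      have : q ^ 2 - 1 + 1 = q ^ 2 := by omega
      rw [this, ha]
    exact mul_right_cancel₀ ha0 h1
  have hne : (Polynomial.X ^ (q ^ 2 - 1) - 1 : Polynomial (ResidueField A)) ≠ 0 :=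
    Polynomial.X_pow_sub_C_ne_zero h0 1
  let S : Finset (ResidueField A) :=
    insert a ((Finset.range (q ^ 2 - 1)).image (fun i : ℕ => rs A (ζ ^ i)))
  have hS : S ⊆ (Polynomial.X ^ (q ^ 2 - 1) - 1 :
      Polynomial (ResidueField A)).roots.toFinset := by
    intro z hz
    rw [Multiset.mem_toFinset, Polynomial.mem_roots hne, Polynomial.IsRoot, Polynomial.eval_sub,
      Polynomial.eval_pow, Polynomial.eval_X, Polynomial.eval_one, sub_eq_zero]
    rcases Finset.mem_insert.mp hz with rfl | hz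
    · exact ha1
    · obtain ⟨i, -, rfl⟩ := Finset.mem_image.mp hz
      rw [← rs_pow (A.toSubring.pow_mem hζA i), ← pow_mul, mul_comm, pow_mul, hζ.pow_eq_one,
        one_pow, rs_one]
  have hcard : S.card = (q ^ 2 - 1) + 1 := by
    rw [Finset.card_insert_of_notMem, Finset.card_image_of_injOn, Finset.card_range]
    · intro i hi j hj hij
      have hi' := Finset.mem_range.mp hi
      have hj' := Finset.mem_range.mp hj
      have h1 := eq_of_rs_eq hq hA h0 (not_dvd_sq_sub_one hq) (z := ζ ^ i) (w := ζ ^ j)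
        (by rw [← pow_mul, mul_comm, pow_mul, hζ.pow_eq_one, one_pow])
        (by rw [← pow_mul, mul_comm, pow_mul, hζ.pow_eq_one, one_pow]) hij
      exact hζ.pow_inj hi' hj' h1
    · intro h
      obtain ⟨i, -, hi⟩ := Finset.mem_image.mp h
      exact hcon (ζ ^ i) (by rw [← pow_mul, mul_comm, pow_mul, hζ.pow_eq_one, one_pow]) hi
  have h1 := (Finset.card_le_card hS).trans (Multiset.toFinset_card_le _)
  have h2 := Polynomial.card_roots' (Polynomial.X ^ (q ^ 2 - 1) - 1 :
    Polynomial (ResidueField A))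
  rw [← Polynomial.C_1, Polynomial.natDegree_X_pow_sub_C] at h2
  rw [← Polynomial.C_1] at h1
  omega

/-- The action of the decomposition group on residue classes in `𝔽_{q²}`. -/
theorem rs_decomp_eq (hq : q.Prime) (hA : A.LiesOverPrime q)
    (hσ : σ ∈ A.decompositionSubgroup ℚ) {x : AlgebraicClosure ℚ} (hx : x ∈ A)
    (hxq : rs A x ^ (q ^ 2) = rs A x) : rs A (σ x) = rs A x ^ (q ^ unrDeg q σ) := by
  have h0 := sq_sub_one_pos hq
  by_cases ha0 : rs A x = 0
  · rw [ha0, zero_pow (pow_ne_zero _ hq.ne_zero), rs_decomp hσ hx, ha0, smul_zero]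
  obtain ⟨z, hz, hzx⟩ := exists_root_of_rs hq hA hxq ha0
  have hzA := mem_of_pow_eq_one (A := A) h0 hz
  have h1 : rs A (σ x) = rs A (σ z) := by rw [rs_decomp hσ hx, rs_decomp hσ hzA, hzx]
  rw [h1]
  rcases unrDeg_eq_zero_or_one q σ with h | h
  · rw [unrDeg_eq_zero_iff.mp h z hz, h, pow_zero, pow_one, hzx]
  · rw [apply_of_unrDeg_one hq hA hσ h hz, h, pow_one, rs_pow hzA, hzx]

end Fermat.Agent.LTF
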