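import Mathlib
import Fermat.Agent.LTF.UnrDeg
import Fermat.Agent.RTD.CondBasic

set_option autoImplicit false

/-!
# The local condition `St_v`: "Steinberg up to an unramified quadratic twist"
-/

namespace Fermat.Agent.LTF

open IsLocalRing Matrix Fermat.Agent.S53norm
open scoped Pointwise

section Defs

variable {R : Type*} [CommRing R]

/-- Steinberg up to an unramified quadratic twist at the place `A` above `q` (matrix form):
`(r g - det (r g) U^deg g) (r h - U^deg h) = 0` for all `g`, `h` in the decomposition group. -/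
def StMat (q : ℕ) (A : ValuationSubring (AlgebraicClosure ℚ))
    (r : (AlgebraicClosure ℚ ≃ₐ[ℚ] AlgebraicClosure ℚ) → Matrix (Fin 2) (Fin 2) R) (U : R) :
    Prop :=
  U * U = 1 ∧ ∀ g ∈ A.decompositionSubgroup ℚ, ∀ h ∈ A.decompositionSubgroup ℚ,
    (r g - ((r g).det * U ^ unrDeg q g) • 1) * (r h - (U ^ unrDeg q h) • 1) = 0

/-- Steinberg up to an unramified quadratic twist at the place `A` above `q` (endomorphism
form). -/
def StEnd {V : Type*} [AddCommGroup V] [Module R V] (q : ℕ)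
    (A : ValuationSubring (AlgebraicClosure ℚ))
    (ρ : (AlgebraicClosure ℚ ≃ₐ[ℚ] AlgebraicClosure ℚ) → Module.End R V) (U : R) : Prop :=
  U * U = 1 ∧ ∀ g ∈ A.decompositionSubgroup ℚ, ∀ h ∈ A.decompositionSubgroup ℚ,
    (ρ g - (LinearMap.det (ρ g) * U ^ unrDeg q g) • 1) * (ρ h - (U ^ unrDeg q h) • 1) = 0

end Defs

section Map

variable {R : Type*} [CommRing R] {q : ℕ} {A : ValuationSubring (AlgebraicClosure ℚ)}
  {r : (AlgebraicClosure ℚ ≃ₐ[ℚ] AlgebraicClosure ℚ) → Matrix (Fin 2) (Fin 2) R} {U : R}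

lemma stMat_map_aux {S : Type*} [CommRing S] (f : R →+* S) (a b : Matrix (Fin 2) (Fin 2) R)
    (u v : R) :
    (a.map f - (f u) • (1 : Matrix (Fin 2) (Fin 2) S)) *
      (b.map f - (f v) • (1 : Matrix (Fin 2) (Fin 2) S)) =
      ((a - u • 1) * (b - v • 1)).map f := by
  have h : ∀ (c : Matrix (Fin 2) (Fin 2) R) (w : R),
      c.map f - (f w) • (1 : Matrix (Fin 2) (Fin 2) S) = f.mapMatrix (c - w • 1) := by
    intro c w
    ext i j
    rw [RingHom.mapMatrix_apply, Matrix.map_apply, Matrix.sub_apply, Matrix.sub_apply,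
      Matrix.map_apply, Matrix.smul_apply, Matrix.smul_apply, Matrix.one_apply, Matrix.one_apply,
      map_sub]
    split_ifs <;> simp
  rw [h, h, ← map_mul]
  rfl

lemma StMat.map (h : StMat q A r U) {S : Type*} [CommRing S] (f : R →+* S) :
    StMat q A (fun g => (r g).map f) (f U) := by
  refine ⟨by rw [← map_mul, h.1, map_one], fun g hg g' hg' => ?_⟩
  have h1 := h.2 g hg g' hg'
  have h2 : ((r g).map f).det = f (r g).det := (RingHom.map_det f _).symm
  beta_reduce
  rw [h2, ← map_pow, ← map_pow, ← map_mul, stMat_map_aux, h1]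
  ext i j
  simp

lemma StMat.of_family {ι : Type*} {S : ι → Type*} [∀ i, CommRing (S i)] (f : ∀ i, R →+* S i)
    (hf : ∀ x : R, (∀ i, f i x = 0) → x = 0)
    (h : ∀ i, StMat q A (fun g => (r g).map (f i)) (f i U)) : StMat q A r U := by
  have hf' : ∀ x y : R, (∀ i, f i x = f i y) → x = y := fun x y hxy =>
    sub_eq_zero.mp (hf _ fun i => by rw [map_sub, hxy i, sub_self])
  refine ⟨hf' _ _ fun i => ?_, fun g hg g' hg' => ?_⟩
  · rw [map_mul, (h i).1, map_one]
  · ext a b
    rw [Matrix.zero_apply]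
    refine hf _ fun i => ?_
    have h1 := (h i).2 g hg g' hg'
    have h2 : ((r g).map (f i)).det = f i (r g).det := (RingHom.map_det (f i) _).symm
    beta_reduce at h1
    rw [h2, ← map_pow, ← map_pow, ← map_mul, stMat_map_aux] at h1
    have h3 := congrFun (congrFun h1 a) b
    rw [Matrix.map_apply, Matrix.zero_apply] at h3
    exact h3

lemma StMat.of_injective {S : Type*} [CommRing S] (f : R →+* S) (hf : Function.Injective f)
    (h : StMat q A (fun g => (r g).map f) (f U)) : StMat q A r U :=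
  StMat.of_family (ι := Unit) (fun _ => f)
    (fun _ hx => hf (by rw [hx (), map_zero])) (fun _ => h)

/-- Invariance under conjugation. -/
lemma StMat.conj (h : StMat q A r U) (P : (Matrix (Fin 2) (Fin 2) R)ˣ) :
    StMat q A (fun g => (P : Matrix (Fin 2) (Fin 2) R) * r g *
      ((P⁻¹ : (Matrix (Fin 2) (Fin 2) R)ˣ) : Matrix (Fin 2) (Fin 2) R)) U := by
  refine ⟨h.1, fun g hg g' hg' => ?_⟩
  have h1 := h.2 g hg g' hg'
  beta_reduce
  have hdet : ((P : Matrix (Fin 2) (Fin 2) R) * r g *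
      ((P⁻¹ : (Matrix (Fin 2) (Fin 2) R)ˣ) : Matrix (Fin 2) (Fin 2) R)).det = (r g).det := by
    rw [Matrix.det_mul, Matrix.det_mul, mul_comm, ← mul_assoc, ← Matrix.det_mul, Units.inv_mul,
      Matrix.det_one, one_mul]
  have hs : ∀ (a : Matrix (Fin 2) (Fin 2) R) (u : R), (P : Matrix (Fin 2) (Fin 2) R) * a *
      ((P⁻¹ : (Matrix (Fin 2) (Fin 2) R)ˣ) : Matrix (Fin 2) (Fin 2) R) - u • 1 =
      (P : Matrix (Fin 2) (Fin 2) R) * (a - u • 1) *
        ((P⁻¹ : (Matrix (Fin 2) (Fin 2) R)ˣ) : Matrix (Fin 2) (Fin 2) R) := by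
    intro a u
    rw [mul_sub, sub_mul, Matrix.mul_smul, mul_one, Matrix.smul_mul, Units.mul_inv]
  rw [hdet, hs, hs]
  have e1 : ∀ X Y : Matrix (Fin 2) (Fin 2) R, (P : Matrix (Fin 2) (Fin 2) R) * X *
      ((P⁻¹ : (Matrix (Fin 2) (Fin 2) R)ˣ) : Matrix (Fin 2) (Fin 2) R) *
      ((P : Matrix (Fin 2) (Fin 2) R) * Y *
      ((P⁻¹ : (Matrix (Fin 2) (Fin 2) R)ˣ) : Matrix (Fin 2) (Fin 2) R)) =
      (P : Matrix (Fin 2) (Fin 2) R) * (X * Y) *
      ((P⁻¹ : (Matrix (Fin 2) (Fin 2) R)ˣ) : Matrix (Fin 2) (Fin 2) R) := by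
    intro X Y
    calc _ = (P : Matrix (Fin 2) (Fin 2) R) * X *
        (((P⁻¹ : (Matrix (Fin 2) (Fin 2) R)ˣ) : Matrix (Fin 2) (Fin 2) R) *
        (P : Matrix (Fin 2) (Fin 2) R)) * Y *
        ((P⁻¹ : (Matrix (Fin 2) (Fin 2) R)ˣ) : Matrix (Fin 2) (Fin 2) R) := by
          simp only [mul_assoc]
      _ = _ := by rw [Units.inv_mul, mul_one]; simp only [mul_assoc]
  rw [e1, h1, mul_zero, zero_mul]

end Map

section Basis

variable {A' : Type} [CommRing A'] {V : Type} [AddCommGroup V] [Module A' V]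
  {q : ℕ} {A : ValuationSubring (AlgebraicClosure ℚ)}

/-- Comparison of the two forms. -/
lemma stEnd_iff_stMat {ρ : GQ → Module.End A' V} {r : GQ → M2 A'} (h : HasMat ρ r) {U : A'} :
    StEnd q A ρ U ↔ StMat q A r U := by
  have hdet := Fermat.Agent.RTD.hasMat_det h
  obtain ⟨e, he⟩ := h
  have key : ∀ (g : GQ) (u : A') (v : V),
      e ((ρ g - u • (1 : Module.End A' V)) v) = (r g - u • (1 : M2 A')) *ᵥ e v := by
    intro g u v
    rw [LinearMap.sub_apply, map_sub, he, LinearMap.smul_apply, Module.End.one_apply, map_smul,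
      Matrix.sub_mulVec, Matrix.smul_mulVec, Matrix.one_mulVec]
  have key2 : ∀ (g g' : GQ) (u u' : A'), (ρ g - u • (1 : Module.End A' V)) *
      (ρ g' - u' • (1 : Module.End A' V)) = 0 ↔
      (r g - u • (1 : M2 A')) * (r g' - u' • (1 : M2 A')) = 0 := by
    intro g g' u u'
    constructor
    · intro h1
      refine mat_ext fun v => ?_
      have h2 := congrArg (fun F : Module.End A' V => e (F (e.symm v))) h1
      simp only [Module.End.mul_apply, LinearMap.zero_apply, map_zero] at h2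
      rw [key, key, LinearEquiv.apply_symm_apply, Matrix.mulVec_mulVec] at h2
      rw [h2, Matrix.zero_mulVec]
    · intro h1
      refine LinearMap.ext fun v => e.injective ?_
      rw [Module.End.mul_apply, key, key, Matrix.mulVec_mulVec, h1, Matrix.zero_mulVec,
        LinearMap.zero_apply, map_zero]
  unfold StEnd StMat
  simp only [key2, hdet]

end Basis

end Fermat.Agent.LTF
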