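import Mathlib
import Fermat.Agent.LTF.StDef
import Fermat.Agent.TW.InertiaField
import Fermat.Agent.TW.Select

set_option autoImplicit false
set_option linter.unusedSectionVars false

/-!
# The condition `StMat` from the relations between Frobenius elements
-/

namespace Fermat.Agent.LTF

open IsLocalRing Matrix Fermat.Agent.S53norm
open scoped Pointwise

variable {q : ℕ} {A : ValuationSubring (AlgebraicClosure ℚ)}

lemma isFrobeniusAt_mul {φ i : AlgebraicClosure ℚ ≃ₐ[ℚ] AlgebraicClosure ℚ}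
    (hφ : A.IsFrobeniusAt φ q) (hi : i ∈ A.inertiaSubgroupIn ℚ) :
    A.IsFrobeniusAt (φ * i) q := by
  obtain ⟨⟨j, hj⟩, hj1, rfl⟩ := hi
  obtain ⟨hd, hf⟩ := hφ
  refine ⟨mul_mem hd hj, fun x => ?_⟩
  have h1 : (⟨j, hj⟩ : A.decompositionSubgroup ℚ) • x = x := by
    have h2 := MonoidHom.mem_ker.mp hj1
    exact congrArg (fun f : ResidueField A ≃+* ResidueField A => f x) h2
  have h3 : (⟨φ * j, mul_mem hd hj⟩ : A.decompositionSubgroup ℚ) = ⟨φ, hd⟩ * ⟨j, hj⟩ := rfl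
  change (⟨φ * j, mul_mem hd hj⟩ : A.decompositionSubgroup ℚ) • x = x ^ q
  rw [h3, mul_smul, h1, hf]

lemma inertia_le_decomposition {i : AlgebraicClosure ℚ ≃ₐ[ℚ] AlgebraicClosure ℚ}
    (hi : i ∈ A.inertiaSubgroupIn ℚ) : i ∈ A.decompositionSubgroup ℚ := by
  obtain ⟨⟨j, hj⟩, -, rfl⟩ := hi
  exact hj

/-- Elements of the decomposition group agree on a finite layer with a product of Frobenius
elements. -/
lemma exists_frob_prod (hq : q.Prime) (hA : A.LiesOverPrime q)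
    {φ : AlgebraicClosure ℚ ≃ₐ[ℚ] AlgebraicClosure ℚ} (hφ : A.IsFrobeniusAt φ q)
    (L : IntermediateField ℚ (AlgebraicClosure ℚ)) [FiniteDimensional ℚ L]
    {g : AlgebraicClosure ℚ ≃ₐ[ℚ] AlgebraicClosure ℚ} (hg : g ∈ A.decompositionSubgroup ℚ) :
    ∃ n : ℕ, ∃ φ' : AlgebraicClosure ℚ ≃ₐ[ℚ] AlgebraicClosure ℚ, A.IsFrobeniusAt φ' q ∧
      ∀ x ∈ L, g x = (φ ^ n * φ') x := by
  let F := IntermediateField.normalClosure ℚ L (AlgebraicClosure ℚ)
  have hLF : L ≤ F := IntermediateField.le_normalClosure L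
  have : IsGalois ℚ F := IsGalois.normalClosure ..
  obtain ⟨n, i, hi, h⟩ := Fermat.Agent.TW.exists_frob_pow_mul_inertia hq hA hφ F
    (mul_mem (inv_mem hφ.mem_decompositionSubgroup) hg)
  refine ⟨n, φ * i, isFrobeniusAt_mul hφ hi, fun x hx => ?_⟩
  have h1 := h x (hLF hx)
  rw [AlgEquiv.mul_apply] at h1
  have h2 : g x = φ (φ⁻¹ (g x)) := (φ.apply_symm_apply (g x)).symm
  rw [h2, h1, ← AlgEquiv.mul_apply, ← mul_assoc, ← mul_assoc, (pow_succ' φ n).symm, pow_succ φ n]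

section Discrete

variable {R : Type*} [CommRing R]

/-- Discrete version. -/
theorem stMat_of_level (hq : q.Prime) (hA : A.LiesOverPrime q)
    (r : (AlgebraicClosure ℚ ≃ₐ[ℚ] AlgebraicClosure ℚ) →* Matrix (Fin 2) (Fin 2) R)
    (L : IntermediateField ℚ (AlgebraicClosure ℚ)) [FiniteDimensional ℚ L]
    (hL : ∀ σ : AlgebraicClosure ℚ ≃ₐ[ℚ] AlgebraicClosure ℚ, (∀ x ∈ L, σ x = x) → r σ = 1)
    {U : R} (hU : U * U = 1) (hdet : ∀ φ, A.IsFrobeniusAt φ q → (r φ).det = (q : R))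
    (hpair : ∀ φ φ', A.IsFrobeniusAt φ q → A.IsFrobeniusAt φ' q →
      (r φ - ((q : R) * U) • 1) * (r φ' - U • 1) = 0) : StMat q A r U := by
  obtain ⟨φ, hφ⟩ := Fermat.Agent.Frob.exists_isFrobeniusAt hq hA
  obtain ⟨ζ, hζ⟩ := exists_primitive_sq hq
  set L' : IntermediateField ℚ (AlgebraicClosure ℚ) := L ⊔ IntermediateField.adjoin ℚ {ζ} with hL'
  have : FiniteDimensional ℚ (IntermediateField.adjoin ℚ {ζ}) :=
    IntermediateField.adjoin.finiteDimensional ((Algebra.IsAlgebraic.isAlgebraic ζ).isIntegral)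
  have hfin : FiniteDimensional ℚ L' := inferInstance
  have hζL : ζ ∈ L' := (le_sup_right : IntermediateField.adjoin ℚ {ζ} ≤ L')
    (IntermediateField.mem_adjoin_simple_self ℚ ζ)
  have h0 := sq_sub_one_pos hq
  have : NeZero (q ^ 2 - 1) := ⟨h0.ne'⟩
  -- agreement on `L'` is enough
  have hagree : ∀ g g' : AlgebraicClosure ℚ ≃ₐ[ℚ] AlgebraicClosure ℚ, (∀ x ∈ L', g x = g' x) →
      r g = r g' ∧ unrDeg q g = unrDeg q g' := by
    intro g g' h
    refine ⟨?_, ?_⟩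
    · have h1 : r (g'⁻¹ * g) = 1 := hL _ fun x hx => by
        rw [AlgEquiv.mul_apply, h x ((le_sup_left : L ≤ L') hx)]
        exact g'.symm_apply_apply x
      have h2 : r g = r g' * r (g'⁻¹ * g) := by rw [← map_mul, mul_inv_cancel_left]
      rw [h2, h1, mul_one]
    · have key : unrDeg q g = 0 ↔ unrDeg q g' = 0 := by
        rw [unrDeg_eq_zero_iff, unrDeg_eq_zero_iff]
        have hx' : ∀ x : AlgebraicClosure ℚ, x ^ (q ^ 2 - 1) = 1 → g x = g' x := by
          intro x hx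
          obtain ⟨i, -, rfl⟩ := hζ.eq_pow_of_pow_eq_one hx
          rw [map_pow, map_pow, h ζ hζL]
        constructor <;> intro h3 x hx
        · rw [← hx' x hx, h3 x hx]
        · rw [hx' x hx, h3 x hx]
      rcases unrDeg_eq_zero_or_one q g with h3 | h3 <;>
        rcases unrDeg_eq_zero_or_one q g' with h4 | h4 <;> omega
  -- structure of the elements
  have hdec : ∀ g ∈ A.decompositionSubgroup ℚ, ∃ n : ℕ, ∃ φ', A.IsFrobeniusAt φ' q ∧
      r g = r φ ^ n * r φ' ∧ U ^ unrDeg q g = U ^ (n + 1) ∧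
      (r g).det = (q : R) ^ (n + 1) := by
    intro g hg
    obtain ⟨n, φ', hφ', h⟩ := exists_frob_prod hq hA hφ L' hg
    obtain ⟨h1, h2⟩ := hagree _ _ h
    refine ⟨n, φ', hφ', by rw [h1, map_mul, map_pow], ?_, ?_⟩
    · rw [h2]
      have h3 : ∀ n : ℕ, U ^ unrDeg q (φ ^ n) = U ^ n := by
        intro n
        induction n with
        | zero => rw [pow_zero, unrDeg_one]
        | succ n ih =>
          rw [pow_succ φ n, pow_unrDeg_mul hU hq hA
            (Subgroup.pow_mem _ hφ.mem_decompositionSubgroup n) hφ.mem_decompositionSubgroup, ih,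
            unrDeg_frob hq hA hφ, pow_one, ← pow_succ]
      rw [pow_unrDeg_mul hU hq hA (Subgroup.pow_mem _ hφ.mem_decompositionSubgroup n)
        hφ'.mem_decompositionSubgroup, h3, unrDeg_frob hq hA hφ', pow_one, ← pow_succ]
    · rw [h1, map_mul, map_pow, Matrix.det_mul, Matrix.det_pow, hdet φ hφ, hdet φ' hφ', pow_succ]
  -- the left ideal
  let Z : (Matrix (Fin 2) (Fin 2) R) → Prop := fun X =>
    ∀ φ', A.IsFrobeniusAt φ' q → r φ' * X = ((q : R) * U) • X
  have hZ1 : ∀ φ', A.IsFrobeniusAt φ' q → Z (r φ' - U • 1) := by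
    intro φ' hφ' φ'' hφ''
    have h := hpair φ'' φ' hφ'' hφ'
    rw [sub_mul, smul_mul_assoc, one_mul, sub_eq_zero] at h
    exact h
  have hZadd : ∀ X Y, Z X → Z Y → Z (X + Y) := by
    intro X Y hX hY φ' hφ'
    rw [mul_add, hX φ' hφ', hY φ' hφ', smul_add]
  have hZsmul : ∀ (c : R) X, Z X → Z (c • X) := by
    intro c X hX φ' hφ'
    rw [mul_smul_comm, hX φ' hφ', smul_comm]
  have hZφ : ∀ X (n : ℕ), Z X → r φ ^ n * X = ((q : R) * U) ^ n • X := by
    intro X n hX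
    induction n with
    | zero => rw [pow_zero, pow_zero, one_mul, one_smul]
    | succ n ih => rw [pow_succ, mul_assoc, hX φ hφ, mul_smul_comm, ih, smul_smul, pow_succ,
        mul_comm]
  have hZpow : ∀ n : ℕ, Z (r φ ^ n - (U ^ n) • 1) := by
    intro n
    induction n with
    | zero =>
      intro φ' _
      rw [pow_zero, pow_zero, one_smul, sub_self, mul_zero, smul_zero]
    | succ n ih =>
      have e1 : r φ ^ (n + 1) - (U ^ (n + 1)) • (1 : Matrix (Fin 2) (Fin 2) R) =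
          (((q : R) * U) ^ n) • (r φ - U • 1) + U • (r φ ^ n - (U ^ n) • 1) := by
        have h2 : r φ ^ n * (r φ - U • 1) = ((q : R) * U) ^ n • (r φ - U • 1) :=
          hZφ _ n (hZ1 φ hφ)
        rw [← h2, mul_sub, ← pow_succ, mul_smul_comm, mul_one, smul_sub, smul_smul, ← pow_succ']
        abel
      rw [e1]
      exact hZadd _ _ (hZsmul _ _ (hZ1 φ hφ)) (hZsmul _ _ ih)
  refine ⟨hU, fun g hg h hh => ?_⟩
  obtain ⟨n, φ₁, hφ₁, e1, e2, e3⟩ := hdec g hg
  obtain ⟨m, φ₂, hφ₂, f1, f2, f3⟩ := hdec h hh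
  have hZh : Z (r h - (U ^ unrDeg q h) • 1) := by
    rw [f1, f2]
    have e4 : r φ ^ m * r φ₂ - (U ^ (m + 1)) • (1 : Matrix (Fin 2) (Fin 2) R) =
        (((q : R) * U) ^ m) • (r φ₂ - U • 1) + U • (r φ ^ m - (U ^ m) • 1) := by
      have h2 : r φ ^ m * (r φ₂ - U • 1) = ((q : R) * U) ^ m • (r φ₂ - U • 1) :=
        hZφ _ m (hZ1 φ₂ hφ₂)
      rw [← h2, mul_sub, mul_smul_comm, mul_one, smul_sub, smul_smul, ← pow_succ']
      abel
    rw [e4]
    exact hZadd _ _ (hZsmul _ _ (hZ1 φ₂ hφ₂)) (hZsmul _ _ (hZpow m))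
  rw [sub_mul, smul_mul_assoc, one_mul, sub_eq_zero, e1, mul_assoc, hZh φ₁ hφ₁, mul_smul_comm,
    hZφ _ n hZh, smul_smul, ← pow_succ', e2, ← e1, e3, mul_pow]

end Discrete

section Adic

variable {R : Type} [CommRing R] [IsLocalRing R]

/-- Adic version. -/
theorem stMat_of_cont (hq : q.Prime) (hA : A.LiesOverPrime q)
    (hR : ∀ x : R, (∀ n : ℕ, x ∈ maximalIdeal R ^ n) → x = 0)
    (r : (AlgebraicClosure ℚ ≃ₐ[ℚ] AlgebraicClosure ℚ) →* Matrix (Fin 2) (Fin 2) R)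
    (hcont : IsCont (r : GQ → M2 R))
    {U : R} (hU : U * U = 1) (hdet : ∀ φ, A.IsFrobeniusAt φ q → (r φ).det = (q : R))
    (hpair : ∀ φ φ', A.IsFrobeniusAt φ q → A.IsFrobeniusAt φ' q →
      (r φ - ((q : R) * U) • 1) * (r φ' - U • 1) = 0) : StMat q A r U := by
  refine StMat.of_family (ι := ℕ) (S := fun n => R ⧸ maximalIdeal R ^ n)
    (fun n => Ideal.Quotient.mk (maximalIdeal R ^ n))
    (fun x hx => hR x fun n => Ideal.Quotient.eq_zero_iff_mem.mp (hx n)) fun n => ?_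
  obtain ⟨L, hL, h⟩ := hcont n
  set f := Ideal.Quotient.mk (maximalIdeal R ^ n) with hf
  have key := stMat_of_level (R := R ⧸ maximalIdeal R ^ n) hq hA
    (f.mapMatrix.toMonoidHom.comp r) L (fun σ hσ => ?_) (U := f U)
    (by rw [← map_mul, hU, map_one]) (fun φ hφ => ?_) (fun φ φ' hφ hφ' => ?_)
  · exact key
  · have h1 := h σ hσ
    ext i j
    have h2 := h1 i j
    change f (r σ i j) = (1 : Matrix (Fin 2) (Fin 2) (R ⧸ maximalIdeal R ^ n)) i j
    rw [Matrix.sub_apply] at h2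
    rw [Ideal.Quotient.eq.mpr h2, Matrix.one_apply, Matrix.one_apply]
    split_ifs <;> simp
  · change ((r φ).map f).det = _
    rw [← map_natCast f, ← hdet φ hφ]
    exact (RingHom.map_det f _).symm
  · change ((r φ).map f - _) * ((r φ').map f - _) = 0
    rw [← map_natCast f, ← map_mul, stMat_map_aux, hpair φ φ' hφ hφ']
    ext i j
    simp

end Adic

/-- The relation for unramified representations. -/
theorem pair_of_unramified {R : Type*} [CommRing R]
    (r : (AlgebraicClosure ℚ ≃ₐ[ℚ] AlgebraicClosure ℚ) →* Matrix (Fin 2) (Fin 2) R)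
    (hI : ∀ σ ∈ A.inertiaSubgroupIn ℚ, r σ = 1) {φ₀} (hφ₀ : A.IsFrobeniusAt φ₀ q) {U : R}
    (hU : U * U = 1) (htr : (r φ₀).trace = ((q : R) + 1) * U) (hdet : (r φ₀).det = q) :
    (∀ φ, A.IsFrobeniusAt φ q → (r φ).det = (q : R)) ∧
    ∀ φ φ', A.IsFrobeniusAt φ q → A.IsFrobeniusAt φ' q →
      (r φ - ((q : R) * U) • 1) * (r φ' - U • 1) = 0 := by
  have h1 : ∀ φ, A.IsFrobeniusAt φ q → r φ = r φ₀ := by
    intro φ hφ
    have h2 := hI _ (Fermat.Agent.TW.inv_mul_mem_inertia hφ₀ hφ)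
    have h3 : r φ = r φ₀ * r (φ₀⁻¹ * φ) := by rw [← map_mul, mul_inv_cancel_left]
    rw [h3, h2, mul_one]
  refine ⟨fun φ hφ => by rw [h1 φ hφ, hdet], fun φ φ' hφ hφ' => ?_⟩
  rw [h1 φ hφ, h1 φ' hφ']
  set M := r φ₀ with hM
  have hCH : M * M = M.trace • M - M.det • 1 := by
    ext i j
    fin_cases i <;> fin_cases j <;>
      simp [Matrix.mul_apply, Fin.sum_univ_two, Matrix.trace_fin_two, Matrix.det_fin_two] <;> ring
  have e1 : (M - ((q : R) * U) • 1) * (M - U • 1) =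
      M * M - (((q : R) + 1) * U) • M + ((q : R) * (U * U)) • (1 : Matrix (Fin 2) (Fin 2) R) := by
    rw [sub_mul, mul_sub, mul_sub, smul_mul_assoc, smul_mul_assoc, one_mul, one_mul,
      mul_smul_comm, mul_one, smul_smul]
    have : (((q : R) + 1) * U) • M = ((q : R) * U) • M + U • M := by
      rw [← add_smul]; congr 1; ring
    rw [this, mul_assoc]
    abel
  rw [e1, hCH, htr, hdet, hU, mul_one]
  abel

end Fermat.Agent.LTF
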