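import Mathlib
import Fermat.Agent.LTF.StFrob
import Fermat.Agent.LTF.StAlg
import Fermat.Agent.QX4.Core
import Fermat.Agent.S35_Final
import Fermat.Agent.S34.Final

set_option autoImplicit false
set_option linter.unusedSectionVars false
set_option linter.style.haveILetI false

/-!
# Newforms at an odd prime `q ∥ M`: the condition `St_q` (any residue characteristic `p ≠ q`)
-/

noncomputable section

namespace Fermat.Agent.LTF

open ModularCurve AlgebraicCurve Polynomial CuspForm IsLocalRing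
open Fermat.Agent.GaussVal Fermat.Agent.FF Fermat.Agent.RR Fermat.Agent.TwoGauss
open scoped Fermat.Agent.GaussVal
open Fermat.Agent.GalRep (ESInput HasFrobCharpoly HeckeAlgS inclS evS)
open Fermat.Agent.S34aux (InertiaUnipotent)
open Fermat.Agent.S35aux (FrobSqInput)
open Fermat.Agent.S53norm (M2 HasMat exists_hasMat_adic mat_ext)
open scoped Matrix

local notation "GQ'" => (AlgebraicClosure ℚ ≃ₐ[ℚ] AlgebraicClosure ℚ)

section Geo

variable {q m : ℕ} [NeZero m] (hq : q.Prime) (hm : ¬ q ∣ m)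
  {A : ValuationSubring (AlgebraicClosure ℚ)} (hA : A.LiesOverPrime q)

include hq hm hA in
/-- The square of a Frobenius lift acts as `q²` on the image of `σ - 1`, `σ` in inertia. -/
theorem frobSq_inertia {n : ℕ} (hn : ¬ q ∣ n) {σ φ : GQ'} (hσ : σ ∈ A.inertiaSubgroupIn ℚ)
    (hφ : A.IsFrobeniusAt φ q) {x : JZero (m * q)} (hx : n • x = 0) :
    φ • φ • (σ • x - x) = (q ^ 2) • (σ • x - x) := by
  haveI : Fact q.Prime := ⟨hq⟩
  haveI : CharP (IsLocalRing.ResidueField A) q := charP_res hq hA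
  have H3 := GoodRed.degThm_res hq hA (NeZero.ne m) hm
  have H2 := GoodRed.genus_le_all hq hA m hm
  haveI : IsFF (AlgebraicClosure ℚ) (modularFunctionFieldBar m) := isFF_m
  haveI : IsFF (IsLocalRing.ResidueField A)
    (modularFunctionFieldFullC (IsLocalRing.ResidueField A) m) := isFF_m' (m := m) H3
  haveI : IsFF (AlgebraicClosure ℚ) (modularFunctionFieldBar (m * q)) := isFF_m
  have hn' : (n : IsLocalRing.ResidueField A) ≠ 0 := by
    rwa [Ne, CharP.cast_eq_zero_iff (IsLocalRing.ResidueField A) q]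
  have hact := (act_mkData_inertia hq hm hA H3 H2 hσ).toAct_id
  exact smul_smul_mkData hq hm hA H3 H2 hn' hφ
    ⟨TwoComp.Data.split_of_inertia₁ hq.pos hact hx, TwoComp.Data.split_of_inertia₂ hq.pos hact hx⟩

end Geo

/-- The relation `(φ² - q²)(σ - 1) = 0` on the `p`-power torsion of `J`. -/
def InertiaFrob (J : Type*) [AddCommGroup J] [DistribMulAction GQ' J] (p q : ℕ) : Prop :=
  ∀ A : ValuationSubring (AlgebraicClosure ℚ), A.LiesOverPrime q →
    ∀ σ ∈ A.inertiaSubgroupIn ℚ, ∀ φ : GQ', A.IsFrobeniusAt φ q → ∀ m : ℕ, ∀ x : J,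
      p ^ m • x = 0 → φ • φ • (σ • x - x) = (q ^ 2) • (σ • x - x)

theorem InertiaFrob.congr {p q N N' : ℕ} (h : N = N')
    (hU : InertiaFrob (JZero N) p q) : InertiaFrob (JZero N') p q := by
  subst h; exact hU

theorem inertiaFrob_JZero {q p N : ℕ} [NeZero N] (hq : q.Prime) (hp : p.Prime) (hqp : q ≠ p)
    (hqN : q ∣ N) (hq2 : ¬ q ^ 2 ∣ N) : InertiaFrob (JZero N) p q := by
  obtain ⟨m, rfl⟩ := hqN
  have hm : ¬ q ∣ m := fun h => hq2 (by rw [pow_two]; exact mul_dvd_mul_left q h)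
  haveI : NeZero m := ⟨fun h => NeZero.ne (q * m) (by rw [h, mul_zero])⟩
  have h1 : InertiaFrob (JZero (m * q)) p q := by
    intro A hA σ hσ φ hφ k x hx
    refine frobSq_inertia hq hm hA (fun h => hqp ?_) hσ hφ hx
    exact (Nat.prime_dvd_prime_iff_eq hq hp).mp (hq.dvd_of_dvd_pow h)
  exact h1.congr (mul_comm m q)

section Transfer

variable {N p : ℕ} [NeZero N] {S : Finset ℕ}
  {T : Type} [CommRing T] [IsLocalRing T] [IsNoetherianRing T]
  {J : Type*} [AddCommGroup J] [Module HeckeAlg J] [DistribMulAction GQ' J]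
  [SMulCommClass GQ' HeckeAlg J]

lemma sum_four {M : Type*} [AddCommGroup M] (g₁ g₂ g₃ g₄ : GQ') (c : ℤ) (F : GQ' → M) :
    ((Finsupp.single g₁ 1 + Finsupp.single g₂ (-1) + Finsupp.single g₃ (-c) +
      Finsupp.single g₄ c : GQ' →₀ ℤ).sum fun g c => c • F g) =
      F g₁ - F g₂ - c • F g₃ + c • F g₄ := by
  classical
  rw [Finsupp.sum_add_index' (h := fun g c => c • F g) (fun _ => zero_smul _ _)
      (fun _ _ _ => add_smul _ _ _),
    Finsupp.sum_add_index' (h := fun g c => c • F g) (fun _ => zero_smul _ _)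
      (fun _ _ _ => add_smul _ _ _),
    Finsupp.sum_add_index' (h := fun g c => c • F g) (fun _ => zero_smul _ _)
      (fun _ _ _ => add_smul _ _ _),
    Finsupp.sum_single_index (h := fun g c => c • F g) (zero_smul _ _),
    Finsupp.sum_single_index (h := fun g c => c • F g) (zero_smul _ _),
    Finsupp.sum_single_index (h := fun g c => c • F g) (zero_smul _ _),
    Finsupp.sum_single_index (h := fun g c => c • F g) (zero_smul _ _), one_smul, neg_smul,
    one_smul, neg_smul, sub_eq_add_neg, sub_eq_add_neg]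

/-- The relation transfers to the representation. -/
theorem rel_transfer (hJ : ESInput N p (↑S : Set ℕ) J) (hp : p.Prime)
    (hpS : p ∈ S) (hpT : (p : T) ∈ IsLocalRing.maximalIdeal T)
    (hNS : ∀ q : ℕ, q.Prime → q ∣ N → q ∈ S)
    {π : heckeAlgebra N 2 (↑S : Set ℕ) →+* T} {ρ : GaloisRepAdic T}
    (hfrob : HasFrobCharpoly π ρ) (habs : ρ.residual.IsAbsolutelyIrreducible)
    {q : ℕ} (hU : InertiaFrob J p q)
    {A : ValuationSubring (AlgebraicClosure ℚ)} (hA : A.LiesOverPrime q) {σ φ : GQ'}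
    (hσ : σ ∈ A.inertiaSubgroupIn ℚ) (hφ : A.IsFrobeniusAt φ q) :
    (ρ.ρ φ * ρ.ρ φ - algebraMap T (Module.End T ρ.V) ((q : T) ^ 2)) * (ρ.ρ σ - 1) = 0 := by
  classical
  refine LinearMap.ext fun v => ?_
  rw [LinearMap.zero_apply]
  have hkrull := Ideal.iInf_pow_smul_eq_bot_of_isLocalRing (M := ρ.V) (IsLocalRing.maximalIdeal T)
    (Ideal.IsPrime.ne_top inferInstance)
  have hmem : ((ρ.ρ φ * ρ.ρ φ - algebraMap T (Module.End T ρ.V) ((q : T) ^ 2)) *
      (ρ.ρ σ - 1)) v ∈ (⨅ i : ℕ, IsLocalRing.maximalIdeal T ^ i • ⊤ : Submodule T ρ.V) := by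
    rw [Submodule.mem_iInf]
    intro n
    obtain ⟨m, hm⟩ := Fermat.Agent.GalRep.transfer Fermat.Agent.GalRep.frobeniusDensity hJ hp hpS
      hNS hfrob habs n
    set y : GQ' →₀ ℤ := Finsupp.single (φ * φ * σ) 1 + Finsupp.single (φ * φ) (-1) +
      Finsupp.single σ (-((q : ℤ) ^ 2)) + Finsupp.single 1 ((q : ℤ) ^ 2) with hy
    have h1 := hm y (fun x hx => by
      rw [hy, sum_four (φ * φ * σ) (φ * φ) σ 1 ((q : ℤ) ^ 2) (fun g => g • x)]
      have h2 := hU A hA σ hσ φ hφ m x hx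
      rw [smul_sub, smul_sub, smul_sub, ← mul_smul, ← mul_smul, ← mul_smul] at h2
      rw [one_smul, h2, ← Nat.cast_pow, natCast_zsmul, natCast_zsmul]
      abel) v
    rw [hy, sum_four (φ * φ * σ) (φ * φ) σ 1 ((q : ℤ) ^ 2) (fun g => ρ.ρ g v)] at h1
    have h4 : ((ρ.ρ φ * ρ.ρ φ - algebraMap T (Module.End T ρ.V) ((q : T) ^ 2)) *
        (ρ.ρ σ - 1)) v = ρ.ρ (φ * φ * σ) v - ρ.ρ (φ * φ) v - ((q : ℤ) ^ 2) • ρ.ρ σ v +
          ((q : ℤ) ^ 2) • ρ.ρ 1 v := by
      have e1 : ∀ w : ρ.V, algebraMap T (Module.End T ρ.V) ((q : T) ^ 2) w =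
          ((q : ℤ) ^ 2) • w := by
        intro w
        rw [Module.algebraMap_end_apply, ← Nat.cast_pow, Nat.cast_smul_eq_nsmul, ← Nat.cast_pow,
          natCast_zsmul]
      rw [map_mul, map_mul, map_one, Module.End.mul_apply, LinearMap.sub_apply,
        LinearMap.sub_apply, Module.End.one_apply, e1, map_sub, smul_sub]
      simp only [Module.End.mul_apply]
      abel
    rw [h4]
    refine Submodule.smul_mono_left ?_ h1
    rw [Ideal.span_singleton_le_iff_mem]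
    exact Ideal.pow_mem_pow hpT n
  rw [hkrull] at hmem
  exact hmem

end Transfer

section Main

variable {M p : ℕ} [NeZero M] {S : Finset ℕ}
  {O : Type} [CommRing O] [IsDomain O] [IsLocalRing O] [IsNoetherianRing O] [CharZero O]

/-- **Newforms at `q ∥ M`, `q ≠ p`** (abstract form): the local condition `St_q` with a sign. -/
theorem stEnd_of_input {J : Type*} [AddCommGroup J] [Module HeckeAlg J] [DistribMulAction GQ' J]
    [SMulCommClass GQ' HeckeAlg J]
    (hJ : ESInput M p (↑S : Set ℕ) J) (hp : p.Prime)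
    (hpO : (p : O) ∈ IsLocalRing.maximalIdeal O)
    (hpS : p ∈ S) (hMS : ∀ q : ℕ, q.Prime → q ∣ M → q ∈ S)
    {π : heckeAlgebra M 2 (↑S : Set ℕ) →+* O} {ρ : GaloisRepAdic O}
    (hfrob : HasFrobCharpoly π ρ) (habs : ρ.residual.IsAbsolutelyIrreducible)
    {q : ℕ} (hq : q.Prime) (hqp : q ≠ p)
    (hunip : InertiaUnipotent J p q) (hrel : InertiaFrob J p q)
    {t : HeckeAlgS (↑S : Set ℕ)} {a : ℕ} (hgeo : FrobSqInput p q J (inclS (↑S : Set ℕ) t) a)
    (ht : π (evS M (↑S : Set ℕ) t) ≠ 0) :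
    ∃ U : O, (U = 1 ∨ U = -1) ∧ ∀ A : ValuationSubring (AlgebraicClosure ℚ),
      A.LiesOverPrime q → StEnd q A ρ.ρ U := by
  have hq1 : (q : O) + 1 ≠ 0 := by exact_mod_cast Nat.succ_ne_zero q
  have hun := Fermat.Agent.S34aux.isUnipotentOnInertiaAt_of_transfer hJ hp hpS hpO hMS hfrob habs
    hq hqp hunip
  -- characteristic polynomials of Frobenius elements
  have hchar : ∀ (A : ValuationSubring (AlgebraicClosure ℚ)) (_ : A.LiesOverPrime q)
      (φ : GQ') (_ : A.IsFrobeniusAt φ q), ∃ ε : O, (ε = 1 ∨ ε = -1) ∧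
        (ρ.ρ φ).charpoly = X ^ 2 - C (ε * ((q : O) + 1)) * X + C (q : O) := by
    intro A hA φ hφ
    rcases Fermat.Agent.S35aux.charpoly_frobenius_of_input hJ hp hpO hpS hMS hfrob hq hqp hgeo ht
      hA hφ with h | h
    · exact ⟨1, Or.inl rfl, by rw [one_mul]; exact h⟩
    · exact ⟨-1, Or.inr rfl, by rw [h, neg_one_mul, map_neg]; ring⟩
  have hsq : ∀ ε : O, (ε = 1 ∨ ε = -1) → ε * ε = 1 := by
    rintro ε (rfl | rfl) <;> ring
  have hpair : ∀ (A : ValuationSubring (AlgebraicClosure ℚ)) (_ : A.LiesOverPrime q)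
      (φ φ' : GQ') (_ : A.IsFrobeniusAt φ q) (_ : A.IsFrobeniusAt φ' q) (ε ε' : O),
      (ε = 1 ∨ ε = -1) →
      (ρ.ρ φ).charpoly = X ^ 2 - C (ε * ((q : O) + 1)) * X + C (q : O) →
      (ρ.ρ φ').charpoly = X ^ 2 - C (ε' * ((q : O) + 1)) * X + C (q : O) →
      ε' = ε ∧ (ρ.ρ φ - algebraMap O (Module.End O ρ.V) ((q : O) * ε)) *
        (ρ.ρ φ' - algebraMap O (Module.End O ρ.V) ε) = 0 := by
    intro A hA φ φ' hφ hφ' ε ε' hε h h'
    have hin := Fermat.Agent.TW.inv_mul_mem_inertia hφ hφ'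
    have hmul : ρ.ρ φ' = ρ.ρ φ * ρ.ρ (φ⁻¹ * φ') := by rw [← map_mul, mul_inv_cancel_left]
    refine frob_pair ρ.finrank_eq hq1 (hsq ε hε) h h' hmul ?_
      (rel_transfer hJ hp hpS hpO hMS hfrob habs hrel hA hin hφ)
    have hS := hun A hA _ hin
    have e1 : ((X : O[X]) - 1) ^ 2 = X ^ 2 - C 2 * X + C 1 := by
      rw [map_one, show (C (2 : O)) = 2 from rfl]; ring
    rw [e1] at hS
    exact (trace_det_of_charpoly ρ.finrank_eq hS).1
  -- a base point
  obtain ⟨A₀, hA₀⟩ := Fermat.Agent.Frob.exists_liesOverPrime q hq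
  obtain ⟨φ₀, hφ₀⟩ := Fermat.Agent.Frob.exists_isFrobeniusAt hq hA₀
  obtain ⟨U, hU, hUc⟩ := hchar A₀ hA₀ φ₀ hφ₀
  refine ⟨U, hU, fun A hA => ?_⟩
  have hall : ∀ φ, A.IsFrobeniusAt φ q →
      (ρ.ρ φ).charpoly = X ^ 2 - C (U * ((q : O) + 1)) * X + C (q : O) := by
    intro φ hφ
    obtain ⟨g, hg⟩ := Fermat.Agent.Frob.exists_smul_eq hq hA₀ hA
    have h1 := Fermat.Agent.FrobDensity.isFrobeniusAt_conj (g := g) hφ₀
    rw [hg] at h1
    have h2 : (ρ.ρ (g * φ₀ * g⁻¹)).charpoly = X ^ 2 - C (U * ((q : O) + 1)) * X + C (q : O) := by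
      rw [← hUc]
      let e : ρ.V ≃ₗ[O] ρ.V := LinearEquiv.ofLinearMap (ρ.ρ g) (ρ.ρ g⁻¹)
        (by rw [← Module.End.mul_eq_comp, ← map_mul, mul_inv_cancel, map_one]; rfl)
        (by rw [← Module.End.mul_eq_comp, ← map_mul, inv_mul_cancel, map_one]; rfl)
      have h3 : ρ.ρ (g * φ₀ * g⁻¹) = e.conj (ρ.ρ φ₀) := by
        rw [map_mul, map_mul]
        rfl
      rw [h3, LinearEquiv.charpoly_conj]
    obtain ⟨ε', hε', h'⟩ := hchar A hA φ hφ
    rw [h', (hpair A hA _ φ h1 hφ U ε' hU h2 h').1]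
  obtain ⟨r, hr⟩ := exists_hasMat_adic ρ
  rw [stEnd_iff_stMat hr]
  let R : GQ' →* M2 O :=
    { toFun := r
      map_one' := hr.map_one
      map_mul' := fun g h => hr.map_mul g h }
  have hR : ∀ x : O, (∀ n : ℕ, x ∈ IsLocalRing.maximalIdeal O ^ n) → x = 0 := by
    intro x hx
    have h := Ideal.iInf_pow_eq_bot_of_isLocalRing (IsLocalRing.maximalIdeal O)
      (Ideal.IsPrime.ne_top inferInstance)
    have : x ∈ ⨅ n : ℕ, IsLocalRing.maximalIdeal O ^ n := by
      rw [Submodule.mem_iInf]; exact hx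
    rw [h] at this
    exact this
  refine stMat_of_cont hq hA hR R hr.isCont (hsq U hU) (fun φ hφ => ?_) (fun φ φ' hφ hφ' => ?_)
  · change (r φ).det = _
    rw [← Fermat.Agent.RTD.hasMat_det hr]
    exact (trace_det_of_charpoly ρ.finrank_eq (hall φ hφ)).2
  · change (r φ - _) * (r φ' - _) = 0
    have h := (hpair A hA φ φ' hφ hφ' U U hU (hall φ hφ) (hall φ' hφ')).2
    obtain ⟨e, he⟩ := hr
    refine mat_ext fun v => ?_
    have h2 := congrArg (fun F : Module.End O ρ.V => e (F (e.symm v))) h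
    simp only [Module.End.mul_apply, LinearMap.zero_apply, map_zero] at h2
    have key : ∀ (g : GQ') (u : O) (w : ρ.V),
        e ((ρ.ρ g - algebraMap O (Module.End O ρ.V) u) w) = (r g - u • (1 : M2 O)) *ᵥ e w := by
      intro g u w
      rw [LinearMap.sub_apply, map_sub, he, Module.algebraMap_end_apply, map_smul,
        Matrix.sub_mulVec, Matrix.smul_mulVec, Matrix.one_mulVec]
    rw [key, key, LinearEquiv.apply_symm_apply, Matrix.mulVec_mulVec] at h2
    rw [h2, Matrix.zero_mulVec]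

/-- **[LOC-odd]** eigensystems of level `M`, `q ∥ M`, `q`-new, in any residue characteristic
`p ≠ q` (`p = 2` included): `ρ` satisfies `St_q` with a sign. -/
theorem loc_odd (hp : p.Prime) (hpO : (p : O) ∈ IsLocalRing.maximalIdeal O)
    (hpS : p ∈ S) (hMS : ∀ q : ℕ, q.Prime → q ∣ M → q ∈ S)
    {π : heckeAlgebra M 2 (↑S : Set ℕ) →+* O} {ρ : GaloisRepAdic O}
    (hfrob : HasFrobCharpoly π ρ) (habs : ρ.residual.IsAbsolutelyIrreducible)
    {q : ℕ} (hq : q.Prime) (hqp : q ≠ p) (hqM : q ∣ M) (hq2 : ¬ q ^ 2 ∣ M) [NeZero (M / q)]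
    (hnew : ∃ t : HeckeAlgS (↑S : Set ℕ), evS (M / q) (↑S : Set ℕ) t = 0 ∧
      π (evS M (↑S : Set ℕ) t) ≠ 0) :
    ∃ U : O, (U = 1 ∨ U = -1) ∧ ∀ A : ValuationSubring (AlgebraicClosure ℚ),
      A.LiesOverPrime q → StEnd q A ρ.ρ U := by
  letI := heckeModuleBar M
  haveI := Cofaith.smulCommClass_JZero M
  have hJ : ESInput M p (↑S : Set ℕ) (JZero M) :=
    Fermat.Agent.Cofaith.esInput_JZero M hp _ (fun q hq hqM => hMS q hq hqM)
      (QX4.allSpec M p hp)
  obtain ⟨t, ht, ht'⟩ := hnew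
  obtain ⟨c, a, hc, hgeo⟩ := QX4.hgeo_JZero QX4.allTCore (↑S : Set ℕ)
    (fun q hq hqM => hMS q hq hqM) hp q hq hqp hqM hq2 t ht
  refine stEnd_of_input hJ hp hpO hpS hMS hfrob habs hq hqp
    (Fermat.Agent.S34aux.inertiaUnipotent_JZero hq hp hqp hqM hq2)
    (inertiaFrob_JZero hq hp hqp hqM hq2) hgeo ?_
  rw [map_mul, map_mul, map_natCast, map_natCast]
  exact mul_ne_zero (by exact_mod_cast hc) ht'

end Main

end Fermat.Agent.LTF
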