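import Fermat.Agent.LTF.Loc2New

set_option autoImplicit false
set_option linter.style.haveILetI false

/-!
# Newness at an odd prime where the residual representation is ramified
-/

noncomputable section

namespace Fermat.Agent.LTF

open ModularCurve AlgebraicCurve Polynomial CuspForm IsLocalRing
open Fermat.Agent.GalRep (ESInput HasFrobCharpoly HeckeAlgS inclS evS)
open Fermat.Agent.S53norm (GQ M2)

section

variable {m p : ℕ} [NeZero m] {S : Finset ℕ}
  {O : Type} [CommRing O] [IsLocalRing O] [IsNoetherianRing O]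

/-- Elements of `ℤ[G]` killing the `p`-power torsion of `J₀(m)` act by zero on `ρ`. -/
theorem sub_mem_of_forall_JZero (hp : p.Prime) (hpO : (p : O) ∈ maximalIdeal O) (hpS : p ∈ S)
    (hmS : ∀ q : ℕ, q.Prime → q ∣ m → q ∈ S)
    {π : heckeAlgebra m 2 (↑S : Set ℕ) →+* O} {ρ : GaloisRepAdic O}
    (hfrob : HasFrobCharpoly π ρ) (habs : ρ.residual.IsAbsolutelyIrreducible)
    {σ : GQ} (hσ : ∀ (k : ℕ) (x : JZero m), p ^ k • x = 0 → σ • x = x) : ρ.ρ σ = 1 := by
  classical
  letI := heckeModuleBar m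
  haveI := Fermat.Agent.Cofaith.smulCommClass_JZero m
  haveI : Fact p.Prime := ⟨hp⟩
  refine LinearMap.ext fun v => ?_
  rw [Module.End.one_apply, ← sub_eq_zero]
  have hkrull := Ideal.iInf_pow_smul_eq_bot_of_isLocalRing (M := ρ.V) (IsLocalRing.maximalIdeal O)
    (Ideal.IsPrime.ne_top inferInstance)
  have hmem : ρ.ρ σ v - v ∈
      (⨅ i : ℕ, IsLocalRing.maximalIdeal O ^ i • ⊤ : Submodule O ρ.V) := by
    rw [Submodule.mem_iInf]
    intro n
    obtain ⟨k, hk⟩ := GalRep.transfer GalRep.frobeniusDensity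
      (Fermat.Agent.Cofaith.esInput_JZero m hp (↑S : Set ℕ)
        (fun ℓ hℓ hd => by simpa using hmS ℓ hℓ hd)
        (Fermat.Agent.S37.result m p (Fermat.Agent.HeckeComm.heckeOperatorsCommuteBar m)
          (Fermat.Agent.Cofaith.smulCommClass_JZero m))) hp hpS hmS hfrob habs n
    have hsum : ∀ {X : Type} [AddCommGroup X] (F : GQ → X),
        ((Finsupp.single σ 1 + Finsupp.single 1 (-1) : GQ →₀ ℤ).sum fun g c => c • F g) =
          F σ - F 1 := by
      intro X _ F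
      rw [Finsupp.sum_add_index' (h := fun g c => c • F g) (fun _ => zero_smul _ _)
        (fun _ _ _ => add_smul _ _ _),
        Finsupp.sum_single_index (h := fun g c => c • F g) (zero_smul _ _),
        Finsupp.sum_single_index (h := fun g c => c • F g) (zero_smul _ _), one_smul, neg_smul,
        one_smul, sub_eq_add_neg]
    have h1 := hk (Finsupp.single σ 1 + Finsupp.single 1 (-1)) (fun x hx => by
      rw [hsum (fun g => g • x), hσ k x hx, one_smul, sub_self]) v
    rw [hsum (fun g => ρ.ρ g v), map_one, Module.End.one_apply] at h1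
    refine Submodule.smul_mono_left ?_ h1
    rw [Ideal.span_singleton_le_iff_mem]
    exact Ideal.pow_mem_pow hpO n
  rw [hkrull] at hmem
  exact hmem

/-- Unramifiedness outside `m p`. -/
theorem eq_one_of_inertia (hp : p.Prime) (hpO : (p : O) ∈ maximalIdeal O) (hpS : p ∈ S)
    (hmS : ∀ q : ℕ, q.Prime → q ∣ m → q ∈ S)
    {π : heckeAlgebra m 2 (↑S : Set ℕ) →+* O} {ρ : GaloisRepAdic O}
    (hfrob : HasFrobCharpoly π ρ) (habs : ρ.residual.IsAbsolutelyIrreducible)
    {v : ℕ} (hv : v.Prime) (hvm : ¬ v ∣ m * p) {A : ValuationSubring (AlgebraicClosure ℚ)}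
    (hA : A.LiesOverPrime v) {σ : GQ} (hσ : σ ∈ A.inertiaSubgroupIn ℚ) : ρ.ρ σ = 1 := by
  refine sub_mem_of_forall_JZero hp hpO hpS hmS hfrob habs fun k x hx => ?_
  letI := heckeModuleBar m
  haveI := Fermat.Agent.Cofaith.smulCommClass_JZero m
  haveI : Fact p.Prime := ⟨hp⟩
  have hES := Fermat.Agent.Cofaith.esInput_JZero m hp (↑S : Set ℕ)
    (fun ℓ hℓ hd => by simpa using hmS ℓ hℓ hd)
    (Fermat.Agent.S37.result m p (Fermat.Agent.HeckeComm.heckeOperatorsCommuteBar m)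
      (Fermat.Agent.Cofaith.smulCommClass_JZero m))
  exact hES.unramified v hv hvm A hA σ hσ x ⟨k, hx⟩

end

/-- **Newness at an odd ramified prime.** -/
theorem hnew_ram {N m : ℕ} [NeZero N] [NeZero m] {S : Finset ℕ}
    {O : Type} [CommRing O] [IsLocalRing O] [IsNoetherianRing O] {rbar : GQ →* M2 (ZMod 2)}
    (h2S : 2 ∈ S) (hNS : ∀ q : ℕ, q.Prime → q ∣ N → q ∈ S)
    (hmS : ∀ q : ℕ, q.Prime → q ∣ m → q ∈ S) (h2O : ((2 : ℕ) : O) ∈ maximalIdeal O)
    {π : heckeAlgebra N 2 (↑S : Set ℕ) →+* O} {ρ : GaloisRepAdic O}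
    (hfrob : HasFrobCharpoly π ρ) (habs : ρ.residual.IsAbsolutelyIrreducible)
    {S₀ : Finset ℕ} (hres : Gal.ResData S₀ rbar) (htr : TraceRed ρ rbar)
    {v : ℕ} (hv : v ∈ S₀) (hv2 : v ≠ 2) (hvm : ¬ v ∣ m) :
    ∃ t : HeckeAlgS (↑S : Set ℕ), evS m (↑S : Set ℕ) t = 0 ∧ π (evS N (↑S : Set ℕ) t) ≠ 0 := by
  have hvp := hres.primes v hv
  obtain ⟨A, hA⟩ := Fermat.Agent.Frob.exists_liesOverPrime v hvp
  obtain ⟨σ, hσ, hne⟩ := hres.ram v hv A hA
  by_contra hcon
  push Not at hcon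
  obtain ⟨π', hπ'⟩ := exists_factor_evS (m := m) π hcon
  have hfrob' := hasFrobCharpoly_factor hNS hfrob hπ'
  obtain ⟨w, hw⟩ := exists_not_mem_of_rbar_ne_one hres.surj (det_rbar rbar) htr hne
  have h1 : ρ.ρ σ = 1 := eq_one_of_inertia Nat.prime_two h2O h2S hmS hfrob' habs hvp (fun h => by
    rcases hvp.dvd_mul.mp h with h | h
    · exact hvm h
    · exact hv2 ((Nat.prime_dvd_prime_iff_eq hvp Nat.prime_two).mp h)) hA hσ
  rw [h1, Module.End.one_apply, sub_self] at hw
  exact hw (Submodule.zero_mem _)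

end Fermat.Agent.LTF

end
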