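import Fermat.Agent.HeckeRep.Relation
import Fermat.Agent.S35_Separate

/-!
# From "the system of `f` is new at every prime of the level" to `f.IsNewform`
-/

set_option autoImplicit false
set_option linter.style.haveILetI false

noncomputable section

open CuspForm ModularFormClass CongruenceSubgroup Fermat.Agent.GalRep FermatAgent.HeckeEigen

namespace Fermat.Agent.LTF.NewformOf

/-- the character of the Hecke polynomials attached to a form -/
def chr {N : ℕ} (S : Set ℕ) (f : CuspForm (Gamma0 N) 2) : HeckeAlgS S →+* ℂ :=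
  MvPolynomial.eval₂Hom (Int.castRingHom ℂ) (fun ℓ => qCoeff ⇑f (ℓ.1 : ℕ))

lemma chr_X {N : ℕ} (S : Set ℕ) (f : CuspForm (Gamma0 N) 2)
    (ℓ : {ℓ : Nat.Primes // (ℓ : ℕ) ∉ S}) :
    chr S f (MvPolynomial.X ℓ) = qCoeff ⇑f (ℓ.1 : ℕ) := by
  rw [chr, MvPolynomial.coe_eval₂Hom, MvPolynomial.eval₂_X]

/-- Hecke polynomials act on a normalised eigenform by their value at the eigenvalues. -/
theorem evS_apply {N : ℕ} [NeZero N] (S : Finset ℕ) {f : CuspForm (Gamma0 N) 2}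
    (hf : f.IsNormalizedEigenform) (t : HeckeAlgS (↑S : Set ℕ)) :
    ((evS N (↑S : Set ℕ) t : heckeAlgebra N 2 (↑S : Set ℕ)) :
      Module.End ℂ (CuspForm (Gamma0 N) 2)) f = chr (↑S : Set ℕ) f t • f := by
  refine S35aux.evS_apply_of_eigen (chr _ f) f (fun ℓ => ?_) t
  rw [chr_X]
  exact heckeOp_eq_of_isNormalizedEigenform hf ℓ.1

lemma chr_congr {N N' : ℕ} (S : Set ℕ) (f : CuspForm (Gamma0 N) 2) (g : CuspForm (Gamma0 N') 2)
    (h : ∀ ℓ : ℕ, ℓ.Prime → ℓ ∉ S → qCoeff ⇑g ℓ = qCoeff ⇑f ℓ) : chr S g = chr S f := by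
  refine MvPolynomial.ringHom_ext (fun a => ?_) (fun ℓ => ?_)
  · simp [chr]
  · rw [chr_X, chr_X, h _ ℓ.1.2 ℓ.2]

/-- If for every prime `v ∣ M` some Hecke polynomial vanishing at level `M / v` does not kill
`f`, then `f` is a newform. -/
theorem isNewform_of_hnew {M : ℕ} [NeZero M] (S : Finset ℕ)
    (hS : ∀ ℓ : ℕ, ℓ.Prime → ℓ ∣ M → ℓ ∈ S) {f : CuspForm (Gamma0 M) 2}
    (hf : f.IsNormalizedEigenform)
    (hnew : ∀ v : ℕ, v.Prime → v ∣ M → ∀ [NeZero (M / v)], ∃ t : HeckeAlgS (↑S : Set ℕ),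
      evS (M / v) (↑S : Set ℕ) t = 0 ∧
      ((evS M (↑S : Set ℕ) t : heckeAlgebra M 2 (↑S : Set ℕ)) :
        Module.End ℂ (CuspForm (Gamma0 M) 2)) f ≠ 0) : f.IsNewform := by
  refine ⟨hf, fun M' hM' hne => ?_⟩
  rintro ⟨g, hg, hgf⟩
  have hM0 : M ≠ 0 := NeZero.ne M
  have hM'0 : M' ≠ 0 := by
    rintro rfl
    exact hM0 (Nat.eq_zero_of_zero_dvd hM')
  haveI : NeZero M' := ⟨hM'0⟩
  obtain ⟨d, rfl⟩ := hM'
  have hd1 : d ≠ 1 := by
    rintro rfl
    exact hne (mul_one M').symm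
  obtain ⟨v, hv, hvd⟩ := Nat.exists_prime_and_dvd hd1
  obtain ⟨e, rfl⟩ := hvd
  have he0 : e ≠ 0 := by
    rintro rfl
    exact hM0 (by simp)
  have hdiv : M' * (v * e) / v = M' * e := by
    rw [show M' * (v * e) = v * (M' * e) by ring]
    exact Nat.mul_div_cancel_left _ hv.pos
  haveI hne' : NeZero (M' * (v * e) / v) := ⟨by rw [hdiv]; exact mul_ne_zero hM'0 he0⟩
  obtain ⟨t, ht0, ht1⟩ := hnew v hv ⟨M' * e, by ring⟩
  have h1 : evS M' (↑S : Set ℕ) t = 0 := by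
    refine HeckeRep.evS_eq_zero_of_dvd (M := M' * (v * e) / v) (M' := M') ?_ (fun ℓ hℓ hd => ?_) ht0
    · rw [hdiv]
      exact dvd_mul_right _ _
    · exact hS ℓ hℓ (hd.trans (by rw [hdiv]; exact ⟨v, by ring⟩))
  have h2 := evS_apply S hg t
  rw [h1] at h2
  have h3 : chr (↑S : Set ℕ) g t = 0 := by
    have h4 : chr (↑S : Set ℕ) g t • g = 0 := by rw [← h2]; rfl
    exact (smul_eq_zero.mp h4).resolve_right hg.ne_zero
  have h5 : chr (↑S : Set ℕ) g = chr (↑S : Set ℕ) f :=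
    chr_congr _ f g fun ℓ hℓ hℓS => hgf ℓ hℓ fun hd => hℓS (hS ℓ hℓ hd)
  apply ht1
  rw [evS_apply S hf t, ← h5, h3, zero_smul]

end Fermat.Agent.LTF.NewformOf

end
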