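import Fermat.Agent.LTF.Loc2TMain
import Fermat.Agent.S33.OrdN

/-!
# [LOC2-T]: the local condition at two for systems new at two
-/

set_option autoImplicit false
set_option linter.unusedSectionVars false

noncomputable section

open ModularCurve CuspForm
open Fermat.Agent.GalRep
open Fermat.Agent.QX4

namespace Fermat.Agent.LTF.Loc2T

/-- **(ORD-N)** at two. -/
theorem ordTwo {m : ℕ} [NeZero m] (hm : ¬ 2 ∣ m) {A : ValuationSubring (AlgebraicClosure ℚ)}
    (hA : A.LiesOverPrime 2) : OrdTwo hm hA := by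
  intro _ Y hYW hY2 hYα hYw _ τ hτ x hx
  have hfin : (Y : Set (JZero (m * 2))).Finite :=
    (Fermat.Agent.Cofaith.finite_torsion_set (m * 2) two_ne_zero).subset fun x hx => hY2 x hx
  have h := S33aux.ordN_twoComp_push (p := 2) Nat.prime_two hm hA (X := Y) hfin hY2 hYw hYα
    (fun x hx => hYW hx) hτ (a := 1) (fun μ hμ => ?_) hx
  · rwa [one_smul] at h
  · rw [pow_one]
    rcases sq_eq_one_iff.mp hμ with h1 | h1
    · rw [h1, map_one]
    · rw [h1, map_neg, map_one]

variable {m : ℕ} [NeZero m] {S : Finset ℕ} {O : Type} [CommRing O] [IsDomain O]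
  [IsDiscreteValuationRing O]

/-- **[LOC2-T]**: a system of eigenvalues of level `2m`, `m` odd, which does not occur at level
`m` and whose residual representation is ramified at two is Steinberg up to an unramified
quadratic twist at all places above two. -/
theorem loc2_new [CharZero O] (hm : ¬ 2 ∣ m) (h2S : 2 ∈ S)
    (hNS : ∀ q : ℕ, q.Prime → q ∣ m * 2 → q ∈ S)
    (h2 : (2 : O) ∈ IsLocalRing.maximalIdeal O)
    {π : heckeAlgebra (m * 2) 2 (↑S : Set ℕ) →+* O} {ρ : GaloisRepAdic O}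
    (hfrob : HasFrobCharpoly π ρ) (habs : ρ.residual.IsAbsolutelyIrreducible)
    (hnew : ∃ t₀ : HeckeAlgS (↑S : Set ℕ), evS m (↑S : Set ℕ) t₀ = 0 ∧
      π (evS (m * 2) (↑S : Set ℕ) t₀) ≠ 0)
    (hram : ∃ A : ValuationSubring (AlgebraicClosure ℚ), A.LiesOverPrime 2 ∧
      ∃ τ ∈ A.inertiaSubgroupIn ℚ, ∃ v : ρ.V, ρ.ρ τ v - v ∉
        (IsLocalRing.maximalIdeal O) • (⊤ : Submodule O ρ.V)) :
    ∃ U : O, (U = 1 ∨ U = -1) ∧
      ∀ A : ValuationSubring (AlgebraicClosure ℚ), A.LiesOverPrime 2 → StEnd 2 A ρ.ρ U :=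
  loc2_of_ordTwo hm (fun _ hA => ordTwo hm hA) h2S hNS h2 hfrob habs hnew hram

end Fermat.Agent.LTF.Loc2T

end
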