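import Fermat.Agent.LTF.BLR

/-!
# (GAMMA-ABS): removal of `q` without loss, abstract part

`X` is a module over `ZMod (2^k)` on which `G` acts through matrices `ρ g`, `w` commutes with `G`.
If `ρ φ` is not scalar modulo `2` then on `e_{ii} X` the operator `φ` is nowhere `-q w`, hence any
additive map `spl` with `spl y = 0 → φ (u y) = - q w (u y)` keeps an element of exact order `2^k`.
-/

set_option autoImplicit false

namespace Fermat.Agent.LTF.GammaAbs

open Matrix Fermat.Agent.Ribet

section Core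

variable {T : Type*} [CommRing T] {X : Type*} [AddCommGroup X] [Module T X]
variable (Ψ : Matrix (Fin 2) (Fin 2) T →ₐ[T] Module.End T X)

theorem core_zero {w : Module.End T X} (hw : ∀ A, Commute w (Ψ A)) (A : Matrix (Fin 2) (Fin 2) T)
    {i j : Fin 2} (hij : i ≠ j) (hA : IsUnit (A j i)) {u : T} (hu : IsUnit u) (q : T) {y : X}
    (hy : Ψ (Matrix.single i i 1) y = y) (h : Ψ A (u • y) = -(q • w (u • y))) : y = 0 := by
  -- apply `Ψ (e_{ij})` to both sides
  have h1 := congrArg (Ψ (Matrix.single i j 1)) h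
  have e0 : Ψ (Matrix.single i j 1) y = 0 := by
    have : Ψ (Matrix.single i j 1) y = (Ψ (Matrix.single i j 1) * Ψ (Matrix.single i i 1)) y := by
      rw [Module.End.mul_apply, hy]
    rw [this, ← map_mul, Matrix.single_mul_single_of_ne _ _ _ _ (Ne.symm hij), map_zero]
    rfl
  have e1 : Ψ (Matrix.single i j 1) (Ψ A y) = A j i • y := by
    have h2 : Matrix.single i j (1 : T) * A * Matrix.single i i 1 = A j i • Matrix.single i i 1 := by
      rw [Matrix.single_mul_mul_single, Matrix.smul_single]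
      simp
    have : Ψ (Matrix.single i j 1) (Ψ A y) =
        (Ψ (Matrix.single i j 1) * Ψ A * Ψ (Matrix.single i i 1)) y := by
      rw [Module.End.mul_apply, Module.End.mul_apply, hy]
    rw [this, ← map_mul, ← map_mul, h2, map_smul, LinearMap.smul_apply, hy]
  have e2 : Ψ (Matrix.single i j 1) (w y) = 0 := by
    have : Ψ (Matrix.single i j 1) (w y) = w (Ψ (Matrix.single i j 1) y) :=
      (DFunLike.congr_fun (hw (Matrix.single i j 1)).eq y).symm
    rw [this, e0, map_zero]
  simp only [map_smul, map_neg, e1, e2, smul_zero, neg_zero] at h1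
  have hAu : IsUnit (u * A j i) := hu.mul hA
  rw [← mul_smul] at h1
  obtain ⟨v, hv⟩ := hAu
  rw [← hv] at h1
  have : (↑v⁻¹ * ↑v : T) • y = 0 := by rw [mul_smul, h1, smul_zero]
  rwa [Units.inv_mul, one_smul] at this

/-- An element of exact order in `e_{ii} X`. -/
theorem core_exists (i : Fin 2) (c : T) {x : X} (hx : c • x ≠ 0) :
    ∃ y : X, Ψ (Matrix.single i i 1) y = y ∧ c • y ≠ 0 := by
  have hii : ∀ j z, Ψ (Matrix.single i i 1) (Ψ (Matrix.single i j 1) z) =
      Ψ (Matrix.single i j 1) z := by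
    intro j z
    rw [← Module.End.mul_apply, ← map_mul, Matrix.single_mul_single_same, mul_one]
  by_cases h : ∃ j, c • Ψ (Matrix.single i j 1) x ≠ 0
  · obtain ⟨j, hj⟩ := h
    exact ⟨_, hii j x, hj⟩
  · push Not at h
    exfalso
    apply hx
    have hone : (1 : Matrix (Fin 2) (Fin 2) T) =
        Matrix.single 0 i 1 * Matrix.single i 0 1 + Matrix.single 1 i 1 * Matrix.single i 1 1 := by
      rw [Matrix.single_mul_single_same, Matrix.single_mul_single_same, mul_one]
      ext a b
      fin_cases a <;> fin_cases b <;> simp [Matrix.single]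
    have hx' : x = Ψ (Matrix.single 0 i 1) (Ψ (Matrix.single i 0 1) x) +
        Ψ (Matrix.single 1 i 1) (Ψ (Matrix.single i 1 1) x) := by
      have : x = Ψ 1 x := by rw [map_one]; rfl
      conv_lhs => rw [this, hone, map_add, map_mul, map_mul]
      rfl
    have hz : ∀ a j, c • Ψ (Matrix.single a i 1) (Ψ (Matrix.single i j 1) x) = 0 := by
      intro a j
      have e := (Ψ (Matrix.single a i 1)).map_smul c (Ψ (Matrix.single i j 1) x)
      rw [← e, h j, map_zero]
    rw [hx', smul_add, hz, hz, add_zero]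

/-- **Core of (GAMMA)**. -/
theorem core {w : Module.End T X} (hw : ∀ A, Commute w (Ψ A)) (A : Matrix (Fin 2) (Fin 2) T)
    {i j : Fin 2} (hij : i ≠ j) (hA : IsUnit (A j i)) {u : T} (hu : IsUnit u) (q : T)
    {J' : Type*} [AddCommGroup J'] (spl : X →+ J') (n : ℕ)
    (hspl : ∀ y, spl y = 0 → Ψ A (u • y) = -(q • w (u • y))) {x : X} (hx : n • x ≠ 0) :
    ∃ y : X, n • spl y ≠ 0 := by
  obtain ⟨y, hy, hny⟩ := core_exists Ψ i (n : T) (x := x) (by rwa [Nat.cast_smul_eq_nsmul])
  refine ⟨y, fun h => hny ?_⟩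
  rw [← map_nsmul] at h
  have hy' : Ψ (Matrix.single i i 1) (n • y) = n • y := by rw [map_nsmul, hy]
  rw [Nat.cast_smul_eq_nsmul]
  exact core_zero Ψ hw A hij hA hu q hy' (hspl _ h)

end Core

section ModTwo

/-- Units of `ZMod (2^k)` are detected modulo `2`. -/
theorem isUnit_of_castHom_ne_zero {k : ℕ} (hk : 0 < k) (a : ZMod (2 ^ k))
    (ha : ZMod.castHom (dvd_pow_self 2 hk.ne') (ZMod 2) a ≠ 0) : IsUnit a := by
  have hne : NeZero (2 ^ k) := ⟨pow_ne_zero _ two_ne_zero⟩
  rw [← ZMod.natCast_zmod_val a] at ha ⊢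
  rw [map_natCast] at ha
  rw [ZMod.isUnit_iff_coprime]
  refine Nat.Coprime.pow_right k ?_
  rw [Nat.coprime_comm, Nat.Prime.coprime_iff_not_dvd Nat.prime_two]
  intro h
  exact ha ((ZMod.natCast_eq_zero_iff _ _).mpr h)

/-- A matrix over `ZMod (2^k)` which is invertible and not `1` modulo `2` has an off-diagonal unit. -/
theorem exists_offdiag_unit {k : ℕ} (hk : 0 < k) (A : Matrix (Fin 2) (Fin 2) (ZMod (2 ^ k)))
    (hdet : IsUnit A.det)
    (hA : A.map (ZMod.castHom (dvd_pow_self 2 hk.ne') (ZMod 2)) ≠ 1) :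
    ∃ i j : Fin 2, i ≠ j ∧ IsUnit (A j i) := by
  set f := ZMod.castHom (dvd_pow_self 2 hk.ne') (ZMod 2) with hf
  by_contra hcon
  push Not at hcon
  have h10 : f (A 1 0) = 0 := by
    by_contra h
    exact hcon 0 1 (by decide) (isUnit_of_castHom_ne_zero hk _ h)
  have h01 : f (A 0 1) = 0 := by
    by_contra h
    exact hcon 1 0 (by decide) (isUnit_of_castHom_ne_zero hk _ h)
  have hd : f A.det ≠ 0 := (hdet.map f).ne_zero
  rw [Matrix.det_fin_two, map_sub, map_mul, map_mul, h10, h01, mul_zero, sub_zero] at hd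
  have h2 : ∀ z : ZMod 2, z ≠ 0 → z = 1 := by decide
  have h00 := h2 _ (left_ne_zero_of_mul hd)
  have h11 := h2 _ (right_ne_zero_of_mul hd)
  apply hA
  ext a b
  fin_cases a <;> fin_cases b
  · exact h00
  · exact h01
  · exact h10
  · exact h11

end ModTwo

section Span

variable {G J : Type*} [Group G] [AddCommGroup J] [DistribMulAction G J]

/-- The subgroup generated by all `w^i (g x)`. -/
def gspan (G : Type*) {J : Type*} [Group G] [AddCommGroup J] [DistribMulAction G J] (w : J →+ J)
    (x : J) : AddSubgroup J :=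
  AddSubgroup.closure {z | ∃ (i : ℕ) (g : G), z = w^[i] (g • x)}

theorem mem_gspan (w : J →+ J) (x : J) : x ∈ gspan G w x :=
  AddSubgroup.subset_closure ⟨0, 1, by simp⟩

theorem smul_mem_gspan {w : J →+ J} (hw : ∀ (g : G) (y : J), w (g • y) = g • w y) {x : J} (g : G)
    {y : J} (hy : y ∈ gspan G w x) : g • y ∈ gspan G w x := by
  have hiter : ∀ (i : ℕ) (y : J), g • (w^[i] y) = w^[i] (g • y) := by
    intro i
    induction i with
    | zero => intro y; rfl
    | succ i ih => intro y; rw [Function.iterate_succ_apply, Function.iterate_succ_apply, ih, hw]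
  induction hy using AddSubgroup.closure_induction with
  | mem z hz =>
    obtain ⟨i, h, rfl⟩ := hz
    refine AddSubgroup.subset_closure ⟨i, g * h, ?_⟩
    rw [hiter, mul_smul]
  | zero => rw [smul_zero]; exact AddSubgroup.zero_mem _
  | add a b _ _ ha hb => rw [smul_add]; exact AddSubgroup.add_mem _ ha hb
  | neg a _ ha => rw [smul_neg]; exact AddSubgroup.neg_mem _ ha

theorem w_mem_gspan {w : J →+ J} {x y : J} (hy : y ∈ gspan G w x) : w y ∈ gspan G w x := by
  induction hy using AddSubgroup.closure_induction with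
  | mem z hz =>
    obtain ⟨i, h, rfl⟩ := hz
    exact AddSubgroup.subset_closure ⟨i + 1, h, by rw [Function.iterate_succ_apply']⟩
  | zero => rw [map_zero]; exact AddSubgroup.zero_mem _
  | add a b _ _ ha hb => rw [map_add]; exact AddSubgroup.add_mem _ ha hb
  | neg a _ ha => rw [map_neg]; exact AddSubgroup.neg_mem _ ha

/-- An additive map commuting with `G` and `w` which acts on `x` by the integer `a` acts on the whole
span by `a`. -/
theorem eig_gspan {w : J →+ J} {x : J} (T : J →+ J) (hTg : ∀ (g : G) (y : J), T (g • y) = g • T y)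
    (hTw : ∀ y, T (w y) = w (T y)) (a : ℤ) (hx : T x = a • x) {y : J} (hy : y ∈ gspan G w x) :
    T y = a • y := by
  have hTiter : ∀ (i : ℕ) (y : J), T (w^[i] y) = w^[i] (T y) := by
    intro i
    induction i with
    | zero => intro y; rfl
    | succ i ih => intro y; rw [Function.iterate_succ_apply, Function.iterate_succ_apply, ih, hTw]
  have hiter : ∀ (i : ℕ) (y : J), w^[i] (a • y) = a • w^[i] y := by
    intro i
    induction i with
    | zero => intro y; rfl
    | succ i ih => intro y; rw [Function.iterate_succ_apply, Function.iterate_succ_apply, map_zsmul,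
        ih]
  induction hy using AddSubgroup.closure_induction with
  | mem z hz =>
    obtain ⟨i, h, rfl⟩ := hz
    rw [hTiter, hTg, hx, smul_comm h a x, hiter]
  | zero => rw [map_zero, smul_zero]
  | add b c _ _ hb hc => rw [map_add, smul_add, hb, hc]
  | neg b _ hb => rw [map_neg, smul_neg, hb]

theorem nsmul_gspan {w : J →+ J} {x : J} (n : ℕ) (hx : n • x = 0) {y : J}
    (hy : y ∈ gspan G w x) : n • y = 0 := by
  have hiter : ∀ (i : ℕ) (y : J), w^[i] (n • y) = n • w^[i] y := by
    intro i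
    induction i with
    | zero => intro y; rfl
    | succ i ih => intro y; rw [Function.iterate_succ_apply, Function.iterate_succ_apply, map_nsmul,
        ih]
  have h0 : ∀ i : ℕ, w^[i] (0 : J) = 0 := by
    intro i
    induction i with
    | zero => rfl
    | succ i ih => rw [Function.iterate_succ_apply, map_zero, ih]
  induction hy using AddSubgroup.closure_induction with
  | mem z hz =>
    obtain ⟨i, h, rfl⟩ := hz
    rw [← hiter, ← smul_comm h n x, hx, smul_zero, h0]
  | zero => rw [smul_zero]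
  | add b c _ _ hb hc => rw [smul_add, hb, hc, add_zero]
  | neg b _ hb => rw [smul_neg, hb, neg_zero]

end Span

section Ambient

variable {G J : Type*} [Group G] [AddCommGroup J] [DistribMulAction G J]

/-- **(GAMMA-ABS)**, ambient version. `T ℓ` (`ℓ ∈ Λ`) is a family of operators commuting with `G` and
`w`, `x` is an eigenvector of exact order `2^k`; Eichler–Shimura holds on all eigenvectors
with the eigenvalues `a`. `spl` is defined on a subgroup `H` containing all elements killed by `2^k`
and fixed by `ker ρ`. -/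
theorem ambient {k : ℕ} (w : J →+ J) (hw : ∀ (g : G) (y : J), w (g • y) = g • w y)
    {Λ : Type*} (T : Λ → J →+ J) (a : Λ → ℤ)
    (hTg : ∀ ℓ (g : G) (y : J), T ℓ (g • y) = g • T ℓ y) (hTw : ∀ ℓ y, T ℓ (w y) = w (T ℓ y))
    (ρ : G →* Matrix (Fin 2) (Fin 2) (ZMod (2 ^ k)))
    (hspan : Submodule.span (ZMod (2 ^ k)) (Set.range ρ) = ⊤)
    (hES : ∀ (g : G) (y : J), 2 ^ k • y = 0 → (∀ ℓ, T ℓ y = a ℓ • y) →
      g • g • y + (ρ g).det.val • y = (ρ g).trace.val • (g • y))
    (φ : G) (hφ : ∃ i j : Fin 2, i ≠ j ∧ IsUnit (ρ φ j i)) {u : ℤ} (hu : Odd u) (q : ℕ)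
    (H : AddSubgroup J) (hH : ∀ y : J, 2 ^ k • y = 0 → (∀ g : G, ρ g = 1 → g • y = y) → y ∈ H)
    {J' : Type*} [AddCommGroup J'] (spl : H →+ J')
    (hspl : ∀ y : H, (∀ ℓ, T ℓ (y : J) = a ℓ • (y : J)) → spl y = 0 →
      φ • (u • (y : J)) = -(q • w (u • (y : J))))
    {x : J} (hx : 2 ^ k • x = 0) (hTx : ∀ ℓ, T ℓ x = a ℓ • x) (hx' : 2 ^ (k - 1) • x ≠ 0) :
    ∃ y : H, 2 ^ k • (y : J) = 0 ∧ (∀ ℓ, T ℓ (y : J) = a ℓ • (y : J)) ∧
      2 ^ (k - 1) • spl y ≠ 0 := by
  set X : AddSubgroup J := gspan G w x with hX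
  have hXT : ∀ y ∈ X, ∀ ℓ, T ℓ y = a ℓ • y := fun y hy ℓ =>
    eig_gspan (T ℓ) (hTg ℓ) (hTw ℓ) (a ℓ) (hTx ℓ) hy
  have hX2 : ∀ y ∈ X, 2 ^ k • y = 0 := fun y hy => nsmul_gspan _ hx hy
  have hne : NeZero (2 ^ k) := ⟨pow_ne_zero _ two_ne_zero⟩
  have inst : Module (ZMod (2 ^ k)) X := AddCommGroup.zmodModule (n := 2 ^ k) (fun y => Subtype.ext (by
    rw [AddSubgroup.coe_nsmul]; exact hX2 y y.2))
  have hval : ∀ (c : ZMod (2 ^ k)) (y : X), c • y = c.val • y := by
    intro c y
    conv_lhs => rw [← ZMod.natCast_zmod_val c]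
    rw [Nat.cast_smul_eq_nsmul]
  let rf : G → (X →ₗ[ZMod (2 ^ k)] X) := fun g =>
    { toFun := fun y => ⟨g • (y : J), smul_mem_gspan hw g y.2⟩
      map_add' := fun y z => Subtype.ext (smul_add g (y : J) z)
      map_smul' := fun c y => by
        rw [RingHom.id_apply, hval, hval]
        refine Subtype.ext ?_
        change g • ((c.val • y : X) : J) =
          ((c.val • (⟨g • (y : J), smul_mem_gspan hw g y.2⟩ : X) : X) : J)
        rw [AddSubgroup.coe_nsmul, AddSubgroup.coe_nsmul]
        exact smul_comm g c.val (y : J) }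
  have hrf : ∀ g (y : X), ((rf g y : X) : J) = g • (y : J) := fun g y => rfl
  let r : G →* Module.End (ZMod (2 ^ k)) X :=
    { toFun := rf
      map_one' := by
        refine LinearMap.ext fun y => Subtype.ext ?_
        rw [hrf, one_smul]; rfl
      map_mul' := fun g h => by
        refine LinearMap.ext fun y => Subtype.ext ?_
        change ((rf (g * h) y : X) : J) = ((rf g (rf h y) : X) : J)
        rw [hrf, hrf, hrf, mul_smul] }
  have hr : ∀ g (y : X), ((r g y : X) : J) = g • (y : J) := fun g y => rfl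
  let W : Module.End (ZMod (2 ^ k)) X :=
    { toFun := fun y => ⟨w y, w_mem_gspan y.2⟩
      map_add' := fun y z => Subtype.ext (map_add w (y : J) z)
      map_smul' := fun c y => by
        rw [RingHom.id_apply, hval, hval]
        refine Subtype.ext ?_
        change w ((c.val • y : X) : J) = ((c.val • (⟨w y, w_mem_gspan y.2⟩ : X) : X) : J)
        rw [AddSubgroup.coe_nsmul, AddSubgroup.coe_nsmul]
        exact map_nsmul w c.val (y : J) }
  have hW : ∀ y : X, ((W y : X) : J) = w y := fun y => rfl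
  have hESr : ESRel r ρ := by
    refine esRel_of_quadratic fun g => ?_
    ext y
    have h := hES g y (hX2 y y.2) (hXT y y.2)
    rw [LinearMap.add_apply, LinearMap.sub_apply, LinearMap.smul_apply, LinearMap.smul_apply,
      Module.End.mul_apply, hval, hval]
    push_cast
    rw [hr, hr, LinearMap.zero_apply]
    change g • g • (y : J) - (ρ g).trace.val • (g • (y : J)) + (ρ g).det.val • (y : J) = 0
    rw [← h]; abel
  obtain ⟨Ψ, hΨ⟩ := BLR.exists_algHom hESr hspan
  have hWΨ : ∀ A, Commute W (Ψ A) := by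
    intro A
    have hA : A ∈ Submodule.span (ZMod (2 ^ k)) (Set.range ρ) := by rw [hspan]; trivial
    induction hA using Submodule.span_induction with
    | mem A hA =>
      obtain ⟨g, rfl⟩ := hA
      rw [hΨ]
      ext y
      change w (g • (y : J)) = g • w y
      exact hw g y
    | zero => rw [map_zero]; exact Commute.zero_right _
    | add A B _ _ hA hB => rw [map_add]; exact hA.add_right hB
    | smul c A _ hA => rw [map_smul]; exact hA.smul_right c
  obtain ⟨i, j, hij, hA⟩ := hφ
  have hfix : ∀ y : X, (y : J) ∈ H := by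
    intro y
    refine hH y (hX2 y y.2) fun g hg => ?_
    have : r g y = y := by rw [← hΨ, hg, map_one]; rfl
    exact congrArg Subtype.val this
  let inc : X →+ H :=
    { toFun := fun y => ⟨y, hfix y⟩
      map_zero' := rfl
      map_add' := fun _ _ => rfl }
  have huu : IsUnit ((u : ZMod (2 ^ k))) := by
    rw [ZMod.coe_int_isUnit_iff_isCoprime]
    push_cast
    refine IsCoprime.pow_left ?_
    obtain ⟨m, rfl⟩ := hu
    exact ⟨-m, 1, by ring⟩
  have hcore := core Ψ hWΨ (ρ φ) hij hA huu (q : ZMod (2 ^ k)) (spl.comp inc) (2 ^ (k - 1))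
    (x := ⟨x, mem_gspan w x⟩) (fun y hy => by
      have h1 := hspl (inc y) (hXT y y.2) hy
      rw [hΨ]
      refine Subtype.ext ?_
      rw [Int.cast_smul_eq_zsmul, Nat.cast_smul_eq_nsmul, AddSubgroup.coe_neg,
        AddSubgroup.coe_nsmul, hr, hW, AddSubgroup.coe_zsmul]
      exact h1) (fun h => hx' (by simpa using congrArg Subtype.val h))
  obtain ⟨y, hy⟩ := hcore
  exact ⟨inc y, hX2 y y.2, hXT y y.2, hy⟩

end Ambient

end Fermat.Agent.LTF.GammaAbs
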