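import Fermat.Agent.S41.Ihara

/-!
# Ihara's lemma for parabolic characters with arbitrary coefficients

`Fermat.Agent.S41aux.ihara` for an arbitrary group of coefficients (for instance `μ_{2^k}`).
-/

set_option autoImplicit false

open Matrix CongruenceSubgroup
open scoped MatrixGroups

namespace Fermat.Agent.LTF.Ihara

open Fermat.Agent.HeckePar Fermat.Agent.S41aux

variable {A : Type*} [AddCommGroup A] {N q : ℕ} {S : ℕ → Prop}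

/-- A set of parabolic characters of `Γ₀(N)`, stable under the Hecke operators, without Eisenstein
part. -/
structure NonEisSet (N : ℕ) (S : ℕ → Prop) (H : Set (Additive (Gamma0 N) →+ A)) : Prop where
  par : ∀ ψ ∈ H, KillsPar ψ
  hecke : ∀ (ℓ : ℕ) [Fact ℓ.Prime], S ℓ → ∀ ψ ∈ H, (heckeSys N ℓ).addTransfer ψ ∈ H
  sub : ∀ ψ ∈ H, ∀ φ ∈ H, ψ - φ ∈ H
  ne1 : ∀ M : ℕ, 0 < M → ∃ (ℓ : ℕ) (hℓ : ℓ.Prime), S ℓ ∧ (M : ℤ) ∣ ℓ - 1 ∧ ∀ ψ ∈ H,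
    (haveI : Fact ℓ.Prime := ⟨hℓ⟩; (heckeSys N ℓ).addTransfer ψ) = (ℓ + 1) • ψ → ψ = 0
  ne2 : ∀ M : ℕ, 0 < M → ∃ (ℓ : ℕ) (hℓ : ℓ.Prime), S ℓ ∧ ¬ ℓ ∣ M ∧ ∀ ψ ∈ H,
    (haveI : Fact ℓ.Prime := ⟨hℓ⟩; (heckeSys N ℓ).addTransfer ((heckeSys N ℓ).addTransfer ψ)) =
      ((ℓ + 1) * (ℓ + 1)) • ψ → ψ = 0

namespace NonEisSet

variable {H : Set (Additive (Gamma0 N) →+ A)}

theorem zero_mem (h : NonEisSet N S H) {ψ : Additive (Gamma0 N) →+ A} (hψ : ψ ∈ H) :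
    (0 : Additive (Gamma0 N) →+ A) ∈ H := by
  rw [← sub_self ψ]
  exact h.sub ψ hψ ψ hψ

theorem nsmul_mem (h : NonEisSet N S H) {ψ : Additive (Gamma0 N) →+ A} (hψ : ψ ∈ H) (n : ℕ) :
    n • ψ ∈ H := by
  induction n with
  | zero => rw [zero_nsmul]; exact h.zero_mem hψ
  | succ n ih =>
    have h1 : (n + 1) • ψ = n • ψ - (0 - ψ) := by rw [succ_nsmul]; abel
    rw [h1]
    exact h.sub _ ih _ (h.sub _ (h.zero_mem hψ) _ hψ)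

/-- The heart of Ihara's lemma. -/
theorem core (hne : NonEisSet N S H) (hq : q.Prime) (hqN : ¬ q ∣ N) (hSN : ∀ ℓ, S ℓ → ¬ ℓ ∣ N)
    {ψ : Additive (Gamma0 N) →+ A} (h : ψ ∈ H) {P : V2 → A}
    (hP : IsPrimOf ψ P) (hQ : QN N q P) : ψ = 0 := by
  have hN : N ≠ 0 := by rintro rfl; exact hqN (dvd_zero _)
  have he1 : (![1, 0] : V2) ≠ 0 := by
    intro h0
    have := congrFun h0 0
    simp at this
  -- first step
  obtain ⟨ℓ, hℓ, hSℓ, hℓq, hinj⟩ := hne.ne2 q hq.pos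
  haveI : Fact ℓ.Prime := ⟨hℓ⟩
  have hℓq' : ℓ ≠ q := by rintro rfl; exact hℓq dvd_rfl
  set ψ' : Additive (Gamma0 N) →+ A := (heckeSys N ℓ).addTransfer ((heckeSys N ℓ).addTransfer ψ) -
    ((ℓ + 1) * (ℓ + 1)) • ψ with hψ'
  set P' : V2 → A := heckeFun ℓ (heckeFun ℓ P) - ((ℓ + 1) * (ℓ + 1)) • P with hP'
  have hψ'H : ψ' ∈ H := hne.sub _ (hne.hecke ℓ hSℓ _ (hne.hecke ℓ hSℓ _ h)) _ (hne.nsmul_mem h _)
  have hR : IsPrimOf ψ' P' :=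
    ((hP.hecke (hSN ℓ hSℓ)).hecke (hSN ℓ hSℓ)).sub (hP.nsmul ((ℓ + 1) * (ℓ + 1)))
  obtain ⟨M, hM, hψM⟩ : ∃ M : ℕ, 0 < M ∧ InvM M P' := by
    obtain ⟨-, M, hM, hinv⟩ := bd_hecke_sq hq hqN hP.homog hQ hℓq'
    have hM0 : M ≠ 0 := by rintro rfl; exact hM (dvd_zero _)
    refine ⟨M, Nat.pos_of_ne_zero hM0, ?_⟩
    intro X hX hc v hv
    have hcM : Cong M X ((q : ℤ) ^ 0 • (1 : Matrix (Fin 2) (Fin 2) ℤ)) := by
      rw [pow_zero, one_smul]; exact hc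
    exact hinv 0 X (by rw [hX]; simp) hcM v hv
  -- second step
  refine hinj ψ h (sub_eq_zero.mp (show ψ' = 0 from ?_))
  obtain ⟨ℓ', hℓ', hSℓ', hℓM', hinj'⟩ := hne.ne1 M hM
  haveI : Fact ℓ'.Prime := ⟨hℓ'⟩
  refine hinj' ψ' hψ'H ?_
  have hU : ∀ (m : ℤ) (v : V2), v ≠ 0 → P' (toQ !![1, m; 0, 1] *ᵥ v) = P' v := by
    intro m v hv
    have := hR.upper m v hv
    rwa [add_zero] at this
  have hT := hR.hecke (ℓ := ℓ') (hSN ℓ' hSℓ')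
  ext g
  have h1 := hT.qi g ![1, 0] he1
  rw [heckeFun_of_inv hψM hR.homog hU hℓM' _ he1,
    heckeFun_of_inv hψM hR.homog hU hℓM' _ (mulVec_ne_zero (det_gQ_ne g) he1),
    hR.qi g _ he1, nsmul_add] at h1
  exact (add_left_cancel h1).symm

end NonEisSet

theorem qN_of_pair (hq : q.Prime) (hqN : ¬ q ∣ N) {ψ₁ ψ₂ : Additive (Gamma0 N) →+ A}
    {P₁ P₂ : V2 → A} (h₁ : IsPrimOf ψ₁ P₁) (h₂ : IsPrimOf ψ₂ P₂)
    (h : ∀ v, v ≠ 0 → P₁ v + P₂ (toQ (betaZ q) *ᵥ v) = 0) : QN N q P₁ ∧ QN N q P₂ := by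
  have hβ := det_betaQ_ne hq.ne_zero
  have hqQ : (q : ℚ) ≠ 0 := by exact_mod_cast hq.ne_zero
  have hQN1 : QN N q P₁ := by
    intro k X hX hXN
    refine qix_of_generators hq hqN h₁.homog (fun g => ⟨_, h₁.qi g⟩) ?_ k X hX hXN
    intro g A hA
    have hdA : A.det ≠ 0 := by
      intro h0
      have h1 := congrArg Matrix.det hA
      rw [Matrix.det_mul, Matrix.det_mul, h0, mul_zero] at h1
      exact (mul_ne_zero (det_gQ_ne g) hβ) h1.symm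
    refine ⟨-(ψ₂ (Additive.ofMul g)), fun v hv => ?_⟩
    have h3 := h v hv
    have h4 := h _ (mulVec_ne_zero hdA hv)
    rw [Matrix.mulVec_mulVec, hA, ← Matrix.mulVec_mulVec,
      h₂.qi g _ (mulVec_ne_zero hβ hv)] at h4
    rw [eq_neg_of_add_eq_zero_left h3, eq_neg_of_add_eq_zero_left h4, neg_add]
  refine ⟨hQN1, ?_⟩
  intro k X hX hXN
  -- `q β⁻¹ X β`
  obtain ⟨c, hc⟩ := hQN1 (k + 1)
    !![(q : ℤ) * X 0 0, X 0 1; (q : ℤ) ^ 2 * X 1 0, (q : ℤ) * X 1 1] (by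
      rw [Matrix.det_fin_two] at hX
      rw [Matrix.det_fin_two_of]
      have : (q : ℤ) ^ (2 * (k + 1)) = (q : ℤ) ^ 2 * (q : ℤ) ^ (2 * k) := by
        rw [← pow_add]; congr 1; ring
      rw [this, ← hX]; ring) (by simpa using Dvd.dvd.mul_left hXN _)
  have hXQ : (toQ X).det ≠ 0 := by
    rw [det_toQ, hX]; exact_mod_cast pow_ne_zero _ (by exact_mod_cast hq.ne_zero)
  refine ⟨-c, fun w hw => ?_⟩
  -- `w = β v`
  obtain ⟨v, hv, rfl⟩ : ∃ v : V2, v ≠ 0 ∧ toQ (betaZ q) *ᵥ v = w := by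
    refine ⟨(toQ (betaZ q))⁻¹ *ᵥ w, mulVec_ne_zero ?_ hw, ?_⟩
    · rw [Matrix.det_nonsing_inv]; simpa using hβ
    · rw [Matrix.mulVec_mulVec, Matrix.mul_nonsing_inv _ (isUnit_iff_ne_zero.mpr hβ),
        Matrix.one_mulVec]
  set Y : Matrix (Fin 2) (Fin 2) ℤ :=
    !![(q : ℤ) * X 0 0, X 0 1; (q : ℤ) ^ 2 * X 1 0, (q : ℤ) * X 1 1] with hY
  have hYdet : (toQ Y).det ≠ 0 := by
    rw [det_toQ, hY, Matrix.det_fin_two_of]
    have h0 : X.det ≠ 0 := by rw [hX]; exact pow_ne_zero _ (by exact_mod_cast hq.ne_zero)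
    have e : (q : ℤ) * X 0 0 * ((q : ℤ) * X 1 1) - X 0 1 * ((q : ℤ) ^ 2 * X 1 0) =
      (q : ℤ) ^ 2 * X.det := by rw [Matrix.det_fin_two]; ring
    rw [e]
    have := mul_ne_zero (pow_ne_zero 2 (show (q : ℤ) ≠ 0 by exact_mod_cast hq.ne_zero)) h0
    exact_mod_cast this
  have e1 : betaZ q * Y = (q : ℤ) • (X * betaZ q) := by
    rw [hY, betaZ]
    conv_rhs => rw [eta_mat X]
    rw [Matrix.mul_fin_two, Matrix.mul_fin_two]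
    ext i j
    fin_cases i <;> fin_cases j <;> simp [-mul_eq_mul_left_iff, -mul_eq_mul_right_iff] <;> ring
  have h3 := h v hv
  have h4 := h _ (mulVec_ne_zero hYdet hv)
  rw [hc v hv, Matrix.mulVec_mulVec, ← toQ_mul, e1, toQ_zsmul, Matrix.smul_mulVec,
    h₂.homog _ _ (by exact_mod_cast hqQ) (by
      rw [toQ_mul, ← Matrix.mulVec_mulVec]
      exact mulVec_ne_zero hXQ (mulVec_ne_zero hβ hv)), toQ_mul, ← Matrix.mulVec_mulVec] at h4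
  have h5 := eq_neg_of_add_eq_zero_right h3
  have h6 := eq_neg_of_add_eq_zero_right h4
  rw [h5, h6, neg_add]

/-- **Ihara's lemma** for parabolic characters, arbitrary coefficients. -/
theorem ihara_par (hq : q.Prime) (hqN : ¬ q ∣ N) (hSN : ∀ ℓ, S ℓ → ¬ ℓ ∣ N)
    {H : Set (Additive (Gamma0 N) →+ A)} (hne : NonEisSet N S H)
    {ψ₁ ψ₂ : Additive (Gamma0 N) →+ A} (h₁ : ψ₁ ∈ H) (h₂ : ψ₂ ∈ H)
    (hker : ∀ g : Gamma0 (N * q),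
      ψ₁ (Additive.ofMul (degA N q g)) + ψ₂ (Additive.ofMul (degB N hq.ne_zero g)) = 0) :
    ψ₁ = 0 ∧ ψ₂ = 0 := by
  have hN : N ≠ 0 := by rintro rfl; exact hqN (dvd_zero _)
  obtain ⟨P₁, hP₁⟩ := exists_isPrimOf ψ₁ (hne.par _ h₁)
  obtain ⟨P₂, hP₂⟩ := exists_isPrimOf ψ₂ (hne.par _ h₂)
  have hβ := det_betaQ_ne hq.ne_zero
  -- the sum is `Γ₀(N q)`-invariant
  set R : V2 → A := P₁ + pull P₂ (toQ (betaZ q)) with hR
  have hR0 : Homog R := hP₁.homog.add (hP₂.homog.pull hβ)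
  have hRinv : ∀ (g : Gamma0 (N * q)) (v : V2), v ≠ 0 → R (gQ g *ᵥ v) = R v := by
    intro g v hv
    have e1 : gQ g = gQ (degA N q g) := rfl
    have h3 : P₁ (gQ g *ᵥ v) = P₁ v + ψ₁ (Additive.ofMul (degA N q g)) := by
      rw [e1]; exact hP₁.qi _ v hv
    have h4 : P₂ (toQ (betaZ q) *ᵥ (gQ g *ᵥ v)) = P₂ (toQ (betaZ q) *ᵥ v) +
        ψ₂ (Additive.ofMul (degB N hq.ne_zero g)) := by
      rw [Matrix.mulVec_mulVec, gQ, ← toQ_mul, betaZ_mul_degB, toQ_mul, ← Matrix.mulVec_mulVec]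
      exact hP₂.qi _ _ (mulVec_ne_zero hβ hv)
    rw [hR]
    simp only [Pi.add_apply, pull_apply]
    rw [h3, h4, add_add_add_comm, hker g, add_zero]
  have hU1 : ∀ (m : ℤ) (v : V2), v ≠ 0 → P₁ (toQ !![1, m; 0, 1] *ᵥ v) = P₁ v := by
    intro m v hv
    have := hP₁.upper m v hv
    rwa [add_zero] at this
  have hU2 : ∀ (m : ℤ) (v : V2), v ≠ 0 → P₂ (toQ !![1, m; 0, 1] *ᵥ v) = P₂ v := by
    intro m v hv
    have := hP₂.upper m v hv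
    rwa [add_zero] at this
  have hUR : ∀ (m : ℤ) (v : V2), v ≠ 0 → R (toQ !![1, m; 0, 1] *ᵥ v) = R v := by
    intro m v hv
    exact hRinv (mkG0 (N * q) 1 m 0 1 (by ring) (dvd_zero _)) v hv
  have hRM : InvM (N * q) R := by
    intro X hX hc v hv
    have h10 := hc 1 0
    simp at h10
    exact hRinv (toG0 (N * q) X hX (by push_cast; exact h10)) v hv
  obtain ⟨ℓ, hℓ, hSℓ, hℓM, hinj⟩ := hne.ne1 (N * q) (Nat.mul_pos (Nat.pos_of_ne_zero hN) hq.pos)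
  haveI : Fact ℓ.Prime := ⟨hℓ⟩
  have hℓq : ¬ ℓ ∣ q := by
    intro h
    have h1 : ℓ = q := (Nat.prime_dvd_prime_iff_eq hℓ hq).mp h
    subst h1
    have h2 : (ℓ : ℤ) ∣ ℓ - 1 := by
      refine Dvd.dvd.trans ?_ hℓM
      push_cast
      exact dvd_mul_left _ _
    have h3 : (ℓ : ℤ) ∣ 1 := by
      have := dvd_sub (dvd_refl (ℓ : ℤ)) h2
      simpa using this
    exact (Nat.prime_iff_prime_int.mp hℓ).not_dvd_one h3
  -- corrected primitives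
  set Q₁ : V2 → A := heckeFun ℓ P₁ - (ℓ + 1) • P₁ with hQ₁
  set Q₂ : V2 → A := heckeFun ℓ P₂ - (ℓ + 1) • P₂ with hQ₂
  have hpr₁ := (hP₁.hecke (ℓ := ℓ) (hSN ℓ hSℓ)).sub (hP₁.nsmul (ℓ + 1))
  have hpr₂ := (hP₂.hecke (ℓ := ℓ) (hSN ℓ hSℓ)).sub (hP₂.nsmul (ℓ + 1))
  have hpair : ∀ v, v ≠ 0 → Q₁ v + Q₂ (toQ (betaZ q) *ᵥ v) = 0 := by
    intro v hv
    have h3 := heckeFun_of_inv hRM hR0 hUR hℓM v hv
    have h4 : heckeFun ℓ R v = heckeFun ℓ P₁ v + heckeFun ℓ (pull P₂ (toQ (betaZ q))) v := by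
      haveI : NeZero ℓ := ⟨hℓ.ne_zero⟩
      rw [heckeFun_apply, heckeFun_apply, heckeFun_apply, ← Finset.sum_add_distrib]
      rfl
    rw [h4, heckeFun_pull_beta hU2 hq.ne_zero hℓq v hv] at h3
    have h5 : R v = P₁ v + P₂ (toQ (betaZ q) *ᵥ v) := rfl
    rw [h5, nsmul_add] at h3
    simp only [hQ₁, hQ₂, Pi.sub_apply, Pi.smul_apply]
    rw [sub_add_sub_comm, h3, sub_self]
  obtain ⟨hN1, hN2⟩ := qN_of_pair hq hqN hpr₁ hpr₂ hpair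
  have hmem : ∀ ψ ∈ H, (heckeSys N ℓ).addTransfer ψ - (ℓ + 1) • ψ ∈ H := fun ψ hψ =>
    hne.sub _ (hne.hecke ℓ hSℓ ψ hψ) _ (hne.nsmul_mem hψ _)
  exact ⟨hinj _ h₁ (sub_eq_zero.mp (hne.core hq hqN hSN (hmem _ h₁) hpr₁ hN1)),
    hinj _ h₂ (sub_eq_zero.mp (hne.core hq hqN hSN (hmem _ h₂) hpr₂ hN2))⟩

end Fermat.Agent.LTF.Ihara
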