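import Fermat.Agent.LTF.IharaJ

/-!
# The degeneracy maps, Hecke operators and Galois action
-/

set_option autoImplicit false
set_option linter.style.haveILetI false

noncomputable section

open UpperHalfPlane ModularCurve AlgebraicCurve CongruenceSubgroup Matrix
open scoped MatrixGroups Manifold

namespace Fermat.Agent.LTF.Ihara

open Fermat.Agent.GalRep Fermat.Agent.X0Emb Fermat.Agent.ModFun Fermat.Agent.QX4
open Fermat.Agent.S41aux (degA degB betaZ betaZ_mul_degB KillsPar gQ det_gQ V2 toQ IsPrimOf pull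
  heckeFun_pull_beta det_betaQ_ne mulVec_ne_zero exists_isPrimOf)
open Fermat.Agent.HeckePar
open Fermat.Agent.Cofaith (isFF_bar)
open Fermat.Agent.RR (div div_apply)
open Fermat.Agent.TwoGauss (wq wq_alpha wq_beta)

local notation "KQ" => AlgebraicClosure ℚ

section Char

variable {A : Type*} [AddCommGroup A] {N q : ℕ}

theorem isPrimOf_unique {ψ ψ' : Additive (Gamma0 N) →+ A} {P P' : V2 → A} (h : IsPrimOf ψ P)
    (h' : IsPrimOf ψ' P') (hPP : ∀ v, v ≠ 0 → P v = P' v) : ψ = ψ' := by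
  have he1 : (![1, 0] : V2) ≠ 0 := by
    intro h0
    have := congrFun h0 0
    simp at this
  ext g
  have h1 := h.qi g ![1, 0] he1
  have h2 := h'.qi g ![1, 0] he1
  rw [hPP _ (mulVec_ne_zero (S41aux.det_gQ_ne g) he1), hPP _ he1, h2] at h1
  exact (add_left_cancel h1).symm

theorem isPrimOf_degA {ψ : Additive (Gamma0 N) →+ A} {P : V2 → A} (h : IsPrimOf ψ P) :
    IsPrimOf (ψ.comp (MonoidHom.toAdditive (degA N q))) P :=
  ⟨h.homog, fun g => h.qi (degA N q g)⟩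

theorem isPrimOf_degB (hq : q ≠ 0) {ψ : Additive (Gamma0 N) →+ A} {P : V2 → A}
    (h : IsPrimOf ψ P) :
    IsPrimOf (ψ.comp (MonoidHom.toAdditive (degB N hq))) (pull P (toQ (betaZ q))) := by
  have hβ := det_betaQ_ne hq
  refine ⟨h.homog.pull hβ, fun g v hv => ?_⟩
  show P (toQ (betaZ q) *ᵥ (gQ g *ᵥ v)) = P (toQ (betaZ q) *ᵥ v) + _
  rw [Matrix.mulVec_mulVec, gQ, ← S41aux.toQ_mul, betaZ_mul_degB, S41aux.toQ_mul,
    ← Matrix.mulVec_mulVec]
  exact h.qi _ _ (mulVec_ne_zero hβ hv)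

/-- Hecke operators and the restriction to `Γ₀(Nq)`, parabolic characters. -/
theorem addTransfer_degA {ℓ : ℕ} [Fact ℓ.Prime] (hℓ : ¬ ℓ ∣ N * q)
    {ψ : Additive (Gamma0 N) →+ A} (hψ : KillsPar ψ) :
    (heckeSys (N * q) ℓ).addTransfer (ψ.comp (MonoidHom.toAdditive (degA N q))) =
      ((heckeSys N ℓ).addTransfer ψ).comp (MonoidHom.toAdditive (degA N q)) := by
  obtain ⟨P, hP⟩ := exists_isPrimOf ψ hψ
  exact isPrimOf_unique ((isPrimOf_degA (q := q) hP).hecke hℓ)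
    (isPrimOf_degA (hP.hecke (fun h => hℓ (h.mul_right q)))) fun v _ => rfl

/-- Hecke operators and the second degeneracy map, parabolic characters. -/
theorem addTransfer_degB {ℓ : ℕ} [Fact ℓ.Prime] (hq : q ≠ 0) (hℓ : ¬ ℓ ∣ N * q)
    {ψ : Additive (Gamma0 N) →+ A} (hψ : KillsPar ψ) :
    (heckeSys (N * q) ℓ).addTransfer (ψ.comp (MonoidHom.toAdditive (degB N hq))) =
      ((heckeSys N ℓ).addTransfer ψ).comp (MonoidHom.toAdditive (degB N hq)) := by
  obtain ⟨P, hP⟩ := exists_isPrimOf ψ hψ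
  refine isPrimOf_unique ((isPrimOf_degB hq hP).hecke hℓ)
    (isPrimOf_degB hq (hP.hecke (fun h => hℓ (h.mul_right q)))) fun v hv => ?_
  have hU : ∀ (m : ℤ) (v : V2), v ≠ 0 → P (toQ !![1, m; 0, 1] *ᵥ v) = P v := by
    intro m v hv
    have := hP.upper m v hv
    rwa [add_zero] at this
  exact heckeFun_pull_beta hU hq (fun h => hℓ (h.mul_left N)) v hv

end Char

section J

variable {m q : ℕ} [NeZero m] [NeZero q] {n : ℕ}

theorem killsPar_of_rel (hn : n ≠ 0) {x : JZero m} {χ : Gamma0 m →* ℂˣ}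
    (hχ : Rel iota m n x χ) : KillsPar (MonoidHom.toAdditive χ) := by
  intro g v hv t hg
  show Additive.ofMul (χ g) = 0
  rw [Rel.parabolic hn hχ (trace_sq_of_eigen g hv hg)]
  rfl

omit [NeZero q] in
theorem transfer_degA {ℓ : ℕ} [Fact ℓ.Prime] (hℓ : ¬ ℓ ∣ m * q) (hn : n ≠ 0) {x : JZero m}
    {χ : Gamma0 m →* ℂˣ} (hχ : Rel iota m n x χ) :
    (heckeSys (m * q) ℓ).transfer (χ.comp (degA m q)) =
      ((heckeSys m ℓ).transfer χ).comp (degA m q) := by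
  apply MonoidHom.toAdditive.injective
  rw [toAdditive_transfer]
  exact addTransfer_degA hℓ (killsPar_of_rel hn hχ)

omit [NeZero q] in
theorem transfer_degB {ℓ : ℕ} [Fact ℓ.Prime] (hq : q ≠ 0) (hℓ : ¬ ℓ ∣ m * q) (hn : n ≠ 0)
    {x : JZero m} {χ : Gamma0 m →* ℂˣ} (hχ : Rel iota m n x χ) :
    (heckeSys (m * q) ℓ).transfer (χ.comp (degB m hq)) =
      ((heckeSys m ℓ).transfer χ).comp (degB m hq) := by
  apply MonoidHom.toAdditive.injective
  rw [toAdditive_transfer]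
  exact addTransfer_degB hq hℓ (killsPar_of_rel hn hχ)

/-- `T_ℓ α^* = α^* T_ℓ` on torsion, `ℓ ∤ mq`. -/
theorem piA_hecke (ℓ : Nat.Primes) (hℓ : ¬ (ℓ : ℕ) ∣ m * q) (hn : n ≠ 0) (x : JZero m)
    (hx : n • x = 0) :
    heckeOperatorBar (m * q) ℓ (piA m q x) = piA m q (heckeOperatorBar m ℓ x) := by
  haveI : Fact (ℓ : ℕ).Prime := ⟨ℓ.2⟩
  obtain ⟨χ, h1, -, -⟩ := Cofaith.exists_rel m hn x hx
  have h2 := (Rel.pullA (q := q) h1).hecke ℓ (heckeBridge (ℓ : ℕ) hℓ)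
  rw [transfer_degA hℓ hn h1] at h2
  have h3 := Rel.pullA (q := q) (h1.hecke ℓ (heckeBridge (ℓ : ℕ) (fun h => hℓ (h.mul_right q))))
  exact Rel.unique (bridge iota (m * q)) hn (Rel.pow_eq_one hn h2) h2 h3

/-- `T_ℓ β^* = β^* T_ℓ` on torsion, `ℓ ∤ mq`. -/
theorem piB_hecke (hq : q ≠ 0) (ℓ : Nat.Primes) (hℓ : ¬ (ℓ : ℕ) ∣ m * q) (hn : n ≠ 0)
    (x : JZero m) (hx : n • x = 0) :
    heckeOperatorBar (m * q) ℓ (piB m q x) = piB m q (heckeOperatorBar m ℓ x) := by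
  haveI : Fact (ℓ : ℕ).Prime := ⟨ℓ.2⟩
  obtain ⟨χ, h1, -, -⟩ := Cofaith.exists_rel m hn x hx
  have h2 := (Rel.pullB hq h1).hecke ℓ (heckeBridge (ℓ : ℕ) hℓ)
  rw [transfer_degB hq hℓ hn h1] at h2
  have h3 := Rel.pullB hq (h1.hecke ℓ (heckeBridge (ℓ : ℕ) (fun h => hℓ (h.mul_right q))))
  exact Rel.unique (bridge iota (m * q)) hn (Rel.pow_eq_one hn h2) h2 h3

/-- `α^*` is Galois equivariant on torsion. -/
theorem piA_galois (σ : AlgebraicClosure ℚ ≃ₐ[ℚ] AlgebraicClosure ℚ) (hn : n ≠ 0) (x : JZero m)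
    (hx : n • x = 0) : piA m q (σ • x) = σ • piA m q x := by
  rw [piA_eq_piUp]
  exact piUp_galois _ σ hn x hx

/-- `β^*` is Galois equivariant on torsion. -/
theorem piB_galois (hq : q.Prime) (hm : ¬ q ∣ m)
    (σ : AlgebraicClosure ℚ ≃ₐ[ℚ] AlgebraicClosure ℚ) (hn : n ≠ 0) (x : JZero m)
    (hx : n • x = 0) : piB m q (σ • x) = σ • piB m q x := by
  have hσx : n • (σ • x) = 0 := by
    rw [smul_comm, hx]
    exact smul_zero (A := JZero m) σ
  rw [← wJ_piA hq hm hn _ hσx, piA_galois σ hn x hx, ← wJ_piA hq hm hn x hx, wJ_galois]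

/-- `w_q β^* = α^*` on torsion. -/
theorem wJ_piB (hq : q.Prime) (hm : ¬ q ∣ m) (hn : n ≠ 0) (x : JZero m) (hx : n • x = 0) :
    wJ hq hm (piB m q x) = piA m q x := by
  rw [← wJ_piA hq hm hn x hx, wJ_wJ]

/-- `α_* α^* = q + 1` on torsion. -/
theorem pushA_piA (hq : q.Prime) (hm : ¬ q ∣ m) (hn : n ≠ 0) (x : JZero m) (hx : n • x = 0) :
    pushA m q (piA m q x) = (q + 1) • x := by
  obtain ⟨D, rfl⟩ := Pic0.mk_surjective x
  obtain ⟨f, hf0, hf⟩ := exists_div_of_nsmul_eq_zero hx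
  rw [piA, pullPic0_mk, pushA_mk]
  have h2 : (q + 1) • Pic0.mk D = Pic0.mk ((q + 1) • D) := rfl
  rw [h2]
  congr 1
  apply Subtype.ext
  rw [coe_pushDegZero, coe_pullDegZero]
  refine eq_on_torsion
    (Φ := (Divisor.pushforwardAlong (heckeAlphaBar KQ m q) (intA m q)).comp
      (Divisor.pullbackAlong (heckeAlphaBar KQ m q) (FF.isIntegralAlong _)))
    (Ψ := nsmulAddMonoidHom (q + 1)) ?_ hn hf0 hf
  intro e he
  have he' : heckeAlphaBar KQ m q e ≠ 0 := by simpa using he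
  rw [AddMonoidHom.comp_apply, HeckeComm.pullbackAlong_div,
    push_div _ (intA m q) (TEll.finAlpha m q) (TEll.nfAlpha m q) he', TEll.normAlong_algebraMap, QX4.div_pow,
    TEll.finrankAlong_alpha m q hq hm]
  rfl

/-- `α_* β^* = T_q`. -/
theorem pushA_piB (hq : q.Prime) (x : JZero m) :
    pushA m q (piB m q x) = heckeOperatorBar m ⟨q, hq⟩ x := by
  obtain ⟨D, rfl⟩ := Pic0.mk_surjective x
  obtain ⟨D', h1, h2⟩ := TEll.heckeOperatorBar_mk (N := m) ⟨q, hq⟩ D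
  rw [h2, piB, pullPic0_mk, pushA_mk]
  congr 1
  apply Subtype.ext
  rw [h1]
  rfl

end J

end Fermat.Agent.LTF.Ihara

end
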