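import Fermat.Agent.LTF.IharaRel

/-!
# Ihara's lemma on `J₀`, all residue characteristics
-/

set_option autoImplicit false
set_option linter.style.haveILetI false

noncomputable section

open UpperHalfPlane ModularCurve AlgebraicCurve CongruenceSubgroup Matrix
open scoped MatrixGroups Manifold

namespace Fermat.Agent.LTF.Ihara

open Fermat.Agent.GalRep Fermat.Agent.X0Emb Fermat.Agent.ModFun Fermat.Agent.QX4
open Fermat.Agent.S41aux (degA degB betaZ betaZ_mul_degB KillsPar gQ det_gQ V2 toQ)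
open Fermat.Agent.HeckePar
open Fermat.Agent.Cofaith (isFF_bar)

local notation "KQ" => AlgebraicClosure ℚ

variable {m q : ℕ} [NeZero m] [NeZero q] {n : ℕ}

/-! ### Uniqueness of the character -/

theorem Rel.pow_eq_one (hn : n ≠ 0) {x : JZero m} {χ : Gamma0 m →* ℂˣ}
    (hx : Rel iota m n x χ) : χ ^ n = 1 := by
  haveI := isFF_bar m
  have h := hx.pow n
  rw [hx.nsmul_eq_zero] at h
  exact h.char_eq_one (bridge iota m) hn

theorem Rel.char_unique (hn : n ≠ 0) {x : JZero m} {χ χ' : Gamma0 m →* ℂˣ}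
    (hx : Rel iota m n x χ) (hx' : Rel iota m n x χ') : χ = χ' := by
  haveI := isFF_bar m
  obtain ⟨k, rfl⟩ := Nat.exists_eq_succ_of_ne_zero hn
  have h1 := hx.mul (hx'.pow k)
  rw [← succ_nsmul', ← Nat.succ_eq_add_one, hx.nsmul_eq_zero] at h1
  have h2 := h1.char_eq_one (bridge iota m) hn
  have h3 := Rel.pow_eq_one hn hx'
  rw [Nat.succ_eq_add_one, char_pow_succ'] at h3
  exact mul_right_cancel (h2.trans h3.symm)

theorem Rel.sub' (hn : n ≠ 0) {x y : JZero m} {χ ψ : Gamma0 m →* ℂˣ}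
    (hx : Rel iota m n x χ) (hy : Rel iota m n y ψ) : Rel iota m n (x - y) (χ * ψ⁻¹) := by
  obtain ⟨k, rfl⟩ := Nat.exists_eq_succ_of_ne_zero hn
  have h1 := hx.mul (hy.pow k)
  have h2 : k • y = -y := by
    have h3 := hy.nsmul_eq_zero
    rw [Nat.succ_eq_add_one, succ_nsmul] at h3
    exact eq_neg_of_add_eq_zero_left h3
  have h4 : ψ ^ k = ψ⁻¹ := by
    have h3 := Rel.pow_eq_one hn hy
    rw [Nat.succ_eq_add_one, char_pow_succ] at h3
    ext γ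
    have h5 : ψ γ ^ k * ψ γ = 1 := DFunLike.congr_fun h3 γ
    exact congrArg Units.val (eq_inv_of_mul_eq_one_left h5)
  rw [h2, h4, ← sub_eq_add_neg] at h1
  exact h1

theorem Rel.parabolic (hn : n ≠ 0) {x : JZero m} {χ : Gamma0 m →* ℂˣ}
    (hx : Rel iota m n x χ) {γ : Gamma0 m}
    (hγ : ((γ : SL(2, ℤ)) : Matrix (Fin 2) (Fin 2) ℤ).trace ^ 2 = 4) : χ γ = 1 := by
  obtain ⟨χ', h1, -, h3⟩ := Cofaith.exists_rel m hn x hx.nsmul_eq_zero
  rw [Rel.char_unique hn hx h1]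
  exact h3 γ hγ

/-- elements of `Γ₀(m)` fixing a rational line have trace `±2`. -/
theorem trace_sq_of_eigen {N : ℕ} (g : Gamma0 N) {v : V2} (hv : v ≠ 0) {t : ℚ}
    (h : gQ g *ᵥ v = t • v) :
    ((g : SL(2, ℤ)) : Matrix (Fin 2) (Fin 2) ℤ).trace ^ 2 = 4 := by
  set G : Matrix (Fin 2) (Fin 2) ℤ := ((g : SL(2, ℤ)) : Matrix (Fin 2) (Fin 2) ℤ) with hG
  have hdet : G 0 0 * G 1 1 - G 0 1 * G 1 0 = 1 := by
    have := (g : SL(2, ℤ)).det_coe
    rwa [Matrix.det_fin_two] at this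
  have e0 := congrFun h 0
  have e1 := congrFun h 1
  simp only [gQ, toQ, Matrix.mulVec, dotProduct, Fin.sum_univ_two, Matrix.map_apply,
    Pi.smul_apply, smul_eq_mul] at e0 e1
  -- the characteristic polynomial
  have hchar : t ^ 2 - ((G 0 0 + G 1 1 : ℤ) : ℚ) * t + 1 = 0 := by
    have hdetQ : (G 0 0 : ℚ) * G 1 1 - G 0 1 * G 1 0 = 1 := by exact_mod_cast hdet
    by_contra hne
    apply hv
    have h0 : (t ^ 2 - ((G 0 0 + G 1 1 : ℤ) : ℚ) * t + 1) * v 0 = 0 := by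
      push_cast
      linear_combination (G 1 1 - t : ℚ) * e0 - (G 0 1 : ℚ) * e1 + (-v 0) * hdetQ
    have h1 : (t ^ 2 - ((G 0 0 + G 1 1 : ℤ) : ℚ) * t + 1) * v 1 = 0 := by
      push_cast
      linear_combination (G 0 0 - t : ℚ) * e1 - (G 1 0 : ℚ) * e0 + (-v 1) * hdetQ
    ext i
    fin_cases i
    · exact (mul_eq_zero.mp h0).resolve_left hne
    · exact (mul_eq_zero.mp h1).resolve_left hne
  -- `t` is an integral unit
  have hint : IsIntegral ℤ t := by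
    refine ⟨Polynomial.X ^ 2 - Polynomial.C (G 0 0 + G 1 1) * Polynomial.X + Polynomial.C 1, ?_, ?_⟩
    · have : (Polynomial.X ^ 2 - Polynomial.C (G 0 0 + G 1 1) * Polynomial.X + Polynomial.C 1 :
          Polynomial ℤ) = Polynomial.X ^ 2 + (Polynomial.C (-(G 0 0 + G 1 1)) * Polynomial.X +
            Polynomial.C 1) := by
        rw [Polynomial.C_neg]; ring
      rw [this]
      refine Polynomial.monic_X_pow_add ?_
      refine lt_of_le_of_lt Polynomial.degree_linear_le ?_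
      norm_num
    · simp only [Polynomial.eval₂_add, Polynomial.eval₂_sub, Polynomial.eval₂_mul,
        Polynomial.eval₂_pow, Polynomial.eval₂_X, Polynomial.eval₂_C, map_one,
        Polynomial.eval₂_one]
      exact hchar
  obtain ⟨z, hz⟩ := IsIntegrallyClosed.isIntegral_iff.mp hint
  rw [← hz] at hchar
  have hchar' : z ^ 2 - (G 0 0 + G 1 1) * z + 1 = 0 := by
    have h5 : ((z ^ 2 - (G 0 0 + G 1 1) * z + 1 : ℤ) : ℚ) = 0 := by
      push_cast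
      simpa using hchar
    exact_mod_cast h5
  have hunit : z * ((G 0 0 + G 1 1) - z) = 1 := by linear_combination -hchar'
  rw [Matrix.trace_fin_two]
  rcases Int.mul_eq_one_iff_eq_one_or_neg_one.mp hunit with ⟨h1, h2⟩ | ⟨h1, h2⟩
  · have : G 0 0 + G 1 1 = 2 := by linarith
    rw [this]; norm_num
  · have : G 0 0 + G 1 1 = -2 := by linarith
    rw [this]; norm_num

theorem toAdditive_transfer {N ℓ : ℕ} [Fact ℓ.Prime] (χ : Gamma0 N →* ℂˣ) :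
    MonoidHom.toAdditive ((heckeSys N ℓ).transfer χ) =
      (heckeSys N ℓ).addTransfer (MonoidHom.toAdditive χ) := by
  ext g
  rfl

/-! ### The theorem -/

/-- A Hecke stable group of torsion points of `J₀(m)` without Eisenstein part. -/
structure NonEisJ (m : ℕ) [NeZero m] (S : ℕ → Prop) (H : AddSubgroup (JZero m)) : Prop where
  tors : ∀ x ∈ H, ∃ n : ℕ, n ≠ 0 ∧ n • x = 0
  hecke : ∀ ℓ : Nat.Primes, S ℓ → ∀ x ∈ H, heckeOperatorBar m ℓ x ∈ H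
  ne1 : ∀ M : ℕ, 0 < M → ∃ ℓ : Nat.Primes, S ℓ ∧ (M : ℤ) ∣ (ℓ : ℕ) - 1 ∧ ∀ x ∈ H,
    heckeOperatorBar m ℓ x = ((ℓ : ℕ) + 1) • x → x = 0
  ne2 : ∀ M : ℕ, 0 < M → ∃ ℓ : Nat.Primes, S ℓ ∧ ¬ (ℓ : ℕ) ∣ M ∧ ∀ x ∈ H,
    heckeOperatorBar m ℓ (heckeOperatorBar m ℓ x) = (((ℓ : ℕ) + 1) * ((ℓ : ℕ) + 1)) • x → x = 0

variable {S : ℕ → Prop} {H : AddSubgroup (JZero m)}

/-- the characters of the points of `H`. -/
def charSet (n : ℕ) (H : AddSubgroup (JZero m)) : Set (Additive (Gamma0 m) →+ Additive ℂˣ) :=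
  {ψ | ∃ x ∈ H, ∃ χ : Gamma0 m →* ℂˣ, Rel iota m n x χ ∧ ψ = MonoidHom.toAdditive χ}

theorem NonEisJ.nonEisSet (h : NonEisJ m S H) (hS : ∀ ℓ, S ℓ → ¬ ℓ ∣ m) (hn : n ≠ 0) :
    NonEisSet m S (charSet n H) where
  par := by
    rintro _ ⟨x, hx, χ, hχ, rfl⟩ g v hv t hg
    show Additive.ofMul (χ g) = 0
    rw [Rel.parabolic hn hχ (trace_sq_of_eigen g hv hg)]
    rfl
  hecke := by
    rintro ℓ hℓ hSℓ _ ⟨x, hx, χ, hχ, rfl⟩
    refine ⟨heckeOperatorBar m ⟨ℓ, hℓ.out⟩ x, h.hecke ⟨ℓ, hℓ.out⟩ hSℓ x hx, _,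
      hχ.hecke ⟨ℓ, hℓ.out⟩ (heckeBridge ℓ (hS ℓ hSℓ)), toAdditive_transfer χ |>.symm⟩
  sub := by
    rintro _ ⟨x, hx, χ, hχ, rfl⟩ _ ⟨y, hy, ψ, hψ, rfl⟩
    refine ⟨x - y, H.sub_mem hx hy, _, Rel.sub' hn hχ hψ, ?_⟩
    ext g
    show (Additive.ofMul (χ g) - Additive.ofMul (ψ g)).toMul.1 = _
    rw [sub_eq_add_neg]
    rfl
  ne1 := by
    intro M hM
    obtain ⟨ℓ, hSℓ, hℓM, hinj⟩ := h.ne1 M hM
    haveI : Fact (ℓ : ℕ).Prime := ⟨ℓ.2⟩
    refine ⟨ℓ, ℓ.2, hSℓ, hℓM, ?_⟩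
    rintro _ ⟨x, hx, χ, hχ, rfl⟩ heq
    rw [← toAdditive_transfer] at heq
    have h1 : (heckeSys m (ℓ : ℕ)).transfer χ = χ ^ ((ℓ : ℕ) + 1) := by
      apply MonoidHom.toAdditive.injective
      rw [heq]
      ext g
      rfl
    have h2 := hχ.hecke ℓ (heckeBridge (ℓ : ℕ) (hS ℓ hSℓ))
    rw [h1] at h2
    have h3 := hχ.pow ((ℓ : ℕ) + 1)
    have h4 := Rel.unique (bridge iota m) hn (Rel.pow_eq_one hn h3) h2 h3
    have h5 := hinj x hx h4
    subst h5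
    have h6 := Rel.char_unique hn hχ (Rel.one iota m n)
    rw [h6]
    rfl
  ne2 := by
    intro M hM
    obtain ⟨ℓ, hSℓ, hℓM, hinj⟩ := h.ne2 M hM
    haveI : Fact (ℓ : ℕ).Prime := ⟨ℓ.2⟩
    refine ⟨ℓ, ℓ.2, hSℓ, hℓM, ?_⟩
    rintro _ ⟨x, hx, χ, hχ, rfl⟩ heq
    rw [← toAdditive_transfer, ← toAdditive_transfer] at heq
    have h1 : (heckeSys m (ℓ : ℕ)).transfer ((heckeSys m (ℓ : ℕ)).transfer χ) =
        χ ^ (((ℓ : ℕ) + 1) * ((ℓ : ℕ) + 1)) := by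
      apply MonoidHom.toAdditive.injective
      rw [heq]
      ext g
      rfl
    have h2 := (hχ.hecke ℓ (heckeBridge (ℓ : ℕ) (hS ℓ hSℓ))).hecke ℓ
      (heckeBridge (ℓ : ℕ) (hS ℓ hSℓ))
    rw [h1] at h2
    have h3 := hχ.pow (((ℓ : ℕ) + 1) * ((ℓ : ℕ) + 1))
    have h4 := Rel.unique (bridge iota m) hn (Rel.pow_eq_one hn h3) h2 h3
    have h5 := hinj x hx h4
    subst h5
    have h6 := Rel.char_unique hn hχ (Rel.one iota m n)
    rw [h6]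
    rfl

/-- **Ihara's lemma** for `J₀`: `α^* + β^* : J₀(m)² → J₀(mq)` is injective on the pairs of torsion
points without Eisenstein part. -/
theorem ihara_JZero (hq : q.Prime) (hqm : ¬ q ∣ m) (hS : ∀ ℓ, S ℓ → ¬ ℓ ∣ m) (h : NonEisJ m S H)
    {x y : JZero m} (hx : x ∈ H) (hy : y ∈ H) (hxy : piA m q x + piB m q y = 0) :
    x = 0 ∧ y = 0 := by
  obtain ⟨n₁, hn₁, hx1⟩ := h.tors x hx
  obtain ⟨n₂, hn₂, hy1⟩ := h.tors y hy
  have hn : n₁ * n₂ ≠ 0 := mul_ne_zero hn₁ hn₂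
  have hx2 : (n₁ * n₂) • x = 0 := by rw [mul_comm, mul_smul, hx1, smul_zero]
  have hy2 : (n₁ * n₂) • y = 0 := by rw [mul_smul, hy1, smul_zero]
  obtain ⟨χ, h1, -, -⟩ := Cofaith.exists_rel m hn x hx2
  obtain ⟨ψ, h2, -, -⟩ := Cofaith.exists_rel m hn y hy2
  haveI := isFF_bar (m * q)
  have h3 := (Rel.pullA (q := q) h1).mul (Rel.pullB hq.ne_zero h2)
  rw [hxy] at h3
  have h4 := h3.char_eq_one (bridge iota (m * q)) hn
  have h5 := ihara_par hq hqm hS (h.nonEisSet hS hn) ⟨x, hx, χ, h1, rfl⟩ ⟨y, hy, ψ, h2, rfl⟩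
    (fun g => congrArg Additive.ofMul (DFunLike.congr_fun h4 g))
  have h6 : χ = 1 := by
    apply MonoidHom.toAdditive.injective
    rw [h5.1]
    rfl
  have h7 : ψ = 1 := by
    apply MonoidHom.toAdditive.injective
    rw [h5.2]
    rfl
  rw [h6] at h1
  rw [h7] at h2
  exact ⟨h1.eq_zero (bridge iota m) hn, h2.eq_zero (bridge iota m) hn⟩

/-- The same with `β^* = w_q α^*`. -/
theorem ihara_JZero' (hq : q.Prime) (hqm : ¬ q ∣ m) (hS : ∀ ℓ, S ℓ → ¬ ℓ ∣ m) (h : NonEisJ m S H)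
    {x y : JZero m} (hx : x ∈ H) (hy : y ∈ H)
    (hxy : piUp (dvd_mul_right m q) x + wJ hq hqm (piUp (dvd_mul_right m q) y) = 0) :
    x = 0 ∧ y = 0 := by
  obtain ⟨n, hn, hy1⟩ := h.tors y hy
  rw [← piA_eq_piUp, wJ_piA hq hqm hn y hy1] at hxy
  exact ihara_JZero hq hqm hS h hx hy hxy

end Fermat.Agent.LTF.Ihara

end
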