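import Fermat.Agent.LTF.IharaJ
import Fermat.Agent.S41.NonEisH

/-!
# The non Eisenstein conditions on `J₀(m)[p^∞]_𝔪`

General `p` in terms of integers `a ℓ`; for `p = 2` and a non commutative residual representation
over `𝔽₂` (image `S₃`), the primes `ℓ ≡ 1 mod M` with `tr ρ(Frob_ℓ) = 1`.
-/

set_option autoImplicit false
set_option linter.style.haveILetI false

noncomputable section

open ModularCurve AlgebraicCurve Matrix
open Fermat.Agent.GalRep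

namespace Fermat.Agent.LTF.Ihara

local notation "GQ" => AlgebraicClosure ℚ ≃ₐ[ℚ] AlgebraicClosure ℚ

/-! ### Algebra -/

section Algebra

variable {J : Type*} [AddCommGroup J] {p : ℕ}

theorem eq_zero_of_coprime_smul (hp : p.Prime) {x : J} {k : ℕ} (hk : p ^ k • x = 0) {c : ℤ}
    (hc : ¬ (p : ℤ) ∣ c) (h : c • x = 0) : x = 0 := by
  have hcop : IsCoprime ((p : ℤ) ^ k) c :=
    IsCoprime.pow_left ((Nat.prime_iff_prime_int.mp hp).coprime_iff_not_dvd.mpr hc)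
  obtain ⟨u, v, huv⟩ := hcop
  have h1 : (p : ℤ) ^ k • x = 0 := by
    have : ((p ^ k : ℕ) : ℤ) • x = 0 := by rw [natCast_zsmul]; exact hk
    simpa using this
  calc x = (1 : ℤ) • x := (one_zsmul x).symm
    _ = u • ((p : ℤ) ^ k • x) + v • (c • x) := by
        rw [← huv, add_zsmul, mul_zsmul, mul_zsmul]
    _ = 0 := by rw [h1, h, zsmul_zero, zsmul_zero, add_zero]

theorem pow_apply_of_eigen {D : Module.End ℤ J} {c : ℤ} {x : J} (h : D x = c • x) (j : ℕ) :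
    (D ^ j) x = c ^ j • x := by
  induction j with
  | zero => simp
  | succ j ih => rw [pow_succ', Module.End.mul_apply, ih, map_zsmul, h, smul_smul, pow_succ]

/-- A vector killed by a power of `T - a` cannot be an eigenvector for a different eigenvalue. -/
theorem eq_zero_of_eigen (hp : p.Prime) {T : Module.End ℤ J} {a c : ℤ} (hc : ¬ (p : ℤ) ∣ a - c)
    {x : J} {k j : ℕ} (hk : p ^ k • x = 0) (hj : ((T - (a : Module.End ℤ J)) ^ j) x = 0)
    (h : T x = c • x) : x = 0 := by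
  have h1 : (T - (a : Module.End ℤ J)) x = (c - a) • x := by
    rw [LinearMap.sub_apply, h, Module.End.intCast_apply, sub_smul]
  have h2 := pow_apply_of_eigen h1 j
  rw [hj] at h2
  have h3 : ¬ (p : ℤ) ∣ (c - a) ^ j := fun h4 => by
    have h5 := (Nat.prime_iff_prime_int.mp hp).dvd_of_dvd_pow h4
    apply hc
    rw [← neg_sub]
    exact h5.neg_right
  exact eq_zero_of_coprime_smul hp hk h3 h2.symm

theorem eq_zero_of_eigen_sq (hp : p.Prime) {T : Module.End ℤ J} {a c : ℤ}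
    (hc : ¬ (p : ℤ) ∣ a ^ 2 - c) {x : J} {k j : ℕ} (hk : p ^ k • x = 0)
    (hj : ((T - (a : Module.End ℤ J)) ^ j) x = 0) (h : T (T x) = c • x) : x = 0 := by
  refine eq_zero_of_eigen hp (T := T * T) (a := a ^ 2) (j := j) hc hk ?_ h
  have h1 : T * T - ((a ^ 2 : ℤ) : Module.End ℤ J) =
      (T + (a : Module.End ℤ J)) * (T - (a : Module.End ℤ J)) := by
    push_cast
    have : (a : Module.End ℤ J) * T = T * (a : Module.End ℤ J) := Int.cast_commute a T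
    rw [mul_sub, add_mul, add_mul, this, pow_two]
    abel
  have hcomm : Commute (T + (a : Module.End ℤ J)) (T - (a : Module.End ℤ J)) := by
    have h2 : Commute T (a : Module.End ℤ J) := (Int.cast_commute a T).symm
    exact ((Commute.refl T).sub_right h2).add_left
      (h2.symm.sub_right (Commute.refl (a : Module.End ℤ J)))
  rw [h1, hcomm.mul_pow, Module.End.mul_apply, hj, map_zero]

end Algebra

/-- The non Eisenstein conditions for a `p`-primary Hecke stable group of points on which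
`T_ℓ - a_ℓ` is locally nilpotent. -/
theorem NonEisJ.of_eig {m p : ℕ} [NeZero m] (hp : p.Prime) {S : ℕ → Prop}
    {H : AddSubgroup (JZero m)} {a : ℕ → ℤ}
    (hpp : ∀ x ∈ H, ∃ k : ℕ, p ^ k • x = 0)
    (hst : ∀ ℓ : Nat.Primes, S ℓ → ∀ x ∈ H, heckeOperatorBar m ℓ x ∈ H)
    (hnil : ∀ ℓ : Nat.Primes, S ℓ → ∀ x ∈ H, ∃ j : ℕ,
      ((heckeOperatorBar m ℓ - ((a ℓ : ℤ) : Module.End ℤ (JZero m))) ^ j) x = 0)
    (ne1 : ∀ M : ℕ, 0 < M → ∃ ℓ : ℕ, ℓ.Prime ∧ S ℓ ∧ (M : ℤ) ∣ ℓ - 1 ∧ ¬ (p : ℤ) ∣ a ℓ - (ℓ + 1))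
    (ne2 : ∀ M : ℕ, 0 < M → ∃ ℓ : ℕ, ℓ.Prime ∧ S ℓ ∧ ¬ ℓ ∣ M ∧
      ¬ (p : ℤ) ∣ (a ℓ) ^ 2 - (ℓ + 1) ^ 2) : NonEisJ m S H where
  tors x hx := by
    obtain ⟨k, hk⟩ := hpp x hx
    exact ⟨p ^ k, pow_ne_zero _ hp.ne_zero, hk⟩
  hecke := hst
  ne1 M hM := by
    obtain ⟨ℓ, hℓ, hS, hd, ha⟩ := ne1 M hM
    refine ⟨⟨ℓ, hℓ⟩, hS, hd, fun x hx h => ?_⟩
    obtain ⟨k, hk⟩ := hpp x hx
    obtain ⟨j, hj⟩ := hnil ⟨ℓ, hℓ⟩ hS x hx
    refine eq_zero_of_eigen hp (c := (ℓ : ℤ) + 1) ha hk hj ?_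
    rw [h, ← natCast_zsmul]
    push_cast
    rfl
  ne2 M hM := by
    obtain ⟨ℓ, hℓ, hS, hd, ha⟩ := ne2 M hM
    refine ⟨⟨ℓ, hℓ⟩, hS, hd, fun x hx h => ?_⟩
    obtain ⟨k, hk⟩ := hpp x hx
    obtain ⟨j, hj⟩ := hnil ⟨ℓ, hℓ⟩ hS x hx
    refine eq_zero_of_eigen_sq hp (c := ((ℓ : ℤ) + 1) ^ 2) ha hk hj ?_
    rw [h, ← natCast_zsmul]
    push_cast
    rw [pow_two]

/-- For `p = 2` the second condition follows from the first one. -/
theorem ne2_of_ne1_two {S : ℕ → Prop} {a : ℕ → ℤ}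
    (ne1 : ∀ M : ℕ, 0 < M → ∃ ℓ : ℕ, ℓ.Prime ∧ S ℓ ∧ (M : ℤ) ∣ ℓ - 1 ∧ ¬ (2 : ℤ) ∣ a ℓ)
    (M : ℕ) (hM : 0 < M) : ∃ ℓ : ℕ, ℓ.Prime ∧ S ℓ ∧ ¬ ℓ ∣ M ∧
      ¬ ((2 : ℕ) : ℤ) ∣ (a ℓ) ^ 2 - (ℓ + 1) ^ 2 := by
  obtain ⟨ℓ, hℓ, hS, hd, ha⟩ := ne1 (2 * M) (by omega)
  refine ⟨ℓ, hℓ, hS, ?_, ?_⟩
  · intro h
    have h1 : (ℓ : ℤ) ∣ ℓ - 1 :=
      (Int.natCast_dvd_natCast.mpr (h.mul_left 2)).trans hd
    have h3 : (ℓ : ℤ) ∣ 1 := by
      have := dvd_sub (dvd_refl (ℓ : ℤ)) h1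
      simpa using this
    exact (Nat.prime_iff_prime_int.mp hℓ).not_dvd_one h3
  · intro h
    have h1 : (2 : ℤ) ∣ ℓ - 1 := by
      refine Dvd.dvd.trans ?_ hd
      push_cast
      exact dvd_mul_right _ _
    have h2 : (2 : ℤ) ∣ (ℓ + 1) ^ 2 := by
      refine Dvd.dvd.trans ?_ (dvd_pow_self _ two_ne_zero)
      omega
    have h3 : (2 : ℤ) ∣ (a ℓ) ^ 2 := by
      have := dvd_add h h2
      simpa using this
    exact ha (Int.prime_two.dvd_of_dvd_pow h3)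

theorem ne1_two {S : ℕ → Prop} {a : ℕ → ℤ}
    (ne1 : ∀ M : ℕ, 0 < M → ∃ ℓ : ℕ, ℓ.Prime ∧ S ℓ ∧ (M : ℤ) ∣ ℓ - 1 ∧ ¬ (2 : ℤ) ∣ a ℓ)
    (M : ℕ) (hM : 0 < M) : ∃ ℓ : ℕ, ℓ.Prime ∧ S ℓ ∧ (M : ℤ) ∣ ℓ - 1 ∧
      ¬ ((2 : ℕ) : ℤ) ∣ a ℓ - (ℓ + 1) := by
  obtain ⟨ℓ, hℓ, hS, hd, ha⟩ := ne1 (2 * M) (by omega)
  push_cast at hd
  refine ⟨ℓ, hℓ, hS, (Dvd.intro_left _ rfl).trans hd, ?_⟩
  intro h
  have h1 : (2 : ℤ) ∣ ℓ - 1 := (Dvd.intro _ rfl).trans hd
  apply ha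
  have h' : (2 : ℤ) ∣ a ℓ - (ℓ + 1) := h
  omega

/-! ### Elements of order three in the residual image -/

theorem trace_comm_entries : ∀ a b c d e f g h : ZMod 2, a * d + b * c = 1 → e * h + f * g = 1 →
    ¬ (b * g = f * c ∧ a * f + b * h = e * b + f * d ∧ c * e + d * g = g * a + h * c) →
    ((a * e + b * g) * d + (a * f + b * h) * c) * h + ((a * e + b * g) * b + (a * f + b * h) * a) * g +
    (((c * e + d * g) * d + (c * f + d * h) * c) * f + ((c * e + d * g) * b + (c * f + d * h) * a) * e)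
      = 1 := by
  decide

theorem neg_two (x : ZMod 2) : -x = x := by
  revert x; decide

theorem inv_two {A A' : Matrix (Fin 2) (Fin 2) (ZMod 2)} (h : A * A' = 1) :
    A 0 0 * A 1 1 + A 0 1 * A 1 0 = 1 ∧ A' = !![A 1 1, A 0 1; A 1 0, A 0 0] := by
  have hd : A.det * A'.det = 1 := by rw [← Matrix.det_mul, h, Matrix.det_one]
  have hd1 : A.det = 1 := by
    have : ∀ x y : ZMod 2, x * y = 1 → x = 1 := by decide
    exact this _ _ hd
  have h1 : A.adjugate = A' := by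
    have h2 : A.adjugate * A = 1 := by rw [Matrix.adjugate_mul, hd1, one_smul]
    calc A.adjugate = A.adjugate * (A * A') := by rw [h, Matrix.mul_one]
      _ = A' := by rw [← Matrix.mul_assoc, h2, Matrix.one_mul]
  constructor
  · rw [Matrix.det_fin_two] at hd1
    rw [← hd1, sub_eq_add_neg, neg_two]
  · rw [← h1, Matrix.adjugate_fin_two, neg_two, neg_two]

theorem trace_comm {A B A' B' : Matrix (Fin 2) (Fin 2) (ZMod 2)} (hA : A * A' = 1)
    (hB : B * B' = 1) (h : A * B ≠ B * A) : (A * B * A' * B').trace = 1 := by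
  obtain ⟨h1, rfl⟩ := inv_two hA
  obtain ⟨h2, rfl⟩ := inv_two hB
  have h3 := trace_comm_entries (A 0 0) (A 0 1) (A 1 0) (A 1 1) (B 0 0) (B 0 1) (B 1 0) (B 1 1) h1 h2
    (by
      rintro ⟨e1, e2, e3⟩
      apply h
      ext i j
      fin_cases i <;> fin_cases j <;> simp only [Matrix.mul_apply, Fin.sum_univ_two, Fin.zero_eta,
        Fin.isValue, Fin.mk_one]
      · linear_combination e1
      · linear_combination e2
      · linear_combination e3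
      · linear_combination -e1)
  rw [Matrix.trace_fin_two]
  simp only [Matrix.mul_apply, Fin.sum_univ_two, Matrix.of_apply, Matrix.cons_val',
    Matrix.cons_val_zero, Matrix.cons_val_one, Matrix.cons_val_fin_one, Fin.isValue]
  linear_combination h3

theorem trace_pow_of_trace_zero {X : Matrix (Fin 2) (Fin 2) (ZMod 2)} (hd : X.det = 1)
    (ht : X.trace = 0) (k : ℕ) : (X ^ k).trace = 0 := by
  have h1 : X * X = 1 := by
    have h2 := S41grp.cayley X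
    rw [h2, ht, hd, zero_smul, zero_sub, one_smul]
    ext i j
    rw [Matrix.neg_apply, neg_two]
  have h0 : (1 : Matrix (Fin 2) (Fin 2) (ZMod 2)).trace = 0 := by
    rw [Matrix.trace_fin_two]; decide
  rcases Nat.even_or_odd k with ⟨j, rfl⟩ | ⟨j, rfl⟩
  · rw [← two_mul, pow_mul, pow_two, h1, one_pow, h0]
  · rw [pow_succ, pow_mul, pow_two, h1, one_pow, one_mul, ht]

/-- Primes `ℓ ≡ 1 mod M` whose Frobenius has order three in a non commutative representation with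
values in `GL₂(𝔽₂)`. -/
theorem exists_order_three (r : GQ →* Matrix (Fin 2) (Fin 2) (ZMod 2))
    (L : IntermediateField ℚ (AlgebraicClosure ℚ)) [FiniteDimensional ℚ L]
    (hL : ∀ σ : GQ, (∀ x ∈ L, σ x = x) → r σ = 1) (hnc : ∃ σ τ : GQ, r σ * r τ ≠ r τ * r σ)
    (T : Set ℕ) (hT : T.Finite) (M : ℕ) (hM : 0 < M) :
    ∃ ℓ : ℕ, ℓ.Prime ∧ ℓ ∉ T ∧ (M : ℤ) ∣ ℓ - 1 ∧
      ∃ A : ValuationSubring (AlgebraicClosure ℚ), A.LiesOverPrime ℓ ∧
        ∃ φ : GQ, A.IsFrobeniusAt φ ℓ ∧ (r φ).trace = 1 := by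
  obtain ⟨σ, τ, hστ⟩ := hnc
  haveI : NeZero M := ⟨hM.ne'⟩
  haveI : NeZero ((M : ℕ) : AlgebraicClosure ℚ) := ⟨by exact_mod_cast NeZero.ne M⟩
  obtain ⟨ζ, hζ⟩ := HasEnoughRootsOfUnity.exists_primitiveRoot (AlgebraicClosure ℚ) M
  haveI : FiniteDimensional ℚ (IntermediateField.adjoin ℚ {ζ}) :=
    IntermediateField.adjoin.finiteDimensional
      ((AlgebraicClosure.isAlgebraic ℚ).isAlgebraic ζ).isIntegral
  haveI : FiniteDimensional ℚ (L ⊔ IntermediateField.adjoin ℚ {ζ} : IntermediateField ℚ _) :=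
    IntermediateField.finiteDimensional_sup _ _
  set c : GQ := σ * τ * σ⁻¹ * τ⁻¹ with hc
  have hrc : (r c).trace = 1 := by
    rw [hc, _root_.map_mul, _root_.map_mul, _root_.map_mul]
    refine trace_comm ?_ ?_ hστ
    · rw [← _root_.map_mul, mul_inv_cancel, _root_.map_one]
    · rw [← _root_.map_mul, mul_inv_cancel, _root_.map_one]
  obtain ⟨ℓ, hℓ, hℓT, A, hA, φ, hφ, k, k', hk, hk'⟩ := FrobDensity.exists_frobenius_on
    (L ⊔ IntermediateField.adjoin ℚ {ζ}) c (T ∪ {ℓ | ℓ ∣ M}) (by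
      refine Set.Finite.union hT ?_
      refine (Finset.finite_toSet M.divisors).subset fun ℓ hℓ => ?_
      rw [Finset.mem_coe, Nat.mem_divisors]
      exact ⟨hℓ, hM.ne'⟩)
  simp only [Set.mem_union, Set.mem_ofPred_eq, not_or] at hℓT
  refine ⟨ℓ, hℓ, hℓT.1, ?_, A, hA, φ, hφ, ?_⟩
  · have hmem : ζ ∈ L ⊔ IntermediateField.adjoin ℚ {ζ} :=
      le_sup_right (a := L) (IntermediateField.mem_adjoin_simple_self ℚ ζ)
    have h5 : φ ζ = ζ := by
      rw [hk ζ hmem]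
      exact (S41neh.cycSub M).pow_mem (S41neh.commutator_mem_cycSub σ τ) k ζ hζ.pow_eq_one
    have h6 : φ ζ = ζ ^ ℓ := GalRep.frobenius_rootOfUnity hA
      ((Nat.Prime.coprime_iff_not_dvd hℓ).mpr hℓT.2) hM.ne' hφ hζ.pow_eq_one
    rw [h5] at h6
    have h7 : ζ ^ (ℓ - 1) = 1 := by
      have hz : ζ ≠ 0 := hζ.ne_zero hM.ne'
      have : ζ * ζ ^ (ℓ - 1) = ζ * 1 := by
        rw [← pow_succ', Nat.sub_add_cancel hℓ.one_le, mul_one, ← h6]
      exact mul_left_cancel₀ hz this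
    have h8 := hζ.dvd_of_pow_eq_one _ h7
    have h9 : ((M : ℕ) : ℤ) ∣ ((ℓ - 1 : ℕ) : ℤ) := Int.natCast_dvd_natCast.mpr h8
    rw [Nat.cast_sub hℓ.one_le] at h9
    simpa using h9
  · have h2 : r ((φ ^ k')⁻¹ * c) = 1 := by
      apply hL
      intro x hx
      show (φ ^ k').symm (c x) = x
      rw [hk' x (le_sup_left (a := L) hx), AlgEquiv.symm_apply_apply]
    have h3 : r c = r φ ^ k' := by
      rw [_root_.map_mul] at h2
      have h4 : r (φ ^ k') * r (φ ^ k')⁻¹ = 1 := by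
        rw [← _root_.map_mul, mul_inv_cancel, _root_.map_one]
      calc r c = (r (φ ^ k') * r (φ ^ k')⁻¹) * r c := by rw [h4, one_mul]
        _ = r φ ^ k' := by rw [mul_assoc, h2, mul_one, _root_.map_pow]
    have hdet : (r φ).det = 1 := by
      have h5 : (r φ).det * (r φ⁻¹).det = 1 := by
        rw [← Matrix.det_mul, ← _root_.map_mul, mul_inv_cancel, _root_.map_one, Matrix.det_one]
      have : ∀ x y : ZMod 2, x * y = 1 → x = 1 := by decide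
      exact this _ _ h5
    by_contra hne
    have h0 : (r φ).trace = 0 := by
      have : ∀ x : ZMod 2, x ≠ 1 → x = 0 := by decide
      exact this _ hne
    have h6 := trace_pow_of_trace_zero hdet h0 k'
    rw [← h3, hrc] at h6
    exact one_ne_zero h6

/-- The first condition for integers `a ℓ` which give the traces of a non commutative
representation modulo two outside a finite set. -/
theorem ne1_of_rep (r : GQ →* Matrix (Fin 2) (Fin 2) (ZMod 2))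
    (L : IntermediateField ℚ (AlgebraicClosure ℚ)) [FiniteDimensional ℚ L]
    (hL : ∀ σ : GQ, (∀ x ∈ L, σ x = x) → r σ = 1) (hnc : ∃ σ τ : GQ, r σ * r τ ≠ r τ * r σ)
    {T : Set ℕ} (hT : T.Finite) {a : ℕ → ℤ}
    (ha : ∀ ℓ : ℕ, ℓ.Prime → ℓ ∉ T → ∀ A : ValuationSubring (AlgebraicClosure ℚ),
      A.LiesOverPrime ℓ → ∀ φ : GQ, A.IsFrobeniusAt φ ℓ → (r φ).trace = ((a ℓ : ℤ) : ZMod 2))
    (M : ℕ) (hM : 0 < M) :
    ∃ ℓ : ℕ, ℓ.Prime ∧ ℓ ∉ T ∧ (M : ℤ) ∣ ℓ - 1 ∧ ¬ (2 : ℤ) ∣ a ℓ := by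
  obtain ⟨ℓ, hℓ, hℓT, hd, A, hA, φ, hφ, ht⟩ := exists_order_three r L hL hnc T hT M hM
  refine ⟨ℓ, hℓ, hℓT, hd, fun h => ?_⟩
  rw [ha ℓ hℓ hℓT A hA φ hφ] at ht
  have h0 : ((a ℓ : ℤ) : ZMod 2) = 0 := (ZMod.intCast_zmod_eq_zero_iff_dvd _ _).mpr (by exact_mod_cast h)
  rw [h0] at ht
  exact zero_ne_one ht

end Fermat.Agent.LTF.Ihara

end
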