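import Fermat.Agent.LTF.IharaGen
import Fermat.Agent.QX4.LevelUp
import Fermat.Agent.GalRep.JZ9_Map
import Fermat.Agent.Cofaith.Exists
import Fermat.Agent.ModFun.HermiteGen
import Fermat.Agent.ModFun.JN

/-!
# Degeneracy maps on `J₀` and on characters
-/

set_option autoImplicit false
set_option linter.style.haveILetI false

noncomputable section

open UpperHalfPlane ModularCurve AlgebraicCurve CongruenceSubgroup Matrix
open scoped MatrixGroups Manifold

namespace Fermat.Agent.LTF.Ihara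

open Fermat.Agent.GalRep Fermat.Agent.X0Emb Fermat.Agent.ModFun Fermat.Agent.QX4
open Fermat.Agent.S41aux (degA degB betaZ betaZ_mul_degB)
open Fermat.Agent.HeckePar
open Fermat.Agent.RR (div div_apply)
open Fermat.Agent.TwoGauss (wq wq_alpha)
open Fermat.Agent.S37aux (inclBar coe_inclBar)

local notation "KQ" => AlgebraicClosure ℚ

section General

variable {K F F' : Type*} [Field K] [Field F] [Algebra K F] [Field F'] [Algebra K F']
  [HasPrincipalDivisors K F] [HasPrincipalDivisors K F']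

/-- Kummer functions and pull-backs. -/
theorem IsKummer.pull {n : ℕ} {x : Pic0 K F} {h : F} (hx : IsKummer n x h) (φ : F →ₐ[K] F')
    (hφ : φ.toRingHom.IsIntegral) (hFI : FundamentalIdentityAlong K φ hφ) :
    IsKummer n (pullPic0 φ hφ hFI x) (φ h) := by
  obtain ⟨D, rfl, h0, hD⟩ := hx
  refine ⟨pullDegZero φ hφ hFI D, rfl, by simpa using h0, fun v => ?_⟩
  have h1 : n • (D : Divisor K F) = div h := by
    ext w
    rw [div_apply, Finsupp.smul_apply, ← hD w]
    simp
  have h2 : n • Divisor.pullbackAlong φ hφ (D : Divisor K F) = div (φ h) := by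
    rw [← map_nsmul, h1, HeckeComm.pullbackAlong_div]
  have h3 := DFunLike.congr_fun h2 v
  rw [Finsupp.smul_apply, div_apply] at h3
  rw [coe_pullDegZero, ← h3]
  simp

end General

variable {m q : ℕ} [NeZero m] [NeZero q]

/-- `α^* : J₀(m) → J₀(mq)`. -/
def piA (m q : ℕ) [NeZero m] [NeZero q] : JZero m →+ JZero (m * q) :=
  pullPic0 (heckeAlphaBar KQ m q) (FF.isIntegralAlong _) (FF.fundamentalIdentityAlong _ _)

/-- `β^* : J₀(m) → J₀(mq)`. -/
def piB (m q : ℕ) [NeZero m] [NeZero q] : JZero m →+ JZero (m * q) :=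
  pullPic0 (heckeBetaBar KQ m q) (FF.isIntegralAlong _) (FF.fundamentalIdentityAlong _ _)

theorem piA_eq_piUp : piA m q = piUp (dvd_mul_right m q) := by
  have h : heckeAlphaBar KQ m q = inclBar (dvd_mul_right m q) := by
    ext f
    rw [coe_heckeAlphaBar, coe_inclBar]
  have h1 : ∀ (φ φ' : modularFunctionFieldBar m →ₐ[KQ] modularFunctionFieldBar (m * q))
      (h : φ = φ') (h1 : φ.toRingHom.IsIntegral) (h2 : φ'.toRingHom.IsIntegral)
      (h3 : FundamentalIdentityAlong KQ φ h1) (h4 : FundamentalIdentityAlong KQ φ' h2),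
      pullPic0 φ h1 h3 = pullPic0 φ' h2 h4 := by
    rintro φ _ rfl _ _ _ _
    rfl
  exact h1 _ _ h _ _ _ _

/-- `β^* = w_q α^*` on torsion. -/
theorem wJ_piA (hq : q.Prime) (hm : ¬ q ∣ m) {n : ℕ} (hn : n ≠ 0) (x : JZero m)
    (hx : n • x = 0) : wJ hq hm (piA m q x) = piB m q x := by
  obtain ⟨D, rfl⟩ := Pic0.mk_surjective x
  obtain ⟨f, hf0, hf⟩ := exists_div_of_nsmul_eq_zero hx
  rw [piA, pullPic0_mk, wJ_mk, piB, pullPic0_mk]
  congr 1
  apply Subtype.ext
  rw [SemilinearAut.coe_degZeroSMulHom, coe_pullDegZero, coe_pullDegZero]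
  refine eq_on_torsion
    (Φ := (DistribSMul.toAddMonoidHom _ (SemilinearAut.ofAlgAut (wq hq hm))).comp
      (Divisor.pullbackAlong (heckeAlphaBar KQ m q) (FF.isIntegralAlong _)))
    (Ψ := Divisor.pullbackAlong (heckeBetaBar KQ m q) (FF.isIntegralAlong _))
    (fun e _ => ?_) hn hf0 hf
  show SemilinearAut.ofAlgAut (wq hq hm) •
      Divisor.pullbackAlong (heckeAlphaBar KQ m q) (FF.isIntegralAlong _) (div e) = _
  rw [HeckeComm.pullbackAlong_div, smul_div, HeckeComm.pullbackAlong_div,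
    SemilinearAut.ofAlgAut_smul, wq_alpha hq hm]

variable {ι : KQ →+* ℂ} {n : ℕ}

/-- The relation is compatible with `α^*`. -/
theorem Rel.pullA {x : JZero m} {χ : Gamma0 m →* ℂˣ} (hx : Rel ι m n x χ) :
    Rel ι (m * q) n (piA m q x) (χ.comp (degA m q)) := by
  obtain ⟨h, g, h1, h2, h3⟩ := hx
  refine ⟨heckeAlphaBar KQ m q h, g, IsKummer.pull h1 _ _ _, ⟨h2.mdiff, h2.growth, fun γ τ => ?_⟩, ?_⟩
  · exact h2.smul (degA m q γ) τ
  · rw [coe_heckeAlphaBar]; exact h3

omit [NeZero m] in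
theorem aff_degB (hq : q ≠ 0) (γ : Gamma0 (m * q)) (τ : ℍ) :
    aff q 0 1 ((γ : SL(2, ℤ)) • τ) = ((degB m hq γ : Gamma0 m) : SL(2, ℤ)) • aff q 0 1 τ := by
  have h := betaZ_mul_degB m hq γ
  have h00 := congrFun (congrFun h 0) 0
  have h01 := congrFun (congrFun h 0) 1
  have h10 := congrFun (congrFun h 1) 0
  have h11 := congrFun (congrFun h 1) 1
  simp only [betaZ, Matrix.mul_apply, Fin.sum_univ_two, Matrix.of_apply, Matrix.cons_val',
    Matrix.cons_val_zero, Matrix.cons_val_one, Matrix.cons_val_fin_one, mul_zero, zero_mul,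
    add_zero, zero_add, one_mul, mul_one] at h00 h01 h10 h11
  refine aff_smul_eq q 0 1 q 0 1 _ _ ?_ ?_ ?_ ?_ τ
  · push_cast; linear_combination h00
  · push_cast; linear_combination h01
  · push_cast; linear_combination h10
  · push_cast; linear_combination h11

theorem twist_zetaU_zero (G : LaurentSeries ℂ) : twist (zetaU 0 1) G = G := by
  have h : zetaU 0 1 = 1 := by
    ext
    simp [zetaU]
  rw [h, X0Emb.twist_one]

/-- The relation is compatible with `β^*`. -/
theorem Rel.pullB (hq : q ≠ 0) {x : JZero m} {χ : Gamma0 m →* ℂˣ} (hx : Rel ι m n x χ) :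
    Rel ι (m * q) n (piB m q x) (χ.comp (degB m hq)) := by
  obtain ⟨h, g, h1, h2, h3⟩ := hx
  refine ⟨heckeBetaBar KQ m q h, fun τ => g (aff q 0 1 τ), IsKummer.pull h1 _ _ _,
    ⟨mdiff_comp_aff h2.mdiff q 0 1, h2.growth.comp_aff q 0 1, fun γ τ => ?_⟩, ?_⟩
  · show g (aff q 0 1 ((γ : SL(2, ℤ)) • τ)) = _
    rw [aff_degB hq, h2.smul]
    rfl
  · rw [coe_heckeBetaBar]
    have h4 := h3.aff q 0 1 q 1 (by ring)
    rw [twist_zetaU_zero] at h4
    have h5 : coeffMap ι (qExpand KQ q (h : LaurentSeries KQ)) =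
        qExpand ℂ q (coeffMap ι (h : LaurentSeries KQ)) := coeffMap_qExpand _ _ _
    rw [h5]
    have h6 : ((1 : ℕ) : ℝ) = 1 := Nat.cast_one
    rw [h6] at h4
    exact h4

end Fermat.Agent.LTF.Ihara

end
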