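/-
LTFREE: interface propositions (captain helper95).  See board topic LTFREE for the blueprint.
-/
import Fermat.Agent.LTF.Defs

set_option autoImplicit false

noncomputable section

namespace Fermat.Agent.LTF

open IsLocalRing

/-! ### Selmer group of `V' ⊂ M₂(𝔽₂)` (span of the three involutions) -/

/-- `V' = {0, three involutions} ⊂ M₂(𝔽₂)`, stable under conjugation by `GL₂(𝔽₂)`. -/
def Vp : AddSubgroup (M2 (ZMod 2)) where
  carrier := {X | X 0 0 = X 1 1 ∧ X 0 0 = X 0 1 + X 1 0}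
  zero_mem' := by simp
  add_mem' := by
    rintro X Y ⟨h1, h2⟩ ⟨h3, h4⟩
    refine ⟨by simp [h1, h3], ?_⟩
    simp only [Matrix.add_apply, h2, h4]
    ring
  neg_mem' := by
    rintro X ⟨h1, h2⟩
    refine ⟨by simp [h1], ?_⟩
    simp only [Matrix.neg_apply, h2]
    ring

/-- continuous `V'`-valued 1-cocycles for the conjugation action through `r̄` -/
structure IsCoc (rbar : GQ →* M2 (ZMod 2)) (b : GQ → M2 (ZMod 2)) : Prop where
  mem : ∀ σ, b σ ∈ Vp
  coc : ∀ σ τ, b (σ * τ) = b σ + rbar σ * b τ * rbar σ⁻¹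
  cont : ∃ L : IntermediateField ℚ Qb, FiniteDimensional ℚ L ∧
    ∀ σ : GQ, (∀ x ∈ L, σ x = x) → b σ = 0

/-- the local condition `L_v = image of H¹(ℚ_v, 𝔽₂) → H¹(ℚ_v, V')` (`1 ↦` the fixed involution)
at a place `B` where `r̄(D_B)` has order `2`. -/
def LocCond (rbar : GQ →* M2 (ZMod 2)) (B : ValuationSubring Qb) (b : GQ → M2 (ZMod 2)) : Prop :=
  ∃ (m : GQ → ZMod 2) (u X : M2 (ZMod 2)), X ∈ Vp ∧
    (∃ g ∈ B.decompositionSubgroup ℚ, rbar g = u ∧ u ≠ 1) ∧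
    (∀ g ∈ B.decompositionSubgroup ℚ, ∀ h ∈ B.decompositionSubgroup ℚ, m (g * h) = m g + m h) ∧
    ∀ g ∈ B.decompositionSubgroup ℚ, b g = m g • u + (rbar g * X * rbar g⁻¹ - X)

/-- `b` is a Selmer class for `(N, P)` -/
structure IsSel (rbar : GQ →* M2 (ZMod 2)) (N : ℕ) (P : Finset ℕ) (b : GQ → M2 (ZMod 2)) :
    Prop where
  coc : IsCoc rbar b
  unr : ∀ ℓ : ℕ, ℓ.Prime → ℓ ∉ stPrimes N P → ∀ B : ValuationSubring Qb, B.LiesOverPrime ℓ →
    ∀ σ ∈ B.inertiaSubgroupIn ℚ, b σ = 0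
  loc : ∀ v ∈ stPrimes N P, ∀ B : ValuationSubring Qb, B.LiesOverPrime v → LocCond rbar B b

/-- the Selmer group for `(N, P)` vanishes -/
def SelZero (rbar : GQ →* M2 (ZMod 2)) (N : ℕ) (P : Finset ℕ) : Prop :=
  ∀ b, IsSel rbar N P b → ∃ X ∈ Vp, ∀ σ, b σ = rbar σ * X * rbar σ⁻¹ - X

/-- (K) SELMER KILLING -/
def SelmerKilling : Prop :=
  ∀ (rbar : GQ →* M2 (ZMod 2)) (N : ℕ), ResData rbar N →
    ∃ Q : Finset ℕ, (∀ q ∈ Q, Aux rbar N q) ∧ SelZero rbar N Q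

/-! ### the ring `R(Q)/ϖ` -/

/-- `A` is generated by the traces of `ρ` and the signs `z v` -/
def Gen (O : Type) [CommRing O] {A : Type} [CommRing A] [Algebra O A] (N : ℕ) (P : Finset ℕ)
    (ρ : GQ →* M2 A) (z : ℕ → A) : Prop :=
  Algebra.adjoin O (Set.range (fun σ => (ρ σ).trace) ∪ z '' (stPrimes N P : Set ℕ)) = ⊤

/-- (G) every deformation of type `(N, Q)` to a `k`-algebra generated by traces and signs has
length at most `h * 2 ^ |Q|` (in the application `h` = 2-part of the class number of `ℚ(√-N)`). -/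
def DihedralBound (O : Type) [CommRing O] [IsLocalRing O] (rbar : GQ →* M2 (ZMod 2)) (N : ℕ)
    (Q : Finset ℕ) (h : ℕ) : Prop :=
  ∀ (A : Type) [CommRing A] [IsLocalRing A] [Algebra O A] [Module.Finite O A],
    (∀ x ∈ maximalIdeal O, algebraMap O A x = 0) →
    Function.Surjective (IsLocalRing.residue A ∘ algebraMap O A) →
    ∀ (ρ : GQ →* M2 A) (z : ℕ → A), IsType rbar N Q ρ z → Gen O N Q ρ z →
      Module.length O A ≤ (h * 2 ^ Q.card : ℕ)

/-! ### modular points -/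

section Points

variable (O : Type) [CommRing O] [IsDomain O] [IsDiscreteValuationRing O]

/-- a finite family of `O`-points of type `(N, P)` with pairwise distinct traces -/
structure Points (rbar : GQ →* M2 (ZMod 2)) (N : ℕ) (P : Finset ℕ) where
  X : Type
  [fin : Fintype X]
  ρ : X → GQ →* M2 O
  z : X → ℕ → O
  isType : ∀ x, IsType rbar N P (ρ x) (z x)
  sep : ∀ x y, (∀ σ, (ρ x σ).trace = (ρ y σ).trace) → x = y

attribute [instance] Points.fin

variable {O}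

/-- the monodromy ideal at `q`: generated by the entries of `ρ τ - 1`, `τ` in inertia at `q` -/
def tIdeal (q : ℕ) (ρ : GQ →* M2 O) : Ideal O :=
  Ideal.span {x | ∃ B : ValuationSubring Qb, B.LiesOverPrime q ∧
    ∃ τ ∈ B.inertiaSubgroupIn ℚ, ∃ i j, x = (ρ τ - 1) i j}

/-- the ideal generated by `(q+1)² - tr(ρ Φ)²`, `Φ` Frobenius at `q` -/
def dIdeal (q : ℕ) (ρ : GQ →* M2 O) : Ideal O :=
  Ideal.span {x | ∃ B : ValuationSubring Qb, B.LiesOverPrime q ∧
    ∃ Φ : GQ, B.IsFrobeniusAt Φ q ∧ x = ((q : O) + 1) ^ 2 - (ρ Φ).trace ^ 2}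

/-- The complete T-side input: families of points for every `P ⊆ Q` with the numerical equality
`∑_{P ∪ q} length O/t_q = ∑_P length O/((q+1)² - a_q²)` and `|X_Q| ≥ h 2^|Q|`. -/
structure TSide (rbar : GQ →* M2 (ZMod 2)) (N : ℕ) (Q : Finset ℕ) (h : ℕ) where
  pts : ∀ P : Finset ℕ, P ⊆ Q → Points O rbar N P
  d_ne : ∀ (P : Finset ℕ) (hP : P ⊆ Q) (q : ℕ), q ∈ Q → q ∉ P → ∀ x : (pts P hP).X,
    dIdeal q ((pts P hP).ρ x) ≠ ⊥
  len : ∀ (P : Finset ℕ) (hP : P ⊆ Q) (q : ℕ) (hq : q ∈ Q), q ∉ P →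
    ∑ x : (pts (insert q P) (Finset.insert_subset hq hP)).X,
        Module.length O (O ⧸ tIdeal q ((pts (insert q P) (Finset.insert_subset hq hP)).ρ x)) =
      ∑ x : (pts P hP).X, Module.length O (O ⧸ dIdeal q ((pts P hP).ρ x))
  count : h * 2 ^ Q.card ≤ Fintype.card (pts Q subset_rfl).X

/-- (RT) THE ABSTRACT R = T THEOREM -/
def AbstractRT : Prop :=
  ∀ (O : Type) [CommRing O] [IsDomain O] [IsDiscreteValuationRing O]
    [IsAdicComplete (maximalIdeal O) O] [Finite (ResidueField O)] [CharZero O],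
    (2 : O) ∈ maximalIdeal O →
    ∀ (rbar : GQ →* M2 (ZMod 2)) (N : ℕ), ResData rbar N → ∀ (Q : Finset ℕ),
      (∀ q ∈ Q, Aux rbar N q) → ∀ h : ℕ, DihedralBound O rbar N Q h →
      ∀ (T : TSide (O := O) rbar N Q h) (ρ : GQ →* M2 O) (z : ℕ → O), IsType rbar N ∅ ρ z →
        ∃ x : (T.pts ∅ (Finset.empty_subset Q)).X,
          ∀ σ, ((T.pts ∅ (Finset.empty_subset Q)).ρ x σ).trace = (ρ σ).trace

end Points

end Fermat.Agent.LTF

end
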