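import Fermat.Agent.S51_Galois
import Fermat.Prelude.Def_FLTPrelim_ModularRep
import Mathlib.RingTheory.Polynomial.RationalRoot

/-!
# Irreducibility of the mod `2` representation

`irreducible_two_of_no_root`: if the resolvent cubic `X³ - 3 c₄ X - 2 c₆` has no integral root
then `W[2]` is irreducible.
-/

set_option autoImplicit false

namespace Fermat.Agent.LTF

open WeierstrassCurve WeierstrassCurve.Affine WeierstrassCurve.Affine.Point
open Fermat.Agent.S51tor Fermat.Agent.S51gal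

/-- A proper non-trivial subspace of a space over `ZMod p` of dimension less than three is a
line. -/
lemma line_of_card_lt {p : ℕ} [Fact p.Prime] {V : Type*} [AddCommGroup V] [Module (ZMod p) V]
    [Finite V] (hcard : Nat.card V < p ^ 3) (N : Submodule (ZMod p) V) (hb : N ≠ ⊥) (ht : N ≠ ⊤) :
    ∃ v ∈ N, v ≠ 0 ∧ ∀ w ∈ N, ∃ m : ℕ, m < p ∧ w = m • v := by
  have hp := (Fact.out : p.Prime)
  have : NeZero p := ⟨hp.ne_zero⟩
  have h1 : Module.finrank (ZMod p) V < 3 := by
    rw [Module.natCard_eq_pow_finrank (K := ZMod p), Nat.card_zmod] at hcard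
    exact (Nat.pow_lt_pow_iff_right hp.one_lt).mp hcard
  have h2 : Module.finrank (ZMod p) N < Module.finrank (ZMod p) V := Submodule.finrank_lt ht
  obtain ⟨v, hv, hv0⟩ := Submodule.exists_mem_ne_zero_of_ne_bot hb
  have h3 : 0 < Module.finrank (ZMod p) N := by
    rw [Nat.pos_iff_ne_zero]
    intro h
    exact hb (Submodule.finrank_eq_zero.mp h)
  have h4 : Module.finrank (ZMod p) N = 1 := by omega
  refine ⟨v, hv, hv0, fun w hw => ?_⟩
  obtain ⟨c, hc⟩ := exists_smul_eq_of_finrank_eq_one h4 (x := (⟨v, hv⟩ : N))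
    (by simpa using hv0) (⟨w, hw⟩ : N)
  have hc' : c • v = w := by simpa using congrArg Subtype.val hc
  refine ⟨c.val, c.val_lt, ?_⟩
  rw [← hc', ← Nat.cast_smul_eq_nsmul (ZMod p), ZMod.natCast_zmod_val]

section points

variable {F : Type*} [Field F] [DecidableEq F] {W : Affine F}

lemma two_torsion {x y : F} (h : W.Nonsingular x y) (h2 : 2 • (Point.some x y h) = 0) :
    g W x = 0 := by
  by_contra hg
  obtain ⟨x', y', h', he, -⟩ := double_some h hg
  rw [← two_nsmul, h2] at he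
  exact some_ne_zero h' he.symm

lemma two_torsion_of_root {x y : F} (h : W.Nonsingular x y) (hg : g W x = 0) :
    2 • (Point.some x y h) = 0 := by
  rw [two_nsmul]; exact double_some_eq_zero h hg

open Polynomial in
lemma exists_two_torsion [IsAlgClosed F] [CharZero F] (hΔ : W.Δ ≠ 0) :
    ∃ P : W.Point, P ≠ 0 ∧ 2 • P = 0 := by
  set p : F[X] := 4 * X ^ 3 + C W.b₂ * X ^ 2 + 2 * C W.b₄ * X + C W.b₆ with hp
  have hdeg : p.natDegree = 3 := by rw [hp]; compute_degree!
  obtain ⟨x, hx⟩ := IsAlgClosed.exists_root p (by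
    intro h; rw [natDegree_eq_of_degree_eq_some h] at hdeg; exact absurd hdeg (by norm_num))
  obtain ⟨y, h⟩ := exists_point hΔ x
  refine ⟨Point.some x y h, some_ne_zero h, two_torsion_of_root h ?_⟩
  rw [IsRoot.def, hp] at hx
  simp only [eval_add, eval_mul, eval_pow, eval_X, eval_C, eval_ofNat] at hx
  simpa only [g] using hx

open Polynomial in
lemma card_two_torsion [CharZero F] :
    Set.Finite {P : W.Point | 2 • P = 0} ∧ Set.ncard {P : W.Point | 2 • P = 0} ≤ 7 := by
  set p : F[X] := 4 * X ^ 3 + C W.b₂ * X ^ 2 + 2 * C W.b₄ * X + C W.b₆ with hp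
  have hdeg : p.natDegree = 3 := by rw [hp]; compute_degree!
  have hp0 : p ≠ 0 := by rintro h; rw [h] at hdeg; simp at hdeg
  classical
  have := finite_of_x_mem (W := W) p.roots.toFinset {P : W.Point | 2 • P = 0} (by
    intro P hP hP0
    rcases P with _ | ⟨x, y, h⟩
    · exact absurd rfl hP0
    · refine ⟨x, ?_, y, h, rfl⟩
      rw [Multiset.mem_toFinset, mem_roots hp0, IsRoot.def, hp]
      have := two_torsion h hP
      simp only [g] at this
      simp only [eval_add, eval_mul, eval_pow, eval_X, eval_C, eval_ofNat]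
      exact this)
  refine ⟨this.1, this.2.trans ?_⟩
  have h1 : p.roots.toFinset.card ≤ 3 :=
    (Multiset.toFinset_card_le _).trans ((card_roots' p).trans hdeg.le)
  omega

end points

section galois

variable {K : Type*} [Field K] [DecidableEq K] [Algebra ℚ K] {W : Affine ℚ}

/-- If the mod-`p` representation is reducible there is a Galois-stable line. -/
lemma stable_line' (p : ℕ) [Fact p.Prime] (hne : ∃ P : (W⁄K).Point, P ≠ 0 ∧ p • P = 0)
    (hfin : Set.Finite {P : (W⁄K).Point | p • P = 0})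
    (hm : Set.ncard {P : (W⁄K).Point | p • P = 0} ≤ p ^ 3 - 1)
    (h : ¬ GaloisRepIsIrreducible (K := K) ℚ W p) :
    ∃ P : (W⁄K).Point, P ≠ 0 ∧ p • P = 0 ∧
      ∀ σ : K ≃ₐ[ℚ] K, ∃ m : ℕ, m < p ∧ σ • P = m • P := by
  rw [GaloisRepIsIrreducible, not_and_or] at h
  rcases h with h | h
  · obtain ⟨P, hP0, hP⟩ := hne
    exact absurd (nontrivial_torsion p P hP0 hP) h
  push Not at h
  obtain ⟨N, hN, hb, ht⟩ := h
  obtain ⟨hfin, hcard⟩ := finite_torsion (W := W) (K := K) p hfin _ hm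
  have hpos : 0 < p ^ 3 := pow_pos (Fact.out : p.Prime).pos 3
  obtain ⟨v, hv, hv0, hline⟩ := line_of_card_lt (p := p) (by omega) N hb ht
  refine ⟨v, fun h0 => hv0 (Subtype.ext h0), ?_, fun σ => ?_⟩
  · have := v.2
    rw [Submodule.mem_torsionBy_iff, natCast_zsmul] at this
    exact this
  · obtain ⟨m, hm, hc⟩ := hline _ (hN σ _ hv)
    exact ⟨m, hm, congrArg Subtype.val hc⟩

variable [IsAlgClosed K] [CharZero K]

theorem root_of_reducible_two (hΔ : W.Δ ≠ 0)
    (hfix : ∀ x : K, (∀ σ : K ≃ₐ[ℚ] K, σ x = x) → ∃ q : ℚ, algebraMap ℚ K q = x)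
    (h : ¬ GaloisRepIsIrreducible (K := K) ℚ W 2) : ∃ x : ℚ, g W x = 0 := by
  have hΔK := baseChange_Δ_ne_zero (K := K) hΔ
  have : Fact (Nat.Prime 2) := ⟨Nat.prime_two⟩
  obtain ⟨P, hP0, hP2, hline⟩ := stable_line' (W := W) (K := K) 2 (exists_two_torsion hΔK)
    card_two_torsion.1 card_two_torsion.2 h
  rcases P with _ | ⟨x, y, hxy⟩
  · exact absurd rfl hP0
  obtain ⟨q, hq⟩ := hfix x (by
    intro σ
    obtain ⟨m, hm, hc⟩ := hline σ
    obtain ⟨h', hσ⟩ := smul_some (W := W) σ hxy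
    rw [hσ] at hc
    interval_cases m
    · rw [zero_smul] at hc
      exact absurd hc (some_ne_zero _)
    · rw [one_smul] at hc
      exact (X_eq_iff (h₁ := h') (h₂ := hxy)).mpr (Or.inl hc))
  refine ⟨q, ?_⟩
  have h2 := two_torsion hxy hP2
  have : algebraMap ℚ K (g W q) = g (W⁄K) x := by
    rw [← hq]
    simp only [g, map_add, map_mul, map_pow, map_ofNat]
    rw [← WeierstrassCurve.map_b₂, ← WeierstrassCurve.map_b₄, ← WeierstrassCurve.map_b₆]
    rfl
  rw [h2] at this
  exact (map_eq_zero _).mp this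

end galois

/-- **Irreducibility mod `2`**: if `X³ - 3 c₄ X - 2 c₆` has no integral root then the mod `2`
representation is irreducible. -/
theorem irreducible_two_of_no_root (W : WeierstrassCurve ℤ) (hΔ : W.Δ ≠ 0)
    (h : ∀ x : ℤ, x ^ 3 - 3 * W.c₄ * x - 2 * W.c₆ ≠ 0) :
    W.ModRepIsIrreducible 2 := by
  by_contra hcon
  have hΔQ : (W.map (Int.castRingHom ℚ)).Δ ≠ 0 := by
    rw [WeierstrassCurve.map_Δ]
    simpa using hΔ
  have fixed_rational : ∀ x : AlgebraicClosure ℚ,
      (∀ σ : AlgebraicClosure ℚ ≃ₐ[ℚ] AlgebraicClosure ℚ, σ x = x) →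
      ∃ q : ℚ, algebraMap ℚ (AlgebraicClosure ℚ) q = x := by
    intro x hx
    have : Algebra.IsAlgebraic ℚ (AlgebraicClosure ℚ) := AlgebraicClosure.isAlgebraic ℚ
    have : IsAlgClosure ℚ (AlgebraicClosure ℚ) := ⟨AlgebraicClosure.isAlgClosed ℚ, this⟩
    have : IsGalois ℚ (AlgebraicClosure ℚ) := IsAlgClosure.isGalois ℚ _
    have h := (InfiniteGalois.mem_bot_iff_fixed (k := ℚ) (K := AlgebraicClosure ℚ) x).mpr hx
    rwa [IntermediateField.mem_bot] at h
  obtain ⟨x₀, hx₀⟩ := root_of_reducible_two (K := AlgebraicClosure ℚ)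
    (W := W.map (Int.castRingHom ℚ)) hΔQ fixed_rational hcon
  set V := W.map (Int.castRingHom ℚ) with hV
  set X : ℚ := 12 * x₀ + V.b₂ with hX
  have hc4 : V.c₄ = (W.c₄ : ℚ) := by rw [hV, WeierstrassCurve.map_c₄]; rfl
  have hc6 : V.c₆ = (W.c₆ : ℚ) := by rw [hV, WeierstrassCurve.map_c₆]; rfl
  have hXroot : X ^ 3 - 3 * (W.c₄ : ℚ) * X - 2 * (W.c₆ : ℚ) = 0 := by
    rw [← hc4, ← hc6]
    simp only [g] at hx₀
    simp only [hX, WeierstrassCurve.c₄, WeierstrassCurve.c₆]
    linear_combination 432 * hx₀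
  have hint : IsIntegral ℤ X := by
    refine ⟨Polynomial.X ^ 3 - Polynomial.C (3 * W.c₄) * Polynomial.X -
      Polynomial.C (2 * W.c₆), ?_, ?_⟩
    · rw [sub_sub]
      apply Polynomial.monic_X_pow_sub
      compute_degree!
    · simp only [Polynomial.eval₂_sub, Polynomial.eval₂_mul, Polynomial.eval₂_pow,
        Polynomial.eval₂_X, Polynomial.eval₂_C]
      simp only [eq_intCast]
      push_cast
      linarith [hXroot]
  obtain ⟨x, hx⟩ := IsIntegrallyClosed.isIntegral_iff.mp hint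
  rw [eq_intCast] at hx
  apply h x
  have : ((x ^ 3 - 3 * W.c₄ * x - 2 * W.c₆ : ℤ) : ℚ) = 0 := by
    push_cast; rw [hx]; exact hXroot
  exact_mod_cast this

end Fermat.Agent.LTF
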