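import Fermat.Agent.FlatP.KummerGen

/-!
# Tres ramifiee classes are not flat (any prime `p`)

Let `M` be a finite Galois module killed by `p` on which the inertia group at `A ∣ p` acts through
`σ x = x + χ(σ) y` with `σ y = y`, where `χ` is the Kummer character of `D ∈ ℚ` with `v(D)` prime
to `p`... (only `p = 2` is treated).
-/

set_option autoImplicit false

namespace Fermat.Agent.LTF.Loc2

open Fermat.Agent.FlatGS Fermat.Agent.MazurMult FermatAgent.ECVal Fermat.Agent.FlatP

/-- **Non flatness at `2`.** `M` is a finite Galois module killed by `2`; `x, y ∈ M`, `y ≠ 0` is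
fixed by inertia, and `σ x = x` or `σ x = x + y` according to whether `σ` fixes `δ` or not, where
`δ ^ 2 = D` is a rational number with odd `2`-adic valuation. Then `M` is not flat. -/
theorem not_isFlatModule_two {M : Type} [AddCommGroup M] {act : GQ → M → M}
    (hM : ∀ m : M, (2 : ℕ) • m = 0) {A : ValuationSubring Om} (hA : A.LiesOverPrime 2)
    {δ : Om} {D : ℚ} (hδ : δ ^ 2 = algebraMap ℚ Om D) {n : ℤ} (hn : Odd n)
    (hD : (valOf Nat.prime_two hA).Is n (algebraMap ℚ Om D))
    {x y : M} (hy0 : y ≠ 0) (hy : ∀ σ ∈ A.inertiaSubgroupIn ℚ, act σ y = y)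
    (hx1 : ∀ σ ∈ A.inertiaSubgroupIn ℚ, σ δ = δ → act σ x = x)
    (hx2 : ∀ σ ∈ A.inertiaSubgroupIn ℚ, σ δ ≠ δ → act σ x = x + y) :
    ¬ IsFlatModule 2 act := by
  intro hflat
  obtain ⟨hfin, B, hB⟩ := hflat.exists_model
  classical
  have hp : Nat.Prime 2 := Nat.prime_two
  set w := valOf hp hA with hw
  have hL := localData hp hA
  have hyy : y + y = 0 := by rw [← two_nsmul]; exact hM y
  have hneg : -y = y := neg_eq_of_add_eq_zero_left hyy
  -- the line
  let V : AddSubgroup M :=
    { carrier := {v | v = 0 ∨ v = y}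
      zero_mem' := Or.inl rfl
      add_mem' := by
        rintro a b (rfl | rfl) (rfl | rfl)
        · left; rw [add_zero]
        · right; rw [zero_add]
        · right; rw [add_zero]
        · left; exact hyy
      neg_mem' := by
        rintro a (rfl | rfl)
        · left; rw [neg_zero]
        · right; exact hneg }
  have hVmem : ∀ v, v ∈ V ↔ v = 0 ∨ v = y := fun v => Iff.rfl
  let lam : AddChar V Om :=
    { toFun := fun v => if (v : M) = 0 then 1 else -1
      map_zero_eq_one' := by simp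
      map_add_eq_mul' := by
        rintro ⟨a, ha⟩ ⟨b, hb⟩
        rcases (hVmem a).mp ha with h1 | h1 <;> rcases (hVmem b).mp hb with h2 | h2
        · subst h1 h2; simp
        · subst h1 h2; simp [hy0]
        · subst h1 h2; simp [hy0]
        · subst h1 h2; simp [hy0, hyy] }
  have hlam0 : ∀ v : V, (v : M) = 0 → lam v = 1 := fun v hv => if_pos hv
  have hlam1 : ∀ v : V, (v : M) = y → lam v = -1 := fun v hv => if_neg (by rw [hv]; exact hy0)
  have hact0 : ∀ σ, act σ 0 = 0 := hB.act_zero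
  have hV : ∀ σ ∈ A.inertiaSubgroupIn ℚ, ∀ v ∈ V, act σ v = v := by
    intro σ hσ v hv
    rcases (hVmem v).mp hv with rfl | rfl
    · exact hact0 σ
    · exact hy σ hσ
  have hx : ∀ σ ∈ A.inertiaSubgroupIn ℚ, act σ x - x ∈ V := by
    intro σ hσ
    by_cases h : σ δ = δ
    · rw [hx1 σ hσ h, sub_self]; exact V.zero_mem
    · rw [hx2 σ hσ h, add_sub_cancel_left]; exact Or.inr rfl
  obtain ⟨z, α, hα1, hα2, hz, hzσ⟩ := kummer_ord hp hA hB hM (V := V) (lam := lam)
    (fun σ hσ v hv => by rw [hV σ hσ v hv]; exact hv)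
    (by
      intro σ hσ v hv
      have h1 : (⟨act σ v, by rw [hV σ hσ v hv]; exact hv⟩ : V) = ⟨v, hv⟩ :=
        Subtype.ext (hV σ hσ v hv)
      rw [h1]
      rcases (hVmem v).mp hv with h2 | h2
      · rw [hlam0 ⟨v, hv⟩ h2, map_one]
      · rw [hlam1 ⟨v, hv⟩ h2, map_neg, map_one])
    (x := x) hx
  -- the valuation of `z`
  have hz2 : w.Is 0 (z ^ 2) := by
    rw [hz]
    have h1 : w.Gt 0 (((2 : ℕ) : Om) * α) := by
      have h2 : w.Is 1 ((2 : ℕ) : Om) := valOf_prime hp hA
      exact (h2.ge.mul hα2).gt (by norm_num)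
    exact QVal.is_one.add_gt h1
  have hδ0 : δ ≠ 0 := by
    rintro rfl
    rw [zero_pow two_ne_zero] at hδ
    exact hD.1 hδ.symm
  have hδσ : ∀ σ : GQ, σ δ = δ ∨ σ δ = -δ := by
    intro σ
    have h1 : (σ δ) ^ 2 = δ ^ 2 := by
      rw [← map_pow, hδ]
      exact σ.commutes D
    exact sq_eq_sq_iff_eq_or_eq_neg.mp h1
  have hδδ : δ ≠ -δ := by
    intro h
    have h1 : (2 : Om) * δ = 0 := by linear_combination h
    rcases mul_eq_zero.mp h1 with h2 | h2
    · exact two_ne_zero h2
    · exact hδ0 h2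
  -- `z / δ` is fixed by inertia
  have hfix : ∀ σ ∈ A.inertiaSubgroupIn ℚ, σ (z / δ) = z / δ := by
    intro σ hσ
    rw [map_div₀, hzσ σ hσ]
    by_cases h : σ δ = δ
    · rw [hlam0 _ (by
        change act σ x - x = 0
        rw [hx1 σ hσ h, sub_self]), one_mul, h]
    · have h1 : σ δ = -δ := (hδσ σ).resolve_left h
      rw [hlam1 _ (by
        change act σ x - x = y
        rw [hx2 σ hσ h, add_sub_cancel_left]), h1]
      ring
  have hz0 : z ≠ 0 := by
    rintro rfl
    rw [zero_pow two_ne_zero] at hz2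
    exact hz2.1 rfl
  obtain ⟨m, hm⟩ := hL.int (z / δ) (div_ne_zero hz0 hδ0) fun g => hfix g g.2
  have h1 : w.Is (2 * m) ((z / δ) ^ 2) := by
    have h2 : w.Is (m : ℚ) (z / δ) := ⟨div_ne_zero hz0 hδ0, hm⟩
    have h3 := h2.pow 2
    exact_mod_cast h3
  have h2 : w.Is (-n) ((z / δ) ^ 2) := by
    rw [div_pow, hδ, div_eq_mul_inv]
    have h3 := hz2.mul hD.inv
    rw [zero_add] at h3
    exact h3
  have h3 := h1.unique h2
  have h4 : 2 * m = -n := by exact_mod_cast h3
  obtain ⟨t, ht⟩ := hn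
  omega

end Fermat.Agent.LTF.Loc2
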