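import Fermat.Agent.LTF.Loc2TW
import Fermat.Agent.QX4.Spec
import Fermat.Agent.QX4.Poly
import Fermat.Agent.Cofaith.ES

/-!
# The local condition at the residue characteristic for systems new at `q = p`
-/

set_option autoImplicit false
set_option linter.unusedSectionVars false
set_option linter.style.haveILetI false

noncomputable section

open ModularCurve AlgebraicCurve IntermediateField CuspForm
open Fermat.Agent.GaussVal Fermat.Agent.GalRep Fermat.Agent.FF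
open scoped Fermat.Agent.GaussVal Pointwise
open Fermat.Agent.TwoGauss (wq mkData)
open Fermat.Agent.QX4
open Fermat.Agent.TW (exists_galois_ge_finset exists_frob_pow_mul_inertia inertia_le_decomp)

namespace Fermat.Agent.LTF.Loc2T

/-- the character `λ_ε` -/
def lamC (q : ℕ) (ε : ℤ) (σ : GQ) : ℤ := (-ε) ^ unrDeg q σ

section Act

variable {N : ℕ} [NeZero N]

theorem gsmul_zero (g : GQ) : g • (0 : JZero N) = 0 := smul_zero (A := JZero N) g

theorem gsmul_sub (g : GQ) (x y : JZero N) : g • (x - y) = g • x - g • y :=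
  smul_sub (A := JZero N) g x y

theorem gsmul_zsmul (g : GQ) (n : ℤ) (x : JZero N) : g • (n • x) = n • (g • x) :=
  map_zsmul (DistribSMul.toAddMonoidHom (JZero N) g) n x

theorem gsmul_nsmul (g : GQ) (n : ℕ) (x : JZero N) : g • (n • x) = n • (g • x) :=
  map_nsmul (DistribSMul.toAddMonoidHom (JZero N) g) n x

end Act

section Decomp

variable {q m : ℕ} [NeZero m] [Fact q.Prime] (hm : ¬ q ∣ m)
  {A : ValuationSubring (AlgebraicClosure ℚ)} (hA : A.LiesOverPrime q)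
  [CharP (IsLocalRing.ResidueField A) q]

/-- the `ε`-part of `J₀(mq)[q^k]` -/
abbrev nP (ε : ℤ) (k : ℕ) : AddSubgroup (JZero (m * q)) :=
  newPart q (pushA m q) (wJ Fact.out hm) ε k

theorem nP_galois {ε : ℤ} {k : ℕ} (g : GQ) {x : JZero (m * q)} (hx : x ∈ nP hm ε k) :
    g • x ∈ nP hm ε k := by
  obtain ⟨h1, h2, h3⟩ := hx
  refine ⟨?_, ?_, ?_⟩
  · rw [← gsmul_nsmul, h1, gsmul_zero]
  · have h := S34aux.pushN_smul m q g x
    change pushA m q (g • x) = g • pushA m q x at h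
    rw [h, h2, gsmul_zero]
  · rw [wJ_galois, h3, gsmul_zsmul]

theorem lamC_mul {ε : ℤ} (hε : ε = 1 ∨ ε = -1) {σ τ : GQ} (hσ : σ ∈ A.decompositionSubgroup ℚ)
    (hτ : τ ∈ A.decompositionSubgroup ℚ) (hA : A.LiesOverPrime q) :
    lamC q ε (σ * τ) = lamC q ε σ * lamC q ε τ := by
  refine pow_unrDeg_mul ?_ Fact.out hA hσ hτ
  rcases hε with rfl | rfl <;> norm_num

/-- **The action of the decomposition group modulo `W(A)`.** -/
theorem decomp_sub_mem {ε : ℤ} (hε : ε = 1 ∨ ε = -1) {σ : GQ}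
    (hσ : σ ∈ A.decompositionSubgroup ℚ) {k : ℕ} {x : JZero (m * q)} (hx : x ∈ nP hm ε k) :
    σ • x - lamC q ε σ • x ∈ WA hm hA := by
  have hq : q.Prime := Fact.out
  -- the elements for which the relation holds
  have hmul : ∀ σ ∈ A.decompositionSubgroup ℚ, ∀ τ ∈ A.decompositionSubgroup ℚ,
      (∀ x ∈ nP hm ε k, σ • x - lamC q ε σ • x ∈ WA hm hA) →
      (∀ x ∈ nP hm ε k, τ • x - lamC q ε τ • x ∈ WA hm hA) →
      ∀ x ∈ nP hm ε k, (σ * τ) • x - lamC q ε (σ * τ) • x ∈ WA hm hA := by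
    intro σ hσ τ hτ h1 h2 x hx
    rw [lamC_mul hε hσ hτ hA]
    have h3 := WA_galois hm hA hσ (h2 x hx)
    have h4 := h1 x hx
    have h5 := (WA hm hA).add_mem h3 ((WA hm hA).zsmul_mem h4 (lamC q ε τ))
    have e : σ • (τ • x - lamC q ε τ • x) + lamC q ε τ • (σ • x - lamC q ε σ • x) =
        (σ * τ) • x - (lamC q ε σ * lamC q ε τ) • x := by
      rw [gsmul_sub, zsmul_sub, mul_smul, gsmul_zsmul, mul_comm (lamC q ε σ), mul_zsmul]
      abel
    rwa [e] at h5
  have hinert : ∀ τ ∈ A.inertiaSubgroupIn ℚ, ∀ x ∈ nP hm ε k,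
      τ • x - lamC q ε τ • x ∈ WA hm hA := by
    intro τ hτ x hx
    rw [lamC, unrDeg_inertia hq hA hτ, pow_zero, one_smul]
    exact WA_inertia hm hA hτ hx.1
  obtain ⟨φ, hφ⟩ := Fermat.Agent.Frob.exists_isFrobeniusAt hq hA
  have hfrob : ∀ x ∈ nP hm ε k, φ • x - lamC q ε φ • x ∈ WA hm hA := by
    rintro x ⟨h1, h2, h3⟩
    rw [lamC, unrDeg_frob hq hA hφ, pow_one]
    have h4 := WA_frobenius hm hA hφ h1 h2
    rw [h3, gsmul_zsmul] at h4
    rcases hε with rfl | rfl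
    · rw [one_smul, add_comm] at h4
      rw [neg_smul, one_smul, sub_neg_eq_add]
      exact h4
    · rw [neg_smul, one_smul] at h4
      have h5 := (WA hm hA).neg_mem h4
      rw [neg_neg, one_smul]
      have e : -(x + -(φ • x)) = φ • x - x := by abel
      rwa [e] at h5
  have hφd := hφ.mem_decompositionSubgroup
  have hpow : ∀ n : ℕ, φ ^ n ∈ A.decompositionSubgroup ℚ ∧
      ∀ x ∈ nP hm ε k, (φ ^ n) • x - lamC q ε (φ ^ n) • x ∈ WA hm hA := by
    intro n
    induction n with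
    | zero =>
      refine ⟨by rw [pow_zero]; exact one_mem _, fun x _ => ?_⟩
      rw [pow_zero, one_smul, lamC, unrDeg_one, pow_zero, one_smul, sub_self]
      exact (WA hm hA).zero_mem
    | succ n ih =>
      refine ⟨pow_mem hφd _, ?_⟩
      rw [pow_succ]
      exact hmul _ ih.1 _ hφd ih.2 hfrob
  -- approximation on a finite layer
  obtain ⟨L, hL, hfix⟩ := Fermat.Agent.Cofaith.exists_level (m * q) (pow_ne_zero k hq.ne_zero)
  obtain ⟨ζ, hζ⟩ := exists_primitive_sq hq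
  obtain ⟨F, hLF, hζF, hfd, hgal⟩ := exists_galois_ge_finset {ζ} L
  obtain ⟨n, i, hi, hσF⟩ := exists_frob_pow_mul_inertia hq hA hφ F hσ
  have hid := inertia_le_decomp hi
  have h1 := hmul _ (hpow n).1 _ hid (hpow n).2 (hinert i hi) x hx
  have e1 : (φ ^ n * i) • x = σ • x := by
    have h2 : ((φ ^ n * i)⁻¹ * σ) • x = x := by
      refine hfix _ (fun y hy => ?_) x hx.1
      change (φ ^ n * i).symm (σ y) = y
      rw [hσF y (hLF hy), AlgEquiv.symm_apply_apply]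
    rw [mul_smul, inv_smul_eq_iff] at h2
    exact h2.symm
  have e2 : lamC q ε (φ ^ n * i) = lamC q ε σ := by
    have h3 : unrDeg q (φ ^ n * i) = unrDeg q σ := by
      have key : unrDeg q (φ ^ n * i) = 0 ↔ unrDeg q σ = 0 := by
        rw [unrDeg_eq_zero_iff, unrDeg_eq_zero_iff]
        have hroot : ∀ x : AlgebraicClosure ℚ, x ^ (q ^ 2 - 1) = 1 → σ x = (φ ^ n * i) x := by
          intro x hx
          have : NeZero (q ^ 2 - 1) := ⟨(sq_sub_one_pos hq).ne'⟩
          obtain ⟨j, -, rfl⟩ := hζ.eq_pow_of_pow_eq_one hx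
          rw [map_pow, map_pow, hσF ζ (hζF ζ (Finset.mem_singleton_self ζ))]
        constructor
        · intro h x hx
          rw [hroot x hx, h x hx]
        · intro h x hx
          rw [← hroot x hx, h x hx]
      rcases unrDeg_eq_zero_or_one q (φ ^ n * i) with h4 | h4 <;>
        rcases unrDeg_eq_zero_or_one q σ with h5 | h5 <;> omega
    rw [lamC, lamC, h3]
  rwa [e1, e2] at h1

end Decomp

section Final

variable {m : ℕ} [NeZero m] (hm : ¬ 2 ∣ m)

/-- **(ORD-N)** at `2`: inertia acts trivially on `w`-stable subgroups of the `2`-torsion of the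
new part which are contained in `W(A)`. -/
def OrdTwo {A : ValuationSubring (AlgebraicClosure ℚ)} (hA : A.LiesOverPrime 2) : Prop :=
  ∀ [CharP (IsLocalRing.ResidueField A) 2] (Y : AddSubgroup (JZero (m * 2))), Y ≤ WA hm hA →
    (∀ x ∈ Y, 2 • x = 0) → (∀ x ∈ Y, pushA m 2 x = 0) →
    (∀ x ∈ Y, wJ Fact.out hm x ∈ Y) → (∀ (g : GQ), ∀ x ∈ Y, g • x ∈ Y) →
    ∀ τ ∈ A.inertiaSubgroupIn ℚ, ∀ x ∈ Y, τ • x = x

/-- The Hecke-saturated version of `W(A)`. -/
def WS (S : Set ℕ) {A : ValuationSubring (AlgebraicClosure ℚ)} (hA : A.LiesOverPrime 2)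
    [CharP (IsLocalRing.ResidueField A) 2] : AddSubgroup (JZero (m * 2)) :=
  letI := heckeModuleBar (m * 2)
  { carrier := {x | ∀ t : HeckeAlgS S, inclS S t • x ∈ WA hm hA}
    zero_mem' := fun t => by
      rw [smul_zero]
      exact (WA hm hA).zero_mem
    add_mem' := fun {x y} hx hy t => by
      rw [smul_add]
      exact (WA hm hA).add_mem (hx t) (hy t)
    neg_mem' := fun {x} hx t => by
      rw [smul_neg]
      exact (WA hm hA).neg_mem (hx t) }

variable {S : Finset ℕ} {O : Type} [CommRing O] [IsDomain O] [IsDiscreteValuationRing O]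

/-- **The local condition at one place above two**, from (ORD-N). -/
theorem loc2_place [CharZero O] {A : ValuationSubring (AlgebraicClosure ℚ)}
    (hA : A.LiesOverPrime 2)
    (hORD : OrdTwo hm hA) (h2S : 2 ∈ S)
    (hNS : ∀ q : ℕ, q.Prime → q ∣ m * 2 → q ∈ S)
    (h2 : (2 : O) ∈ IsLocalRing.maximalIdeal O)
    {π : heckeAlgebra (m * 2) 2 (↑S : Set ℕ) →+* O} {ρ : GaloisRepAdic O}
    (hfrob : HasFrobCharpoly π ρ) (habs : ρ.residual.IsAbsolutelyIrreducible)
    (hnew : ∃ t₀ : HeckeAlgS (↑S : Set ℕ), evS m (↑S : Set ℕ) t₀ = 0 ∧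
      π (evS (m * 2) (↑S : Set ℕ) t₀) ≠ 0)
    (hram : ∃ τ ∈ A.inertiaSubgroupIn ℚ, ∃ v : ρ.V, ρ.ρ τ v - v ∉
      (IsLocalRing.maximalIdeal O) • (⊤ : Submodule O ρ.V)) :
    ∃ U : O, (U = 1 ∨ U = -1) ∧ StEnd 2 A ρ.ρ U := by
  letI i1 := heckeModuleBar (m * 2)
  letI i2 := heckeModuleBar m
  haveI := Fermat.Agent.Cofaith.smulCommClass_JZero (m * 2)
  haveI : CharP (IsLocalRing.ResidueField A) 2 := TwoGauss.charP_res Nat.prime_two hA
  have hq : Nat.Prime 2 := Fact.out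
  have hJ : ESInput (m * 2) 2 (↑S : Set ℕ) (JZero (m * 2)) :=
    Fermat.Agent.Cofaith.esInput_JZero (m * 2) Nat.prime_two _
      (fun ℓ hℓ hd => by simpa using hNS ℓ hℓ hd) (allSpec (m * 2) 2 Nat.prime_two)
  have hS' : ∀ ℓ : ℕ, ℓ.Prime → ℓ ∣ m * 2 → ℓ ∈ (↑S : Set ℕ) := fun ℓ hℓ hd => by
    simpa using hNS ℓ hℓ hd
  obtain ⟨t₀, ht₀, hπt₀⟩ := hnew
  obtain ⟨e, he, hco⟩ := Fermat.Agent.Cofaith.cofaithful' m
  have hWS : ∀ t : HeckeAlgS (↑S : Set ℕ), ∀ x ∈ WS hm (↑S : Set ℕ) hA,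
      inclS (↑S : Set ℕ) t • x ∈ WS hm (↑S : Set ℕ) hA := by
    intro t x hx t'
    have h1 := hx (t' * t)
    rw [map_mul, mul_smul] at h1
    exact h1
  have hαH : ∀ (k : ℕ) (t : HeckeAlgS (↑S : Set ℕ)) (x : JZero (m * 2)), 2 ^ k • x = 0 →
      pushA m 2 x = 0 → pushA m 2 (inclS (↑S : Set ℕ) t • x) = 0 := by
    intro k t x hx hα
    rw [pushA_inclS hq hm (↑S : Set ℕ) hS' (pow_ne_zero k two_ne_zero) t x hx, hα]
    exact smul_zero _
  have hwH : ∀ (k : ℕ) (t : HeckeAlgS (↑S : Set ℕ)) (x : JZero (m * 2)), 2 ^ k • x = 0 →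
      wJ hq hm (inclS (↑S : Set ℕ) t • x) = inclS (↑S : Set ℕ) t • wJ hq hm x := by
    intro k t x hx
    exact wJ_inclS hq hm (↑S : Set ℕ) hS' (pow_ne_zero k two_ne_zero) t x hx
  have hle : WS hm (↑S : Set ℕ) hA ≤ WA hm hA := by
    intro x hx
    have h1 := hx 1
    rwa [map_one, one_smul] at h1
  obtain ⟨ε, hε, hrel⟩ := exists_sign (p := 2) hJ Nat.prime_two h2S hNS
    (by exact_mod_cast h2) two_ne_zero hfrob habs
    (fun k => Fermat.Agent.Cofaith.finite_torsion_set (m * 2) (pow_ne_zero k two_ne_zero))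
    (pushA m 2) (wJ hq hm) hαH
    (fun g x hα => by
      have h := S34aux.pushN_smul m 2 g x
      change pushA m 2 (g • x) = g • pushA m 2 x at h
      rw [h, hα, gsmul_zero])
    hwH (fun g x => wJ_galois hq hm g x) (fun x => wJ_wJ hq hm x)
    ⟨(e : HeckeAlgS (↑S : Set ℕ)) * t₀, fun k x hx => by
      rw [pushA_inclS hq hm (↑S : Set ℕ) hS' (pow_ne_zero k two_ne_zero) _ x hx]
      exact hco _ (fun ℓ hℓ hd => hS' ℓ hℓ (hd.mul_right 2)) t₀ ht₀ _
        (pow_ne_zero k two_ne_zero) _ (by rw [← map_nsmul, hx, map_zero]), by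
      rw [map_mul, map_mul, map_natCast, map_natCast]
      exact mul_ne_zero (Nat.cast_ne_zero.mpr he) hπt₀⟩
    (A.decompositionSubgroup ℚ : Set GQ) (WS hm (↑S : Set ℕ) hA) hWS
    (fun ε σ => lamC 2 ε σ)
    (fun ε hε σ hσ k x hx t => by
      have hx' : inclS (↑S : Set ℕ) t • x ∈ nP hm ε k :=
        ⟨by rw [smul_comm, hx.1, smul_zero], hαH k t x hx.1 hx.2.1,
          by rw [hwH k t x hx.1, hx.2.2, smul_comm]⟩
      have h1 := decomp_sub_mem hm hA hε hσ hx'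
      have h2 : inclS (↑S : Set ℕ) t • (σ • x - lamC 2 ε σ • x) =
          σ • (inclS (↑S : Set ℕ) t • x) - lamC 2 ε σ • (inclS (↑S : Set ℕ) t • x) := by
        rw [smul_sub, ← smul_comm σ (inclS (↑S : Set ℕ) t) x,
          smul_comm (inclS (↑S : Set ℕ) t) (lamC 2 ε σ)]
      rw [h2]
      exact h1)
    (A.inertiaSubgroupIn ℚ : Set GQ)
    (fun Y hY hp hα hw hG _ τ hτ x hx => hORD Y (hY.trans hle) hp hα hw hG τ hτ x hx)
    hram
  refine ⟨((-ε : ℤ) : O), ?_, ?_, fun g hg h hh => ?_⟩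
  · rcases hε with rfl | rfl
    · right; push_cast; ring
    · left; push_cast; ring
  · rcases hε with rfl | rfl <;> norm_num
  · have hlam : lamC 2 ε g⁻¹ = lamC 2 ε g := by
      have h1 := lamC_mul hε (inv_mem hg) hg hA
      rw [inv_mul_cancel] at h1
      have h3 : lamC 2 ε 1 = 1 := by rw [lamC, unrDeg_one, pow_zero]
      have h4 : lamC 2 ε g * lamC 2 ε g = 1 := by
        rw [lamC, ← mul_pow]
        rcases hε with rfl | rfl <;> norm_num
      calc lamC 2 ε g⁻¹ = lamC 2 ε g⁻¹ * (lamC 2 ε g * lamC 2 ε g) := by rw [h4, mul_one]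
        _ = lamC 2 ε g := by rw [← mul_assoc, ← h1, h3, one_mul]
    ext v
    have h1 := rel_of_adjoint hlam v (hrel g⁻¹ (inv_mem hg) h hh v)
    rw [Module.End.mul_apply, LinearMap.zero_apply, LinearMap.sub_apply, LinearMap.sub_apply,
      LinearMap.smul_apply, LinearMap.smul_apply, Module.End.one_apply, Module.End.one_apply,
      sub_eq_zero]
    have h2 : ((-ε : ℤ) : O) ^ unrDeg 2 h • v = lamC 2 ε h • v := by
      rw [← Int.cast_pow, Int.cast_smul_eq_zsmul]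
      rfl
    rw [h2, h1]
    congr 2
    rw [lamC]
    push_cast
    rfl

end Final

section Conj

variable {R : Type*} [CommRing R] {V : Type*} [AddCommGroup V] [Module R V]

theorem unrDeg_conj (q : ℕ) (g σ : GQ) : unrDeg q (g⁻¹ * σ * g) = unrDeg q σ := by
  have key : unrDeg q (g⁻¹ * σ * g) = 0 ↔ unrDeg q σ = 0 := by
    rw [unrDeg_eq_zero_iff, unrDeg_eq_zero_iff]
    constructor
    · intro h x hx
      have h1 := h (g⁻¹ x) (by rw [← map_pow, hx, map_one])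
      have h2 : g (g⁻¹ x) = x := by
        change (g * g⁻¹) x = x
        rw [mul_inv_cancel, AlgEquiv.one_apply]
      rw [AlgEquiv.mul_apply, AlgEquiv.mul_apply, h2] at h1
      exact g⁻¹.injective h1
    · intro h x hx
      rw [AlgEquiv.mul_apply, AlgEquiv.mul_apply, h (g x) (by rw [← map_pow, hx, map_one])]
      change (g⁻¹ * g) x = x
      rw [inv_mul_cancel, AlgEquiv.one_apply]
  rcases unrDeg_eq_zero_or_one q (g⁻¹ * σ * g) with h4 | h4 <;>
    rcases unrDeg_eq_zero_or_one q σ with h5 | h5 <;> omega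

theorem mem_decomp_smul {g σ : GQ} {A : ValuationSubring (AlgebraicClosure ℚ)}
    (hσ : σ ∈ (g • A).decompositionSubgroup ℚ) : g⁻¹ * σ * g ∈ A.decompositionSubgroup ℚ := by
  have h1 : σ • (g • A) = g • A := hσ
  change (g⁻¹ * σ * g) • A = A
  rw [mul_smul, mul_smul, h1, inv_smul_smul]

/-- Invariance of the condition under conjugation of the place. -/
theorem stEnd_smul {q : ℕ} {A : ValuationSubring (AlgebraicClosure ℚ)} (ρ : GQ →* Module.End R V)
    {U : R} (h : StEnd q A ρ U) (g : GQ) : StEnd q (g • A) ρ U := by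
  refine ⟨h.1, fun σ hσ τ hτ => ?_⟩
  have h1 := h.2 _ (mem_decomp_smul hσ) _ (mem_decomp_smul hτ)
  have hgi : ρ g * ρ g⁻¹ = 1 := by rw [← map_mul, mul_inv_cancel, map_one]
  have hig : ρ g⁻¹ * ρ g = 1 := by rw [← map_mul, inv_mul_cancel, map_one]
  have hdet : LinearMap.det (ρ (g⁻¹ * σ * g)) = LinearMap.det (ρ σ) := by
    rw [map_mul, map_mul, map_mul, map_mul, mul_comm, ← mul_assoc, ← map_mul, hgi, map_one,
      one_mul]
  rw [unrDeg_conj, unrDeg_conj, hdet] at h1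
  have hc : ∀ (σ : GQ) (u : R), ρ g * (ρ (g⁻¹ * σ * g) - u • 1) = (ρ σ - u • 1) * ρ g := by
    intro σ u
    rw [mul_sub, sub_mul, map_mul, map_mul, ← mul_assoc, ← mul_assoc, hgi, one_mul, mul_smul_comm,
      mul_one, smul_mul_assoc, one_mul]
  have h2 := congrArg (fun X => ρ g * X * ρ g⁻¹) h1
  simp only [mul_zero, zero_mul] at h2
  rw [← mul_assoc, hc, mul_assoc _ (ρ g), hc, mul_assoc, mul_assoc _ (ρ g), hgi, mul_one] at h2
  exact h2

end Conj

section Final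

variable {m : ℕ} [NeZero m] (hm : ¬ 2 ∣ m) {S : Finset ℕ} {O : Type} [CommRing O] [IsDomain O]
  [IsDiscreteValuationRing O]

/-- **[LOC2-T]**, from (ORD-N). -/
theorem loc2_of_ordTwo [CharZero O]
    (hORD : ∀ (A : ValuationSubring (AlgebraicClosure ℚ)) (hA : A.LiesOverPrime 2), OrdTwo hm hA)
    (h2S : 2 ∈ S) (hNS : ∀ q : ℕ, q.Prime → q ∣ m * 2 → q ∈ S)
    (h2 : (2 : O) ∈ IsLocalRing.maximalIdeal O)
    {π : heckeAlgebra (m * 2) 2 (↑S : Set ℕ) →+* O} {ρ : GaloisRepAdic O}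
    (hfrob : HasFrobCharpoly π ρ) (habs : ρ.residual.IsAbsolutelyIrreducible)
    (hnew : ∃ t₀ : HeckeAlgS (↑S : Set ℕ), evS m (↑S : Set ℕ) t₀ = 0 ∧
      π (evS (m * 2) (↑S : Set ℕ) t₀) ≠ 0)
    (hram : ∃ A : ValuationSubring (AlgebraicClosure ℚ), A.LiesOverPrime 2 ∧
      ∃ τ ∈ A.inertiaSubgroupIn ℚ, ∃ v : ρ.V, ρ.ρ τ v - v ∉
        (IsLocalRing.maximalIdeal O) • (⊤ : Submodule O ρ.V)) :
    ∃ U : O, (U = 1 ∨ U = -1) ∧
      ∀ A : ValuationSubring (AlgebraicClosure ℚ), A.LiesOverPrime 2 → StEnd 2 A ρ.ρ U := by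
  obtain ⟨A, hA, hramA⟩ := hram
  obtain ⟨U, hU, hSt⟩ := loc2_place hm hA (hORD A hA) h2S hNS h2 hfrob habs hnew hramA
  refine ⟨U, hU, fun A' hA' => ?_⟩
  obtain ⟨g, rfl⟩ := Fermat.Agent.Frob.exists_smul_eq Nat.prime_two hA hA'
  exact stEnd_smul ρ.ρ hSt g

end Final

end Fermat.Agent.LTF.Loc2T
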