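import Fermat.Agent.LTF.Loc2TTransfer

/-!
# The abstract local theorem at the residue characteristic

From the geometry of `J[p^∞]` at a place above `p` (a subgroup `W` with `(τ - λ(τ)) X ⊆ W`) to
the relation `(ρ(σ) - χ(σ) λ(σ)) (ρ(τ) - λ(τ)) = 0`.
-/

set_option autoImplicit false

noncomputable section

open CuspForm ModularCurve Polynomial Fermat.Agent.GalRep Fermat.Agent.S33aux

namespace Fermat.Agent.LTF.Loc2T

variable {N p : ℕ} [NeZero N] {S : Finset ℕ}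
  {J : Type*} [AddCommGroup J] [Module HeckeAlg J] [DistribMulAction GQ J]
  [SMulCommClass GQ HeckeAlg J]
  {T : Type} [CommRing T] [IsLocalRing T] [IsNoetherianRing T]

section Mod

/-- The relation modulo an ideal. -/
theorem rel_mod (hJ : ESInput N p (↑S : Set ℕ) J) (hp : p.Prime)
    (hpS : p ∈ S) (hNS : ∀ q : ℕ, q.Prime → q ∣ N → q ∈ S)
    (hpT : (p : T) ∈ IsLocalRing.maximalIdeal T)
    {π : heckeAlgebra N 2 (↑S : Set ℕ) →+* T} {ρ : GaloisRepAdic T}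
    (hfrob : HasFrobCharpoly π ρ) (habs : ρ.residual.IsAbsolutelyIrreducible) {m : ℕ}
    (X W : AddSubgroup J) (hG : ∀ g : GQ, ∀ x ∈ X, g • x ∈ X)
    (hH : ∀ t : HeckeAlgS (↑S : Set ℕ), ∀ x ∈ X, inclS (↑S : Set ℕ) t • x ∈ X)
    (hXp : ∀ x ∈ X, p ^ m • x = 0)
    (hWH : ∀ t : HeckeAlgS (↑S : Set ℕ), ∀ x ∈ W, inclS (↑S : Set ℕ) t • x ∈ W)
    (hIrr : ∀ Y : AddSubgroup J, Y ≤ X → Y ≤ W → (∀ g : GQ, ∀ x ∈ Y, g • x ∈ Y) →
      (∀ t : HeckeAlgS (↑S : Set ℕ), ∀ x ∈ Y, inclS (↑S : Set ℕ) t • x ∈ Y) → Y = ⊥)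
    (𝔞 : Ideal T)
    (hX : ∀ s : HeckeAlgS (↑S : Set ℕ), (∀ x ∈ X, inclS (↑S : Set ℕ) s • x = 0) →
      π (evS N (↑S : Set ℕ) s) ∈ 𝔞)
    (hpa : (p : T) ^ m ∈ 𝔞) (σ τ : GQ) (e f : ℤ) (hσ : ∀ x ∈ X, σ • x - e • x ∈ W)
    (hτ : ∀ x ∈ X, τ • x - f • x ∈ W) (v : ρ.V) :
    LinearMap.det (ρ.ρ σ) • ρ.ρ σ⁻¹ (ρ.ρ τ v - f • v) - e • (ρ.ρ τ v - f • v) ∈
      𝔞 • (⊤ : Submodule T ρ.V) := by
  classical
  have : NeZero (p ^ m) := ⟨pow_ne_zero _ hp.ne_zero⟩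
  obtain ⟨ζ, hζ⟩ := HasEnoughRootsOfUnity.exists_primitiveRoot (AlgebraicClosure ℚ) (p ^ m)
  obtain ⟨t, ht, -⟩ := exists_heckeApprox' hJ hp hpS hNS hfrob m 1 hζ
  set a : ℕ := cycExp p hp m hζ σ with ha
  let c : Fin 4 → ℤ := ![(a : ℤ), -(a * f), -e, e * f]
  let g : Fin 4 → GQ := ![σ⁻¹ * τ, σ⁻¹, τ, 1]
  have h0 : ∀ x ∈ X, ∑ i ∈ Finset.univ, c i • (g i • x) = 0 := by
    intro x hx
    have hwX : τ • x - f • x ∈ X := X.sub_mem (hG _ _ hx) (X.zsmul_mem hx _)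
    have h1 := adjoint_rel hp hζ t ht X W hG hH hXp hWH hIrr σ e hσ hwX (hτ x hx)
    rw [Fin.sum_univ_four]
    change (a : ℤ) • ((σ⁻¹ * τ) • x) + (-(a * f)) • (σ⁻¹ • x) + (-e) • (τ • x) +
      (e * f) • ((1 : GQ) • x) = 0
    rw [← h1, ← ha, one_smul, smul_sub σ⁻¹, smul_sub a, smul_sub e, mul_smul σ⁻¹, natCast_zsmul,
      neg_smul, mul_smul (a : ℤ), natCast_zsmul, neg_smul, mul_smul e f, smul_comm σ⁻¹ f x]
    abel
  have h2 := ideal_transfer hJ hp hpS hNS hfrob habs X hG hH hXp 𝔞 hX Finset.univ c g h0 v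
  rw [Fin.sum_univ_four] at h2
  change (a : ℤ) • ρ.ρ (σ⁻¹ * τ) v + (-(a * f)) • ρ.ρ σ⁻¹ v + (-e) • ρ.ρ τ v +
      (e * f) • ρ.ρ 1 v ∈ 𝔞 • (⊤ : Submodule T ρ.V) at h2
  -- the determinant
  have hdet : LinearMap.det (ρ.ρ σ) - a ∈ 𝔞 := by
    have h3 := (detIsCyclotomic hfrob hp hpS hpT hNS).2 m σ a (by
      intro μ hμ
      obtain ⟨i, -, hi⟩ := hζ.eq_pow_of_pow_eq_one hμ
      rw [← hi, map_pow, ha, cycExp_spec p hp m hζ σ, ← pow_mul, ← pow_mul, mul_comm])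
    refine (Ideal.span_le.mpr ?_ : Ideal.span {((p ^ m : ℕ) : T)} ≤ 𝔞) h3
    rw [Set.singleton_subset_iff]
    push_cast
    exact hpa
  have h4 : LinearMap.det (ρ.ρ σ) • ρ.ρ σ⁻¹ (ρ.ρ τ v - f • v) - e • (ρ.ρ τ v - f • v) =
      (LinearMap.det (ρ.ρ σ) - a) • ρ.ρ σ⁻¹ (ρ.ρ τ v - f • v) +
      ((a : ℤ) • ρ.ρ (σ⁻¹ * τ) v + (-(a * f)) • ρ.ρ σ⁻¹ v + (-e) • ρ.ρ τ v +
        (e * f) • ρ.ρ 1 v) := by
    rw [map_mul, map_one, Module.End.mul_apply, Module.End.one_apply, sub_smul, map_sub,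
      map_zsmul, smul_sub e, natCast_zsmul, neg_smul, mul_smul (a : ℤ), natCast_zsmul, neg_smul,
      mul_smul e f, Nat.cast_smul_eq_nsmul, smul_sub a]
    abel
  rw [h4]
  exact Submodule.add_mem _ (Submodule.smul_mem_smul hdet trivial) h2

end Mod

section DVR

variable {O : Type} [CommRing O] [IsDomain O] [IsDiscreteValuationRing O]

lemma dvd_pow_of_notMem {ϖ : O} (hϖ : Irreducible ϖ) {x : O} {k : ℕ}
    (hx : x ∉ IsLocalRing.maximalIdeal O ^ k) : x ∣ ϖ ^ k := by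
  have hx0 : x ≠ 0 := fun h => hx (h ▸ Ideal.zero_mem _)
  obtain ⟨j, u, rfl⟩ := IsDiscreteValuationRing.eq_unit_mul_pow_irreducible hx0 hϖ
  have hjk : j ≤ k := by
    by_contra hlt
    apply hx
    rw [hϖ.maximalIdeal_eq, Ideal.span_singleton_pow, Ideal.mem_span_singleton]
    exact (pow_dvd_pow ϖ (by omega)).mul_left _
  exact (Units.mul_left_dvd).mpr (pow_dvd_pow ϖ hjk)

end DVR

section Main

variable {J' : Type*} [AddCommGroup J']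

/-- The subgroup of `p ^ m`-torsion elements with `α x = 0`, `w x = ε x`. -/
def newPart (p : ℕ) (α : J →+ J') (w : J →+ J) (ε : ℤ) (m : ℕ) : AddSubgroup J where
  carrier := {x | p ^ m • x = 0 ∧ α x = 0 ∧ w x = ε • x}
  zero_mem' := ⟨smul_zero _, map_zero _, by rw [map_zero, smul_zero]⟩
  add_mem' := by
    rintro x y ⟨h1, h2, h3⟩ ⟨h4, h5, h6⟩
    exact ⟨by rw [smul_add, h1, h4, add_zero], by rw [map_add, h2, h5, add_zero],
      by rw [map_add, h3, h6, smul_add]⟩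
  neg_mem' := by
    rintro x ⟨h1, h2, h3⟩
    exact ⟨by rw [smul_neg, h1, neg_zero], by rw [map_neg, h2, neg_zero],
      by rw [map_neg, h3, smul_neg]⟩

/-- **The key step for one sign.** -/
theorem exists_killing (hJ : ESInput N p (↑S : Set ℕ) J) (hp : p.Prime)
    (hpS : p ∈ S) (hNS : ∀ q : ℕ, q.Prime → q ∣ N → q ∈ S)
    (hpT : (p : T) ∈ IsLocalRing.maximalIdeal T)
    {π : heckeAlgebra N 2 (↑S : Set ℕ) →+* T} {ρ : GaloisRepAdic T}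
    (hfrob : HasFrobCharpoly π ρ) (habs : ρ.residual.IsAbsolutelyIrreducible)
    (hfin : ∀ m : ℕ, {x : J | p ^ m • x = 0}.Finite) (α : J →+ J') (w : J →+ J)
    (hαH : ∀ (m : ℕ) (t : HeckeAlgS (↑S : Set ℕ)) (x : J), p ^ m • x = 0 → α x = 0 →
      α (inclS (↑S : Set ℕ) t • x) = 0)
    (hαG : ∀ (g : GQ) (x : J), α x = 0 → α (g • x) = 0)
    (hwH : ∀ (m : ℕ) (t : HeckeAlgS (↑S : Set ℕ)) (x : J), p ^ m • x = 0 →
      w (inclS (↑S : Set ℕ) t • x) = inclS (↑S : Set ℕ) t • w x)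
    (hwG : ∀ (g : GQ) (x : J), w (g • x) = g • w x)
    (W : AddSubgroup J)
    (hWH : ∀ t : HeckeAlgS (↑S : Set ℕ), ∀ x ∈ W, inclS (↑S : Set ℕ) t • x ∈ W)
    (I : Set GQ)
    (hORD : ∀ Y : AddSubgroup J, Y ≤ W → (∀ x ∈ Y, p • x = 0) → (∀ x ∈ Y, α x = 0) →
      (∀ x ∈ Y, w x ∈ Y) → (∀ g : GQ, ∀ x ∈ Y, g • x ∈ Y) →
      (∀ t : HeckeAlgS (↑S : Set ℕ), ∀ x ∈ Y, inclS (↑S : Set ℕ) t • x ∈ Y) →
      ∀ τ ∈ I, ∀ x ∈ Y, τ • x = x)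
    (hram : ∃ τ ∈ I, ∃ v : ρ.V, ρ.ρ τ v - v ∉
      (IsLocalRing.maximalIdeal T) • (⊤ : Submodule T ρ.V))
    (ε : ℤ) (σ τ : GQ) (e f : ℤ)
    (hσ : ∀ (m : ℕ), ∀ x ∈ newPart p α w ε m, σ • x - e • x ∈ W)
    (hτ : ∀ (m : ℕ), ∀ x ∈ newPart p α w ε m, τ • x - f • x ∈ W) (v : ρ.V)
    (hz : LinearMap.det (ρ.ρ σ) • ρ.ρ σ⁻¹ (ρ.ρ τ v - f • v) - e • (ρ.ρ τ v - f • v) ≠ 0) :
    ∃ k : ℕ, ∀ m : ℕ, k ≤ m → ∃ s : HeckeAlgS (↑S : Set ℕ),
      (∀ x ∈ newPart p α w ε m, inclS (↑S : Set ℕ) s • x = 0) ∧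
        π (evS N (↑S : Set ℕ) s) ∉ IsLocalRing.maximalIdeal T ^ k := by
  classical
  -- Krull intersection
  have hkrull := Ideal.iInf_pow_smul_eq_bot_of_isLocalRing (M := ρ.V) (IsLocalRing.maximalIdeal T)
    (Ideal.IsPrime.ne_top inferInstance)
  obtain ⟨k, hk⟩ : ∃ k : ℕ, LinearMap.det (ρ.ρ σ) • ρ.ρ σ⁻¹ (ρ.ρ τ v - f • v) -
      e • (ρ.ρ τ v - f • v) ∉ IsLocalRing.maximalIdeal T ^ k • (⊤ : Submodule T ρ.V) := by
    by_contra hcon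
    push Not at hcon
    apply hz
    have hmem : LinearMap.det (ρ.ρ σ) • ρ.ρ σ⁻¹ (ρ.ρ τ v - f • v) - e • (ρ.ρ τ v - f • v) ∈
        (⨅ i : ℕ, IsLocalRing.maximalIdeal T ^ i • ⊤ : Submodule T ρ.V) := by
      rw [Submodule.mem_iInf]
      exact hcon
    rw [hkrull] at hmem
    exact hmem
  have hk0 : k ≠ 0 := by
    rintro rfl
    apply hk
    rw [pow_zero, Ideal.one_eq_top, Submodule.top_smul]
    trivial
  refine ⟨k, fun m hm => ?_⟩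
  set M := newPart p α w ε m with hM
  have hMG : ∀ g : GQ, ∀ x ∈ M, g • x ∈ M := by
    rintro g x ⟨h1, h2, h3⟩
    exact ⟨by rw [smul_comm, h1, smul_zero], hαG g x h2, by rw [hwG, h3, smul_comm]⟩
  have hMH : ∀ t : HeckeAlgS (↑S : Set ℕ), ∀ x ∈ M, inclS (↑S : Set ℕ) t • x ∈ M := by
    rintro t x ⟨h1, h2, h3⟩
    exact ⟨by rw [smul_comm, h1, smul_zero], hαH m t x h1 h2, by rw [hwH m t x h1, h3, smul_comm]⟩
  -- the prime ideal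
  let φ : HeckeAlgS (↑S : Set ℕ) →+* IsLocalRing.ResidueField T :=
    (IsLocalRing.residue T).comp (π.comp (evS N (↑S : Set ℕ)).toRingHom)
  have hφ : ∀ s, φ s = IsLocalRing.residue T (π (evS N (↑S : Set ℕ) s)) := fun _ => rfl
  set P : Ideal (HeckeAlgS (↑S : Set ℕ)) := RingHom.ker φ with hP
  have hPp : P.IsPrime := RingHom.ker_isPrime φ
  have hunit : ∀ s ∉ P, IsUnit (π (evS N (↑S : Set ℕ) s)) := by
    intro s hs
    rw [hP, RingHom.mem_ker, hφ, IsLocalRing.residue_eq_zero_iff, IsLocalRing.mem_maximalIdeal,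
      mem_nonunits_iff, not_not] at hs
    exact hs
  have hnm : ∀ {u x : T}, IsUnit u → x ∉ IsLocalRing.maximalIdeal T ^ k →
      x * u ∉ IsLocalRing.maximalIdeal T ^ k := fun hu hx h =>
    hx ((Ideal.mul_unit_mem_iff_mem _ hu).mp h)
  have h1k : (1 : T) ∉ IsLocalRing.maximalIdeal T ^ k := by
    intro h
    have h2 := Ideal.pow_le_self hk0 h
    exact (Ideal.ne_top_iff_one _).mp (Ideal.IsPrime.ne_top inferInstance) h2
  letI : Module (HeckeAlgS (↑S : Set ℕ)) M := heckeModuleS (↑S : Set ℕ) M hMH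
  have hsm : ∀ (t : HeckeAlgS (↑S : Set ℕ)) (x : M),
      ((t • x : M) : J) = inclS (↑S : Set ℕ) t • (x : J) := fun _ _ => rfl
  have : Finite M := Set.Finite.subset (hfin m) (fun x hx => hx.1)
  by_cases hfaith : ∀ s ∉ P, ∃ x : M, s • x ≠ 0
  swap
  · push Not at hfaith
    obtain ⟨s, hs, hs0⟩ := hfaith
    refine ⟨s, fun x hx => ?_, ?_⟩
    · have := congrArg (Subtype.val) (hs0 ⟨x, hx⟩)
      exact this
    · have := hnm (hunit s hs) h1k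
      rwa [one_mul] at this
  obtain ⟨s₀, hs₀, hinj, -⟩ := exists_eventual P hfaith
  let X : AddSubgroup J :=
    { carrier := {y | ∃ x ∈ M, y = inclS (↑S : Set ℕ) s₀ • x}
      zero_mem' := ⟨0, M.zero_mem, (smul_zero _).symm⟩
      add_mem' := by
        rintro _ _ ⟨x, hx, rfl⟩ ⟨y, hy, rfl⟩
        exact ⟨x + y, M.add_mem hx hy, (smul_add _ _ _).symm⟩
      neg_mem' := by
        rintro _ ⟨x, hx, rfl⟩
        exact ⟨-x, M.neg_mem hx, (smul_neg _ _).symm⟩ }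
  have hXM : X ≤ M := by
    rintro _ ⟨x, hx, rfl⟩
    exact hMH s₀ x hx
  have hXG : ∀ g : GQ, ∀ x ∈ X, g • x ∈ X := by
    rintro g _ ⟨x, hx, rfl⟩
    exact ⟨g • x, hMG g x hx, smul_comm _ _ _⟩
  have hXH : ∀ t : HeckeAlgS (↑S : Set ℕ), ∀ x ∈ X, inclS (↑S : Set ℕ) t • x ∈ X := by
    rintro t _ ⟨x, hx, rfl⟩
    exact ⟨inclS (↑S : Set ℕ) t • x, hMH t x hx, smul_comm _ _ _⟩
  have hXp : ∀ x ∈ X, p ^ m • x = 0 := fun x hx => (hXM hx).1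
  have hXinj : ∀ s ∉ P, ∀ x ∈ X, inclS (↑S : Set ℕ) s • x = 0 → x = 0 := by
    rintro s hs _ ⟨x, hx, rfl⟩ h
    have := hinj s hs (⟨x, hx⟩ : M) (Subtype.ext h)
    exact congrArg Subtype.val this
  have hIrr : ∀ Y : AddSubgroup J, Y ≤ X → Y ≤ W → (∀ g : GQ, ∀ x ∈ Y, g • x ∈ Y) →
      (∀ t : HeckeAlgS (↑S : Set ℕ), ∀ x ∈ Y, inclS (↑S : Set ℕ) t • x ∈ Y) → Y = ⊥ := by
    intro Y hYX hYW hYG hYH
    by_contra hY
    obtain ⟨y, hy, hy0⟩ : ∃ y ∈ Y, y ≠ 0 := by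
      by_contra hcon
      push Not at hcon
      exact hY ((AddSubgroup.eq_bot_iff_forall Y).mpr hcon)
    -- an element of order `p`
    obtain ⟨y', hy', hy'0, hpy'⟩ : ∃ y' ∈ Y, y' ≠ 0 ∧ p • y' = 0 := by
      have hex : ∃ j : ℕ, p ^ j • y = 0 := ⟨m, hXp y (hYX hy)⟩
      have hj := Nat.find_spec hex
      have hj0 : Nat.find hex ≠ 0 := by
        intro h
        rw [h, pow_zero, one_smul] at hj
        exact hy0 hj
      obtain ⟨j, hj'⟩ := Nat.exists_eq_succ_of_ne_zero hj0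
      refine ⟨p ^ j • y, Y.nsmul_mem hy _, fun h => Nat.find_min hex (m := j) (by omega) h, ?_⟩
      rw [← mul_smul, ← pow_succ']
      rw [hj'] at hj
      exact hj
    let Y' : AddSubgroup J :=
      { carrier := {x | x ∈ Y ∧ p • x = 0}
        zero_mem' := ⟨Y.zero_mem, smul_zero _⟩
        add_mem' := by
          rintro a b ⟨h1, h2⟩ ⟨h3, h4⟩
          exact ⟨Y.add_mem h1 h3, by rw [smul_add, h2, h4, add_zero]⟩
        neg_mem' := by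
          rintro a ⟨h1, h2⟩
          exact ⟨Y.neg_mem h1, by rw [smul_neg, h2, neg_zero]⟩ }
    have hY'G : ∀ g : GQ, ∀ x ∈ Y', g • x ∈ Y' := by
      rintro g x ⟨h1, h2⟩
      exact ⟨hYG g x h1, by rw [smul_comm, h2, smul_zero]⟩
    have hY'H : ∀ t : HeckeAlgS (↑S : Set ℕ), ∀ x ∈ Y', inclS (↑S : Set ℕ) t • x ∈ Y' := by
      rintro t x ⟨h1, h2⟩
      exact ⟨hYH t x h1, by rw [smul_comm, h2, smul_zero]⟩
    have hord := hORD Y' (fun x hx => hYW hx.1) (fun x hx => hx.2)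
      (fun x hx => (hXM (hYX hx.1)).2.1) (fun x hx => by
        rw [(hXM (hYX hx.1)).2.2]
        exact Y'.zsmul_mem hx _) hY'G hY'H
    obtain ⟨τ₀, hτ₀, v₀, hv₀⟩ := hram
    apply hv₀
    have hkey := ideal_transfer hJ hp hpS hNS hfrob habs (m := 1) Y' hY'G hY'H
      (fun x hx => by rw [pow_one]; exact hx.2) (IsLocalRing.maximalIdeal T)
      (fun s hs => by
        by_contra hcon
        have hsP : s ∉ P := by
          rw [hP, RingHom.mem_ker, hφ, IsLocalRing.residue_eq_zero_iff]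
          exact hcon
        exact hy'0 (hXinj s hsP y' (hYX hy') (hs y' ⟨hy', hpy'⟩)))
      (Finset.univ : Finset (Fin 2)) ![1, -1] ![τ₀, 1] (fun x hx => by
        rw [Fin.sum_univ_two]
        change (1 : ℤ) • (τ₀ • x) + (-1 : ℤ) • ((1 : GQ) • x) = 0
        rw [hord τ₀ hτ₀ x hx, one_smul, one_smul, neg_smul, one_smul, add_neg_cancel]) v₀
    rw [Fin.sum_univ_two] at hkey
    change (1 : ℤ) • ρ.ρ τ₀ v₀ + (-1 : ℤ) • ρ.ρ 1 v₀ ∈ _ at hkey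
    rwa [one_smul, neg_smul, one_smul, map_one, Module.End.one_apply, ← sub_eq_add_neg] at hkey
  by_contra hcon
  push Not at hcon
  apply hk
  refine rel_mod hJ hp hpS hNS hpT hfrob habs X W hXG hXH hXp hWH hIrr
    (IsLocalRing.maximalIdeal T ^ k) (fun s hs => ?_)
    (Ideal.pow_le_pow_right hm (Ideal.pow_mem_pow hpT m)) σ τ e f
    (fun x hx => hσ m x (hXM hx)) (fun x hx => hτ m x (hXM hx)) v
  have h2 := hcon (s * s₀) (fun x hx => by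
    rw [map_mul, mul_smul]
    exact hs _ ⟨x, hx, rfl⟩)
  rw [map_mul, map_mul] at h2
  exact (Ideal.mul_unit_mem_iff_mem _ (hunit s₀ hs₀)).mp h2

end Main

section Final

variable {J' : Type*} [AddCommGroup J']
  {O : Type} [CommRing O] [IsDomain O] [IsDiscreteValuationRing O]

/-- **The abstract local theorem.** -/
theorem exists_sign (hJ : ESInput N p (↑S : Set ℕ) J) (hp : p.Prime)
    (hpS : p ∈ S) (hNS : ∀ q : ℕ, q.Prime → q ∣ N → q ∈ S)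
    (hpT : (p : O) ∈ IsLocalRing.maximalIdeal O) (h2 : (2 : O) ≠ 0)
    {π : heckeAlgebra N 2 (↑S : Set ℕ) →+* O} {ρ : GaloisRepAdic O}
    (hfrob : HasFrobCharpoly π ρ) (habs : ρ.residual.IsAbsolutelyIrreducible)
    (hfin : ∀ m : ℕ, {x : J | p ^ m • x = 0}.Finite) (α : J →+ J') (w : J →+ J)
    (hαH : ∀ (m : ℕ) (t : HeckeAlgS (↑S : Set ℕ)) (x : J), p ^ m • x = 0 → α x = 0 →
      α (inclS (↑S : Set ℕ) t • x) = 0)
    (hαG : ∀ (g : GQ) (x : J), α x = 0 → α (g • x) = 0)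
    (hwH : ∀ (m : ℕ) (t : HeckeAlgS (↑S : Set ℕ)) (x : J), p ^ m • x = 0 →
      w (inclS (↑S : Set ℕ) t • x) = inclS (↑S : Set ℕ) t • w x)
    (hwG : ∀ (g : GQ) (x : J), w (g • x) = g • w x) (hww : ∀ x : J, w (w x) = x)
    (hnew : ∃ t₀ : HeckeAlgS (↑S : Set ℕ), (∀ (m : ℕ) (x : J), p ^ m • x = 0 →
      α (inclS (↑S : Set ℕ) t₀ • x) = 0) ∧ π (evS N (↑S : Set ℕ) t₀) ≠ 0)
    (D : Set GQ) (W : AddSubgroup J)
    (hWH : ∀ t : HeckeAlgS (↑S : Set ℕ), ∀ x ∈ W, inclS (↑S : Set ℕ) t • x ∈ W)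
    (lam : ℤ → GQ → ℤ)
    (hW : ∀ ε : ℤ, ε = 1 ∨ ε = -1 → ∀ σ ∈ D, ∀ m : ℕ, ∀ x ∈ newPart p α w ε m,
      σ • x - lam ε σ • x ∈ W)
    (I : Set GQ)
    (hORD : ∀ Y : AddSubgroup J, Y ≤ W → (∀ x ∈ Y, p • x = 0) → (∀ x ∈ Y, α x = 0) →
      (∀ x ∈ Y, w x ∈ Y) → (∀ g : GQ, ∀ x ∈ Y, g • x ∈ Y) →
      (∀ t : HeckeAlgS (↑S : Set ℕ), ∀ x ∈ Y, inclS (↑S : Set ℕ) t • x ∈ Y) →
      ∀ τ ∈ I, ∀ x ∈ Y, τ • x = x)
    (hram : ∃ τ ∈ I, ∃ v : ρ.V, ρ.ρ τ v - v ∉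
      (IsLocalRing.maximalIdeal O) • (⊤ : Submodule O ρ.V)) :
    ∃ ε : ℤ, (ε = 1 ∨ ε = -1) ∧ ∀ σ ∈ D, ∀ τ ∈ D, ∀ v : ρ.V,
      LinearMap.det (ρ.ρ σ) • ρ.ρ σ⁻¹ (ρ.ρ τ v - lam ε τ • v) -
        lam ε σ • (ρ.ρ τ v - lam ε τ • v) = 0 := by
  classical
  by_contra hcon
  push Not at hcon
  obtain ⟨σ₁, hσ₁, τ₁, hτ₁, v₁, hz₁⟩ := hcon 1 (Or.inl rfl)
  obtain ⟨σ₂, hσ₂, τ₂, hτ₂, v₂, hz₂⟩ := hcon (-1) (Or.inr rfl)
  obtain ⟨k₁, hk₁⟩ := exists_killing hJ hp hpS hNS hpT hfrob habs hfin α w hαH hαG hwH hwG W hWH I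
    hORD hram 1 σ₁ τ₁ (lam 1 σ₁) (lam 1 τ₁) (hW 1 (Or.inl rfl) σ₁ hσ₁) (hW 1 (Or.inl rfl) τ₁ hτ₁)
    v₁ hz₁
  obtain ⟨k₂, hk₂⟩ := exists_killing hJ hp hpS hNS hpT hfrob habs hfin α w hαH hαG hwH hwG W hWH I
    hORD hram (-1) σ₂ τ₂ (lam (-1) σ₂) (lam (-1) τ₂) (hW (-1) (Or.inr rfl) σ₂ hσ₂)
    (hW (-1) (Or.inr rfl) τ₂ hτ₂) v₂ hz₂
  obtain ⟨t₀, ht₀, hπt₀⟩ := hnew
  obtain ⟨ϖ, hϖ⟩ := IsDiscreteValuationRing.exists_irreducible O
  have hpow : ∀ {x : O}, x ≠ 0 → ∃ j : ℕ, x ∣ ϖ ^ j := by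
    intro x hx
    obtain ⟨j, u, rfl⟩ := IsDiscreteValuationRing.eq_unit_mul_pow_irreducible hx hϖ
    exact ⟨j, (Units.mul_left_dvd).mpr dvd_rfl⟩
  obtain ⟨k₀, hk₀⟩ := hpow hπt₀
  obtain ⟨k₃, hk₃⟩ := hpow h2
  set K := k₃ + k₁ + k₂ + k₀ with hK
  obtain ⟨m₀, hm₀⟩ := hJ.faithful (K + 1)
  set m := max m₀ (max k₁ k₂) with hm
  obtain ⟨s₁, hs₁, hs₁'⟩ := hk₁ m (le_trans (le_max_left _ _) (le_max_right _ _))
  obtain ⟨s₂, hs₂, hs₂'⟩ := hk₂ m (le_trans (le_max_right _ _) (le_max_right _ _))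
  set u : HeckeAlgS (↑S : Set ℕ) := 2 * s₁ * s₂ * t₀ with hu
  have hkill : ∀ x : J, p ^ m • x = 0 → inclS (↑S : Set ℕ) u • x = 0 := by
    intro x hx
    set y := inclS (↑S : Set ℕ) t₀ • x with hy
    have hyp : p ^ m • y = 0 := by rw [hy, smul_comm, hx, smul_zero]
    have hαy : α y = 0 := ht₀ m x hx
    have hwx : p ^ m • w x = 0 := by rw [← map_nsmul, hx, map_zero]
    have hαwy : α (w y) = 0 := by rw [hy, hwH m t₀ x hx]; exact ht₀ m (w x) hwx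
    have hwyp : p ^ m • w y = 0 := by rw [← map_nsmul, hyp, map_zero]
    have hplus : y + w y ∈ newPart p α w 1 m :=
      ⟨by rw [smul_add, hyp, hwyp, add_zero], by rw [map_add, hαy, hαwy, add_zero],
        by rw [map_add, hww, one_smul, add_comm]⟩
    have hminus : y - w y ∈ newPart p α w (-1) m :=
      ⟨by rw [smul_sub, hyp, hwyp, sub_zero], by rw [map_sub, hαy, hαwy, sub_zero],
        by rw [map_sub, hww, neg_smul, one_smul, neg_sub]⟩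
    have h3 := hs₁ _ hplus
    have h4 := hs₂ _ hminus
    have h5 : inclS (↑S : Set ℕ) u • x = inclS (↑S : Set ℕ) (s₁ * s₂) • ((2 : ℕ) • y) := by
      rw [hu, hy, ← Nat.cast_smul_eq_nsmul HeckeAlg, ← mul_smul, ← mul_smul]
      congr 1
      simp only [map_mul, map_ofNat]
      push_cast
      ring
    have h6 : (2 : ℕ) • y = (y + w y) + (y - w y) := by rw [two_smul]; abel
    rw [h5, h6, smul_add, map_mul]
    have h7 : (inclS (↑S : Set ℕ) s₁ * inclS (↑S : Set ℕ) s₂) • (y + w y) = 0 := by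
      rw [mul_comm, mul_smul, h3, smul_zero]
    have h8 : (inclS (↑S : Set ℕ) s₁ * inclS (↑S : Set ℕ) s₂) • (y - w y) = 0 := by
      rw [mul_smul, h4, smul_zero]
    rw [h7, h8, add_zero]
  have hmem := hm₀ u (fun x hx => hkill x (by
    obtain ⟨c, hc⟩ := Nat.pow_dvd_pow p (le_max_left m₀ (max k₁ k₂))
    rw [← hm] at hc
    rw [hc, mul_comm, mul_smul, hx, smul_zero]))
  have hdvd : ϖ ^ (K + 1) ∣ π (evS N (↑S : Set ℕ) u) := by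
    obtain ⟨d, hd⟩ := Ideal.mem_span_singleton'.mp hmem
    rw [← hd, map_mul, map_pow, map_natCast]
    refine Dvd.dvd.mul_left (pow_dvd_pow_of_dvd ?_ _) _
    rw [hϖ.maximalIdeal_eq, Ideal.mem_span_singleton] at hpT
    exact hpT
  have hdvd' : π (evS N (↑S : Set ℕ) u) ∣ ϖ ^ K := by
    rw [hu]
    simp only [map_mul, map_ofNat]
    rw [hK, pow_add, pow_add, pow_add]
    exact mul_dvd_mul (mul_dvd_mul (mul_dvd_mul hk₃ (dvd_pow_of_notMem hϖ hs₁'))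
      (dvd_pow_of_notMem hϖ hs₂')) hk₀
  have hcontra := hdvd.trans hdvd'
  rw [pow_dvd_pow_iff hϖ.ne_zero hϖ.not_isUnit] at hcontra
  omega

/-- The relation in the form `(ρ(g) - χ(g) λ(g)) (ρ(h) - λ(h)) = 0`. -/
theorem rel_of_adjoint {ρ : GaloisRepAdic O} {g h : GQ} {e e' f : ℤ}
    (he : e' = e) (v : ρ.V)
    (H : LinearMap.det (ρ.ρ g⁻¹) • ρ.ρ g⁻¹⁻¹ (ρ.ρ h v - f • v) - e' • (ρ.ρ h v - f • v) = 0) :
    ρ.ρ g (ρ.ρ h v - f • v) = (LinearMap.det (ρ.ρ g) * (e : O)) • (ρ.ρ h v - f • v) := by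
  rw [inv_inv, sub_eq_zero] at H
  have h1 : LinearMap.det (ρ.ρ g) * LinearMap.det (ρ.ρ g⁻¹) = 1 := by
    rw [← LinearMap.det_comp, ← Module.End.mul_eq_comp, ← map_mul, mul_inv_cancel, map_one,
      Module.End.one_eq_id, LinearMap.det_id]
  have h2 := congrArg (fun y => LinearMap.det (ρ.ρ g) • y) H
  rw [← mul_smul, h1, one_smul] at h2
  rw [h2, he, mul_smul, Int.cast_smul_eq_zsmul]

end Final

end Fermat.Agent.LTF.Loc2T

end
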