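import Fermat.Agent.S33.Formal

/-!
# Transfer of group ring relations on a Hecke and Galois stable subgroup of torsion

* `ideal_transfer` : if `∑ c_i g_i` kills `X` and every Hecke operator killing `X` has image in
  the ideal `𝔞` of `T`, then `∑ c_i ρ(g_i)` maps `V` into `𝔞 V`.
* `adjoint_rel` : the adjoint relation `(χ(σ) σ⁻¹ - λ(σ)) (τ - λ(τ)) = 0` on `X` for `σ, τ` in a
  subgroup `D` acting through `λ` on `X / (X ∩ W)`, when `X ∩ W` contains no nonzero Galois and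
  Hecke stable subgroup.
-/

set_option autoImplicit false

noncomputable section

open CuspForm ModularCurve Polynomial Fermat.Agent.GalRep Fermat.Agent.S33aux

namespace Fermat.Agent.LTF.Loc2T

variable {N p : ℕ} [NeZero N] {S : Finset ℕ}
  {J : Type*} [AddCommGroup J] [Module HeckeAlg J] [DistribMulAction GQ J]
  [SMulCommClass GQ HeckeAlg J]
  {T : Type} [CommRing T] [IsLocalRing T] [IsNoetherianRing T]

/-- **Transfer modulo an ideal.** -/
theorem ideal_transfer (hJ : ESInput N p (↑S : Set ℕ) J) (hp : p.Prime)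
    (hpS : p ∈ S) (hNS : ∀ q : ℕ, q.Prime → q ∣ N → q ∈ S)
    {π : heckeAlgebra N 2 (↑S : Set ℕ) →+* T} {ρ : GaloisRepAdic T}
    (hfrob : HasFrobCharpoly π ρ) (habs : ρ.residual.IsAbsolutelyIrreducible) {m : ℕ}
    (X : AddSubgroup J) (hG : ∀ g : GQ, ∀ x ∈ X, g • x ∈ X)
    (hH : ∀ t : HeckeAlgS (↑S : Set ℕ), ∀ x ∈ X, inclS (↑S : Set ℕ) t • x ∈ X)
    (hXp : ∀ x ∈ X, p ^ m • x = 0) (𝔞 : Ideal T)
    (hX : ∀ s : HeckeAlgS (↑S : Set ℕ), (∀ x ∈ X, inclS (↑S : Set ℕ) s • x = 0) →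
      π (evS N (↑S : Set ℕ) s) ∈ 𝔞)
    {ι : Type*} (I : Finset ι) (c : ι → ℤ) (g : ι → GQ)
    (h0 : ∀ x ∈ X, ∑ i ∈ I, c i • (g i • x) = 0) (v : ρ.V) :
    ∑ i ∈ I, c i • ρ.ρ (g i) v ∈ 𝔞 • (⊤ : Submodule T ρ.V) := by
  classical
  obtain ⟨g₀, g₁, g₂, hu⟩ := exists_isUnit_trace_commutator ρ habs
  have : NeZero (p ^ m) := ⟨pow_ne_zero _ hp.ne_zero⟩
  obtain ⟨ζ, hζ⟩ := HasEnoughRootsOfUnity.exists_primitiveRoot (AlgebraicClosure ℚ) (p ^ m)
  letI : Module (HeckeAlgS (↑S : Set ℕ)) X := heckeModuleS (↑S : Set ℕ) X hH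
  have hsm : ∀ (t : HeckeAlgS (↑S : Set ℕ)) (x : X),
      ((t • x : X) : J) = inclS (↑S : Set ℕ) t • (x : J) := fun _ _ => rfl
  let a : GQ →* Module.End (HeckeAlgS (↑S : Set ℕ)) X :=
    { toFun := fun g =>
        { toFun := fun x => ⟨g • (x : J), hG g x x.2⟩
          map_add' := fun x y => Subtype.ext (smul_add g (x : J) (y : J))
          map_smul' := fun r x => Subtype.ext (smul_comm g (inclS (↑S : Set ℕ) r) (x : J)) }
      map_one' := LinearMap.ext fun x => Subtype.ext (one_smul GQ (x : J))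
      map_mul' := fun g h => LinearMap.ext fun x => Subtype.ext (mul_smul g h (x : J)) }
  have hac : ∀ (g : GQ) (x : X), ((a g x : X) : J) = g • (x : J) := fun _ _ => rfl
  set s : GQ → Module.End (HeckeAlgS (↑S : Set ℕ)) X := fun h =>
    algebraMap (HeckeAlgS (↑S : Set ℕ)) (Module.End (HeckeAlgS (↑S : Set ℕ)) X)
      (cycExp p hp m hζ h : HeckeAlgS (↑S : Set ℕ)) * a h⁻¹ with hs
  have hcast : ∀ (n : ℕ) (x : X), ((n : HeckeAlgS (↑S : Set ℕ)) • x) = n • x :=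
    fun n x => Nat.cast_smul_eq_nsmul _ _ _
  have hscal : ∀ {a b : ℕ}, ((a : ℕ) : ZMod (p ^ m)) = b →
      algebraMap (HeckeAlgS (↑S : Set ℕ)) (Module.End (HeckeAlgS (↑S : Set ℕ)) X)
        (a : HeckeAlgS (↑S : Set ℕ)) =
        algebraMap (HeckeAlgS (↑S : Set ℕ)) (Module.End (HeckeAlgS (↑S : Set ℕ)) X)
          (b : HeckeAlgS (↑S : Set ℕ)) := by
    intro a b hab
    refine LinearMap.ext fun x => Subtype.ext ?_
    rw [Module.algebraMap_end_apply, Module.algebraMap_end_apply, hcast, hcast]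
    have h1 : ((p ^ m : ℕ) : ℤ) ∣ (a : ℤ) - (b : ℤ) := by
      rw [← ZMod.intCast_zmod_eq_zero_iff_dvd]
      push_cast
      exact sub_eq_zero.mpr hab
    obtain ⟨e, he⟩ := h1
    have h2 : (a : ℤ) • (x : J) - (b : ℤ) • (x : J) = 0 := by
      rw [← sub_smul, he, mul_comm, mul_smul, natCast_zsmul, hXp _ x.2, smul_zero]
    rw [natCast_zsmul, natCast_zsmul] at h2
    exact sub_eq_zero.mp h2
  have hsmul : ∀ g h, s (g * h) = s h * s g := by
    intro g h
    have h1 := hscal (cycExp_mul p hp m hζ g h)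
    rw [Nat.cast_mul, map_mul] at h1
    simp only [hs]
    rw [h1, mul_inv_rev, map_mul]
    rw [mul_assoc, mul_assoc, ← mul_assoc (a h⁻¹), ← Algebra.commutes _ (a h⁻¹), mul_assoc]
  set F : Module.End T ρ.V := ∑ i ∈ I, c i • ρ.ρ (g i) with hF
  have htr : ∀ h : GQ, LinearMap.trace T ρ.V (F * ρ.ρ h) ∈ 𝔞 := by
    intro h
    have h3 : LinearMap.trace T ρ.V (F * ρ.ρ h) =
        ∑ i ∈ I, c i • LinearMap.trace T ρ.V (ρ.ρ (g i * h)) := by
      rw [hF, Finset.sum_mul, map_sum]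
      refine Finset.sum_congr rfl fun i _ => ?_
      rw [smul_mul_assoc, map_zsmul, map_mul ρ.ρ]
    rw [h3]
    refine (Ideal.mul_unit_mem_iff_mem _ hu).mp (mem_of_forall_mem_sup_pow _ _ fun n' => ?_)
    obtain ⟨t, ht, ht'⟩ := exists_heckeApprox' hJ hp hpS hNS hfrob m n' hζ
    have hat : ∀ h, a h + s h = algebraMap (HeckeAlgS (↑S : Set ℕ))
        (Module.End (HeckeAlgS (↑S : Set ℕ)) X) (t h) := by
      intro h
      refine LinearMap.ext fun x => Subtype.ext ?_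
      have e := ht h x (hXp _ x.2)
      have e1 : (s h x : X) = (cycExp p hp m hζ h : HeckeAlgS (↑S : Set ℕ)) • (a h⁻¹ x) := rfl
      rw [LinearMap.add_apply, e1, hcast, AddSubgroup.coe_add, AddSubgroup.coe_nsmul, hac, hac,
        Module.algebraMap_end_apply, hsm, e]
    have h0' : ∑ i ∈ I, c i • a (g i * h) = 0 := by
      refine LinearMap.ext fun x => Subtype.ext ?_
      have := h0 (h • (x : J)) (hG h x x.2)
      rw [LinearMap.sum_apply, LinearMap.zero_apply, AddSubgroup.coe_zero, ← this,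
        ← AddSubgroup.subtype_apply, map_sum]
      refine Finset.sum_congr rfl fun i _ => ?_
      rw [LinearMap.smul_apply, map_zsmul, AddSubgroup.subtype_apply, hac, ← mul_smul (g i)]
    have hkey := star_key a s t hsmul hat I c
      (fun i => g i * h) h0' g₀ g₁ g₂
    set u : HeckeAlgS (↑S : Set ℕ) := (∑ i ∈ I, c i • t (g i * h)) *
      (t (g₀ * (g₁ * g₂)) - t (g₀ * (g₂ * g₁))) with hu'
    have hmem : π (evS N (↑S : Set ℕ) u) ∈ 𝔞 := by
      refine hX u fun x hx => ?_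
      have h1 := congrArg (fun f : Module.End (HeckeAlgS (↑S : Set ℕ)) X =>
        ((f (⟨x, hx⟩ : X) : X) : J)) hkey
      exact h1
    have hq : ∀ h, Ideal.Quotient.mk (IsLocalRing.maximalIdeal T ^ n')
        (LinearMap.trace T ρ.V (ρ.ρ h)) =
        Ideal.Quotient.mk (IsLocalRing.maximalIdeal T ^ n') (π (evS N (↑S : Set ℕ) (t h))) :=
      fun h => Ideal.Quotient.eq.mpr (ht' h)
    have hdiff : (∑ i ∈ I, c i • LinearMap.trace T ρ.V (ρ.ρ (g i * h))) *
        (LinearMap.trace T ρ.V (ρ.ρ (g₀ * (g₁ * g₂))) -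
          LinearMap.trace T ρ.V (ρ.ρ (g₀ * (g₂ * g₁)))) - π (evS N (↑S : Set ℕ) u) ∈
        IsLocalRing.maximalIdeal T ^ n' := by
      rw [← Ideal.Quotient.eq, hu']
      rw [map_mul, map_sub, map_sum, hq, hq, map_mul, map_mul, map_mul, map_sub, map_sub, map_sub,
        map_sum, map_sum, map_sum]
      congr 1
      refine Finset.sum_congr rfl fun i _ => ?_
      rw [map_zsmul, map_zsmul, map_zsmul, map_zsmul, hq]
    have hfin := Submodule.add_mem_sup hmem hdiff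
    rwa [add_sub_cancel] at hfin
  have htrX : ∀ Y : Module.End T ρ.V, LinearMap.trace T ρ.V (F * Y) ∈ 𝔞 := by
    intro Y
    have hY : Y ∈ Submodule.span T (Set.range ρ.ρ) := by rw [span_range_eq_top ρ habs]; trivial
    induction hY using Submodule.span_induction with
    | mem x hx =>
      obtain ⟨h, rfl⟩ := hx
      exact htr h
    | zero => simp
    | add x y _ _ hx hy => rw [mul_add, map_add]; exact Ideal.add_mem _ hx hy
    | smul c x _ hx =>
      rw [mul_smul_comm, map_smul, smul_eq_mul]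
      exact Ideal.mul_mem_left _ _ hx
  have h4 := mem_smul_top_of_trace _ F htrX v
  have h5 : F v = ∑ i ∈ I, c i • ρ.ρ (g i) v := by
    rw [hF, LinearMap.sum_apply]
    refine Finset.sum_congr rfl fun g _ => ?_
    rw [LinearMap.smul_apply]
  rwa [h5] at h4

/-- **The adjoint relation.**  Let `X ⊆ J[p^m]` be Galois and Hecke stable, `D` a subgroup of the
Galois group, `W` a Hecke stable subgroup such that `(τ - λ(τ)) X ⊆ W` for `τ ∈ D`, and such that
`X ∩ W` contains no nonzero Galois and Hecke stable subgroup.  Then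
`(χ(σ) σ⁻¹ - λ(σ)) w = 0` for `σ ∈ D`, `w ∈ X ∩ W`. -/
theorem adjoint_rel (hp : p.Prime) {m : ℕ} {ζ : AlgebraicClosure ℚ}
    (hζ : IsPrimitiveRoot ζ (p ^ m)) (t : GQ → HeckeAlgS (↑S : Set ℕ))
    (ht : ∀ g : GQ, ∀ x : J, p ^ m • x = 0 →
        inclS (↑S : Set ℕ) (t g) • x = g • x + cycExp p hp m hζ g • (g⁻¹ • x))
    (X W : AddSubgroup J) (hG : ∀ g : GQ, ∀ x ∈ X, g • x ∈ X)
    (hH : ∀ t : HeckeAlgS (↑S : Set ℕ), ∀ x ∈ X, inclS (↑S : Set ℕ) t • x ∈ X)
    (hXp : ∀ x ∈ X, p ^ m • x = 0)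
    (hWH : ∀ t : HeckeAlgS (↑S : Set ℕ), ∀ x ∈ W, inclS (↑S : Set ℕ) t • x ∈ W)
    (hIrr : ∀ Y : AddSubgroup J, Y ≤ X → Y ≤ W → (∀ g : GQ, ∀ x ∈ Y, g • x ∈ Y) →
      (∀ t : HeckeAlgS (↑S : Set ℕ), ∀ x ∈ Y, inclS (↑S : Set ℕ) t • x ∈ Y) → Y = ⊥)
    (σ : GQ) (e : ℤ) (hσ : ∀ x ∈ X, σ • x - e • x ∈ W)
    {w : J} (hwX : w ∈ X) (hwW : w ∈ W) :
    cycExp p hp m hζ σ • (σ⁻¹ • w) - e • w = 0 := by
  -- the largest Galois stable subgroup of `X ∩ W`
  let Y : AddSubgroup J :=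
    { carrier := {x | x ∈ X ∧ ∀ g : GQ, g • x ∈ W}
      zero_mem' := ⟨X.zero_mem, fun g => by rw [smul_zero]; exact W.zero_mem⟩
      add_mem' := by
        rintro x y ⟨hx, hx'⟩ ⟨hy, hy'⟩
        exact ⟨X.add_mem hx hy, fun g => by rw [smul_add]; exact W.add_mem (hx' g) (hy' g)⟩
      neg_mem' := by
        rintro x ⟨hx, hx'⟩
        exact ⟨X.neg_mem hx, fun g => by rw [smul_neg]; exact W.neg_mem (hx' g)⟩ }
  have hYbot : Y = ⊥ := by
    refine hIrr Y (fun x hx => hx.1) (fun x hx => by simpa using hx.2 1) ?_ ?_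
    · rintro g x ⟨hx, hx'⟩
      exact ⟨hG g x hx, fun h => by rw [← mul_smul]; exact hx' _⟩
    · rintro t x ⟨hx, hx'⟩
      refine ⟨hH t x hx, fun g => ?_⟩
      rw [smul_comm]
      exact hWH t _ (hx' g)
  have hmem : cycExp p hp m hζ σ • (σ⁻¹ • w) - e • w ∈ Y := by
    refine ⟨X.sub_mem (X.nsmul_mem (hG _ _ hwX) _) (X.zsmul_mem hwX _), fun g => ?_⟩
    have h1 := ht (g * σ⁻¹) w (hXp w hwX)
    have h2 := ht g w (hXp w hwX)
    have hinv : (g * σ⁻¹)⁻¹ = σ * g⁻¹ := by group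
    rw [hinv] at h1
    -- `χ(σ) χ(g σ⁻¹) = χ(g)` modulo `p ^ m`
    have hcyc : ∀ y ∈ X, (cycExp p hp m hζ σ * cycExp p hp m hζ (g * σ⁻¹)) • y =
        cycExp p hp m hζ g • y := by
      intro y hy
      have h3 : ((cycExp p hp m hζ g : ℕ) : ZMod (p ^ m)) =
          ((cycExp p hp m hζ σ * cycExp p hp m hζ (g * σ⁻¹) : ℕ) : ZMod (p ^ m)) := by
        have := cycExp_mul p hp m hζ (g * σ⁻¹) σ
        rwa [inv_mul_cancel_right] at this
      have h4 : ((p ^ m : ℕ) : ℤ) ∣ ((cycExp p hp m hζ g : ℕ) : ℤ) -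
          ((cycExp p hp m hζ σ * cycExp p hp m hζ (g * σ⁻¹) : ℕ) : ℤ) := by
        rw [← ZMod.intCast_zmod_eq_zero_iff_dvd]
        push_cast
        push_cast at h3
        rw [h3, sub_self]
      obtain ⟨d, hd⟩ := h4
      have h5 : ((cycExp p hp m hζ g : ℕ) : ℤ) • y -
          ((cycExp p hp m hζ σ * cycExp p hp m hζ (g * σ⁻¹) : ℕ) : ℤ) • y = 0 := by
        rw [← sub_smul, hd, mul_comm, mul_smul, natCast_zsmul, hXp y hy, smul_zero]
      rw [natCast_zsmul, natCast_zsmul] at h5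
      exact (sub_eq_zero.mp h5).symm
    have hgw : g⁻¹ • w ∈ X := hG _ _ hwX
    have h6 := hcyc (σ • (g⁻¹ • w)) (hG _ _ hgw)
    have key : g • (cycExp p hp m hζ σ • (σ⁻¹ • w) - e • w) =
        cycExp p hp m hζ σ • (inclS (↑S : Set ℕ) (t (g * σ⁻¹)) • w) -
          e • (inclS (↑S : Set ℕ) (t g) • w) -
          cycExp p hp m hζ g • (σ • (g⁻¹ • w) - e • (g⁻¹ • w)) := by
      have hg1 : g • cycExp p hp m hζ σ • σ⁻¹ • w = cycExp p hp m hζ σ • ((g * σ⁻¹) • w) := by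
        rw [mul_smul, smul_comm g]
      have hg2 : g • e • w = e • (g • w) := smul_comm _ _ _
      rw [h1, h2, smul_sub, hg1, hg2, smul_add, smul_add, smul_sub, mul_smul σ g⁻¹ w, ← mul_smul
        (cycExp p hp m hζ σ), h6]
      have h7 : e • (cycExp p hp m hζ g • (g⁻¹ • w)) = cycExp p hp m hζ g • (e • (g⁻¹ • w)) :=
        (smul_comm _ _ _)
      rw [h7]
      abel
    rw [key]
    exact W.sub_mem (W.sub_mem (W.nsmul_mem (hWH _ _ hwW) _) (W.zsmul_mem (hWH _ _ hwW) _))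
      (W.nsmul_mem (hσ _ hgw) _)
  rw [hYbot] at hmem
  exact hmem

end Fermat.Agent.LTF.Loc2T

end
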