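import Fermat.Agent.LTF.Loc2TRel
import Fermat.Agent.LTF.StDef
import Fermat.Agent.QX4.Input
import Fermat.Agent.S34.Concrete
import Fermat.Agent.TwoGauss.Uncond
import Fermat.Agent.TW.InertiaField

/-!
# The subgroup of classes split at the first component
-/

set_option autoImplicit false
set_option linter.unusedSectionVars false
set_option linter.style.haveILetI false

noncomputable section

open ModularCurve AlgebraicCurve IntermediateField
open Fermat.Agent.GaussVal Fermat.Agent.GalRep Fermat.Agent.FF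
open scoped Fermat.Agent.GaussVal
open Fermat.Agent.TwoGauss (wq mkData)
open Fermat.Agent.QX4

namespace Fermat.Agent.LTF.Loc2T

section Abstract

variable {K F F' : Type*} [Field K] [Field F] [Algebra K F] [Field F']
  {O : ValuationSubring F} {ρ : O →+* F'}

theorem split_zero (n : ℕ) : Split (K := K) O ρ n 0 :=
  ⟨0, 1, O.one_mem, 1, Pic0.mk_zero.symm, one_ne_zero, fun v => by
    rw [v.ord_one]; simp, by rw [one_pow]; exact map_one ρ⟩

theorem ne_zero_of_ρ {f : F} {hf : f ∈ O} {u : F'} {n : ℕ} (hu : u ≠ 0)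
    (h : ρ ⟨f, hf⟩ = u ^ n) : f ≠ 0 := by
  rintro rfl
  have h1 : (⟨0, hf⟩ : O) = 0 := rfl
  rw [h1, map_zero] at h
  exact pow_ne_zero n hu h.symm

theorem split_add_of {n : ℕ} {x y : Pic0 K F} (hx : Split O ρ n x) (hy : Split O ρ n y) :
    Split O ρ n (x + y) := by
  obtain ⟨D, f, hf, u, rfl, hu, hord, hρ⟩ := hx
  obtain ⟨D', f', hf', u', rfl, hu', hord', hρ'⟩ := hy
  refine ⟨D + D', f * f', mul_mem hf hf', u * u', rfl, mul_ne_zero hu hu', fun v => ?_, ?_⟩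
  · rw [v.ord_mul (ne_zero_of_ρ hu hρ) (ne_zero_of_ρ hu' hρ'), hord, hord', AddSubgroup.coe_add,
      Finsupp.add_apply]
    ring
  · have h1 : (⟨f * f', mul_mem hf hf'⟩ : O) = ⟨f, hf⟩ * ⟨f', hf'⟩ := rfl
    rw [h1, map_mul, hρ, hρ', mul_pow]

theorem split_neg_of (hO : ∀ x : O, ρ x = 0 ↔ (x : F) ∈ O.nonunits) {n : ℕ} {x : Pic0 K F}
    (hx : Split O ρ n x) : Split O ρ n (-x) := by
  obtain ⟨D, f, hf, u, rfl, hu, hord, hρ⟩ := hx
  have hf0 := ne_zero_of_ρ hu hρ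
  have hne : ρ ⟨f, hf⟩ ≠ 0 := by rw [hρ]; exact pow_ne_zero n hu
  have hinv : f⁻¹ ∈ O := by
    rw [ne_eq, hO, ValuationSubring.mem_nonunits_iff, not_lt] at hne
    rw [← ValuationSubring.valuation_le_one_iff, map_inv₀]
    exact inv_le_one_of_one_le₀ hne
  refine ⟨-D, f⁻¹, hinv, u⁻¹, rfl, inv_ne_zero hu, fun v => ?_, ?_⟩
  · rw [v.ord_inv, hord, AddSubgroup.coe_neg, Finsupp.neg_apply]
    ring
  · have h1 : ρ ⟨f⁻¹, hinv⟩ * ρ ⟨f, hf⟩ = 1 := by
      rw [← map_mul, ← map_one ρ]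
      congr 1
      exact Subtype.ext (inv_mul_cancel₀ hf0)
    rw [inv_pow, ← hρ]
    exact eq_inv_of_mul_eq_one_left h1

theorem split_mul_of {n : ℕ} (c : ℕ) {x : Pic0 K F} (hx : Split O ρ n x) :
    Split O ρ (n * c) x := by
  obtain ⟨D, f, hf, u, rfl, hu, hord, hρ⟩ := hx
  refine ⟨D, f ^ c, pow_mem hf c, u, rfl, hu, fun v => ?_, ?_⟩
  · rw [← zpow_natCast, v.ord_zpow, hord]
    push_cast
    ring
  · have h1 : (⟨f ^ c, pow_mem hf c⟩ : O) = ⟨f, hf⟩ ^ c := rfl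
    rw [h1, map_pow, hρ, pow_mul]

theorem split_smul_of {n : ℕ} {x : Pic0 K F} (hx : Split O ρ n x) {g : SemilinearAut K F}
    (hmem : ∀ f ∈ O, g • f ∈ O) (e : F' →+* F')
    (he : ∀ (f : F) (hf : f ∈ O), ρ ⟨g • f, hmem f hf⟩ = e (ρ ⟨f, hf⟩)) :
    Split O ρ n (g • x) := by
  obtain ⟨D, f, hf, u, rfl, hu, hord, hρ⟩ := hx
  refine ⟨SemilinearAut.degZeroSMulHom g D, g • f, hmem f hf, e u, rfl,
    (map_ne_zero_iff e e.injective).mpr hu, fun v => ?_, ?_⟩
  · rw [SemilinearAut.coe_degZeroSMulHom]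
    exact TwoComp.Data.ord_smul_eq hord v
  · rw [he f hf, hρ, map_pow]

/-- The subgroup of the classes which are split for some power of `p`. -/
def splitSub (O : ValuationSubring F) (ρ : O →+* F')
    (hO : ∀ x : O, ρ x = 0 ↔ (x : F) ∈ O.nonunits) (p : ℕ) : AddSubgroup (Pic0 K F) where
  carrier := {x | ∃ j : ℕ, Split O ρ (p ^ j) x}
  zero_mem' := ⟨0, split_zero _⟩
  add_mem' := by
    rintro x y ⟨i, hi⟩ ⟨j, hj⟩
    refine ⟨i + j, split_add_of ?_ ?_⟩
    · rw [pow_add]; exact split_mul_of _ hi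
    · rw [pow_add, mul_comm]; exact split_mul_of _ hj
  neg_mem' := by
    rintro x ⟨i, hi⟩
    exact ⟨i, split_neg_of hO hi⟩

theorem mem_splitSub {hO : ∀ x : O, ρ x = 0 ↔ (x : F) ∈ O.nonunits} {p : ℕ} {x : Pic0 K F} :
    x ∈ splitSub O ρ hO p ↔ ∃ j : ℕ, Split O ρ (p ^ j) x := Iff.rfl

end Abstract

section Level

/-- the algebraic numbers -/
local notation "𝕂" => AlgebraicClosure ℚ

variable {q m : ℕ} [NeZero m] [Fact q.Prime] (hm : ¬ q ∣ m)
  {A : ValuationSubring (AlgebraicClosure ℚ)} (hA : A.LiesOverPrime q)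
  [CharP (IsLocalRing.ResidueField A) q]

/-- The subgroup `W(A)` of `J₀(mq)`. -/
def WA : AddSubgroup (JZero (m * q)) :=
  splitSub (TwoGauss.twoComp Fact.out hm hA).O₁ (TwoGauss.twoComp Fact.out hm hA).ρ₁
    (TwoGauss.twoComp Fact.out hm hA).ρ₁_eq_zero_iff q

theorem WA_galois {σ : GQ} (hσ : σ ∈ A.decompositionSubgroup ℚ) {x : JZero (m * q)}
    (hx : x ∈ WA hm hA) : σ • x ∈ WA hm hA := by
  obtain ⟨j, hj⟩ := hx
  have h := TwoGauss.act_mkData Fact.out hm hA (GoodRed.degThm_res Fact.out hA (NeZero.ne m) hm)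
    (GoodRed.genus_le_all Fact.out hA m hm)
    (TwoGauss.residueCompat_of_decomposition ⟨σ, hσ⟩)
  refine ⟨j, ?_⟩
  rw [galois_smul_pic0_def]
  exact split_smul_of hj h.mem₁ _ h.ρ₁

theorem WA_inertia {τ : GQ} (hτ : τ ∈ A.inertiaSubgroupIn ℚ) {k : ℕ} {x : JZero (m * q)}
    (hx : q ^ k • x = 0) : τ • x - x ∈ WA hm hA := by
  have h := TwoGauss.act_mkData_inertia Fact.out hm hA
    (GoodRed.degThm_res Fact.out hA (NeZero.ne m) hm) (GoodRed.genus_le_all Fact.out hA m hm) hτ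
  refine ⟨k, ?_⟩
  rw [galois_smul_pic0_def]
  exact TwoComp.Data.split_of_trivial (TwoGauss.twoComp Fact.out hm hA).ρ₁_eq_zero_iff h.mem₁ h.ρ₁
    (S34aux.scal_mkData Fact.out hm hA (GoodRed.degThm_res Fact.out hA (NeZero.ne m) hm)
      (GoodRed.genus_le_all Fact.out hA m hm)).fst hx

theorem WA_frobenius {φ : GQ} (hφ : A.IsFrobeniusAt φ q) {k : ℕ} {x : JZero (m * q)}
    (hx : q ^ k • x = 0) (hα : pushA m q x = 0) :
    x + φ • wJ Fact.out hm x ∈ WA hm hA := by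
  have C : Compat hm A (mkData Fact.out hm hA (GoodRed.degThm_res Fact.out hA (NeZero.ne m) hm)
    (GoodRed.genus_le_all Fact.out hA m hm)) := compat_mkData _ _ _ _ _
  exact ⟨k, C.split_add hA hφ (pow_pos (Fact.out : q.Prime).pos k) x hx hα⟩

end Level

end Fermat.Agent.LTF.Loc2T
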