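import Fermat.Agent.LTF.Delta
import Fermat.Agent.TSide.GammaFinal

/-!
# LTFREE: the final skeleton

`modular_of_startAt`: a good curve `W` is modular of level `W.conductorLevel` as soon as
`StartAt W` holds (the output of steps (α) and (β)).  Step (γ) is `TSide.gamma_good`, step (δ) is
`modular_of_eigenPts`.
-/

set_option autoImplicit false
set_option linter.style.haveILetI false

noncomputable section

open ModularCurve
open Fermat.Agent.LTF.BLR Fermat.Agent.LTF.Gal Fermat.Agent.LTF.TwoDiv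
open Fermat.Agent.S53norm (HasMat M2)

namespace Fermat.Agent.LTF

/-- **(α) + (β)**, for the given matrices of the 2-adic Tate module: there is a constant `C` such
that for all `n` and all finite sets `B` there are a finite set `Q` of auxiliary primes, disjoint
from `B`, and a point of `J_0(N ∏ Q)` of exact order `2 ^ k`, `n ≤ k * C`, on which `T_ℓ` acts by
`a_ℓ(W)` for all primes `ℓ ∤ N ∏ Q`. -/
def StartAt (W : WeierstrassCurve ℤ) (r : GQ →* M2 ℤ_[2]) : Prop :=
  ∃ C : ℕ, ∀ (n : ℕ) (B : Finset ℕ), ∃ (Q : Finset ℕ) (k : ℕ),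
    (∀ q ∈ Q, q.Prime ∧ q ∉ W.Δ.natAbs.primeFactors ∧ q ∉ B ∧
      ∃ A : ValuationSubring (AlgebraicClosure ℚ), A.LiesOverPrime q ∧ ∃ φ : GQ,
        A.IsFrobeniusAt φ q ∧ redTwo r φ ≠ 1) ∧
    n ≤ k * C ∧ ∃ (L : ℕ) (_ : NeZero L), L = W.conductorLevel * ∏ q ∈ Q, q ∧
      ∃ x ∈ eigJ L (↑(W.Δ.natAbs.primeFactors ∪ Q) : Set ℕ) W.apOfModel (2 ^ k),
        2 ^ (k - 1) • x ≠ 0

theorem primeFactors_conductorLevel {W : WeierstrassCurve ℤ} (hΔ : W.Δ ≠ 0) :
    W.conductorLevel.primeFactors = W.Δ.natAbs.primeFactors := by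
  ext p
  rw [Nat.mem_primeFactors_of_ne_zero W.conductorLevel_pos.ne',
    Nat.mem_primeFactors_of_ne_zero (Int.natAbs_ne_zero.mpr hΔ)]
  constructor
  · rintro ⟨hp, h⟩
    exact ⟨hp, Int.natCast_dvd.mp ((W.prime_dvd_conductorLevel_iff hΔ hp).mp h)⟩
  · rintro ⟨hp, h⟩
    exact ⟨hp, (W.prime_dvd_conductorLevel_iff hΔ hp).mpr (Int.natCast_dvd.mpr h)⟩

/-- **The main theorem of LTFREE**, from (α) + (β). -/
theorem modular_of_startAt {W : WeierstrassCurve ℤ} (hW : GoodCurve W)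
    {hΔ : (W.map (Int.castRingHom ℚ)).Δ ≠ 0} {r : GQ →* M2 ℤ_[2]}
    (hr : HasMat ((Tate.tateRep (W.map (Int.castRingHom ℚ)) hΔ 2).ρ : GQ → _) r)
    (hs : StartAt W r) : W.IsModularModelOfLevel W.conductorLevel := by
  classical
  obtain ⟨C, hC⟩ := hs
  have hne : W.Δ ≠ 0 := hW.neg.ne
  have hpf := primeFactors_conductorLevel hne
  refine modular_of_eigenPts hne W.conductorLevel W.Δ.natAbs.primeFactors (fun p hp hpN => ?_)
    fun B => ?_
  · rw [← hpf, Nat.mem_primeFactors_of_ne_zero W.conductorLevel_pos.ne']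
    exact ⟨hp, hpN⟩
  · obtain ⟨Q, k, hQ, hk, L, hL0, hL, x, hx, hx'⟩ := hC (B * C + 1) (Finset.range (B + 1))
    have hBk : B ≤ k := by
      by_contra hlt
      push Not at hlt
      have := Nat.mul_le_mul_right C hlt.le
      omega
    obtain ⟨y, hy, hy'⟩ := TSide.gamma_good hW hr hpf Q
      (fun q hq => ⟨(hQ q hq).1, (hQ q hq).2.1, (hQ q hq).2.2.2⟩)
      (S := (↑(W.Δ.natAbs.primeFactors ∪ Q) : Set ℕ)) (Finset.finite_toSet _)
      (fun ℓ hℓ => by simpa using Or.inl (by simpa using hℓ))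
      (fun q hq => Finset.mem_coe.mpr (Finset.mem_union_right _ hq)) hL hx hx'
    refine ⟨W.Δ.natAbs.primeFactors ∪ Q, k, hBk, fun q hq hq0 => ?_, y, hy, hy'⟩
    rcases Finset.mem_union.mp hq with h | h
    · exact absurd h hq0
    · have := (hQ q h).2.2.1
      rw [Finset.mem_range] at this
      omega

end Fermat.Agent.LTF

end
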