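import Fermat.Agent.LTF.QuadIdeal

/-!
# Every ideal class of `ℤ[√-N]` contains an ideal `𝔞(a, c)`
-/

namespace Fermat.Agent.LTF.QuadInt

open NumberField

variable {K : Type*} [Field K] [NumberField K]

set_option linter.unusedSectionVars false

open Classical in
/-- the class of an integral ideal (`1` for the zero ideal) -/
noncomputable def icl (I : Ideal (𝓞 K)) : ClassGroup (𝓞 K) :=
  if hI : I ≠ ⊥ then ClassGroup.mk0 ⟨I, mem_nonZeroDivisors_of_ne_zero hI⟩ else 1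

lemma icl_of {I : Ideal (𝓞 K)} (hI : I ≠ ⊥) :
    icl I = ClassGroup.mk0 ⟨I, mem_nonZeroDivisors_of_ne_zero hI⟩ := dif_pos hI

lemma icl_mul {I J : Ideal (𝓞 K)} (hI : I ≠ ⊥) (hJ : J ≠ ⊥) :
    icl (I * J) = icl I * icl J := by
  rw [icl_of hI, icl_of hJ, icl_of (mul_ne_zero hI hJ), ← map_mul]
  rfl

lemma icl_span {x : 𝓞 K} (hx : x ≠ 0) : icl (Ideal.span {x}) = 1 := by
  have h0 : Ideal.span {x} ≠ ⊥ := by
    rwa [Ne, Ideal.span_singleton_eq_bot]
  rw [icl_of h0, ClassGroup.mk0_eq_one_iff]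
  exact ⟨⟨x, rfl⟩⟩

lemma icl_eq_iff {I J : Ideal (𝓞 K)} (hI : I ≠ ⊥) (hJ : J ≠ ⊥) :
    icl I = icl J ↔ ∃ x y : 𝓞 K, x ≠ 0 ∧ y ≠ 0 ∧ Ideal.span {x} * I = Ideal.span {y} * J := by
  rw [icl_of hI, icl_of hJ, ClassGroup.mk0_eq_mk0_iff]
  constructor
  · rintro ⟨x, y, hx, hy, h⟩
    exact ⟨x, y, hx, hy, h⟩
  · rintro ⟨x, y, hx, hy, h⟩
    exact ⟨x, y, hx, hy, h⟩

lemma icl_surj (C : ClassGroup (𝓞 K)) : ∃ I : Ideal (𝓞 K), I ≠ ⊥ ∧ icl I = C := by
  obtain ⟨⟨I, hI⟩, rfl⟩ := ClassGroup.mk0_surjective C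
  have h0 : I ≠ ⊥ := nonZeroDivisors.ne_zero hI
  exact ⟨I, h0, icl_of h0⟩

/-- every class contains an ideal prime to a given one -/
lemma exists_coprime (C : ClassGroup (𝓞 K)) {x : 𝓞 K} (hx : x ≠ 0) :
    ∃ M : Ideal (𝓞 K), M ≠ ⊥ ∧ icl M = C ∧ M ⊔ Ideal.span {x} = ⊤ := by
  obtain ⟨I, hI, hIC⟩ := icl_surj C⁻¹
  have hx' : Ideal.span {x} ≠ ⊥ := by
    rwa [Ne, Ideal.span_singleton_eq_bot]
  obtain ⟨a, ha⟩ := IsDedekindDomain.exists_sup_span_eq (I := I * Ideal.span {x}) (J := I)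
    Ideal.mul_le_left (mul_ne_zero hI hx')
  have haI : a ∈ I := by
    rw [← ha]; exact Ideal.mem_sup_right (Ideal.mem_span_singleton_self a)
  by_cases ha0 : a = 0
  · -- then `x` is a unit
    subst ha0
    rw [Ideal.span_singleton_eq_bot.2 rfl, sup_bot_eq] at ha
    have h1 : Ideal.span {x} = ⊤ := by
      have : I * Ideal.span {x} = I * ⊤ := by rw [ha, Ideal.mul_top]
      exact mul_left_cancel₀ (a := I) hI this
    obtain ⟨M, hM, hMC⟩ := icl_surj C
    exact ⟨M, hM, hMC, by rw [h1, sup_top_eq]⟩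
  · obtain ⟨M, hM⟩ := Ideal.dvd_iff_le.2 ((Ideal.span_singleton_le_iff_mem I).2 haI)
    have hsp : Ideal.span {a} ≠ ⊥ := by rwa [Ne, Ideal.span_singleton_eq_bot]
    have hM0 : M ≠ ⊥ := by
      rintro rfl
      apply hsp
      rw [hM, Ideal.mul_bot]
    refine ⟨M, hM0, ?_, ?_⟩
    · have h1 := icl_mul hI hM0
      rw [← hM, icl_span ha0, hIC] at h1
      exact (inv_mul_eq_one.1 h1.symm).symm
    · rw [hM, ← Ideal.add_eq_sup, ← mul_add, ← Ideal.mul_top I, mul_assoc, Ideal.top_mul] at ha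
      have := mul_left_cancel₀ (a := I) hI ha
      rw [add_comm, Ideal.add_eq_sup] at this
      exact this

variable {N : ℕ} {s : 𝓞 K}

namespace IsQF

variable (h : IsQF N s)
include h

lemma N_ne_zero : (N : 𝓞 K) ≠ 0 := by exact_mod_cast h.pos.ne'

/-- the structure of an ideal prime to `N` -/
theorem exists_of_coprime {M : Ideal (𝓞 K)} (hM : M ≠ ⊥)
    (hMN : M ⊔ Ideal.span {(N : 𝓞 K)} = ⊤) :
    ∃ n a c : ℤ, n ≠ 0 ∧ 0 < c ∧ c ∣ 1 + N * a ^ 2 ∧ M = Ideal.span {(n : 𝓞 K)} * idl N s a c := by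
  -- the subgroup of `s`-coordinates
  let A : AddSubgroup ℤ :=
    { carrier := {v | ∃ u : ℤ, (u : 𝓞 K) + v * s ∈ M}
      add_mem' := by
        rintro v v' ⟨u, hu⟩ ⟨u', hu'⟩
        exact ⟨u + u', by
          have := M.add_mem hu hu'
          convert this using 1
          push_cast; ring⟩
      zero_mem' := ⟨0, by simp⟩
      neg_mem' := by
        rintro v ⟨u, hu⟩
        exact ⟨-u, by
          have := M.neg_mem hu
          convert this using 1
          push_cast; ring⟩ }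
  have hA : ∀ v : ℤ, v ∈ A ↔ ∃ u : ℤ, (u : 𝓞 K) + v * s ∈ M := fun v => Iff.rfl
  let B : AddSubgroup ℤ :=
    { carrier := {u | (u : 𝓞 K) ∈ M}
      add_mem' := by
        intro u u' hu hu'
        have := M.add_mem hu hu'
        change ((u + u' : ℤ) : 𝓞 K) ∈ M
        push_cast
        exact this
      zero_mem' := by simp
      neg_mem' := by
        intro u hu
        have := M.neg_mem hu
        change ((-u : ℤ) : 𝓞 K) ∈ M
        push_cast
        exact this }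
  have hB : ∀ u : ℤ, u ∈ B ↔ (u : 𝓞 K) ∈ M := fun v => Iff.rfl
  obtain ⟨n, hn⟩ := Int.subgroup_cyclic A
  obtain ⟨c0, hc0⟩ := Int.subgroup_cyclic B
  have hA' : ∀ v, v ∈ A ↔ n ∣ v := by
    intro v
    rw [hn, AddSubgroup.mem_closure_singleton]
    constructor
    · rintro ⟨k, rfl⟩
      exact ⟨k, by rw [zsmul_eq_mul, mul_comm]; rfl⟩
    · rintro ⟨k, rfl⟩
      exact ⟨k, by rw [zsmul_eq_mul, mul_comm]; rfl⟩
  have hB' : ∀ v, v ∈ B ↔ c0 ∣ v := by
    intro v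
    rw [hc0, AddSubgroup.mem_closure_singleton]
    constructor
    · rintro ⟨k, rfl⟩
      exact ⟨k, by rw [zsmul_eq_mul, mul_comm]; rfl⟩
    · rintro ⟨k, rfl⟩
      exact ⟨k, by rw [zsmul_eq_mul, mul_comm]; rfl⟩
  have hint : ((Ideal.absNorm M : ℤ) : 𝓞 K) ∈ M := by
    have := Ideal.absNorm_mem M
    simpa using this
  have hnorm : (Ideal.absNorm M : ℤ) ≠ 0 := by
    have : Ideal.absNorm M ≠ 0 := by rw [Ne, Ideal.absNorm_eq_zero_iff]; exact hM
    exact_mod_cast this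
  have hc0' : c0 ≠ 0 := by
    rintro rfl
    have := (hB' _).1 ((hB _).2 hint)
    exact hnorm (zero_dvd_iff.1 this)
  have hBA : ∀ u, u ∈ B → u ∈ A := by
    intro u hu
    refine ⟨0, ?_⟩
    have := M.mul_mem_left s ((hB u).1 hu)
    convert this using 1
    push_cast; ring
  have hnc : n ∣ c0 := (hA' _).1 (hBA _ ((hB' _).2 dvd_rfl))
  obtain ⟨c1, rfl⟩ := hnc
  have hn0 : n ≠ 0 := left_ne_zero_of_mul hc0'
  have hc10 : c1 ≠ 0 := right_ne_zero_of_mul hc0'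
  obtain ⟨m', hm'⟩ := (hA _).1 ((hA' n).2 dvd_rfl)
  have hm'A : m' ∈ A := by
    refine ⟨-(n * N), ?_⟩
    have := M.mul_mem_left s hm'
    convert this using 1
    push_cast
    linear_combination -(n : 𝓞 K) * h.sq'
  obtain ⟨m, rfl⟩ := (hA' _).1 hm'A
  -- `M = n (c1, m + s)`
  have hcm : c1 ∣ m ^ 2 + N := by
    have h1 : ((n * (m ^ 2 + N) : ℤ) : 𝓞 K) ∈ M := by
      have := M.mul_mem_left ((m : 𝓞 K) - s) hm'
      convert this using 1
      push_cast
      linear_combination (n : 𝓞 K) * h.sq'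
    exact Int.dvd_of_mul_dvd_mul_left hn0 ((hB' _).1 ((hB _).2 h1))
  have hMle : ∀ x ∈ M, ∃ w v : ℤ, x = n * (w * c1 + v * (m + s)) := by
    intro x hx
    obtain ⟨u, v, rfl⟩ := h.exists_coords x
    obtain ⟨v', rfl⟩ := (hA' _).1 ((hA v).2 ⟨u, hx⟩)
    have h1 : ((u - v' * (n * m) : ℤ) : 𝓞 K) ∈ M := by
      have := M.sub_mem hx (M.mul_mem_left (v' : 𝓞 K) hm')
      convert this using 1
      push_cast; ring
    obtain ⟨w, hw⟩ := (hB' _).1 ((hB _).2 h1)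
    refine ⟨w, v', ?_⟩
    have hw' : (u : 𝓞 K) = v' * (n * m) + n * c1 * w := by
      have : u = v' * (n * m) + n * c1 * w := by linarith
      exact_mod_cast congrArg (Int.cast : ℤ → 𝓞 K) this
    rw [hw']
    push_cast; ring
  have hcop : IsCoprime c1 (N : ℤ) := by
    have h1 : (1 : 𝓞 K) ∈ M ⊔ Ideal.span {(N : 𝓞 K)} := by rw [hMN]; trivial
    obtain ⟨x, hx, y, hy, hxy⟩ := Submodule.mem_sup.1 h1
    obtain ⟨w, v, rfl⟩ := hMle x hx
    obtain ⟨z, rfl⟩ := Ideal.mem_span_singleton.1 hy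
    obtain ⟨z1, z2, rfl⟩ := h.exists_coords z
    have h2 := h.int_ext (n * w * c1 + n * v * m + N * z1) (n * v + N * z2) 1 0 (by
      push_cast
      linear_combination hxy)
    obtain ⟨h3, h4⟩ := h2
    refine ⟨n * w, z1 - z2 * m, ?_⟩
    linear_combination h3 - m * h4
  obtain ⟨x, y, hxy⟩ := hcop
  -- now `N (y m) ≡ m mod c1`
  have hdvd : c1 ∣ 1 + N * (y * m) ^ 2 := by
    have h1 : c1 ∣ N * (1 + N * (y * m) ^ 2) := by
      obtain ⟨t, ht⟩ := hcm
      refine ⟨t + (-2 * x * m ^ 2 + c1 * x ^ 2 * m ^ 2), ?_⟩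
      have e1 : (N : ℤ) * y = 1 - x * c1 := by linarith
      calc (N : ℤ) * (1 + N * (y * m) ^ 2) = N + (N * y) ^ 2 * m ^ 2 := by ring
        _ = (m ^ 2 + N) + (-2 * x * m ^ 2 * c1 + c1 * c1 * x ^ 2 * m ^ 2) := by rw [e1]; ring
        _ = _ := by rw [ht]; ring
    exact (IsCoprime.dvd_of_dvd_mul_left (⟨x, y, hxy⟩ : IsCoprime c1 (N : ℤ)) h1)
  have habs : (c1.natAbs : ℤ) ≠ 0 := by omega
  have hspan : idl N s (y * m) (c1.natAbs : ℤ) = Ideal.span {(c1 : 𝓞 K), (m : 𝓞 K) + s} := by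
    have hA1 : (((c1.natAbs : ℤ) : 𝓞 K)) = c1 ∨ (((c1.natAbs : ℤ) : 𝓞 K)) = - c1 := by
      rcases Int.natAbs_eq c1 with hh | hh
      · left; exact_mod_cast congrArg (Int.cast : ℤ → 𝓞 K) hh.symm
      · right
        have : (c1.natAbs : ℤ) = -c1 := by omega
        exact_mod_cast congrArg (Int.cast : ℤ → 𝓞 K) this
    have e1 : (x : 𝓞 K) * c1 + y * N = 1 := by exact_mod_cast congrArg (Int.cast : ℤ → 𝓞 K) hxy
    apply le_antisymm
    · rw [idl, Ideal.span_le]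
      rintro z (rfl | rfl)
      · rcases hA1 with h1 | h1
        · rw [h1]; exact Ideal.subset_span (by simp)
        · rw [h1, SetLike.mem_coe, Ideal.neg_mem_iff]; exact Ideal.subset_span (by simp)
      · rw [SetLike.mem_coe, Ideal.mem_span_pair]
        exact ⟨-(x * m), 1, by push_cast; linear_combination -(m : 𝓞 K) * e1⟩
    · rw [idl, Ideal.span_le]
      rintro z (rfl | rfl)
      · rcases hA1 with h1 | h1
        · rw [← h1]; exact Ideal.subset_span (by simp)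
        · have : (c1 : 𝓞 K) = - (((c1.natAbs : ℤ) : 𝓞 K)) := by rw [h1, neg_neg]
          rw [SetLike.mem_coe, this, Ideal.neg_mem_iff]; exact Ideal.subset_span (by simp)
      · rw [SetLike.mem_coe, Ideal.mem_span_pair]
        rcases hA1 with h1 | h1
        · exact ⟨(x * m), 1, by rw [h1]; push_cast; linear_combination (m : 𝓞 K) * e1⟩
        · exact ⟨-(x * m), 1, by rw [h1]; push_cast; linear_combination (m : 𝓞 K) * e1⟩
  refine ⟨n, y * m, c1.natAbs, hn0, by omega, ?_, ?_⟩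
  · rw [Int.natAbs_dvd]; exact hdvd
  · rw [hspan]
    apply le_antisymm
    · intro z hz
      obtain ⟨w, v, rfl⟩ := hMle z hz
      refine Ideal.mul_mem_mul (Ideal.mem_span_singleton_self _) ?_
      exact Ideal.add_mem _ (Ideal.mul_mem_left _ _ (Ideal.subset_span (by simp)))
        (Ideal.mul_mem_left _ _ (Ideal.subset_span (by simp)))
    · rw [Ideal.span_singleton_mul_le_iff]
      intro z hz
      obtain ⟨u, v, rfl⟩ := Ideal.mem_span_pair.1 hz
      have h1 : ((n * c1 : ℤ) : 𝓞 K) ∈ M := (hB _).1 ((hB' _).2 dvd_rfl)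
      have h2 := M.add_mem (M.mul_mem_left u h1) (M.mul_mem_left v hm')
      convert h2 using 1
      push_cast; ring

/-- every class contains some `𝔞(a, c)` -/
theorem exists_idl (C : ClassGroup (𝓞 K)) :
    ∃ a c : ℤ, 0 < c ∧ c ∣ 1 + N * a ^ 2 ∧ icl (idl N s a c) = C := by
  obtain ⟨M, hM, hMC, hMN⟩ := exists_coprime C h.N_ne_zero
  obtain ⟨n, a, c, hn, hc, hdvd, rfl⟩ := h.exists_of_coprime hM hMN
  refine ⟨a, c, hc, hdvd, ?_⟩
  have hn' : (n : 𝓞 K) ≠ 0 := by exact_mod_cast hn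
  rw [← hMC, icl_mul _ (idl_ne_bot hc.ne'), icl_span hn', one_mul]
  rwa [Ne, Ideal.span_singleton_eq_bot]

end IsQF

end Fermat.Agent.LTF.QuadInt
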