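import Fermat.Agent.LTF.QuadInt

/-!
# The ideals `𝔞(a, c) = (c, N a + s)` of `ℤ[√-N]`
-/

namespace Fermat.Agent.LTF.QuadInt

open NumberField

variable {K : Type*} [Field K] [NumberField K]

set_option linter.unusedSectionVars false

/-- the ideal `(c, N a + s)` -/
def idl (N : ℕ) (s : 𝓞 K) (a c : ℤ) : Ideal (𝓞 K) := Ideal.span {(c : 𝓞 K), (N : 𝓞 K) * a + s}

variable {N : ℕ} {s : 𝓞 K}

lemma c_mem (a c : ℤ) : (c : 𝓞 K) ∈ idl N s a c := Ideal.subset_span (by simp)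

lemma w_mem (a c : ℤ) : (N : 𝓞 K) * a + s ∈ idl N s a c := Ideal.subset_span (by simp)

namespace IsQF

variable (h : IsQF N s)
include h

lemma sq' : s * s = -(N : 𝓞 K) := by rw [← pow_two]; exact h.sq

/-- the elements of the ideal -/
lemma mem_idl {a c : ℤ} (hc : c ∣ 1 + N * a ^ 2) {x : 𝓞 K} :
    x ∈ idl N s a c ↔ ∃ u v : ℤ, x = u * c + v * (N * a + s) := by
  obtain ⟨e, he⟩ := hc
  have he' : (1 : 𝓞 K) + N * a ^ 2 = c * e := by exact_mod_cast congrArg (Int.cast : ℤ → 𝓞 K) he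
  constructor
  · intro hx
    rw [idl, Ideal.mem_span_pair] at hx
    obtain ⟨y, z, rfl⟩ := hx
    obtain ⟨y1, y2, rfl⟩ := h.exists_coords y
    obtain ⟨z1, z2, rfl⟩ := h.exists_coords z
    refine ⟨y1 - y2 * N * a - z2 * N * e, y2 * c + z1 + z2 * N * a, ?_⟩
    push_cast
    linear_combination (z2 : 𝓞 K) * h.sq' - (z2 : 𝓞 K) * N * he'
  · rintro ⟨u, v, rfl⟩
    exact Ideal.add_mem _ (Ideal.mul_mem_left _ _ (c_mem a c)) (Ideal.mul_mem_left _ _ (w_mem a c))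

lemma int_mem_idl {a c : ℤ} (hc : c ∣ 1 + N * a ^ 2) {m : ℤ} :
    (m : 𝓞 K) ∈ idl N s a c ↔ c ∣ m := by
  rw [h.mem_idl hc]
  constructor
  · rintro ⟨u, v, huv⟩
    have h1 := h.int_ext m 0 (u * c + v * N * a) v (by push_cast; linear_combination huv)
    obtain ⟨h2, h3⟩ := h1
    subst h3
    exact ⟨u, by rw [h2]; ring⟩
  · rintro ⟨u, rfl⟩
    exact ⟨u, 0, by push_cast; ring⟩

lemma natCard_quot {a c : ℤ} (hc : c ∣ 1 + N * a ^ 2) :
    Nat.card (𝓞 K ⧸ idl N s a c) = c.natAbs := by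
  let φ : ℤ →+ (𝓞 K ⧸ idl N s a c) :=
    ((Ideal.Quotient.mk (idl N s a c)).comp (Int.castRingHom (𝓞 K))).toAddMonoidHom
  have hφ : ∀ m : ℤ, φ m = Ideal.Quotient.mk (idl N s a c) (m : 𝓞 K) := fun m => rfl
  have hsurj : Function.Surjective φ := by
    intro y
    obtain ⟨x, rfl⟩ := Ideal.Quotient.mk_surjective y
    obtain ⟨u, v, rfl⟩ := h.exists_coords x
    refine ⟨u - v * N * a, ?_⟩
    rw [hφ, Ideal.Quotient.eq]
    rw [h.mem_idl hc]
    exact ⟨0, -v, by push_cast; ring⟩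
  have hker : φ.ker = AddSubgroup.zmultiples (c.natAbs : ℤ) := by
    ext m
    rw [AddMonoidHom.mem_ker, hφ, Ideal.Quotient.eq_zero_iff_mem, h.int_mem_idl hc,
      Int.mem_zmultiples_iff, Int.natAbs_dvd]
  rw [← Nat.card_congr (QuotientAddGroup.quotientKerEquivOfSurjective φ hsurj).toEquiv, hker,
    Nat.card_congr (Int.quotientZMultiplesNatEquivZMod c.natAbs).toEquiv, Nat.card_zmod]

/-- the norm of the ideal -/
theorem absNorm_idl {a c : ℤ} (hc : c ∣ 1 + N * a ^ 2) :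
    Ideal.absNorm (idl N s a c) = c.natAbs := by
  rw [Ideal.absNorm_apply, Submodule.cardQuot_apply]
  exact h.natCard_quot hc

omit h in
lemma idl_ne_bot {a c : ℤ} (hc0 : c ≠ 0) : idl N s a c ≠ ⊥ := by
  intro h0
  have := c_mem (s := s) (N := N) a c
  rw [h0, Ideal.mem_bot] at this
  exact hc0 (by exact_mod_cast this)

omit h in
/-- an inclusion of ideals with the same norm is an equality -/
lemma eq_of_le_of_absNorm_eq {I J : Ideal (𝓞 K)} (hIJ : I ≤ J) (hI : I ≠ ⊥)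
    (hn : Ideal.absNorm I = Ideal.absNorm J) : I = J := by
  obtain ⟨M, hM⟩ := Ideal.dvd_iff_le.2 hIJ
  have h1 : Ideal.absNorm I = Ideal.absNorm J * Ideal.absNorm M := by rw [hM, map_mul]
  have h2 : Ideal.absNorm I ≠ 0 := by
    rw [Ne, Ideal.absNorm_eq_zero_iff]; exact hI
  have h3 : Ideal.absNorm M = 1 := by
    rw [← hn] at h1
    exact (mul_left_cancel₀ h2 (by rw [mul_one]; exact h1 :
      Ideal.absNorm I * 1 = Ideal.absNorm I * Ideal.absNorm M)).symm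
  rw [Ideal.absNorm_eq_one_iff] at h3
  rw [hM, h3, Ideal.mul_top]

lemma absNorm_int (m : ℤ) : Ideal.absNorm (Ideal.span {(m : 𝓞 K)}) = m.natAbs ^ 2 := by
  rw [Ideal.absNorm_span_singleton, ← h.deg, ← RingOfIntegers.rank K]
  have : (m : 𝓞 K) = algebraMap ℤ (𝓞 K) m := by simp
  rw [this, Algebra.norm_algebraMap, Int.natAbs_pow]

/-- `𝔞(a,c) 𝔞(-a,c) = (c)` -/
theorem idl_mul_conj {a c : ℤ} (hc0 : c ≠ 0) (hc : c ∣ 1 + N * a ^ 2) :
    idl N s a c * idl N s (-a) c = Ideal.span {(c : 𝓞 K)} := by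
  have hc' : c ∣ 1 + N * (-a) ^ 2 := by rw [neg_sq]; exact hc
  apply eq_of_le_of_absNorm_eq
  · rw [Ideal.mul_le]
    intro x hx y hy
    rw [h.mem_idl hc] at hx
    rw [h.mem_idl hc'] at hy
    obtain ⟨u, v, rfl⟩ := hx
    obtain ⟨u', v', rfl⟩ := hy
    obtain ⟨e, he⟩ := hc
    have he' : (1 : 𝓞 K) + N * a ^ 2 = c * e := by
      exact_mod_cast congrArg (Int.cast : ℤ → 𝓞 K) he
    rw [Ideal.mem_span_singleton]
    refine ⟨u * (u' * c + v' * (N * (-a) + s)) + v * (N * a + s) * u' - v * v' * N * e, ?_⟩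
    push_cast
    linear_combination (v : 𝓞 K) * v' * h.sq' - (v : 𝓞 K) * v' * N * he'
  · exact mul_ne_zero (idl_ne_bot hc0) (idl_ne_bot hc0)
  · rw [map_mul, h.absNorm_idl hc, h.absNorm_idl hc', h.absNorm_int, pow_two]

omit h in
/-- periodicity in `a` -/
lemma idl_add (a b c : ℤ) : idl N s (a + b * c) c = idl N s a c := by
  apply le_antisymm
  · rw [idl, Ideal.span_le]
    rintro x (rfl | rfl)
    · exact c_mem a _
    · have : ((N : 𝓞 K) * ((a + b * c : ℤ) : 𝓞 K) + s) = (N * b) * c + (N * a + s) := by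
        push_cast; ring
      rw [SetLike.mem_coe, this]
      exact Ideal.add_mem _ (Ideal.mul_mem_left _ _ (c_mem a c)) (w_mem a c)
  · rw [idl, Ideal.span_le]
    rintro x (rfl | rfl)
    · exact c_mem _ _
    · have : ((N : 𝓞 K) * a + s) = -(N * b) * c + (N * ((a + b * c : ℤ) : 𝓞 K) + s) := by
        push_cast; ring
      rw [SetLike.mem_coe, this]
      exact Ideal.add_mem _ (Ideal.mul_mem_left _ _ (c_mem _ c)) (w_mem _ c)

omit [Field K] [NumberField K] h in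
lemma coprime_N {a c : ℤ} (hc : c ∣ 1 + N * a ^ 2) : IsCoprime c (N : ℤ) := by
  obtain ⟨e, he⟩ := hc
  exact ⟨e, -a ^ 2, by linear_combination -he⟩

omit [Field K] [NumberField K] h in
lemma coprime_a {a c : ℤ} (hc : c ∣ 1 + N * a ^ 2) : IsCoprime c a := by
  obtain ⟨e, he⟩ := hc
  exact ⟨e, -N * a, by linear_combination -he⟩

end IsQF

end Fermat.Agent.LTF.QuadInt
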