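import Fermat.Agent.LTF.ArtE

/-!
# LTFREE: the rigidity statement with values `s ℓ ∈ {0, 1}`
-/

set_option autoImplicit false

noncomputable section

namespace Fermat.Agent.LTF.ArtC

open NumberField
open scoped nonZeroDivisors Pointwise

section Quad

variable {K : Type*} [Field K] [NumberField K]

/-- Two ideals of the same prime norm in a quadratic field have equal or inverse classes. -/
lemma class_eq_or_inv (h2 : Module.finrank ℚ K = 2) {q : ℕ} (hq : q.Prime)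
    {I I' : (Ideal (𝓞 K))⁰} (hI : Ideal.absNorm (I : Ideal (𝓞 K)) = q)
    (hI' : Ideal.absNorm (I' : Ideal (𝓞 K)) = q) :
    ClassGroup.mk0 I' = ClassGroup.mk0 I ∨ ClassGroup.mk0 I' = (ClassGroup.mk0 I)⁻¹ := by
  have hIp : (I : Ideal (𝓞 K)).IsPrime :=
    Ideal.isPrime_of_irreducible_absNorm (by rw [hI]; exact hq)
  have hIp' : (I' : Ideal (𝓞 K)).IsPrime :=
    Ideal.isPrime_of_irreducible_absNorm (by rw [hI']; exact hq)
  have hq0 : (q : 𝓞 K) ≠ 0 := by exact_mod_cast hq.ne_zero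
  have hle : Ideal.span {(q : 𝓞 K)} ≤ (I : Ideal (𝓞 K)) := by
    rw [Ideal.span_singleton_le_iff_mem, ← hI]
    exact Ideal.absNorm_mem _
  have hle' : Ideal.span {(q : 𝓞 K)} ≤ (I' : Ideal (𝓞 K)) := by
    rw [Ideal.span_singleton_le_iff_mem, ← hI']
    exact Ideal.absNorm_mem _
  obtain ⟨J, hJ⟩ := Ideal.dvd_iff_le.mpr hle
  have hN : Ideal.absNorm (Ideal.span {(q : 𝓞 K)}) = q ^ 2 := by
    rw [Ideal.absNorm_span_singleton]
    have h1 : Algebra.norm ℤ (q : 𝓞 K) = (q : ℤ) ^ 2 := by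
      have h3 := Algebra.norm_algebraMap_of_basis (RingOfIntegers.basis K) (q : ℤ)
      rw [← Module.finrank_eq_card_basis (RingOfIntegers.basis K), RingOfIntegers.rank, h2] at h3
      simpa using h3
    rw [h1, Int.natAbs_pow, Int.natAbs_natCast]
  have hJN : Ideal.absNorm J = q := by
    have h1 := congrArg Ideal.absNorm hJ
    rw [hN, map_mul, hI, sq] at h1
    exact (Nat.eq_of_mul_eq_mul_left hq.pos h1).symm
  have hJ0 : J ≠ ⊥ := by
    rintro rfl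
    rw [Ideal.absNorm_bot] at hJN
    exact hq.ne_zero hJN.symm
  have hJp : J.IsPrime := Ideal.isPrime_of_irreducible_absNorm (by rw [hJN]; exact hq)
  have hmax : ∀ P : Ideal (𝓞 K), P.IsPrime → P ≠ ⊥ → P.IsMaximal := fun P hP hP0 =>
    hP.isMaximal hP0
  have hI'0 : (I' : Ideal (𝓞 K)) ≠ ⊥ := nonZeroDivisors.coe_ne_zero I'
  have hI0 : (I : Ideal (𝓞 K)) ≠ ⊥ := nonZeroDivisors.coe_ne_zero I
  have hmul : (I : Ideal (𝓞 K)) * J ≤ (I' : Ideal (𝓞 K)) := by rw [← hJ]; exact hle'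
  rcases hIp'.mul_le.mp hmul with h | h
  · left
    have h1 := (hmax _ hIp hI0).eq_of_le hIp'.ne_top h
    congr 1
    exact Subtype.ext h1.symm
  · right
    have h1 := (hmax _ hJp hJ0).eq_of_le hIp'.ne_top h
    rw [eq_inv_iff_mul_eq_one, ← map_mul, ClassGroup.mk0_eq_one_iff]
    have h3 : ((I' * I : (Ideal (𝓞 K))⁰) : Ideal (𝓞 K)) = Ideal.span {(q : 𝓞 K)} := by
      rw [Submonoid.coe_mul, ← h1, mul_comm, ← hJ]
    rw [h3]
    exact ⟨⟨(q : 𝓞 K), rfl⟩⟩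

variable (ψ : ClassGroup (𝓞 K) →* Multiplicative (ZMod 3))

open Classical in
/-- The value `0` or `1` of the trace of Frobenius attached to the cubic character `ψ`. -/
def sOf (ℓ : ℕ) : ZMod 2 :=
  if ∃ I : (Ideal (𝓞 K))⁰, Ideal.absNorm (I : Ideal (𝓞 K)) = ℓ ∧ ψ (ClassGroup.mk0 I) ≠ 1 then 1
  else 0

lemma sOf_of_none {ℓ : ℕ} (h : ¬ ∃ I : Ideal (𝓞 K), Ideal.absNorm I = ℓ) :
    sOf ψ ℓ = 0 := by
  classical
  rw [sOf, if_neg]
  rintro ⟨I, hI, -⟩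
  exact h ⟨I, hI⟩

open Classical in
lemma sOf_of_absNorm (h2 : Module.finrank ℚ K = 2) {ℓ : ℕ} (hℓ : ℓ.Prime) {I : (Ideal (𝓞 K))⁰}
    (hI : Ideal.absNorm (I : Ideal (𝓞 K)) = ℓ) :
    sOf ψ ℓ = if ψ (ClassGroup.mk0 I) = 1 then 0 else 1 := by
  by_cases h : ψ (ClassGroup.mk0 I) = 1
  · rw [if_pos h, sOf, if_neg]
    rintro ⟨I', hI', h'⟩
    rcases class_eq_or_inv h2 hℓ hI hI' with h3 | h3
    · exact h' (by rw [h3, h])
    · exact h' (by rw [h3, map_inv, h, inv_one])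
  · rw [if_neg h, sOf, if_pos ⟨I, hI, h⟩]

end Quad

/-- **Rigidity** for the residual data of a good curve, with values `sOf ψ ℓ`. -/
theorem exists_rigid_resData {rbar : GQ →* M2 (ZMod 2)} {N : ℕ} (h : ResData rbar N) {s : Qb}
    (hs : s ^ 2 = -(N : Qb)) :
    ∃ ψ : ClassGroup (𝓞 (KK s)) →* Multiplicative (ZMod 3), ψ ≠ 1 ∧
    (∀ (q : ℕ), q.Prime → ∀ A : ValuationSubring Qb, A.LiesOverPrime q →
        ∀ φ : GQ, A.IsFrobeniusAt φ q → rbar φ = 1 →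
          ∀ I : (Ideal (𝓞 (KK s)))⁰, (I : Ideal (𝓞 (KK s))) = below (KK s) A →
            ψ (ClassGroup.mk0 I) = 1) ∧
    ∀ (k : Type) [Field k] [CharP k 2] (r : GQ →* M2 k),
      (∃ L : IntermediateField ℚ Qb, FiniteDimensional ℚ L ∧
        ∀ σ : GQ, (∀ x ∈ L, σ x = x) → r σ = 1) →
      (∀ σ, (r σ).det = 1) → ∀ T : Finset ℕ,
      (∀ q : ℕ, q.Prime → q ∉ T → ∀ A : ValuationSubring Qb, A.LiesOverPrime q →
        ∀ φ : GQ, A.IsFrobeniusAt φ q →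
          (r φ).trace = ZMod.castHom (dvd_refl 2) k (sOf ψ q)) →
      ∀ σ, ((rbar σ).trace = 0 → (r σ).trace = 0) ∧ ((rbar σ).trace = 1 → (r σ).trace = 1) := by
  classical
  obtain ⟨ψ, hψ, hψ2, h3⟩ := exists_psi_resData h hs
  refine ⟨ψ, hψ, hψ2, fun k _ _ r hr hdet T htr => ?_⟩
  refine h3 k r hr hdet T (fun q => ZMod.castHom (dvd_refl 2) k (sOf ψ q)) htr ?_ ?_
  · intro q hq _ hq2
    rw [sOf_of_none ψ hq2, map_zero]
  · intro q hq _ I hI
    rw [sOf_of_absNorm ψ (isQF h hs).deg hq hI]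
    split_ifs <;> simp

end Fermat.Agent.LTF.ArtC

end
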