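import Mathlib.RingTheory.Nakayama
import Mathlib.RingTheory.Artinian.Module
import Mathlib.GroupTheory.Index
import Mathlib.Tactic

/-!
# The algebraic part of Smith theory: localisation of the 2-divisible group at a maximal ideal
-/

set_option autoImplicit false

open Module

namespace Fermat.Agent.LTF.Smith

variable {R J : Type*} [CommRing R] [AddCommGroup J] [Module R J]

/-- The `m`-primary part of the 2-power torsion. -/
def mPart (R : Type*) [CommRing R] (J : Type*) [AddCommGroup J] [Module R J] (m : Ideal R) :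
    Submodule R J where
  carrier := {x | (∃ k : ℕ, (2 : R) ^ k • x = 0) ∧ ∃ j : ℕ, ∀ r ∈ m ^ j, r • x = 0}
  zero_mem' := ⟨⟨0, smul_zero _⟩, ⟨0, fun r _ => smul_zero r⟩⟩
  add_mem' := by
    rintro x y ⟨⟨k, hk⟩, ⟨j, hj⟩⟩ ⟨⟨k', hk'⟩, ⟨j', hj'⟩⟩
    refine ⟨⟨k + k', ?_⟩, ⟨max j j', fun r hr => ?_⟩⟩
    · rw [smul_add, pow_add]
      nth_rw 2 [mul_smul]
      rw [hk', smul_zero, add_zero, mul_comm, mul_smul, hk, smul_zero]
    · rw [smul_add, hj r (Ideal.pow_le_pow_right (le_max_left _ _) hr),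
        hj' r (Ideal.pow_le_pow_right (le_max_right _ _) hr), add_zero]
  smul_mem' := by
    rintro c x ⟨⟨k, hk⟩, ⟨j, hj⟩⟩
    refine ⟨⟨k, ?_⟩, ⟨j, fun r hr => ?_⟩⟩
    · rw [smul_comm, hk, smul_zero]
    · rw [smul_comm, hj r hr, smul_zero]

theorem mem_mPart {m : Ideal R} {x : J} : x ∈ mPart R J m ↔
    (∃ k : ℕ, (2 : R) ^ k • x = 0) ∧ ∃ j : ℕ, ∀ r ∈ m ^ j, r • x = 0 := Iff.rfl

/-- Elements outside the maximal ideal are invertible on modules killed by a power of it. -/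
theorem exists_inv_mod {m : Ideal R} [hm : m.IsMaximal] {t : R} (ht : t ∉ m) (j : ℕ) :
    ∃ u : R, 1 - u * t ∈ m ^ j := by
  have h1 : IsCoprime (Ideal.span {t}) m := by
    rw [Ideal.isCoprime_iff_sup_eq, sup_comm]
    by_contra h
    refine ht ?_
    rw [hm.eq_of_le h le_sup_left]
    exact Ideal.mem_sup_right (Ideal.mem_span_singleton_self t)
  have h2 : IsCoprime (Ideal.span {t}) (m ^ j) := IsCoprime.pow_right h1
  rw [Ideal.isCoprime_iff_exists] at h2
  obtain ⟨a, ha, b, hb, hab⟩ := h2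
  obtain ⟨u, rfl⟩ := Ideal.mem_span_singleton'.mp ha
  refine ⟨u, ?_⟩
  rw [← hab, add_sub_cancel_left]
  exact hb

section linear

variable {m : Ideal R} [hm : m.IsMaximal]

theorem smul_inj_of_notMem {t : R} (ht : t ∉ m) {x : J} {j : ℕ} (hj : ∀ r ∈ m ^ j, r • x = 0)
    (h0 : t • x = 0) : x = 0 := by
  obtain ⟨u, hu⟩ := exists_inv_mod ht j
  have h1 := hj _ hu
  rwa [sub_smul, one_smul, mul_smul, h0, smul_zero, sub_zero] at h1

theorem exists_smul_of_notMem {t : R} (ht : t ∉ m) {x : J} {j : ℕ} (hj : ∀ r ∈ m ^ j, r • x = 0) :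
    ∃ u : R, x = t • u • x := by
  obtain ⟨u, hu⟩ := exists_inv_mod ht j
  refine ⟨u, ?_⟩
  have h1 := hj _ hu
  rw [sub_smul, one_smul, sub_eq_zero] at h1
  rw [← mul_smul, mul_comm, ← h1]

/-- The approximate idempotent of a finite module. -/
theorem exists_approx (M : Submodule R J) (hM : (M : Set J).Finite) (m : Ideal R) (j : ℕ) :
    ∃ e : R, 1 - e ∈ m ^ j ∧ ∃ i : ℕ, ∀ x ∈ M, ∀ r ∈ m ^ i, r • e • x = 0 := by
  have : Finite M := hM
  have hart : IsArtinian R M := inferInstance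
  obtain ⟨n, hn⟩ := IsArtinian.monotone_stabilizes (R := R) (M := M)
    ⟨fun i => OrderDual.toDual ((m ^ i) • (⊤ : Submodule R M)), fun a b hab =>
      Submodule.smul_mono_left (Ideal.pow_le_pow_right hab)⟩
  have hn' : ∀ i, n ≤ i → (m ^ n) • (⊤ : Submodule R M) = (m ^ i) • (⊤ : Submodule R M) := hn
  have hfg : ((m ^ n) • (⊤ : Submodule R M)).FG := by
    have : Finite ↥((m ^ n) • (⊤ : Submodule R M)) := inferInstance
    exact Module.Finite.iff_fg.mp inferInstance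
  have hle : (m ^ n) • (⊤ : Submodule R M) ≤ (m ^ j) • ((m ^ n) • (⊤ : Submodule R M)) := by
    rw [← Submodule.mul_smul, ← pow_add, add_comm, ← hn' (n + j) (by omega)]
  obtain ⟨e, he, h0⟩ := Submodule.exists_sub_one_mem_and_smul_eq_zero_of_fg_of_le_smul _ _ hfg hle
  refine ⟨e, ?_, n, fun x hx r hr => ?_⟩
  · rw [← neg_sub]
    exact neg_mem he
  · have h1 := h0 (r • (⟨x, hx⟩ : M)) (Submodule.smul_mem_smul hr trivial)
    have h2 := congrArg Subtype.val h1
    rw [smul_comm]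
    exact h2

/-- The `2^n`-torsion. -/
def tors (R : Type*) [CommRing R] (J : Type*) [AddCommGroup J] [Module R J] (n : ℕ) :
    Submodule R J := LinearMap.ker (LinearMap.lsmul R J ((2 : R) ^ n))

omit hm in
theorem mem_tors {n : ℕ} {x : J} : x ∈ tors R J n ↔ (2 : R) ^ n • x = 0 := Iff.rfl

omit hm in
theorem tors_finite (hfin : (tors R J 1 : Set J).Finite) (n : ℕ) : (tors R J n : Set J).Finite := by
  induction n with
  | zero =>
    refine (Set.finite_singleton (0 : J)).subset ?_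
    intro x hx
    have : (2 : R) ^ 0 • x = 0 := hx
    simpa using this
  | succ n ih =>
    refine Set.Finite.of_finite_fibers (fun x => (2 : R) • x) (ih.subset ?_) ?_
    · rintro _ ⟨x, hx, rfl⟩
      change (2 : R) ^ n • (2 : R) • x = 0
      rw [← mul_smul, ← pow_succ]
      exact hx
    · rintro y ⟨x₀, hx₀, rfl⟩
      refine ((hfin.image (fun z => z + x₀))).subset ?_
      rintro x ⟨hx, hxy⟩
      refine ⟨x - x₀, ?_, by simp⟩
      change (2 : R) ^ 1 • (x - x₀) = 0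
      have : (2 : R) • x = (2 : R) • x₀ := hxy
      rw [pow_one, smul_sub, this, sub_self]

omit hm in
theorem exists_smul_pow (hdiv : ∀ x : J, ∃ y : J, (2 : R) • y = x) (n : ℕ) (x : J) :
    ∃ y : J, (2 : R) ^ n • y = x := by
  induction n with
  | zero => exact ⟨x, by simp⟩
  | succ n ih =>
    obtain ⟨y, hy⟩ := ih
    obtain ⟨z, hz⟩ := hdiv y
    exact ⟨z, by rw [pow_succ, mul_smul, hz, hy]⟩

omit hm in
/-- Projection of torsion elements to the `m`-part. -/
theorem exists_proj (hfin : (tors R J 1 : Set J).Finite) (m : Ideal R) (j n : ℕ) :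
    ∃ e : R, 1 - e ∈ m ^ j ∧ ∀ x : J, (2 : R) ^ n • x = 0 → e • x ∈ mPart R J m := by
  obtain ⟨e, he, i, hi⟩ := exists_approx (tors R J n) (tors_finite hfin n) m j
  refine ⟨e, he, fun x hx => ⟨⟨n, ?_⟩, ⟨i, fun r hr => hi x hx r hr⟩⟩⟩
  rw [smul_comm, hx, smul_zero]

omit hm in
theorem smul_eq_self {m : Ideal R} {j : ℕ} {e : R} (he : 1 - e ∈ m ^ j) {x : J}
    (hx : ∀ r ∈ m ^ j, r • x = 0) : e • x = x := by
  have := hx _ he
  rw [sub_smul, one_smul, sub_eq_zero] at this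
  exact this.symm

omit hm in
/-- The `m`-part is divisible. -/
theorem mPart_divisible (hdiv : ∀ x : J, ∃ y : J, (2 : R) • y = x)
    (hfin : (tors R J 1 : Set J).Finite) (m : Ideal R) {x : J} (hx : x ∈ mPart R J m) :
    ∃ y ∈ mPart R J m, (2 : R) • y = x := by
  obtain ⟨⟨k, hk⟩, ⟨j, hj⟩⟩ := hx
  obtain ⟨y, hy⟩ := hdiv x
  obtain ⟨e, he, h⟩ := exists_proj hfin m j (k + 1)
  refine ⟨e • y, h y ?_, ?_⟩
  · rw [pow_succ, mul_smul, hy, hk]
  · rw [smul_comm, hy, smul_eq_self he hj]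

end linear

section involution

variable {m : Ideal R} (s : J →ₗ[R] J)

/-- `(1 + s) A` -/
def plusPart (m : Ideal R) : Submodule R J := (mPart R J m).map (LinearMap.id + s)

/-- `(1 - s) A` -/
def minusPart (m : Ideal R) : Submodule R J := (mPart R J m).map (LinearMap.id - s)

/-- `A^s` -/
def fixPart (m : Ideal R) : Submodule R J := mPart R J m ⊓ LinearMap.ker (LinearMap.id - s)

theorem mem_plusPart {x : J} : x ∈ plusPart s m ↔ ∃ y ∈ mPart R J m, y + s y = x := Iff.rfl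

theorem mem_minusPart {x : J} : x ∈ minusPart s m ↔ ∃ y ∈ mPart R J m, y - s y = x := Iff.rfl

theorem mem_fixPart {x : J} : x ∈ fixPart s m ↔ x ∈ mPart R J m ∧ s x = x := by
  refine and_congr_right fun _ => ?_
  change x - s x = 0 ↔ _
  rw [sub_eq_zero, eq_comm]

theorem map_mem_mPart {x : J} (hx : x ∈ mPart R J m) : s x ∈ mPart R J m := by
  obtain ⟨⟨k, hk⟩, ⟨j, hj⟩⟩ := hx
  refine ⟨⟨k, ?_⟩, ⟨j, fun r hr => ?_⟩⟩
  · rw [← map_smul, hk, map_zero]
  · rw [← map_smul, hj r hr, map_zero]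

variable {s} (hs : ∀ x, s (s x) = x)

include hs

theorem plusPart_le_fixPart : plusPart s m ≤ fixPart s m := by
  rintro _ ⟨y, hy, rfl⟩
  rw [mem_fixPart]
  refine ⟨add_mem hy (map_mem_mPart s hy), ?_⟩
  change s (y + s y) = y + s y
  rw [map_add, hs, add_comm]

theorem apply_minusPart {x : J} (hx : x ∈ minusPart s m) : x ∈ mPart R J m ∧ s x = -x := by
  obtain ⟨y, hy, rfl⟩ := hx
  refine ⟨sub_mem hy (map_mem_mPart s hy), ?_⟩
  change s (y - s y) = -(y - s y)
  rw [map_sub, hs, neg_sub]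

/-- The correction trick: solutions of `t x = y - s y` can be taken in `A`. -/
theorem exists_minus [hm : m.IsMaximal] (hdiv : ∀ x : J, ∃ y : J, (2 : R) • y = x)
    (hfin : (tors R J 1 : Set J).Finite) {t : R} (ht : t ∉ m)
    (h : ∀ x : J, s x = -x → ∃ y : J, t • x = y - s y) {x : J} (hx : x ∈ mPart R J m)
    (hsx : s x = -x) : x ∈ minusPart s m := by
  obtain ⟨y, hy⟩ := h x hsx
  obtain ⟨⟨k, hk⟩, ⟨j, hj⟩⟩ := hx
  have h1 : s ((2 : R) ^ k • y) = (2 : R) ^ k • y := by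
    have h2 : (2 : R) ^ k • (t • x) = (2 : R) ^ k • (y - s y) := by rw [hy]
    rw [smul_comm, hk, smul_zero, smul_sub, eq_comm, sub_eq_zero, ← map_smul] at h2
    exact h2.symm
  obtain ⟨v, hv⟩ := exists_smul_pow hdiv (k + 1) ((2 : R) ^ k • y)
  set u : J := v + s v with hu
  have hsu : s u = u := by rw [hu, map_add, hs, add_comm]
  have h3 : (2 : R) ^ (k + 1) • (y - u) = 0 := by
    rw [hu, smul_sub, smul_add, ← map_smul, hv, h1, pow_succ, mul_comm, mul_smul, two_smul,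
      sub_self]
  obtain ⟨e, he, h4⟩ := exists_proj hfin m j (k + 1)
  obtain ⟨a, ha⟩ := exists_inv_mod ht j
  refine ⟨a • e • (y - u), Submodule.smul_mem _ _ (h4 _ h3), ?_⟩
  change a • e • (y - u) - s (a • e • (y - u)) = x
  rw [map_smul, map_smul, ← smul_sub, ← smul_sub, map_sub, hsu,
    show y - u - (s y - u) = y - s y by abel, ← hy, smul_comm e t x, smul_eq_self he hj,
    ← mul_smul, smul_eq_self ha hj]

/-- The same for the plus part. -/
theorem exists_plus [hm : m.IsMaximal] (hdiv : ∀ x : J, ∃ y : J, (2 : R) • y = x)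
    (hfin : (tors R J 1 : Set J).Finite) {t : R} (ht : t ∉ m)
    (h : ∀ x : J, s x = x → ∃ y : J, t • x = y + s y) {x : J} (hx : x ∈ mPart R J m)
    (hsx : s x = x) : x ∈ plusPart s m := by
  obtain ⟨y, hy⟩ := h x hsx
  obtain ⟨⟨k, hk⟩, ⟨j, hj⟩⟩ := hx
  have h1 : s ((2 : R) ^ k • y) = -((2 : R) ^ k • y) := by
    have h2 : (2 : R) ^ k • (t • x) = (2 : R) ^ k • (y + s y) := by rw [hy]
    rw [smul_comm, hk, smul_zero, smul_add, ← map_smul] at h2
    exact eq_neg_of_add_eq_zero_right h2.symm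
  obtain ⟨v, hv⟩ := exists_smul_pow hdiv (k + 1) ((2 : R) ^ k • y)
  set u : J := v - s v with hu
  have hsu : s u = -u := by rw [hu, map_sub, hs, neg_sub]
  have h3 : (2 : R) ^ (k + 1) • (y - u) = 0 := by
    rw [hu, smul_sub, smul_sub, ← map_smul, hv, h1, pow_succ, mul_comm, mul_smul, two_smul,
      sub_neg_eq_add, sub_self]
  obtain ⟨e, he, h4⟩ := exists_proj hfin m j (k + 1)
  obtain ⟨a, ha⟩ := exists_inv_mod ht j
  refine ⟨a • e • (y - u), Submodule.smul_mem _ _ (h4 _ h3), ?_⟩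
  change a • e • (y - u) + s (a • e • (y - u)) = x
  rw [map_smul, map_smul, ← smul_add, ← smul_add, map_sub, hsu,
    show y - u + (s y - -u) = y + s y by abel, ← hy, smul_comm e t x, smul_eq_self he hj,
    ← mul_smul, smul_eq_self ha hj]

/-- **(a)** -/
theorem minus_inf_tors [hm : m.IsMaximal] (hdiv : ∀ x : J, ∃ y : J, (2 : R) • y = x)
    (hfin : (tors R J 1 : Set J).Finite) {t : R} (ht : t ∉ m)
    (h : ∀ x : J, s x = -x → ∃ y : J, t • x = y - s y) :
    minusPart s m ⊓ tors R J 1 = fixPart s m ⊓ tors R J 1 := by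
  ext x
  have hneg : ∀ {x : J}, x ∈ tors R J 1 → -x = x := by
    intro x hx
    rw [mem_tors, pow_one, two_smul] at hx
    exact (eq_neg_of_add_eq_zero_left hx).symm
  simp only [Submodule.mem_inf, mem_fixPart]
  constructor
  · rintro ⟨h1, h2⟩
    obtain ⟨h3, h4⟩ := apply_minusPart hs h1
    exact ⟨⟨h3, by rw [h4, hneg h2]⟩, h2⟩
  · rintro ⟨⟨h1, h2⟩, h3⟩
    exact ⟨exists_minus hs hdiv hfin ht h h1 (by rw [h2, hneg h3]), h3⟩

/-- **(b)** -/
theorem plus_eq_fix [hm : m.IsMaximal] (hdiv : ∀ x : J, ∃ y : J, (2 : R) • y = x)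
    (hfin : (tors R J 1 : Set J).Finite) {t : R} (ht : t ∉ m)
    (h : ∀ x : J, s x = x → ∃ y : J, t • x = y + s y) :
    plusPart s m = fixPart s m := by
  refine le_antisymm (plusPart_le_fixPart hs) fun x hx => ?_
  rw [mem_fixPart] at hx
  exact exists_plus hs hdiv hfin ht h hx.1 hx.2

/-- **(d)** -/
theorem exists_rep (hdiv : ∀ x : J, ∃ y : J, (2 : R) • y = x)
    (hfin : (tors R J 1 : Set J).Finite) {x : J} (hsx : s x = x) {j : ℕ}
    (hj : ∀ r ∈ m ^ j, ∃ y, r • x = y + s y) :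
    ∃ x' ∈ fixPart s m ⊓ tors R J 1, ∃ y, x - x' = y + s y := by
  obtain ⟨v, hv⟩ := hdiv x
  set u : J := v + s v with hu
  have hsu : s u = u := by rw [hu, map_add, hs, add_comm]
  have h3 : (2 : R) ^ 1 • (x - u) = 0 := by
    rw [hu, pow_one, smul_sub, smul_add, ← map_smul, hv, hsx, two_smul, sub_self]
  obtain ⟨e, he, h4⟩ := exists_proj hfin m j 1
  refine ⟨e • (x - u), ⟨?_, ?_⟩, ?_⟩
  · rw [SetLike.mem_coe, mem_fixPart]
    exact ⟨h4 _ h3, by rw [map_smul, map_sub, hsx, hsu]⟩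
  · rw [SetLike.mem_coe, mem_tors, smul_comm, h3, smul_zero]
  · obtain ⟨y, hy⟩ := hj _ he
    refine ⟨y + e • v, ?_⟩
    rw [sub_smul, one_smul] at hy
    rw [smul_sub, map_add, map_smul, hu, smul_add]
    linear_combination (norm := module) hy

/-- **The algebraic Smith inequality.** -/
theorem smith_card_le [hm : m.IsMaximal] (hdiv : ∀ x : J, ∃ y : J, (2 : R) • y = x)
    (hfin : (tors R J 1 : Set J).Finite) {t : R} (ht : t ∉ m)
    (h : ∀ x : J, s x = -x → ∃ y : J, t • x = y - s y)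
    {V : Type*} [AddCommGroup V] [Module R V] {j : ℕ} (hV : ∀ r ∈ m ^ j, ∀ v : V, r • v = 0)
    (φ : V → J) (hφs : ∀ v, s (φ v) = φ v)
    (hφa : ∀ v v', ∃ y, φ (v - v') - (φ v - φ v') = y + s y)
    (hφr : ∀ (r : R) v, ∃ y, φ (r • v) - r • φ v = y + s y)
    {t' : R} (ht' : t' ∉ m) (hφt : ∀ v, (∃ y, φ v = y + s y) → t' • v = 0) :
    Nat.card V * Nat.card (plusPart s m ⊓ tors R J 1 : Submodule R J) ≤
      Nat.card (minusPart s m ⊓ tors R J 1 : Submodule R J) := by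
  rw [minus_inf_tors hs hdiv hfin ht h]
  have h0 : ∃ y, φ 0 = y + s y := by
    obtain ⟨y, hy⟩ := hφa 0 0
    refine ⟨y, ?_⟩
    rw [← hy]
    simp
  have key : ∀ v, ∃ x' ∈ fixPart s m ⊓ tors R J 1, ∃ y, φ v - x' = y + s y := by
    intro v
    refine exists_rep hs hdiv hfin (hφs v) (j := j) fun r hr => ?_
    obtain ⟨y, hy⟩ := hφr r v
    obtain ⟨y', hy'⟩ := h0
    rw [hV r hr v, hy'] at hy
    refine ⟨y' - y, ?_⟩
    rw [map_sub]
    linear_combination (norm := module) -hy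
  choose ψ hψ hψ' using key
  have hfin' : Finite ↥(fixPart s m ⊓ tors R J 1) := by
    refine Set.Finite.subset hfin fun x hx => ?_
    exact hx.2
  rw [← Nat.card_prod]
  refine Nat.card_le_card_of_injective
    (fun p : V × ↥(plusPart s m ⊓ tors R J 1) => (⟨ψ p.1 + p.2.1, add_mem (hψ p.1)
      ⟨plusPart_le_fixPart hs p.2.2.1, p.2.2.2⟩⟩ : ↥(fixPart s m ⊓ tors R J 1))) ?_
  rintro ⟨v, z⟩ ⟨v', z'⟩ hvz
  have h1 : ψ v + z.1 = ψ v' + z'.1 := congrArg Subtype.val hvz
  have h2 : v = v' := by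
    obtain ⟨y, hy⟩ := hψ' v
    obtain ⟨y', hy'⟩ := hψ' v'
    obtain ⟨y₁, hy₁⟩ := hφa v v'
    obtain ⟨a, -, ha⟩ := z.2.1
    obtain ⟨a', -, ha'⟩ := z'.2.1
    have ha1 : a + s a = z.1 := ha
    have ha1' : a' + s a' = z'.1 := ha'
    have h3 : t' • (v - v') = 0 := by
      apply hφt
      refine ⟨y - y' + y₁ + (a' - a), ?_⟩
      rw [map_add, map_add, map_sub, map_sub]
      linear_combination (norm := module) hy₁ + hy - hy' + h1 + ha1 - ha1'
    have h4 := smul_inj_of_notMem ht' (fun r hr => hV r hr _) h3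
    exact sub_eq_zero.mp h4
  subst h2
  have h5 : z = z' := Subtype.ext (add_left_cancel h1)
  rw [h5]

/-- **The case without fixed points.** -/
theorem smith_card_eq [hm : m.IsMaximal] (hdiv : ∀ x : J, ∃ y : J, (2 : R) • y = x)
    (hfin : (tors R J 1 : Set J).Finite) {t : R} (ht : t ∉ m)
    (h : ∀ x : J, s x = -x → ∃ y : J, t • x = y - s y)
    (h' : ∀ x : J, s x = x → ∃ y : J, t • x = y + s y) :
    Nat.card (plusPart s m ⊓ tors R J 1 : Submodule R J) =
      Nat.card (minusPart s m ⊓ tors R J 1 : Submodule R J) := by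
  rw [minus_inf_tors hs hdiv hfin ht h, plus_eq_fix hs hdiv hfin ht h']

omit hs in
theorem plusPart_divisible (hdiv : ∀ x : J, ∃ y : J, (2 : R) • y = x)
    (hfin : (tors R J 1 : Set J).Finite) {x : J} (hx : x ∈ plusPart s m) :
    ∃ y ∈ plusPart s m, (2 : R) • y = x := by
  obtain ⟨z, hz, rfl⟩ := hx
  obtain ⟨y, hy, rfl⟩ := mPart_divisible hdiv hfin m hz
  exact ⟨_, ⟨y, hy, rfl⟩, (map_smul _ _ _).symm⟩

omit hs in
theorem minusPart_divisible (hdiv : ∀ x : J, ∃ y : J, (2 : R) • y = x)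
    (hfin : (tors R J 1 : Set J).Finite) {x : J} (hx : x ∈ minusPart s m) :
    ∃ y ∈ minusPart s m, (2 : R) • y = x := by
  obtain ⟨z, hz, rfl⟩ := hx
  obtain ⟨y, hy, rfl⟩ := mPart_divisible hdiv hfin m hz
  exact ⟨_, ⟨y, hy, rfl⟩, (map_smul _ _ _).symm⟩

omit hs in
theorem mPart_eq_sup (hdiv : ∀ x : J, ∃ y : J, (2 : R) • y = x)
    (hfin : (tors R J 1 : Set J).Finite) {x : J} (hx : x ∈ mPart R J m) :
    ∃ y ∈ plusPart s m, ∃ z ∈ minusPart s m, x = y + z := by
  obtain ⟨u, hu, rfl⟩ := mPart_divisible hdiv hfin m hx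
  refine ⟨_, ⟨u, hu, rfl⟩, _, ⟨u, hu, rfl⟩, ?_⟩
  change (2 : R) • u = (u + s u) + (u - s u)
  rw [two_smul]
  abel

end involution

/-- The cardinality of the torsion of a divisible submodule. -/
theorem card_tors_pow (hfin : (tors R J 1 : Set J).Finite) (B : Submodule R J)
    (hB : ∀ x ∈ B, ∃ y ∈ B, (2 : R) • y = x) (n : ℕ) :
    Nat.card (B ⊓ tors R J n : Submodule R J) =
      Nat.card (B ⊓ tors R J 1 : Submodule R J) ^ n := by
  induction n with
  | zero =>
    rw [pow_zero, Nat.card_eq_one_iff_unique]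
    refine ⟨⟨fun x y => ?_⟩, ⟨0⟩⟩
    have h : ∀ z : ↥(B ⊓ tors R J 0), z.1 = 0 := by
      intro z
      have : (2 : R) ^ 0 • z.1 = 0 := z.2.2
      simpa using this
    exact Subtype.ext ((h x).trans (h y).symm)
  | succ n ih =>
    let f : ↥(B ⊓ tors R J (n + 1)) →ₗ[R] ↥(B ⊓ tors R J n) :=
      ((LinearMap.lsmul R J 2).comp (Submodule.subtype _)).codRestrict _ (by
        rintro ⟨x, hx1, hx2⟩
        refine ⟨B.smul_mem _ hx1, ?_⟩
        change (2 : R) ^ n • (2 : R) • x = 0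
        rw [← mul_smul, ← pow_succ]
        exact hx2)
    have hf : Function.Surjective f := by
      rintro ⟨x, hx1, hx2⟩
      obtain ⟨y, hy, hyx⟩ := hB x hx1
      refine ⟨⟨y, hy, ?_⟩, Subtype.ext hyx⟩
      change (2 : R) ^ (n + 1) • y = 0
      rw [pow_succ, mul_smul, hyx]
      exact hx2
    have hker : Nat.card (LinearMap.ker f) = Nat.card (B ⊓ tors R J 1 : Submodule R J) := by
      refine Nat.card_congr
        { toFun := fun x => ⟨x.1.1, x.1.2.1, ?_⟩
          invFun := fun x => ⟨⟨x.1, x.2.1, ?_⟩, ?_⟩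
          left_inv := fun x => rfl
          right_inv := fun x => rfl }
      · have h1 : (f x.1).1 = 0 := by rw [LinearMap.mem_ker.mp x.2]; rfl
        change (2 : R) ^ 1 • x.1.1 = 0
        rw [pow_one]
        exact h1
      · have h1 : (2 : R) ^ 1 • x.1 = 0 := x.2.2
        change (2 : R) ^ (n + 1) • x.1 = 0
        rw [pow_one] at h1
        rw [pow_succ, mul_smul, h1, smul_zero]
      · have h1 : (2 : R) ^ 1 • x.1 = 0 := x.2.2
        rw [pow_one] at h1
        rw [LinearMap.mem_ker]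
        exact Subtype.ext h1
    have hcard := Submodule.card_eq_card_quotient_mul_card (LinearMap.ker f)
    rw [hcard, Nat.card_congr (f.quotKerEquivOfSurjective hf).toEquiv, ih, hker, pow_succ, mul_comm]

end Fermat.Agent.LTF.Smith
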