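import Fermat.Agent.LTF.SmithPic
import Fermat.Agent.LTF.SmithAlg

/-!
# Smith theory for an involution of a function field and a maximal ideal of a Hecke ring
-/

set_option autoImplicit false

open AlgebraicCurve WithZero

namespace Fermat.Agent.LTF.Smith

open Fermat.Agent.RR Fermat.Agent.FF Fermat.Agent.RedInj

section

variable {K F : Type*} [Field K] [Field F] [Algebra K F] [IsAlgClosed K] [IsFF K F]
  {w : F ≃ₐ[K] F}

local notation "𝔰" => SemilinearAut.ofAlgAut (K := K) (F := F) w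

variable {R : Type*} [CommRing R] [Module R (Pic0 K F)] {m : Ideal R}
  {s : Pic0 K F →ₗ[R] Pic0 K F}

/-- **Smith theory without fixed points**: the `±`-parts of the `m`-part of the 2-divisible group
have the same corank. -/
theorem smith_eq (h2 : (2 : K) ≠ 0) (hw : ∀ f, w (w f) = f) (hw1 : w ≠ AlgEquiv.refl)
    (hs : ∀ x, s x = 𝔰 • x) [m.IsMaximal]
    (hdiv : ∀ x : Pic0 K F, ∃ y : Pic0 K F, (2 : R) • y = x)
    (hfin : (tors R (Pic0 K F) 1 : Set (Pic0 K F)).Finite)
    {t : R} (ht : t ∉ m) (𝒯 : EvenCorr w) (htT : ∀ x, t • x = 𝒯.pic x)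
    (hfix : ∀ v : Place K F, 𝔰 • v ≠ v) :
    Nat.card (plusPart s m ⊓ tors R (Pic0 K F) 1 : Submodule R (Pic0 K F)) =
      Nat.card (minusPart s m ⊓ tors R (Pic0 K F) 1 : Submodule R (Pic0 K F)) := by
  have hm : m.IsMaximal := inferInstance
  have hss : ∀ x, s (s x) = x := by
    intro x
    rw [hs, hs]
    obtain ⟨D, h, rfl⟩ := exists_mk x
    rw [smul_mk, smul_mk]
    exact mk_congr _ _ (smul_smul_div hw D)
  have ht2 : t * t ∉ m := fun h => by
    rcases hm.isPrime.mem_or_mem h with h | h <;> exact ht h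
  refine smith_card_eq hss hdiv hfin ht2 (fun x hx => ?_) (fun x hx => ?_)
  · rw [hs] at hx
    obtain ⟨y, hy⟩ := smithG1 hw h2 hw1 𝒯 hx
    exact ⟨y, by rw [mul_smul, htT, htT, hy, hs]⟩
  · rw [hs] at hx
    obtain ⟨y, hy⟩ := smithG2 hw h2 hw1 hfix hx
    exact ⟨(t * t) • y, by rw [map_smul, ← smul_add, hs, ← hy]⟩

/-- The parity of a divisor at a place. -/
def par (D : Divisor K F) (v : Place K F) : ZMod 2 := ((D v : ℤ) : ZMod 2)

omit [IsAlgClosed K] [IsFF K F] in
theorem par_add (D D' : Divisor K F) (v : Place K F) : par (D + D') v = par D v + par D' v := by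
  simp [par]

omit [IsAlgClosed K] [IsFF K F] in
theorem par_sub (D D' : Divisor K F) (v : Place K F) : par (D - D') v = par D v - par D' v := by
  simp [par]

omit [IsAlgClosed K] [IsFF K F] in
theorem par_eq_zero {D : Divisor K F} {v : Place K F} : par D v = 0 ↔ Even (D v) := by
  rw [par, ZMod.intCast_eq_zero_iff_even]

omit [IsAlgClosed K] [IsFF K F] in
theorem par_add_smul (hw : ∀ f, w (w f) = f) (D : Divisor K F) {v : Place K F} (hv : 𝔰 • v = v) :
    par (D + 𝔰 • D) v = 0 := by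
  rw [par_eq_zero, Finsupp.add_apply, smul_apply_place hw, hv]
  exact ⟨_, rfl⟩

/-- A correspondence preserves congruence of parities at the fixed places. -/
theorem par_T (hw : ∀ f, w (w f) = f) (𝒯 : EvenCorr w) {D D' : Divisor K F} (hD : 𝔰 • D = D)
    (hD' : 𝔰 • D' = D') (h : ∀ v : Place K F, 𝔰 • v = v → par D v = par D' v)
    {v : Place K F} (hv : 𝔰 • v = v) : par (𝒯.T D) v = par (𝒯.T D') v := by
  obtain ⟨D₁, hD₁⟩ := exists_half hw (D := D - D') (by rw [smul_sub, hD, hD'])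
    (fun v hv => by rw [← par_eq_zero, par_sub, h v hv, sub_self])
  have h1 : par (𝒯.T (D - D')) v = 0 := by
    rw [hD₁, map_add, 𝒯.T_smul, par_add_smul hw _ hv]
  rw [map_sub, par_sub, sub_eq_zero] at h1
  exact h1

/-- The parity of `T D` in terms of the parities of the `T (P a)`. -/
theorem par_T_of_single (hw : ∀ f, w (w f) = f) (𝒯 : EvenCorr w) {C : Type*} [Fintype C]
    [DecidableEq (Place K F)] (P : C → Place K F) (hP : ∀ a, 𝔰 • P a = P a) (x : C → ZMod 2)
    {D : Divisor K F} (hD : 𝔰 • D = D)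
    (h : ∀ v : Place K F, 𝔰 • v = v → par D v = ∑ a, if P a = v then x a else 0)
    {v : Place K F} (hv : 𝔰 • v = v) :
    par (𝒯.T D) v = ∑ a, x a * par (𝒯.T (Finsupp.single (P a) 1)) v := by
  have hsum : ∀ (S : Finset C) (E : C → Divisor K F) (v : Place K F),
      par (∑ a ∈ S, E a) v = ∑ a ∈ S, par (E a) v := by
    intro S E v
    rw [par, Finsupp.finsetSum_apply]
    push_cast
    rfl
  have hnsmul : ∀ (n : ℕ) (E : Divisor K F) (v : Place K F),
      par (n • E) v = (n : ZMod 2) * par E v := by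
    intro n E v
    rw [par, Finsupp.smul_apply, par, nsmul_eq_mul]
    push_cast
    rfl
  have hsingle : ∀ a, 𝔰 • (Finsupp.single (P a) 1 : Divisor K F) = Finsupp.single (P a) 1 := by
    intro a
    ext u
    rw [smul_apply_place hw, Finsupp.single_apply, Finsupp.single_apply]
    congr 1
    refine propext ⟨fun h => ?_, fun h => ?_⟩
    · rw [← smul_smul_place hw u, ← h, hP]
    · rw [← h, hP]
  have h1 := par_T hw 𝒯 hD (D' := ∑ a, (x a).val • Finsupp.single (P a) 1) (by
      rw [Finset.smul_sum]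
      refine Finset.sum_congr rfl fun a _ => ?_
      rw [← natCast_zsmul, smul_zsmul_div, hsingle]) (fun u hu => by
      rw [h u hu, hsum]
      refine Finset.sum_congr rfl fun a _ => ?_
      rw [hnsmul, ZMod.natCast_val, ZMod.cast_id, par, Finsupp.single_apply]
      split_ifs <;> simp) hv
  rw [h1, map_sum, hsum]
  refine Finset.sum_congr rfl fun a _ => ?_
  rw [map_nsmul, hnsmul, ZMod.natCast_val, ZMod.cast_id]

/-- The divisor of given parity. -/
theorem exists_lift (hw : ∀ f, w (w f) = f) (𝒯 : EvenCorr w) (x : Place K F →₀ ZMod 2)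
    (hx : ∀ v ∈ x.support, 𝔰 • v = v) :
    ∃ D E : Divisor K F, 𝔰 • D = D ∧ (∀ v : Place K F, 𝔰 • v = v → par D v = x v) ∧
      E ∈ Divisor.degZero (K := K) (F := F) ∧ 𝔰 • E = E ∧
      ∀ v : Place K F, 𝔰 • v = v → par E v = par (𝒯.T D) v := by
  classical
  set S : Divisor K F := ∑ v ∈ x.support, Finsupp.single v 1 with hS
  have hSv : ∀ v : Place K F, S v = if v ∈ x.support then 1 else 0 := by
    intro v
    rw [hS, Finsupp.finsetSum_apply]
    simp [Finsupp.single_apply]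
  have hSs : 𝔰 • S = S := by
    ext v
    rw [smul_apply_place hw, hSv, hSv]
    congr 1
    by_cases h : v ∈ x.support
    · simp only [h, eq_iff_iff, iff_true]
      rw [hx v h]; exact h
    · simp only [h, eq_iff_iff, iff_false]
      intro h'
      apply h
      have := hx _ h'
      rw [smul_smul_place hw] at this
      rwa [← this] at h'
  have hSd : Divisor.degree S = x.support.card := by
    rw [hS, map_sum]
    simp only [degree_single_one, Finset.sum_const, nsmul_eq_mul, mul_one]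
  obtain ⟨P⟩ : Nonempty (Place K F) := inferInstance
  set P₁ : Divisor K F := Finsupp.single P 1 with hP₁
  refine ⟨S, 𝒯.T S - (𝒯.c * x.support.card) • (P₁ + 𝔰 • P₁), hSs, fun v hv => ?_, ?_, ?_,
    fun v hv => ?_⟩
  · rw [par, hSv]
    by_cases h : v ∈ x.support
    · rw [if_pos h]
      have h0 : x v ≠ 0 := Finsupp.mem_support_iff.mp h
      have h1 : ∀ z : ZMod 2, z ≠ 0 → z = 1 := by decide
      rw [h1 _ h0]
      simp
    · rw [if_neg h, Finsupp.notMem_support_iff.mp h]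
      simp
  · rw [Divisor.mem_degZero, map_sub, map_zsmul, map_add, SemilinearAut.degree_smul, hP₁,
      degree_single_one, 𝒯.degree_T, hSd, smul_eq_mul]
    ring
  · have h7 : 𝔰 • (P₁ + 𝔰 • P₁) = P₁ + 𝔰 • P₁ := by
      rw [smul_add, smul_smul_div hw, add_comm]
    rw [smul_sub, smul_zsmul_div, h7, ← 𝒯.T_smul, hSs]
  · rw [par_sub, sub_eq_self, par_eq_zero, Finsupp.smul_apply, Finsupp.add_apply,
      smul_apply_place hw, hv, smul_eq_mul, ← two_mul]
    exact ⟨𝒯.c * x.support.card * P₁ v, by ring⟩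

/-- **Smith theory with fixed points.** The Hecke ring `R` acts through the even correspondences
`𝒯 i`, and compatibly on a finite module `M` of parity vectors at the fixed places. -/
theorem smith_le (h2 : (2 : K) ≠ 0) (hw : ∀ f, w (w f) = f) (hw1 : w ≠ AlgEquiv.refl)
    (hs : ∀ x, s x = 𝔰 • x) [m.IsMaximal]
    (hdiv : ∀ x : Pic0 K F, ∃ y : Pic0 K F, (2 : R) • y = x)
    (hfin : (tors R (Pic0 K F) 1 : Set (Pic0 K F)).Finite)
    {I : Type*} (t : I → R) (hgen : Algebra.adjoin ℤ (Set.range t) = ⊤) (𝒯 : I → EvenCorr w)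
    (htT : ∀ i x, t i • x = (𝒯 i).pic x) (i₀ : I) (hi₀ : t i₀ ∉ m)
    {V : Type*} [AddCommGroup V] [Module R V] {j : ℕ} (hV : ∀ r ∈ m ^ j, ∀ v : V, r • v = 0)
    (ι : V →+ (Place K F →₀ ZMod 2)) (hι : Function.Injective ι)
    (hιfix : ∀ x, ∀ v ∈ (ι x).support, 𝔰 • v = v)
    (hιT : ∀ i x, ∀ D : Divisor K F, 𝔰 • D = D → (∀ v : Place K F, 𝔰 • v = v → par D v = ι x v) →
      ∀ v : Place K F, 𝔰 • v = v → par ((𝒯 i).T D) v = ι (t i • x) v) :
    Nat.card V * Nat.card (plusPart s m ⊓ tors R (Pic0 K F) 1 : Submodule R (Pic0 K F)) ≤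
      Nat.card (minusPart s m ⊓ tors R (Pic0 K F) 1 : Submodule R (Pic0 K F)) := by
  classical
  have hm : m.IsMaximal := inferInstance
  have hss : ∀ x, s (s x) = x := by
    intro x
    rw [hs, hs]
    obtain ⟨D, h, rfl⟩ := exists_mk x
    rw [smul_mk, smul_mk]
    exact mk_congr _ _ (smul_smul_div hw D)
  have ht2 : t i₀ * t i₀ ∉ m := fun h => by
    rcases hm.isPrime.mem_or_mem h with h | h <;> exact hi₀ h
  -- the divisors
  have key : ∀ x : V, ∃ D : Divisor K F, D ∈ Divisor.degZero (K := K) (F := F) ∧ 𝔰 • D = D ∧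
      ∀ v : Place K F, 𝔰 • v = v → par D v = ι x v := by
    intro x
    obtain ⟨u, hu⟩ := exists_smul_of_notMem hi₀ (x := x) (j := j) (fun r hr => hV r hr x)
    obtain ⟨D, E, hD, hDv, hE, hEs, hEv⟩ := exists_lift hw (𝒯 i₀) (ι (u • x)) (hιfix _)
    refine ⟨E, hE, hEs, fun v hv => ?_⟩
    rw [hEv v hv, hιT i₀ (u • x) D hD hDv v hv, ← hu]
  choose 𝔇 h𝔇0 h𝔇s h𝔇v using key
  have hcls : ∀ {D D' : Divisor K F} (h : D ∈ Divisor.degZero (K := K) (F := F))
      (h' : D' ∈ Divisor.degZero (K := K) (F := F)), 𝔰 • D = D → 𝔰 • D' = D' →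
      (∀ v : Place K F, 𝔰 • v = v → par D v = par D' v) →
      ∃ y, Pic0.mk ⟨D, h⟩ - Pic0.mk ⟨D', h'⟩ = y + s y := by
    intro D D' h h' hD hD' hpar
    obtain ⟨y, hy⟩ := smithG4 hw h h' hD hD' (fun v hv => by
      have h1 := hpar v hv
      rw [← sub_eq_zero, ← par_sub, par_eq_zero] at h1
      exact h1)
    exact ⟨y, by rw [hy, hs]⟩
  let φ : V → Pic0 K F := fun x => Pic0.mk ⟨𝔇 x, h𝔇0 x⟩
  have hφs : ∀ v, s (φ v) = φ v := by
    intro v
    rw [hs]
    exact mk_congr _ _ (h𝔇s v)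
  have hφa : ∀ v v', ∃ y, φ (v - v') - (φ v - φ v') = y + s y := by
    intro v v'
    have h1 : 𝔇 v - 𝔇 v' ∈ Divisor.degZero (K := K) (F := F) := sub_mem (h𝔇0 v) (h𝔇0 v')
    obtain ⟨y, hy⟩ := hcls (h𝔇0 (v - v')) h1 (h𝔇s _) (by rw [smul_sub, h𝔇s, h𝔇s])
      (fun u hu => by rw [h𝔇v _ u hu, par_sub, h𝔇v _ u hu, h𝔇v _ u hu, map_sub,
        Finsupp.sub_apply])
    exact ⟨y, by rw [← hy]; rfl⟩
  have hφa' : ∀ v v', ∃ y, φ (v + v') - (φ v + φ v') = y + s y := by
    intro v v'
    obtain ⟨y, hy⟩ := hφa (v + v') v'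
    rw [add_sub_cancel_right] at hy
    refine ⟨-y, ?_⟩
    rw [map_neg]
    linear_combination (norm := module) (-1 : ℤ) • hy
  have hφr : ∀ (r : R) v, ∃ y, φ (r • v) - r • φ v = y + s y := by
    intro r
    have hr : r ∈ Algebra.adjoin ℤ (Set.range t) := by rw [hgen]; trivial
    induction hr using Algebra.adjoin_induction with
    | mem r hr =>
      obtain ⟨i, rfl⟩ := hr
      intro v
      rw [htT]
      refine hcls (D := 𝔇 (t i • v)) (D' := (𝒯 i).T (𝔇 v)) (h𝔇0 _)
        ((𝒯 i).mem_degZero (h𝔇0 v)) (h𝔇s _) (by rw [← (𝒯 i).T_smul, h𝔇s]) (fun u hu => ?_)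
      rw [h𝔇v _ u hu, hιT i v _ (h𝔇s v) (h𝔇v v) u hu]
    | algebraMap n =>
      intro v
      rw [algebraMap_int_eq, eq_intCast, Int.cast_smul_eq_zsmul, Int.cast_smul_eq_zsmul]
      induction n using Int.induction_on with
      | zero =>
        obtain ⟨y, hy⟩ := hφa 0 0
        refine ⟨y, ?_⟩
        rw [← hy]
        simp
      | succ n ih =>
        obtain ⟨y, hy⟩ := ih
        obtain ⟨y', hy'⟩ := hφa' ((n : ℤ) • v) v
        refine ⟨y + y', ?_⟩
        rw [map_add, add_zsmul, one_zsmul, add_zsmul, one_zsmul]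
        linear_combination (norm := module) hy + hy'
      | pred n ih =>
        obtain ⟨y, hy⟩ := ih
        obtain ⟨y', hy'⟩ := hφa ((-n : ℤ) • v) v
        refine ⟨y + y', ?_⟩
        rw [map_add, sub_zsmul, one_zsmul, sub_zsmul, one_zsmul, ← sub_eq_add_neg,
          ← sub_eq_add_neg]
        linear_combination (norm := module) hy + hy'
    | add r r' _ _ h h' =>
      intro v
      obtain ⟨y, hy⟩ := h v
      obtain ⟨y', hy'⟩ := h' v
      obtain ⟨y₁, hy₁⟩ := hφa' (r • v) (r' • v)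
      refine ⟨y + y' + y₁, ?_⟩
      rw [map_add, map_add, add_smul, add_smul]
      linear_combination (norm := module) hy + hy' + hy₁
    | mul r r' _ _ h h' =>
      intro v
      obtain ⟨y, hy⟩ := h (r' • v)
      obtain ⟨y', hy'⟩ := h' v
      refine ⟨y + r • y', ?_⟩
      rw [map_add, map_smul, mul_smul, mul_smul]
      linear_combination (norm := module) hy + r • hy'
  refine smith_card_le hss hdiv hfin ht2 (fun x hx => ?_) hV φ hφs hφa hφr hi₀ (fun v hv => ?_)
  · rw [hs] at hx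
    obtain ⟨y, hy⟩ := smithG1 hw h2 hw1 (𝒯 i₀) hx
    exact ⟨y, by rw [mul_smul, htT, htT, hy, hs]⟩
  · obtain ⟨y, hy⟩ := hv
    rw [hs] at hy
    apply hι
    rw [map_zero]
    ext u
    rw [Finsupp.zero_apply]
    by_cases hu : 𝔰 • u = u
    · rw [← hιT i₀ v _ (h𝔇s v) (h𝔇v v) u hu, par_eq_zero]
      exact smithG3 hw h2 hw1 (𝒯 i₀) (h𝔇0 v) (h𝔇s v) hy u hu
    · by_contra h0
      exact hu (hιfix _ u (Finsupp.mem_support_iff.mpr h0))

end

end Fermat.Agent.LTF.Smith
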