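import Fermat.Agent.LTF.SmithTsen
import Fermat.Prelude.Def_AlgebraicCurve_BaseChangeGalois

/-!
# Algebraic Smith theory for an involution of a function field
-/

set_option autoImplicit false

open AlgebraicCurve WithZero

namespace Fermat.Agent.LTF.Smith

open Fermat.Agent.RR Fermat.Agent.FF Fermat.Agent.RedInj

section general

variable {K F : Type*} [Field K] [Field F] [Algebra K F]

theorem smul_div_eq [HasPrincipalDivisors K F] (s : SemilinearAut K F) (f : F) :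
    s • (div f : Divisor K F) = div (s • f) := by
  ext v
  rw [SemilinearAut.divisor_smul_apply, div_apply, div_apply]
  have := SemilinearAut.ord_smul s (s⁻¹ • v) f
  rw [smul_inv_smul] at this
  exact this.symm

theorem mk_eq_mk_iff [HasPrincipalDivisors K F] {D D' : Divisor K F}
    (h : D ∈ Divisor.degZero (K := K) (F := F)) (h' : D' ∈ Divisor.degZero (K := K) (F := F)) :
    Pic0.mk ⟨D, h⟩ = Pic0.mk ⟨D', h'⟩ ↔ ∃ f : F, f ≠ 0 ∧ D' = D + div f := by
  have h1 : Pic0.mk ⟨D, h⟩ = Pic0.mk ⟨D', h'⟩ ↔ (D' - D).IsPrincipal := by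
    refine (QuotientAddGroup.eq (s := (Divisor.principal (K := K) (F := F)).addSubgroupOf
      (Divisor.degZero (K := K) (F := F)))).trans ?_
    rw [AddSubgroup.mem_addSubgroupOf, AddSubgroup.coe_add, AddSubgroup.coe_neg, neg_add_eq_sub]
    exact Iff.rfl
  rw [h1]
  constructor
  · rintro ⟨f, hf, hD⟩
    refine ⟨f, hf, ?_⟩
    ext v
    have h5 := hD v
    rw [Finsupp.sub_apply] at h5
    rw [Finsupp.add_apply, div_apply]
    omega
  · rintro ⟨f, hf, hD⟩
    refine ⟨f, hf, fun v => ?_⟩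
    rw [hD, add_sub_cancel_left, div_apply]

theorem exists_mk (x : Pic0 K F) : ∃ (D : Divisor K F) (h : D ∈ Divisor.degZero (K := K) (F := F)),
    x = Pic0.mk ⟨D, h⟩ := by
  obtain ⟨⟨D, h⟩, rfl⟩ := Pic0.mk_surjective x
  exact ⟨D, h, rfl⟩

theorem smul_mk (s : SemilinearAut K F) {D : Divisor K F}
    (h : D ∈ Divisor.degZero (K := K) (F := F)) :
    s • Pic0.mk ⟨D, h⟩ = Pic0.mk ⟨s • D, SemilinearAut.smul_mem_degZero s h⟩ := rfl

end general

section inv

variable {K F : Type*} [Field K] [Field F] [Algebra K F] [IsAlgClosed K] [IsFF K F]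
  {w : F ≃ₐ[K] F}

local notation "𝔰" => SemilinearAut.ofAlgAut (K := K) (F := F) w

theorem smul_div_w (f : F) : 𝔰 • (div f : Divisor K F) = div (w f) := smul_div_eq _ _

theorem div_eq_of_smul {f g : F} (hf : f ≠ 0) (hg : g ≠ 0)
    (h : (div f : Divisor K F) = div g) : ∃ c : K, c ≠ 0 ∧ f = algebraMap K F c * g := by
  have h1 : ∀ v : Place K F, 0 ≤ v.ord (f / g) := by
    intro v
    rw [div_eq_mul_inv, v.ord_mul hf (inv_ne_zero hg), v.ord_inv]
    have := DFunLike.congr_fun h v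
    rw [div_apply, div_apply] at this
    omega
  obtain ⟨c, hc⟩ := exists_eq_algebraMap_of_ord_nonneg h1
  refine ⟨c, ?_, ?_⟩
  · rintro rfl
    rw [map_zero, div_eq_zero_iff] at hc
    exact hc.elim hf hg
  · rw [← hc, div_mul_cancel₀ _ hg]

variable (hw : ∀ f, w (w f) = f)

include hw

omit [IsAlgClosed K] [IsFF K F] in
theorem smul_smul_place (v : Place K F) : 𝔰 • 𝔰 • v = v := by
  rw [← mul_smul]
  have : SemilinearAut.ofAlgAut w * SemilinearAut.ofAlgAut w = (1 : SemilinearAut K F) := by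
    rw [← map_mul]
    have : w * w = 1 := AlgEquiv.ext hw
    rw [this, map_one]
  rw [this, one_smul]

omit [IsAlgClosed K] [IsFF K F] in
theorem inv_smul_place (v : Place K F) : 𝔰⁻¹ • v = 𝔰 • v := by
  rw [inv_smul_eq_iff, smul_smul_place hw]

omit [IsAlgClosed K] [IsFF K F] in
theorem smul_apply_place (D : Divisor K F) (v : Place K F) : (𝔰 • D) v = D (𝔰 • v) := by
  rw [SemilinearAut.divisor_smul_apply, inv_smul_place hw]

omit [IsAlgClosed K] [IsFF K F] in
theorem smul_smul_div (D : Divisor K F) : 𝔰 • 𝔰 • D = D := by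
  ext v
  rw [smul_apply_place hw, smul_apply_place hw, smul_smul_place hw]

omit [IsAlgClosed K] [IsFF K F] in
/-- An invariant divisor which is even at the fixed places is of the form `D₁ + s D₁`. -/
theorem exists_half {D : Divisor K F} (hD : 𝔰 • D = D)
    (he : ∀ v : Place K F, 𝔰 • v = v → Even (D v)) :
    ∃ D₁ : Divisor K F, D = D₁ + 𝔰 • D₁ := by
  classical
  let r : Place K F → Place K F → Prop := WellOrderingRel
  have hinv : ∀ v, D (𝔰 • v) = D v := by
    intro v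
    rw [← smul_apply_place hw, hD]
  let D₁ : Divisor K F := Finsupp.onFinset D.support
    (fun v => if 𝔰 • v = v then D v / 2 else if r v (𝔰 • v) then D v else 0) (by
      intro v hv
      rw [Finsupp.mem_support_iff]
      intro h0
      apply hv
      simp [h0])
  refine ⟨D₁, ?_⟩
  ext v
  rw [Finsupp.add_apply, smul_apply_place hw]
  change D v = (if 𝔰 • v = v then D v / 2 else if r v (𝔰 • v) then D v else 0) +
    (if 𝔰 • 𝔰 • v = 𝔰 • v then D (𝔰 • v) / 2 else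
      if r (𝔰 • v) (𝔰 • 𝔰 • v) then D (𝔰 • v) else 0)
  rw [smul_smul_place hw, hinv]
  by_cases h1 : 𝔰 • v = v
  · rw [if_pos h1, if_pos h1.symm]
    obtain ⟨a, ha⟩ := he v h1
    omega
  · rw [if_neg h1, if_neg (Ne.symm h1)]
    rcases trichotomous_of r v (𝔰 • v) with h | h | h
    · rw [if_pos h, if_neg (asymm_of r h)]
      ring
    · exact absurd h.symm h1
    · rw [if_neg (asymm_of r h), if_pos h]
      ring

/-- A class fixed by the involution is represented by an invariant divisor. -/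
theorem exists_invariant (h2 : (2 : K) ≠ 0) (hw1 : w ≠ AlgEquiv.refl) {D : Divisor K F} {f : F}
    (hf : f ≠ 0) (hD : 𝔰 • D = D + div f) :
    ∃ g : F, g ≠ 0 ∧ 𝔰 • (D + div g) = D + div g := by
  have hwf : w f ≠ 0 := (map_ne_zero w).mpr hf
  have h1 : (div (f * w f) : Divisor K F) = div 1 := by
    have h3 : 𝔰 • (𝔰 • D) = 𝔰 • (D + div f) := by rw [hD]
    rw [smul_smul_div hw, smul_add, hD, smul_div_w, add_assoc, ← RR.div_mul hf hwf] at h3
    have h4 : (div (f * w f) : Divisor K F) = 0 := left_eq_add.mp h3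
    rw [h4]
    ext v
    rw [div_apply, Place.ord_one]
    rfl
  obtain ⟨c, hc0, hc⟩ := div_eq_of_smul (mul_ne_zero hf hwf) one_ne_zero h1
  rw [mul_one] at hc
  obtain ⟨e, he⟩ := IsAlgClosed.exists_pow_nat_eq c (n := 2) two_pos
  have he0 : e ≠ 0 := by
    rintro rfl
    apply hc0
    rw [← he]; ring
  have heF : algebraMap K F e ≠ 0 := (map_ne_zero _).mpr he0
  obtain ⟨g, hg0, hg⟩ := hilbert90 hw h2 hw1 (f := f / algebraMap K F e) (by
    rw [map_div₀, w.commutes, div_mul_div_comm, hc, ← he, map_pow, ← pow_two,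
      div_self (pow_ne_zero 2 heF)])
  refine ⟨g, hg0, ?_⟩
  have hwg : w g ≠ 0 := (map_ne_zero w).mpr hg0
  have h5 : (div (f * w g) : Divisor K F) = div g := by
    have h6 : f * w g = algebraMap K F e * g := by
      conv_rhs => rw [← hg]
      field_simp
    rw [h6, RR.div_mul heF hg0]
    have : (div (algebraMap K F e) : Divisor K F) = 0 := by
      ext v
      rw [div_apply, FF.ord_algebraMap v e]
      rfl
    rw [this, zero_add]
  rw [smul_add, hD, smul_div_w, add_assoc, ← RR.div_mul hf hwg, h5]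

/-- The functions with invariant divisor. -/
theorem eq_or_neg_of_div_invariant {h : F} (hh : h ≠ 0)
    (hd : 𝔰 • (div h : Divisor K F) = div h) : w h = h ∨ w h = - h := by
  rw [smul_div_w] at hd
  obtain ⟨c, hc0, hc⟩ := div_eq_of_smul ((map_ne_zero w).mpr hh) hh hd
  have h1 : h = algebraMap K F (c ^ 2) * h := by
    have := congrArg w hc
    rw [hw, map_mul, w.commutes, hc] at this
    rw [map_pow]
    linear_combination this
  have h2 : algebraMap K F (c ^ 2) = 1 := by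
    have : (algebraMap K F (c ^ 2) - 1) * h = 0 := by linear_combination -h1
    rcases mul_eq_zero.mp this with h | h
    · linear_combination h
    · exact absurd h hh
  have h3 : c ^ 2 = 1 := (algebraMap K F).injective (by rw [h2, map_one])
  rcases sq_eq_sq_iff_eq_or_eq_neg.mp (h3.trans (one_pow 2).symm) with h | h
  · left; rw [hc, h, map_one, one_mul]
  · right; rw [hc, h, map_neg, map_one]; ring

omit hw in
theorem degree_mk (D : Divisor K F) : Divisor.degree (𝔰 • D) = Divisor.degree D :=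
  SemilinearAut.degree_smul _ D

end inv

/-- A correspondence of even degree commuting with the involution. -/
structure EvenCorr {K F : Type*} [Field K] [Field F] [Algebra K F] [HasPrincipalDivisors K F]
    (w : F ≃ₐ[K] F) where
  /-- the action on divisors -/
  T : Divisor K F →+ Divisor K F
  /-- the action on functions -/
  τ : F → F
  τ_ne : ∀ f, f ≠ 0 → τ f ≠ 0
  T_div : ∀ f, f ≠ 0 → T (div f) = div (τ f)
  T_smul : ∀ D, T (SemilinearAut.ofAlgAut (K := K) (F := F) w • D) =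
    SemilinearAut.ofAlgAut (K := K) (F := F) w • T D
  τ_w : ∀ f, f ≠ 0 → τ (w f) = w (τ f)
  τ_neg : ∀ f, f ≠ 0 → τ (-f) = τ f
  /-- half of the degree -/
  c : ℤ
  degree_T : ∀ D, Divisor.degree (T D) = 2 * c * Divisor.degree D

namespace EvenCorr

section pic

variable {K F : Type*} [Field K] [Field F] [Algebra K F] [HasPrincipalDivisors K F]
  {w : F ≃ₐ[K] F} (𝒯 : EvenCorr w)

theorem mem_degZero {D : Divisor K F} (h : D ∈ Divisor.degZero (K := K) (F := F)) :
    𝒯.T D ∈ Divisor.degZero (K := K) (F := F) := by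
  rw [Divisor.mem_degZero] at h ⊢
  rw [𝒯.degree_T, h, mul_zero]

/-- The action on divisors of degree zero. -/
noncomputable def TZero : Divisor.degZero (K := K) (F := F) →+ Divisor.degZero (K := K) (F := F) :=
  (𝒯.T.comp (Divisor.degZero (K := K) (F := F)).subtype).codRestrict _
    (fun D => 𝒯.mem_degZero D.2)

/-- The action on the class group. -/
noncomputable def pic : Pic0 K F →+ Pic0 K F :=
  QuotientAddGroup.map _ _ 𝒯.TZero (by
    rintro ⟨D, hD⟩ h
    obtain ⟨f, hf, hD'⟩ : D.IsPrincipal := h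
    change (𝒯.T D).IsPrincipal
    refine ⟨𝒯.τ f, 𝒯.τ_ne f hf, fun v => ?_⟩
    have : D = div f := by
      ext v
      rw [div_apply]
      exact hD' v
    rw [this, 𝒯.T_div f hf, div_apply])

theorem pic_mk {D : Divisor K F} (h : D ∈ Divisor.degZero (K := K) (F := F)) :
    𝒯.pic (Pic0.mk ⟨D, h⟩) = Pic0.mk ⟨𝒯.T D, 𝒯.mem_degZero h⟩ := rfl

theorem pic_smul (x : Pic0 K F) :
    𝒯.pic (SemilinearAut.ofAlgAut (K := K) (F := F) w • x) =
      SemilinearAut.ofAlgAut (K := K) (F := F) w • 𝒯.pic x := by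
  obtain ⟨D, h, rfl⟩ := exists_mk x
  rw [smul_mk, pic_mk, pic_mk, smul_mk]
  congr 1
  exact Subtype.ext (𝒯.T_smul D)

end pic

end EvenCorr

section main

variable {K F : Type*} [Field K] [Field F] [Algebra K F] [IsAlgClosed K] [IsFF K F]
  {w : F ≃ₐ[K] F}

local notation "𝔰" => SemilinearAut.ofAlgAut (K := K) (F := F) w

omit [IsAlgClosed K] in
theorem mk_add {D D' : Divisor K F} (h : D ∈ Divisor.degZero (K := K) (F := F))
    (h' : D' ∈ Divisor.degZero (K := K) (F := F))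
    (h'' : D + D' ∈ Divisor.degZero (K := K) (F := F)) :
    Pic0.mk ⟨D + D', h''⟩ = Pic0.mk ⟨D, h⟩ + Pic0.mk ⟨D', h'⟩ := rfl

omit [IsAlgClosed K] in
theorem mk_sub {D D' : Divisor K F} (h : D ∈ Divisor.degZero (K := K) (F := F))
    (h' : D' ∈ Divisor.degZero (K := K) (F := F))
    (h'' : D - D' ∈ Divisor.degZero (K := K) (F := F)) :
    Pic0.mk ⟨D - D', h''⟩ = Pic0.mk ⟨D, h⟩ - Pic0.mk ⟨D', h'⟩ := rfl

omit [IsAlgClosed K] in
theorem mk_congr {D D' : Divisor K F} (h : D ∈ Divisor.degZero (K := K) (F := F))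
    (h' : D' ∈ Divisor.degZero (K := K) (F := F)) (e : D = D') :
    Pic0.mk ⟨D, h⟩ = Pic0.mk ⟨D', h'⟩ := by subst e; rfl

omit [IsAlgClosed K] [IsFF K F] in
theorem smul_zsmul_div (n : ℤ) (D : Divisor K F) : 𝔰 • (n • D) = n • (𝔰 • D) := by
  ext v
  rw [SemilinearAut.divisor_smul_apply, Finsupp.smul_apply, Finsupp.smul_apply,
    SemilinearAut.divisor_smul_apply]

theorem div_inv' {f : F} (hf : f ≠ 0) : (div f⁻¹ : Divisor K F) = - div f := by
  ext v
  rw [div_apply, Finsupp.neg_apply, div_apply, v.ord_inv]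

variable (hw : ∀ f, w (w f) = f)

include hw

/-- The basic case of (G1). -/
theorem anti_aux (h2 : (2 : K) ≠ 0) (hw1 : w ≠ AlgEquiv.refl) (𝒯 : EvenCorr w)
    {D : Divisor K F} (h : D ∈ Divisor.degZero (K := K) (F := F)) {f : F} (hf : f ≠ 0)
    (hD : D + 𝔰 • D = div f) (hwf : w f = f) :
    ∃ y : Pic0 K F, 𝒯.pic (Pic0.mk ⟨D, h⟩) = y - 𝔰 • y := by
  obtain ⟨g, hg⟩ := exists_norm_eq hw h2 hw1 hwf
  have hg0 : g ≠ 0 := by
    rintro rfl
    apply hf
    rw [← hg, zero_mul]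
  have hwg0 : w g ≠ 0 := (map_ne_zero w).mpr hg0
  set D' : Divisor K F := D - div g with hD'
  have hsD' : 𝔰 • D' = - D' := by
    rw [hD', smul_sub, smul_div_w]
    have : (div f : Divisor K F) = div g + div (w g) := by rw [← hg, RR.div_mul hg0 hwg0]
    rw [this] at hD
    rw [sub_eq_iff_eq_add, ← sub_eq_zero]
    have h5 : D + 𝔰 • D - (div g + div (w g)) = 0 := sub_eq_zero.mpr hD
    rw [← h5]
    abel
  set E : Divisor K F := D' ⊔ 0 with hE
  have hEs : D' = E - 𝔰 • E := by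
    ext v
    have h6 : D' (𝔰 • v) = - D' v := by
      rw [← smul_apply_place hw, hsD', Finsupp.neg_apply]
    have h9 : (E - 𝔰 • E) v = E v - E (𝔰 • v) := by
      rw [Finsupp.sub_apply, smul_apply_place hw]
    rw [h9, hE, Finsupp.sup_apply, Finsupp.sup_apply, h6]
    change D' v = max (D' v) 0 - max (- D' v) 0
    rcases le_total (D' v) 0 with h7 | h7
    · rw [max_eq_right h7, max_eq_left (by omega)]; ring
    · rw [max_eq_left h7, max_eq_right (by omega)]; ring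
  set Y : Divisor K F := 𝒯.T E - 𝒯.c • (E + 𝔰 • E) with hY
  have hYdeg : Y ∈ Divisor.degZero (K := K) (F := F) := by
    rw [Divisor.mem_degZero, hY, map_sub, 𝒯.degree_T, map_zsmul, map_add,
      SemilinearAut.degree_smul, smul_eq_mul]
    ring
  have hYs : Y - 𝔰 • Y = 𝒯.T D' := by
    have h7 : 𝔰 • (E + 𝔰 • E) = E + 𝔰 • E := by
      rw [smul_add, smul_smul_div hw, add_comm]
    rw [hEs, map_sub, hY, smul_sub, ← 𝒯.T_smul, smul_zsmul_div, h7]
    abel
  have hD'deg : D' ∈ Divisor.degZero (K := K) (F := F) := by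
    rw [Divisor.mem_degZero] at h ⊢
    rw [hD', map_sub, h, degree_div, sub_zero]
  refine ⟨Pic0.mk ⟨Y, hYdeg⟩, ?_⟩
  rw [smul_mk, ← mk_sub hYdeg _ (by rw [hYs]; exact 𝒯.mem_degZero hD'deg)]
  have h8 : Pic0.mk ⟨D, h⟩ = Pic0.mk ⟨D', hD'deg⟩ := by
    rw [mk_eq_mk_iff]
    exact ⟨g⁻¹, inv_ne_zero hg0, by rw [div_inv' hg0, hD', sub_eq_add_neg]⟩
  rw [h8, 𝒯.pic_mk]
  exact mk_congr _ _ hYs.symm

/-- **(G1)** -/
theorem smithG1 (h2 : (2 : K) ≠ 0) (hw1 : w ≠ AlgEquiv.refl) (𝒯 : EvenCorr w)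
    {x : Pic0 K F} (hx : 𝔰 • x = - x) :
    ∃ y : Pic0 K F, 𝒯.pic (𝒯.pic x) = y - 𝔰 • y := by
  obtain ⟨D, h, rfl⟩ := exists_mk x
  obtain ⟨f, hf, hD⟩ : ∃ f : F, f ≠ 0 ∧ D + 𝔰 • D = div f := by
    have h1 : Pic0.mk ⟨𝔰 • D, SemilinearAut.smul_mem_degZero 𝔰 h⟩ =
        Pic0.mk ⟨-D, neg_mem h⟩ := hx
    rw [mk_eq_mk_iff] at h1
    obtain ⟨f, hf, hD⟩ := h1
    refine ⟨f⁻¹, inv_ne_zero hf, ?_⟩
    rw [div_inv' hf, ← sub_eq_zero, sub_neg_eq_add, add_assoc, ← hD]
    abel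
  have hinv : 𝔰 • (div f : Divisor K F) = div f := by
    rw [← hD, smul_add, smul_smul_div hw, add_comm]
  rcases eq_or_neg_of_div_invariant hw hf hinv with h1 | h1
  · obtain ⟨y, hy⟩ := anti_aux hw h2 hw1 𝒯 h hf hD h1
    refine ⟨𝒯.pic y, ?_⟩
    rw [hy, map_sub, 𝒯.pic_smul]
  · rw [𝒯.pic_mk h]
    refine anti_aux hw h2 hw1 𝒯 (𝒯.mem_degZero h) (𝒯.τ_ne f hf) ?_ ?_
    · rw [← 𝒯.T_smul, ← map_add, hD, 𝒯.T_div f hf]
    · rw [← 𝒯.τ_w f hf, h1, 𝒯.τ_neg f hf]

/-- **(G2)** -/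
theorem smithG2 (h2 : (2 : K) ≠ 0) (hw1 : w ≠ AlgEquiv.refl)
    (hfix : ∀ v : Place K F, 𝔰 • v ≠ v) {x : Pic0 K F} (hx : 𝔰 • x = x) :
    ∃ y : Pic0 K F, x = y + 𝔰 • y := by
  obtain ⟨D, h, rfl⟩ := exists_mk x
  rw [smul_mk, eq_comm, mk_eq_mk_iff] at hx
  obtain ⟨f, hf, hD⟩ := hx
  obtain ⟨g, hg0, hg⟩ := exists_invariant hw h2 hw1 hf hD
  obtain ⟨D₁, hD₁⟩ := exists_half hw hg (fun v hv => absurd hv (hfix v))
  have hdeg : D₁ ∈ Divisor.degZero (K := K) (F := F) := by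
    rw [Divisor.mem_degZero] at h ⊢
    have h3 := congrArg Divisor.degree hD₁
    rw [map_add, map_add, SemilinearAut.degree_smul, h, degree_div] at h3
    omega
  refine ⟨Pic0.mk ⟨D₁, hdeg⟩, ?_⟩
  have hdeg' : D₁ + 𝔰 • D₁ ∈ Divisor.degZero (K := K) (F := F) :=
    add_mem hdeg (SemilinearAut.smul_mem_degZero 𝔰 hdeg)
  rw [smul_mk, ← mk_add hdeg (SemilinearAut.smul_mem_degZero 𝔰 hdeg) hdeg', mk_eq_mk_iff]
  exact ⟨g, hg0, hD₁.symm⟩

/-- **(G3)** -/
theorem smithG3 (h2 : (2 : K) ≠ 0) (hw1 : w ≠ AlgEquiv.refl) (𝒯 : EvenCorr w) {D : Divisor K F}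
    (h : D ∈ Divisor.degZero (K := K) (F := F)) (hsD : 𝔰 • D = D) {y : Pic0 K F}
    (hy : Pic0.mk ⟨D, h⟩ = y + 𝔰 • y) (v : Place K F) (hv : 𝔰 • v = v) : Even (𝒯.T D v) := by
  obtain ⟨E, hE, rfl⟩ := exists_mk y
  have hE' : E + 𝔰 • E ∈ Divisor.degZero (K := K) (F := F) :=
    add_mem hE (SemilinearAut.smul_mem_degZero 𝔰 hE)
  rw [smul_mk, ← mk_add hE (SemilinearAut.smul_mem_degZero 𝔰 hE) hE', eq_comm,
    mk_eq_mk_iff] at hy
  obtain ⟨f, hf, hD⟩ := hy
  have hinv : 𝔰 • (div f : Divisor K F) = div f := by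
    have h1 : (div f : Divisor K F) = D - (E + 𝔰 • E) := by rw [hD]; abel
    rw [h1, smul_sub, smul_add, smul_smul_div hw, hsD, add_comm (𝔰 • E) E]
  have hwf : w (𝒯.τ f) = 𝒯.τ f := by
    rw [← 𝒯.τ_w f hf]
    rcases eq_or_neg_of_div_invariant hw hf hinv with h1 | h1
    · rw [h1]
    · rw [h1, 𝒯.τ_neg f hf]
  obtain ⟨g, hg⟩ := exists_norm_eq hw h2 hw1 hwf
  have hg0 : g ≠ 0 := by
    rintro rfl
    apply 𝒯.τ_ne f hf
    rw [← hg, zero_mul]
  have hwg0 : w g ≠ 0 := (map_ne_zero w).mpr hg0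
  have h4 : 𝒯.T D = (𝒯.T E + div g) + 𝔰 • (𝒯.T E + div g) := by
    rw [hD, map_add, map_add, 𝒯.T_div f hf, ← hg, RR.div_mul hg0 hwg0, smul_add, 𝒯.T_smul,
      smul_div_w]
    abel
  rw [h4, Finsupp.add_apply, smul_apply_place hw, hv]
  exact ⟨_, rfl⟩

/-- **(G4)**, first part. -/
theorem smithG4 {D D' : Divisor K F} (h : D ∈ Divisor.degZero (K := K) (F := F))
    (h' : D' ∈ Divisor.degZero (K := K) (F := F)) (hsD : 𝔰 • D = D) (hsD' : 𝔰 • D' = D')
    (he : ∀ v : Place K F, 𝔰 • v = v → Even (D v - D' v)) :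
    ∃ y : Pic0 K F, Pic0.mk ⟨D, h⟩ - Pic0.mk ⟨D', h'⟩ = y + 𝔰 • y := by
  obtain ⟨D₁, hD₁⟩ := exists_half hw (D := D - D') (by rw [smul_sub, hsD, hsD'])
    (fun v hv => by rw [Finsupp.sub_apply]; exact he v hv)
  have hdeg : D₁ ∈ Divisor.degZero (K := K) (F := F) := by
    rw [Divisor.mem_degZero] at h h' ⊢
    have h3 := congrArg Divisor.degree hD₁
    rw [map_add, map_sub, SemilinearAut.degree_smul, h, h'] at h3
    omega
  refine ⟨Pic0.mk ⟨D₁, hdeg⟩, ?_⟩
  have hdeg' : D₁ + 𝔰 • D₁ ∈ Divisor.degZero (K := K) (F := F) :=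
    add_mem hdeg (SemilinearAut.smul_mem_degZero 𝔰 hdeg)
  rw [smul_mk, ← mk_add hdeg (SemilinearAut.smul_mem_degZero 𝔰 hdeg) hdeg',
    ← mk_sub h h' (sub_mem h h')]
  exact mk_congr _ _ hD₁

/-- The divisor with prescribed parities. -/
theorem exists_parity (X : Finset (Place K F)) (hX : ∀ v ∈ X, 𝔰 • v = v) (hc : Even X.card) :
    ∃ D : Divisor K F, D ∈ Divisor.degZero (K := K) (F := F) ∧ 𝔰 • D = D ∧
      ∀ v : Place K F, 𝔰 • v = v → (Odd (D v) ↔ v ∈ X) := by
  classical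
  obtain ⟨n, hn⟩ := hc
  obtain ⟨P⟩ : Nonempty (Place K F) := inferInstance
  set P₁ : Divisor K F := Finsupp.single P 1 with hP₁
  set S : Divisor K F := ∑ v ∈ X, Finsupp.single v 1 with hS
  have hSv : ∀ v : Place K F, S v = if v ∈ X then 1 else 0 := by
    intro v
    rw [hS, Finsupp.finset_sum_apply]
    simp [Finsupp.single_apply]
  refine ⟨S - (n : ℤ) • (P₁ + 𝔰 • P₁), ?_, ?_, ?_⟩
  · rw [Divisor.mem_degZero, map_sub, map_zsmul, map_add, SemilinearAut.degree_smul, hP₁,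
      degree_single_one, hS, map_sum]
    simp only [degree_single_one, Finset.sum_const, hn, nsmul_eq_mul, smul_eq_mul]
    push_cast
    ring
  · rw [smul_sub, smul_zsmul_div, smul_add, smul_smul_div hw, add_comm (𝔰 • P₁) P₁]
    congr 1
    ext v
    rw [smul_apply_place hw, hSv, hSv]
    congr 1
    by_cases h : v ∈ X
    · simp [h, hX v h]
    · simp only [h, eq_iff_iff, iff_false]
      intro h'
      apply h
      have := hX _ h'
      rw [smul_smul_place hw] at this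
      rwa [← this] at h'
  · intro v hv
    rw [Finsupp.sub_apply, Finsupp.smul_apply, Finsupp.add_apply, smul_apply_place hw, hv, hSv]
    by_cases h : v ∈ X
    · simp only [h, if_true, iff_true]
      refine ⟨-(n * P₁ v), ?_⟩
      rw [smul_eq_mul]
      ring
    · simp only [h, if_false, iff_false, Int.not_odd_iff_even]
      refine ⟨-(n * P₁ v), ?_⟩
      rw [smul_eq_mul]
      ring

end main

end Fermat.Agent.LTF.Smith
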