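import Fermat.Agent.LTF.SmithZero
import Fermat.Agent.RedInj.Torsion

/-!
# Tsen's theorem for ternary quadratic forms and the norm of an involution
-/

set_option autoImplicit false

open AlgebraicCurve WithZero Module
open scoped IntermediateField

namespace Fermat.Agent.LTF.Smith

open Fermat.Agent.RR Fermat.Agent.FF Fermat.Agent.RedInj

section tsen

/-- **Tsen**: `x² - d y² = a z²` has a nontrivial solution in a function field. -/
theorem tsen (K : Type*) {E : Type*} [Field K] [IsAlgClosed K] [Field E] [Algebra K E]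
    [IsFF K E] (a d : E) :
    ∃ x y z : E, (x ≠ 0 ∨ y ≠ 0 ∨ z ≠ 0) ∧ x ^ 2 - d * y ^ 2 = a * z ^ 2 := by
  classical
  obtain ⟨v₀⟩ : Nonempty (Place K E) := inferInstance
  set C : Divisor K E := pole d + pole a with hC
  have hC0 : 0 ≤ C := add_nonneg (pole_nonneg d) (pole_nonneg a)
  set g : ℕ := genusFF K E with hg
  -- the degree
  set n : ℕ := (Divisor.degree C).toNat + 3 * g + 3 with hn
  set D : Divisor K E := Finsupp.single v₀ (n : ℤ) with hD
  have hdegD : Divisor.degree D = n := degree_single_one v₀ n
  set D' : Divisor K E := D + D + C with hD'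
  have hdegC : 0 ≤ Divisor.degree C := degree_nonneg hC0
  have hdegC' : ((Divisor.degree C).toNat : ℤ) = Divisor.degree C := Int.toNat_of_nonneg hdegC
  have h1 : (ell D : ℤ) = n + 1 - g := by
    rw [ell_eq' (by rw [hdegD]; push_cast [hn]; omega), hdegD]
  have h2 : (ell D' : ℤ) = n + n + Divisor.degree C + 1 - g := by
    have : Divisor.degree D' = n + n + Divisor.degree C := by
      rw [hD', map_add, map_add, hdegD]
    rw [ell_eq' (by rw [this]; push_cast [hn]; omega), this]
  have hU : ∀ {e : E}, e ∈ riemannRochSpace C → ∀ {f g : E}, f ∈ riemannRochSpace D →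
      g ∈ riemannRochSpace D → e * (f * g) ∈ riemannRochSpace D' := by
    intro e he f g hf hg
    rw [hD', add_comm (D + D) C]
    exact mul_mem_L he (mul_mem_L hf hg)
  have hone : (1 : E) ∈ riemannRochSpace C := by
    intro v
    rw [map_one, ← exp_zero, exp_le_exp]
    exact hC0 v
  have hdC : d ∈ riemannRochSpace C := by
    intro v
    refine (mem_riemannRochSpace_pole (K := K) d v).trans ?_
    rw [exp_le_exp]
    have := pole_nonneg (K := K) a v
    change (pole d : Divisor K E) v ≤ (pole d : Divisor K E) v + (pole a : Divisor K E) v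
    exact le_add_of_nonneg_right this
  have haC : a ∈ riemannRochSpace C := by
    intro v
    refine (mem_riemannRochSpace_pole (K := K) a v).trans ?_
    rw [exp_le_exp]
    have := pole_nonneg (K := K) d v
    change (pole a : Divisor K E) v ≤ (pole d : Divisor K E) v + (pole a : Divisor K E) v
    exact le_add_of_nonneg_left this
  let L := riemannRochSpace D
  let U := riemannRochSpace D'
  let B₀ : (L × L × L) →ₗ[K] (L × L × L) →ₗ[K] E := LinearMap.mk₂ K
    (fun u v => (u.1 : E) * v.1 - d * ((u.2.1 : E) * v.2.1) - a * ((u.2.2 : E) * v.2.2))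
    (by intro u u' v; simp; ring) (by intro c u v; simp [smul_sub])
    (by intro u v v'; simp; ring) (by intro c u v; simp [smul_sub])
  have hB₀ : ∀ u v, B₀ u v ∈ U := by
    intro u v
    refine sub_mem (sub_mem ?_ ?_) ?_
    · have := hU hone u.1.2 v.1.2
      rwa [one_mul] at this
    · exact hU hdC u.2.1.2 v.2.1.2
    · exact hU haC u.2.2.2 v.2.2.2
  let B : (L × L × L) →ₗ[K] (L × L × L) →ₗ[K] U := LinearMap.mk₂ K
    (fun u v => ⟨B₀ u v, hB₀ u v⟩)
    (by intro u u' v; ext; simp) (by intro c u v; ext; simp)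
    (by intro u v v'; ext; simp) (by intro c u v; ext; simp)
  have hfin : finrank K U < finrank K (L × L × L) := by
    rw [Module.finrank_prod, Module.finrank_prod]
    change ell D' < ell D + (ell D + ell D)
    zify
    rw [h1, h2]
    push_cast [hn]
    omega
  obtain ⟨⟨x, y, z⟩, hne, hz⟩ := exists_quadratic_zero B hfin
  have hz' : (x : E) * x - d * ((y : E) * y) - a * ((z : E) * z) = 0 :=
    congrArg Subtype.val hz
  refine ⟨x, y, z, ?_, ?_⟩
  · by_contra hcon
    push Not at hcon
    apply hne
    obtain ⟨hx, hy, hzz⟩ := hcon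
    rw [Prod.mk_eq_zero, Prod.mk_eq_zero]
    exact ⟨Subtype.ext hx, Subtype.ext hy, Subtype.ext hzz⟩
  · linear_combination hz'

end tsen

section fixed

variable {K F : Type*} [Field K] [Field F] [Algebra K F]

/-- An intermediate field over which `F` is algebraic is again a function field. -/
theorem isFF_intermediate [IsFF K F] (E : IntermediateField K F) [Algebra.IsAlgebraic E F] :
    IsFF K E where
  exists_transcendental := by
    by_contra h
    push Not at h
    have h1 : Algebra.IsAlgebraic K E := ⟨fun x => by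
      have := h x
      rwa [Transcendental, not_not] at this⟩
    have h2 : Algebra.IsAlgebraic K F := Algebra.IsAlgebraic.trans K E F
    obtain ⟨x, hx⟩ := IsFF.exists_transcendental (K := K) (F := F)
    exact hx (h2.isAlgebraic x)
  finite_adjoin x hx := by
    have hx' : Transcendental K (x : F) := by
      intro h
      apply hx
      exact (isAlgebraic_algebraMap_iff (S := E) (A := F) (algebraMap E F).injective).mp h
    have h1 : FiniteDimensional K⟮(x : F)⟯ F := IsFF.finite_adjoin (x : F) hx'
    have hle : K⟮(x : F)⟯ ≤ E := by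
      rw [IntermediateField.adjoin_simple_le_iff]
      exact x.2
    let E' : IntermediateField K⟮(x : F)⟯ F := IntermediateField.extendScalars hle
    have h2 : FiniteDimensional K⟮(x : F)⟯ E' := inferInstance
    -- transfer
    have hmap : (K⟮x⟯ : IntermediateField K E).map E.val = K⟮(x : F)⟯ := by
      rw [IntermediateField.adjoin_map, Set.image_singleton]
      rfl
    let e1 : (K⟮x⟯ : IntermediateField K E) ≃ₐ[K] K⟮(x : F)⟯ :=
      (IntermediateField.equivMap K⟮x⟯ E.val).trans (IntermediateField.equivOfEq hmap)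
    let e2 : E' ≃+* E :=
      { toFun := fun y => ⟨(y : F), y.2⟩
        invFun := fun y => ⟨(y : F), y.2⟩
        left_inv := fun y => rfl
        right_inv := fun y => rfl
        map_mul' := fun y z => rfl
        map_add' := fun y z => rfl }
    refine Module.Finite.of_equiv_equiv e1.symm.toRingEquiv e2 ?_
    ext y
    obtain ⟨z, rfl⟩ := e1.surjective y
    change (((e1.symm (e1 z) : K⟮x⟯) : E) : F) = ((e1 z : K⟮(x : F)⟯) : F)
    rw [AlgEquiv.symm_apply_apply]
    rfl

end fixed

section inv

variable {K F : Type*} [Field K] [Field F] [Algebra K F] (w : F ≃ₐ[K] F)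

/-- The fixed field of an automorphism. -/
def fixE : IntermediateField K F where
  carrier := {f | w f = f}
  mul_mem' := fun {a b} ha hb => by
    rw [Set.mem_ofPred_eq] at *
    rw [map_mul, ha, hb]
  add_mem' := fun {a b} ha hb => by
    rw [Set.mem_ofPred_eq] at *
    rw [map_add, ha, hb]
  algebraMap_mem' := fun r => w.commutes r
  inv_mem' := fun a ha => by
    change w a⁻¹ = a⁻¹
    rw [map_inv₀]
    exact congrArg _ ha

theorem mem_fixE {f : F} : f ∈ fixE w ↔ w f = f := Iff.rfl

variable {w} (hw : ∀ f, w (w f) = f)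

include hw

theorem algebraic_fixE : Algebra.IsAlgebraic (fixE w) F := by
  refine ⟨fun f => ?_⟩
  have h1 : f + w f ∈ fixE w := by rw [mem_fixE, map_add, hw, add_comm]
  have h2 : f * w f ∈ fixE w := by rw [mem_fixE, map_mul, hw, mul_comm]
  refine ⟨Polynomial.X ^ 2 - Polynomial.C ⟨_, h1⟩ * Polynomial.X + Polynomial.C ⟨_, h2⟩, ?_, ?_⟩
  · intro h
    have := congrArg (fun p => Polynomial.coeff p 2) h
    simp at this
  · simp only [map_add, map_sub, map_mul, map_pow, Polynomial.aeval_X, Polynomial.aeval_C]
    change f ^ 2 - (f + w f) * f + f * w f = 0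
    ring

theorem isFF_fixE [IsFF K F] : IsFF K (fixE w) :=
  have := algebraic_fixE hw
  isFF_intermediate _

theorem exists_anti (h2 : (2 : K) ≠ 0) (hw1 : w ≠ AlgEquiv.refl) :
    ∃ h : F, h ≠ 0 ∧ w h = - h := by
  obtain ⟨f, hf⟩ : ∃ f, w f ≠ f := by
    by_contra hcon
    push Not at hcon
    exact hw1 (AlgEquiv.ext hcon)
  refine ⟨f - w f, sub_ne_zero.mpr (Ne.symm hf), ?_⟩
  rw [map_sub, hw]
  ring

/-- The norm of an involution of a function field over an algebraically closed field is
surjective. -/
theorem exists_norm_eq [IsAlgClosed K] [IsFF K F] (h2 : (2 : K) ≠ 0) (hw1 : w ≠ AlgEquiv.refl)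
    {a : F} (ha : w a = a) : ∃ g : F, g * w g = a := by
  rcases eq_or_ne a 0 with rfl | ha0
  · exact ⟨0, by simp⟩
  have := isFF_fixE hw
  obtain ⟨h, h0, hh⟩ := exists_anti hw h2 hw1
  have h2F : (2 : F) ≠ 0 := by
    have := (map_ne_zero (algebraMap K F)).mpr h2
    rwa [map_ofNat] at this
  have hd : h ^ 2 ∈ fixE w := by rw [mem_fixE, map_pow, hh, neg_sq]
  obtain ⟨x, y, z, hne, heq⟩ := tsen K (⟨a, ha⟩ : fixE w) ⟨h ^ 2, hd⟩
  have heq' : (x : F) ^ 2 - h ^ 2 * (y : F) ^ 2 = a * (z : F) ^ 2 := congrArg Subtype.val heq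
  have hx : w (x : F) = x := x.2
  have hy : w (y : F) = y := y.2
  have hz : w (z : F) = z := z.2
  have hN : ((x : F) + h * y) * w ((x : F) + h * y) = a * (z : F) ^ 2 := by
    rw [map_add, map_mul, hx, hy, hh, ← heq']
    ring
  have hz0 : (z : F) ≠ 0 := by
    intro hz0
    rw [hz0] at hN
    have h3 : (x : F) + h * y = 0 := by
      have : ((x : F) + h * y) * w ((x : F) + h * y) = 0 := by rw [hN]; ring
      rcases mul_eq_zero.mp this with h | h
      · exact h
      · exact (map_eq_zero w).mp h
    have h4 : (x : F) - h * y = 0 := by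
      have := congrArg w h3
      rw [map_add, map_mul, hx, hy, hh, map_zero] at this
      linear_combination this
    have h5 : (x : F) = 0 := by
      have : (2 : F) * x = 0 := by linear_combination h3 + h4
      exact (mul_eq_zero.mp this).resolve_left h2F
    have h6 : (y : F) = 0 := by
      rw [h5, zero_add] at h3
      exact (mul_eq_zero.mp h3).resolve_left h0
    rcases hne with h | h | h
    · exact h (Subtype.ext h5)
    · exact h (Subtype.ext h6)
    · exact h (Subtype.ext hz0)
  refine ⟨((x : F) + h * y) / z, ?_⟩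
  rw [map_div₀, hz, div_mul_div_comm, hN]
  field_simp

/-- Hilbert 90. -/
theorem hilbert90 (h2 : (2 : K) ≠ 0) (hw1 : w ≠ AlgEquiv.refl) {f : F} (hf : f * w f = 1) :
    ∃ g : F, g ≠ 0 ∧ f * w g = g := by
  obtain ⟨h, h0, hh⟩ := exists_anti hw h2 hw1
  by_cases h1 : (1 : F) + f = 0
  · refine ⟨h, h0, ?_⟩
    rw [hh]
    have : f = -1 := by linear_combination h1
    rw [this]; ring
  · refine ⟨1 + f, h1, ?_⟩
    rw [map_add, map_one, mul_add, hf]
    ring

end inv

end Fermat.Agent.LTF.Smith
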