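import Mathlib.RingTheory.Ideal.KrullsHeightTheorem
import Mathlib.RingTheory.KrullDimension.Polynomial
import Mathlib.RingTheory.KrullDimension.Field
import Mathlib.RingTheory.Nullstellensatz
import Mathlib.LinearAlgebra.Dimension.Finrank
import Mathlib.LinearAlgebra.FiniteDimensional.Basic
import Mathlib.LinearAlgebra.FreeModule.Finite.Matrix

/-!
# Common zeros of few polynomials in many variables over an algebraically closed field
-/

set_option autoImplicit false

namespace Fermat.Agent.LTF.Smith

open MvPolynomial

/-- Translation automorphism of a polynomial ring. -/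
noncomputable def transl {K : Type*} [Field K] {σ : Type*} (x : σ → K) :
    MvPolynomial σ K ≃+* MvPolynomial σ K :=
  (AlgEquiv.ofAlgHom (aeval fun i => X i + C (x i)) (aeval fun i => X i - C (x i))
    (by ext i; simp) (by ext i; simp)).toRingEquiv

theorem eval_transl {K : Type*} [Field K] {σ : Type*} (x y : σ → K) (p : MvPolynomial σ K) :
    aeval y (transl x p) = aeval (y + x) p := by
  have : ((aeval y : MvPolynomial σ K →ₐ[K] K).comp (aeval fun i => X i + C (x i))) =
      aeval (y + x) := by
    ext i; simp
  exact AlgHom.congr_fun this p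

theorem height_vanishingIdeal_zero {K : Type*} [Field K] [IsAlgClosed K] {n : ℕ} :
    (n : ℕ∞) ≤ (vanishingIdeal K {(0 : Fin n → K)}).height := by
  have h1 := Ideal.sup_isMaximal_height_eq_ringKrullDim (R := MvPolynomial (Fin n) K)
  rw [MvPolynomial.ringKrullDim_of_isNoetherianRing, ringKrullDim_eq_zero_of_field, zero_add,
    Nat.card_fin] at h1
  have h2 : (⨆ (I : Ideal (MvPolynomial (Fin n) K)) (_ : I.IsMaximal), I.height) = (n : ℕ∞) := by
    exact_mod_cast h1
  rw [← h2]
  refine iSup₂_le fun I hI => ?_
  obtain ⟨x, rfl⟩ := isMaximal_iff_eq_vanishingIdeal_singleton.mp hI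
  rw [← RingEquiv.height_comap (transl x) (vanishingIdeal K {(0 : Fin n → K)})]
  refine le_of_eq ?_
  congr 1
  ext p
  rw [Ideal.mem_comap, mem_vanishingIdeal_iff, mem_vanishingIdeal_iff]
  simp only [Set.mem_singleton_iff, forall_eq]
  have := eval_transl x 0 p
  rw [zero_add] at this
  rw [← this]

theorem exists_common_zero {K : Type*} [Field K] [IsAlgClosed K] {n : ℕ}
    (s : Finset (MvPolynomial (Fin n) K)) (hs : ∀ f ∈ s, aeval (0 : Fin n → K) f = 0)
    (hcard : s.card < n) : ∃ x : Fin n → K, x ≠ 0 ∧ ∀ f ∈ s, aeval x f = 0 := by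
  by_contra h
  push Not at h
  have hz : zeroLocus K (Ideal.span (s : Set (MvPolynomial (Fin n) K))) = {0} := by
    ext x
    rw [mem_zeroLocus_iff, Set.mem_singleton_iff]
    constructor
    · intro hx
      by_contra hx0
      obtain ⟨f, hf, hne⟩ := h x hx0
      exact hne (hx f (Ideal.subset_span hf))
    · rintro rfl p hp
      have hle : Ideal.span (s : Set (MvPolynomial (Fin n) K)) ≤
          vanishingIdeal K {(0 : Fin n → K)} := by
        rw [Ideal.span_le]
        intro f hf x hx
        rw [Set.mem_singleton_iff] at hx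
        subst hx
        exact hs f hf
      exact hle hp 0 rfl
  have hrad := vanishingIdeal_zeroLocus_eq_radical (K := K)
    (Ideal.span (s : Set (MvPolynomial (Fin n) K)))
  rw [hz] at hrad
  have hmax : (vanishingIdeal K {(0 : Fin n → K)}).IsMaximal :=
    isMaximal_iff_eq_vanishingIdeal_singleton.mpr ⟨0, rfl⟩
  have hmin : vanishingIdeal K {(0 : Fin n → K)} ∈
      (Ideal.span (s : Set (MvPolynomial (Fin n) K))).minimalPrimes := by
    refine ⟨⟨hmax.isPrime, ?_⟩, ?_⟩
    · rw [hrad]; exact Ideal.le_radical
    · rintro J ⟨hJ, hle⟩ _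
      rw [hrad]
      exact hJ.radical_le_iff.mpr hle
  have h1 := Ideal.height_le_card_of_mem_minimalPrimes_span_finset hmin
  have h2 := (height_vanishingIdeal_zero (K := K) (n := n)).trans h1
  have h3 : n ≤ s.card := by exact_mod_cast h2
  omega

/-- A quadratic map between finite-dimensional vector spaces over an algebraically closed field
which decreases the dimension has a nontrivial zero. -/
theorem exists_quadratic_zero {K V U : Type*} [Field K] [IsAlgClosed K] [AddCommGroup V]
    [Module K V] [AddCommGroup U] [Module K U] [FiniteDimensional K V] [FiniteDimensional K U]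
    (B : V →ₗ[K] V →ₗ[K] U) (h : Module.finrank K U < Module.finrank K V) :
    ∃ v : V, v ≠ 0 ∧ B v v = 0 := by
  classical
  let bV := Module.finBasis K V
  let bU := Module.finBasis K U
  let f : Fin (Module.finrank K U) → MvPolynomial (Fin (Module.finrank K V)) K := fun k =>
    ∑ i, ∑ j, C (bU.repr (B (bV i) (bV j)) k) * X i * X j
  have hf : ∀ (x : Fin (Module.finrank K V) → K) k,
      aeval x (f k) = bU.repr (B (∑ i, x i • bV i) (∑ j, x j • bV j)) k := by
    intro x k
    simp only [f, map_sum, map_mul, aeval_X, LinearMap.sum_apply, map_smul, LinearMap.smul_apply,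
      Finsupp.coe_finsetSum, Finset.sum_apply, Finsupp.smul_apply, smul_eq_mul, algHom_C,
      Algebra.algebraMap_self, RingHom.id_apply, Finset.mul_sum]
    rw [Finset.sum_comm]
    refine Finset.sum_congr rfl fun i _ => Finset.sum_congr rfl fun j _ => ?_
    ring
  obtain ⟨x, hx0, hx⟩ := exists_common_zero (Finset.univ.image f) (fun p hp => by
      obtain ⟨k, -, rfl⟩ := Finset.mem_image.mp hp
      rw [hf]
      simp) (lt_of_le_of_lt Finset.card_image_le (by simpa using h))
  refine ⟨∑ i, x i • bV i, ?_, ?_⟩
  · intro h0
    apply hx0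
    have := bV.linearIndependent
    rw [Fintype.linearIndependent_iff] at this
    funext i
    exact this x h0 i
  · apply bU.repr.injective
    ext k
    rw [← hf, hx _ (Finset.mem_image_of_mem _ (Finset.mem_univ k)), map_zero, Finsupp.zero_apply]

end Fermat.Agent.LTF.Smith
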