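import Fermat.Agent.LTF.StDef
import Fermat.Agent.TW.InertiaField
import Fermat.Agent.Frob.Exists

/-!
# The local condition `St_q`: independence of the place, and the deep primes
-/

set_option autoImplicit false

noncomputable section

namespace Fermat.Agent.LTF

open Matrix Fermat.Agent.S53norm
open scoped Pointwise

/-- the element `z^{unrDeg}` at a power of Frobenius times inertia -/
lemma pow_unrDeg_frob {R : Type*} [CommRing R] {z : R} (hz : z * z = 1) {q : ℕ} (hq : q.Prime)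
    {A : ValuationSubring (AlgebraicClosure ℚ)} (hA : A.LiesOverPrime q)
    {φ τ : AlgebraicClosure ℚ ≃ₐ[ℚ] AlgebraicClosure ℚ} (hφ : A.IsFrobeniusAt φ q)
    (hτ : τ ∈ A.inertiaSubgroupIn ℚ) (n : ℕ) : z ^ unrDeg q (φ ^ n * τ) = z ^ n := by
  have hφD := hφ.mem_decompositionSubgroup
  have hτD : τ ∈ A.decompositionSubgroup ℚ := Fermat.Agent.TW.inertia_le_decomp hτ
  have h1 : ∀ n : ℕ, z ^ unrDeg q (φ ^ n) = z ^ n := by
    intro n
    induction n with
    | zero => rw [pow_zero, unrDeg_one, pow_zero]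
    | succ n ih =>
      rw [pow_succ, pow_unrDeg_mul hz hq hA (Subgroup.pow_mem _ hφD n) hφD, ih,
        unrDeg_frob hq hA hφ, pow_one, pow_succ]
  rw [pow_unrDeg_mul hz hq hA (Subgroup.pow_mem _ hφD n) hτD, h1, unrDeg_inertia hq hA hτ,
    pow_zero, mul_one]

/-- `unrDeg` only depends on the restriction to a field containing the roots of unity. -/
lemma unrDeg_congr {q : ℕ} {σ τ : AlgebraicClosure ℚ ≃ₐ[ℚ] AlgebraicClosure ℚ}
    (h : ∀ x : AlgebraicClosure ℚ, x ^ (q ^ 2 - 1) = 1 → σ x = τ x) :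
    unrDeg q σ = unrDeg q τ := by
  have key : unrDeg q σ = 0 ↔ unrDeg q τ = 0 := by
    rw [unrDeg_eq_zero_iff, unrDeg_eq_zero_iff]
    exact ⟨fun h1 x hx => by rw [← h x hx, h1 x hx], fun h1 x hx => by rw [h x hx, h1 x hx]⟩
  rcases unrDeg_eq_zero_or_one q σ with h3 | h3 <;>
    rcases unrDeg_eq_zero_or_one q τ with h4 | h4 <;> omega

/-- The unramified degree is a class function. -/
lemma unrDeg_conj (q : ℕ) (γ σ : AlgebraicClosure ℚ ≃ₐ[ℚ] AlgebraicClosure ℚ) :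
    unrDeg q (γ⁻¹ * σ * γ) = unrDeg q σ := by
  have key : unrDeg q (γ⁻¹ * σ * γ) = 0 ↔ unrDeg q σ = 0 := by
    rw [unrDeg_eq_zero_iff, unrDeg_eq_zero_iff]
    constructor
    · intro h x hx
      have h1 := h (γ⁻¹ x) (by rw [← map_pow, hx, map_one])
      have h2 : (γ⁻¹ * σ * γ) (γ⁻¹ x) = γ⁻¹ (σ x) := by
        change γ⁻¹ (σ (γ (γ⁻¹ x))) = _
        have : γ (γ⁻¹ x) = x := γ.apply_symm_apply x
        rw [this]
      rw [h2] at h1
      exact (γ⁻¹).injective h1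
    · intro h x hx
      have h1 := h (γ x) (by rw [← map_pow, hx, map_one])
      change γ⁻¹ (σ (γ x)) = x
      rw [h1]
      exact γ.symm_apply_apply x
  rcases unrDeg_eq_zero_or_one q (γ⁻¹ * σ * γ) with h3 | h3 <;>
    rcases unrDeg_eq_zero_or_one q σ with h4 | h4 <;> omega

/-- On a finite layer every element of the decomposition group is a power of Frobenius times an
element of the inertia group; the exponent computes the unramified character. -/
theorem exists_frob_decomp {q : ℕ} (hq : q.Prime) {A : ValuationSubring (AlgebraicClosure ℚ)}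
    (hA : A.LiesOverPrime q) {φ : AlgebraicClosure ℚ ≃ₐ[ℚ] AlgebraicClosure ℚ}
    (hφ : A.IsFrobeniusAt φ q) (L : IntermediateField ℚ (AlgebraicClosure ℚ))
    [FiniteDimensional ℚ L] (s : Finset (AlgebraicClosure ℚ))
    {σ : AlgebraicClosure ℚ ≃ₐ[ℚ] AlgebraicClosure ℚ} (hσ : σ ∈ A.decompositionSubgroup ℚ) :
    ∃ n : ℕ, ∃ τ ∈ A.inertiaSubgroupIn ℚ, (∀ x ∈ L, σ x = (φ ^ n * τ) x) ∧
      (∀ x ∈ s, σ x = (φ ^ n * τ) x) ∧ unrDeg q σ = unrDeg q (φ ^ n * τ) := by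
  classical
  obtain ⟨F, hLF, hsF, hfd, hgal⟩ := Fermat.Agent.TW.exists_galois_ge_finset
    (s ∪ Polynomial.nthRootsFinset (q ^ 2 - 1) (1 : AlgebraicClosure ℚ)) L
  obtain ⟨n, τ, hτ, h1⟩ :=
    Fermat.Agent.TW.exists_frob_pow_mul_inertia hq hA hφ F hσ
  refine ⟨n, τ, hτ, fun x hx => h1 x (hLF hx),
    fun x hx => h1 x (hsF x (Finset.mem_union_left _ hx)), ?_⟩
  refine unrDeg_congr fun x hx => h1 x (hsF x (Finset.mem_union_right _ ?_))
  rw [Polynomial.mem_nthRootsFinset (sq_sub_one_pos hq)]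
  exact hx

lemma conj_mem_decomp {A : ValuationSubring (AlgebraicClosure ℚ)}
    {g σ : AlgebraicClosure ℚ ≃ₐ[ℚ] AlgebraicClosure ℚ}
    (h : σ ∈ (g • A).decompositionSubgroup ℚ) : g⁻¹ * σ * g ∈ A.decompositionSubgroup ℚ := by
  have h1 : σ • (g • A) = g • A := h
  change (g⁻¹ * σ * g) • A = A
  rw [mul_smul, mul_smul, h1, inv_smul_smul]

section place

variable {R : Type*} [CommRing R] {q : ℕ} {A A' : ValuationSubring (AlgebraicClosure ℚ)}

/-- The condition `St_q` does not depend on the place above `q`. -/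
theorem StMat.place {r : (AlgebraicClosure ℚ ≃ₐ[ℚ] AlgebraicClosure ℚ) →*
    Matrix (Fin 2) (Fin 2) R} {U : R} (h : StMat q A r U) (hq : q.Prime)
    (hA : A.LiesOverPrime q) (hA' : A'.LiesOverPrime q) : StMat q A' r U := by
  obtain ⟨γ, rfl⟩ := Fermat.Agent.Frob.exists_smul_eq hq hA hA'
  refine ⟨h.1, fun g hg g' hg' => ?_⟩
  have h1 := h.2 _ (conj_mem_decomp hg) _ (conj_mem_decomp hg')
  rw [unrDeg_conj, unrDeg_conj] at h1
  have hdet : (r (γ⁻¹ * g * γ)).det = (r g).det := by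
    rw [map_mul, map_mul, Matrix.det_mul, Matrix.det_mul, mul_comm, ← mul_assoc,
      ← Matrix.det_mul, ← map_mul, mul_inv_cancel, map_one, Matrix.det_one, one_mul]
  have hinv : r γ * r γ⁻¹ = 1 := by rw [← map_mul, mul_inv_cancel, map_one]
  have hinv' : r γ⁻¹ * r γ = 1 := by rw [← map_mul, inv_mul_cancel, map_one]
  have hconj : ∀ (g : AlgebraicClosure ℚ ≃ₐ[ℚ] AlgebraicClosure ℚ) (u : R),
      r (γ⁻¹ * g * γ) - u • (1 : Matrix (Fin 2) (Fin 2) R) =
        r γ⁻¹ * (r g - u • 1) * r γ := by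
    intro g u
    rw [map_mul, map_mul, mul_sub, sub_mul, Matrix.mul_smul, mul_one, Matrix.smul_mul, hinv']
  rw [hdet, hconj, hconj] at h1
  have e1 : ∀ X Y : Matrix (Fin 2) (Fin 2) R,
      r γ⁻¹ * X * r γ * (r γ⁻¹ * Y * r γ) = r γ⁻¹ * (X * Y) * r γ := by
    intro X Y
    calc _ = r γ⁻¹ * X * (r γ * r γ⁻¹) * Y * r γ := by simp only [mul_assoc]
      _ = _ := by rw [hinv, mul_one]; simp only [mul_assoc]
  rw [e1] at h1
  have h2 := congrArg (fun X => r γ * X * r γ⁻¹) h1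
  simp only [mul_zero, zero_mul] at h2
  calc _ = (r γ * r γ⁻¹) * ((r g - ((r g).det * U ^ unrDeg q g) • 1) *
        (r g' - (U ^ unrDeg q g') • 1)) * (r γ * r γ⁻¹) := by rw [hinv, one_mul, mul_one]
    _ = _ := by rw [← h2]; simp only [mul_assoc]

/-- The condition `St_q` does not depend on the place above `q`. -/
theorem StEnd.place {V : Type*} [AddCommGroup V] [Module R V]
    {ρ : (AlgebraicClosure ℚ ≃ₐ[ℚ] AlgebraicClosure ℚ) →*
      Module.End R V} {U : R} (h : StEnd q A ρ U) (hq : q.Prime)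
    (hA : A.LiesOverPrime q) (hA' : A'.LiesOverPrime q) : StEnd q A' ρ U := by
  obtain ⟨γ, rfl⟩ := Fermat.Agent.Frob.exists_smul_eq hq hA hA'
  refine ⟨h.1, fun g hg g' hg' => ?_⟩
  have h1 := h.2 _ (conj_mem_decomp hg) _ (conj_mem_decomp hg')
  rw [unrDeg_conj, unrDeg_conj] at h1
  have hdet : LinearMap.det (ρ (γ⁻¹ * g * γ)) = LinearMap.det (ρ g) := by
    have e : ρ γ * ρ γ⁻¹ = 1 := by rw [← map_mul, mul_inv_cancel, map_one]
    rw [map_mul, map_mul, map_mul, map_mul, mul_comm, ← mul_assoc,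
      ← map_mul, e, map_one, one_mul]
  have hinv : ρ γ * ρ γ⁻¹ = 1 := by rw [← map_mul, mul_inv_cancel, map_one]
  have hinv' : ρ γ⁻¹ * ρ γ = 1 := by rw [← map_mul, inv_mul_cancel, map_one]
  have hconj : ∀ (g : AlgebraicClosure ℚ ≃ₐ[ℚ] AlgebraicClosure ℚ) (u : R),
      ρ (γ⁻¹ * g * γ) - u • (1 : Module.End R V) =
        ρ γ⁻¹ * (ρ g - u • 1) * ρ γ := by
    intro g u
    rw [map_mul, map_mul, mul_sub, sub_mul, mul_smul_comm, mul_one, smul_mul_assoc, hinv']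
  rw [hdet, hconj, hconj] at h1
  have e1 : ∀ X Y : Module.End R V,
      ρ γ⁻¹ * X * ρ γ * (ρ γ⁻¹ * Y * ρ γ) = ρ γ⁻¹ * (X * Y) * ρ γ := by
    intro X Y
    calc _ = ρ γ⁻¹ * X * (ρ γ * ρ γ⁻¹) * Y * ρ γ := by simp only [mul_assoc]
      _ = _ := by rw [hinv, mul_one]; simp only [mul_assoc]
  rw [e1] at h1
  have h2 := congrArg (fun X => ρ γ * X * ρ γ⁻¹) h1
  simp only [mul_zero, zero_mul] at h2
  calc _ = (ρ γ * ρ γ⁻¹) * ((ρ g - (LinearMap.det (ρ g) * U ^ unrDeg q g) • 1) *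
        (ρ g' - (U ^ unrDeg q g') • 1)) * (ρ γ * ρ γ⁻¹) := by rw [hinv, one_mul, mul_one]
    _ = _ := by rw [← h2]; simp only [mul_assoc]

/-- **Deep primes.** If `r` is unramified at `q`, of finite level, and Frobenius acts as an
involution of determinant `-1` (a conjugate of complex conjugation), then `St_q` holds (for both
signs; in particular with `U = 1`). -/
theorem stMat_of_frob {r : (AlgebraicClosure ℚ ≃ₐ[ℚ] AlgebraicClosure ℚ) →*
    Matrix (Fin 2) (Fin 2) R} (hq : q.Prime) (hA : A.LiesOverPrime q)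
    (L : IntermediateField ℚ (AlgebraicClosure ℚ)) [FiniteDimensional ℚ L]
    (hL : ∀ σ : AlgebraicClosure ℚ ≃ₐ[ℚ] AlgebraicClosure ℚ, (∀ x ∈ L, σ x = x) → r σ = 1)
    (hI : ∀ τ ∈ A.inertiaSubgroupIn ℚ, r τ = 1)
    {φ : AlgebraicClosure ℚ ≃ₐ[ℚ] AlgebraicClosure ℚ} (hφ : A.IsFrobeniusAt φ q)
    (h2 : r φ * r φ = 1) (hdet : (r φ).det = -1) {U : R} (hU : U * U = 1) : StMat q A r U := by
  have key : ∀ g ∈ A.decompositionSubgroup ℚ, ∃ n : ℕ, r g = r φ ^ n ∧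
      U ^ unrDeg q g = U ^ n := by
    intro g hg
    obtain ⟨n, τ, hτ, h3, -, h4⟩ := exists_frob_decomp hq hA hφ L ∅ hg
    refine ⟨n, ?_, by rw [h4, pow_unrDeg_frob hU hq hA hφ hτ]⟩
    have h5 : r ((φ ^ n * τ)⁻¹ * g) = 1 := by
      refine hL _ fun x hx => ?_
      show (φ ^ n * τ).symm (g x) = x
      rw [h3 x hx, AlgEquiv.symm_apply_apply]
    have h6 : r g = r (φ ^ n * τ) := by
      calc r g = r ((φ ^ n * τ) * ((φ ^ n * τ)⁻¹ * g)) := by rw [mul_inv_cancel_left]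
        _ = _ := by rw [map_mul, h5, mul_one]
    rw [h6, map_mul, map_pow, hI τ hτ, mul_one]
  have hpow : ∀ n : ℕ, (r φ ^ n = 1 ∧ U ^ n = 1 ∧ (-1 : R) ^ n = 1) ∨
      (r φ ^ n = r φ ∧ U ^ n = U ∧ (-1 : R) ^ n = -1) := by
    intro n
    rcases Nat.even_or_odd' n with ⟨m, rfl | rfl⟩
    · left
      refine ⟨by rw [pow_mul, sq, h2, one_pow], by rw [pow_mul, sq, hU, one_pow], ?_⟩
      rw [pow_mul]; norm_num
    · right
      refine ⟨by rw [pow_succ, pow_mul, sq, h2, one_pow, one_mul],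
        by rw [pow_succ, pow_mul, sq, hU, one_pow, one_mul], ?_⟩
      rw [pow_succ, pow_mul]; norm_num
  refine ⟨hU, fun g hg g' hg' => ?_⟩
  obtain ⟨n, h3, h4⟩ := key g hg
  obtain ⟨n', h3', h4'⟩ := key g' hg'
  rw [h3, h4, h3', h4', Matrix.det_pow, hdet]
  rcases hpow n with ⟨a1, a2, a3⟩ | ⟨a1, a2, a3⟩
  · rw [a1, a2, a3, one_mul, one_smul, sub_self, zero_mul]
  · rcases hpow n' with ⟨b1, b2, -⟩ | ⟨b1, b2, -⟩
    · rw [b1, b2, one_smul, sub_self, mul_zero]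
    · rw [a1, a2, a3, b1, b2, neg_one_mul, neg_smul, sub_neg_eq_add, add_mul, mul_sub, mul_sub,
        h2, Matrix.mul_smul, mul_one, Matrix.smul_mul, one_mul, Matrix.smul_mul, one_mul, smul_smul,
        hU, one_smul]
      abel

end place

end Fermat.Agent.LTF
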