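import Fermat.Agent.LTF.Main
import Fermat.Agent.LTF.Gal.UB
import Fermat.Agent.LTF.Gal.Deep
import Fermat.Agent.LTF.Gal.PrePtCurve
import Fermat.Agent.LTF.Gal.KFieldW
import Fermat.Agent.LTF.Gal.FamilyStart
import Fermat.Agent.LTF.Theta.FamilyMain
import Fermat.Agent.LTF.RigidS
import Fermat.Agent.LTF.ArtFinal

/-!
# LTFREE: `StartAt` for good curves, and the 2-adic modularity theorem
-/

set_option autoImplicit false
set_option linter.style.haveILetI false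

noncomputable section

open ModularCurve Fermat.Agent.GalRep CongruenceSubgroup
open Fermat.Agent.LTF.BLR Fermat.Agent.LTF.Gal Fermat.Agent.LTF.TwoDiv
open Fermat.Agent.S53norm (HasMat M2)

namespace Fermat.Agent.LTF.StartEnd

/-- The theta family of a good curve at a set `Q` of auxiliary primes. -/
theorem exists_good_family {W : WeierstrassCurve ℤ} (hW : GoodCurve W)
    {rbar : GQ →* M2 (ZMod 2)} (h : TwoMat W rbar)
    {s : AlgebraicClosure ℚ} (hs : s ^ 2 = -(W.conductorLevel : AlgebraicClosure ℚ))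
    {Q : Finset ℕ} (hQ : ∀ q ∈ Q, q.Prime ∧ q ∉ W.Δ.natAbs.primeFactors ∧
        ∃ A : ValuationSubring (AlgebraicClosure ℚ), A.LiesOverPrime q ∧ ∃ φ : GQ,
          A.IsFrobeniusAt φ q ∧ rbar φ ≠ 1 ∧ rbar φ * rbar φ = 1)
    {M : ℕ} [NeZero M] (hM : M = W.conductorLevel * ∏ q ∈ Q, q) :
    ∃ (s' : ℕ → ZMod 2) (κ : Type) (_ : Field κ) (_ : CharP κ 2) (ψ₀ : integralClosure ℤ ℂ →+* κ)
      (ι : Type) (_ : Fintype ι) (f : ι → CuspForm (Gamma0 M) 2),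
      h2 (KField.KK s) * 2 ^ Q.card ≤ Fintype.card ι ∧
      Fam.IsFamily W.Δ.natAbs.primeFactors Q s' f ψ₀ ∧ ∀ T : Finset ℕ, Fam.Rigid rbar s' T := by
  classical
  have hne : W.Δ ≠ 0 := hW.neg.ne
  obtain ⟨ψ, hψ, -, hrig⟩ :=
    ArtC.exists_rigid_resData (TwoDiv.resData_of_goodCurve hW h) hs
  have hIQ : Theta.IQ (KField.KK s) W.conductorLevel
      ⟨s, IntermediateField.mem_adjoin_simple_self ℚ s⟩ := by
    refine ⟨KField.finrank_KK W.conductorLevel_pos hs, W.squarefree_conductorLevel,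
      even_iff_two_dvd.mpr (KField.two_dvd_level hW), ?_⟩
    apply Subtype.ext
    push_cast
    exact hs
  have hbad : ∀ {q : ℕ}, q.Prime → (q ∣ W.conductorLevel ↔ q ∈ W.Δ.natAbs.primeFactors) := by
    intro q hq
    rw [← primeFactors_conductorLevel hne, Nat.mem_primeFactors_of_ne_zero
      W.conductorLevel_pos.ne']
    exact ⟨fun h => ⟨hq, h⟩, fun h => h.2⟩
  have hQ' : ∀ q ∈ Q, q.Prime ∧ ¬ IsSquare (-(W.conductorLevel : ZMod q)) := by
    intro q hq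
    obtain ⟨hqp, hqS, A, hA, φ, hφ, h1, h3⟩ := hQ q hq
    refine ⟨hqp, KField.not_isSquare_of_involution hW h hqp ?_ (fun hd => hqS ((hbad hqp).mp hd))
      hA hφ h1 h3⟩
    rintro rfl
    exact hqS ((hbad Nat.prime_two).mp (KField.two_dvd_level hW))
  obtain ⟨κ, i1, i2, ψ₀, ι, i3, f, hcard, hinj, heig, hsq, hcong⟩ :=
    ThetaFam.exists_family hIQ hQ' hM hψ
  have hdvd : ∀ {ℓ : ℕ}, ℓ.Prime → ℓ ∣ M → ℓ ∈ W.Δ.natAbs.primeFactors ∪ Q := by
    intro ℓ hℓ hd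
    rw [hM] at hd
    rw [Finset.mem_union]
    rcases hℓ.prime.dvd_mul.mp hd with h' | h'
    · exact Or.inl ((hbad hℓ).mp h')
    · right
      obtain ⟨q, hq, hd'⟩ := (hℓ.prime.dvd_finsetProd_iff _).mp h'
      rwa [(Nat.prime_dvd_prime_iff_eq hℓ (hQ q hq).1).mp hd']
  have hdisj : Disjoint W.Δ.natAbs.primeFactors Q := by
    rw [Finset.disjoint_right]
    exact fun q hq => (hQ q hq).2.1
  refine ⟨ArtC.sOf ψ, κ, i1, i2, ψ₀, ι, i3, f, hcard, ⟨?_, ?_, heig, hinj, hsq, ?_⟩,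
    fun T k _ _ r hL hd hT => hrig k r hL hd T hT⟩
  · rw [hM, Finset.prod_union hdisj, ← primeFactors_conductorLevel hne,
      Nat.prod_primeFactors_of_squarefree W.squarefree_conductorLevel]
  · intro v hv
    rcases Finset.mem_union.mp hv with h' | h'
    · exact Nat.prime_of_mem_primeFactors h'
    · exact (hQ v h').1
  · intro i ℓ hℓ hℓS b hb
    exact hcong i ℓ hℓ (fun hd => hℓS (hdvd hℓ hd)) b hb

/-- **START.** -/
theorem startAt {W : WeierstrassCurve ℤ} (hW : GoodCurve W)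
    {hΔ : (W.map (Int.castRingHom ℚ)).Δ ≠ 0} {r : GQ →* M2 ℤ_[2]}
    (hr : HasMat ((Tate.tateRep (W.map (Int.castRingHom ℚ)) hΔ 2).ρ : GQ → _) r) :
    StartAt W r := by
  classical
  obtain ⟨s, hs⟩ := KField.exists_root W.conductorLevel
  obtain ⟨R, hR⟩ := exists_deepSet hW hΔ hr
  have hres := resData_redTwo hW hΔ hr
  have hne : W.Δ ≠ 0 := hW.neg.ne
  have htm : TwoMat W (redTwo r) := twoMat_of_tate hΔ hr
  haveI : NumberField.IsTotallyComplex (KField.KK s) :=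
    KField.isTotallyComplex W.conductorLevel_pos hs
  have hK : ∀ σ : GQ, σ ∈ (KField.KK s).fixingSubgroup ↔ redTwo r σ ^ 3 = 1 :=
    fixing_adjoin_iff hW htm hs
  obtain ⟨z, hz1, hz⟩ := exists_prePt_curve hW hr
  refine ⟨(h2 (KField.KK s) * 2 ^ R) * (h2 (KField.KK s) * 2 ^ R), fun n B => ?_⟩
  obtain ⟨Q, hQR, hQ, -, hsel, haux⟩ := hR (n + 1) B
  have hUB := upperBound_of hres haux hsel hK (Art.artGrp' (KField.KK s))
  have hM0 : W.conductorLevel * ∏ q ∈ Q, q ≠ 0 := by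
    refine mul_ne_zero W.conductorLevel_pos.ne' (Finset.prod_ne_zero_iff.mpr fun q hq => ?_)
    exact (hQ q hq).1.ne_zero
  obtain ⟨M, hM⟩ : ∃ M : ℕ, M = W.conductorLevel * ∏ q ∈ Q, q := ⟨_, rfl⟩
  haveI : NeZero M := ⟨hM ▸ hM0⟩
  haveI hloc : IsLocalRing (ZMod (2 ^ (n + 1))) := isLocalRing_zmod (Nat.succ_ne_zero n)
  obtain ⟨s', κ, _, _, ψ₀, ι, _, f, hcard, hf, hrig⟩ := exists_good_family hW htm hs (Q := Q)
    (fun q hq => by
      obtain ⟨h1, h3, h4, -, h5, A', hA', φ', hφ', -⟩ := hQ q hq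
      exact ⟨h1, h3, A', hA', φ', hφ', h5 A' hA' φ' hφ'⟩) hM
  have h0 := hz (n + 1) Q (fun q hq => ⟨(hQ q hq).1, (hQ q hq).2.1, (hQ q hq).2.2.2.2.2⟩)
  obtain ⟨k, x, hk, hx, hx'⟩ := Fam.exists_start hres hf (hrig _) (D₀ := W.Δ) (by
      have h3 := hW.odd 2 Nat.prime_two hW.two
      rwa [Nat.factorization_def _ Nat.prime_two] at h3)
    (fun s₁ hs₁ σ => fix_sqrtΔ_iff htm hs₁ σ) hUB hcard (Nat.succ_ne_zero n) h0
    (a := W.apOfModel) (fun ℓ hℓ hℓS A hA σ hσ => by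
      have hℓS' : ℓ ∉ W.Δ.natAbs.primeFactors := fun h => hℓS (Finset.mem_union_left _ h)
      have hg : W.IsGoodPrimeFor ℓ := fun hd => hℓS' ((mem_badPrimes hne).mpr ⟨hℓ, hd⟩)
      have hℓ2 : ℓ ≠ 2 := fun h => hℓS' (h ▸ hres.two)
      exact (TSide.frob_curve hr hℓ hg hℓ2 hA hσ (n + 1)).1)
  refine ⟨Q, k, fun q hq => ?_, ?_, M, inferInstance, hM, x, hx, hx'⟩
  · obtain ⟨h1, h3, h4, -, h5, A', hA', φ', hφ', -⟩ := hQ q hq
    exact ⟨h1, h3, h4, A', hA', φ', hφ', (h5 A' hA' φ' hφ').1⟩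
  · have hb : h2 (KField.KK s) * 2 ^ Q.card ≤ h2 (KField.KK s) * 2 ^ R :=
      Nat.mul_le_mul_left _ (Nat.pow_le_pow_right two_pos hQR)
    calc n ≤ n + 1 := Nat.le_succ n
      _ ≤ k * ((h2 (KField.KK s) * 2 ^ Q.card) * (h2 (KField.KK s) * 2 ^ Q.card)) := hk
      _ ≤ k * ((h2 (KField.KK s) * 2 ^ R) * (h2 (KField.KK s) * 2 ^ R)) :=
        Nat.mul_le_mul_left k (Nat.mul_le_mul hb hb)

/-- **The 2-adic modularity theorem.** -/
theorem modular_of_goodCurve {W : WeierstrassCurve ℤ} (hW : GoodCurve W) :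
    W.IsModularModelOfLevel W.conductorLevel := by
  have hΔ := Tate.map_Δ_ne_zero hW.neg.ne
  obtain ⟨r, hr⟩ := exists_tateMat hΔ 2
  exact modular_of_startAt hW hr (startAt hW hr)

end Fermat.Agent.LTF.StartEnd

end
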