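import Fermat.Agent.LTF.Switch3

/-!
# The good switch, keeping good reduction at `3`

`exists_good_switch_three`: as `exists_good_switch`, and `W'` has good reduction at `3` if `W` has.
(Adapted from `LTF/Switch3.lean`: at `3` the local member is `(1, 0)` when `3 ∤ Δ`.)
-/

set_option autoImplicit false

namespace Fermat.Agent.LTF

open WeierstrassCurve

theorem LG.exists_unit (W : WeierstrassCurve ℤ) {r : ℕ} (hr : r.Prime)
    (hss : (r : ℤ) ∣ W.Δ → ¬ (r : ℤ) ∣ W.c₄) :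
    ∃ s t : ℤ, LG W r s t ∧ (¬ (r : ℤ) ∣ W.Δ → ¬ (r : ℤ) ∣ G3 W s t) := by
  by_cases h : (r : ℤ) ∣ W.Δ → Odd (W.Δ.natAbs.factorization r)
  · refine ⟨1, 0, LG.base W hr h hss, fun _ h1 => ?_⟩
    have hG : G3 W 1 0 = 1 := by simp [G3]
    rw [hG] at h1
    have h2 : (r : ℤ) ∣ ((1 : ℕ) : ℤ) := by simpa using h1
    exact hr.one_lt.ne' (Nat.dvd_one.1 (Int.natCast_dvd_natCast.1 h2))
  · push Not at h
    obtain ⟨x, hx⟩ := exists_simpleAt W hr h.1 (hss h.1)
    obtain ⟨s, t, hst, -⟩ := LG.of_simpleAt W hr h.2 hx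
    exact ⟨s, t, hst, fun h1 => absurd h.1 h1⟩

/-- the output of the combination sieve + CRT + direction -/
theorem exists_member_three (W : WeierstrassCurve ℤ) (hΔ : W.Δ ≠ 0) (hW : W.IsSemistableModel)
    (h2 : (2 : ℤ) ∣ W.Δ ∨ ∃ x : ℤ, SimpleAt (W.map (Int.castRingHom (ZMod 2))) (x : ZMod 2))
    (h3 : W.ModRepIsIrreducible 3) :
    ∃ s t : ℤ, IsCoprime s t ∧ W.Δ * G3 W s t < 0 ∧
      (∀ r : ℕ, r.Prime → LG W r s t) ∧ (2 : ℤ) ∣ W.Δ * G3 W s t ∧
      (¬ (3 : ℤ) ∣ W.Δ → ¬ (3 : ℤ) ∣ G3 W s t) ∧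
      ∃ r : ℕ, r.Prime ∧ r % 12 = 11 ∧ (r : ℤ) ∣ G3 W s t := by
  classical
  have hc0 : W.c₄ ≠ 0 := c₄_ne_zero W hW
  obtain ⟨r₁, hr₁, hB, h12, hx⟩ := exists_prime_quartic W.c₄ W.c₆ (W.Δ.natAbs + 3)
  have hr₁Δ : ¬ (r₁ : ℤ) ∣ W.Δ := by
    intro h
    have h' : r₁ ∣ W.Δ.natAbs := Int.natCast_dvd.1 h
    have := Nat.le_of_dvd (Int.natAbs_pos.2 hΔ) h'
    omega
  have hfac : W.Δ.natAbs.factorization r₁ = 0 :=
    Nat.factorization_eq_zero_of_not_dvd (fun h => hr₁Δ (Int.natCast_dvd.2 h))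
  -- local choices
  have hloc : ∀ r : ℕ, r.Prime → ∃ s t : ℤ, LG W r s t ∧
      ((r = r₁ ∨ (r = 2 ∧ ¬ (2 : ℤ) ∣ W.Δ)) → (r : ℤ) ∣ G3 W s t) ∧
      (r = 3 → ¬ (3 : ℤ) ∣ W.Δ → ¬ (3 : ℤ) ∣ G3 W s t) := by
    intro r hr
    by_cases hrr : r = r₁
    · subst hrr
      obtain ⟨x, hx'⟩ := exists_simpleAt_good W hr (by omega) (by omega) hr₁Δ hx
      obtain ⟨s, t, h1, h2⟩ := LG.of_simpleAt W hr (by rw [hfac]; decide) hx'
      exact ⟨s, t, h1, fun _ => h2, fun h => by omega⟩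
    · by_cases hr2 : r = 2 ∧ ¬ (2 : ℤ) ∣ W.Δ
      · obtain ⟨rfl, hr2⟩ := hr2
        obtain ⟨x, hx'⟩ := h2.resolve_left hr2
        have hf2 : W.Δ.natAbs.factorization 2 = 0 :=
          Nat.factorization_eq_zero_of_not_dvd (fun h => hr2 (Int.natCast_dvd.2 h))
        obtain ⟨s, t, h1, h2⟩ := LG.of_simpleAt W hr (by rw [hf2]; decide) hx'
        exact ⟨s, t, h1, fun _ => h2, fun h => by omega⟩
      · obtain ⟨s, t, h, h'⟩ := LG.exists_unit W hr (hW r hr)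
        exact ⟨s, t, h, fun h => absurd h (by tauto), fun h3 h4 => by
          subst h3; exact h' (by exact_mod_cast h4)⟩
  choose! f g hfg using hloc
  -- the set of special primes
  set B : ℕ := 2310 * W.Δ.natAbs * r₁ with hBdef
  have hB0 : B ≠ 0 := by
    have := Int.natAbs_pos.2 hΔ
    have := hr₁.pos
    positivity
  set S : Finset ℕ := B.primeFactors with hS
  have hSp : ∀ r ∈ S, r.Prime := fun r hr => Nat.prime_of_mem_primeFactors hr
  have hmemS : ∀ r : ℕ, r.Prime → (r ∈ S ↔ r ∣ B) := fun r hr => by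
    rw [hS, Nat.mem_primeFactors]
    exact ⟨fun h => h.2.1, fun h => ⟨hr, h, hB0⟩⟩
  set M : ℕ := ∏ r ∈ S, r ^ 2 with hM
  have hMpos : 0 < M := Finset.prod_pos fun r hr => pow_pos (hSp r hr).pos 2
  have hdvdM : ∀ r : ℕ, r.Prime → (r ∣ M ↔ r ∈ S) := by
    intro r hr
    constructor
    · intro h
      obtain ⟨q, hq, hrq⟩ := (Prime.dvd_finsetProd_iff hr.prime _).1 h
      have h1 : r ∣ q := hr.dvd_of_dvd_pow hrq
      rwa [(Nat.prime_dvd_prime_iff_eq hr (hSp q hq)).1 h1]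
    · intro h
      exact (dvd_pow_self _ two_ne_zero).trans (Finset.dvd_prod_of_mem _ h)
  have hsqM : ∀ r ∈ S, (r : ℤ) ^ 2 ∣ (M : ℤ) := by
    intro r hr
    have : r ^ 2 ∣ M := Finset.dvd_prod_of_mem (fun r => r ^ 2) hr
    exact_mod_cast Int.natCast_dvd_natCast.2 this
  have hsmall : ∀ r : ℕ, r.Prime → r < 13 → r ∣ M := by
    intro r hr hlt
    rw [hdvdM r hr, hmemS r hr, hBdef, mul_assoc]
    refine Dvd.dvd.mul_right ?_ _
    interval_cases r <;> first | (exact absurd hr (by decide)) | decide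
  have hgoodM : ∀ r : ℕ, r.Prime → ¬ r ∣ M → ¬ (r : ℤ) ∣ W.Δ := by
    intro r hr hrM h
    apply hrM
    rw [hdvdM r hr, hmemS r hr, hBdef]
    exact Dvd.dvd.mul_right (Dvd.dvd.mul_left (Int.natCast_dvd.1 h) _) _
  obtain ⟨s0, hs0⟩ := crt_sq S hSp f
  obtain ⟨t0, ht0⟩ := crt_sq S hSp g
  have hLG0 : ∀ r ∈ S, LG W r s0 t0 := fun r hr =>
    (hfg r (hSp r hr)).1.congr W (hs0 r hr) (ht0 r hr)
  obtain ⟨x0, y0, hxy⟩ := exists_sign W hΔ hc0
  obtain ⟨C, hC0, hC⟩ := exists_dir (W.map (Int.castRingHom ℝ)) x0 y0 _ hxy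
  obtain ⟨N, hN0, hNpos, a, b, ha, hb, hcop, hsq⟩ := Sieve.exists_sqfree (cf W) M hMpos hsmall
    (by
      intro r hr _ h
      have h1 : cf W 4 = 1 := rfl
      rw [h1] at h
      have h2 : (r : ℤ) ∣ ((1 : ℕ) : ℤ) := by simpa using h
      exact hr.one_lt.ne' (Nat.dvd_one.1 (Int.natCast_dvd_natCast.1 h2)))
    (by
      intro r hr hrM s t ht hF hFs
      rw [F_cf] at hF
      rw [Fs_cf] at hFs
      have h2 : r ≠ 2 := by
        rintro rfl
        exact hrM (hsmall 2 hr (by norm_num))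
      have h3 : r ≠ 3 := by
        rintro rfl
        exact hrM (hsmall 3 hr (by norm_num))
      exact ht (good_D W hr h2 h3 (hgoodM r hr hrM) hF hFs).2)
    (by
      intro s t h
      rw [F_cf] at h
      exact quartic_ne_zero W hΔ h3 s t h)
    s0 t0 (fun r hr hrM => (hLG0 r ((hdvdM r hr).1 hrM)).prim)
    (C * x0) (C * y0) (s0.natAbs + t0.natAbs + 1)
  set s : ℤ := s0 + M * (C * x0 * N) + M * (a : ℤ) with hs
  set t : ℤ := t0 + M * (C * y0 * N) + M * (b : ℤ) with ht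
  have hLGS : ∀ r ∈ S, LG W r s t ∧
      ((r = r₁ ∨ (r = 2 ∧ ¬ (2 : ℤ) ∣ W.Δ)) → (r : ℤ) ∣ G3 W s t) ∧
      (r = 3 → ¬ (3 : ℤ) ∣ W.Δ → ¬ (3 : ℤ) ∣ G3 W s t) := by
    intro r hr
    have e1 : (r : ℤ) ^ 2 ∣ s - f r := by
      have : s - f r = (s0 - f r) + M * (C * x0 * N + a) := by rw [hs]; ring
      rw [this]
      exact dvd_add (hs0 r hr) (Dvd.dvd.mul_right (hsqM r hr) _)
    have e2 : (r : ℤ) ^ 2 ∣ t - g r := by
      have : t - g r = (t0 - g r) + M * (C * y0 * N + b) := by rw [ht]; ring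
      rw [this]
      exact dvd_add (ht0 r hr) (Dvd.dvd.mul_right (hsqM r hr) _)
    have h2 := G3_congr W ((dvd_pow_self _ two_ne_zero).trans e1)
      ((dvd_pow_self _ two_ne_zero).trans e2)
    refine ⟨(hfg r (hSp r hr)).1.congr W e1 e2, fun h => ?_, fun h h4 h5 => ?_⟩
    · have h1 := (hfg r (hSp r hr)).2.1 h
      simpa using dvd_add h1 h2
    · subst h
      exact (hfg 3 (hSp 3 hr)).2.2 rfl h4 (by simpa using dvd_sub h5 h2)
  have h3S : 3 ∈ S := (hdvdM 3 Nat.prime_three).1 (hsmall 3 Nat.prime_three (by norm_num))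
  refine ⟨s, t, hcop, ?_, ?_, ?_, (hLGS 3 h3S).2.2 rfl, r₁, hr₁, h12, ?_⟩
  · -- the sign
    have hMN : (0 : ℝ) < (M : ℝ) * N := by positivity
    have hN1 : (s0.natAbs : ℝ) + t0.natAbs + 1 ≤ N := by exact_mod_cast hN0
    have hM1 : (1 : ℝ) ≤ M := by exact_mod_cast hMpos
    have hbd : ∀ (z0 : ℤ) (c : ℕ), (z0.natAbs : ℝ) ≤ N → c < N →
        |(z0 : ℝ) + M * (c : ℝ)| ≤ 2 * (M * N) := by
      intro z0 c h1 h2
      have h3 : |(z0 : ℝ)| = (z0.natAbs : ℝ) := by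
        rw [Nat.cast_natAbs, Int.cast_abs]
      have h4 : (c : ℝ) ≤ N := by exact_mod_cast h2.le
      calc |(z0 : ℝ) + M * (c : ℝ)| ≤ |(z0 : ℝ)| + |(M : ℝ) * c| := abs_add_le _ _
        _ = z0.natAbs + M * c := by rw [h3, abs_of_nonneg (by positivity)]
        _ ≤ N + M * N := by gcongr
        _ ≤ M * N + M * N := by
          have : (N : ℝ) ≤ M * N := le_mul_of_one_le_left (by positivity) hM1
          linarith
        _ = 2 * (M * N) := by ring
    have hpos := hC (M * N) hMN (s : ℝ) (t : ℝ)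
      (by
        have e : (s : ℝ) - C * (M * N) * x0 = s0 + M * (a : ℝ) := by
          rw [hs]; push_cast; ring
        rw [e]
        refine hbd s0 a ?_ ha
        have : (0 : ℝ) ≤ t0.natAbs := by positivity
        linarith)
      (by
        have e : (t : ℝ) - C * (M * N) * y0 = t0 + M * (b : ℝ) := by
          rw [ht]; push_cast; ring
        rw [e]
        refine hbd t0 b ?_ hb
        have : (0 : ℝ) ≤ s0.natAbs := by positivity
        linarith)
    have e : G3 (W.map (Int.castRingHom ℝ)) (s : ℝ) (t : ℝ) = ((G3 W s t : ℤ) : ℝ) :=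
      (map_G3 (Int.castRingHom ℝ) W s t).symm
    rw [e] at hpos
    have h5 : ((W.Δ * G3 W s t : ℤ) : ℝ) < 0 := by
      push_cast
      linarith
    exact_mod_cast h5
  · intro r hr
    by_cases hrM : r ∣ M
    · exact (hLGS r ((hdvdM r hr).1 hrM)).1
    · have h2 : r ≠ 2 := by
        rintro rfl
        exact hrM (hsmall 2 hr (by norm_num))
      have h3 : r ≠ 3 := by
        rintro rfl
        exact hrM (hsmall 3 hr (by norm_num))
      have hΔr := hgoodM r hr hrM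
      have hprim : ¬ ((r : ℤ) ∣ s ∧ (r : ℤ) ∣ t) := by
        rintro ⟨h1, h2⟩
        have h3 := hcop.isUnit_of_dvd' h1 h2
        have h4 : (r : ℤ) ∣ 1 := h3.dvd
        have h5 : (r : ℤ) ∣ ((1 : ℕ) : ℤ) := by simpa using h4
        exact hr.one_lt.ne' (Nat.dvd_one.1 (Int.natCast_dvd_natCast.1 h5))
      have hrp : Prime (r : ℤ) := Nat.prime_iff_prime_int.1 hr
      have hf0 : W.Δ.natAbs.factorization r = 0 :=
        Nat.factorization_eq_zero_of_not_dvd (fun h => hΔr (Int.natCast_dvd.2 h))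
      refine ⟨hprim, ?_, ?_, ?_, ?_⟩
      · have := hsq r hr hrM
        rwa [F_cf] at this
      · intro h hc
        exact hprim (good_C W hr h2 h3 hΔr ((hrp.dvd_or_dvd h).resolve_left hΔr) hc)
      · intro h
        rw [hf0] at h
        exact absurd h (by decide)
      · intro h
        exact absurd h hΔr
  · by_cases h : (2 : ℤ) ∣ W.Δ
    · exact Dvd.dvd.mul_right h _
    · have h2S : 2 ∈ S := (hdvdM 2 Nat.prime_two).1 (hsmall 2 Nat.prime_two (by norm_num))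
      have := (hLGS 2 h2S).2.1 (Or.inr ⟨rfl, h⟩)
      exact Dvd.dvd.mul_left (by exact_mod_cast this) _
  · have hr₁S : r₁ ∈ S := by
      rw [hmemS r₁ hr₁, hBdef]
      exact Dvd.intro_left _ rfl
    exact (hLGS r₁ hr₁S).2.1 (Or.inl rfl)

/-- **The good switch**, general form: `W` is multiplicative at `2` or its reduction at `2` is
3-congruent to a nodal curve. -/
theorem exists_good_switch_gen_three (W : WeierstrassCurve ℤ) (hΔ : W.Δ ≠ 0) (hW : W.IsSemistableModel)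
    (h2 : (2 : ℤ) ∣ W.Δ ∨ ∃ x : ℤ, SimpleAt (W.map (Int.castRingHom (ZMod 2))) (x : ZMod 2))
    (h3 : W.ModRepIsIrreducible 3) :
    ∃ W' : WeierstrassCurve ℤ, GoodCurve W' ∧
      (W.IsGoodPrimeFor 3 → W'.IsGoodPrimeFor 3) ∧
      ∀ ℓ : ℕ, ℓ.Prime → ℓ ≠ 3 → W.IsGoodPrimeFor ℓ → W'.IsGoodPrimeFor ℓ →
        (3 : ℤ) ∣ W'.apOfModel ℓ - W.apOfModel ℓ := by
  obtain ⟨s, t, hcop, hneg, hLG, h22, h33, r₁, hr₁, h12, hr₁G⟩ :=
    exists_member_three W hΔ hW h2 h3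
  have hΔ' : (fam3 W s t).Δ = W.Δ * G3 W s t ^ 3 := fam3_Δ W s t
  have hG0 : G3 W s t ≠ 0 := by
    intro h
    rw [h, mul_zero] at hneg
    exact lt_irrefl _ hneg
  have hdvd : ∀ r : ℕ, r.Prime → (r : ℤ) ∣ (fam3 W s t).Δ → (r : ℤ) ∣ W.Δ * G3 W s t := by
    intro r hr h
    rw [hΔ'] at h
    have hrp : Prime (r : ℤ) := Nat.prime_iff_prime_int.1 hr
    rcases hrp.dvd_or_dvd h with h1 | h1
    · exact Dvd.dvd.mul_right h1 _
    · exact Dvd.dvd.mul_left (hrp.dvd_of_dvd_pow h1) _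
  have hss : (fam3 W s t).IsSemistableModel := fun r hr h =>
    (hLG r hr).ss (hdvd r hr h)
  have hneg' : (fam3 W s t).Δ < 0 := by
    rw [hΔ']
    have h1 : 0 < G3 W s t ^ 2 := by positivity
    calc W.Δ * G3 W s t ^ 3 = (W.Δ * G3 W s t) * G3 W s t ^ 2 := by ring
      _ < 0 := mul_neg_of_neg_of_pos hneg h1
  have htwo : (2 : ℤ) ∣ (fam3 W s t).Δ := by
    rw [hΔ', show W.Δ * G3 W s t ^ 3 = (W.Δ * G3 W s t) * G3 W s t ^ 2 by ring]
    exact Dvd.dvd.mul_right h22 _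
  have hodd : ∀ r : ℕ, r.Prime → (r : ℤ) ∣ (fam3 W s t).Δ →
      Odd ((fam3 W s t).Δ.natAbs.factorization r) := by
    intro r hr h
    have hrp : Prime (r : ℤ) := Nat.prime_iff_prime_int.1 hr
    have hL := hLG r hr
    have hval : (fam3 W s t).Δ.natAbs.factorization r =
        W.Δ.natAbs.factorization r + 3 * (G3 W s t).natAbs.factorization r := by
      rw [hΔ', Int.natAbs_mul, Int.natAbs_pow, Nat.factorization_mul (Int.natAbs_ne_zero.2 hΔ)
        (pow_ne_zero _ (Int.natAbs_ne_zero.2 hG0)), Nat.factorization_pow]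
      simp
    rw [hval]
    by_cases hG : (r : ℤ) ∣ G3 W s t
    · have h1 : (G3 W s t).natAbs.factorization r = 1 := by
        have hle : ¬ r ^ 2 ∣ (G3 W s t).natAbs := by
          intro h
          exact hL.sq (by exact_mod_cast Int.natCast_dvd.2 h)
        have hge : r ^ 1 ∣ (G3 W s t).natAbs := by
          rw [pow_one]; exact Int.natCast_dvd.1 hG
        rw [hr.pow_dvd_iff_le_factorization (Int.natAbs_ne_zero.2 hG0)] at hle hge
        omega
      have h2 : ¬ Odd (W.Δ.natAbs.factorization r) := fun h => hL.odd h hG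
      rw [h1]
      rw [Nat.not_odd_iff_even] at h2
      exact h2.add_odd (by decide)
    · have h1 : (G3 W s t).natAbs.factorization r = 0 :=
        Nat.factorization_eq_zero_of_not_dvd (fun h => hG (Int.natCast_dvd.2 h))
      have h2 : (r : ℤ) ∣ W.Δ := by
        have := hdvd r hr h
        exact (hrp.dvd_or_dvd this).resolve_right hG
      have h3 : Odd (W.Δ.natAbs.factorization r) := by
        by_contra h4
        exact hG (hL.even h2 h4)
      rw [h1]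
      simpa using h3
  refine ⟨fam3 W s t, ⟨hss, hneg', htwo, hodd, irr_of_odd _ hss hneg' htwo hodd, r₁, hr₁, ?_, h12⟩,
    ?_, ?_⟩
  · rw [hΔ']
    exact Dvd.dvd.mul_left (dvd_pow hr₁G (by norm_num)) _
  · intro hg hg'
    have hg1 : ¬ (3 : ℤ) ∣ W.Δ := fun h => hg (by exact_mod_cast h)
    have hg2 : (3 : ℤ) ∣ W.Δ * G3 W s t := by
      exact_mod_cast hdvd 3 Nat.prime_three (by exact_mod_cast hg')
    rcases Int.prime_three.dvd_or_dvd hg2 with h | h
    · exact hg1 h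
    · exact h33 hg1 h
  · intro ℓ hℓ hℓ3 hg hg'
    have hℓ2 : ℓ ≠ 2 := by
      rintro rfl
      exact hg' (by exact_mod_cast htwo)
    refine apOfModel_congr3 (4 * s + W.b₂ * t) t 4 ℓ hℓ hℓ2 hℓ3 ?_ hg hg' ?_ ?_
    · intro h
      have h1 : (ℓ : ℤ) ∣ ((4 : ℕ) : ℤ) := by simpa using h
      have h2 : ℓ ∣ 2 ^ 2 := by simpa using Int.natCast_dvd_natCast.1 h1
      exact hℓ2 ((Nat.prime_dvd_prime_iff_eq hℓ Nat.prime_two).1 (hℓ.dvd_of_dvd_pow h2))
    · have := fam3_c₄ W s t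
      linear_combination this
    · have := fam3_c₆ W s t
      linear_combination this



/-- **The good switch**, keeping good reduction at `3`. -/
theorem exists_good_switch_three (W : WeierstrassCurve ℤ) (hΔ : W.Δ ≠ 0)
    (hW : W.IsSemistableModel) (h2 : (2 : ℤ) ∣ W.Δ) (h3 : W.ModRepIsIrreducible 3) :
    ∃ W' : WeierstrassCurve ℤ, GoodCurve W' ∧
      (W.IsGoodPrimeFor 3 → W'.IsGoodPrimeFor 3) ∧
      ∀ ℓ : ℕ, ℓ.Prime → ℓ ≠ 3 → W.IsGoodPrimeFor ℓ → W'.IsGoodPrimeFor ℓ →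
        (3 : ℤ) ∣ W'.apOfModel ℓ - W.apOfModel ℓ :=
  exists_good_switch_gen_three W hΔ hW (Or.inl h2) h3

end Fermat.Agent.LTF
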