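import Mathlib

/-!
# Möbius inversion and determinants over `ℤ_[p]`

Elementary input for the `T`-side of the descent step.
-/

open Module

namespace Fermat.Agent.LTF

/-- **Möbius inversion** over the subsets of a finite set, multiplicative form with weights `2^|P1 \ P2|`. -/
theorem moebius_two {ι : Type*} [DecidableEq ι] {A B : Finset ι → ℝ}
    (hB : ∀ S, 0 < B S) (P : Finset ι)
    (h : ∀ P1 ⊆ P, ∏ P2 ∈ P1.powerset, A P2 ^ (2 ^ (P1 \ P2).card) =
      ∏ P2 ∈ P1.powerset, B P2 ^ (2 ^ (P1 \ P2).card)) : A P = B P := by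
  induction P using Finset.strongInduction with
  | H P ih =>
    have key := h P (Finset.Subset.refl P)
    have hmem : P ∈ P.powerset := Finset.mem_powerset.mpr (Finset.Subset.refl P)
    rw [← Finset.mul_prod_erase _ _ hmem, ← Finset.mul_prod_erase _ _ hmem] at key
    have hrest : ∏ P2 ∈ P.powerset.erase P, A P2 ^ (2 ^ (P \ P2).card) =
        ∏ P2 ∈ P.powerset.erase P, B P2 ^ (2 ^ (P \ P2).card) := by
      refine Finset.prod_congr rfl fun P2 hP2 => ?_
      obtain ⟨hne, hsub⟩ := Finset.mem_erase.mp hP2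
      have hss : P2 ⊂ P := (Finset.mem_powerset.mp hsub).ssubset_of_ne hne
      rw [ih P2 hss fun P1 hP1 => h P1 (hP1.trans hss.subset)]
    rw [hrest] at key
    have hpos : 0 < ∏ P2 ∈ P.powerset.erase P, B P2 ^ (2 ^ (P \ P2).card) :=
      Finset.prod_pos fun P2 _ => pow_pos (hB P2) _
    have := mul_right_cancel₀ hpos.ne' key
    simpa using this

section Padic

variable {p : ℕ} [Fact p.Prime]

theorem card_quot_span {x : ℤ_[p]} (hx : x ≠ 0) :
    (Nat.card (ℤ_[p] ⧸ Ideal.span ({x} : Set ℤ_[p])) : ℝ) = ‖x‖⁻¹ := by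
  have hspan : Ideal.span ({x} : Set ℤ_[p]) = Ideal.span {(p : ℤ_[p]) ^ x.valuation} := by
    conv_lhs => rw [PadicInt.unitCoeff_spec hx]
    exact Ideal.span_singleton_mul_left_unit (PadicInt.unitCoeff hx).isUnit _
  rw [hspan, PadicInt.norm_eq_zpow_neg_valuation hx]
  have e : (ℤ_[p] ⧸ Ideal.span {(p : ℤ_[p]) ^ x.valuation}) ≃+* ZMod (p ^ x.valuation) := by
    rw [← PadicInt.ker_toZModPow]
    exact RingHom.quotientKerEquivOfSurjective
      (ZMod.ringHom_surjective (PadicInt.toZModPow x.valuation))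
  rw [Nat.card_congr e.toEquiv, Nat.card_zmod]
  simp

variable {M : Type*} [AddCommGroup M] [Module ℤ_[p] M] [Module.Free ℤ_[p] M]
  [Module.Finite ℤ_[p] M]

/-- For an injective endomorphism `φ` of a finite free `ℤ_p`-module, `#(M / φ M) = |det φ|⁻¹`. -/
theorem card_quot_range (φ : M →ₗ[ℤ_[p]] M) (hφ : Function.Injective φ) :
    (Nat.card (M ⧸ LinearMap.range φ) : ℝ) = ‖LinearMap.det φ‖⁻¹ := by
  classical
  set N := LinearMap.range φ with hN
  let e : M ≃ₗ[ℤ_[p]] N := LinearEquiv.ofInjective φ hφ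
  let b := Module.Free.chooseBasis ℤ_[p] M
  have h : Module.finrank ℤ_[p] N = Module.finrank ℤ_[p] M := e.symm.finrank_eq
  let a := Submodule.smithNormalFormCoeffs b h
  let b' := Submodule.smithNormalFormTopBasis b h
  let ab := Submodule.smithNormalFormBotBasis b h
  have ab_eq := Submodule.smithNormalFormBotBasis_def b h
  let e' : M ≃ₗ[ℤ_[p]] N := b'.equiv ab (Equiv.refl _)
  let f : M →ₗ[ℤ_[p]] M := N.subtype.comp (e' : M →ₗ[ℤ_[p]] N)
  have hφe : φ = N.subtype.comp (e : M →ₗ[ℤ_[p]] N) := by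
    ext x; rfl
  have hassoc : Associated (LinearMap.det φ) (LinearMap.det f) := by
    rw [hφe]
    exact LinearMap.associated_det_comp_equiv N.subtype e e'
  have hnorm : ‖LinearMap.det φ‖ = ‖LinearMap.det f‖ := by
    obtain ⟨u, hu⟩ := hassoc
    rw [← hu, norm_mul, PadicInt.norm_units, mul_one]
  have ha : ∀ i, f (b' i) = a i • b' i := by
    intro i
    have hf : f (b' i) = b'.equiv ab (Equiv.refl _) (b' i) := rfl
    rw [hf, b'.equiv_apply, Equiv.refl_apply]
    exact ab_eq i
  have hdet : LinearMap.det f = ∏ i, a i := by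
    rw [← LinearMap.det_toMatrix b', ← Matrix.det_diagonal]
    congr 1
    ext i j
    rw [LinearMap.toMatrix_apply, ha, map_smul, Basis.repr_self, Finsupp.smul_single,
      smul_eq_mul, mul_one]
    by_cases h : i = j
    · rw [h, Matrix.diagonal_apply_eq, Finsupp.single_eq_same]
    · rw [Matrix.diagonal_apply_ne _ h, Finsupp.single_eq_of_ne h]
  rw [hnorm, hdet, norm_prod, ← Finset.prod_inv_distrib,
    Nat.card_congr (Submodule.quotientEquivPiSpan N b h).toEquiv, Nat.card_pi, Nat.cast_prod]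
  exact Finset.prod_congr rfl fun i _ =>
    card_quot_span (Submodule.smithNormalFormCoeffs_ne_zero b h i)

end Padic

end Fermat.Agent.LTF
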