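import Fermat.Agent.LTF.TMoebBasic

/-!
# Traces determine determinants (characteristic zero)
-/

open Module

namespace Fermat.Agent.LTF

section Trace

variable {R V : Type*} [CommRing R] [AddCommGroup V]
    [Module R V] [Module.Finite R V]
    (W : Submodule R V) [Module.Free R W] [Module.Finite R W] [Module.Free R (V ⧸ W)]

open Module.Basis in
theorem trace_eq_trace_add_trace (e : V →ₗ[R] V) (he : W ≤ W.comap e) :
    LinearMap.trace R V e = LinearMap.trace R W (e.restrict he) +
      LinearMap.trace R (V ⧸ W) (W.mapQ W e he) := by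
  classical
  let m := Module.Free.ChooseBasisIndex R W
  let bW : Basis m R W := Module.Free.chooseBasis R W
  let n := Module.Free.ChooseBasisIndex R (V ⧸ W)
  let bQ : Basis n R (V ⧸ W) := Module.Free.chooseBasis R (V ⧸ W)
  let b := sumQuot bW bQ
  rw [LinearMap.trace_eq_matrix_trace R b, LinearMap.trace_eq_matrix_trace R bW,
    LinearMap.trace_eq_matrix_trace R bQ]
  simp only [Matrix.trace, Matrix.diag, Fintype.sum_sum_type]
  congr 1
  · refine Finset.sum_congr rfl fun i _ => ?_
    simp only [b, LinearMap.toMatrix_apply, sumQuot_inl]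
    apply sumQuot_repr_inl_of_mem
  · refine Finset.sum_congr rfl fun j _ => ?_
    simp only [LinearMap.toMatrix_apply, sumQuot_repr_inr, b]
    rw [← sumQuot_inr bW bQ j, W.mapQ_apply]
    simp

end Trace

section Char

variable {K : Type*} [Field K] [IsAlgClosed K] {A : Type*} [CommMonoid A]

/-- Simultaneous triangularisation of a commuting family, in the form of the list of characters. -/
theorem exists_characters (n : ℕ) : ∀ {V : Type*} [AddCommGroup V] [Module K V]
    [Module.Finite K V], finrank K V = n → ∀ ρ : A →* Module.End K V,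
    ∃ s : Multiset (A →* K), s.card = n ∧ ∀ a, LinearMap.trace K V (ρ a) =
      (s.map fun χ => χ a).sum ∧ LinearMap.det (ρ a) = (s.map fun χ => χ a).prod := by
  induction n using Nat.strong_induction_on with
  | _ n ih =>
  intro V _ _ _ hn ρ
  by_cases hsc : ∀ a, ∃ c : K, ρ a = c • LinearMap.id
  · rcases Nat.eq_zero_or_pos n with h0 | hpos
    · subst h0
      have hsub : Subsingleton V := finrank_zero_iff.mp hn
      refine ⟨0, rfl, fun a => ?_⟩
      have : ρ a = 0 := Subsingleton.elim _ _
      constructor
      · rw [this]; simp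
      · rw [LinearMap.det_eq_one_of_finrank_eq_zero hn]; simp
    · have hnt : Nontrivial V := by
        rw [← finrank_pos_iff (R := K)]; omega
      choose c hc using hsc
      have hinj : ∀ x y : K, x • (LinearMap.id : V →ₗ[K] V) = y • LinearMap.id → x = y := by
        intro x y hxy
        obtain ⟨v, hv⟩ := exists_ne (0 : V)
        have := LinearMap.congr_fun hxy v
        simp only [LinearMap.smul_apply, LinearMap.id_coe, id_eq] at this
        exact smul_left_injective K hv this
      let χ : A →* K :=
        { toFun := c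
          map_one' := hinj _ _ (by rw [← hc, map_one, one_smul]; rfl)
          map_mul' := fun a b => hinj _ _ (by
            rw [← hc, map_mul, hc a, hc b]
            ext v
            simp [smul_comm (c a) (c b) v, mul_smul]) }
      refine ⟨Multiset.replicate n χ, Multiset.card_replicate _ _, fun a => ?_⟩
      have hχ : χ a = c a := rfl
      rw [Multiset.map_replicate, Multiset.sum_replicate, Multiset.prod_replicate, hχ, hc a]
      constructor
      · rw [map_smul, LinearMap.trace_id, hn, nsmul_eq_mul, smul_eq_mul, mul_comm]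
      · rw [LinearMap.det_smul, LinearMap.det_id, hn, mul_one]
  · push Not at hsc
    obtain ⟨a₀, ha₀⟩ := hsc
    have hnt : Nontrivial V := by
      by_contra h
      rw [not_nontrivial_iff_subsingleton] at h
      exact ha₀ 0 (Subsingleton.elim _ _)
    obtain ⟨μ, hμ⟩ := Module.End.exists_eigenvalue (ρ a₀)
    set W := Module.End.eigenspace (ρ a₀) μ with hW
    have hWbot : W ≠ ⊥ := hμ
    have hWtop : W ≠ ⊤ := by
      intro h
      refine ha₀ μ (LinearMap.ext fun v => ?_)
      have : v ∈ W := h ▸ Submodule.mem_top
      simpa using Module.End.mem_eigenspace_iff.mp this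
    have hstab : ∀ a, W ≤ W.comap (ρ a) := by
      intro a v hv
      rw [Submodule.mem_comap, hW, Module.End.mem_eigenspace_iff]
      have h1 := Module.End.mem_eigenspace_iff.mp hv
      have : (ρ a₀ * ρ a) v = (ρ a * ρ a₀) v := by rw [← map_mul, ← map_mul, mul_comm]
      simp only [Module.End.mul_apply] at this
      rw [this, h1, map_smul]
    have hWlt : finrank K W < n := hn ▸ Submodule.finrank_lt hWtop
    have hWpos : 0 < finrank K W := by
      have : Nontrivial W := Submodule.nontrivial_iff_ne_bot.mpr hWbot
      exact finrank_pos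
    have hQ : finrank K (V ⧸ W) + finrank K W = n := hn ▸ W.finrank_quotient_add_finrank
    let ρW : A →* Module.End K W :=
      { toFun := fun a => (ρ a).restrict (hstab a)
        map_one' := by ext; simp
        map_mul' := fun a b => by ext; simp }
    let ρQ : A →* Module.End K (V ⧸ W) :=
      { toFun := fun a => W.mapQ W (ρ a) (hstab a)
        map_one' := by ext; simp
        map_mul' := fun a b => by ext; simp }
    obtain ⟨s, hs, hs'⟩ := ih _ hWlt rfl ρW
    obtain ⟨t, ht, ht'⟩ := ih (finrank K (V ⧸ W)) (by omega) rfl ρQ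
    refine ⟨s + t, by rw [Multiset.card_add]; omega, fun a => ?_⟩
    rw [Multiset.map_add, Multiset.sum_add, Multiset.prod_add, ← (hs' a).1, ← (hs' a).2,
      ← (ht' a).1, ← (ht' a).2]
    exact ⟨trace_eq_trace_add_trace W (ρ a) (hstab a),
      LinearMap.det_eq_det_mul_det W (ρ a) (hstab a)⟩

omit [IsAlgClosed K] in
/-- Two multisets of characters with the same sums are equal (characteristic zero). -/
theorem multiset_eq_of_sum_eq [CharZero K] {s t : Multiset (A →* K)}
    (h : ∀ a, (s.map fun χ => χ a).sum = (t.map fun χ => χ a).sum) : s = t := by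
  classical
  have hlin := linearIndependent_monoidHom A K
  have key : ∀ u : Multiset (A →* K), ∀ S : Finset (A →* K), (∀ χ ∈ u, χ ∈ S) →
      ∀ a, (u.map fun χ => χ a).sum = ∑ χ ∈ S, (u.count χ : K) * χ a := by
    intro u S hS a
    rw [Finset.sum_multiset_map_count]
    rw [← Finset.sum_subset (s₁ := u.toFinset) (s₂ := S)
      (fun χ hχ => hS χ (Multiset.mem_toFinset.mp hχ))]
    · exact Finset.sum_congr rfl fun χ _ => by rw [nsmul_eq_mul]
    · intro χ _ hχ
      rw [Multiset.mem_toFinset, ← Multiset.count_eq_zero] at hχ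
      rw [hχ]; simp
  let S : Finset (A →* K) := s.toFinset ∪ t.toFinset
  have hs := key s S fun χ hχ => Finset.mem_union_left _ (Multiset.mem_toFinset.mpr hχ)
  have ht := key t S fun χ hχ => Finset.mem_union_right _ (Multiset.mem_toFinset.mpr hχ)
  have hz : ∑ χ ∈ S, ((s.count χ : K) - t.count χ) • (fun χ : A →* K => (χ : A → K)) χ = 0 := by
    ext a
    rw [Finset.sum_apply]
    simp only [Pi.smul_apply, smul_eq_mul, sub_mul, Finset.sum_sub_distrib, Pi.zero_apply]
    rw [← hs, ← ht, h, sub_self]
  have hcoef := (linearIndependent_iff'.mp hlin) S _ hz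
  ext χ
  by_cases hχ : χ ∈ S
  · have := sub_eq_zero.mp (hcoef χ hχ)
    exact_mod_cast this
  · have h1 : χ ∉ s := fun h => hχ (Finset.mem_union_left _ (Multiset.mem_toFinset.mpr h))
    have h2 : χ ∉ t := fun h => hχ (Finset.mem_union_right _ (Multiset.mem_toFinset.mpr h))
    rw [Multiset.count_eq_zero_of_notMem h1, Multiset.count_eq_zero_of_notMem h2]

omit [IsAlgClosed K] in
theorem map_finset_sum_multiset {ι B C : Type*} [DecidableEq ι] (I : Finset ι) (t : ι → Multiset B)
    (g : B → C) : Multiset.map g (∑ i ∈ I, t i) = ∑ i ∈ I, Multiset.map g (t i) :=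
  map_sum (Multiset.mapAddMonoidHom g) t I

omit [IsAlgClosed K] in
theorem sum_finset_sum_multiset {ι C : Type*} [AddCommMonoid C] [DecidableEq ι] (I : Finset ι)
    (t : ι → Multiset C) : (∑ i ∈ I, t i).sum = ∑ i ∈ I, (t i).sum := by
  induction I using Finset.induction_on with
  | empty => simp
  | insert i I hi ih => rw [Finset.sum_insert hi, Finset.sum_insert hi, Multiset.sum_add, ih]

omit [IsAlgClosed K] in
theorem prod_finset_sum_multiset {ι C : Type*} [CommMonoid C] [DecidableEq ι] (I : Finset ι)
    (t : ι → Multiset C) : (∑ i ∈ I, t i).prod = ∏ i ∈ I, (t i).prod := by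
  induction I using Finset.induction_on with
  | empty => simp
  | insert i I hi ih => rw [Finset.sum_insert hi, Finset.prod_insert hi, Multiset.prod_add, ih]

/-- **Traces determine determinants**: if `tr (a | V) = ∑ mᵢ tr (a | Wᵢ)` for all `a` in a commutative
monoid, then `det (a | V) = ∏ det (a | Wᵢ) ^ mᵢ`. -/
theorem det_eq_prod_of_trace [CharZero K] {V : Type*} [AddCommGroup V] [Module K V]
    [Module.Finite K V] (ρ : A →* Module.End K V) {ι : Type*} (I : Finset ι) (m : ι → ℕ)
    {W : ι → Type*} [∀ i, AddCommGroup (W i)] [∀ i, Module K (W i)]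
    [∀ i, Module.Finite K (W i)] (σ : ∀ i, A →* Module.End K (W i))
    (h : ∀ a, LinearMap.trace K V (ρ a) = ∑ i ∈ I, m i • LinearMap.trace K (W i) (σ i a)) (a : A) :
    LinearMap.det (ρ a) = ∏ i ∈ I, LinearMap.det (σ i a) ^ m i := by
  classical
  obtain ⟨s, -, hs⟩ := exists_characters (finrank K V) rfl ρ
  choose t _ ht using fun i => exists_characters (finrank K (W i)) rfl (σ i)
  have hst : s = ∑ i ∈ I, m i • t i := by
    refine multiset_eq_of_sum_eq fun b => ?_
    rw [← (hs b).1, h b]
    rw [map_finset_sum_multiset, sum_finset_sum_multiset]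
    exact Finset.sum_congr rfl fun i _ => by
      rw [(ht i b).1, Multiset.map_nsmul, Multiset.sum_nsmul]
  rw [(hs a).2, hst]
  rw [map_finset_sum_multiset, prod_finset_sum_multiset]
  exact Finset.prod_congr rfl fun i _ => by
    rw [(ht i a).2, Multiset.map_nsmul, Multiset.prod_nsmul]

end Char

section Domain

variable {R : Type*} [CommRing R] [IsDomain R] [CharZero R] {A : Type*} [CommMonoid A]

open TensorProduct in
/-- **Traces determine determinants**, over a domain of characteristic zero. -/
theorem det_eq_prod_of_trace_domain {V : Type*} [AddCommGroup V] [Module R V]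
    [Module.Finite R V] [Module.Free R V] (ρ : A →* Module.End R V) {ι : Type*} (I : Finset ι)
    (m : ι → ℕ)
    {W : ι → Type*} [∀ i, AddCommGroup (W i)] [∀ i, Module R (W i)]
    [∀ i, Module.Finite R (W i)] [∀ i, Module.Free R (W i)] (σ : ∀ i, A →* Module.End R (W i))
    (h : ∀ a, LinearMap.trace R V (ρ a) = ∑ i ∈ I, m i • LinearMap.trace R (W i) (σ i a)) (a : A) :
    LinearMap.det (ρ a) = ∏ i ∈ I, LinearMap.det (σ i a) ^ m i := by
  let K := AlgebraicClosure (FractionRing R)
  have hinj : Function.Injective (algebraMap R K) := by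
    rw [IsScalarTower.algebraMap_eq R (FractionRing R) K]
    exact (algebraMap (FractionRing R) K).injective.comp (IsFractionRing.injective R _)
  have : CharZero K := charZero_of_injective_algebraMap hinj
  let ρK : A →* Module.End K (K ⊗[R] V) :=
    ((Module.End.baseChangeHom R K V : Module.End R V →ₐ[R] _) : Module.End R V →* _).comp ρ
  let σK : ∀ i, A →* Module.End K (K ⊗[R] W i) := fun i =>
    ((Module.End.baseChangeHom R K (W i) : Module.End R (W i) →ₐ[R] _) :
      Module.End R (W i) →* _).comp (σ i)
  have hρ : ∀ a, ρK a = (ρ a).baseChange K := fun a => rfl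
  have hσ : ∀ i a, σK i a = (σ i a).baseChange K := fun i a => rfl
  apply hinj
  have key := det_eq_prod_of_trace ρK I m σK (fun a => by
    rw [hρ, LinearMap.trace_baseChange, h a, map_sum]
    exact Finset.sum_congr rfl fun i _ => by rw [hσ, LinearMap.trace_baseChange, map_nsmul]) a
  rw [hρ, LinearMap.det_baseChange] at key
  rw [key, map_prod]
  exact Finset.prod_congr rfl fun i _ => by rw [hσ, LinearMap.det_baseChange, map_pow]

end Domain

end Fermat.Agent.LTF
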