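import Fermat.Agent.LTF.TMoebBasic

/-!
# Divisible `p`-primary groups of finite corank

Elementary counting lemmas for `p`-divisible groups `A` (every element killed by a power of `p`,
`p`-divisible, finitely many elements killed by `p`).
-/

namespace Fermat.Agent.LTF

/-- A divisible `p`-primary group with finite `p`-torsion. -/
structure PDiv (p : ℕ) (A : Type*) [AddCommGroup A] : Prop where
  prim : ∀ x : A, ∃ k : ℕ, p ^ k • x = 0
  div : ∀ x : A, ∃ y : A, p • y = x
  fin : {x : A | p • x = 0}.Finite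

/-- The `n`-torsion subgroup. -/
def pdTors (A : Type*) [AddCommGroup A] (n : ℕ) : AddSubgroup A :=
  (nsmulAddMonoidHom n : A →+ A).ker

variable {p : ℕ} {A B C : Type*} [AddCommGroup A] [AddCommGroup B] [AddCommGroup C]

theorem mem_pdTors {n : ℕ} {x : A} : x ∈ pdTors A n ↔ n • x = 0 := Iff.rfl

/-- `#ker (ψ ∘ φ) = #ker φ * #ker ψ` for `φ` surjective. -/
theorem card_ker_comp (φ : A →+ B) (ψ : B →+ C) (hφ : Function.Surjective φ) :
    Nat.card (ψ.comp φ).ker = Nat.card φ.ker * Nat.card ψ.ker := by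
  let f : (ψ.comp φ).ker →+ ψ.ker :=
    { toFun := fun x => ⟨φ x, x.2⟩
      map_zero' := by ext; simp
      map_add' := fun x y => by ext; simp }
  have hf : Function.Surjective f := by
    rintro ⟨b, hb⟩
    obtain ⟨a, rfl⟩ := hφ b
    exact ⟨⟨a, hb⟩, rfl⟩
  have h1 := AddSubgroup.card_eq_card_quotient_mul_card_addSubgroup f.ker
  rw [h1, Nat.card_congr (QuotientAddGroup.quotientKerEquivOfSurjective f hf).toEquiv, mul_comm]
  congr 1
  refine Nat.card_congr
    { toFun := fun x => ⟨x.1.1, by
        have := x.2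
        rw [AddMonoidHom.mem_ker, Subtype.ext_iff] at this
        exact this⟩
      invFun := fun x => ⟨⟨x.1, by
        rw [AddMonoidHom.mem_ker, AddMonoidHom.comp_apply, x.2, map_zero]⟩, by
          rw [AddMonoidHom.mem_ker, Subtype.ext_iff]; exact x.2⟩
      left_inv := fun x => rfl
      right_inv := fun x => rfl }

/-- Multiplicativity of `#ker` in a short exact sequence `0 → B → A → C → 0`. -/
theorem card_ker_of_exact (i : B →+ A) (π : A →+ C) (hi : Function.Injective i)
    (hπ : Function.Surjective π) (hex : π.ker = i.range) (fB : B →+ B) (fA : A →+ A) (fC : C →+ C)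
    (h1 : ∀ b, fA (i b) = i (fB b)) (h2 : ∀ a, fC (π a) = π (fA a))
    (hfB : Function.Surjective fB) :
    Nat.card fA.ker = Nat.card fB.ker * Nat.card fC.ker := by
  let f : fA.ker →+ fC.ker :=
    { toFun := fun x => ⟨π x, by rw [AddMonoidHom.mem_ker, h2, x.2, map_zero]⟩
      map_zero' := by ext; simp
      map_add' := fun x y => by ext; simp }
  have hf : Function.Surjective f := by
    rintro ⟨c, hc⟩
    obtain ⟨a, rfl⟩ := hπ c
    rw [AddMonoidHom.mem_ker, h2] at hc
    have : fA a ∈ i.range := hex ▸ hc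
    obtain ⟨b, hb⟩ := this
    obtain ⟨b', rfl⟩ := hfB b
    refine ⟨⟨a - i b', ?_⟩, ?_⟩
    · rw [AddMonoidHom.mem_ker, map_sub, h1, hb, sub_self]
    · refine Subtype.ext ?_
      change π (a - i b') = π a
      have : i b' ∈ π.ker := hex ▸ ⟨b', rfl⟩
      rw [map_sub, this, sub_zero]
  have hcard := AddSubgroup.card_eq_card_quotient_mul_card_addSubgroup f.ker
  rw [hcard, Nat.card_congr (QuotientAddGroup.quotientKerEquivOfSurjective f hf).toEquiv, mul_comm]
  congr 1
  symm
  refine Nat.card_congr (Equiv.ofBijective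
    (fun x : fB.ker => (⟨⟨i x, by rw [AddMonoidHom.mem_ker, h1, x.2, map_zero]⟩, by
      rw [AddMonoidHom.mem_ker, Subtype.ext_iff]
      change π (i x) = 0
      have : i x ∈ π.ker := hex ▸ ⟨_, rfl⟩
      exact this⟩ : f.ker)) ⟨?_, ?_⟩)
  · intro x y hxy
    exact Subtype.ext (hi (congrArg (fun z : f.ker => (z.1.1 : A)) hxy))
  · rintro ⟨⟨a, ha⟩, ha'⟩
    rw [AddMonoidHom.mem_ker, Subtype.ext_iff] at ha'
    have hmem : a ∈ i.range := hex ▸ (show a ∈ π.ker from ha')
    obtain ⟨b, rfl⟩ := hmem
    refine ⟨⟨b, ?_⟩, rfl⟩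
    rw [AddMonoidHom.mem_ker, h1] at ha
    exact hi (by rw [ha, map_zero])

namespace PDiv

theorem div_pow (h : PDiv p A) (n : ℕ) : Function.Surjective (nsmulAddMonoidHom (p ^ n) : A →+ A) := by
  induction n with
  | zero => intro x; exact ⟨x, by simp⟩
  | succ n ih =>
    intro x
    obtain ⟨y, hy⟩ := ih x
    obtain ⟨z, hz⟩ := h.div y
    refine ⟨z, ?_⟩
    change p ^ (n + 1) • z = x
    change p ^ n • y = x at hy
    rw [pow_succ, mul_smul, hz, hy]

theorem card_tors (h : PDiv p A) (n : ℕ) : Nat.card (pdTors A (p ^ n)) = Nat.card (pdTors A p) ^ n := by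
  induction n with
  | zero =>
    have : pdTors A (p ^ 0) = ⊥ := by
      ext x; rw [mem_pdTors, pow_zero, one_smul, AddSubgroup.mem_bot]
    rw [this, pow_zero]; simp
  | succ n ih =>
    have hcomp : (nsmulAddMonoidHom (p ^ (n + 1)) : A →+ A) =
        (nsmulAddMonoidHom (p ^ n) : A →+ A).comp (nsmulAddMonoidHom p) := by
      ext x
      change p ^ (n + 1) • x = p ^ n • (p • x)
      rw [pow_succ, mul_smul]
    have h1 : Function.Surjective (nsmulAddMonoidHom p : A →+ A) := h.div
    unfold pdTors at ih ⊢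
    rw [hcomp, card_ker_comp _ _ h1, ih, pow_succ, mul_comm]

theorem finite_tors_p (h : PDiv p A) : Finite (pdTors A p) := h.fin.to_subtype

theorem card_tors_pos (h : PDiv p A) : 0 < Nat.card (pdTors A p) := by
  have := h.finite_tors_p
  exact Nat.card_pos

theorem finite_tors (h : PDiv p A) (n : ℕ) : Finite (pdTors A (p ^ n)) := by
  apply Nat.finite_of_card_ne_zero
  rw [h.card_tors]
  exact (pow_pos h.card_tors_pos n).ne'

/-- A divisible subgroup which is large enough is everything. -/
theorem eq_top (h : PDiv p A) (R : AddSubgroup A) (hR : ∀ x ∈ R, ∃ y ∈ R, p • y = x)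
    (hle : pdTors A p ≤ R) : R = ⊤ := by
  rw [eq_top_iff]
  rintro x -
  obtain ⟨k, hk⟩ := h.prim x
  have hRk : ∀ k : ℕ, ∀ x ∈ R, ∃ y ∈ R, p ^ k • y = x := by
    intro k
    induction k with
    | zero => intro x hx; exact ⟨x, hx, by simp⟩
    | succ k ih =>
      intro x hx
      obtain ⟨y, hy, rfl⟩ := ih x hx
      obtain ⟨z, hz, rfl⟩ := hR y hy
      exact ⟨z, hz, by rw [pow_succ, mul_smul]⟩
  induction k generalizing x with
  | zero => rw [pow_zero, one_smul] at hk; rw [hk]; exact R.zero_mem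
  | succ k ih =>
    have h1 : p ^ k • x ∈ R := hle (by rw [mem_pdTors, ← mul_smul, mul_comm, ← pow_succ, hk])
    obtain ⟨y, hy, hyx⟩ := hRk k _ h1
    have h2 : x - y ∈ R := ih (by rw [smul_sub, hyx, sub_self])
    simpa using R.add_mem h2 hy

theorem of_subgroup (h : PDiv p A) (R : AddSubgroup A) (hR : ∀ x ∈ R, ∃ y ∈ R, p • y = x) :
    PDiv p R where
  prim x := by
    obtain ⟨k, hk⟩ := h.prim x
    exact ⟨k, Subtype.ext (by simpa using hk)⟩
  div x := by
    obtain ⟨y, hy, hyx⟩ := hR x x.2
    exact ⟨⟨y, hy⟩, Subtype.ext (by simpa using hyx)⟩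
  fin := by
    refine (h.fin.preimage (f := ((↑) : R → A)) Subtype.val_injective.injOn).subset ?_
    intro x hx
    have := congrArg Subtype.val (show p • x = 0 from hx)
    simpa using this

theorem range (h : PDiv p A) (φ : A →+ B) : ∀ x ∈ φ.range, ∃ y ∈ φ.range, p • y = x := by
  rintro _ ⟨a, rfl⟩
  obtain ⟨b, rfl⟩ := h.div a
  exact ⟨φ b, ⟨b, rfl⟩, by rw [map_nsmul]⟩

/-- Growth comparison: `a ^ n ≤ c * b ^ n` for all `n` implies `a ≤ b`. -/
theorem le_of_pow_le {a b c : ℕ} (hpos : 0 < b) (h : ∀ n, a ^ n ≤ c * b ^ n) : a ≤ b := by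
  by_contra hlt
  push Not at hlt
  have hb : (0 : ℝ) < b := by exact_mod_cast hpos
  have h1 : (1 : ℝ) < (a : ℝ) / b := by
    rw [one_lt_div hb]; exact_mod_cast hlt
  obtain ⟨n, hn⟩ := pow_unbounded_of_one_lt (c : ℝ) h1
  have h2 := h n
  have h3 : ((a : ℝ) / b) ^ n ≤ c := by
    rw [_root_.div_pow, div_le_iff₀ (pow_pos hb n)]
    exact_mod_cast h2
  linarith

/-- A homomorphism with finite kernel between divisible groups has image with at least as
much torsion. -/
theorem card_tors_le_of_finite_ker (h : PDiv p A) (φ : A →+ B) (hfin : Finite φ.ker)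
    (R : AddSubgroup B) (hR : PDiv p R) (hφR : ∀ a, φ a ∈ R) :
    Nat.card (pdTors A p) ≤ Nat.card (pdTors R p) := by
  refine le_of_pow_le (c := Nat.card φ.ker) hR.card_tors_pos fun n => ?_
  rw [← h.card_tors, ← hR.card_tors]
  have := h.finite_tors n
  have := hR.finite_tors n
  let f : pdTors A (p ^ n) →+ pdTors R (p ^ n) :=
    { toFun := fun x => ⟨⟨φ x, hφR x⟩, by
        have hx := mem_pdTors.mp x.2
        rw [mem_pdTors]
        refine Subtype.ext ?_
        change p ^ n • φ x = 0
        rw [← map_nsmul, hx, map_zero]⟩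
      map_zero' := by ext; simp
      map_add' := fun x y => by ext; simp }
  have hcard := AddSubgroup.card_eq_card_quotient_mul_card_addSubgroup f.ker
  have hq : Nat.card (pdTors A (p ^ n) ⧸ f.ker) ≤ Nat.card (pdTors R (p ^ n)) := by
    rw [Nat.card_congr (QuotientAddGroup.quotientKerEquivRange f).toEquiv]
    exact Nat.card_le_card_of_injective _ f.range.subtype_injective
  have hk : Nat.card f.ker ≤ Nat.card φ.ker := by
    refine Nat.card_le_card_of_injective (fun x : f.ker => (⟨x.1.1, by
      have := x.2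
      rw [AddMonoidHom.mem_ker, Subtype.ext_iff, Subtype.ext_iff] at this
      exact this⟩ : φ.ker)) ?_
    intro x y hxy
    exact Subtype.ext (Subtype.ext (congrArg (fun z : φ.ker => (z.1 : A)) hxy))
  rw [hcard, mul_comm]
  exact Nat.mul_le_mul hk hq

/-- An endomorphism with finite kernel of a divisible group of finite corank is surjective. -/
theorem surjective_of_finite_ker (h : PDiv p A) (φ : A →+ A) (hfin : Finite φ.ker) :
    Function.Surjective φ := by
  have hR : PDiv p φ.range := h.of_subgroup _ (h.range φ)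
  have hle := card_tors_le_of_finite_ker h φ hfin φ.range hR fun a => ⟨a, rfl⟩
  have := h.finite_tors_p
  rw [← AddMonoidHom.range_eq_top]
  refine h.eq_top _ (h.range φ) ?_
  let j : pdTors φ.range p → pdTors A p := fun x => ⟨x.1.1, by
    have := mem_pdTors.mp x.2
    rw [Subtype.ext_iff] at this
    exact this⟩
  have hj : Function.Injective j := fun x y hxy =>
    Subtype.ext (Subtype.ext (congrArg (fun z : pdTors A p => (z.1 : A)) hxy))
  have hjs : Function.Surjective j := by
    have := hR.finite_tors_p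
    exact ((Nat.bijective_iff_injective_and_card j).mpr
      ⟨hj, le_antisymm (Nat.card_le_card_of_injective j hj) hle⟩).2
  intro x hx
  obtain ⟨y, hy⟩ := hjs ⟨x, hx⟩
  have : (y.1.1 : A) = x := congrArg (fun z : pdTors A p => (z.1 : A)) hy
  exact this ▸ y.1.2

theorem bijective_of_injective (h : PDiv p A) (φ : A →+ A) (hφ : Function.Injective φ) :
    Function.Bijective φ := by
  refine ⟨hφ, h.surjective_of_finite_ker φ ?_⟩
  have : φ.ker = ⊥ := (AddMonoidHom.ker_eq_bot_iff φ).mpr hφ
  rw [this]; infer_instance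

/-- Two endomorphisms which agree on `A[p^k]` have the same kernel if `p^(k-1)` kills the kernel of one
of them. -/
theorem ker_eq_of_eqOn (h : PDiv p A) {φ ψ : A →+ A} {k : ℕ} (hk : ∀ x, φ x = 0 → p ^ k • x = 0)
    (heq : ∀ x, p ^ (k + 1) • x = 0 → φ x = ψ x) : φ.ker = ψ.ker := by
  have key : ∀ j x, p ^ (k + 1 + j) • x = 0 → ψ x = 0 → p ^ (k + 1) • x = 0 := by
    intro j
    induction j with
    | zero => intro x hx _; exact hx
    | succ j ih =>
      intro x hx hψ
      have h1 : p ^ (k + 1) • (p • x) = 0 := by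
        refine ih (p • x) ?_ (by rw [map_nsmul, hψ, smul_zero])
        rw [← mul_smul, ← pow_succ]; exact hx
      have h2 : φ (p • x) = 0 := by rw [heq _ h1, map_nsmul, hψ, smul_zero]
      have h3 := hk _ h2
      rw [← mul_smul, ← pow_succ] at h3
      exact h3
  ext x
  rw [AddMonoidHom.mem_ker, AddMonoidHom.mem_ker]
  constructor
  · intro hx
    rw [← heq x (by rw [pow_succ', mul_smul, hk x hx, smul_zero]), hx]
  · intro hx
    obtain ⟨j, hj⟩ := h.prim x
    have : p ^ (k + 1) • x = 0 := key j x (by rw [pow_add, mul_smul, hj, smul_zero]) hx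
    rw [heq x this, hx]

end PDiv

end Fermat.Agent.LTF
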