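import Fermat.Agent.LTF.TMoebDiv

/-!
# Monodromy and Frobenius at `q`: elementary counting

`D` is a divisible group with an action of `G` such that `T σ = σ + χ(σ) σ⁻¹` commutes with `G`.
`τ` is an element with `(τ - 1)² = 0` on `D`, `N = τ - 1`. For `g` with `rhobar(g)` not fixing the line
fixed by Frobenius, `y = T (τ g) - T g` satisfies `#ker y = (#(ker N / im N))²`.
-/

namespace Fermat.Agent.LTF

section Ring

variable {E : Type*} [Ring E] {G : Type*} [Group G] (ρ : G →* E) (χ : G →* E)

/-- The reduced trace `T σ = σ + χ(σ) σ⁻¹`. -/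
def redTr (σ : G) : E := ρ σ + χ σ * ρ σ⁻¹

/-- The fundamental identity `N g + g N = T(g) N + (T(τ g) - T(g))`. -/
theorem monodromy_identity (τ g : G) (hχ : χ τ = 1) (hN : (ρ τ - 1) * (ρ τ - 1) = 0) :
    (ρ τ - 1) * ρ g + ρ g * (ρ τ - 1) =
      redTr ρ χ g * (ρ τ - 1) + (redTr ρ χ (τ * g) - redTr ρ χ g) := by
  have hinv : ρ τ⁻¹ = 2 - ρ τ := by
    have h1 : ρ τ * (2 - ρ τ) = 1 := by
      have : ρ τ * (2 - ρ τ) = 1 - (ρ τ - 1) * (ρ τ - 1) := by noncomm_ring
      rw [this, hN, sub_zero]
    have h2 : ρ τ⁻¹ * ρ τ = 1 := by rw [← map_mul, inv_mul_cancel, map_one]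
    calc ρ τ⁻¹ = ρ τ⁻¹ * (ρ τ * (2 - ρ τ)) := by rw [h1, mul_one]
      _ = (ρ τ⁻¹ * ρ τ) * (2 - ρ τ) := by rw [mul_assoc]
      _ = 2 - ρ τ := by rw [h2, one_mul]
  have h3 : redTr ρ χ (τ * g) = ρ τ * ρ g + χ g * (ρ g⁻¹ * (2 - ρ τ)) := by
    unfold redTr
    rw [map_mul, map_mul χ, hχ, one_mul, mul_inv_rev, map_mul, hinv]
  rw [h3]
  unfold redTr
  noncomm_ring

end Ring

variable {D : Type*} [AddCommGroup D] {G : Type*} [Group G]

/-- Kernel of an endomorphism. -/
def kerE (f : AddMonoid.End D) : AddSubgroup D := AddMonoidHom.ker (show D →+ D from f)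

/-- Range of an endomorphism. -/
def rangeE (f : AddMonoid.End D) : AddSubgroup D := AddMonoidHom.range (show D →+ D from f)

theorem mem_kerE {f : AddMonoid.End D} {x : D} : x ∈ kerE f ↔ f x = 0 := Iff.rfl

theorem mem_rangeE {f : AddMonoid.End D} {x : D} : x ∈ rangeE f ↔ ∃ y, f y = x := Iff.rfl

/-- The natural number `n` as an endomorphism. -/
theorem natCast_end_apply (n : ℕ) (x : D) : ((n : AddMonoid.End D)) x = n • x := by
  induction n with
  | zero => simp
  | succ n ih =>
    rw [Nat.cast_succ, succ_nsmul, ← ih]; rfl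

/-- **Counting monodromy.** -/
theorem card_ker_monodromy {p : ℕ} (hD : PDiv p D) (ρ : G →* AddMonoid.End D)
    (χ : G →* AddMonoid.End D) (hcomm : ∀ σ g, Commute (redTr ρ χ σ) (ρ g)) (τ g : G)
    (hχ : χ τ = 1) (hN : (ρ τ - 1) * (ρ τ - 1) = 0)
    (hdir : ∀ a b : D, (ρ τ - 1) a = ρ g ((ρ τ - 1) b) → (ρ τ - 1) a = 0)
    (hfin : (rangeE (ρ τ - 1)).relIndex (kerE (ρ τ - 1)) ≠ 0) :
    Nat.card (kerE (redTr ρ χ (τ * g) - redTr ρ χ g)) =
      (rangeE (ρ τ - 1)).relIndex (kerE (ρ τ - 1)) ^ 2 := by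
  set N : AddMonoid.End D := ρ τ - 1 with hNdef
  set y : AddMonoid.End D := redTr ρ χ (τ * g) - redTr ρ χ g with hy
  set R : AddSubgroup D := rangeE N with hR
  have hNN : ∀ x, N (N x) = 0 := fun x => by
    have := DFunLike.congr_fun hN x
    exact this
  have hyN : Commute y N := by
    rw [hy, hNdef]
    exact ((hcomm _ _).sub_left (hcomm _ _)).sub_right (Commute.one_right _)
  have hyg : Commute y (ρ g) := (hcomm _ _).sub_left (hcomm _ _)
  have hyN' : ∀ x, y (N x) = N (y x) := fun x => DFunLike.congr_fun hyN.eq x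
  have hyg' : ∀ x, y (ρ g x) = ρ g (y x) := fun x => DFunLike.congr_fun hyg.eq x
  have hTN : ∀ x, redTr ρ χ g (N x) = N (redTr ρ χ g x) := fun x => by
    have : Commute (redTr ρ χ g) N := by
      rw [hNdef]; exact (hcomm _ _).sub_right (Commute.one_right _)
    exact DFunLike.congr_fun this.eq x
  have hid := monodromy_identity ρ χ τ g hχ hN
  have hid' : ∀ x, N (ρ g x) + ρ g (N x) = redTr ρ χ g (N x) + y x := fun x =>
    DFunLike.congr_fun hid x
  -- key: on `R = im N`, `N g v = y v`
  have hkey : ∀ v ∈ R, N (ρ g v) = y v := by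
    rintro _ ⟨a, rfl⟩
    have := hid' (N a)
    rw [hNN, map_zero, map_zero, zero_add, add_zero] at this
    exact this
  have hRk : R ≤ kerE N := by
    rintro _ ⟨a, rfl⟩
    exact hNN a
  have hyR : ∀ v ∈ R, y v ∈ R := by
    rintro _ ⟨a, rfl⟩
    exact ⟨y a, (hyN' a).symm⟩
  -- the sum map
  let s : R × R →+ D :=
    { toFun := fun u => u.1 + ρ g u.2
      map_zero' := by simp
      map_add' := fun u v => by simp only [Prod.fst_add, Prod.snd_add, AddSubgroup.coe_add, map_add]; abel }
  have hs_inj : Function.Injective s := by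
    rw [injective_iff_map_eq_zero]
    rintro ⟨⟨u, ⟨a, rfl⟩⟩, ⟨v, ⟨b, rfl⟩⟩⟩ h
    have h' : N a + ρ g (N b) = 0 := h
    have h1 : N a = ρ g (N (-b)) := by
      rw [map_neg, map_neg]; exact eq_neg_of_add_eq_zero_left h'
    have h2 : N a = 0 := hdir a (-b) h1
    have h3 : ρ g (N b) = 0 := by rw [h2, zero_add] at h'; exact h'
    have h4 : N b = 0 := by
      have := congrArg (ρ g⁻¹) h3
      rw [map_zero] at this
      have h5 : ρ g⁻¹ (ρ g (N b)) = N b := by
        have : (ρ g⁻¹ * ρ g) (N b) = N b := by rw [← map_mul, inv_mul_cancel, map_one]; rfl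
        exact this
      rw [← h5]; exact this
    simp only [Prod.mk_eq_zero]
    exact ⟨Subtype.ext h2, Subtype.ext h4⟩
  have hRdiv : PDiv p R := hD.of_subgroup R (hD.range N)
  -- the sum map is surjective
  have hs_surj : Function.Surjective s := by
    rw [← AddMonoidHom.range_eq_top]
    have hsdiv : ∀ x ∈ s.range, ∃ z ∈ s.range, p • z = x := by
      rintro _ ⟨⟨u, v⟩, rfl⟩
      obtain ⟨u', rfl⟩ := hRdiv.div u
      obtain ⟨v', rfl⟩ := hRdiv.div v
      refine ⟨s (u', v'), ⟨_, rfl⟩, ?_⟩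
      rw [← map_nsmul]; rfl
    refine hD.eq_top _ hsdiv ?_
    -- counting
    have hle : Nat.card (pdTors D p) ≤ Nat.card (pdTors R p) ^ 2 := by
      refine PDiv.le_of_pow_le (c := R.relIndex (kerE N))
        (pow_pos hRdiv.card_tors_pos 2) fun n => ?_
      have hfD := hD.finite_tors n
      have hfR := hRdiv.finite_tors n
      rw [← hD.card_tors, ← pow_mul, mul_comm 2 n, pow_mul, ← hRdiv.card_tors]
      -- N : D[p^n] → R[p^n]
      let f : pdTors D (p ^ n) →+ pdTors R (p ^ n) :=
        { toFun := fun x => ⟨⟨N x, ⟨_, rfl⟩⟩, by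
            have hx := mem_pdTors.mp x.2
            rw [mem_pdTors]
            refine Subtype.ext ?_
            change p ^ n • N x = 0
            rw [← map_nsmul, hx, map_zero]⟩
          map_zero' := by ext; simp
          map_add' := fun x y => by ext; simp }
      have hcard := AddSubgroup.card_eq_card_quotient_mul_card_addSubgroup f.ker
      have hq : Nat.card (pdTors D (p ^ n) ⧸ f.ker) ≤ Nat.card (pdTors R (p ^ n)) := by
        rw [Nat.card_congr (QuotientAddGroup.quotientKerEquivRange f).toEquiv]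
        exact Nat.card_le_card_of_injective _ f.range.subtype_injective
      -- f.ker → ker N → ker N / R with kernel inside R[p^n]
      have hk : Nat.card f.ker ≤ R.relIndex (kerE N) * Nat.card (pdTors R (p ^ n)) := by
        let g1 : f.ker →+ kerE N :=
          { toFun := fun x => ⟨x.1.1, by
              have := x.2
              rw [AddMonoidHom.mem_ker, Subtype.ext_iff, Subtype.ext_iff] at this
              exact this⟩
            map_zero' := rfl
            map_add' := fun _ _ => rfl }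
        let g2 : f.ker →+ (kerE N ⧸ R.addSubgroupOf (kerE N)) :=
          (QuotientAddGroup.mk' _).comp g1
        have hfq : Finite (kerE N ⧸ R.addSubgroupOf (kerE N)) :=
          Nat.finite_of_card_ne_zero hfin
        have hc2 := AddSubgroup.card_eq_card_quotient_mul_card_addSubgroup g2.ker
        rw [hc2]
        refine Nat.mul_le_mul ?_ ?_
        · rw [Nat.card_congr (QuotientAddGroup.quotientKerEquivRange g2).toEquiv]
          exact Nat.card_le_card_of_injective _ g2.range.subtype_injective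
        · refine Nat.card_le_card_of_injective (fun x : g2.ker => (⟨⟨x.1.1.1, by
            have := x.2
            rw [AddMonoidHom.mem_ker] at this
            have h2 : (g1 x.1) ∈ R.addSubgroupOf (kerE N) :=
              (QuotientAddGroup.eq_zero_iff _).mp this
            exact h2⟩, by
              rw [mem_pdTors]
              refine Subtype.ext ?_
              exact mem_pdTors.mp x.1.1.2⟩ : pdTors R (p ^ n))) ?_
          intro x y hxy
          exact Subtype.ext (Subtype.ext (Subtype.ext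
            (congrArg (fun z : pdTors R (p ^ n) => (z.1.1 : D)) hxy)))
      rw [hcard]
      calc Nat.card (pdTors D (p ^ n) ⧸ f.ker) * Nat.card f.ker
          ≤ Nat.card (pdTors R (p ^ n)) *
            (R.relIndex (kerE N) * Nat.card (pdTors R (p ^ n))) := Nat.mul_le_mul hq hk
        _ = _ := by ring
    -- the p-torsion of R × R fills D[p]
    have hfD := hD.finite_tors_p
    have hfR := hRdiv.finite_tors_p
    let j : pdTors R p × pdTors R p → pdTors D p := fun x => ⟨s (x.1.1, x.2.1), by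
      rw [mem_pdTors, ← map_nsmul]
      have h1 : p • (x.1.1, x.2.1) = 0 := by
        rw [Prod.smul_mk, mem_pdTors.mp x.1.2, mem_pdTors.mp x.2.2]; rfl
      rw [h1, map_zero]⟩
    have hj : Function.Injective j := by
      rintro ⟨x1, x2⟩ ⟨y1, y2⟩ hxy
      have h0 := hs_inj (congrArg (fun z : pdTors D p => (z.1 : D)) hxy)
      rw [Prod.mk.injEq] at h0
      rw [Prod.mk.injEq]
      exact ⟨Subtype.ext h0.1, Subtype.ext h0.2⟩
    have hjs : Function.Surjective j := by
      refine ((Nat.bijective_iff_injective_and_card j).mpr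
        ⟨hj, le_antisymm (Nat.card_le_card_of_injective j hj) ?_⟩).2
      rw [Nat.card_prod, ← pow_two]
      exact hle
    intro x hx
    obtain ⟨z, hz⟩ := hjs ⟨x, hx⟩
    exact ⟨(z.1.1, z.2.1), congrArg (fun z : pdTors D p => (z.1 : D)) hz⟩
  let e : R × R ≃+ D := AddEquiv.ofBijective s ⟨hs_inj, hs_surj⟩
  -- `K = R[y]`
  let K : AddSubgroup R := AddMonoidHom.ker
    ({ toFun := fun v => ⟨y v, hyR v v.2⟩
       map_zero' := by ext; simp
       map_add' := fun u v => by ext; simp } : R →+ R)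
  have hK : ∀ v : R, v ∈ K ↔ y v = 0 := fun v => by
    rw [AddMonoidHom.mem_ker, Subtype.ext_iff]; rfl
  have hs_y : ∀ u : R × R, y (s u) = s (⟨y u.1, hyR _ u.1.2⟩, ⟨y u.2, hyR _ u.2.2⟩) := by
    intro u
    change y (u.1 + ρ g u.2) = y u.1 + ρ g (y u.2)
    rw [map_add, hyg']
  have hcard1 : Nat.card (kerE y) = Nat.card K ^ 2 := by
    rw [pow_two, ← Nat.card_prod]
    refine Nat.card_congr (Equiv.ofBijective (fun x : K × K => (⟨s (x.1.1, x.2.1), ?_⟩ :
      kerE y)) ⟨?_, ?_⟩).symm
    · rw [mem_kerE, hs_y]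
      have h1 := (hK _).mp x.1.2
      have h2 := (hK _).mp x.2.2
      have : ((⟨y (x.1.1 : R), hyR _ x.1.1.2⟩, ⟨y (x.2.1 : R), hyR _ x.2.1.2⟩) : R × R) = 0 := by
        rw [Prod.mk_eq_zero]; exact ⟨Subtype.ext h1, Subtype.ext h2⟩
      rw [this, map_zero]
    · rintro ⟨x1, x2⟩ ⟨y1, y2⟩ hxy
      have h0 := hs_inj (congrArg Subtype.val hxy)
      rw [Prod.mk.injEq] at h0 ⊢
      exact ⟨Subtype.ext h0.1, Subtype.ext h0.2⟩
    · rintro ⟨x, hx⟩
      obtain ⟨⟨u, v⟩, rfl⟩ := hs_surj x
      rw [mem_kerE, hs_y] at hx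
      have h0 := (injective_iff_map_eq_zero s).mp hs_inj _ hx
      rw [Prod.mk_eq_zero] at h0
      refine ⟨(⟨u, (hK u).mpr ?_⟩, ⟨v, (hK v).mpr ?_⟩), rfl⟩
      · exact congrArg Subtype.val h0.1
      · exact congrArg Subtype.val h0.2
  have hcard2 : R.relIndex (kerE N) = Nat.card K := by
    let f : K →+ (kerE N ⧸ R.addSubgroupOf (kerE N)) :=
      (QuotientAddGroup.mk' _).comp
        { toFun := fun v => ⟨ρ g v.1, by
            rw [mem_kerE, hkey _ v.1.2]; exact (hK _).mp v.2⟩
          map_zero' := by ext; simp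
          map_add' := fun u v => by ext; simp }
    symm
    refine Nat.card_congr (Equiv.ofBijective f ⟨?_, ?_⟩)
    · rw [injective_iff_map_eq_zero]
      intro v hv
      have h1 : (ρ g v.1 : D) ∈ R := by
        have := (QuotientAddGroup.eq_zero_iff _).mp hv
        exact this
      have h2 : s (⟨ρ g v.1, h1⟩, 0) = s (0, v.1) := by
        change ρ g v.1 + ρ g (0 : D) = 0 + ρ g v.1
        rw [map_zero, add_zero, zero_add]
      have h3 := hs_inj h2
      rw [Prod.mk.injEq] at h3
      exact Subtype.ext h3.2.symm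
    · intro z
      obtain ⟨⟨x, hx⟩, rfl⟩ := QuotientAddGroup.mk_surjective z
      obtain ⟨⟨u, v⟩, rfl⟩ := hs_surj x
      have hyv : y v = 0 := by
        rw [mem_kerE] at hx
        have h1 : N (s (u, v)) = y v := by
          change N (u + ρ g v) = y v
          rw [map_add, hkey _ v.2, show N (u : D) = 0 from hRk u.2, zero_add]
        rw [← h1]; exact hx
      refine ⟨⟨v, (hK v).mpr hyv⟩, ?_⟩
      change QuotientAddGroup.mk _ = QuotientAddGroup.mk _
      rw [QuotientAddGroup.eq]
      change -(ρ g v) + (u + ρ g v) ∈ R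
      rw [add_comm (u : D), neg_add_cancel_left]
      exact u.2
  rw [hcard1, hcard2]

end Fermat.Agent.LTF
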