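import Fermat.Agent.LTF.TMoebChar

/-!
# Cardinalities of quotients of finite free `ℤ_p`-algebras
-/

open Module Polynomial

namespace Fermat.Agent.LTF

variable {p : ℕ} [Fact p.Prime]

theorem injective_of_det_ne_zero {R M : Type*} [CommRing R] [IsDomain R] [AddCommGroup M]
    [Module R M] [Module.Free R M] [Module.Finite R M] (φ : M →ₗ[R] M)
    (h : LinearMap.det φ ≠ 0) : Function.Injective φ := by
  rw [← LinearMap.ker_eq_bot]
  by_contra hb
  exact h (LinearMap.det_eq_zero_iff_ker_ne_bot.mpr hb)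

/-- `#(B / x) = |N x|⁻¹` for a finite free `ℤ_p`-algebra `B`. -/
theorem card_quot_span_norm {B : Type*} [CommRing B] [Algebra ℤ_[p] B] [Module.Free ℤ_[p] B]
    [Module.Finite ℤ_[p] B] (x : B) (hx : Algebra.norm ℤ_[p] x ≠ 0) :
    (Nat.card (B ⧸ Ideal.span ({x} : Set B)) : ℝ) = ‖Algebra.norm ℤ_[p] x‖⁻¹ := by
  have h1 : Algebra.norm ℤ_[p] x = LinearMap.det (LinearMap.mulLeft ℤ_[p] x) := rfl
  have hinj : Function.Injective (LinearMap.mulLeft ℤ_[p] x) :=
    injective_of_det_ne_zero _ (h1 ▸ hx)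
  rw [h1, ← card_quot_range _ hinj]
  congr 1
  refine Nat.card_congr ?_
  have hI : (Ideal.span ({x} : Set B)).restrictScalars ℤ_[p] =
      LinearMap.range (LinearMap.mulLeft ℤ_[p] x) := by
    ext y
    rw [Submodule.restrictScalars_mem, Ideal.mem_span_singleton', LinearMap.mem_range]
    constructor
    · rintro ⟨a, rfl⟩; exact ⟨a, by simp [mul_comm]⟩
    · rintro ⟨a, rfl⟩; exact ⟨a, by simp [mul_comm]⟩
  rw [← hI]
  exact (Submodule.Quotient.restrictScalarsEquiv ℤ_[p] (Ideal.span ({x} : Set B))).symm.toEquiv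

theorem monic_X_sq_sub_one (A : Type*) [CommRing A] : (X ^ 2 - 1 : A[X]).Monic := by
  simpa using monic_X_pow_sub_C (1 : A) two_ne_zero

/-- The norm of `a + b U` in `A[U]/(U² - 1)` is `a² - b²`. -/
theorem norm_adjoinRoot {A : Type*} [CommRing A] (a b : A) :
    Algebra.norm A (AdjoinRoot.of (X ^ 2 - 1 : A[X]) a +
      AdjoinRoot.of (X ^ 2 - 1 : A[X]) b * AdjoinRoot.root (X ^ 2 - 1 : A[X])) =
      a ^ 2 - b ^ 2 := by
  nontriviality A
  set g : A[X] := X ^ 2 - 1 with hg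
  have hmon : g.Monic := monic_X_sq_sub_one A
  have hdeg : g.natDegree = 2 := by
    rw [hg]; simpa using natDegree_X_pow_sub_C (n := 2) (r := (1 : A))
  have hroot : AdjoinRoot.root g * AdjoinRoot.root g = 1 := by
    have h := AdjoinRoot.eval₂_root g
    rw [hg] at h
    simp only [eval₂_sub, eval₂_X_pow, eval₂_one] at h
    rw [← pow_two]
    exact sub_eq_zero.mp h
  let pb := AdjoinRoot.powerBasis' hmon
  have hdim : pb.dim = 2 := hdeg
  let e : Fin pb.dim ≃ Fin 2 := finCongr hdim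
  let bs : Basis (Fin 2) A (AdjoinRoot g) := pb.basis.reindex e
  have hb0 : bs 0 = 1 := by
    rw [Basis.reindex_apply, pb.basis_eq_pow]
    have : ((e.symm 0 : Fin pb.dim) : ℕ) = 0 := rfl
    rw [this, pow_zero]
  have hb1 : bs 1 = AdjoinRoot.root g := by
    rw [Basis.reindex_apply, pb.basis_eq_pow]
    have : ((e.symm 1 : Fin pb.dim) : ℕ) = 1 := rfl
    rw [this, pow_one]; rfl
  set x := AdjoinRoot.of g a + AdjoinRoot.of g b * AdjoinRoot.root g with hx
  have h0 : x * bs 0 = a • bs 0 + b • bs 1 := by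
    rw [hb0, hb1, mul_one, Algebra.smul_def, Algebra.smul_def, mul_one]; rfl
  have h1 : x * bs 1 = b • bs 0 + a • bs 1 := by
    rw [hb0, hb1, hx, add_mul, mul_assoc, hroot, Algebra.smul_def, Algebra.smul_def, mul_one,
      mul_one, add_comm]
    rfl
  rw [Algebra.norm_eq_matrix_det bs, Matrix.det_fin_two]
  simp only [Algebra.leftMulMatrix_eq_repr_mul, h0, h1, map_add, map_smul, Basis.repr_self,
    Finsupp.add_apply, Finsupp.smul_apply]
  simp
  ring

/-- `#(A[U]/(U² - T U + q, U² - 1)) = |N((q+1)² - T²)|⁻¹`. -/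
theorem card_quot_polynomial {A : Type*} [CommRing A] [Algebra ℤ_[p] A] [Module.Free ℤ_[p] A]
    [Module.Finite ℤ_[p] A] (T q : A) (h : Algebra.norm ℤ_[p] ((q + 1) ^ 2 - T ^ 2) ≠ 0) :
    (Nat.card (A[X] ⧸ Ideal.span ({X ^ 2 - C T * X + C q, X ^ 2 - 1} : Set A[X])) : ℝ) =
      ‖Algebra.norm ℤ_[p] ((q + 1) ^ 2 - T ^ 2)‖⁻¹ := by
  set g : A[X] := X ^ 2 - 1 with hg
  have hmon : g.Monic := monic_X_sq_sub_one A
  have hfree : Module.Free A (AdjoinRoot g) := hmon.free_adjoinRoot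
  have hfin : Module.Finite A (AdjoinRoot g) := hmon.finite_adjoinRoot
  have hfree' : Module.Free ℤ_[p] (AdjoinRoot g) := Module.Free.trans (S := A)
  have hfin' : Module.Finite ℤ_[p] (AdjoinRoot g) := Module.Finite.trans A _
  set x : AdjoinRoot g := AdjoinRoot.of g (q + 1) + AdjoinRoot.of g (-T) * AdjoinRoot.root g with hx
  have hnorm : Algebra.norm ℤ_[p] x = Algebra.norm ℤ_[p] ((q + 1) ^ 2 - T ^ 2) := by
    rw [← Algebra.norm_norm (R := ℤ_[p]) (S := A), hx, norm_adjoinRoot, neg_sq]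
  rw [← hnorm, ← card_quot_span_norm x (hnorm ▸ h)]
  congr 1
  refine Nat.card_congr ?_
  have hmk : AdjoinRoot.mk g (X ^ 2 - C T * X + C q) = x := by
    have hroot : AdjoinRoot.root g ^ 2 = 1 := by
      have h := AdjoinRoot.eval₂_root g
      rw [hg] at h
      simp only [eval₂_sub, eval₂_X_pow, eval₂_one] at h
      exact sub_eq_zero.mp h
    rw [map_add, map_sub, map_mul, map_pow, AdjoinRoot.mk_X, AdjoinRoot.mk_C, AdjoinRoot.mk_C,
      hroot, hx, map_add, map_one, map_neg]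
    ring
  have hI : Ideal.span ({X ^ 2 - C T * X + C q, g} : Set A[X]) =
      Ideal.span {g} ⊔ Ideal.span {X ^ 2 - C T * X + C q} := by
    rw [Ideal.span_insert, sup_comm]
  rw [hI]
  have hJ : Ideal.span ({x} : Set (AdjoinRoot g)) =
      (Ideal.span {X ^ 2 - C T * X + C q}).map (Ideal.Quotient.mk (Ideal.span {g})) := by
    rw [Ideal.map_span, Set.image_singleton]
    congr 2
    exact hmk.symm
  rw [hJ]
  exact (DoubleQuot.quotQuotEquivQuotSup (Ideal.span {g})
    (Ideal.span {X ^ 2 - C T * X + C q})).symm.toEquiv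

end Fermat.Agent.LTF
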