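import Fermat.Agent.LTF.TMoebLoc

/-!
# Residual input: `rhobar` has image `S₃`

* `direct_of_residual`: `im N ∩ g (im N) = 0`.
* `card_ker_frob`: `(#ker (φ² - 1))² = #ker ((q+1)² - T_q²)` on the unramified part.
-/

namespace Fermat.Agent.LTF

variable {D : Type*} [AddCommGroup D] {G : Type*} [Group G]

theorem exists_last_ne_zero (a : AddMonoid.End D) {x : D} (hx : x ≠ 0) {j : ℕ}
    (hj : (a ^ j) x = 0) : ∃ i, (a ^ i) x ≠ 0 ∧ a ((a ^ i) x) = 0 := by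
  classical
  have hex : ∃ j, (a ^ j) x = 0 := ⟨j, hj⟩
  have hpos : Nat.find hex ≠ 0 := by
    intro h0
    have := Nat.find_spec hex
    rw [h0, pow_zero] at this
    exact hx this
  obtain ⟨i, hi⟩ := Nat.exists_eq_succ_of_ne_zero hpos
  refine ⟨i, Nat.find_min hex (by omega), ?_⟩
  have := Nat.find_spec hex
  rw [hi, Nat.succ_eq_add_one, pow_succ'] at this
  exact this

theorem pow_mem_of_stable (a : AddMonoid.End D) (S : AddSubgroup D) (hS : ∀ x ∈ S, a x ∈ S) (i : ℕ)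
    {x : D} (hx : x ∈ S) : (a ^ i) x ∈ S := by
  induction i with
  | zero => simpa using hx
  | succ i ih => rw [pow_succ']; exact hS _ ih

theorem two_smul_pow (a : AddMonoid.End D) {x : D} (h2 : 2 • x = 0) : 2 • a x = 0 := by
  rw [← map_nsmul, h2, map_zero]

/-- The sum `im N + g (im N)` is direct. -/
theorem direct_of_residual (hprim : ∀ x : D, ∃ k : ℕ, 2 ^ k • x = 0) (ρ χ : G →* AddMonoid.End D)
    (hcomm : ∀ σ g, Commute (redTr ρ χ σ) (ρ g)) (hχ2 : ∀ σ, ∀ x : D, 2 • x = 0 → χ σ x = x)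
    (τ g φ : G) (w : AddMonoid.End D) (hw : w * w = 1) (hwcomm : ∀ σ, Commute w (ρ σ))
    (hwT : ∀ σ, Commute w (redTr ρ χ σ)) (q : ℕ) (hq : Odd q)
    (hloc : ∀ x, ρ φ ((ρ τ - 1) x) + q • w ((ρ τ - 1) x) = 0)
    (hres : ∀ x : D, 2 • x = 0 → ∃ j : ℕ, ((redTr ρ χ (φ * (g * φ * g⁻¹)) - 1) ^ j) x = 0) :
    ∀ a b : D, (ρ τ - 1) a = ρ g ((ρ τ - 1) b) → (ρ τ - 1) a = 0 := by
  set N : AddMonoid.End D := ρ τ - 1 with hN
  set h : G := φ * (g * φ * g⁻¹) with hh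
  have hginv : ∀ x, ρ g⁻¹ (ρ g x) = x := fun x => by
    have : (ρ g⁻¹ * ρ g) x = x := by rw [← map_mul, inv_mul_cancel, map_one]; rfl
    exact this
  have hginv' : ∀ x, ρ g (ρ g⁻¹ x) = x := fun x => by
    have : (ρ g * ρ g⁻¹) x = x := by rw [← map_mul, mul_inv_cancel, map_one]; rfl
    exact this
  let I : AddSubgroup D := rangeE N ⊓ (rangeE N).comap (show D →+ D from ρ g⁻¹)
  have hI : ∀ x, x ∈ I ↔ (∃ a, N a = x) ∧ (∃ b, N b = ρ g⁻¹ x) := fun x => Iff.rfl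
  have hstab : ∀ a : AddMonoid.End D, (∀ σ, Commute a (ρ σ)) → ∀ x ∈ I, a x ∈ I := by
    intro a ha x hx
    obtain ⟨⟨u, hu⟩, ⟨v, hv⟩⟩ := (hI x).mp hx
    have haN : Commute a N := (ha τ).sub_right (Commute.one_right _)
    refine (hI _).mpr ⟨⟨a u, ?_⟩, ⟨a v, ?_⟩⟩
    · rw [← hu]; exact (DFunLike.congr_fun haN.eq u).symm
    · have h1 : ρ g⁻¹ (a x) = a (ρ g⁻¹ x) := (DFunLike.congr_fun (ha g⁻¹).eq x).symm
      rw [h1, ← hv]; exact (DFunLike.congr_fun haN.eq v).symm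
  have hmain : ∀ x ∈ I, x = 0 := by
    intro x hx
    by_contra hx0
    -- make it 2-torsion
    obtain ⟨k, hk⟩ := hprim x
    have hk' : (((2 : ℕ) : AddMonoid.End D) ^ k) x = 0 := by
      rw [← Nat.cast_pow, natCast_end_apply]; exact hk
    obtain ⟨i, hi1, hi2⟩ := exists_last_ne_zero _ hx0 hk'
    set x1 := (((2 : ℕ) : AddMonoid.End D) ^ i) x with hx1
    have hx1I : x1 ∈ I := by
      rw [hx1, ← Nat.cast_pow, natCast_end_apply]; exact I.nsmul_mem hx _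
    have hx12 : 2 • x1 = 0 := by rw [← natCast_end_apply]; exact hi2
    -- killed by T h - 1
    obtain ⟨j, hj⟩ := hres x1 hx12
    obtain ⟨i2, hi3, hi4⟩ := exists_last_ne_zero _ hi1 hj
    set x2 := ((redTr ρ χ h - 1) ^ i2) x1 with hx2
    have hTcomm : ∀ σ, Commute (redTr ρ χ h - 1) (ρ σ) := fun σ =>
      (hcomm h σ).sub_left (Commute.one_left _)
    have hx2I : x2 ∈ I := pow_mem_of_stable _ I (hstab _ hTcomm) i2 hx1I
    have hx22 : 2 • x2 = 0 := two_smul_pow _ hx12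
    have hTx2 : redTr ρ χ h x2 = x2 := by
      have : redTr ρ χ h x2 - x2 = 0 := hi4
      exact sub_eq_zero.mp this
    -- killed by w - 1
    obtain ⟨x3, hx3I, hx30, hx32, hTx3, hwx3⟩ : ∃ x3, x3 ∈ I ∧ x3 ≠ 0 ∧ 2 • x3 = 0 ∧
        redTr ρ χ h x3 = x3 ∧ w x3 = x3 := by
      by_cases hwx : w x2 = x2
      · exact ⟨x2, hx2I, hi3, hx22, hTx2, hwx⟩
      · refine ⟨w x2 - x2, I.sub_mem (hstab w hwcomm _ hx2I) hx2I, sub_ne_zero.mpr hwx, ?_, ?_, ?_⟩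
        · rw [smul_sub, ← map_nsmul, hx22, map_zero, sub_zero]
        · rw [map_sub]
          have : redTr ρ χ h (w x2) = w (redTr ρ χ h x2) :=
            (DFunLike.congr_fun (hwT h).eq x2).symm
          rw [this, hTx2]
        · rw [map_sub]
          have : w (w x2) = x2 := DFunLike.congr_fun hw x2
          rw [this]
          have h2 : 2 • (w x2 - x2) = 0 := by
            rw [smul_sub, ← map_nsmul, hx22, map_zero, sub_zero]
          have : x2 - w x2 = (w x2 - x2) - 2 • (w x2 - x2) := by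
            rw [two_smul]; abel
          rw [this, h2, sub_zero]
    -- `φ` fixes everything in `im N` which is fixed by `w` and killed by `2`
    have hfix : ∀ v, 2 • v = 0 → w v = v → (∃ a, N a = v) → ρ φ v = v := by
      rintro v hv2 hwv ⟨a, rfl⟩
      have h1 := hloc a
      rw [hwv] at h1
      obtain ⟨m, rfl⟩ := hq
      rw [add_smul, mul_comm, mul_smul, hv2, smul_zero, zero_add, one_smul] at h1
      rw [eq_neg_of_add_eq_zero_left h1, neg_eq_iff_add_eq_zero, ← two_smul ℕ]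
      exact hv2
    obtain ⟨h3a, h3b⟩ := (hI x3).mp hx3I
    have hf1 : ρ φ x3 = x3 := hfix x3 hx32 hwx3 h3a
    have hf2 : ρ φ (ρ g⁻¹ x3) = ρ g⁻¹ x3 := by
      refine hfix _ (two_smul_pow _ hx32) ?_ h3b
      have : w (ρ g⁻¹ x3) = ρ g⁻¹ (w x3) := DFunLike.congr_fun (hwcomm g⁻¹).eq x3
      rw [this, hwx3]
    have hhx : ρ h x3 = x3 := by
      rw [hh, map_mul, map_mul, map_mul]
      change ρ φ (ρ g (ρ φ (ρ g⁻¹ x3))) = x3
      rw [hf2, hginv', hf1]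
    have hhx' : ρ h⁻¹ x3 = x3 := by
      have : (ρ h⁻¹ * ρ h) x3 = x3 := by rw [← map_mul, inv_mul_cancel, map_one]; rfl
      calc ρ h⁻¹ x3 = ρ h⁻¹ (ρ h x3) := by rw [hhx]
        _ = x3 := this
    have : redTr ρ χ h x3 = 0 := by
      change ρ h x3 + χ h (ρ h⁻¹ x3) = 0
      rw [hhx, hhx', hχ2 h x3 hx32, ← two_smul ℕ]
      exact hx32
    exact hx30 (hTx3.symm.trans this)
  intro a b hab
  refine hmain _ ((hI _).mpr ⟨⟨a, rfl⟩, ⟨b, ?_⟩⟩)
  rw [hab, hginv]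

/-- On the unramified part: `(#ker (φ² - 1))² = #ker ((q+1)² - T(φ)²)`. -/
theorem card_ker_frob (hD : PDiv 2 D) (ρ χ : G →* AddMonoid.End D)
    (hcomm : ∀ σ g, Commute (redTr ρ χ σ) (ρ g)) (hχ2 : ∀ σ, ∀ x : D, 2 • x = 0 → χ σ x = x)
    (g φ : G) (q : ℕ) (hχφ : ∀ x, χ φ x = q • x)
    (hχcomm : ∀ σ g', Commute (χ σ) (ρ g'))
    (hresφ : ∀ x : D, 2 • x = 0 → ∃ j : ℕ, (redTr ρ χ φ ^ j) x = 0)
    (hresg : ∀ x : D, 2 • x = 0 → ∃ j : ℕ, (redTr ρ χ g ^ j) x = 0)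
    (hres : ∀ x : D, 2 • x = 0 → ∃ j : ℕ, ((redTr ρ χ (φ * g) - 1) ^ j) x = 0)
    (hTT : ∀ σ σ', Commute (redTr ρ χ σ) (redTr ρ χ σ'))
    (hfin : Finite (kerE (ρ φ * ρ φ - 1 : AddMonoid.End D))) :
    Nat.card (kerE (ρ φ * ρ φ - 1 : AddMonoid.End D)) ^ 2 =
      Nat.card (kerE ((((q : AddMonoid.End D) + 1) ^ 2 -
        redTr ρ χ φ ^ 2 : AddMonoid.End D))) := by
  set Φ : AddMonoid.End D := ρ φ with hΦ
  set Φ' : AddMonoid.End D := χ φ * ρ φ⁻¹ with hΦ'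
  have hT : redTr ρ χ φ = Φ + Φ' := rfl
  have hχq : χ φ = (q : AddMonoid.End D) := by
    ext x; rw [hχφ, natCast_end_apply]
  have hΦΦ' : Φ * Φ' = (q : AddMonoid.End D) := by
    rw [hΦ', ← mul_assoc, ← (hχcomm φ φ).eq, mul_assoc, ← map_mul, mul_inv_cancel, map_one,
      mul_one, hχq]
  have hΦ'Φ : Φ' * Φ = (q : AddMonoid.End D) := by
    rw [hΦ', mul_assoc, hΦ, ← map_mul, inv_mul_cancel, map_one, mul_one, hχq]
  -- the intertwiner
  set Y : AddMonoid.End D := Φ * ρ g - ρ g * Φ with hY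
  have hTg : redTr ρ χ φ * ρ g = ρ g * redTr ρ χ φ := (hcomm φ g).eq
  have hYΦ : Y * Φ = Φ' * Y := by
    have h1 : Φ' = redTr ρ χ φ - Φ := by rw [hT]; noncomm_ring
    have h2 : redTr ρ χ φ * Φ = Φ * Φ + (q : AddMonoid.End D) := by
      rw [hT, add_mul, hΦ'Φ]
    have h3 : Φ * Φ = redTr ρ χ φ * Φ - (q : AddMonoid.End D) := by rw [h2]; noncomm_ring
    have hq : (q : AddMonoid.End D) * ρ g = ρ g * (q : AddMonoid.End D) :=
      (Nat.cast_commute q (ρ g)).eq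
    have h4 : ρ g * Φ * Φ = redTr ρ χ φ * ρ g * Φ - ρ g * (q : AddMonoid.End D) := by
      rw [mul_assoc, h3, mul_sub, ← mul_assoc, ← hTg]
    have h5 : Φ * Φ * ρ g = redTr ρ χ φ * Φ * ρ g - (q : AddMonoid.End D) * ρ g := by
      rw [h3, sub_mul]
    calc Y * Φ = Φ * ρ g * Φ - ρ g * Φ * Φ := by rw [hY]; noncomm_ring
      _ = redTr ρ χ φ * Φ * ρ g - redTr ρ χ φ * ρ g * Φ - Φ * Φ * ρ g + Φ * ρ g * Φ := by
          rw [h4, h5, hq]; noncomm_ring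
      _ = Φ' * Y := by rw [h1, hY]; noncomm_ring
  have hYinj : Function.Injective Y := by
    rw [injective_iff_map_eq_zero]
    intro x hx
    by_contra hx0
    -- all `T σ` preserve `ker Y`
    have hTY : ∀ σ, Commute (redTr ρ χ σ) Y := fun σ =>
      (((hcomm σ φ).mul_right (hcomm σ g))).sub_right ((hcomm σ g).mul_right (hcomm σ φ))
    have hst : ∀ a : AddMonoid.End D, Commute a Y → ∀ x ∈ kerE Y, a x ∈ kerE Y := by
      intro a ha x hx
      rw [mem_kerE] at hx ⊢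
      have : Y (a x) = a (Y x) := (DFunLike.congr_fun ha.eq x).symm
      rw [this, hx, map_zero]
    obtain ⟨k, hk⟩ := hD.prim x
    have hk' : (((2 : ℕ) : AddMonoid.End D) ^ k) x = 0 := by
      rw [← Nat.cast_pow, natCast_end_apply]; exact hk
    obtain ⟨i, hi1, hi2⟩ := exists_last_ne_zero _ hx0 hk'
    set x1 := (((2 : ℕ) : AddMonoid.End D) ^ i) x with hx1
    have hx1I : x1 ∈ kerE Y := by
      rw [hx1, ← Nat.cast_pow, natCast_end_apply]; exact (kerE Y).nsmul_mem hx _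
    have hx12 : 2 • x1 = 0 := by rw [← natCast_end_apply]; exact hi2
    obtain ⟨j, hj⟩ := hresφ x1 hx12
    obtain ⟨i2, hi3, hi4⟩ := exists_last_ne_zero _ hi1 hj
    set x2 := (redTr ρ χ φ ^ i2) x1 with hx2
    have hx2I : x2 ∈ kerE Y := pow_mem_of_stable _ _ (hst _ (hTY φ)) i2 hx1I
    have hx22 : 2 • x2 = 0 := two_smul_pow _ hx12
    obtain ⟨j3, hj3⟩ := hresg x2 hx22
    obtain ⟨i3, hi5, hi6⟩ := exists_last_ne_zero _ hi3 hj3
    set x3 := (redTr ρ χ g ^ i3) x2 with hx3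
    have hx3I : x3 ∈ kerE Y := pow_mem_of_stable _ _ (hst _ (hTY g)) i3 hx2I
    have hx32 : 2 • x3 = 0 := two_smul_pow _ hx22
    have hφ3 : redTr ρ χ φ x3 = 0 := by
      have : redTr ρ χ φ x3 = (redTr ρ χ g ^ i3) (redTr ρ χ φ x2) :=
        DFunLike.congr_fun ((hTT φ g).pow_right i3).eq x2
      rw [this, hi4, map_zero]
    obtain ⟨j4, hj4⟩ := hres x3 hx32
    obtain ⟨i4, hi7, hi8⟩ := exists_last_ne_zero _ hi5 hj4
    set x4 := ((redTr ρ χ (φ * g) - 1) ^ i4) x3 with hx4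
    have hc1 : ∀ σ, Commute (redTr ρ χ σ) (redTr ρ χ (φ * g) - 1) := fun σ =>
      (hTT σ _).sub_right (Commute.one_right _)
    have hx4I : x4 ∈ kerE Y := pow_mem_of_stable _ _
      (hst _ ((hTY _).sub_left (Commute.one_left _))) i4 hx3I
    have hx42 : 2 • x4 = 0 := two_smul_pow _ hx32
    have hφ4 : redTr ρ χ φ x4 = 0 := by
      have : redTr ρ χ φ x4 = ((redTr ρ χ (φ * g) - 1) ^ i4) (redTr ρ χ φ x3) :=
        DFunLike.congr_fun ((hc1 φ).pow_right i4).eq x3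
      rw [this, hφ3, map_zero]
    have hg4 : redTr ρ χ g x4 = 0 := by
      have : redTr ρ χ g x4 = ((redTr ρ χ (φ * g) - 1) ^ i4) (redTr ρ χ g x3) :=
        DFunLike.congr_fun ((hc1 g).pow_right i4).eq x3
      rw [this, hi6, map_zero]
    have hr4 : redTr ρ χ (φ * g) x4 = x4 := by
      have : redTr ρ χ (φ * g) x4 - x4 = 0 := hi8
      exact sub_eq_zero.mp this
    -- on 2-torsion vectors with `T σ x = 0`, `σ² x = x`
    have hsq : ∀ σ, ∀ x : D, 2 • x = 0 → redTr ρ χ σ x = 0 → ρ σ⁻¹ x = ρ σ x := by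
      intro σ x h2 hx
      change ρ σ x + χ σ (ρ σ⁻¹ x) = 0 at hx
      rw [hχ2 σ _ (two_smul_pow _ h2)] at hx
      have h3 : 2 • ρ σ⁻¹ x = 0 := two_smul_pow _ h2
      have : ρ σ x = - ρ σ⁻¹ x := eq_neg_of_add_eq_zero_left hx
      rw [this, eq_neg_iff_add_eq_zero, ← two_smul ℕ]
      exact h3
    -- u = φ g x4 = g φ x4
    have hYx : ρ φ (ρ g x4) = ρ g (ρ φ x4) := by
      have : Y x4 = 0 := hx4I
      exact sub_eq_zero.mp this
    have hinv : ρ (φ * g)⁻¹ x4 = ρ g⁻¹ (ρ φ⁻¹ x4) := by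
      rw [mul_inv_rev, map_mul]; rfl
    have e1 : ρ φ⁻¹ x4 = ρ φ x4 := hsq φ x4 hx42 hφ4
    have hgφ : redTr ρ χ g (ρ φ x4) = 0 := by
      have : redTr ρ χ g (ρ φ x4) = ρ φ (redTr ρ χ g x4) := DFunLike.congr_fun (hcomm g φ).eq x4
      rw [this, hg4, map_zero]
    have e2 : ρ g⁻¹ (ρ φ x4) = ρ g (ρ φ x4) := hsq g _ (two_smul_pow _ hx42) hgφ
    have e3 : ρ (φ * g)⁻¹ x4 = ρ (φ * g) x4 := by
      rw [hinv, e1, e2, ← hYx, map_mul]; rfl
    have e4 : redTr ρ χ (φ * g) x4 = 0 := by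
      change ρ (φ * g) x4 + χ (φ * g) (ρ (φ * g)⁻¹ x4) = 0
      rw [hχ2 _ _ (two_smul_pow _ hx42), e3, ← two_smul ℕ]
      exact two_smul_pow _ hx42
    exact hi7 (hr4.symm.trans e4)
  have hYbij := hD.bijective_of_injective Y hYinj
  -- `ker (Φ² - 1) ≃ ker (Φ'² - 1)`
  have hYsq : Y * (Φ * Φ - 1) = (Φ' * Φ' - 1) * Y := by
    calc Y * (Φ * Φ - 1) = (Y * Φ) * Φ - Y := by noncomm_ring
      _ = Φ' * Y * Φ - Y := by rw [hYΦ]
      _ = Φ' * (Y * Φ) - Y := by rw [mul_assoc]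
      _ = (Φ' * Φ' - 1) * Y := by rw [hYΦ]; noncomm_ring
  have hcard : Nat.card (kerE (Φ' * Φ' - 1 : AddMonoid.End D)) =
      Nat.card (kerE (Φ * Φ - 1 : AddMonoid.End D)) := by
    symm
    refine Nat.card_congr (Equiv.ofBijective (fun x : kerE (Φ * Φ - 1 : AddMonoid.End D) =>
      (⟨Y x, ?_⟩ : kerE (Φ' * Φ' - 1 : AddMonoid.End D))) ⟨?_, ?_⟩)
    · rw [mem_kerE]
      have : (Φ' * Φ' - 1) (Y x) = Y ((Φ * Φ - 1) x) := (DFunLike.congr_fun hYsq x.1).symm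
      rw [this, mem_kerE.mp x.2, map_zero]
    · intro x y hxy
      exact Subtype.ext (hYinj (congrArg Subtype.val hxy))
    · rintro ⟨z, hz⟩
      obtain ⟨x, rfl⟩ := hYbij.2 z
      refine ⟨⟨x, ?_⟩, rfl⟩
      rw [mem_kerE] at hz ⊢
      refine hYinj ?_
      have : Y ((Φ * Φ - 1) x) = (Φ' * Φ' - 1) (Y x) := DFunLike.congr_fun hYsq x
      exact (this.trans hz).trans (map_zero Y).symm
  have hprod : (((q : AddMonoid.End D) + 1) ^ 2 - redTr ρ χ φ ^ 2 : AddMonoid.End D) =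
      (Φ' * Φ' - 1) * (Φ * Φ - 1) := by
    have e1 : Φ' * Φ' * (Φ * Φ) = (q : AddMonoid.End D) * (q : AddMonoid.End D) := by
      calc Φ' * Φ' * (Φ * Φ) = Φ' * (Φ' * Φ) * Φ := by noncomm_ring
        _ = Φ' * ((q : AddMonoid.End D)) * Φ := by rw [hΦ'Φ]
        _ = (q : AddMonoid.End D) * (Φ' * Φ) := by
            rw [← (Nat.cast_commute q Φ').eq, mul_assoc]
        _ = _ := by rw [hΦ'Φ]
    have e2 : (Φ' * Φ' - 1) * (Φ * Φ - 1) = Φ' * Φ' * (Φ * Φ) - Φ' * Φ' - Φ * Φ + 1 := by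
      noncomm_ring
    have e3 : (Φ + Φ') ^ 2 = Φ * Φ + Φ' * Φ' + Φ * Φ' + Φ' * Φ := by noncomm_ring
    rw [e2, e1, hT, e3, hΦΦ', hΦ'Φ, pow_two]
    noncomm_ring
  have hsurj : Function.Surjective (Φ * Φ - 1 : AddMonoid.End D) :=
    hD.surjective_of_finite_ker (show D →+ D from (Φ * Φ - 1 : AddMonoid.End D)) hfin
  have hcomp := card_ker_comp (show D →+ D from (Φ * Φ - 1 : AddMonoid.End D)) (show D →+ D from (Φ' * Φ' - 1 : AddMonoid.End D)) hsurj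
  have h1 : Nat.card (kerE ((((q : AddMonoid.End D) + 1) ^ 2 -
        redTr ρ χ φ ^ 2 : AddMonoid.End D))) =
      Nat.card (kerE (Φ * Φ - 1 : AddMonoid.End D)) *
        Nat.card (kerE (Φ' * Φ' - 1 : AddMonoid.End D)) := by
    rw [hprod]; exact hcomp
  rw [h1, hcard, pow_two]

end Fermat.Agent.LTF
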