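import Fermat.Agent.LTF.StartEnd
import Fermat.Agent.Top.Wiring

/-!
# `TwoAdic`: the 2-adic modularity theorem in the form of `Top/Defs.lean`
-/

set_option autoImplicit false

namespace Fermat.Agent.LTF

/-- **TwoAdic**, unconditional. -/
theorem twoAdic_fin : Fermat.Agent.Top.TwoAdic :=
  Fermat.Agent.Top.twoAdic_of_level fun _ hW => StartEnd.modular_of_goodCurve hW

end Fermat.Agent.LTF
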