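import Fermat.Agent.LTF.TwoDivMat
import Fermat.Agent.LTF.IrrTwo
import Fermat.Agent.S53_HasMat
import Fermat.Agent.EC.ResRep
import Fermat.Agent.FlatP.Concrete

/-!
# The 2-division field of an elliptic curve: roots and square root of the discriminant
-/

set_option autoImplicit false

noncomputable section

open WeierstrassCurve WeierstrassCurve.Affine WeierstrassCurve.Affine.Point
open FermatAgent.ECVal Fermat.Agent.ECRed
open scoped WeierstrassCurve.Affine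

namespace Fermat.Agent.LTF.TwoDiv

open Fermat.Agent.S53norm (GQ M2 HasMat)

/-- `ℚ̄` -/
abbrev Qb := AlgebraicClosure ℚ

/-- `rbar` is a matrix form of the Galois action on `W[2]`. -/
def TwoMat (W : WeierstrassCurve ℤ) (rbar : GQ →* M2 (ZMod 2)) : Prop :=
  HasMat (galoisRepModuleEnd (K := Qb) ℚ (W.map (Int.castRingHom ℚ)) 2 : GQ → _)
    (rbar : GQ → M2 (ZMod 2))

/-- `x v` is the `x`-coordinate of the 2-torsion point with coordinates `v ≠ 0`. -/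
structure Roots (W : WeierstrassCurve ℤ) (rbar : GQ →* M2 (ZMod 2))
    (x : (Fin 2 → ZMod 2) → Qb) : Prop where
  inj : ∀ v w, v ≠ 0 → w ≠ 0 → x v = x w → v = w
  root : ∀ v, v ≠ 0 → 4 * x v ^ 3 + (W.b₂ : Qb) * x v ^ 2 + 2 * (W.b₄ : Qb) * x v + (W.b₆ : Qb) = 0
  act : ∀ (σ : GQ) v, v ≠ 0 → σ (x v) = x ((rbar σ).mulVec v)

lemma det_eq_one (rbar : GQ →* M2 (ZMod 2)) (σ : GQ) : (rbar σ).det = 1 := by
  have h : (rbar σ).det * (rbar σ⁻¹).det = 1 := by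
    rw [← Matrix.det_mul, ← map_mul, mul_inv_cancel, map_one, Matrix.det_one]
  generalize (rbar σ).det = a at h ⊢
  generalize (rbar σ⁻¹).det = b at h
  revert a b
  decide

/-- the `x`-coordinate of a point -/
def xc {F : Type} [Field F] {E : Affine F} : E.Point → F
  | 0 => 0
  | .some x _ _ => x

theorem exists_roots {W : WeierstrassCurve ℤ} {rbar : GQ →* M2 (ZMod 2)} (h : TwoMat W rbar) :
    ∃ x, Roots W rbar x := by
  classical
  obtain ⟨e, he⟩ := h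
  have key : ∀ v : Fin 2 → ZMod 2, v ≠ 0 → ∃ (x y : Qb) (hxy : (EQ W).Nonsingular x y),
      ((e.symm v : Submodule.torsionBy ℤ (EQ W).Point ((2 : ℕ) : ℤ)) : (EQ W).Point) =
        Point.some x y hxy := by
    intro v hv
    rcases hP : ((e.symm v : Submodule.torsionBy ℤ (EQ W).Point ((2 : ℕ) : ℤ)) :
      (EQ W).Point) with _ | ⟨x, y, hxy⟩
    · exfalso
      apply hv
      have : e.symm v = 0 := Subtype.ext hP
      rwa [LinearEquiv.map_eq_zero_iff] at this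
    · exact ⟨x, y, hxy, rfl⟩
  have h2 : ∀ v : Fin 2 → ZMod 2,
      2 • ((e.symm v : Submodule.torsionBy ℤ (EQ W).Point ((2 : ℕ) : ℤ)) : (EQ W).Point) = 0 := by
    intro v
    exact Tate.mem_torsionBy_nat.mp (e.symm v).2
  let x : (Fin 2 → ZMod 2) → Qb := fun v =>
    xc ((e.symm v : Submodule.torsionBy ℤ (EQ W).Point ((2 : ℕ) : ℤ)) : (EQ W).Point)
  refine ⟨x, ⟨?_, ?_, ?_⟩⟩
  · intro v w hv hw hvw
    obtain ⟨a, b, hab, h1⟩ := key v hv
    obtain ⟨a', b', hab', h1'⟩ := key w hw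
    have hxa : x v = a := by
      show xc _ = a
      rw [h1]; rfl
    have hxa' : x w = a' := by
      show xc _ = a'
      rw [h1']; rfl
    have haa : a = a' := by rw [← hxa, ← hxa', hvw]
    have hpt : (Point.some a b hab : (EQ W).Point) = Point.some a' b' hab' ∨
        (Point.some a b hab : (EQ W).Point) = -Point.some a' b' hab' :=
      (X_eq_iff (h₁ := hab) (h₂ := hab')).mp haa
    have hneg : -(Point.some a' b' hab' : (EQ W).Point) = Point.some a' b' hab' := by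
      rw [neg_eq_iff_add_eq_zero, ← two_nsmul, ← h1']
      exact h2 w
    rw [hneg, or_self] at hpt
    rw [← h1, ← h1'] at hpt
    exact e.symm.injective (Subtype.ext hpt)
  · intro v hv
    obtain ⟨a, b, hab, h1⟩ := key v hv
    have hxa : x v = a := by
      show xc _ = a
      rw [h1]; rfl
    have h3 := two_torsion hab (by rw [← h1]; exact h2 v)
    rw [S51tor.g, EQ_b₂, EQ_b₄, EQ_b₆] at h3
    rw [hxa]
    exact h3
  · intro σ v hv
    obtain ⟨a, b, hab, h1⟩ := key v hv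
    have hxa : x v = a := by
      show xc _ = a
      rw [h1]; rfl
    have h3 : e.symm ((rbar σ).mulVec v) =
        galoisRepModuleEnd (K := Qb) ℚ (W.map (Int.castRingHom ℚ)) 2 σ (e.symm v) := by
      rw [LinearEquiv.symm_apply_eq, he, LinearEquiv.apply_symm_apply]
    obtain ⟨h', hσ⟩ := S51gal.smul_some (W := W.map (Int.castRingHom ℚ)) σ hab
    have h4 : ((e.symm ((rbar σ).mulVec v) : Submodule.torsionBy ℤ (EQ W).Point ((2 : ℕ) : ℤ)) :
        (EQ W).Point) = Point.some (σ a) (σ b) h' := by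
      rw [h3, ← hσ, ← h1]
      rfl
    have h5 : x ((rbar σ).mulVec v) = σ a := by
      show xc _ = σ a
      rw [h4]; rfl
    rw [h5, hxa]

section vieta

variable {W : WeierstrassCurve ℤ} {rbar : GQ →* M2 (ZMod 2)} {x : (Fin 2 → ZMod 2) → Qb}

lemma Roots.ne (h : Roots W rbar x) {v w : Fin 2 → ZMod 2} (hv : v ≠ 0) (hw : w ≠ 0)
    (hvw : v ≠ w) : x v ≠ x w := fun e => hvw (h.inj v w hv hw e)

/-- Vieta for `4X³ + b₂X² + 2b₄X + b₆`. -/
lemma vieta {F : Type*} [Field F] [CharZero F] {b₂ b₄ b₆ p q r : F}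
    (h1 : 4 * p ^ 3 + b₂ * p ^ 2 + 2 * b₄ * p + b₆ = 0)
    (h2 : 4 * q ^ 3 + b₂ * q ^ 2 + 2 * b₄ * q + b₆ = 0)
    (h3 : 4 * r ^ 3 + b₂ * r ^ 2 + 2 * b₄ * r + b₆ = 0)
    (h12 : p ≠ q) (h13 : p ≠ r) (h23 : q ≠ r) :
    b₂ = -4 * (p + q + r) ∧ b₄ = 2 * (p * q + p * r + q * r) ∧ b₆ = -4 * (p * q * r) := by
  have e1 : 4 * (p ^ 2 + p * q + q ^ 2) + b₂ * (p + q) + 2 * b₄ = 0 := by
    apply mul_left_cancel₀ (sub_ne_zero.mpr h12)
    linear_combination h1 - h2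
  have e2 : 4 * (p ^ 2 + p * r + r ^ 2) + b₂ * (p + r) + 2 * b₄ = 0 := by
    apply mul_left_cancel₀ (sub_ne_zero.mpr h13)
    linear_combination h1 - h3
  have e3 : b₂ = -4 * (p + q + r) := by
    apply mul_left_cancel₀ (sub_ne_zero.mpr h23)
    linear_combination e1 - e2
  have e4 : b₄ = 2 * (p * q + p * r + q * r) := by
    have h2' : (2 : F) ≠ 0 := two_ne_zero
    apply mul_left_cancel₀ h2'
    subst e3
    linear_combination e1
  refine ⟨e3, e4, ?_⟩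
  subst e3 e4
  linear_combination h1

/-- the square root of the discriminant -/
def rootΔ (x : (Fin 2 → ZMod 2) → Qb) : Qb :=
  4 * ((x v1 - x v2) * (x v1 - x v3) * (x v2 - x v3))

lemma Roots.vieta (h : Roots W rbar x) :
    (W.b₂ : Qb) = -4 * (x v1 + x v2 + x v3) ∧
      (W.b₄ : Qb) = 2 * (x v1 * x v2 + x v1 * x v3 + x v2 * x v3) ∧
      (W.b₆ : Qb) = -4 * (x v1 * x v2 * x v3) :=
  TwoDiv.vieta (h.root _ v1_ne) (h.root _ v2_ne) (h.root _ v3_ne) (h.ne v1_ne v2_ne v12)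
    (h.ne v1_ne v3_ne v13) (h.ne v2_ne v3_ne v23)

/-- `Δ = δ²` with `δ = 4 (e₁ - e₂)(e₁ - e₃)(e₂ - e₃)`. -/
lemma Roots.sq_rootΔ (h : Roots W rbar x) : rootΔ x ^ 2 = (W.Δ : Qb) := by
  obtain ⟨h2, h4, h6⟩ := h.vieta
  have h4' : (4 : Qb) ≠ 0 := by norm_num
  apply mul_left_cancel₀ h4'
  have h8 : (4 : ℤ) * W.Δ = -W.b₂ ^ 2 * (W.b₂ * W.b₆ - W.b₄ ^ 2) - 32 * W.b₄ ^ 3 -
      108 * W.b₆ ^ 2 + 36 * W.b₂ * W.b₄ * W.b₆ := by
    rw [← W.b_relation, WeierstrassCurve.Δ]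
    ring
  have h8' : (4 : Qb) * (W.Δ : Qb) = -(W.b₂ : Qb) ^ 2 * ((W.b₂ : Qb) * W.b₆ - (W.b₄ : Qb) ^ 2) -
      32 * (W.b₄ : Qb) ^ 3 - 108 * (W.b₆ : Qb) ^ 2 + 36 * (W.b₂ : Qb) * W.b₄ * W.b₆ := by
    exact_mod_cast congrArg (Int.cast : ℤ → Qb) h8
  rw [h8', h2, h4, h6, rootΔ]
  ring

/-- `c₄ = 16 (s₁² - 3 s₂)` -/
lemma Roots.c₄ (h : Roots W rbar x) :
    (W.c₄ : Qb) = 16 * ((x v1 - x v2) ^ 2 - (x v1 - x v2) * (x v1 - x v3) + (x v1 - x v3) ^ 2) := by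
  obtain ⟨h2, h4, h6⟩ := h.vieta
  have : (W.c₄ : Qb) = (W.b₂ : Qb) ^ 2 - 24 * (W.b₄ : Qb) := by
    rw [WeierstrassCurve.c₄]
    push_cast
    ring
  rw [this, h2, h4]
  ring

/-- action on the square root of the discriminant -/
lemma Roots.act_rootΔ (h : Roots W rbar x) (σ : GQ) :
    (rbar σ * rbar σ * rbar σ = 1 ∧ σ (rootΔ x) = rootΔ x) ∨
    (rbar σ * rbar σ * rbar σ ≠ 1 ∧ rbar σ * rbar σ = 1 ∧ rbar σ ≠ 1 ∧
      σ (rootΔ x) = -rootΔ x) := by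
  have e : σ (rootΔ x) = 4 * ((x ((rbar σ).mulVec v1) - x ((rbar σ).mulVec v2)) *
      (x ((rbar σ).mulVec v1) - x ((rbar σ).mulVec v3)) *
      (x ((rbar σ).mulVec v2) - x ((rbar σ).mulVec v3))) := by
    rw [rootΔ, ← h.act σ _ v1_ne, ← h.act σ _ v2_ne, ← h.act σ _ v3_ne]
    simp only [map_mul, map_sub, map_ofNat]
  rw [e, rootΔ]
  rcases mat_cases (rbar σ) (det_eq_one rbar σ) with
    ⟨h0, h1 | h1 | h1⟩ | ⟨h0, h0', h0'', h1 | h1 | h1⟩
  · left; refine ⟨h0, ?_⟩; rw [h1.1, h1.2.1, h1.2.2]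
  · left; refine ⟨h0, ?_⟩; rw [h1.1, h1.2.1, h1.2.2]; ring
  · left; refine ⟨h0, ?_⟩; rw [h1.1, h1.2.1, h1.2.2]; ring
  · right; refine ⟨h0, h0', h0'', ?_⟩; rw [h1.1, h1.2.1, h1.2.2]; ring
  · right; refine ⟨h0, h0', h0'', ?_⟩; rw [h1.1, h1.2.1, h1.2.2]; ring
  · right; refine ⟨h0, h0', h0'', ?_⟩; rw [h1.1, h1.2.1, h1.2.2]; ring

lemma Roots.Δ_ne (h : Roots W rbar x) : rootΔ x ≠ 0 := by
  rw [rootΔ]
  refine mul_ne_zero (by norm_num) (mul_ne_zero (mul_ne_zero ?_ ?_) ?_)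
  · exact sub_ne_zero.mpr (h.ne v1_ne v2_ne v12)
  · exact sub_ne_zero.mpr (h.ne v1_ne v3_ne v13)
  · exact sub_ne_zero.mpr (h.ne v2_ne v3_ne v23)

/-- **(b1)** `σ` fixes a square root of `Δ` iff `rbar σ` has order `1` or `3`. -/
theorem Roots.fix_iff (h : Roots W rbar x) {s : Qb} (hs : s ^ 2 = (W.Δ : Qb)) (σ : GQ) :
    σ s = s ↔ rbar σ ^ 3 = 1 := by
  have hs' : s = rootΔ x ∨ s = -rootΔ x := by
    rw [← h.sq_rootΔ] at hs
    exact sq_eq_sq_iff_eq_or_eq_neg.mp hs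
  have h0 := h.Δ_ne
  have hne : -rootΔ x ≠ rootΔ x := by
    intro e
    apply h0
    have h2 : (2 : Qb) ≠ 0 := two_ne_zero
    apply mul_left_cancel₀ h2
    linear_combination -e
  rw [pow_succ, pow_two]
  rcases h.act_rootΔ σ with ⟨h1, h2⟩ | ⟨h1, -, -, h2⟩
  · refine ⟨fun _ => h1, fun _ => ?_⟩
    rcases hs' with rfl | rfl
    · exact h2
    · rw [map_neg, h2]
  · refine ⟨fun e => ?_, fun e => absurd e h1⟩
    exfalso
    rcases hs' with rfl | rfl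
    · exact hne (h2.symm.trans e)
    · rw [map_neg, h2, neg_neg] at e
      exact hne e.symm

end vieta

end Fermat.Agent.LTF.TwoDiv
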