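import Fermat.Agent.LTF.TwoDiv

/-!
# The 2-division field at the bad primes
-/

set_option autoImplicit false

noncomputable section

open WeierstrassCurve WeierstrassCurve.Affine WeierstrassCurve.Affine.Point
open FermatAgent.ECVal Fermat.Agent.ECRed
open scoped WeierstrassCurve.Affine

namespace Fermat.Agent.LTF.TwoDiv

open Fermat.Agent.S53norm (GQ M2 HasMat)

variable {W : WeierstrassCurve ℤ} {rbar : GQ →* M2 (ZMod 2)} {x : (Fin 2 → ZMod 2) → Qb}

/-- difference of the two roots different from the root of index `v` -/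
def dd (x : (Fin 2 → ZMod 2) → Qb) (v : Fin 2 → ZMod 2) : Qb :=
  if v = v1 then x v2 - x v3 else if v = v2 then x v1 - x v3 else x v1 - x v2

lemma dd1 (x : (Fin 2 → ZMod 2) → Qb) : dd x v1 = x v2 - x v3 := if_pos rfl
lemma dd2 (x : (Fin 2 → ZMod 2) → Qb) : dd x v2 = x v1 - x v3 := by
  rw [dd, if_neg (Ne.symm v12), if_pos rfl]
lemma dd3 (x : (Fin 2 → ZMod 2) → Qb) : dd x v3 = x v1 - x v2 := by
  rw [dd, if_neg (Ne.symm v13), if_neg (Ne.symm v23)]

lemma Roots.act_dd (h : Roots W rbar x) (σ : GQ) (v : Fin 2 → ZMod 2) (hv : v ≠ 0) :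
    σ (dd x v) = dd x ((rbar σ).mulVec v) ∨ σ (dd x v) = -dd x ((rbar σ).mulVec v) := by
  have e1 := h.act σ _ v1_ne
  have e2 := h.act σ _ v2_ne
  have e3 := h.act σ _ v3_ne
  rcases mat_cases (rbar σ) (det_eq_one rbar σ) with
    ⟨-, h1 | h1 | h1⟩ | ⟨-, -, -, h1 | h1 | h1⟩ <;>
  obtain ⟨g1, g2, g3⟩ := h1 <;>
  rw [g1] at e1 <;> rw [g2] at e2 <;> rw [g3] at e3 <;>
  rcases vec_cases v with rfl | rfl | rfl | rfl <;>
  first
  | exact absurd rfl hv
  | (simp only [g1, g2, g3, dd1, dd2, dd3, map_sub, e1, e2, e3]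
     first
     | exact Or.inl trivial
     | exact Or.inr (by ring))

lemma Roots.dd_ne (h : Roots W rbar x) (v : Fin 2 → ZMod 2) (hv : v ≠ 0) : dd x v ≠ 0 := by
  rcases vec_cases v with rfl | rfl | rfl | rfl
  · exact absurd rfl hv
  · rw [dd1]; exact sub_ne_zero.mpr (h.ne v2_ne v3_ne v23)
  · rw [dd2]; exact sub_ne_zero.mpr (h.ne v1_ne v3_ne v13)
  · rw [dd3]; exact sub_ne_zero.mpr (h.ne v1_ne v2_ne v12)

section place

variable {p : ℕ} (hp : p.Prime) {A : ValuationSubring (AlgebraicClosure ℚ)}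
  (hA : A.LiesOverPrime p)

lemma Roots.val_dd (h : Roots W rbar x) {σ : GQ} (hσ : σ ∈ A.decompositionSubgroup ℚ)
    (v : Fin 2 → ZMod 2) (hv : v ≠ 0) :
    (valOf hp hA).val (dd x ((rbar σ).mulVec v)) = (valOf hp hA).val (dd x v) := by
  have hne : (rbar σ).mulVec v ≠ 0 := by
    intro h0
    apply hv
    have : (rbar σ⁻¹).mulVec ((rbar σ).mulVec v) = v := by
      rw [Matrix.mulVec_mulVec, ← map_mul, inv_mul_cancel, map_one, Matrix.one_mulVec]
    rw [← this, h0, Matrix.mulVec_zero]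
  rw [← FlatP.valOf_decomp hp hA hσ (dd x v)]
  rcases h.act_dd σ v hv with e | e
  · rw [e]
  · rw [e, QVal.val_neg (h.dd_ne _ hne)]

lemma val_int (n : ℤ) (hn : n ≠ 0) :
    (valOf hp hA).Is (padicValInt p n : ℚ) ((n : ℤ) : Qb) := by
  have h := valOf_ratCast hp hA (r := (n : ℚ)) (by exact_mod_cast hn)
  rw [padicValRat.of_int] at h
  have e : algebraMap ℚ (AlgebraicClosure ℚ) (n : ℚ) = ((n : ℤ) : Qb) := by
    rw [map_intCast]
  rw [e] at h
  exact h.congr (by push_cast; rfl)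

include hp hA in
/-- at a place of multiplicative reduction there is an isolated root, fixed by the decomposition
group. -/
theorem Roots.exists_fixed (h : Roots W rbar x) (hW : IsMultAt W p) :
    ∃ v : Fin 2 → ZMod 2, v ≠ 0 ∧ ∀ σ ∈ A.decompositionSubgroup ℚ, (rbar σ).mulVec v = v := by
  set w := valOf hp hA with hw
  obtain ⟨α1, hα1⟩ : ∃ α, w.Is α (dd x v1) := ⟨_, QVal.Is.of_ne (h.dd_ne _ v1_ne)⟩
  obtain ⟨α2, hα2⟩ : ∃ α, w.Is α (dd x v2) := ⟨_, QVal.Is.of_ne (h.dd_ne _ v2_ne)⟩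
  obtain ⟨α3, hα3⟩ : ∃ α, w.Is α (dd x v3) := ⟨_, QVal.Is.of_ne (h.dd_ne _ v3_ne)⟩
  have hsum : dd x v3 = dd x v2 - dd x v1 := by
    rw [dd1, dd2, dd3]; ring
  -- not all valuations are equal
  have hnot : ¬ (α1 = α2 ∧ α2 = α3) := by
    rintro ⟨rfl, rfl⟩
    obtain ⟨t, ht⟩ : ∃ t, w.Is t (4 : Qb) := ⟨_, QVal.Is.of_ne (by norm_num)⟩
    have ht0 : 0 ≤ t := ht.le_of_ge QVal.ge_four
    have h4 : w.Is (t + (α1 + α1 + α1)) (rootΔ x) := by
      have := ht.mul ((hα3.mul hα2).mul hα1)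
      rw [dd1, dd2, dd3] at this
      exact this
    have hΔv := val_int hp hA W.Δ hW.ne
    rw [← h.sq_rootΔ, sq] at hΔv
    have h5 := (h4.mul h4).unique hΔv
    have hpos : (1 : ℚ) ≤ (padicValInt p W.Δ : ℚ) := by
      have : 1 ≤ padicValInt p W.Δ := by
        have := (padicValInt_dvd_iff (p := p) (hp := ⟨hp⟩) 1 W.Δ).mp (by
          rw [pow_one]; exact hW.dvd)
        rcases this with h0 | h0
        · exact absurd h0 hW.ne
        · exact h0
      exact_mod_cast this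
    have hc4 : W.c₄ ≠ 0 := fun e => hW.ndvd (e ▸ dvd_zero _)
    have hc := val_int hp hA W.c₄ hc4
    have h0 : padicValInt p W.c₄ = 0 := padicValInt.eq_zero_of_not_dvd hW.ndvd
    rw [h0, h.c₄] at hc
    have h16 : w.Is (t + t) (16 : Qb) := by
      have := ht.mul ht
      norm_num at this
      exact this
    have hge : w.Ge (α1 + α1) ((x v1 - x v2) ^ 2 - (x v1 - x v2) * (x v1 - x v3) +
        (x v1 - x v3) ^ 2) := by
      rw [← dd3, ← dd2, sq, sq]
      exact ((hα3.mul hα3).ge.sub (hα3.mul hα2).ge).add (hα2.mul hα2).ge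
    have h6 := hc.le_of_ge (h16.ge.mul hge)
    push_cast at h6
    linarith
  have fin : ∀ v : Fin 2 → ZMod 2, v ≠ 0 → (∀ u, u ≠ 0 → u ≠ v →
      w.val (dd x u) ≠ w.val (dd x v)) →
      ∃ v : Fin 2 → ZMod 2, v ≠ 0 ∧ ∀ σ ∈ A.decompositionSubgroup ℚ, (rbar σ).mulVec v = v := by
    intro v hv hu
    refine ⟨v, hv, fun σ hσ => ?_⟩
    by_contra hne
    have hne0 : (rbar σ).mulVec v ≠ 0 := by
      intro h0
      apply hv
      have : (rbar σ⁻¹).mulVec ((rbar σ).mulVec v) = v := by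
        rw [Matrix.mulVec_mulVec, ← map_mul, inv_mul_cancel, map_one, Matrix.one_mulVec]
      rw [← this, h0, Matrix.mulVec_zero]
    exact hu _ hne0 hne (h.val_dd hp hA hσ v hv)
  rcases lt_trichotomy α1 α2 with hlt | heq | hlt
  · have h3 : w.Is α1 (dd x v3) := by
      rw [hsum]
      exact (hα2.gt hlt).sub_is hα1
    refine fin v2 v2_ne (fun u hu huv => ?_)
    rcases vec_cases u with rfl | rfl | rfl | rfl
    · exact absurd rfl hu
    · rw [hα1.2, hα2.2]; exact hlt.ne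
    · exact absurd rfl huv
    · rw [h3.2, hα2.2]; exact hlt.ne
  · subst heq
    have h3 : α1 < α3 := by
      have h4 : α1 ≤ α3 := hα3.le_of_ge (by
        rw [hsum]; exact hα2.ge.sub hα1.ge)
      exact lt_of_le_of_ne h4 (fun e => hnot ⟨rfl, e⟩)
    refine fin v3 v3_ne (fun u hu huv => ?_)
    rcases vec_cases u with rfl | rfl | rfl | rfl
    · exact absurd rfl hu
    · rw [hα1.2, hα3.2]; exact h3.ne
    · rw [hα2.2, hα3.2]; exact h3.ne
    · exact absurd rfl huv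
  · have h3 : w.Is α2 (dd x v3) := by
      rw [hsum]
      exact hα2.sub_gt (hα1.gt hlt)
    refine fin v1 v1_ne (fun u hu huv => ?_)
    rcases vec_cases u with rfl | rfl | rfl | rfl
    · exact absurd rfl hu
    · exact absurd rfl huv
    · rw [hα1.2, hα2.2]; exact hlt.ne
    · rw [h3.2, hα1.2]; exact hlt.ne

include hp hA in
/-- **(b2)** if the valuation of the discriminant is odd then inertia acts non trivially. -/
theorem Roots.exists_inertia (h : Roots W rbar x) (hΔ : W.Δ ≠ 0)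
    (hodd : Odd (W.Δ.natAbs.factorization p)) :
    ∃ σ ∈ A.inertiaSubgroupIn ℚ, rbar σ ≠ 1 := by
  by_contra hcon
  push Not at hcon
  obtain ⟨n, hn⟩ := (FlatP.localData hp hA).int (rootΔ x) h.Δ_ne (fun g => by
    change (g : GQ) (rootΔ x) = rootΔ x
    rcases h.act_rootΔ (g : GQ) with ⟨-, h1⟩ | ⟨h1, -⟩
    · exact h1
    · exfalso
      apply h1
      rw [hcon _ g.2, one_mul, one_mul])
  have h1 : (valOf hp hA).Is (n + n : ℚ) (rootΔ x ^ 2) := by
    rw [sq]
    exact QVal.Is.mul ⟨h.Δ_ne, hn⟩ ⟨h.Δ_ne, hn⟩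
  rw [h.sq_rootΔ] at h1
  have h2 := h1.unique (val_int hp hA W.Δ hΔ)
  have h3 : padicValInt p W.Δ = W.Δ.natAbs.factorization p := by
    rw [padicValInt, Nat.factorization_def _ hp]
  rw [h3] at h2
  have h4 : n + n = (W.Δ.natAbs.factorization p : ℤ) := by exact_mod_cast h2
  rcases hodd with ⟨k, hk⟩
  rw [hk] at h4
  push_cast at h4
  omega

end place

end Fermat.Agent.LTF.TwoDiv
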