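import Mathlib

/-!
# `GL₂(𝔽₂)` and the permutation of the three non zero vectors
-/

set_option autoImplicit false

namespace Fermat.Agent.LTF.TwoDiv

/-- the three non zero vectors -/
abbrev v1 : Fin 2 → ZMod 2 := ![1, 0]
abbrev v2 : Fin 2 → ZMod 2 := ![0, 1]
abbrev v3 : Fin 2 → ZMod 2 := ![1, 1]

lemma vec_cases (v : Fin 2 → ZMod 2) : v = 0 ∨ v = v1 ∨ v = v2 ∨ v = v3 := by
  revert v
  decide

lemma v1_ne : v1 ≠ 0 := by decide
lemma v2_ne : v2 ≠ 0 := by decide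
lemma v3_ne : v3 ≠ 0 := by decide
lemma v12 : v1 ≠ v2 := by decide
lemma v13 : v1 ≠ v3 := by decide
lemma v23 : v2 ≠ v3 := by decide

/-- the even elements -/
lemma mat_cases (M : Matrix (Fin 2) (Fin 2) (ZMod 2)) (h : M.det = 1) :
    (M * M * M = 1 ∧ ((M.mulVec v1 = v1 ∧ M.mulVec v2 = v2 ∧ M.mulVec v3 = v3) ∨
      (M.mulVec v1 = v2 ∧ M.mulVec v2 = v3 ∧ M.mulVec v3 = v1) ∨
      (M.mulVec v1 = v3 ∧ M.mulVec v2 = v1 ∧ M.mulVec v3 = v2))) ∨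
    (M * M * M ≠ 1 ∧ M * M = 1 ∧ M ≠ 1 ∧ ((M.mulVec v1 = v2 ∧ M.mulVec v2 = v1 ∧ M.mulVec v3 = v3) ∨
      (M.mulVec v1 = v3 ∧ M.mulVec v2 = v2 ∧ M.mulVec v3 = v1) ∨
      (M.mulVec v1 = v1 ∧ M.mulVec v2 = v3 ∧ M.mulVec v3 = v2))) := by
  revert M
  decide

lemma involution_iff (M : Matrix (Fin 2) (Fin 2) (ZMod 2)) (h : M.det = 1) :
    M ^ 3 = 1 ↔ ¬ (M * M = 1 ∧ M ≠ 1) := by
  revert M
  decide

/-- matrices fixing a given non zero vector are `1` or one involution -/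
lemma fix_cases (v : Fin 2 → ZMod 2) (hv : v ≠ 0) (M : Matrix (Fin 2) (Fin 2) (ZMod 2))
    (h : M.det = 1) (hM : M.mulVec v = v) :
    M * M = 1 := by
  revert v M
  decide

lemma fix_unique (v : Fin 2 → ZMod 2) (hv : v ≠ 0) (M M' : Matrix (Fin 2) (Fin 2) (ZMod 2))
    (h : M.det = 1) (h' : M'.det = 1) (hM : M.mulVec v = v) (hM' : M'.mulVec v = v) :
    M = 1 ∨ M' = 1 ∨ M = M' := by
  have key : ∀ (v : Fin 2 → ZMod 2) (_ : v ≠ 0) (M : Matrix (Fin 2) (Fin 2) (ZMod 2))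
    (_ : M.det = 1) (_ : M.mulVec v = v), M = 1 ∨ M = 1 + !![v 0 * v 1, v 0 * v 0; v 1 * v 1, v 0 * v 1] := by
    decide
  rcases key v hv M h hM with h1 | h1
  · exact Or.inl h1
  rcases key v hv M' h' hM' with h2 | h2
  · exact Or.inr (Or.inl h2)
  · exact Or.inr (Or.inr (h1.trans h2.symm))

set_option synthInstance.maxHeartbeats 200000 in
set_option synthInstance.maxSize 2000 in
/-- an involution and an element moving its axis generate `GL₂(𝔽₂)` -/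
lemma gen_cases (u : Matrix (Fin 2) (Fin 2) (ZMod 2)) (hu : u * u = 1 ∧ u ≠ 1)
    (t : Matrix (Fin 2) (Fin 2) (ZMod 2)) (ht : t.det = 1)
    (hut : ∀ w : Fin 2 → ZMod 2, w ≠ 0 → u.mulVec w = w → t.mulVec w ≠ w)
    (g : Matrix (Fin 2) (Fin 2) (ZMod 2)) (hg : g.det = 1) :
    g = 1 ∨ g = u ∨ g = t ∨ g = u * t ∨ g = t * u ∨ g = t * t ∨ g = u * t * u := by
  revert u t g
  decide

lemma exists_axis (u : Matrix (Fin 2) (Fin 2) (ZMod 2)) (hu : u * u = 1 ∧ u ≠ 1) :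
    ∃ w : Fin 2 → ZMod 2, w ≠ 0 ∧ u.mulVec w = w ∧
      ∀ w' : Fin 2 → ZMod 2, w' ≠ 0 → u.mulVec w' = w' → w' = w := by
  revert u
  decide

end Fermat.Agent.LTF.TwoDiv
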