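import Fermat.Agent.EC.MultOrdA

/-!
# Multiplicative reduction, any residue characteristic (`2` included):
inertia acts trivially on `E / E₀`, and there is a `2`-torsion point outside `E₀`.
-/

set_option autoImplicit false

open WeierstrassCurve WeierstrassCurve.Affine FermatAgent.ECVal Fermat.Agent.ECRed
open scoped WeierstrassCurve.Affine

namespace Fermat.Agent.LTF.WLoc

section roots

variable {K : Type*} [Field K] {Γ₀ : Type*} [LinearOrderedCommGroupWithZero Γ₀]
  {v : Valuation K Γ₀}

/-- two node roots are very close to each other -/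
lemma sub_le_four (h2 : (2 : K) ≠ 0) {W : WeierstrassCurve K} {e D e' D' : K}
    (N : NodeRoot v W e D) (N' : NodeRoot v W e' D') : v (e' - e) ≤ v (4 * D) := by
  by_cases hX : e' - e = 0
  · rw [hX, map_zero]; exact zero_le
  have hle := NodeRoot.sub_le h2 N N'
  set X := e' - e with hXdef
  have he' : e' = e + X := by rw [hXdef]; ring
  set B := W.b₂ + 12 * e with hB
  have k1 : 4 * X ^ 2 + B * X + 4 * D = 0 := by
    have h6 := N'.h6
    rw [he'] at h6
    have : X * (4 * X ^ 2 + B * X + 4 * D) = 0 := by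
      rw [hB]
      linear_combination h6 - N.h6 - 2 * X * N.h4
    exact (mul_eq_zero.mp this).resolve_left hX
  have hX0 : v X ≠ 0 := (Valuation.ne_zero_iff v).mpr hX
  have h5 : v (X ^ 2) < v D := by
    rw [map_pow, sq]
    calc v X * v X ≤ v X * v D := by gcongr
      _ < 1 * v D := by
          have hD0 : 0 < v D := lt_of_lt_of_le (zero_lt_iff.mpr hX0) hle
          have hX1 : v X < 1 := lt_of_le_of_lt hle N.vD
          exact mul_lt_mul_of_pos_right hX1 hD0
      _ = v D := one_mul _
  have k3 : v X = v (4 * (D + X ^ 2)) := by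
    have h1 : B * X = -(4 * (D + X ^ 2)) := by linear_combination k1
    have h2 := congrArg v h1
    rw [map_mul, N.vB, one_mul, Valuation.map_neg] at h2
    exact h2
  rw [k3, map_mul, map_mul, Valuation.map_add_eq_of_lt_left _ h5]

end roots

section dir

open QVal

variable {K : Type*} [Field K] [DecidableEq K] {w : QVal K} {W : Affine K} {e D : K} {h : ℚ}

/-- Two points whose directions agree (and of the same component value, `0 < c < h`) differ by a
point of the identity component; any residue characteristic. -/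
lemma pcomp_sub_eq_zero_of_dir (N : NodeData w W e D h) {τ : ℚ} (h2 : w.Is τ (2 : K))
    {P Q : W.Point}
    {c : ℚ} (hc0 : 0 < c) (hch : c < h) (hP : P ≠ 0) (hQ : Q ≠ 0) (hXP : w.Is c (xc P - e))
    (hXQ : w.Is c (xc Q - e))
    (hdir : w.Gt (2 * c + τ) ((xc P - e) * psi Q - (xc Q - e) * psi P)) :
    pcomp w e h (P - Q) = 0 := by
  have hτ : 0 ≤ τ := h2.le_of_ge ge_two
  by_contra hne
  have hpc : ∀ {R : W.Point}, R ≠ 0 → pcomp w e h R = w.comp h (xc R - e) := by
    intro R hR
    obtain ⟨hR', eR⟩ := exists_eq_some hR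
    conv_lhs => rw [eR]
    rfl
  have hsum : pcomp w e h (P + Q) = 0 := by
    refine (pcomp_eq_imp N (P := P) (Q := Q) ?_).resolve_left hne
    rw [hpc hP, hpc hQ, QVal.comp_of_is hXP hc0.le hch.le, QVal.comp_of_is hXQ hc0.le hch.le]
  have hψP := psi_is N hP hc0 hch hXP
  have hψQ := psi_is N hQ hc0 hch hXQ
  by_cases hx : xc P = xc Q
  · rcases eq_or_eq_neg_of_xc_eq hP hQ hx with h' | h'
    · apply hne
      rw [h', sub_self, pcomp_zero]
    · -- opposite points have opposite directions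
      have h1 : psi P = - psi Q := by rw [h', psi_neg hQ]
      rw [h1, ← hx] at hdir
      have h3 : w.Is (τ + (c + c)) (2 * ((xc P - e) * psi Q)) := h2.mul (hXP.mul hψQ)
      have h4 : (xc P - e) * psi Q - (xc P - e) * -psi Q = 2 * ((xc P - e) * psi Q) := by ring
      rw [h4] at hdir
      have := h3.lt_of_gt hdir
      linarith
  · have hPQ : P + Q ≠ 0 := by
      intro h0
      apply hx
      rw [eq_neg_of_add_eq_zero_left h0, xc_neg]
    have hPQ' : P - Q ≠ 0 := by
      intro h0
      apply hx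
      rw [sub_eq_zero.mp h0]
    have fs := shift_sum e hP hQ hx
    have hd := xc_add_sub_xc_sub hP hQ hx
    have i4 : W.b₄ + e * W.b₂ + 6 * e ^ 2 = 2 * D := by rw [← N.h4]; ring
    have i6 : W.b₆ + 2 * e * W.b₄ + e ^ 2 * W.b₂ + 4 * e ^ 3 = 0 := by rw [← N.h6]; ring
    rw [i4, i6, add_zero] at fs
    rw [hpc hPQ] at hsum
    rw [hpc hPQ'] at hne
    set X := xc P - e with hX
    set Y := xc Q - e with hY
    set s := xc (P + Q) - e with hs
    set t := xc (P - Q) - e with ht
    have hXY : xc P - xc Q = X - Y := by rw [hX, hY]; ring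
    have hst : xc (P + Q) - xc (P - Q) = s - t := by rw [hs, ht]; ring
    rw [hXY] at fs hd
    rw [hst] at hd
    -- valuation of `X - Y`
    have hXY0 : X - Y ≠ 0 := by
      rw [← hXY]; exact sub_ne_zero.mpr hx
    have hd' := Is.of_ne (w := w) hXY0
    set d := w.val (X - Y) with hdd
    -- `s` has valuation `r ≤ 0`
    obtain ⟨r, hr, hsr⟩ : ∃ r ≤ 0, w.Is r s := by
      rcases QVal.comp_cases (w := w) (h := h) s with ⟨r, hr, h1⟩ | ⟨r, hr, hrh, h1⟩ | h1
      · exact ⟨r, hr, h1⟩
      · rw [QVal.comp_of_is h1 hr.le hrh.le] at hsum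
        exact absurd hsum hr.ne'
      · rw [QVal.comp_of_ge N.hh h1] at hsum
        exact absurd hsum N.hh.ne'
    have htgt : w.Gt 0 t := by
      by_contra hcon
      exact hne (QVal.comp_of_not_gt hcon)
    -- the sum
    have f1' : w.Gt (2 * c) ((X + Y) * (X * Y + D)) := by
      have a1 : w.Gt (2 * c) ((X + Y) * (X * Y)) :=
        ((hXP.ge.add hXQ.ge).mul (hXP.ge.mul hXQ.ge)).gt (by linarith)
      have a2 : w.Gt (2 * c) ((X + Y) * D) :=
        ((hXP.ge.add hXQ.ge).mul N.hD.ge).gt (by linarith)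
      have : (X + Y) * (X * Y + D) = (X + Y) * (X * Y) + (X + Y) * D := by ring
      rw [this]
      exact a1.add a2
    have f1 : w.Gt (2 * c) ((X + Y) * (2 * X * Y + 2 * D)) := by
      have : (X + Y) * (2 * X * Y + 2 * D) = 2 * ((X + Y) * (X * Y + D)) := by ring
      rw [this]
      exact (ge_two.mul_gt f1').mono (by linarith)
    have f2 : w.Is (2 * c) ((W.b₂ + 12 * e) * X * Y) :=
      ((N.hB.mul hXP).mul hXQ).congr (by ring)
    have f3 : w.Is (2 * c) ((s + t) * (X - Y) ^ 2) := by
      rw [fs]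
      exact f1.add_is f2
    have f4 : w.Is (r + 2 * d) ((s + t) * (X - Y) ^ 2) :=
      (hsr.add_gt (htgt.mono hr)).mul hd'.sq
    have f5 : r + 2 * d = 2 * c := f4.unique f3
    -- `B X Y - ψψ'` is small
    have f6 : w.Gt (2 * c + τ) ((W.b₂ + 12 * e) * X * Y - psi P * psi Q) := by
      have g1 : X * ((W.b₂ + 12 * e) * X * Y - psi P * psi Q) =
          -(psi P * (X * psi Q - Y * psi P)) - Y * (2 * 2 * (X ^ 3 + D * X)) := by
        have := psi_sq_node N hP
        rw [← hX] at this
        linear_combination -Y * this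
      have g2 : w.Gt (3 * c + τ) (X * ((W.b₂ + 12 * e) * X * Y - psi P * psi Q)) := by
        rw [g1]
        have k1 : w.Gt (3 * c + τ) (psi P * (X * psi Q - Y * psi P)) :=
          (hψP.ge.mul_gt hdir).mono (by linarith)
        have k2 : w.Gt (3 * c + τ) (Y * (2 * 2 * (X ^ 3 + D * X))) := by
          have l1 : w.Gt (2 * c) (X ^ 3) :=
            ((hXP.pow 3).ge).gt (by push_cast; linarith)
          have l2 : w.Gt (2 * c) (D * X) :=
            (N.hD.ge.mul hXP.ge).gt (by linarith)
          exact (hXQ.ge.mul_gt ((h2.mul h2).ge.mul_gt (l1.add l2))).mono (by linarith)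
        exact k1.neg.sub k2
      exact (g2.of_mul hXP).mono (by linarith)
    have f7 : 2 * (s * (X - Y) ^ 2) = 2 * ((X + Y) * (X * Y + D)) +
        ((W.b₂ + 12 * e) * X * Y - psi P * psi Q) := by
      linear_combination fs + hd
    have f8 : w.Is (τ + (r + 2 * d)) (2 * (s * (X - Y) ^ 2)) := h2.mul (hsr.mul hd'.sq)
    rw [f7] at f8
    have f9 : w.Gt (2 * c + τ) (2 * ((X + Y) * (X * Y + D))) :=
      (h2.ge.mul_gt f1').mono (by linarith)
    have := f8.lt_of_gt (f9.add f6)
    linarith

end dir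

section inertia

variable {W : WeierstrassCurve ℤ} {A : ValuationSubring (AlgebraicClosure ℚ)} {q : ℕ}

open QVal in
/-- an element `t` with `t² + a t = b`, `a`, `b` of valuation `≥ 0`, has valuation `≥ 0`. -/
lemma ge_of_quadratic {K : Type*} [Field K] {w : QVal K} {t a b : K} (ha : w.Ge 0 a)
    (hb : w.Ge 0 b) (h : t ^ 2 + a * t = b) : w.Ge 0 t := by
  by_contra hcon
  rw [not_ge_iff] at hcon
  obtain ⟨ht0, ht⟩ := hcon
  have h1 : w.Is (w.val t) t := ⟨ht0, rfl⟩
  have h2 : w.Is (w.val t) (t + a) := h1.add_gt (ha.gt ht)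
  have h3 : w.Is (w.val t + w.val t) (t * (t + a)) := h1.mul h2
  have h4 : t * (t + a) = b := by rw [← h]; ring
  rw [h4] at h3
  have := h3.le_of_ge hb
  linarith

/-- **Inertia acts trivially on `E / E₀`** (any residue characteristic). -/
theorem inertia_smul_sub_mem_E0 [DecidableEq (IsLocalRing.ResidueField A)]
    (hW : IsMultAt W q) (hA : A.LiesOverPrime q)
    {σ : AlgebraicClosure ℚ ≃ₐ[ℚ] AlgebraicClosure ℚ} (hσ : σ ∈ A.inertiaSubgroupIn ℚ)
    (P : (EQ W).Point) : σ • P - P ∈ E0 (redEk W A) (isPlace_valuationSubring A) := by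
  have hσD := mem_decomposition_of_mem_inertia hσ
  obtain ⟨e, D, NR⟩ := hW.exists_nodeRoot hA
  have N := NR.nodeData hW.prime hA hW.ne
  have hdich := smul_sub_or_add_mem_E0 hW hA hσD P
  rcases hdich with h1 | h1
  · exact h1
  rw [mem_E0_iff_pcomp hW.prime hA hW.ne NR] at h1 ⊢
  set w := valOf hW.prime hA with hw
  set h := w.val D with hh
  have hpc := pcomp_smul hW.prime hA hW.ne NR hσD P
  rw [← hw, ← hh] at hpc
  -- component value of `P`
  by_cases hc0 : pcomp w e h P = 0
  · have h2 : pcomp w e h (-P) = 0 := by rw [pcomp_neg]; exact hc0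
    rw [sub_eq_add_neg, pcomp_add_of_eq_zero N (hpc.trans hc0), h2]
  have hc0' : 0 < pcomp w e h P := lt_of_le_of_ne (pcomp_nonneg N P) (Ne.symm hc0)
  by_cases hch : pcomp w e h P = h
  · have h2 : pcomp w e h (-(2 • P)) = 0 := by
      rw [pcomp_neg]
      have h3 := pcomp_nsmul N P 2
      rw [hch] at h3
      refine rel_eq N.hh (pcomp_nonneg N _) (pcomp_le N _) le_rfl N.hh.le (h3.trans ⟨1, Or.inl ?_⟩)
      push_cast; ring
    have h4 : σ • P - P = -(2 • P) + (σ • P + P) := by rw [two_smul]; abel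
    rw [h4, pcomp_add_of_eq_zero N h2, h1]
  have hch' : pcomp w e h P < h := lt_of_le_of_ne (pcomp_le N P) hch
  set c := pcomp w e h P with hc
  have hP : P ≠ 0 := by
    rintro rfl
    rw [pcomp_zero] at hc
    exact hc0 hc
  have hσP : σ • P ≠ 0 := (smul_ne_zero_iff' σ P).mpr hP
  have hX : ∀ {R : (EQ W).Point}, R ≠ 0 → pcomp w e h R = c → w.Is c (xc R - e) := by
    intro R hR hRc
    obtain ⟨hR', eR⟩ := exists_eq_some hR
    rw [eR, pcomp_some] at hRc
    rcases QVal.comp_cases (w := w) (h := h) (xc R - e) with ⟨r, hr, h1⟩ | ⟨r, hr, hrh, h1⟩ | h1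
    · rw [QVal.comp_of_is_nonpos h1 hr] at hRc
      exact absurd hRc hc0'.ne
    · rw [QVal.comp_of_is h1 hr.le hrh.le] at hRc
      rwa [hRc] at h1
    · rw [QVal.comp_of_ge N.hh h1] at hRc
      exact absurd hRc hch'.ne'
  have hXP := hX hP rfl
  have hXQ := hX hσP hpc
  have hψ := psi_is N hP hc0' hch' hXP
  obtain ⟨τ, hτ⟩ : ∃ τ, w.Is τ (2 : AlgebraicClosure ℚ) := ⟨_, QVal.Is.of_ne two_ne_zero⟩
  have hτ0 : 0 ≤ τ := hτ.le_of_ge QVal.ge_two
  refine pcomp_sub_eq_zero_of_dir N hτ hc0' hch' hσP hP hXQ hXP ?_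
  · -- the directions agree
    have hX0 : xc P - e ≠ 0 := hXP.1
    set a := ((W.a₁ : ℤ) : AlgebraicClosure ℚ) with ha
    set t := (psi P / (xc P - e) - a) / 2 with ht
    have hδ : psi P / (xc P - e) = a + 2 * t := by rw [ht]; ring
    have hψt : psi P = (a + 2 * t) * (xc P - e) := by rw [← hδ, div_mul_cancel₀ _ hX0]
    -- `t` is integral
    have hDX : w.Gt 0 (D / (xc P - e)) := by
      rw [div_eq_mul_inv]
      exact (N.hD.mul hXP.inv).gt (by linarith)
    have hq : t ^ 2 + a * t = ((W.a₂ : ℤ) : AlgebraicClosure ℚ) + 3 * e + (xc P - e) +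
        D / (xc P - e) := by
      have h4 : (4 : AlgebraicClosure ℚ) ≠ 0 := by norm_num
      apply mul_left_cancel₀ h4
      apply mul_left_cancel₀ (pow_ne_zero 2 hX0)
      have hb2 : (EQ W).b₂ = a ^ 2 + 4 * ((W.a₂ : ℤ) : AlgebraicClosure ℚ) := by
        rw [EQ_b₂, ha]
        simp only [WeierstrassCurve.b₂]
        push_cast
        ring
      have h5 := psi_sq_node N hP
      rw [hψt, hb2] at h5
      have h6 : (xc P - e) ^ 2 * (4 * (((W.a₂ : ℤ) : AlgebraicClosure ℚ) + 3 * e + (xc P - e) +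
        D / (xc P - e))) = 4 * (xc P - e) ^ 2 * (((W.a₂ : ℤ) : AlgebraicClosure ℚ) + 3 * e +
          (xc P - e)) + 4 * D * (xc P - e) := by
        field_simp
      rw [h6]
      linear_combination h5
    have he0 : w.Ge 0 e := by
      rw [hw, valOf_ge_zero_iff, ← A.valuation_le_one_iff]
      exact NR.ve
    have hint : w.Ge 0 (((W.a₂ : ℤ) : AlgebraicClosure ℚ) + 3 * e + (xc P - e) +
        D / (xc P - e)) := by
      have h3 : w.Ge 0 (3 : AlgebraicClosure ℚ) := by
        exact_mod_cast QVal.ge_natCast (w := w) (K := AlgebraicClosure ℚ) 3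
      have h3e : w.Ge 0 (3 * e) := (h3.mul he0).mono (by norm_num)
      exact (((QVal.ge_intCast _).add h3e).add (hXP.ge.mono hc0'.le)).add hDX.ge
    have ht0 : w.Ge 0 t := ge_of_quadratic (QVal.ge_intCast _) hint hq
    -- action of inertia on `t`
    have h3 : w.Gt 0 (σ t - t) := by
      have := valOf_inertia hW.prime hA hσ (m := 0) (x := t) (ht0.mono (by norm_num))
      exact this.mono (by norm_num)
    have h4 : w.Ge (h + 2 * τ) (e - σ e) := by
      have h5 : w.Ge (w.val (4 * D)) (σ e - e) :=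
        (qVal_ge_iff A.valuation hW.prime (lt_one_of_liesOver hA)
          (mul_ne_zero (by norm_num) N.hD.1)).mpr
          (sub_le_four two_ne_zero NR (NR.smul hσD))
      have h6 : w.Is (h + 2 * τ) (4 * D) := by
        have : (4 : AlgebraicClosure ℚ) * D = 2 * 2 * D := by ring
        rw [this]
        exact ((hτ.mul hτ).mul N.hD).congr (by ring)
      rw [h6.2] at h5
      rw [← neg_sub]
      exact h5.neg
    have haσ : σ a = a := by rw [ha, map_intCast]
    have h6 : psi (σ • P) = (a + 2 * σ t) * ((xc (σ • P) - e) + (e - σ e)) := by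
      rw [psi_smul, hψt, map_mul, map_sub, xc_smul, map_add, map_mul, haσ, map_ofNat]
      ring
    have h7 : (xc (σ • P) - e) * psi P - (xc P - e) * psi (σ • P) =
        -(2 * ((σ t - t) * ((xc (σ • P) - e) * (xc P - e)))) -
          (a + 2 * σ t) * (e - σ e) * (xc P - e) := by
      rw [h6, hψt]; ring
    rw [h7]
    refine QVal.Gt.sub (QVal.Gt.neg ?_) ?_
    · exact (hτ.ge.mul_gt (h3.mul_ge (hXQ.ge.mul hXP.ge))).mono (by linarith)
    · have h8 : w.Ge 0 (a + 2 * σ t) := by
        have : a + 2 * σ t = a + 2 * ((σ t - t) + t) := by ring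
        rw [this]
        exact (QVal.ge_intCast _).add ((QVal.ge_two.mul (h3.ge.add ht0)).mono (by norm_num))
      exact ((h8.mul h4).mul hXP.ge).gt (by linarith)

end inertia

end Fermat.Agent.LTF.WLoc
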