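import Fermat.Agent.LTF.WLocTors
import Fermat.Agent.LTF.StPlace

/-!
# The `2`-adic Tate module of a semistable curve at a prime of multiplicative reduction
is Steinberg up to an unramified quadratic twist (`q = 2` included).
-/

set_option autoImplicit false

noncomputable section

open WeierstrassCurve WeierstrassCurve.Affine FermatAgent.ECVal Fermat.Agent.ECRed
open Fermat.Agent.Tate
open scoped WeierstrassCurve.Affine

namespace Fermat.Agent.LTF.WLoc

/-- the finitely many coordinates of a point -/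
lemma exists_coords {W : WeierstrassCurve ℤ} (P : (EQ W).Point) :
    ∃ s : Finset (AlgebraicClosure ℚ), ∀ σ τ : AlgebraicClosure ℚ ≃ₐ[ℚ] AlgebraicClosure ℚ,
      (∀ x ∈ s, σ x = τ x) → σ • P = τ • P := by
  classical
  rcases P with _ | ⟨x, y, h⟩
  · exact ⟨∅, fun σ τ _ => rfl⟩
  · refine ⟨{x, y}, fun σ τ hs => ?_⟩
    have h1 : σ x = τ x := hs x (by simp)
    have h2 : σ y = τ y := hs y (by simp)
    have e : ∀ σ : AlgebraicClosure ℚ ≃ₐ[ℚ] AlgebraicClosure ℚ,
        σ • (Point.some x y h : (EQ W).Point) = Point.map σ.toAlgHom (Point.some x y h) :=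
      fun _ => rfl
    rw [e, e, Point.map_some, Point.map_some]
    have h1' : σ.toAlgHom x = τ.toAlgHom x := h1
    have h2' : σ.toAlgHom y = τ.toAlgHom y := h2
    simp only [h1', h2']

variable {W : WeierstrassCurve ℤ} (hΔ : (W.map (Int.castRingHom ℚ)).Δ ≠ 0)

/-- **The local shape of `T_2 E` at a prime `q` of multiplicative reduction** (`q = 2` included):
a basis `b` such that the decomposition group acts by `b₀ ↦ (χ λ) b₀`, `b₁ ↦ λ b₁ + * b₀` with the
unramified quadratic character `λ = z ^ unrDeg`. -/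
theorem exists_basis_tateRep {q : ℕ} (hW : IsMultAt W q)
    {A : ValuationSubring (AlgebraicClosure ℚ)} (hA : A.LiesOverPrime q) :
    ∃ z : ℤ_[2], (z = 1 ∨ z = -1) ∧
      ∃ b : Module.Basis (Fin 2) ℤ_[2] (tateRep (W.map (Int.castRingHom ℚ)) hΔ 2).V,
        ∀ σ ∈ A.decompositionSubgroup ℚ,
          (tateRep (W.map (Int.castRingHom ℚ)) hΔ 2).ρ σ (b 0) =
            (LinearMap.det ((tateRep (W.map (Int.castRingHom ℚ)) hΔ 2).ρ σ) *
              z ^ unrDeg q σ) • b 0 ∧
          ∃ c : ℤ_[2], (tateRep (W.map (Int.castRingHom ℚ)) hΔ 2).ρ σ (b 1) =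
            (z ^ unrDeg q σ) • b 1 + c • b 0 := by
  classical
  have hT := hasTwoRank_curve hΔ 2
  set B := E0 (redEk W A) (isPlace_valuationSubring A) with hB
  obtain ⟨f, hf1, hf⟩ := hT.exists_tmod_in B (fun n => pow_le_card_E0tors hW hA n)
  obtain ⟨x, hx, hxB⟩ := exists_torsion_notMem_E0 hW hA
  obtain ⟨g, hg⟩ := hT.exists_apply_eq (n := 1) (x := x) (by rw [pow_one]; exact hx)
  have hg1 : g 1 ∉ B := by rw [hg]; exact hxB
  have hfg : Indep f g := indep_of_notMem hf1 (fun h => hg1 (by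
    obtain ⟨k, hk⟩ := AddSubgroup.mem_zmultiples_iff.mp h
    rw [← hk]
    exact AddSubgroup.zsmul_mem B (hf 1) k))
  let b : Module.Basis (Fin 2) ℤ_[2] (tateRep (W.map (Int.castRingHom ℚ)) hΔ 2).V :=
    hfg.basis hT
  have hb0 : b 0 = f := hfg.basis_zero hT
  have hb1 : b 1 = g := hfg.basis_one hT
  -- membership in `L`
  have hL : ∀ v : (tateRep (W.map (Int.castRingHom ℚ)) hΔ 2).V, (∀ n, toT hΔ v n ∈ B) →
      v ∈ Submodule.span ℤ_[2] {b 0} := by
    intro v hv
    obtain ⟨a, ha⟩ := exists_smul_eq_of_mem hT hfg B hf hg1 hv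
    rw [Submodule.mem_span_singleton, hb0]
    exact ⟨a, ha.symm⟩
  have hBσ : ∀ σ ∈ A.decompositionSubgroup ℚ, ∀ y : (EQ W).Point, y ∈ B → σ • y ∈ B := by
    intro σ hσ y hy
    obtain ⟨e, D, NR⟩ := hW.exists_nodeRoot hA
    rw [hB, mem_E0_iff_pcomp hW.prime hA hW.ne NR] at hy ⊢
    rw [pcomp_smul hW.prime hA hW.ne NR hσ, hy]
  -- the action on `f`
  have hxσ : ∀ σ ∈ A.decompositionSubgroup ℚ, ∃ x : ℤ_[2],
      (tateRep (W.map (Int.castRingHom ℚ)) hΔ 2).ρ σ (b 0) = x • b 0 := by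
    intro σ hσ
    have h1 := hL ((tateRep (W.map (Int.castRingHom ℚ)) hΔ 2).ρ σ (b 0)) (by
      intro n
      rw [hb0]
      exact hBσ σ hσ _ (hf n))
    obtain ⟨a, ha⟩ := Submodule.mem_span_singleton.mp h1
    exact ⟨a, ha.symm⟩
  -- the sign character, read off on `g 2`
  let sgn : (AlgebraicClosure ℚ ≃ₐ[ℚ] AlgebraicClosure ℚ) → ℤ := fun σ =>
    if σ • (g 2) - g 2 ∈ B then 1 else -1
  have hsgn1 : ∀ σ, sgn σ = 1 ∨ sgn σ = -1 := by
    intro σ
    by_cases h : σ • (g 2) - g 2 ∈ B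
    · left; exact if_pos h
    · right; exact if_neg h
  have h2g : 2 • g 2 = g 1 := by
    have h := TMod.pow_smul_apply_add g 1 1
    rwa [pow_one] at h
  have hsgn_mem : ∀ σ ∈ A.decompositionSubgroup ℚ, ∀ n, σ • (g n) - sgn σ • g n ∈ B := by
    intro σ hσ
    rcases exists_sign (DistribSMul.toAddMonoidHom (EQ W).Point σ) B
      (fun y => smul_sub_or_add_mem_E0 hW hA hσ y) g with h1 | h1
    · have h2 : sgn σ = 1 := if_pos (h1 2)
      intro n
      rw [h2, one_smul]
      exact h1 n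
    · have h2 : sgn σ = -1 := by
        refine if_neg fun h3 => hg1 ?_
        have h4 := AddSubgroup.sub_mem B (h1 2) h3
        rw [← h2g]
        have e : 2 • g 2 = (DistribSMul.toAddMonoidHom (EQ W).Point σ) (g 2) + g 2 -
            (σ • g 2 - g 2) := by
          have : (DistribSMul.toAddMonoidHom (EQ W).Point σ) (g 2) = σ • g 2 := rfl
          rw [this, two_nsmul]
          abel
        rw [e]
        exact h4
      intro n
      rw [h2, neg_one_smul, sub_neg_eq_add]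
      exact h1 n
  have hsgn_unique : ∀ σ ∈ A.decompositionSubgroup ℚ, ∀ s : ℤ, (s = 1 ∨ s = -1) →
      σ • (g 2) - s • g 2 ∈ B → sgn σ = s := by
    intro σ hσ s hs h
    have h1 := hsgn_mem σ hσ 2
    have h2 := AddSubgroup.sub_mem B h1 h
    have h3 : σ • g 2 - sgn σ • g 2 - (σ • g 2 - s • g 2) = (s - sgn σ) • g 2 := by
      rw [sub_smul]; abel
    rw [h3] at h2
    by_contra hne
    apply hg1
    rw [← h2g]
    rcases hs with rfl | rfl <;> rcases hsgn1 σ with h4 | h4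
    · exact absurd h4 hne
    · rw [h4] at h2
      have e : ((1 : ℤ) - -1) • g 2 = 2 • g 2 := by norm_num [two_nsmul, two_zsmul]
      rwa [e] at h2
    · rw [h4] at h2
      have e : ((-1 : ℤ) - 1) • g 2 = -(2 • g 2) := by
        have : ((-1 : ℤ) - 1) = -2 := by norm_num
        rw [this, neg_smul, two_zsmul, two_nsmul]
      rw [e] at h2
      exact (AddSubgroup.neg_mem_iff B).mp h2
    · exact absurd h4 hne
  have hsgn_mul : ∀ σ ∈ A.decompositionSubgroup ℚ, ∀ τ ∈ A.decompositionSubgroup ℚ,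
      sgn (σ * τ) = sgn σ * sgn τ := by
    intro σ hσ τ hτ
    refine hsgn_unique _ (Subgroup.mul_mem _ hσ hτ) _ ?_ ?_
    · rcases hsgn1 σ with h | h <;> rcases hsgn1 τ with h' | h' <;> rw [h, h'] <;> norm_num
    · have h1 := hBσ σ hσ _ (hsgn_mem τ hτ 2)
      have h2 := AddSubgroup.zsmul_mem B (hsgn_mem σ hσ 2) (sgn τ)
      have h3 := AddSubgroup.add_mem B h1 h2
      have e : σ • (τ • g 2 - sgn τ • g 2) + sgn τ • (σ • g 2 - sgn σ • g 2) =
          (σ * τ) • g 2 - (sgn σ * sgn τ) • g 2 := by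
        have e1 : σ • (sgn τ • g 2) = sgn τ • (σ • g 2) :=
          map_zsmul (DistribSMul.toAddMonoidHom (EQ W).Point σ) (sgn τ) (g 2)
        have e2 : sgn τ • (σ • g 2 - sgn σ • g 2) = sgn τ • (σ • g 2) - (sgn σ * sgn τ) • g 2 := by
          rw [zsmul_sub, mul_comm (sgn σ), mul_zsmul]
        rw [smul_sub, mul_smul, e1, e2]
        abel
      rwa [e] at h3
  have hsgn_inertia : ∀ τ ∈ A.inertiaSubgroupIn ℚ, sgn τ = 1 := by
    intro τ hτ
    exact if_pos (inertia_smul_sub_mem_E0 hW hA hτ (g 2))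
  obtain ⟨φ, hφ⟩ := Fermat.Agent.Frob.exists_isFrobeniusAt hW.prime hA
  have hφD := hφ.mem_decompositionSubgroup
  have hsgn_pow : ∀ n : ℕ, sgn (φ ^ n) = sgn φ ^ n := by
    intro n
    induction n with
    | zero =>
      rw [pow_zero, pow_zero]
      refine if_pos ?_
      rw [one_smul, sub_self]
      exact AddSubgroup.zero_mem B
    | succ n ih =>
      rw [pow_succ, hsgn_mul _ (Subgroup.pow_mem _ hφD n) _ hφD, ih, pow_succ]
  set z : ℤ_[2] := ((sgn φ : ℤ) : ℤ_[2]) with hz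
  have hz1 : z = 1 ∨ z = -1 := by
    rcases hsgn1 φ with h | h
    · left; rw [hz, h]; norm_num
    · right; rw [hz, h]; norm_num
  have hzz : z * z = 1 := by rcases hz1 with h | h <;> rw [h] <;> norm_num
  -- the sign is the unramified character
  have hsgn_eq : ∀ σ ∈ A.decompositionSubgroup ℚ, ((sgn σ : ℤ) : ℤ_[2]) = z ^ unrDeg q σ := by
    intro σ hσ
    obtain ⟨s, hs⟩ := exists_coords (g 2)
    obtain ⟨n, τ, hτ, -, h1, h3⟩ := exists_frob_decomp hW.prime hA hφ ⊥ s hσ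
    have hτD : τ ∈ A.decompositionSubgroup ℚ := Fermat.Agent.TW.inertia_le_decomp hτ
    have h2 : σ • g 2 = (φ ^ n * τ) • g 2 := hs _ _ h1
    have h4 : sgn σ = sgn φ ^ n := by
      have h5 : sgn σ = sgn (φ ^ n * τ) := by
        simp only [sgn, h2]
      rw [h5, hsgn_mul _ (Subgroup.pow_mem _ hφD n) _ hτD, hsgn_pow, hsgn_inertia τ hτ, mul_one]
    rw [h3, pow_unrDeg_frob hzz hW.prime hA hφ hτ, h4, hz, Int.cast_pow]
  refine ⟨z, hz1, b, fun σ hσ => ?_⟩
  obtain ⟨x, hx⟩ := hxσ σ hσ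
  -- the action on `g`
  have hzσ : (tateRep (W.map (Int.castRingHom ℚ)) hΔ 2).ρ σ (b 1) -
      (z ^ unrDeg q σ) • b 1 ∈ Submodule.span ℤ_[2] {b 0} := by
    rw [← hsgn_eq σ hσ]
    rcases hsgn1 σ with h2 | h2
    · rw [h2, Int.cast_one, one_smul, hb1]
      refine hL _ fun n => ?_
      have h1 := hsgn_mem σ hσ n
      rw [h2, one_zsmul] at h1
      exact h1
    · rw [h2, Int.cast_neg, Int.cast_one, neg_one_smul, sub_neg_eq_add, hb1]
      refine hL _ fun n => ?_
      have h1 := hsgn_mem σ hσ n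
      rw [h2, neg_one_zsmul, sub_neg_eq_add] at h1
      exact h1
  obtain ⟨c, hc⟩ := Submodule.mem_span_singleton.mp hzσ
  have h2 : (tateRep (W.map (Int.castRingHom ℚ)) hΔ 2).ρ σ (b 1) =
      (z ^ unrDeg q σ) • b 1 + c • b 0 := by
    rw [hc]; abel
  refine ⟨?_, c, h2⟩
  have hdet := det_of_triangular b _ hx h2
  have hzz' : z ^ unrDeg q σ * z ^ unrDeg q σ = 1 := by rw [← mul_pow, hzz, one_pow]
  have hx' : x = LinearMap.det ((tateRep (W.map (Int.castRingHom ℚ)) hΔ 2).ρ σ) *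
      z ^ unrDeg q σ := by
    rw [hdet]
    linear_combination -x * hzz'
  rw [← hx', hx]

/-- **Steinberg up to an unramified quadratic twist** for `T_2 E` at a prime `q` of multiplicative
reduction (`q = 2` included); one place. -/
theorem exists_stEnd_tateRep_place {q : ℕ} (hW : IsMultAt W q)
    {A : ValuationSubring (AlgebraicClosure ℚ)} (hA : A.LiesOverPrime q) :
    ∃ z : ℤ_[2], (z = 1 ∨ z = -1) ∧
      StEnd q A (tateRep (W.map (Int.castRingHom ℚ)) hΔ 2).ρ z := by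
  obtain ⟨z, hz1, b, h⟩ := exists_basis_tateRep hΔ hW hA
  have hzz : z * z = 1 := by rcases hz1 with h | h <;> rw [h] <;> norm_num
  refine ⟨z, hz1, hzz, fun σ hσ τ hτ => ?_⟩
  obtain ⟨h0, c, h1⟩ := h τ hτ
  obtain ⟨h0', c', h1'⟩ := h σ hσ
  have key : ((tateRep (W.map (Int.castRingHom ℚ)) hΔ 2).ρ σ -
      (LinearMap.det ((tateRep (W.map (Int.castRingHom ℚ)) hΔ 2).ρ σ) * z ^ unrDeg q σ) •
        (1 : Module.End ℤ_[2] (tateRep (W.map (Int.castRingHom ℚ)) hΔ 2).V)) (b 0) = 0 := by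
    rw [LinearMap.sub_apply, LinearMap.smul_apply, Module.End.one_apply, h0', sub_self]
  refine b.ext fun i => ?_
  rw [Module.End.mul_apply, LinearMap.sub_apply ((tateRep (W.map (Int.castRingHom ℚ)) hΔ 2).ρ τ),
    LinearMap.smul_apply, Module.End.one_apply, LinearMap.zero_apply]
  have hi : i = 0 ∨ i = 1 := by omega
  rcases hi with rfl | rfl
  · rw [h0, ← sub_smul, map_smul, key, smul_zero]
  · rw [h1, add_sub_cancel_left, map_smul, key, smul_zero]

/-- **Steinberg up to an unramified quadratic twist** for `T_2 E` at a prime `q` of multiplicative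
reduction (`q = 2` included), uniformly in the places above `q`. -/
theorem exists_stEnd_tateRep {q : ℕ} (hW : IsMultAt W q) :
    ∃ z : ℤ_[2], (z = 1 ∨ z = -1) ∧
      ∀ A : ValuationSubring (AlgebraicClosure ℚ), A.LiesOverPrime q →
        StEnd q A (tateRep (W.map (Int.castRingHom ℚ)) hΔ 2).ρ z := by
  by_cases hex : ∃ A : ValuationSubring (AlgebraicClosure ℚ), A.LiesOverPrime q
  · obtain ⟨A, hA⟩ := hex
    obtain ⟨z, hz, h⟩ := exists_stEnd_tateRep_place hΔ hW hA
    exact ⟨z, hz, fun A' hA' => h.place hW.prime hA hA'⟩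
  · exact ⟨1, Or.inl rfl, fun A hA => absurd ⟨A, hA⟩ hex⟩

end Fermat.Agent.LTF.WLoc
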