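import Fermat.Agent.LTF.WLocDir
import Fermat.Agent.EC.MultOrd

/-!
# Multiplicative reduction: `E₀[2^n]` and a `2`-torsion point outside `E₀`
-/

set_option autoImplicit false

open WeierstrassCurve WeierstrassCurve.Affine FermatAgent.ECVal Fermat.Agent.ECRed
open scoped WeierstrassCurve.Affine

namespace Fermat.Agent.LTF.WLoc

variable {W : WeierstrassCurve ℤ} {A : ValuationSubring (AlgebraicClosure ℚ)} {q : ℕ}
  [DecidableEq (IsLocalRing.ResidueField A)]

/-- `N² ≤ (N + 2) #E₀[N]`, for even `N`. -/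
theorem sq_le_mul_card_E0tors (hW : IsMultAt W q) (hA : A.LiesOverPrime q) {N : ℕ}
    (hN : N ≠ 0) : N ^ 2 ≤ Nat.card (E0tors W A N) * (N + 2) := by
  obtain ⟨e, D, NR⟩ := hW.exists_nodeRoot hA
  have ND := NR.nodeData hW.prime hA hW.ne
  set w := valOf hW.prime hA with hw
  set h := w.val D with hh
  have hfin := finite_torsionBy_EQ hW.ne hN
  have hNQ : (0 : ℚ) < N := by exact_mod_cast Nat.pos_of_ne_zero hN
  let V : Finset ℚ := (Finset.range (N / 2 + 1)).image (fun j : ℕ => (j : ℚ) * (2 * h) / N)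
  have hVcard : V.card ≤ N / 2 + 1 := by
    refine Finset.card_image_le.trans ?_
    rw [Finset.card_range]
  have hV : ∀ P : Submodule.torsionBy ℤ (EQ W).Point (N : ℤ),
      pcomp w e h (P : (EQ W).Point) ∈ V := by
    intro P
    have hP : N • (P : (EQ W).Point) = 0 := Fermat.Agent.Tate.mem_torsionBy_nat.mp P.2
    obtain ⟨j, hj⟩ := pcomp_torsion ND hP
    have h0 := pcomp_nonneg ND (P : (EQ W).Point)
    have h1 := pcomp_le ND (P : (EQ W).Point)
    have hh0 := ND.hh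
    have hj0 : (0 : ℚ) ≤ j := by
      by_contra hcon
      rw [not_le] at hcon
      have : (j : ℚ) * (2 * h) < 0 := by nlinarith
      nlinarith
    have hj1 : (2 * j : ℚ) ≤ N := by
      by_contra hcon
      rw [not_le] at hcon
      have : (N : ℚ) * h < 2 * j * h := by nlinarith
      nlinarith
    have hj0' : 0 ≤ j := by exact_mod_cast hj0
    have hj1' : 2 * j ≤ (N : ℤ) := by exact_mod_cast hj1
    obtain ⟨i, rfl⟩ := Int.eq_ofNat_of_zero_le hj0'
    refine Finset.mem_image.mpr ⟨i, Finset.mem_range.mpr (by omega), ?_⟩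
    rw [div_eq_iff hNQ.ne']
    have : ((i : ℤ) : ℚ) = (i : ℚ) := by norm_cast
    rw [this] at hj
    rw [← hj]; ring
  have hc : ∀ P Q : Submodule.torsionBy ℤ (EQ W).Point (N : ℤ),
      pcomp w e h (P : (EQ W).Point) = pcomp w e h (Q : (EQ W).Point) →
        P - Q ∈ E0tors W A N ∨ P + Q ∈ E0tors W A N := by
    intro P Q hPQ
    rw [mem_E0tors, mem_E0tors, mem_E0_iff_pcomp hW.prime hA hW.ne NR,
      mem_E0_iff_pcomp hW.prime hA hW.ne NR]
    exact pcomp_eq_imp ND hPQ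
  have key := card_le_of_values (E0tors W A N) (fun P => pcomp w e h (P : (EQ W).Point)) hc V hV
  rw [card_torsionBy_EQ hW.ne hN] at key
  refine key.trans ?_
  calc 2 * Nat.card (E0tors W A N) * V.card ≤ 2 * Nat.card (E0tors W A N) * (N / 2 + 1) :=
        Nat.mul_le_mul_left _ hVcard
    _ = Nat.card (E0tors W A N) * (2 * (N / 2 + 1)) := by ring
    _ ≤ Nat.card (E0tors W A N) * (N + 2) := by
        apply Nat.mul_le_mul_left
        omega

/-- `#E₀[2^n] ≥ 2^n`. -/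
theorem pow_le_card_E0tors (hW : IsMultAt W q) (hA : A.LiesOverPrime q) (n : ℕ) :
    2 ^ n ≤ Nat.card (E0tors W A (2 ^ n)) := by
  have hcard : ∀ n : ℕ, ∃ k, Nat.card (E0tors W A (2 ^ n)) = 2 ^ k := by
    intro n
    have hN0 : 2 ^ n ≠ 0 := pow_ne_zero _ two_ne_zero
    have hfin := finite_torsionBy_EQ hW.ne hN0
    have hdvd : Nat.card (E0tors W A (2 ^ n)) ∣ (2 ^ n) ^ 2 := by
      rw [← card_torsionBy_EQ hW.ne hN0]
      exact AddSubgroup.card_addSubgroup_dvd_card _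
    rw [← pow_mul] at hdvd
    obtain ⟨k, -, hk⟩ := (Nat.dvd_prime_pow Nat.prime_two).mp hdvd
    exact ⟨k, hk⟩
  -- the case `n ≥ 2`
  have hbig : ∀ n : ℕ, 2 ≤ n → 2 ^ n ≤ Nat.card (E0tors W A (2 ^ n)) := by
    intro n hn
    have h1 := sq_le_mul_card_E0tors (A := A) hW hA (N := 2 ^ n) (pow_ne_zero _ two_ne_zero)
    obtain ⟨k, hk⟩ := hcard n
    rw [hk] at h1 ⊢
    apply Nat.pow_le_pow_right two_pos
    by_contra hcon
    rw [not_le] at hcon
    have h2 : 2 ^ (k + 1) ≤ 2 ^ n := Nat.pow_le_pow_right two_pos hcon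
    have h4 : 2 ^ 2 ≤ 2 ^ n := Nat.pow_le_pow_right two_pos hn
    rw [pow_succ] at h2
    nlinarith
  match n with
  | 0 =>
    have : Nonempty (E0tors W A (2 ^ 0)) := ⟨0⟩
    have := finite_torsionBy_EQ hW.ne (N := 2 ^ 0) (by norm_num)
    exact Nat.card_pos
  | 1 =>
    -- `E₀[4]` is nontrivial, hence so is `E₀[2]`
    obtain ⟨k, hk⟩ := hcard 1
    have h4 := hbig 2 le_rfl
    have hfin4 := finite_torsionBy_EQ hW.ne (N := 2 ^ 2) (by norm_num)
    have hfin2 := finite_torsionBy_EQ hW.ne (N := 2 ^ 1) (by norm_num)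
    have hnt : 1 < Nat.card (E0tors W A (2 ^ 2)) := by omega
    rw [Finite.one_lt_card_iff_nontrivial] at hnt
    obtain ⟨x, hx⟩ := exists_ne (0 : E0tors W A (2 ^ 2))
    have hx4 : (2 ^ 2 : ℕ) • ((x : Submodule.torsionBy ℤ (EQ W).Point ((2 ^ 2 : ℕ) : ℤ)) :
        (EQ W).Point) = 0 := Fermat.Agent.Tate.mem_torsionBy_nat.mp x.1.2
    have hx0 : ((x : Submodule.torsionBy ℤ (EQ W).Point ((2 ^ 2 : ℕ) : ℤ)) :
        (EQ W).Point) ≠ 0 := by
      intro h0
      exact hx (Subtype.ext (Subtype.ext h0))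
    have hxE := mem_E0tors.mp x.2
    set P := ((x : Submodule.torsionBy ℤ (EQ W).Point ((2 ^ 2 : ℕ) : ℤ)) : (EQ W).Point) with hP
    -- a nonzero point of `E₀[2]`
    obtain ⟨Q, hQ0, hQ2, hQE⟩ : ∃ Q : (EQ W).Point, Q ≠ 0 ∧ 2 • Q = 0 ∧
        Q ∈ E0 (redEk W A) (isPlace_valuationSubring A) := by
      by_cases h2 : 2 • P = 0
      · exact ⟨P, hx0, h2, hxE⟩
      · refine ⟨2 • P, h2, ?_, AddSubgroup.nsmul_mem _ hxE 2⟩
        rw [← mul_nsmul]
        exact hx4
    have hnt2 : 1 < Nat.card (E0tors W A (2 ^ 1)) := by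
      rw [Finite.one_lt_card_iff_nontrivial]
      refine ⟨⟨⟨⟨Q, Fermat.Agent.Tate.mem_torsionBy_nat.mpr (by simpa using hQ2)⟩, hQE⟩, 0, ?_⟩⟩
      intro h0
      exact hQ0 (congrArg (fun z : E0tors W A (2 ^ 1) => ((z.1 : _) : (EQ W).Point)) h0)
    rw [hk] at hnt2 ⊢
    rcases k with _ | k
    · simp at hnt2
    · exact Nat.pow_le_pow_right two_pos (by omega)
  | n + 2 => exact hbig _ (by omega)

/-- There is a `2`-torsion point outside `E₀`. -/
theorem exists_torsion_notMem_E0 (hW : IsMultAt W q) (hA : A.LiesOverPrime q) :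
    ∃ P : (EQ W).Point, 2 • P = 0 ∧ P ∉ E0 (redEk W A) (isPlace_valuationSubring A) := by
  obtain ⟨e, D, NR⟩ := hW.exists_nodeRoot hA
  have N := NR.nodeData hW.prime hA hW.ne
  have hΔ : (EQ W).Δ ≠ 0 := by
    rw [EQ_Δ, Int.cast_ne_zero]; exact hW.ne
  set y : AlgebraicClosure ℚ := -((EQ W).a₁ * e + (EQ W).a₃) / 2 with hy
  have heq : (EQ W).Equation e y := by
    rw [Affine.equation_iff]
    have h6 := NR.h6
    simp only [WeierstrassCurve.b₂, WeierstrassCurve.b₄, WeierstrassCurve.b₆] at h6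
    have h4 : (4 : AlgebraicClosure ℚ) ≠ 0 := by norm_num
    apply mul_left_cancel₀ h4
    rw [hy]
    linear_combination -h6
  have hns : (EQ W).Nonsingular e y :=
    (Affine.equation_iff_nonsingular_of_Δ_ne_zero hΔ).mp heq
  have hneg : (EQ W).negY e y = y := by
    simp only [Affine.negY, hy]
    ring
  refine ⟨Point.some e y hns, ?_, ?_⟩
  · rw [two_nsmul]
    exact Point.add_of_Y_eq rfl hneg.symm
  · rw [mem_E0_iff_pcomp hW.prime hA hW.ne NR, pcomp_some, sub_self]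
    have h1 : (valOf hW.prime hA).comp ((valOf hW.prime hA).val D) (0 : AlgebraicClosure ℚ) =
        (valOf hW.prime hA).val D := QVal.comp_of_ge N.hh (QVal.ge_zero _)
    rw [h1]
    exact N.hh.ne'

end Fermat.Agent.LTF.WLoc
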